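import Mathlib
import Fermat.Prelude.Def_ModularCurve_ArithmeticGalois
import Fermat.Prelude.Def_AlgebraicCurve_Correspondence
import Fermat.Prelude.Def_ModularCurve_X0ModL
import Fermat.Agent.Pack.S44C.G0E1L1
import Fermat.Agent.Pack.L1.E10L0

-- ===== PACK-BEGIN Lib/Cheb/Bridge956B.lean
section


/-!
# Chebotarev bridge, part B: uniqueness of Frobenius elements away from finitely many primes

For a number field `K` we define the elementary Frobenius predicate `IsFrobAt956 σ p P`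
(`σ x ≡ x ^ p mod P` on `𝓞 K`) and show that, outside an explicit finite set of prime numbers,
a Frobenius element at a prime `P` of `𝓞 K` is unique.  No ramification theory is used.
-/

set_option autoImplicit false

namespace Fermat.Agent.Lib.Cheb

open NumberField

/-- `σ` is a Frobenius element at the prime `P` of `𝓞 K` with respect to the prime number `p`:
`σ x ≡ x ^ p mod P` for every algebraic integer `x` of `K`. -/
def IsFrobAt956 {K : Type*} [Field K] [NumberField K] (σ : K ≃ₐ[ℚ] K) (p : ℕ) (P : Ideal (𝓞 K)) : Prop :=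
  ∀ x : 𝓞 K, σ • x - x ^ p ∈ P

theorem isFrobAt956_iff {K : Type*} [Field K] [NumberField K] (σ : K ≃ₐ[ℚ] K) (p : ℕ) (P : Ideal (𝓞 K)) :
    IsFrobAt956 σ p P ↔ ∀ x : 𝓞 K, ∃ y ∈ P, σ (x : K) - (x : K) ^ p = (y : K) := by
  constructor
  · intro h x
    exact ⟨σ • x - x ^ p, h x, by simp; rfl⟩
  · intro h x
    obtain ⟨y, hy, hxy⟩ := h x
    have : σ • x - x ^ p = y := by
      apply RingOfIntegers.ext
      rw [← hxy]
      simp
      rfl
    rw [this]
    exact hy

/-- Two Frobenius elements at the same prime differ by an element acting trivially modulo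
that prime. -/
theorem IsFrobAt956.mul_inv_smul_sub_mem {K : Type*} [Field K] [NumberField K] {σ τ : K ≃ₐ[ℚ] K} {p : ℕ}
    {P : Ideal (𝓞 K)} (hσ : IsFrobAt956 σ p P) (hτ : IsFrobAt956 τ p P) (z : 𝓞 K) :
    (σ * τ⁻¹) • z - z ∈ P := by
  simpa [mul_smul] using sub_mem (hσ (τ⁻¹ • z)) (hτ (τ⁻¹ • z))

/-- A nontrivial automorphism of a number field moves some algebraic integer. -/
theorem exists_smul_ne956 {K : Type*} [Field K] [NumberField K] (g : K ≃ₐ[ℚ] K) (hg : g ≠ 1) :
    ∃ x : 𝓞 K, g • x - x ≠ 0 := by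
  by_contra hcon
  push Not at hcon
  apply hg
  ext z
  obtain ⟨a, b, hb, rfl⟩ := IsFractionRing.div_surjective (𝓞 K) z
  have ha' : g (a : K) = a := by
    have := congrArg (fun t : 𝓞 K => (t : K)) (sub_eq_zero.mp (hcon a))
    exact this
  have hb' : g (b : K) = b := by
    have := congrArg (fun t : 𝓞 K => (t : K)) (sub_eq_zero.mp (hcon b))
    exact this
  rw [map_div₀]
  show g (a : K) / g (b : K) = _
  rw [ha', hb']
  rfl

/-- Outside a finite set of prime numbers, an automorphism of a number field acting trivially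
modulo a prime of `𝓞 K` is the identity (i.e. inertia groups are trivial). -/
theorem exists_finset_inertia_trivial956 (K : Type*) [Field K] [NumberField K] :
    ∃ B : Finset ℕ, ∀ p : ℕ, p.Prime → p ∉ B → ∀ P : Ideal (𝓞 K), P.IsPrime → (p : 𝓞 K) ∈ P →
      ∀ g : K ≃ₐ[ℚ] K, (∀ z : 𝓞 K, g • z - z ∈ P) → g = 1 := by
  classical
  choose x hx using exists_smul_ne956 (K := K)
  let f : (K ≃ₐ[ℚ] K) → 𝓞 K := fun g => if h : g = 1 then 1 else g • (x g h) - x g h
  have hf : ∀ g, f g ≠ 0 := by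
    intro g
    by_cases h : g = 1
    · simp [f, h]
    · simp only [f, h, dite_false]
      exact hx g h
  let d : 𝓞 K := ∏ g : K ≃ₐ[ℚ] K, f g
  have hd : d ≠ 0 := Finset.prod_ne_zero_iff.mpr fun g _ => hf g
  let m : ℕ := Ideal.absNorm (Ideal.span {d})
  have hm : m ≠ 0 := by
    intro h
    rw [Ideal.absNorm_eq_zero_iff, Ideal.span_singleton_eq_bot] at h
    exact hd h
  refine ⟨m.primeFactors, fun p hp hpB P hP hpP g hg => ?_⟩
  by_contra hg1
  have hpm : ¬ p ∣ m := fun h => hpB (Nat.mem_primeFactors.mpr ⟨hp, h, hm⟩)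
  have hfg : f g ∈ P := by
    simp only [f, hg1, dite_false]
    exact hg _
  have hdP : d ∈ P := Ideal.mem_of_dvd P (Finset.dvd_prod_of_mem f (Finset.mem_univ g)) hfg
  have hmP : (m : 𝓞 K) ∈ P := by
    have h1 : (m : 𝓞 K) ∈ Ideal.span {d} := Ideal.absNorm_mem _
    exact (Ideal.span_singleton_le_iff_mem P |>.mpr hdP) h1
  have hcop : IsCoprime (p : ℤ) (m : ℤ) :=
    Nat.isCoprime_iff_coprime.mpr ((Nat.Prime.coprime_iff_not_dvd hp).mpr hpm)
  obtain ⟨a, b, hab⟩ := hcop
  have h1 : (1 : 𝓞 K) ∈ P := by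
    have h2 : ((a * p + b * m : ℤ) : 𝓞 K) = 1 := by rw [hab]; simp
    rw [← h2]
    push_cast
    exact P.add_mem (P.mul_mem_left _ hpP) (P.mul_mem_left _ hmP)
  exact hP.ne_top ((Ideal.eq_top_iff_one P).mpr h1)

/-- A finite set of prime numbers outside of which Frobenius elements of `K` are unique. -/
noncomputable def badPrimes956 (K : Type*) [Field K] [NumberField K] : Finset ℕ :=
  (exists_finset_inertia_trivial956 K).choose

theorem eq_one_of_smul_sub_mem956 {K : Type*} [Field K] [NumberField K] {p : ℕ} (hp : p.Prime)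
    (hpB : p ∉ badPrimes956 K) {P : Ideal (𝓞 K)} (hP : P.IsPrime) (hpP : (p : 𝓞 K) ∈ P)
    {g : K ≃ₐ[ℚ] K} (hg : ∀ z : 𝓞 K, g • z - z ∈ P) : g = 1 :=
  (exists_finset_inertia_trivial956 K).choose_spec p hp hpB P hP hpP g hg

/-- Uniqueness of Frobenius elements away from the bad primes. -/
theorem IsFrobAt956.unique {K : Type*} [Field K] [NumberField K] {p : ℕ} (hp : p.Prime)
    (hpB : p ∉ badPrimes956 K) {P : Ideal (𝓞 K)} (hP : P.IsPrime) (hpP : (p : 𝓞 K) ∈ P)
    {σ τ : K ≃ₐ[ℚ] K} (hσ : IsFrobAt956 σ p P) (hτ : IsFrobAt956 τ p P) : σ = τ := by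
  have h := eq_one_of_smul_sub_mem956 hp hpB hP hpP (g := σ * τ⁻¹)
    (fun z => hσ.mul_inv_smul_sub_mem hτ z)
  exact mul_inv_eq_one.mp h

/-- Mathlib's `IsArithFrobAt` implies the elementary Frobenius predicate. -/
theorem isFrobAt956_of_isArithFrobAt {K : Type*} [Field K] [NumberField K] {p : ℕ}
    (hp : p.Prime) {P : Ideal (𝓞 K)} (hP : P.IsPrime) (hpP : (p : 𝓞 K) ∈ P)
    {σ : K ≃ₐ[ℚ] K} (h : IsArithFrobAt ℤ σ P) : IsFrobAt956 σ p P := by
  have hunder : P.under ℤ = Ideal.span {(p : ℤ)} := by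
    have hmax : (Ideal.span {(p : ℤ)}).IsMaximal :=
      PrincipalIdealRing.isMaximal_of_irreducible (Nat.prime_iff_prime_int.mp hp).irreducible
    have hle : Ideal.span {(p : ℤ)} ≤ P.under ℤ := by
      rw [Ideal.span_le, Set.singleton_subset_iff]
      show algebraMap ℤ (𝓞 K) (p : ℤ) ∈ P
      simpa using hpP
    exact (hmax.eq_of_le (Ideal.IsPrime.under ℤ P).ne_top hle).symm
  have hcard : Nat.card (ℤ ⧸ P.under ℤ) = p := by
    rw [hunder, Nat.card_congr (Int.quotientSpanNatEquivZMod p).toEquiv, Nat.card_zmod]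
  intro x
  have := h x
  rw [hcard] at this
  exact this

end Fermat.Agent.Lib.Cheb

end
-- ===== PACK-END Lib/Cheb/Bridge956B.lean

-- ===== PACK-BEGIN S48/F1/Defs.lean
section





/-!
# S48 / RES (Tower A1) — sub-tower A1-FF: the function field of `X₁(M)` and its operators

FROZEN interface definitions (RES deputy helper168; row-lead decision D1/D2 of `coord/S48-lead.md`).
Namespace `Fermat.Agent.S48.F1`.  Definitions only + the trivial membership lemmas; no `sorry`.
Design, orientation of the operators and the list of statements: `coord/S48-F1.md`.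

## The field

For `a : ZMod M`, `a ≠ 0`, the **division value** `P_a` is the rational (even integral) `q`-series

  `P_a = Δ⁻¹ · ∑_{n ≥ 1} c_a(n) qⁿ`,  `c_a(n) = ∑_{m ∣ n, m ≡ a (M)} (n/m)^11 + ∑_{m ∣ n, m ≡ -a (M)} (n/m)^11`.

Analytically `∑ c_a(n) qⁿ = C₁₂⁻¹ · ∑_{(m, n') ∈ ℤ², m ≡ a (M)} (m z + n')⁻¹²`
(`= C₁₂⁻¹ · S29.H332.wEis (fun v => if (v 0 : ZMod M) = a then 1 else 0) 12 z`,
`C_k = (-2πi)^k / (k-1)!`): a modular form of weight `12` on `Γ₁(M)`, **no constant term**, and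
`P_a ∘ γ = P_{a · γ₀₀}` for `γ ∈ Γ₀(M)` (`wEis_slash`).  `P_a = P_{-a}`.

  `F1 M := ℚ(j(q^d) (d ∣ M), P_a (a ≠ 0)) ⊆ ℚ((q))`   (⊇ the Prelude field `modularFunctionFieldFull M`)

is the function field of `X₁(M)` in the `ℚ`-model in which the cusp `∞` and the `q`-expansion at `∞`
are rational.  All generators lie in `ℤ((q))` and are holomorphic on the upper half plane.
-/

set_option autoImplicit false

noncomputable section

open PowerSeries HahnSeries IntermediateField ModularCurve AlgebraicCurve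

namespace Fermat.Agent.S48.F1

/-! ### The division values -/

/-- `c_{a,k}(n) = ∑_{m ∣ n, m ≡ a (M)} (n/m)^(k-1) + (-1)^k ∑_{m ∣ n, m ≡ -a (M)} (n/m)^(k-1)`
(and `c_{a,k}(0) = 0`). -/
def divCoeff (M : ℕ) (a : ZMod M) (k n : ℕ) : ℤ :=
  ∑ m ∈ n.divisors,
    ((if ((m : ℕ) : ZMod M) = a then ((n / m : ℕ) : ℤ) ^ (k - 1) else 0) +
      (if ((m : ℕ) : ZMod M) = -a then (-1) ^ k * ((n / m : ℕ) : ℤ) ^ (k - 1) else 0))

/-- The `q`-expansion `∑ c_{a,k}(n) qⁿ` of the weight-`k` Eisenstein series of `Γ₁(M)` attached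
to the class `a` (sum over the lattice vectors `(m, n')` with `m ≡ a` mod `M`), normalised. -/
def divSeries (M : ℕ) (a : ZMod M) (k : ℕ) : PowerSeries ℤ :=
  PowerSeries.mk (divCoeff M a k)

@[simp]
theorem coeff_divSeries (M : ℕ) (a : ZMod M) (k n : ℕ) :
    PowerSeries.coeff n (divSeries M a k) = divCoeff M a k n := by
  simp [divSeries]

@[simp]
theorem divCoeff_zero (M : ℕ) (a : ZMod M) (k : ℕ) : divCoeff M a k 0 = 0 := by
  simp [divCoeff]

/-- `q · P_a ∈ ℤ⟦q⟧`: the numerator `∑ c_a(n) qⁿ` (weight `12`) divided by `∏ (1 - qⁿ)^24`. -/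
def divNum (M : ℕ) (a : ZMod M) : PowerSeries ℤ :=
  divSeries M a 12 * dedekindEtaUnitInv

/-- The division value `P_a = (∑ c_a(n) qⁿ) / Δ` with coefficients in any commutative ring `R`
(same shape as the Prelude `jqModC R`). -/
def divGenC (R : Type*) [CommRing R] (M : ℕ) (a : ZMod M) : LaurentSeries R :=
  HahnSeries.single (-1 : ℤ) 1 *
    HahnSeries.ofPowerSeries ℤ R ((divNum M a).map (Int.castRingHom R))

/-- The division value `P_a = (∑ c_a(n) qⁿ) / Δ ∈ ℚ((q))`. -/
def divGen (M : ℕ) (a : ZMod M) : LaurentSeries ℚ := divGenC ℚ M a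

theorem divGenC_rat (M : ℕ) (a : ZMod M) : divGenC ℚ M a = divGen M a := rfl

/-- Reduction of coefficients maps `P_a` to `P_a`. -/
theorem coeffMap_divGenC {R S : Type*} [CommRing R] [CommRing S] (f : R →+* S) (M : ℕ)
    (a : ZMod M) : coeffMap f (divGenC R M a) = divGenC S M a := by
  rw [divGenC, map_mul, coeffMap_single, map_one, coeffMap_ofPowerSeries,
    ← RingHom.comp_apply (PowerSeries.map f) (PowerSeries.map (Int.castRingHom R)),
    ← PowerSeries.map_comp, RingHom.ext_int (f.comp (Int.castRingHom R)) (Int.castRingHom S)]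
  rfl

/-- The set of division values `P_a`, `a ≠ 0`. -/
def divGens (M : ℕ) : Set (LaurentSeries ℚ) :=
  {x | ∃ a : ZMod M, a ≠ 0 ∧ x = divGen M a}

theorem divGen_mem_divGens (M : ℕ) {a : ZMod M} (ha : a ≠ 0) : divGen M a ∈ divGens M :=
  ⟨a, ha, rfl⟩

/-! ### The function field of `X₁(M)` -/

/-- The function field of `X₁(M)` over `ℚ`, inside `ℚ((q))`. -/
def F1 (M : ℕ) : IntermediateField ℚ (LaurentSeries ℚ) :=
  IntermediateField.adjoin ℚ (divisorExpansions M ∪ divGens M)

theorem jqd_mem_F1 (M : ℕ) {d : ℕ} [NeZero d] (hd : d ∣ M) : qExpand ℚ d jq ∈ F1 M :=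
  IntermediateField.subset_adjoin ℚ _ (Or.inl (mem_divisorExpansions M hd))

theorem jq_mem_F1 (M : ℕ) : jq ∈ F1 M := by
  have h := jqd_mem_F1 M (one_dvd M)
  rwa [qExpand_one_apply] at h

theorem divGen_mem_F1 (M : ℕ) {a : ZMod M} (ha : a ≠ 0) : divGen M a ∈ F1 M :=
  IntermediateField.subset_adjoin ℚ _ (Or.inr (divGen_mem_divGens M ha))

/-- The function field of `X₀(M)` (Prelude) is contained in the function field of `X₁(M)`. -/
theorem full_le_F1 (M : ℕ) : modularFunctionFieldFull M ≤ F1 M := by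
  rw [modularFunctionFieldFull, IntermediateField.adjoin_le_iff]
  exact fun x hx => IntermediateField.subset_adjoin ℚ _ (Or.inl hx)

/-- The set of division values `P_a`, `a ≠ 0`, over a field `K`. -/
def divGensC (K : Type*) [Field K] (M : ℕ) : Set (LaurentSeries K) :=
  {x | ∃ a : ZMod M, a ≠ 0 ∧ x = divGenC K M a}

/-- The analogue of `F1 M` over an arbitrary field `K` (for `K` of characteristic `p ∤ M`: the
function field of the reduction of `X₁(M)`), inside `K((q))`; cf. the Prelude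
`modularFunctionFieldFullC`. -/
def F1C (K : Type*) [Field K] (M : ℕ) : IntermediateField K (LaurentSeries K) :=
  IntermediateField.adjoin K (divisorExpansionsC K M ∪ divGensC K M)

theorem F1C_rat (M : ℕ) : F1C ℚ M = F1 M := rfl

theorem fullC_le_F1C (K : Type*) [Field K] (M : ℕ) : modularFunctionFieldFullC K M ≤ F1C K M := by
  rw [modularFunctionFieldFullC, IntermediateField.adjoin_le_iff]
  exact fun x hx => IntermediateField.subset_adjoin K _ (Or.inl hx)

theorem divGenC_mem_F1C (K : Type*) [Field K] (M : ℕ) {a : ZMod M} (ha : a ≠ 0) :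
    divGenC K M a ∈ F1C K M :=
  IntermediateField.subset_adjoin K _ (Or.inr ⟨a, ha, rfl⟩)

/-- The analogue of `F1p M p` over an arbitrary field `K`. -/
def F1pC (K : Type*) [Field K] (M p : ℕ) [NeZero p] : IntermediateField K (LaurentSeries K) :=
  F1C K M ⊔ (F1C K M).map (qExpandAlgHomC K p)

/-- The function field of `X₁(M; p)` (level `Γ₁(M) ∩ Γ₀(p)`): the compositum of `F1 M` and of its
image under `q ↦ q^p`. -/
def F1p (M p : ℕ) [NeZero p] : IntermediateField ℚ (LaurentSeries ℚ) :=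
  F1 M ⊔ (F1 M).map (qExpandₐ p)

theorem F1_le_F1p (M p : ℕ) [NeZero p] : F1 M ≤ F1p M p := le_sup_left

theorem qExpand_mem_F1p (M p : ℕ) [NeZero p] {x : LaurentSeries ℚ} (hx : x ∈ F1 M) :
    qExpand ℚ p x ∈ F1p M p :=
  (le_sup_right : (F1 M).map (qExpandₐ p) ≤ F1p M p)
    ((IntermediateField.mem_map _).2 ⟨x, hx, rfl⟩)

/-! ### Generic base change of an inclusion and of `q ↦ q^p` -/

section Generic

variable (L : Type*) [Field L] [Algebra ℚ L]
variable {F₀ F₁ : IntermediateField ℚ (LaurentSeries ℚ)}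

theorem lbc_mono (h : F₀ ≤ F₁) : laurentBaseChange L F₀ ≤ laurentBaseChange L F₁ := by
  rw [laurentBaseChange, IntermediateField.adjoin_le_iff]
  rintro x ⟨y, hy, rfl⟩
  exact coeffEmb_mem_laurentBaseChange L (h hy)

omit [Algebra ℚ L] in
theorem algebraMap_laurent_eq_single (a : L) :
    algebraMap L (LaurentSeries L) a = HahnSeries.single 0 a := by
  have h1 : algebraMap L (PowerSeries L) a = PowerSeries.C a := by simp
  rw [HahnSeries.algebraMap_apply', h1, HahnSeries.ofPowerSeries_C]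
  rfl

theorem qExpand_coeffEmb (p : ℕ) [NeZero p] (y : LaurentSeries ℚ) :
    qExpand L p (coeffEmb L y) = coeffEmb L (qExpand ℚ p y) := by
  ext k
  by_cases hk : (p : ℤ) ∣ k
  · obtain ⟨m, rfl⟩ := hk
    rw [qExpand_coeff_mul, coeffEmb_coeff, coeffEmb_coeff, qExpand_coeff_mul]
  · rw [qExpand_coeff_of_not_dvd p _ hk, coeffEmb_coeff, qExpand_coeff_of_not_dvd p _ hk,
      map_zero]

theorem qExpand_mem_lbc (p : ℕ) [NeZero p] (hF : ∀ y ∈ F₀, qExpand ℚ p y ∈ F₁)
    {x : LaurentSeries L} (hx : x ∈ laurentBaseChange L F₀) :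
    qExpand L p x ∈ laurentBaseChange L F₁ := by
  rw [mem_laurentBaseChange_iff] at hx
  induction hx using Subfield.closure_induction with
  | mem y hy =>
      rcases hy with ⟨a, rfl⟩ | ⟨z, hz, rfl⟩
      · rw [algebraMap_laurent_eq_single, qExpand_single, mul_zero,
          ← algebraMap_laurent_eq_single]
        exact (laurentBaseChange L F₁).algebraMap_mem _
      · rw [qExpand_coeffEmb]
        exact coeffEmb_mem_laurentBaseChange L (hF z hz)
  | one => simp
  | add x y _ _ hx hy => simpa using add_mem hx hy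
  | neg x _ hx => simpa using neg_mem hx
  | inv x _ hx => simpa using inv_mem hx
  | mul x y _ _ hx hy => simpa using mul_mem hx hy

/-- Base change of an inclusion `F₀ ≤ F₁`. -/
def inclBar (h : F₀ ≤ F₁) : laurentBaseChange L F₀ →ₐ[L] laurentBaseChange L F₁ :=
  IntermediateField.inclusion (lbc_mono L h)

@[simp]
theorem coe_inclBar (h : F₀ ≤ F₁) (x : laurentBaseChange L F₀) :
    (inclBar L h x : LaurentSeries L) = (x : LaurentSeries L) :=
  IntermediateField.coe_inclusion _ x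

/-- Base change of `q ↦ q^p : F₀ → F₁`. -/
def qMapBar (p : ℕ) [NeZero p] (hF : ∀ y ∈ F₀, qExpand ℚ p y ∈ F₁) :
    laurentBaseChange L F₀ →ₐ[L] laurentBaseChange L F₁ where
  toFun x := ⟨qExpand L p (x : LaurentSeries L), qExpand_mem_lbc L p hF x.2⟩
  map_one' := Subtype.ext (map_one (qExpand L p))
  map_mul' _ _ := Subtype.ext (map_mul (qExpand L p) _ _)
  map_zero' := Subtype.ext (map_zero (qExpand L p))
  map_add' _ _ := Subtype.ext (map_add (qExpand L p) _ _)
  commutes' a := Subtype.ext <| by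
    show qExpand L p (algebraMap L (LaurentSeries L) a) = algebraMap L (LaurentSeries L) a
    rw [algebraMap_laurent_eq_single, qExpand_single, mul_zero]

@[simp]
theorem coe_qMapBar (p : ℕ) [NeZero p] (hF : ∀ y ∈ F₀, qExpand ℚ p y ∈ F₁)
    (x : laurentBaseChange L F₀) :
    (qMapBar L p hF x : LaurentSeries L) = qExpand L p (x : LaurentSeries L) :=
  rfl

end Generic

/-! ### Generic correspondence operator on `Pic⁰` (Prelude pattern `heckeOperatorAlong`) -/

section Corr

variable {K F F' : Type*} [Field K] [Field F] [Field F'] [Algebra K F] [Algebra K F']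

/-- The inputs needed to define `ψ_* ∘ φ^*` on `Pic⁰` (same list as the Prelude
`HeckeInputsAlong`, for an arbitrary pair `φ ψ : F →ₐ[K] F'`). -/
def CorrInputs (φ ψ : F →ₐ[K] F') : Prop :=
  ∃ (hφ : φ.toRingHom.IsIntegral) (_ : ψ.toRingHom.IsIntegral)
    (_ : HasPrincipalDivisors K F') (hfin : FiniteAlong K ψ),
    FundamentalIdentityAlong K φ hφ ∧ NormFormulaAlong K ψ hfin

open Classical in
/-- `ψ_* ∘ φ^* : Pic⁰ F → Pic⁰ F` (and `0` if the inputs fail, as in the Prelude). -/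
def corrOp (φ ψ : F →ₐ[K] F') : Pic0 K F →+ Pic0 K F :=
  if h : CorrInputs φ ψ then
    haveI := h.snd.snd.fst
    Pic0.correspondence φ ψ h.fst h.snd.fst h.snd.snd.snd.snd.1 h.snd.snd.snd.fst
      h.snd.snd.snd.snd.2
  else 0

theorem corrOp_eq (φ ψ : F →ₐ[K] F') (hφ : φ.toRingHom.IsIntegral)
    (hψ : ψ.toRingHom.IsIntegral) [hP : HasPrincipalDivisors K F']
    (hFI : FundamentalIdentityAlong K φ hφ) (hfin : FiniteAlong K ψ)
    (hN : NormFormulaAlong K ψ hfin) :
    corrOp φ ψ = Pic0.correspondence φ ψ hφ hψ hFI hfin hN := by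
  have h : CorrInputs φ ψ := ⟨hφ, hψ, hP, hfin, hFI, hN⟩
  rw [corrOp, dif_pos h]

end Corr

/-! ### `J₁(M)`, Hecke and diamond operators -/

section Operators

variable (L : Type*) [Field L] [Algebra ℚ L] (M : ℕ)

/-- `L · F1 M ⊆ L((q))`. -/
abbrev F1L : IntermediateField L (LaurentSeries L) := laurentBaseChange L (F1 M)

/-- `L · F1p M p ⊆ L((q))`. -/
abbrev F1pL (p : ℕ) [NeZero p] : IntermediateField L (LaurentSeries L) :=
  laurentBaseChange L (F1p M p)

/-- `α`: the inclusion `L·F1(M) → L·F1(M; p)` (the degeneracy map `z ↦ z`). -/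
def alpha1 (p : ℕ) [NeZero p] : F1L L M →ₐ[L] F1pL L M p :=
  inclBar L (F1_le_F1p M p)

/-- `β`: `q ↦ q^p : L·F1(M) → L·F1(M; p)` (the degeneracy map `z ↦ p z`). -/
def beta1 (p : ℕ) [NeZero p] : F1L L M →ₐ[L] F1pL L M p :=
  qMapBar L p (fun _ hy => qExpand_mem_F1p M p hy)

@[simp]
theorem coe_alpha1 (p : ℕ) [NeZero p] (x : F1L L M) :
    (alpha1 L M p x : LaurentSeries L) = (x : LaurentSeries L) :=
  coe_inclBar L _ x

@[simp]
theorem coe_beta1 (p : ℕ) [NeZero p] (x : F1L L M) :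
    (beta1 L M p x : LaurentSeries L) = qExpand L p (x : LaurentSeries L) :=
  rfl

/-- The Hecke correspondence `T_p = α_* ∘ β^*` on `Pic⁰(L·F1(M))` (on points of `Γ₁(M)\ℍ`:
`[z] ↦ ∑_b [(z + b)/p] + ⟨p⟩[p z]`). -/
def heckeL (p : ℕ) [NeZero p] : Pic0 L (F1L L M) →+ Pic0 L (F1L L M) :=
  corrOp (beta1 L M p) (alpha1 L M p)

/-- The transposed Hecke correspondence `T_p^t = β_* ∘ α^*` (`= ⟨p⟩⁻¹ T_p`). -/
def heckeTL (p : ℕ) [NeZero p] : Pic0 L (F1L L M) →+ Pic0 L (F1L L M) :=
  corrOp (alpha1 L M p) (beta1 L M p)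

/-- `σ` is the diamond automorphism `δ_d` of `L·F1(M)`: it fixes the function field of `X₀(M)` and
maps `P_a` to `P_{d a}`.  (Analytically `δ_d f = f ∘ γ`, `γ ∈ Γ₀(M)` with `γ₀₀ ≡ d` mod `M`.) -/
def IsDiamond (d : (ZMod M)ˣ) (σ : F1L L M ≃ₐ[L] F1L L M) : Prop :=
  (∀ x : F1L L M, (x : LaurentSeries L) ∈ laurentBaseChange L (modularFunctionFieldFull M) →
      σ x = x) ∧
    ∀ (a : ZMod M) (x y : F1L L M), a ≠ 0 →
      (x : LaurentSeries L) = coeffEmb L (divGen M a) →
      (y : LaurentSeries L) = coeffEmb L (divGen M ((d : ZMod M) * a)) → σ x = y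

open Classical in
/-- The diamond automorphism `δ_d : P_a ↦ P_{d a}` of `L·F1(M)` (the identity if it does not
exist; it is unique, see `coord/S48-F1.md`). -/
def diamondAut (d : (ZMod M)ˣ) : F1L L M ≃ₐ[L] F1L L M :=
  if h : ∃ σ : F1L L M ≃ₐ[L] F1L L M, IsDiamond L M d σ then h.choose else AlgEquiv.refl

theorem isDiamond_diamondAut (d : (ZMod M)ˣ)
    (h : ∃ σ : F1L L M ≃ₐ[L] F1L L M, IsDiamond L M d σ) :
    IsDiamond L M d (diamondAut L M d) := by
  rw [diamondAut, dif_pos h]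
  exact h.choose_spec

/-- The diamond operator `⟨d⟩` on `Pic⁰(L·F1(M))`: the action of `δ_d` (on points of `Γ₁(M)\ℍ`:
`[z] ↦ [γ z]`, `γ ∈ Γ₀(M)` with `γ₁₁ ≡ d` mod `M`). -/
def diamondL (d : (ZMod M)ˣ) : Pic0 L (F1L L M) →+ Pic0 L (F1L L M) :=
  DistribSMul.toAddMonoidHom (Pic0 L (F1L L M)) (SemilinearAut.ofAlgAut (diamondAut L M d))

theorem diamondL_apply (d : (ZMod M)ˣ) (x : Pic0 L (F1L L M)) :
    diamondL L M d x = SemilinearAut.ofAlgAut (diamondAut L M d) • x :=
  rfl

end Operators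

section Bar

variable (M : ℕ)

/-- `ℚ̄ · F1 M`, the function field of `X₁(M)` over `ℚ̄`. -/
abbrev F1Bar : IntermediateField (AlgebraicClosure ℚ) (LaurentSeries (AlgebraicClosure ℚ)) :=
  F1L (AlgebraicClosure ℚ) M

/-- `J₁(M)(ℚ̄) = Pic⁰` of the function field of `X₁(M)` over `ℚ̄`, with the Prelude's
(coefficientwise) Galois action. -/
abbrev J1 : Type _ := Pic0 (AlgebraicClosure ℚ) (F1Bar M)

example : DistribMulAction (AlgebraicClosure ℚ ≃ₐ[ℚ] AlgebraicClosure ℚ) (J1 M) := inferInstance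

/-- `T_p = α_* β^*` on `J₁(M)` as a `ℤ`-linear map (`0` for `p = 0`). -/
def hecke1 (p : ℕ) : Module.End ℤ (J1 M) :=
  if h : p = 0 then 0 else
    haveI : NeZero p := ⟨h⟩
    (heckeL (AlgebraicClosure ℚ) M p).toIntLinearMap

theorem hecke1_eq (p : ℕ) [NeZero p] :
    hecke1 M p = (heckeL (AlgebraicClosure ℚ) M p).toIntLinearMap := by
  rw [hecke1, dif_neg (NeZero.ne p)]

/-- `T_p^t = β_* α^*` on `J₁(M)` as a `ℤ`-linear map (`0` for `p = 0`). -/
def hecke1T (p : ℕ) : Module.End ℤ (J1 M) :=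
  if h : p = 0 then 0 else
    haveI : NeZero p := ⟨h⟩
    (heckeTL (AlgebraicClosure ℚ) M p).toIntLinearMap

theorem hecke1T_eq (p : ℕ) [NeZero p] :
    hecke1T M p = (heckeTL (AlgebraicClosure ℚ) M p).toIntLinearMap := by
  rw [hecke1T, dif_neg (NeZero.ne p)]

/-- `⟨d⟩` on `J₁(M)` as a `ℤ`-linear map. -/
def diamond1 (d : (ZMod M)ˣ) : Module.End ℤ (J1 M) :=
  (diamondL (AlgebraicClosure ℚ) M d).toIntLinearMap

theorem diamond1_apply (d : (ZMod M)ˣ) (x : J1 M) :
    diamond1 M d x = SemilinearAut.ofAlgAut (diamondAut (AlgebraicClosure ℚ) M d) • x :=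
  rfl

/-- `⟨d⟩⁻¹` on `J₁(M)` as a `ℤ`-linear map. -/
def diamond1Inv (d : (ZMod M)ˣ) : Module.End ℤ (J1 M) :=
  (DistribSMul.toAddMonoidHom (J1 M)
    (SemilinearAut.ofAlgAut (diamondAut (AlgebraicClosure ℚ) M d))⁻¹).toIntLinearMap

theorem diamond1Inv_apply (d : (ZMod M)ˣ) (x : J1 M) :
    diamond1Inv M d x = (SemilinearAut.ofAlgAut (diamondAut (AlgebraicClosure ℚ) M d))⁻¹ • x :=
  rfl

@[simp]
theorem diamond1Inv_diamond1 (d : (ZMod M)ˣ) (x : J1 M) :
    diamond1Inv M d (diamond1 M d x) = x := by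
  rw [diamond1Inv_apply, diamond1_apply, inv_smul_smul]

@[simp]
theorem diamond1_diamond1Inv (d : (ZMod M)ˣ) (x : J1 M) :
    diamond1 M d (diamond1Inv M d x) = x := by
  rw [diamond1Inv_apply, diamond1_apply, smul_inv_smul]

/-- The unit of `ZMod M` attached to an integer prime to `M` (and `1` otherwise). -/
def unitOf (n : ℕ) : (ZMod M)ˣ :=
  if h : Nat.Coprime n M then ZMod.unitOfCoprime n h else 1

theorem coe_unitOf {n : ℕ} (h : Nat.Coprime n M) : ((unitOf M n : (ZMod M)ˣ) : ZMod M) = n := by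
  rw [unitOf, dif_pos h, ZMod.coe_unitOfCoprime]

/-- The `m`-torsion of `J₁(M)`. -/
abbrev J1tors (m : ℕ) : Submodule ℤ (J1 M) := Submodule.torsionBy ℤ (J1 M) (m : ℤ)

end Bar

end Fermat.Agent.S48.F1

end
end
-- ===== PACK-END S48/F1/Defs.lean

-- ===== PACK-BEGIN S48/H76/PDist.lean
section


/-!
# S48 / Tower A1, piece A1-FF (helper76): leading terms and distinctness of the division values

For `a ≠ 0` in `ZMod M` put `a₀ = lead M a = min(a.val, (-a).val)`.  Then (weight `k` even)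

* `divCoeff_eq_zero_of_lt : n < a₀ → F1.divCoeff M a k n = 0`;
* `divCoeff_lead : F1.divCoeff M a k a₀ = if a = -a then 2 else 1`;
* `coeff_divGenC_of_lt`, `coeff_divGenC_lead`: `P_a = ε q^{a₀ - 1} + …`, `ε ∈ {1, 2}`;
* `divGenC_eq_iff`: `P_a = P_b ↔ a = b ∨ a = -b` (over any ring in which the leading coefficients
  are non-zero, e.g. `2 ≠ 0` or `M` odd);
* `divGen_neg : P_{-a} = P_a`.

Pure `q`-series combinatorics (imports `F1/Defs` only).
-/

set_option autoImplicit false

open HahnSeries ModularCurve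

noncomputable section

namespace Fermat.Agent.S48.H76

open Fermat.Agent.S48

/-- `a₀ = min(a.val, (-a).val)`: the order of `∑ c_a(n) qⁿ`. -/
def lead (M : ℕ) (a : ZMod M) : ℕ := min a.val (-a).val

theorem lead_neg (M : ℕ) (a : ZMod M) : lead M (-a) = lead M a := by
  simp [lead, min_comm]

theorem lead_pos (M : ℕ) [NeZero M] {a : ZMod M} (ha : a ≠ 0) : 0 < lead M a := by
  have h1 : a.val ≠ 0 := fun h => ha ((ZMod.val_eq_zero a).mp h)
  have h2 : (-a).val ≠ 0 := fun h => ha (neg_eq_zero.mp ((ZMod.val_eq_zero (-a)).mp h))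
  unfold lead
  exact lt_min (Nat.pos_of_ne_zero h1) (Nat.pos_of_ne_zero h2)

theorem val_le_of_natCast_eq (M : ℕ) [NeZero M] {m : ℕ} {a : ZMod M} (h : (m : ZMod M) = a) :
    a.val ≤ m := by
  rw [← h, ZMod.val_natCast]
  exact Nat.mod_le m M

theorem lead_le_of_natCast_eq (M : ℕ) [NeZero M] {m : ℕ} {a : ZMod M} (h : (m : ZMod M) = a) :
    lead M a ≤ m :=
  (min_le_left _ _).trans (val_le_of_natCast_eq M h)

theorem lead_le_of_natCast_eq_neg (M : ℕ) [NeZero M] {m : ℕ} {a : ZMod M}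
    (h : (m : ZMod M) = -a) : lead M a ≤ m :=
  (min_le_right _ _).trans (val_le_of_natCast_eq M h)

theorem natCast_lead (M : ℕ) [NeZero M] (a : ZMod M) :
    ((lead M a : ℕ) : ZMod M) = a ∨ ((lead M a : ℕ) : ZMod M) = -a := by
  unfold lead
  rcases min_choice a.val (-a).val with h | h
  · left
    rw [h, ZMod.natCast_zmod_val]
  · right
    rw [h, ZMod.natCast_zmod_val]

/-- `c_a(n) = 0` for `n < a₀`. -/
theorem divCoeff_eq_zero_of_lt (M : ℕ) [NeZero M] (a : ZMod M) (k : ℕ) {n : ℕ}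
    (hn : n < lead M a) : F1.divCoeff M a k n = 0 := by
  unfold F1.divCoeff
  refine Finset.sum_eq_zero fun m hm => ?_
  have hmn : m ≤ n := Nat.divisor_le hm
  have h1 : ¬ ((m : ℕ) : ZMod M) = a := fun h =>
    absurd (lead_le_of_natCast_eq M h) (by omega)
  have h2 : ¬ ((m : ℕ) : ZMod M) = -a := fun h =>
    absurd (lead_le_of_natCast_eq_neg M h) (by omega)
  rw [if_neg h1, if_neg h2, add_zero]

/-- The leading coefficient: `c_a(a₀) = 1`, or `2` if `2a = 0` (weight `k` even). -/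
theorem divCoeff_lead (M : ℕ) [NeZero M] {a : ZMod M} (ha : a ≠ 0) {k : ℕ} (hk : Even k) :
    F1.divCoeff M a k (lead M a) = if a = -a then 2 else 1 := by
  have hpos := lead_pos M ha
  unfold F1.divCoeff
  rw [Finset.sum_eq_single (lead M a)]
  · rw [Nat.div_self hpos, Nat.cast_one, one_pow, hk.neg_one_pow, mul_one]
    by_cases haa : a = -a
    · rw [if_pos haa]
      have h := natCast_lead M a
      have h1 : ((lead M a : ℕ) : ZMod M) = a := by
        rcases h with h | h
        · exact h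
        · rw [h, ← haa]
      have h2 : ((lead M a : ℕ) : ZMod M) = -a := by rw [h1]; exact haa
      rw [if_pos h1, if_pos h2]
      norm_num
    · rw [if_neg haa]
      rcases natCast_lead M a with h | h
      · have h2 : ¬ ((lead M a : ℕ) : ZMod M) = -a := fun h2 => haa (h.symm.trans h2)
        rw [if_pos h, if_neg h2, add_zero]
      · have h2 : ¬ ((lead M a : ℕ) : ZMod M) = a := fun h2 => haa (h2.symm.trans h)
        rw [if_neg h2, if_pos h, zero_add]
  · intro m hm hne
    have hmn : m ≤ lead M a := Nat.divisor_le hm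
    have hlt : m < lead M a := lt_of_le_of_ne hmn hne
    have h1 : ¬ ((m : ℕ) : ZMod M) = a := fun h =>
      absurd (lead_le_of_natCast_eq M h) (by omega)
    have h2 : ¬ ((m : ℕ) : ZMod M) = -a := fun h =>
      absurd (lead_le_of_natCast_eq_neg M h) (by omega)
    rw [if_neg h1, if_neg h2, add_zero]
  · intro h
    exact absurd (Nat.mem_divisors_self _ (Nat.pos_iff_ne_zero.mp hpos)) h

theorem divCoeff_lead_pos (M : ℕ) [NeZero M] {a : ZMod M} (ha : a ≠ 0) {k : ℕ} (hk : Even k) :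
    0 < F1.divCoeff M a k (lead M a) := by
  rw [divCoeff_lead M ha hk]
  split_ifs <;> norm_num

/-- `c_{-a} = c_a` in even weight. -/
theorem divCoeff_neg (M : ℕ) (a : ZMod M) {k : ℕ} (hk : Even k) (n : ℕ) :
    F1.divCoeff M (-a) k n = F1.divCoeff M a k n := by
  unfold F1.divCoeff
  refine Finset.sum_congr rfl fun m _ => ?_
  rw [neg_neg, hk.neg_one_pow, one_mul, add_comm]

theorem divSeries_neg (M : ℕ) (a : ZMod M) {k : ℕ} (hk : Even k) :
    F1.divSeries M (-a) k = F1.divSeries M a k := by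
  ext n
  rw [F1.coeff_divSeries, F1.coeff_divSeries, divCoeff_neg M a hk]

/-- `P_{-a} = P_a`. -/
theorem divGenC_neg (R : Type*) [CommRing R] (M : ℕ) (a : ZMod M) :
    F1.divGenC R M (-a) = F1.divGenC R M a := by
  unfold F1.divGenC F1.divNum
  rw [divSeries_neg M a (by decide)]

theorem divGen_neg (M : ℕ) (a : ZMod M) : F1.divGen M (-a) = F1.divGen M a :=
  divGenC_neg ℚ M a

/-! ### Coefficients of `q · P_a` -/

theorem coeff_divNum_of_lt (M : ℕ) [NeZero M] (a : ZMod M) {n : ℕ} (hn : n < lead M a) :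
    PowerSeries.coeff n (F1.divNum M a) = 0 := by
  unfold F1.divNum
  rw [PowerSeries.coeff_mul]
  refine Finset.sum_eq_zero fun x hx => ?_
  have hsum : x.1 + x.2 = n := Finset.HasAntidiagonal.mem_antidiagonal.mp hx
  have hx' : x.1 ≤ n := by omega
  rw [F1.coeff_divSeries, divCoeff_eq_zero_of_lt M a 12 (lt_of_le_of_lt hx' hn), zero_mul]

theorem coeff_divNum_lead (M : ℕ) [NeZero M] (a : ZMod M) :
    PowerSeries.coeff (lead M a) (F1.divNum M a) = F1.divCoeff M a 12 (lead M a) := by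
  unfold F1.divNum
  rw [PowerSeries.coeff_mul, Finset.sum_eq_single (lead M a, 0)]
  · rw [F1.coeff_divSeries, PowerSeries.coeff_zero_eq_constantCoeff_apply,
      constantCoeff_dedekindEtaUnitInv, mul_one]
  · intro x hx hne
    have hsum : x.1 + x.2 = lead M a := Finset.HasAntidiagonal.mem_antidiagonal.mp hx
    have hlt : x.1 < lead M a := by
      rcases Nat.lt_or_ge x.1 (lead M a) with h | h
      · exact h
      · exfalso
        apply hne
        have h1 : x.1 = lead M a := by omega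
        have h2 : x.2 = 0 := by omega
        exact Prod.ext h1 h2
    rw [F1.coeff_divSeries, divCoeff_eq_zero_of_lt M a 12 hlt, zero_mul]
  · intro h
    exact absurd (Finset.HasAntidiagonal.mem_antidiagonal.mpr (add_zero _)) h

/-- `P_a = ∑_{n ≥ 0} (coefficient `n` of `q P_a`) q^{n-1}`. -/
theorem coeff_divGenC (R : Type*) [CommRing R] (M : ℕ) (a : ZMod M) (n : ℕ) :
    (F1.divGenC R M a).coeff ((n : ℤ) - 1) =
      ((PowerSeries.coeff n (F1.divNum M a) : ℤ) : R) := by
  unfold F1.divGenC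
  rw [HahnSeries.coeff_single_mul, one_mul,
    show ((n : ℤ) - 1 - -1) = (n : ℤ) by ring, HahnSeries.ofPowerSeries_apply_coeff,
    PowerSeries.coeff_map]
  rfl

theorem coeff_divGenC_of_lt (R : Type*) [CommRing R] (M : ℕ) [NeZero M] (a : ZMod M) {n : ℕ}
    (hn : n < lead M a) : (F1.divGenC R M a).coeff ((n : ℤ) - 1) = 0 := by
  rw [coeff_divGenC, coeff_divNum_of_lt M a hn, Int.cast_zero]

/-- The leading coefficient of `P_a` (at `q^{a₀ - 1}`) is `1`, or `2` if `2a = 0`. -/
theorem coeff_divGenC_lead (R : Type*) [CommRing R] (M : ℕ) [NeZero M] {a : ZMod M}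
    (ha : a ≠ 0) :
    (F1.divGenC R M a).coeff ((lead M a : ℤ) - 1) = if a = -a then 2 else 1 := by
  rw [coeff_divGenC, coeff_divNum_lead, divCoeff_lead M ha (by decide)]
  split_ifs <;> simp

/-- The condition under which the leading coefficients of all `P_a` are non-zero in `R`. -/
def LeadOK (R : Type*) [CommRing R] (M : ℕ) : Prop :=
  (1 : R) ≠ 0 ∧ ((2 : R) ≠ 0 ∨ Odd M)

theorem leadOK_of_charZero (R : Type*) [CommRing R] [CharZero R] (M : ℕ) : LeadOK R M :=
  ⟨one_ne_zero, Or.inl two_ne_zero⟩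

theorem ne_neg_of_odd (M : ℕ) [NeZero M] (hM : Odd M) {a : ZMod M} (ha : a ≠ 0) : a ≠ -a := by
  intro h
  have h2 : (2 : ZMod M) * a = 0 := by
    rw [two_mul]
    nth_rewrite 1 [h]
    exact neg_add_cancel a
  have hu : IsUnit (((2 : ℕ) : ZMod M)) :=
    (ZMod.isUnit_iff_coprime 2 M).mpr (Nat.coprime_two_left.mpr hM)
  rw [Nat.cast_ofNat] at hu
  exact ha ((hu.mul_right_eq_zero).mp h2)

theorem leadOK_of_odd (R : Type*) [CommRing R] [Nontrivial R] {M : ℕ} (hM : Odd M) :
    LeadOK R M :=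
  ⟨one_ne_zero, Or.inr hM⟩

theorem coeff_divGenC_lead_ne_zero (R : Type*) [CommRing R] (M : ℕ) [NeZero M]
    (hR : LeadOK R M) {a : ZMod M} (ha : a ≠ 0) :
    (F1.divGenC R M a).coeff ((lead M a : ℤ) - 1) ≠ 0 := by
  rw [coeff_divGenC_lead R M ha]
  by_cases haa : a = -a
  · rw [if_pos haa]
    rcases hR.2 with h | h
    · exact h
    · exact absurd haa (ne_neg_of_odd M h ha)
  · rw [if_neg haa]
    exact hR.1

theorem divGenC_ne_zero (R : Type*) [CommRing R] (M : ℕ) [NeZero M]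
    (hR : LeadOK R M) {a : ZMod M} (ha : a ≠ 0) : F1.divGenC R M a ≠ 0 := by
  intro h
  have h1 := coeff_divGenC_lead_ne_zero R M hR ha
  rw [h] at h1
  exact h1 rfl

theorem ofPowerSeries_coeff_of_neg (R : Type*) [CommRing R] (f : PowerSeries R) {z : ℤ}
    (hz : z < 0) : (HahnSeries.ofPowerSeries ℤ R f).coeff z = 0 := by
  rw [HahnSeries.ofPowerSeries_apply]
  apply HahnSeries.embDomain_of_notMem_range
  rintro ⟨n, hn⟩
  have hn' : (n : ℤ) = z := hn
  omega

/-- all coefficients of `P_a` below `q^{a₀ - 1}` vanish -/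
theorem coeff_divGenC_of_lt_int (R : Type*) [CommRing R] (M : ℕ) [NeZero M] (a : ZMod M)
    {z : ℤ} (hz : z < (lead M a : ℤ) - 1) : (F1.divGenC R M a).coeff z = 0 := by
  rcases lt_or_ge z (-1) with h | h
  · unfold F1.divGenC
    rw [HahnSeries.coeff_single_mul, one_mul]
    exact ofPowerSeries_coeff_of_neg R _ (by omega)
  · obtain ⟨n, hn⟩ : ∃ n : ℕ, z = (n : ℤ) - 1 := ⟨(z + 1).toNat, by omega⟩
    rw [hn]
    exact coeff_divGenC_of_lt R M a (by omega)

/-- **The order of `P_a` is `a₀ - 1`.** -/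
theorem order_divGenC (R : Type*) [CommRing R] (M : ℕ) [NeZero M]
    (hR : LeadOK R M) {a : ZMod M} (ha : a ≠ 0) :
    (F1.divGenC R M a).order = (lead M a : ℤ) - 1 := by
  refine le_antisymm (HahnSeries.order_le_of_coeff_ne_zero
    (coeff_divGenC_lead_ne_zero R M hR ha)) ?_
  by_contra hlt
  rw [not_le] at hlt
  exact divGenC_ne_zero R M hR ha
    (HahnSeries.coeff_order_eq_zero.mp (coeff_divGenC_of_lt_int R M a hlt))

theorem lead_eq_of_divGenC_eq (R : Type*) [CommRing R] (M : ℕ) [NeZero M]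
    (hR : LeadOK R M) {a b : ZMod M} (ha : a ≠ 0) (hb : b ≠ 0)
    (h : F1.divGenC R M a = F1.divGenC R M b) : lead M a = lead M b := by
  have h1 := order_divGenC R M hR ha
  rw [h, order_divGenC R M hR hb] at h1
  omega

theorem eq_or_eq_neg_of_lead_eq (M : ℕ) [NeZero M] {a b : ZMod M}
    (h : lead M a = lead M b) : a = b ∨ a = -b := by
  unfold lead at h
  rcases min_choice a.val (-a).val with h1 | h1 <;>
    rcases min_choice b.val (-b).val with h2 | h2 <;> rw [h1, h2] at h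
  · exact Or.inl (ZMod.val_injective M h)
  · exact Or.inr (ZMod.val_injective M h)
  · exact Or.inr (neg_eq_iff_eq_neg.mp (ZMod.val_injective M h))
  · exact Or.inl (neg_injective (ZMod.val_injective M h))

/-- **Distinctness of the division values**: `P_a = P_b ↔ a = ± b`. -/
theorem divGenC_eq_iff (R : Type*) [CommRing R] (M : ℕ) [NeZero M]
    (hR : LeadOK R M) {a b : ZMod M} (ha : a ≠ 0) (hb : b ≠ 0) :
    F1.divGenC R M a = F1.divGenC R M b ↔ a = b ∨ a = -b := by
  constructor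
  · intro h
    exact eq_or_eq_neg_of_lead_eq M (lead_eq_of_divGenC_eq R M hR ha hb h)
  · rintro (h | h)
    · rw [h]
    · rw [h, divGenC_neg]

theorem divGen_eq_iff (M : ℕ) [NeZero M] {a b : ZMod M} (ha : a ≠ 0) (hb : b ≠ 0) :
    F1.divGen M a = F1.divGen M b ↔ a = b ∨ a = -b :=
  divGenC_eq_iff ℚ M (leadOK_of_charZero ℚ M) ha hb

end Fermat.Agent.S48.H76

end
end
-- ===== PACK-END S48/H76/PDist.lean

-- ===== PACK-BEGIN S18/H94/Dvr.lean
section


/-!
# S18 / node_alg (helper94): a subring with a uniformiser is a DVR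

(Proof by helper438, `H438/Front/Dvr.lean` on origin/helper438; copied here under the namespace
`Fermat.Agent.S18.H94` with renamed declarations, because the original is not on main.)

`A : Subring K` (`K` a field), `w ∈ A`, `w ≠ 0`, `w⁻¹ ∉ A`, every nonzero element of `A` is
`w ^ n * unit`.  Then `A` is a discrete valuation ring with uniformiser `w`.
-/

set_option autoImplicit false
set_option linter.unusedSectionVars false

noncomputable section

namespace Fermat.Agent.S18.H94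

variable {K : Type*} [Field K] (A : Subring K) {w : K}

/-- units of a subring of a field, elementwise -/
theorem isUnit_subring_iff94 {a : A} : IsUnit a ↔ (a : K) ≠ 0 ∧ (a : K)⁻¹ ∈ A := by
  constructor
  · rintro ⟨⟨u, v, huv, hvu⟩, rfl⟩
    have h1 : (u : K) * (v : K) = 1 := congrArg Subtype.val huv
    have hu0 : (u : K) ≠ 0 := left_ne_zero_of_mul_eq_one h1
    refine ⟨hu0, ?_⟩
    have : (u : K)⁻¹ = (v : K) := (eq_inv_of_mul_eq_one_right h1).symm
    rw [show ((⟨u, v, huv, hvu⟩ : Aˣ) : A) = u from rfl, this]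
    exact v.2
  · rintro ⟨h0, hinv⟩
    refine ⟨⟨a, ⟨(a : K)⁻¹, hinv⟩, Subtype.ext ?_, Subtype.ext ?_⟩, rfl⟩
    · show (a : K) * (a : K)⁻¹ = 1
      exact mul_inv_cancel₀ h0
    · show (a : K)⁻¹ * (a : K) = 1
      exact inv_mul_cancel₀ h0

variable (hwA : w ∈ A) (hw0 : w ≠ 0) (hwinv : w⁻¹ ∉ A)
  (hdisc : ∀ r ∈ A, r ≠ 0 → ∃ n : ℕ, r * (w⁻¹) ^ n ∈ A ∧ (r * (w⁻¹) ^ n)⁻¹ ∈ A)

include hwA hw0 hwinv hdisc

/-- `w` is irreducible in `A`. -/
theorem irreducible_unif_of_disc94 : Irreducible (⟨w, hwA⟩ : A) := by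
  have hnu : ¬ IsUnit (⟨w, hwA⟩ : A) := fun h => hwinv ((isUnit_subring_iff94 A).1 h).2
  refine ⟨hnu, ?_⟩
  intro a b hab
  have habK : w = (a : K) * (b : K) := congrArg Subtype.val hab
  have ha0 : (a : K) ≠ 0 := fun h => hw0 (by rw [habK, h, zero_mul])
  have hb0 : (b : K) ≠ 0 := fun h => hw0 (by rw [habK, h, mul_zero])
  obtain ⟨n, hn1, hn2⟩ := hdisc a a.2 ha0
  obtain ⟨m, hm1, hm2⟩ := hdisc b b.2 hb0
  -- `w = w^(n+m) * unit`
  have hprod : ((a : K) * (w⁻¹) ^ n) * ((b : K) * (w⁻¹) ^ m) = w * (w⁻¹) ^ (n + m) := by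
    rw [habK, pow_add]; ring
  have hunit : w * (w⁻¹) ^ (n + m) ∈ A ∧ (w * (w⁻¹) ^ (n + m))⁻¹ ∈ A := by
    rw [← hprod]
    refine ⟨A.mul_mem hn1 hm1, ?_⟩
    rw [mul_inv]
    exact A.mul_mem hn2 hm2
  -- so `n + m = 1`
  have hnm : n + m = 1 := by
    rcases Nat.lt_or_ge (n + m) 1 with h | h
    · -- `n + m = 0`: `w` would be a unit
      have h0 : n + m = 0 := by omega
      rw [h0, pow_zero, mul_one] at hunit
      exact absurd hunit.2 hwinv
    · rcases Nat.eq_or_lt_of_le h with h1 | h1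
      · exact h1.symm
      · -- `n + m ≥ 2`: `w⁻¹ = (w * w^-(n+m)) * w^(n+m-2) ∈ A`
        exfalso
        obtain ⟨k, hk⟩ : ∃ k, n + m = k + 2 := ⟨n + m - 2, by omega⟩
        have : w⁻¹ = (w * (w⁻¹) ^ (n + m)) * w ^ k := by
          rw [hk, pow_add, inv_pow, inv_pow]
          field_simp
        apply hwinv
        rw [this]
        exact A.mul_mem hunit.1 (A.pow_mem hwA k)
  rcases Nat.eq_zero_or_pos n with hn | hn
  · left
    rw [isUnit_subring_iff94]
    refine ⟨ha0, ?_⟩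
    rw [hn, pow_zero, mul_one] at hn2
    exact hn2
  · right
    have hm : m = 0 := by omega
    rw [isUnit_subring_iff94]
    refine ⟨hb0, ?_⟩
    rw [hm, pow_zero, mul_one] at hm2
    exact hm2

/-- **`A` is a discrete valuation ring.** -/
theorem isDiscreteValuationRing_of_disc94 : IsDiscreteValuationRing A := by
  refine IsDiscreteValuationRing.ofHasUnitMulPowIrreducibleFactorization
    ⟨⟨w, hwA⟩, irreducible_unif_of_disc94 A hwA hw0 hwinv hdisc, ?_⟩
  intro r hr
  have hr0 : (r : K) ≠ 0 := fun h => hr (Subtype.ext h)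
  obtain ⟨n, hn1, hn2⟩ := hdisc r r.2 hr0
  refine ⟨n, ?_⟩
  have hu : IsUnit (⟨(r : K) * (w⁻¹) ^ n, hn1⟩ : A) := by
    rw [isUnit_subring_iff94]
    refine ⟨mul_ne_zero hr0 (pow_ne_zero n (inv_ne_zero hw0)), hn2⟩
  obtain ⟨u, hu'⟩ := hu
  refine ⟨u, Subtype.ext ?_⟩
  rw [hu']
  show w ^ n * ((r : K) * (w⁻¹) ^ n) = r
  rw [inv_pow]
  field_simp

end Fermat.Agent.S18.H94

end
end
-- ===== PACK-END S18/H94/Dvr.lean

-- ===== PACK-BEGIN S48/F1/Basic.lean
section




/-!
# S48 / RES (Tower A1) — A1-FF: formal properties of `J₁(M)` and its operators (helper168)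

Everything here is PROVED (no hypotheses):

* `lbc_ringHom_ext` : a ring hom out of `L · F₀` is determined by its values on `L` and on
  generators of `F₀`;
* `isDiamond_unique`, `isDiamond_one`, `IsDiamond.mul`, `IsDiamond.symm`;
* `galois_smul_hecke1`, `galois_smul_hecke1T`, `galois_smul_diamond1`, `galois_smul_diamond1Inv` :
  the Hecke and diamond operators on `J₁(M)` commute with the Galois action;
* `j1_exists_finite_level_fix_torsion` : SMOOTH for `J₁(M)`;
* the torsion module `J1T M m` with its Galois action and operators `heckeT`, `diamondT`,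
  `diamondInvT`.
-/

set_option autoImplicit false
set_option linter.style.haveILetI false
set_option linter.unusedSectionVars false

noncomputable section

open PowerSeries HahnSeries IntermediateField ModularCurve AlgebraicCurve

namespace Fermat.Agent.S48.F1

/-! ### Extensionality for ring homs out of `L · F₀` -/

section Ext

variable {L : Type*} [Field L] [Algebra ℚ L]

theorem coeffEmb_algebraMap (q : ℚ) :
    coeffEmb L (algebraMap ℚ (LaurentSeries ℚ) q) =
      algebraMap L (LaurentSeries L) (algebraMap ℚ L q) := by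
  rw [algebraMap_apply_eq_single, algebraMap_laurent_eq_single]
  ext k
  rw [coeffEmb_coeff]
  by_cases hk : k = 0
  · subst hk
    simp
  · simp [HahnSeries.coeff_single_of_ne hk]

theorem lbc_ringHom_ext {S : Set (LaurentSeries ℚ)} {R : Type*} [DivisionRing R]
    (f g : laurentBaseChange L (IntermediateField.adjoin ℚ S) →+* R)
    (hL : ∀ a : L, f (algebraMap L _ a) = g (algebraMap L _ a))
    (hS : ∀ (z : LaurentSeries ℚ) (hz : z ∈ S),
      f ⟨coeffEmb L z, coeffEmb_mem_laurentBaseChange L (IntermediateField.subset_adjoin ℚ S hz)⟩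
        = g ⟨coeffEmb L z,
            coeffEmb_mem_laurentBaseChange L (IntermediateField.subset_adjoin ℚ S hz)⟩) :
    f = g := by
  -- first step: agreement on `coeffEmb '' F₀`
  have key : ∀ (z : LaurentSeries ℚ) (hz : z ∈ IntermediateField.adjoin ℚ S),
      f ⟨coeffEmb L z, coeffEmb_mem_laurentBaseChange L hz⟩
        = g ⟨coeffEmb L z, coeffEmb_mem_laurentBaseChange L hz⟩ := by
    intro z hz
    induction hz using IntermediateField.adjoin_induction with
    | mem x hx => exact hS x hx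
    | algebraMap q =>
        have h1 : (⟨coeffEmb L (algebraMap ℚ (LaurentSeries ℚ) q),
            coeffEmb_mem_laurentBaseChange L
              ((IntermediateField.adjoin ℚ S).algebraMap_mem q)⟩ :
              laurentBaseChange L (IntermediateField.adjoin ℚ S))
            = algebraMap L _ (algebraMap ℚ L q) :=
          Subtype.ext (coeffEmb_algebraMap q)
        rw [h1]
        exact hL _
    | add x y hx hy ihx ihy =>
        have h1 : (⟨coeffEmb L (x + y), coeffEmb_mem_laurentBaseChange L (add_mem hx hy)⟩ :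
            laurentBaseChange L (IntermediateField.adjoin ℚ S))
            = ⟨coeffEmb L x, coeffEmb_mem_laurentBaseChange L hx⟩
              + ⟨coeffEmb L y, coeffEmb_mem_laurentBaseChange L hy⟩ :=
          Subtype.ext (map_add (coeffEmb L) x y)
        rw [h1, map_add, map_add, ihx, ihy]
    | inv x hx ihx =>
        have h1 : (⟨coeffEmb L x⁻¹, coeffEmb_mem_laurentBaseChange L (inv_mem hx)⟩ :
            laurentBaseChange L (IntermediateField.adjoin ℚ S))
            = (⟨coeffEmb L x, coeffEmb_mem_laurentBaseChange L hx⟩ :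
                laurentBaseChange L (IntermediateField.adjoin ℚ S))⁻¹ :=
          Subtype.ext (map_inv₀ (coeffEmb L) x)
        rw [h1, map_inv₀, map_inv₀, ihx]
    | mul x y hx hy ihx ihy =>
        have h1 : (⟨coeffEmb L (x * y), coeffEmb_mem_laurentBaseChange L (mul_mem hx hy)⟩ :
            laurentBaseChange L (IntermediateField.adjoin ℚ S))
            = ⟨coeffEmb L x, coeffEmb_mem_laurentBaseChange L hx⟩
              * ⟨coeffEmb L y, coeffEmb_mem_laurentBaseChange L hy⟩ :=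
          Subtype.ext (map_mul (coeffEmb L) x y)
        rw [h1, map_mul, map_mul, ihx, ihy]
  -- second step: agreement on the compositum
  have key2 : ∀ (y : LaurentSeries L)
      (hy : y ∈ laurentBaseChange L (IntermediateField.adjoin ℚ S)), f ⟨y, hy⟩ = g ⟨y, hy⟩ := by
    intro y hy
    unfold laurentBaseChange at hy
    induction hy using IntermediateField.adjoin_induction with
    | mem x hx =>
        obtain ⟨z, hz, rfl⟩ := hx
        exact key z hz
    | algebraMap a => exact hL a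
    | add x y hx hy ihx ihy =>
        have h1 : (⟨x + y, add_mem hx hy⟩ :
            laurentBaseChange L (IntermediateField.adjoin ℚ S)) = ⟨x, hx⟩ + ⟨y, hy⟩ := rfl
        rw [h1, map_add, map_add, ihx, ihy]
    | inv x hx ihx =>
        have h1 : (⟨x⁻¹, inv_mem hx⟩ :
            laurentBaseChange L (IntermediateField.adjoin ℚ S)) = (⟨x, hx⟩)⁻¹ := rfl
        rw [h1, map_inv₀, map_inv₀, ihx]
    | mul x y hx hy ihx ihy =>
        have h1 : (⟨x * y, mul_mem hx hy⟩ :
            laurentBaseChange L (IntermediateField.adjoin ℚ S)) = ⟨x, hx⟩ * ⟨y, hy⟩ := rfl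
        rw [h1, map_mul, map_mul, ihx, ihy]
  ext ⟨y, hy⟩
  exact key2 y hy

end Ext

/-! ### The diamond automorphisms -/

section Diamond

variable {L : Type*} [Field L] [Algebra ℚ L] {M : ℕ}

/-- `P_a` as an element of `L · F1 M`. -/
def divGenL (L : Type*) [Field L] [Algebra ℚ L] (M : ℕ) (a : ZMod M) (ha : a ≠ 0) : F1L L M :=
  ⟨coeffEmb L (divGen M a), coeffEmb_mem_laurentBaseChange L (divGen_mem_F1 M ha)⟩

@[simp]
theorem coe_divGenL (a : ZMod M) (ha : a ≠ 0) :
    ((divGenL L M a ha : F1L L M) : LaurentSeries L) = coeffEmb L (divGen M a) := rfl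

theorem unit_mul_ne_zero (d : (ZMod M)ˣ) {a : ZMod M} (ha : a ≠ 0) : (d : ZMod M) * a ≠ 0 :=
  fun h => ha (by
    have := congrArg (fun x => ((d⁻¹ : (ZMod M)ˣ) : ZMod M) * x) h
    simpa using this)

theorem IsDiamond.apply_divGenL {d : (ZMod M)ˣ} {σ : F1L L M ≃ₐ[L] F1L L M}
    (h : IsDiamond L M d σ) (a : ZMod M) (ha : a ≠ 0) :
    σ (divGenL L M a ha) = divGenL L M ((d : ZMod M) * a) (unit_mul_ne_zero d ha) :=
  h.2 a _ _ ha rfl rfl

theorem isDiamond_iff {d : (ZMod M)ˣ} {σ : F1L L M ≃ₐ[L] F1L L M} :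
    IsDiamond L M d σ ↔
      (∀ x : F1L L M, (x : LaurentSeries L) ∈ laurentBaseChange L (modularFunctionFieldFull M) →
        σ x = x) ∧
      ∀ (a : ZMod M) (ha : a ≠ 0),
        σ (divGenL L M a ha) = divGenL L M ((d : ZMod M) * a) (unit_mul_ne_zero d ha) := by
  constructor
  · exact fun h => ⟨h.1, fun a ha => h.apply_divGenL a ha⟩
  · rintro ⟨h1, h2⟩
    refine ⟨h1, fun a x y ha hx hy => ?_⟩
    have hx' : x = divGenL L M a ha := Subtype.ext hx
    have hy' : y = divGenL L M ((d : ZMod M) * a) (unit_mul_ne_zero d ha) := Subtype.ext hy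
    rw [hx', hy']
    exact h2 a ha

/-- The diamond automorphism is unique. -/
theorem isDiamond_unique {d : (ZMod M)ˣ} {σ τ : F1L L M ≃ₐ[L] F1L L M}
    (hσ : IsDiamond L M d σ) (hτ : IsDiamond L M d τ) : σ = τ := by
  have h : (σ : F1L L M →+* F1L L M) = (τ : F1L L M →+* F1L L M) := by
    refine lbc_ringHom_ext (S := divisorExpansions M ∪ divGens M) _ _ ?_ ?_
    · intro a
      show σ (algebraMap L _ a) = τ (algebraMap L _ a)
      rw [σ.commutes, τ.commutes]
    · rintro z (hz | ⟨a, ha, rfl⟩)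
      · have hmem : coeffEmb L z ∈ laurentBaseChange L (modularFunctionFieldFull M) :=
          coeffEmb_mem_laurentBaseChange L (IntermediateField.subset_adjoin ℚ _ hz)
        show σ _ = τ _
        rw [hσ.1 _ hmem, hτ.1 _ hmem]
      · show σ (divGenL L M a ha) = τ (divGenL L M a ha)
        rw [hσ.apply_divGenL, hτ.apply_divGenL]
  apply AlgEquiv.ext
  intro x
  exact congrArg (fun f : F1L L M →+* F1L L M => f x) h

theorem isDiamond_one : IsDiamond L M 1 (AlgEquiv.refl : F1L L M ≃ₐ[L] F1L L M) := by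
  rw [isDiamond_iff]
  refine ⟨fun _ _ => rfl, fun a ha => ?_⟩
  apply Subtype.ext
  simp

theorem IsDiamond.mul {d d' : (ZMod M)ˣ} {σ τ : F1L L M ≃ₐ[L] F1L L M}
    (hσ : IsDiamond L M d σ) (hτ : IsDiamond L M d' τ) : IsDiamond L M (d * d') (σ * τ) := by
  rw [isDiamond_iff]
  refine ⟨fun x hx => ?_, fun a ha => ?_⟩
  · show σ (τ x) = x
    rw [hτ.1 x hx, hσ.1 x hx]
  · show σ (τ (divGenL L M a ha)) = _
    rw [hτ.apply_divGenL, hσ.apply_divGenL]
    apply Subtype.ext
    simp [mul_assoc]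

theorem IsDiamond.symm {d : (ZMod M)ˣ} {σ : F1L L M ≃ₐ[L] F1L L M}
    (hσ : IsDiamond L M d σ) : IsDiamond L M d⁻¹ σ.symm := by
  rw [isDiamond_iff]
  refine ⟨fun x hx => ?_, fun a ha => ?_⟩
  · rw [AlgEquiv.symm_apply_eq, hσ.1 x hx]
  · rw [AlgEquiv.symm_apply_eq, hσ.apply_divGenL]
    apply Subtype.ext
    simp

theorem diamondAut_eq {d : (ZMod M)ˣ} {σ : F1L L M ≃ₐ[L] F1L L M} (hσ : IsDiamond L M d σ) :
    diamondAut L M d = σ :=
  isDiamond_unique (isDiamond_diamondAut L M d ⟨σ, hσ⟩) hσ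

end Diamond

/-! ### Galois equivariance -/

section Galois

variable (M : ℕ)

local notation "Qbar" => AlgebraicClosure ℚ
local notation "GalQbar" => (AlgebraicClosure ℚ ≃ₐ[ℚ] AlgebraicClosure ℚ)

theorem intertwines_alpha1 (p : ℕ) [NeZero p] (σ : GalQbar) :
    SemilinearAut.IntertwinesAlong
      ((alpha1 Qbar M p : F1L Qbar M →ₐ[Qbar] F1pL Qbar M p) : F1L Qbar M →+* F1pL Qbar M p)
      (arithmeticGalois (F1 M) σ) (arithmeticGalois (F1p M p) σ) := by
  intro x
  apply Subtype.ext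
  rw [coe_arithmeticGalois_smul]
  show coeffMap _ ((alpha1 Qbar M p x : F1pL Qbar M p) : LaurentSeries Qbar)
    = ((alpha1 Qbar M p (arithmeticGalois (F1 M) σ • x) : F1pL Qbar M p) : LaurentSeries Qbar)
  rw [coe_alpha1, coe_alpha1, coe_arithmeticGalois_smul]

theorem intertwines_beta1 (p : ℕ) [NeZero p] (σ : GalQbar) :
    SemilinearAut.IntertwinesAlong
      ((beta1 Qbar M p : F1L Qbar M →ₐ[Qbar] F1pL Qbar M p) : F1L Qbar M →+* F1pL Qbar M p)
      (arithmeticGalois (F1 M) σ) (arithmeticGalois (F1p M p) σ) := by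
  intro x
  apply Subtype.ext
  rw [coe_arithmeticGalois_smul]
  show coeffMap _ ((beta1 Qbar M p x : F1pL Qbar M p) : LaurentSeries Qbar)
    = ((beta1 Qbar M p (arithmeticGalois (F1 M) σ • x) : F1pL Qbar M p) : LaurentSeries Qbar)
  rw [coe_beta1, coe_beta1, coe_arithmeticGalois_smul, coeffMap_qExpand]

theorem galois_smul_corrOp (p : ℕ) [NeZero p]
    (φ ψ : F1L Qbar M →ₐ[Qbar] F1pL Qbar M p)
    (hφ : ∀ σ : GalQbar, SemilinearAut.IntertwinesAlong (φ : F1L Qbar M →+* F1pL Qbar M p)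
      (arithmeticGalois (F1 M) σ) (arithmeticGalois (F1p M p) σ))
    (hψ : ∀ σ : GalQbar, SemilinearAut.IntertwinesAlong (ψ : F1L Qbar M →+* F1pL Qbar M p)
      (arithmeticGalois (F1 M) σ) (arithmeticGalois (F1p M p) σ))
    (σ : GalQbar) (x : J1 M) : corrOp φ ψ (σ • x) = σ • corrOp φ ψ x := by
  by_cases h : CorrInputs φ ψ
  · obtain ⟨h1, h2, hP, hfin, hFI, hN⟩ := h
    haveI := hP
    rw [corrOp_eq φ ψ h1 h2 hFI hfin hN, galois_smul_pic0_def, galois_smul_pic0_def]
    exact Fermat.Agent.S29.H42.pic0_correspondence_smul _ _ h1 h2 hFI hfin hN (hφ σ) (hψ σ) x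
  · rw [corrOp, dif_neg h]
    simp

/-- The Galois action on `J₁(M)` commutes with `T_p`. -/
theorem galois_smul_hecke1 (p : ℕ) (σ : GalQbar) (x : J1 M) :
    hecke1 M p (σ • x) = σ • hecke1 M p x := by
  by_cases hp : p = 0
  · rw [hecke1, dif_pos hp]
    simp
  · haveI : NeZero p := ⟨hp⟩
    rw [hecke1_eq]
    exact galois_smul_corrOp M p _ _ (intertwines_beta1 M p) (intertwines_alpha1 M p) σ x

/-- The Galois action on `J₁(M)` commutes with `T_p^t`. -/
theorem galois_smul_hecke1T (p : ℕ) (σ : GalQbar) (x : J1 M) :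
    hecke1T M p (σ • x) = σ • hecke1T M p x := by
  by_cases hp : p = 0
  · rw [hecke1T, dif_pos hp]
    simp
  · haveI : NeZero p := ⟨hp⟩
    rw [hecke1T_eq]
    exact galois_smul_corrOp M p _ _ (intertwines_alpha1 M p) (intertwines_beta1 M p) σ x

/-- The conjugate of an `L`-automorphism by the coefficientwise Galois action. -/
def conjAut (σ : GalQbar) (δ : F1Bar M ≃ₐ[Qbar] F1Bar M) : F1Bar M ≃ₐ[Qbar] F1Bar M :=
  AlgEquiv.ofRingEquiv
    (f := ((arithmeticRingAut (F1 M) σ).symm.trans (δ : F1Bar M ≃+* F1Bar M)).trans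
      (arithmeticRingAut (F1 M) σ))
    (fun a => by
      show arithmeticRingAut (F1 M) σ (δ ((arithmeticRingAut (F1 M) σ).symm
        (algebraMap Qbar (F1Bar M) a))) = algebraMap Qbar (F1Bar M) a
      have h1 : (arithmeticRingAut (F1 M) σ).symm (algebraMap Qbar (F1Bar M) a)
          = algebraMap Qbar (F1Bar M) (σ.symm a) := by
        rw [RingEquiv.symm_apply_eq, arithmeticRingAut_algebraMap, AlgEquiv.apply_symm_apply]
      rw [h1, δ.commutes, arithmeticRingAut_algebraMap, AlgEquiv.apply_symm_apply])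

theorem conjAut_apply (σ : GalQbar) (δ : F1Bar M ≃ₐ[Qbar] F1Bar M) (x : F1Bar M) :
    conjAut M σ δ x
      = arithmeticRingAut (F1 M) σ (δ ((arithmeticRingAut (F1 M) σ).symm x)) := rfl

theorem arithmeticRingAut_symm_coeffEmb (σ : GalQbar) (x : F1Bar M) (z : LaurentSeries ℚ)
    (hx : (x : LaurentSeries Qbar) = coeffEmb Qbar z) :
    (arithmeticRingAut (F1 M) σ).symm x = x := by
  rw [RingEquiv.symm_apply_eq]
  apply Subtype.ext
  rw [coe_arithmeticRingAut_apply, hx, coeffMap_coeffEmb]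

theorem arithmeticRingAut_coeffEmb (σ : GalQbar) (x : F1Bar M) (z : LaurentSeries ℚ)
    (hx : (x : LaurentSeries Qbar) = coeffEmb Qbar z) :
    arithmeticRingAut (F1 M) σ x = x := by
  apply Subtype.ext
  rw [coe_arithmeticRingAut_apply, hx, coeffMap_coeffEmb]

theorem isDiamond_conjAut {d : (ZMod M)ˣ} {δ : F1Bar M ≃ₐ[Qbar] F1Bar M}
    (hδ : IsDiamond Qbar M d δ) (σ : GalQbar) : IsDiamond Qbar M d (conjAut M σ δ) := by
  rw [isDiamond_iff]
  refine ⟨fun x hx => ?_, fun a ha => ?_⟩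
  · rw [conjAut_apply]
    have h1 : (((arithmeticRingAut (F1 M) σ).symm x : F1Bar M) : LaurentSeries Qbar)
        ∈ laurentBaseChange Qbar (modularFunctionFieldFull M) := by
      have h2 : (((arithmeticRingAut (F1 M) σ).symm x : F1Bar M) : LaurentSeries Qbar)
          = coeffMap (σ.symm : Qbar →+* Qbar) (x : LaurentSeries Qbar) := rfl
      rw [h2]
      exact coeffMap_mem_laurentBaseChange σ.symm hx
    rw [hδ.1 _ h1, RingEquiv.apply_symm_apply]
  · rw [conjAut_apply, arithmeticRingAut_symm_coeffEmb M σ _ (divGen M a) rfl,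
      hδ.apply_divGenL, arithmeticRingAut_coeffEmb M σ _ (divGen M ((d : ZMod M) * a)) rfl]

theorem conjAut_refl (σ : GalQbar) : conjAut M σ AlgEquiv.refl = AlgEquiv.refl := by
  ext x
  rw [conjAut_apply]
  simp

/-- The diamond automorphism commutes with the coefficientwise Galois action. -/
theorem conjAut_diamondAut (d : (ZMod M)ˣ) (σ : GalQbar) :
    conjAut M σ (diamondAut Qbar M d) = diamondAut Qbar M d := by
  by_cases h : ∃ τ : F1Bar M ≃ₐ[Qbar] F1Bar M, IsDiamond Qbar M d τ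
  · have h1 := isDiamond_diamondAut Qbar M d h
    exact isDiamond_unique (isDiamond_conjAut M h1 σ) h1
  · rw [diamondAut, dif_neg h]
    exact conjAut_refl M σ

theorem arithmeticGalois_mul_diamond (d : (ZMod M)ˣ) (σ : GalQbar) :
    arithmeticGalois (F1 M) σ * SemilinearAut.ofAlgAut (diamondAut Qbar M d)
      = SemilinearAut.ofAlgAut (diamondAut Qbar M d) * arithmeticGalois (F1 M) σ := by
  apply Subtype.ext
  refine Prod.ext ?_ ?_
  · apply RingEquiv.ext
    intro x
    show arithmeticRingAut (F1 M) σ (diamondAut Qbar M d x)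
      = diamondAut Qbar M d (arithmeticRingAut (F1 M) σ x)
    conv_rhs => rw [← conjAut_diamondAut M d σ, conjAut_apply, RingEquiv.symm_apply_apply]
  · show (σ.toRingEquiv * 1 : Qbar ≃+* Qbar) = 1 * σ.toRingEquiv
    rw [mul_one, one_mul]

/-- The Galois action on `J₁(M)` commutes with the diamond operators. -/
theorem galois_smul_diamond1 (d : (ZMod M)ˣ) (σ : GalQbar) (x : J1 M) :
    diamond1 M d (σ • x) = σ • diamond1 M d x := by
  rw [diamond1_apply, diamond1_apply, galois_smul_pic0_def, galois_smul_pic0_def, ← mul_smul,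
    ← mul_smul, arithmeticGalois_mul_diamond]

theorem galois_smul_diamond1Inv (d : (ZMod M)ˣ) (σ : GalQbar) (x : J1 M) :
    diamond1Inv M d (σ • x) = σ • diamond1Inv M d x := by
  have h := galois_smul_diamond1 M d σ (diamond1Inv M d x)
  rw [diamond1_diamond1Inv] at h
  rw [← h, diamond1Inv_diamond1]

/-- SMOOTH for `J₁(M)`: every torsion point is fixed by an open subgroup of `G_ℚ`. -/
theorem j1_exists_finite_level_fix_torsion {n : ℕ} (hn : n ≠ 0) (x : J1 M)
    (hx : (n : ℤ) • x = 0) :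
    ∃ K : IntermediateField ℚ Qbar, FiniteDimensional ℚ K ∧
      ∀ σ : GalQbar, (∀ y ∈ K, σ y = y) → σ • x = x :=
  Fermat.Agent.S29.H42.exists_finite_level_fix_torsion (F1 M) hn x hx

end Galois

/-! ### The torsion modules `J₁(M)[m]` -/

section Torsion

variable (M m : ℕ)

local notation "Qbar" => AlgebraicClosure ℚ
local notation "GalQbar" => (AlgebraicClosure ℚ ≃ₐ[ℚ] AlgebraicClosure ℚ)

/-- The `m`-torsion of `J₁(M)(ℚ̄)`, as a type. -/
abbrev J1T : Type := ↥(Pic0.torsion Qbar (F1Bar M) m)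

theorem galois_smul_mem_torsion1 (σ : GalQbar) {x : J1 M}
    (hx : x ∈ Pic0.torsion Qbar (F1Bar M) m) : σ • x ∈ Pic0.torsion Qbar (F1Bar M) m := by
  rw [Pic0.mem_torsion] at hx ⊢
  have := map_zsmul (DistribSMul.toAddMonoidHom (J1 M) σ) (m : ℤ) x
  rw [hx, map_zero] at this
  exact this.symm

/-- The Galois action on `J₁(M)[m]`. -/
@[implicit_reducible]
def galoisActionJ1T : DistribMulAction GalQbar (J1T M m) where
  smul σ x := ⟨σ • (x : J1 M), galois_smul_mem_torsion1 M m σ x.2⟩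
  one_smul x := Subtype.ext (one_smul _ (x : J1 M))
  mul_smul σ τ x := Subtype.ext (mul_smul σ τ (x : J1 M))
  smul_zero σ := Subtype.ext (smul_zero (A := J1 M) σ)
  smul_add σ x y := Subtype.ext (smul_add σ (x : J1 M) (y : J1 M))

theorem end_mem_torsion1 (T : Module.End ℤ (J1 M)) {x : J1 M}
    (hx : x ∈ Pic0.torsion Qbar (F1Bar M) m) : T x ∈ Pic0.torsion Qbar (F1Bar M) m := by
  rw [Pic0.mem_torsion] at hx ⊢
  rw [← map_zsmul, hx, map_zero]

/-- Restriction of an endomorphism of `J₁(M)` to the `m`-torsion. -/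
def restrictT (T : Module.End ℤ (J1 M)) : Module.End ℤ (J1T M m) where
  toFun x := ⟨T (x : J1 M), end_mem_torsion1 M m T x.2⟩
  map_add' _ _ := Subtype.ext (map_add T _ _)
  map_smul' c _ := Subtype.ext (map_zsmul T c _)

@[simp]
theorem coe_restrictT (T : Module.End ℤ (J1 M)) (x : J1T M m) :
    ((restrictT M m T x : J1T M m) : J1 M) = T (x : J1 M) := rfl

/-- `T_p` on `J₁(M)[m]`. -/
def heckeT (p : ℕ) : Module.End ℤ (J1T M m) := restrictT M m (hecke1 M p)

/-- `T_p^t` on `J₁(M)[m]`. -/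
def heckeTT (p : ℕ) : Module.End ℤ (J1T M m) := restrictT M m (hecke1T M p)

/-- `⟨d⟩` on `J₁(M)[m]`. -/
def diamondT (d : (ZMod M)ˣ) : Module.End ℤ (J1T M m) := restrictT M m (diamond1 M d)

/-- `⟨d⟩⁻¹` on `J₁(M)[m]`. -/
def diamondInvT (d : (ZMod M)ˣ) : Module.End ℤ (J1T M m) := restrictT M m (diamond1Inv M d)

@[simp] theorem coe_heckeT (p : ℕ) (x : J1T M m) :
    ((heckeT M m p x : J1T M m) : J1 M) = hecke1 M p (x : J1 M) := rfl

@[simp] theorem coe_heckeTT (p : ℕ) (x : J1T M m) :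
    ((heckeTT M m p x : J1T M m) : J1 M) = hecke1T M p (x : J1 M) := rfl

@[simp] theorem coe_diamondT (d : (ZMod M)ˣ) (x : J1T M m) :
    ((diamondT M m d x : J1T M m) : J1 M) = diamond1 M d (x : J1 M) := rfl

@[simp] theorem coe_diamondInvT (d : (ZMod M)ˣ) (x : J1T M m) :
    ((diamondInvT M m d x : J1T M m) : J1 M) = diamond1Inv M d (x : J1 M) := rfl

theorem diamondInvT_comp_diamondT (d : (ZMod M)ˣ) :
    diamondInvT M m d ∘ₗ diamondT M m d = LinearMap.id := by
  ext x
  simp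

theorem diamondT_comp_diamondInvT (d : (ZMod M)ˣ) :
    diamondT M m d ∘ₗ diamondInvT M m d = LinearMap.id := by
  ext x
  simp

section Equivariance

attribute [local instance] galoisActionJ1T

theorem coe_galois_smul_J1T (σ : GalQbar) (x : J1T M m) :
    ((σ • x : J1T M m) : J1 M) = σ • (x : J1 M) := rfl

theorem galois_smul_heckeT (p : ℕ) (σ : GalQbar) (x : J1T M m) :
    heckeT M m p (σ • x) = σ • heckeT M m p x :=
  Subtype.ext (galois_smul_hecke1 M p σ (x : J1 M))

theorem galois_smul_heckeTT (p : ℕ) (σ : GalQbar) (x : J1T M m) :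
    heckeTT M m p (σ • x) = σ • heckeTT M m p x :=
  Subtype.ext (galois_smul_hecke1T M p σ (x : J1 M))

theorem galois_smul_diamondT (d : (ZMod M)ˣ) (σ : GalQbar) (x : J1T M m) :
    diamondT M m d (σ • x) = σ • diamondT M m d x :=
  Subtype.ext (galois_smul_diamond1 M d σ (x : J1 M))

theorem galois_smul_diamondInvT (d : (ZMod M)ˣ) (σ : GalQbar) (x : J1T M m) :
    diamondInvT M m d (σ • x) = σ • diamondInvT M m d x :=
  Subtype.ext (galois_smul_diamond1Inv M d σ (x : J1 M))

end Equivariance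

end Torsion

end Fermat.Agent.S48.F1

end
end
-- ===== PACK-END S48/F1/Basic.lean

-- ===== PACK-BEGIN S48/H248/DegGroup.lean
section


/-!
# S48 / Tower A1 / A1-RED leaf DEG (helper248), part 1: group theory (Mathlib only)

* `card_SL2_field`   : `|SL₂(F)| = q (q² - 1)` for a finite field `F` with `q` elements;
* `relIndex_Gamma1_mul_dvd` : for a prime `a ∤ M`, `[Γ₁(M) : Γ₁(M a)] ∣ a² - 1`
  (reduction mod `a`: the image of `Γ₁(M)` in `SL₂(𝔽_a)` contains the upper unitriangular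
  group `U`, `Γ₁(M a) = Γ₁(M) ∩ (preimage of U)`, Lagrange);
* `relIndex_dvd_of_central` : if `Z ≤ P'` is a normal subgroup with `P ≤ G ⊔ Z`-type
  domination (`map π P ≤ map π G`) and `G' ≤ P'`, then `[P : P'] ∣ [G : G']`.
-/

set_option autoImplicit false
set_option linter.unusedSectionVars false
set_option linter.style.haveILetI false

open Matrix CongruenceSubgroup
open scoped MatrixGroups

namespace Fermat.Agent.S48.H248

/-! ### The order of `SL₂` of a finite field -/

section CardSL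

variable (F : Type*) [Field F] [Fintype F]

theorem card_GL2_field : Nat.card (GL (Fin 2) F)
    = (Fintype.card F ^ 2 - 1) * (Fintype.card F ^ 2 - Fintype.card F) := by
  rw [Matrix.card_GL_field, Fin.prod_univ_two]
  simp

theorem card_SL2_mul : Nat.card (SL(2, F)) * Nat.card Fˣ = Nat.card (GL (Fin 2) F) := by
  classical
  have h1 : (Matrix.GeneralLinearGroup.det : GL (Fin 2) F →* Fˣ).ker.index = Nat.card Fˣ := by
    rw [Subgroup.index_ker]
    have : (Matrix.GeneralLinearGroup.det : GL (Fin 2) F →* Fˣ).range = ⊤ :=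
      MonoidHom.range_eq_top.mpr Matrix.GeneralLinearGroup.det_surjective
    rw [this]
    exact Nat.card_congr (Subgroup.topEquiv (G := Fˣ)).toEquiv
  have h2 : Nat.card (Matrix.GeneralLinearGroup.det : GL (Fin 2) F →* Fˣ).ker
      = Nat.card (SL(2, F)) := by
    symm
    refine Nat.card_congr (Equiv.ofBijective
      (fun g : SL(2, F) => (⟨Matrix.SpecialLinearGroup.toGL g, ?_⟩ :
        (Matrix.GeneralLinearGroup.det : GL (Fin 2) F →* Fˣ).ker)) ⟨?_, ?_⟩)
    · rw [MonoidHom.mem_ker]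
      ext
      simp
    · intro g g' h
      have h' := congrArg (fun x : (Matrix.GeneralLinearGroup.det : GL (Fin 2) F →* Fˣ).ker =>
        ((x : GL (Fin 2) F) : Matrix (Fin 2) (Fin 2) F)) h
      exact Subtype.ext h'
    · rintro ⟨g, hg⟩
      rw [MonoidHom.mem_ker] at hg
      have hdet : (g : Matrix (Fin 2) (Fin 2) F).det = 1 := by
        have := congrArg (fun u : Fˣ => (u : F)) hg
        simpa using this
      refine ⟨⟨(g : Matrix (Fin 2) (Fin 2) F), hdet⟩, ?_⟩
      apply Subtype.ext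
      ext i j
      rfl
  rw [← h2, ← h1]
  exact Subgroup.card_mul_index _

theorem card_SL2_field : Nat.card (SL(2, F)) = Fintype.card F * (Fintype.card F ^ 2 - 1) := by
  have hq : 2 ≤ Fintype.card F := Fintype.one_lt_card
  have h := card_SL2_mul F
  rw [card_GL2_field, Nat.card_units, Nat.card_eq_fintype_card (α := F)] at h
  generalize Fintype.card F = q at hq h ⊢
  have hq1 : 0 < q - 1 := by omega
  have e : q ^ 2 - q = q * (q - 1) := by
    rw [Nat.mul_sub, mul_one, sq]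
  rw [e] at h
  have h3 : Nat.card (SL(2, F)) * (q - 1) = (q * (q ^ 2 - 1)) * (q - 1) := by
    rw [h]; ring
  exact Nat.eq_of_mul_eq_mul_right hq1 h3

end CardSL

/-! ### The upper unitriangular subgroup -/

section Upper

variable (R : Type*) [CommRing R]

/-- The upper unitriangular subgroup of `SL₂(R)`. -/
def upperU : Subgroup SL(2, R) where
  carrier := {g | g 0 0 = 1 ∧ g 1 1 = 1 ∧ g 1 0 = 0}
  one_mem' := by simp
  mul_mem' := by
    rintro g h ⟨g00, g11, g10⟩ ⟨h00, h11, h10⟩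
    have e := Matrix.two_mul_expl g.1 h.1
    refine ⟨?_, ?_, ?_⟩
    · show (g * h).1 0 0 = 1
      rw [Matrix.SpecialLinearGroup.coe_mul, e.1]
      show g 0 0 * h 0 0 + g 0 1 * h 1 0 = 1
      rw [g00, h00, h10]; ring
    · show (g * h).1 1 1 = 1
      rw [Matrix.SpecialLinearGroup.coe_mul, e.2.2.2]
      show g 1 0 * h 0 1 + g 1 1 * h 1 1 = 1
      rw [g10, g11, h11]; ring
    · show (g * h).1 1 0 = 0
      rw [Matrix.SpecialLinearGroup.coe_mul, e.2.2.1]
      show g 1 0 * h 0 0 + g 1 1 * h 1 0 = 0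
      rw [g10, h10]; ring
  inv_mem' := by
    rintro g ⟨g00, g11, g10⟩
    rw [Set.mem_ofPred_eq, Matrix.SpecialLinearGroup.SL2_inv_expl]
    refine ⟨?_, ?_, ?_⟩
    · simpa using g11
    · simpa using g00
    · simpa using g10

variable {R}

theorem mem_upperU {g : SL(2, R)} : g ∈ upperU R ↔ g 0 0 = 1 ∧ g 1 1 = 1 ∧ g 1 0 = 0 := Iff.rfl

/-- The element `[[1, b], [0, 1]]`. -/
def upperElt (b : R) : SL(2, R) :=
  ⟨!![1, b; 0, 1], by simp [Matrix.det_fin_two]⟩

theorem upperElt_mem (b : R) : upperElt b ∈ upperU R := by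
  refine ⟨?_, ?_, ?_⟩ <;> simp [upperElt]

theorem eq_upperElt_of_mem {g : SL(2, R)} (hg : g ∈ upperU R) : g = upperElt (g 0 1) := by
  obtain ⟨h00, h11, h10⟩ := hg
  ext i j
  fin_cases i <;> fin_cases j
  · simpa [upperElt] using h00
  · simp [upperElt]
  · simpa [upperElt] using h10
  · simpa [upperElt] using h11

theorem card_upperU (R : Type*) [CommRing R] : Nat.card (upperU R) = Nat.card R := by
  refine Nat.card_congr (Equiv.ofBijective (fun g : upperU R => (g : SL(2, R)) 0 1) ⟨?_, ?_⟩)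
  · rintro ⟨g, hg⟩ ⟨h, hh⟩ hgh
    apply Subtype.ext
    show g = h
    rw [eq_upperElt_of_mem hg, eq_upperElt_of_mem hh]
    exact congrArg upperElt hgh
  · intro b
    exact ⟨⟨upperElt b, upperElt_mem b⟩, by simp [upperElt]⟩

end Upper

/-! ### `[Γ₁(M) : Γ₁(M a)]` divides `a² - 1` -/

section Gamma1Index

/-- Reduction modulo `a`. -/
def redMod (a : ℕ) : SL(2, ℤ) →* SL(2, ZMod a) :=
  Matrix.SpecialLinearGroup.map (Int.castRingHom (ZMod a))

@[simp]
theorem redMod_apply (a : ℕ) (g : SL(2, ℤ)) (i j : Fin 2) :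
    redMod a g i j = ((g i j : ℤ) : ZMod a) := rfl

theorem intCast_mul_eq_iff {M a : ℕ} (h : Nat.Coprime M a) (x y : ℤ) :
    ((x : ZMod (M * a)) = (y : ZMod (M * a))) ↔
      ((x : ZMod M) = (y : ZMod M)) ∧ ((x : ZMod a) = (y : ZMod a)) := by
  rw [ZMod.intCast_eq_intCast_iff_dvd_sub, ZMod.intCast_eq_intCast_iff_dvd_sub,
    ZMod.intCast_eq_intCast_iff_dvd_sub]
  constructor
  · intro hd
    push_cast at hd
    exact ⟨(dvd_mul_right _ _).trans hd, (dvd_mul_left _ _).trans hd⟩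
  · rintro ⟨h1, h2⟩
    push_cast
    have hc : IsCoprime (M : ℤ) (a : ℤ) := Nat.isCoprime_iff_coprime.mpr h
    exact hc.mul_dvd h1 h2

theorem Gamma1_mul_eq {M a : ℕ} (h : Nat.Coprime M a) :
    Gamma1 (M * a) = (upperU (ZMod a)).comap (redMod a) ⊓ Gamma1 M := by
  ext g
  rw [Subgroup.mem_inf, Subgroup.mem_comap, mem_upperU, Gamma1_mem, Gamma1_mem]
  simp only [redMod_apply]
  have e1 := intCast_mul_eq_iff h (g 0 0) 1
  have e2 := intCast_mul_eq_iff h (g 1 1) 1
  have e3 := intCast_mul_eq_iff h (g 1 0) 0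
  simp only [Int.cast_one, Int.cast_zero] at e1 e2 e3
  rw [e1, e2, e3]
  tauto

theorem T_zpow_mem_Gamma1 (M : ℕ) (n : ℤ) : ModularGroup.T ^ n ∈ Gamma1 M := by
  rw [Gamma1_mem]
  simp [ModularGroup.coe_T_zpow]

theorem redMod_T_zpow (a : ℕ) (n : ℤ) : redMod a (ModularGroup.T ^ n) = upperElt (n : ZMod a) := by
  ext i j
  rw [redMod_apply, ModularGroup.coe_T_zpow]
  fin_cases i <;> fin_cases j <;> simp [upperElt]

theorem upperU_le_map (M a : ℕ) : upperU (ZMod a) ≤ (Gamma1 M).map (redMod a) := by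
  intro u hu
  rw [eq_upperElt_of_mem hu]
  refine ⟨ModularGroup.T ^ ((u 0 1).cast : ℤ), T_zpow_mem_Gamma1 M _, ?_⟩
  rw [redMod_T_zpow, ZMod.intCast_zmod_cast]

/-- **`[Γ₁(M) : Γ₁(M a)]` divides `a² - 1`** for a prime `a ∤ M`. -/
theorem relIndex_Gamma1_mul_dvd {M a : ℕ} (ha : a.Prime) (haM : ¬ a ∣ M) :
    (Gamma1 (M * a)).relIndex (Gamma1 M) ∣ a ^ 2 - 1 := by
  haveI : Fact a.Prime := ⟨ha⟩
  haveI : NeZero a := ⟨ha.ne_zero⟩
  have hcop : Nat.Coprime M a := ((Nat.Prime.coprime_iff_not_dvd ha).mpr haM).symm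
  rw [Gamma1_mul_eq hcop, Subgroup.inf_relIndex_right, Subgroup.relIndex_comap]
  set H := (Gamma1 M).map (redMod a) with hH
  have hUH : upperU (ZMod a) ≤ H := upperU_le_map M a
  have h1 := Subgroup.relIndex_mul_relIndex (⊥ : Subgroup SL(2, ZMod a)) (upperU (ZMod a)) H
    bot_le hUH
  rw [Subgroup.relIndex_bot_left, Subgroup.relIndex_bot_left, card_upperU,
    Nat.card_eq_fintype_card, ZMod.card] at h1
  have h2 : Nat.card H ∣ a * (a ^ 2 - 1) := by
    have := Subgroup.card_subgroup_dvd_card H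
    rwa [card_SL2_field, ZMod.card] at this
  rw [← h1] at h2
  exact Nat.dvd_of_mul_dvd_mul_left ha.pos h2

end Gamma1Index

/-! ### Passing to `±Γ₁` -/

section Central

variable {G : Type*} [Group G]

/-- If `Z ≤ P'` is normal, `G₁' ≤ P'`, `G₁ ≤ P` and every element of `P` is in `G₁` up to `Z`,
then `[P : P ∩ P']` divides `[G₁ : G₁ ∩ G₁']`. -/
theorem relIndex_dvd_of_normal (Z : Subgroup G) [Z.Normal] {G₁ G₁' P P' : Subgroup G}
    (hZ : Z ≤ P') (hG' : G₁' ≤ P') (hGP : G₁ ≤ P) (hP : ∀ g ∈ P, ∃ z ∈ Z, g * z ∈ G₁) :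
    P'.relIndex P ∣ G₁'.relIndex G₁ := by
  have hker : (QuotientGroup.mk' Z).ker ≤ P' := by
    rw [QuotientGroup.ker_mk']; exact hZ
  have hmap : P.map (QuotientGroup.mk' Z) = G₁.map (QuotientGroup.mk' Z) := by
    apply le_antisymm
    · rintro _ ⟨g, hg, rfl⟩
      obtain ⟨z, hz, hgz⟩ := hP g hg
      refine ⟨g * z, hgz, ?_⟩
      rw [map_mul]
      have : QuotientGroup.mk' Z z = 1 := (QuotientGroup.eq_one_iff z).mpr hz
      rw [this, mul_one]
    · exact Subgroup.map_mono hGP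
  have e1 : P'.relIndex P = (P'.map (QuotientGroup.mk' Z)).relIndex
      (P.map (QuotientGroup.mk' Z)) := by
    rw [← Subgroup.relIndex_comap, Subgroup.comap_map_eq_self hker]
  have e2 : P'.relIndex G₁ = (P'.map (QuotientGroup.mk' Z)).relIndex
      (G₁.map (QuotientGroup.mk' Z)) := by
    rw [← Subgroup.relIndex_comap, Subgroup.comap_map_eq_self hker]
  rw [e1, hmap, ← e2]
  exact Subgroup.relIndex_dvd_of_le_left G₁ hG'

end Central

end Fermat.Agent.S48.H248

end
-- ===== PACK-END S48/H248/DegGroup.lean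

-- ===== PACK-BEGIN S48/H332/F1Coeff.lean
section


/-!
# Tower A1 / A1-FF (helper332) — the division values `P_a` determine `±a`

`F1.divGenC K M a = F1.divGenC K M b` (`K` of characteristic `0`, `a, b ≠ 0`) implies `a = ±b`:
the least `n` with `divCoeff M a 12 n ≠ 0` is the least positive integer `≡ ±a` mod `M`.
-/

set_option autoImplicit false

noncomputable section

open PowerSeries HahnSeries ModularCurve

namespace Fermat.Agent.S48.H332

open Fermat.Agent.S48.F1

theorem divCoeff_twelve (M : ℕ) (a : ZMod M) (n : ℕ) :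
    divCoeff M a 12 n = ∑ m ∈ n.divisors,
      ((if ((m : ℕ) : ZMod M) = a then ((n / m : ℕ) : ℤ) ^ 11 else 0) +
        (if ((m : ℕ) : ZMod M) = -a then ((n / m : ℕ) : ℤ) ^ 11 else 0)) := by
  unfold divCoeff
  refine Finset.sum_congr rfl fun m _ => ?_
  norm_num

theorem divCoeff_term_nonneg (M : ℕ) (a : ZMod M) (n m : ℕ) :
    (0 : ℤ) ≤ (if ((m : ℕ) : ZMod M) = a then ((n / m : ℕ) : ℤ) ^ 11 else 0) +
        (if ((m : ℕ) : ZMod M) = -a then ((n / m : ℕ) : ℤ) ^ 11 else 0) := by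
  have h : (0 : ℤ) ≤ ((n / m : ℕ) : ℤ) ^ 11 := by positivity
  split_ifs <;> omega

theorem divCoeff_nonneg (M : ℕ) (a : ZMod M) (n : ℕ) : 0 ≤ divCoeff M a 12 n := by
  rw [divCoeff_twelve]
  exact Finset.sum_nonneg fun m _ => divCoeff_term_nonneg M a n m

theorem divCoeff_pos_of_dvd (M : ℕ) (a : ZMod M) {n m : ℕ} (hn : 0 < n) (hm : m ∣ n)
    (hma : ((m : ℕ) : ZMod M) = a ∨ ((m : ℕ) : ZMod M) = -a) : 0 < divCoeff M a 12 n := by
  rw [divCoeff_twelve]
  have hmem : m ∈ n.divisors := Nat.mem_divisors.mpr ⟨hm, hn.ne'⟩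
  refine lt_of_lt_of_le ?_
    (Finset.single_le_sum (fun i _ => divCoeff_term_nonneg M a n i) hmem)
  have hm0 : 0 < m := Nat.pos_of_dvd_of_pos hm hn
  have hq : 0 < n / m := Nat.div_pos (Nat.le_of_dvd hn hm) hm0
  have h : (0 : ℤ) < ((n / m : ℕ) : ℤ) ^ 11 := by positivity
  rcases hma with h1 | h1
  · rw [if_pos h1]
    split_ifs <;> omega
  · rw [if_pos h1]
    split_ifs <;> omega

theorem exists_dvd_of_divCoeff_ne_zero (M : ℕ) (a : ZMod M) {n : ℕ}
    (h : divCoeff M a 12 n ≠ 0) :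
    ∃ m, m ∣ n ∧ 0 < n ∧ (((m : ℕ) : ZMod M) = a ∨ ((m : ℕ) : ZMod M) = -a) := by
  rw [divCoeff_twelve] at h
  obtain ⟨m, hm, hne⟩ := Finset.exists_ne_zero_of_sum_ne_zero h
  have hm' := Nat.mem_divisors.mp hm
  refine ⟨m, hm'.1, Nat.pos_of_ne_zero hm'.2, ?_⟩
  by_contra hcon
  push_neg at hcon
  rw [if_neg hcon.1, if_neg hcon.2, add_zero] at hne
  exact hne rfl

/-- the least positive integer in the class `±a` is read off from the coefficients -/
theorem exists_least (M : ℕ) [NeZero M] {a : ZMod M} (ha : a ≠ 0) :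
    ∃ r : ℕ, (((r : ℕ) : ZMod M) = a ∨ ((r : ℕ) : ZMod M) = -a) ∧ divCoeff M a 12 r ≠ 0 ∧
      ∀ n, divCoeff M a 12 n ≠ 0 → r ≤ n := by
  classical
  have hex : ∃ n, divCoeff M a 12 n ≠ 0 := by
    refine ⟨a.val, ?_⟩
    have hpos : 0 < a.val := Nat.pos_of_ne_zero fun h => ha ((ZMod.val_eq_zero a).mp h)
    exact (divCoeff_pos_of_dvd M a hpos dvd_rfl (Or.inl (ZMod.natCast_zmod_val a))).ne'
  refine ⟨Nat.find hex, ?_, Nat.find_spec hex, fun n hn => Nat.find_min' hex hn⟩
  obtain ⟨m, hmr, hr, hma⟩ := exists_dvd_of_divCoeff_ne_zero M a (Nat.find_spec hex)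
  have hm0 : 0 < m := Nat.pos_of_dvd_of_pos hmr hr
  have hle : Nat.find hex ≤ m :=
    Nat.find_min' hex (divCoeff_pos_of_dvd M a hm0 dvd_rfl hma).ne'
  have heq : m = Nat.find hex := le_antisymm (Nat.le_of_dvd hr hmr) hle
  rw [← heq]
  exact hma

/-- **The coefficients `divCoeff M a 12` determine `±a`.** -/
theorem eq_or_eq_neg_of_divCoeff_eq (M : ℕ) [NeZero M] {a b : ZMod M} (ha : a ≠ 0) (hb : b ≠ 0)
    (h : ∀ n, divCoeff M a 12 n = divCoeff M b 12 n) : a = b ∨ a = -b := by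
  obtain ⟨r, hra, hr0, hrmin⟩ := exists_least M ha
  obtain ⟨r', hrb, hr0', hrmin'⟩ := exists_least M hb
  have h1 : r ≤ r' := hrmin r' (by rw [h]; exact hr0')
  have h2 : r' ≤ r := hrmin' r (by rw [← h]; exact hr0)
  have hrr : r = r' := le_antisymm h1 h2
  subst hrr
  have ha' : a = ((r : ℕ) : ZMod M) ∨ a = -((r : ℕ) : ZMod M) := by
    rcases hra with h3 | h3
    · exact Or.inl h3.symm
    · exact Or.inr (by rw [h3, neg_neg])
  have hb' : b = ((r : ℕ) : ZMod M) ∨ b = -((r : ℕ) : ZMod M) := by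
    rcases hrb with h4 | h4
    · exact Or.inl h4.symm
    · exact Or.inr (by rw [h4, neg_neg])
  rcases ha' with h3 | h3 <;> rcases hb' with h4 | h4
  · left; rw [h3, h4]
  · right; rw [h3, h4, neg_neg]
  · right; rw [h3, h4]
  · left; rw [h3, h4]

/-- `divSeries` is recovered from `divNum`. -/
theorem divNum_mul_etaUnit (M : ℕ) (a : ZMod M) :
    divNum M a * dedekindEtaUnit = divSeries M a 12 := by
  rw [divNum, mul_assoc, mul_comm dedekindEtaUnitInv, dedekindEtaUnit_mul_inv, mul_one]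

/-- **The division values determine `±a`** (coefficients in a ring of characteristic `0`). -/
theorem eq_or_eq_neg_of_divGenC_eq (K : Type*) [Field K] [CharZero K] (M : ℕ) [NeZero M]
    {a b : ZMod M} (ha : a ≠ 0) (hb : b ≠ 0) (h : divGenC K M a = divGenC K M b) :
    a = b ∨ a = -b := by
  apply eq_or_eq_neg_of_divCoeff_eq M ha hb
  have hs : (HahnSeries.single (-1 : ℤ) (1 : K)) ≠ 0 := by
    intro h0
    have := congrArg (fun s : LaurentSeries K => s.coeff (-1)) h0
    simp at this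
  unfold divGenC at h
  have h1 := mul_left_cancel₀ hs h
  have h2 : (divNum M a).map (Int.castRingHom K) = (divNum M b).map (Int.castRingHom K) :=
    HahnSeries.ofPowerSeries_injective h1
  have hinj : Function.Injective (PowerSeries.map (Int.castRingHom K)) := by
    intro x y hxy
    ext n
    have := congrArg (PowerSeries.coeff n) hxy
    simp only [PowerSeries.coeff_map, eq_intCast] at this
    exact_mod_cast this
  have h3 : divNum M a = divNum M b := hinj h2
  have h4 : divSeries M a 12 = divSeries M b 12 := by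
    rw [← divNum_mul_etaUnit, ← divNum_mul_etaUnit, h3]
  intro n
  have := congrArg (PowerSeries.coeff n) h4
  simpa using this

end Fermat.Agent.S48.H332

end
end
-- ===== PACK-END S48/H332/F1Coeff.lean

-- ===== PACK-BEGIN S48/H308/RankinCheb.lean
section


/-!
# S48 (Deligne–Serre), piece RANKIN, part 1: the local inequality

For a sequence `b 0 = 1`, `b 1 = a`, `b (e+2) = a * b (e+1) - ε * b e` with `‖ε‖ = 1`
(the Hecke eigenvalues at the powers of a prime `p ∤ N`) and `0 ≤ X < 1`: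

  `exp (‖a‖² X) * (1 - X²) ≤ ∑' e, ‖b e‖² X^e`.

Proof: expand `a^m` in the "Chebyshev basis" `b_e` (`a b_e = b_{e+1} + ε b_{e-1}`), Cauchy–Schwarz
with `∑_e κ_{m,e}² ≤ m!`, and a Cauchy product with `1/(1 - X²)`.
No roots of the Hecke polynomial and no convergence discussion is needed.
-/

set_option autoImplicit false

namespace Fermat.Agent.S48.H308

open Finset

/-- Coefficient of `b_e` in `a^m`, where `a b_e = b_{e+1} + b_{e-1}` (`b_{-1} = 0`). -/
noncomputable def kap : ℕ → ℕ → ℝ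
  | 0, e => if e = 0 then 1 else 0
  | m + 1, e => (if e = 0 then 0 else kap m (e - 1)) + kap m (e + 1)

lemma kap_zero (e : ℕ) : kap 0 e = if e = 0 then 1 else 0 := by
  rw [kap]

lemma kap_succ (m e : ℕ) :
    kap (m + 1) e = (if e = 0 then 0 else kap m (e - 1)) + kap m (e + 1) := by
  rw [kap]

lemma kap_succ_zero (m : ℕ) : kap (m + 1) 0 = kap m 1 := by
  rw [kap_succ]; simp

lemma kap_succ_succ (m e : ℕ) : kap (m + 1) (e + 1) = kap m e + kap m (e + 2) := by
  rw [kap_succ]; simp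

lemma kap_nonneg (m e : ℕ) : 0 ≤ kap m e := by
  induction m generalizing e with
  | zero => rw [kap_zero]; split_ifs <;> norm_num
  | succ m ih =>
    rw [kap_succ]
    split_ifs
    · simpa using ih (e + 1)
    · exact add_nonneg (ih _) (ih _)

lemma kap_eq_zero_of_lt {m e : ℕ} (h : m < e) : kap m e = 0 := by
  induction m generalizing e with
  | zero => rw [kap_zero, if_neg (by omega)]
  | succ m ih =>
    rw [kap_succ, if_neg (by omega), ih (by omega), ih (by omega), add_zero]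

lemma kap_eq_zero_of_odd {m e : ℕ} (h : ¬ Even (m + e)) : kap m e = 0 := by
  induction m generalizing e with
  | zero =>
    rw [kap_zero, if_neg]
    rintro rfl
    exact h (by simp)
  | succ m ih =>
    rw [kap_succ]
    have h2 : kap m (e + 1) = 0 := ih (by
      intro hev; apply h
      have : m + 1 + e = m + (e + 1) := by ring
      rw [this]; exact hev)
    rw [h2, add_zero]
    split_ifs with he
    · rfl
    · apply ih
      intro hev; apply h
      obtain ⟨e', rfl⟩ : ∃ e', e = e' + 1 := ⟨e - 1, by omega⟩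
      simp only [Nat.add_sub_cancel] at hev
      have : m + 1 + (e' + 1) = (m + e') + 2 := by ring
      rw [this]
      exact hev.add (by decide)

/-- `S m = ∑_e κ_{m,e}²` (a Catalan number). -/
noncomputable def kapSq (m : ℕ) : ℝ := ∑ e ∈ range (m + 1), kap m e ^ 2

lemma kapSq_nonneg (m : ℕ) : 0 ≤ kapSq m := sum_nonneg fun _ _ => sq_nonneg _

lemma kapSq_eq_of_le {m K : ℕ} (h : m + 1 ≤ K) : kapSq m = ∑ e ∈ range K, kap m e ^ 2 := by
  unfold kapSq
  refine Finset.sum_subset (by intro x; simp only [mem_range]; omega) ?_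
  intro x _ hx
  simp only [mem_range, not_lt] at hx
  rw [kap_eq_zero_of_lt (by omega)]; norm_num

lemma kapSq_succ_le (m : ℕ) : kapSq (m + 1) ≤ 4 * kapSq m := by
  have h1 : kapSq (m + 1) = ∑ e ∈ range (m + 2), kap (m + 1) e ^ 2 := rfl
  have hA : ∑ e ∈ range (m + 2), (if e = 0 then 0 else kap m (e - 1)) ^ 2 = kapSq m := by
    rw [Finset.sum_range_succ']
    simp only [if_true, Nat.add_sub_cancel, Nat.succ_ne_zero, if_false,
      ne_eq, not_false_eq_true, zero_pow, add_zero, OfNat.ofNat_ne_zero]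
    rfl
  have hB : ∑ e ∈ range (m + 2), kap m (e + 1) ^ 2 ≤ kapSq m := by
    have : kapSq m = ∑ e ∈ range (m + 3), kap m e ^ 2 := kapSq_eq_of_le (by omega)
    rw [this, Finset.sum_range_succ' _ (m + 2)]
    have := sq_nonneg (kap m 0)
    linarith
  rw [h1]
  calc ∑ e ∈ range (m + 2), kap (m + 1) e ^ 2
      ≤ ∑ e ∈ range (m + 2), (2 * (if e = 0 then 0 else kap m (e - 1)) ^ 2
          + 2 * kap m (e + 1) ^ 2) := by
        apply Finset.sum_le_sum
        intro e _
        rw [kap_succ]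
        nlinarith [sq_nonneg ((if e = 0 then 0 else kap m (e - 1)) - kap m (e + 1))]
    _ = 2 * ∑ e ∈ range (m + 2), (if e = 0 then 0 else kap m (e - 1)) ^ 2
          + 2 * ∑ e ∈ range (m + 2), kap m (e + 1) ^ 2 := by
        rw [Finset.sum_add_distrib, Finset.mul_sum, Finset.mul_sum]
    _ ≤ 4 * kapSq m := by rw [hA]; linarith

lemma kapSq_le_factorial (m : ℕ) : kapSq m ≤ (m.factorial : ℝ) := by
  have h0 : kapSq 0 = 1 := by simp [kapSq, kap_zero]
  have h1 : kapSq 1 = 1 := by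
    simp [kapSq, Finset.sum_range_succ, kap_succ, kap_zero]
  have h2 : kapSq 2 = 2 := by
    simp [kapSq, Finset.sum_range_succ, kap_succ, kap_zero]
    norm_num
  have h3 : kapSq 3 = 5 := by
    simp [kapSq, Finset.sum_range_succ, kap_succ, kap_zero]
    norm_num
  induction m with
  | zero => rw [h0]; simp
  | succ m ih =>
    rcases Nat.lt_or_ge m 3 with hm | hm
    · interval_cases m
      · rw [h1]; simp
      · rw [h2]; simp [Nat.factorial]
      · rw [h3]; simp [Nat.factorial]; norm_num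
    · calc kapSq (m + 1) ≤ 4 * kapSq m := kapSq_succ_le m
        _ ≤ (m + 1 : ℝ) * kapSq m := by
          apply mul_le_mul_of_nonneg_right _ (kapSq_nonneg m)
          have : (3 : ℝ) ≤ m := by exact_mod_cast hm
          linarith
        _ ≤ (m + 1 : ℝ) * (m.factorial : ℝ) := by
          apply mul_le_mul_of_nonneg_left ih; positivity
        _ = ((m + 1).factorial : ℝ) := by
          rw [Nat.factorial_succ]; push_cast; ring

/-- Expansion of `a^m` in the basis `b_e`, for `ε = 1`. -/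
lemma pow_eq_sum_kap {a : ℂ} {b : ℕ → ℂ} (hb0 : b 0 = 1) (hb1 : b 1 = a)
    (hrec : ∀ e, b (e + 2) = a * b (e + 1) - b e) (m : ℕ) :
    a ^ m = ∑ e ∈ range (m + 1), (kap m e : ℂ) * b e := by
  induction m with
  | zero => simp [kap_zero, hb0]
  | succ m ih =>
    have hab : ∀ e, a * b (e + 1) = b (e + 2) + b e := fun e => by rw [hrec e]; ring
    -- left side
    have hL : a ^ (m + 1) = (kap m 0 : ℂ) * b 1
        + ∑ e ∈ range m, (kap m (e + 1) : ℂ) * (b (e + 2) + b e) := by
      rw [pow_succ, ih, Finset.sum_mul, Finset.sum_range_succ']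
      rw [add_comm]
      congr 1
      · rw [hb0, hb1]; ring
      · apply Finset.sum_congr rfl
        intro e _
        rw [← hab e]; ring
    -- right side
    have hR : ∑ e ∈ range (m + 1 + 1), (kap (m + 1) e : ℂ) * b e
        = (∑ e ∈ range (m + 1), (kap m e : ℂ) * b (e + 1))
          + ∑ e ∈ range m, (kap m (e + 1) : ℂ) * b e := by
      have hsplit : ∀ e, (kap (m + 1) e : ℂ) * b e
          = ((if e = 0 then 0 else kap m (e - 1) : ℝ) : ℂ) * b e + (kap m (e + 1) : ℂ) * b e := by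
        intro e
        rw [kap_succ]; push_cast; ring
      rw [Finset.sum_congr rfl (fun e _ => hsplit e), Finset.sum_add_distrib]
      congr 1
      · rw [Finset.sum_range_succ']
        simp
      · rw [Finset.sum_range_succ, Finset.sum_range_succ]
        rw [kap_eq_zero_of_lt (show m < m + 1 by omega),
          kap_eq_zero_of_lt (show m < m + 1 + 1 by omega)]
        simp
    rw [hL, hR, Finset.sum_range_succ' (fun e => (kap m e : ℂ) * b (e + 1))]
    simp only [mul_add, Finset.sum_add_distrib]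
    ring

end Fermat.Agent.S48.H308

end
-- ===== PACK-END S48/H308/RankinCheb.lean

-- ===== PACK-BEGIN S48/H308/RankinLocal.lean
section


/-!
# S48 (Deligne–Serre), piece RANKIN, part 2: the local inequality

`local_ineq`: for `b 0 = 1`, `b 1 = a`, `b (e+2) = a * b (e+1) - ε * b e`, `‖ε‖ = 1`, `0 ≤ X < 1`
and `∑ ‖b e‖² X^e` summable:  `exp (‖a‖² X) * (1 - X²) ≤ ∑' e, ‖b e‖² X^e`.
-/

set_option autoImplicit false

namespace Fermat.Agent.S48.H308

open Finset

/-- `d_m = ∑_{e ≤ m, e ≡ m mod 2} ‖b_e‖²`, written over the antidiagonal. -/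
noncomputable def dseq (b : ℕ → ℂ) (m : ℕ) : ℝ :=
  ∑ kl ∈ antidiagonal m, ‖b kl.1‖ ^ 2 * (if Even kl.2 then 1 else 0)

lemma dseq_eq_range (b : ℕ → ℂ) (m : ℕ) :
    dseq b m = ∑ e ∈ range (m + 1), (if Even (m + e) then ‖b e‖ else 0) ^ 2 := by
  unfold dseq
  rw [Finset.Nat.sum_antidiagonal_eq_sum_range_succ_mk]
  apply Finset.sum_congr rfl
  intro e he
  simp only [mem_range] at he
  have hiff : Even (m - e) ↔ Even (m + e) := by
    have h1 : m + e = (m - e) + 2 * e := by omega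
    rw [h1, Nat.even_add]
    simp
  by_cases h : Even (m + e)
  · rw [if_pos h, if_pos (hiff.mpr h)]; ring
  · rw [if_neg h, if_neg (fun h' => h (hiff.mp h'))]; ring

/-- Cauchy–Schwarz step, case `ε = 1`. -/
lemma norm_pow_le_one {a : ℂ} {b : ℕ → ℂ} (hb0 : b 0 = 1) (hb1 : b 1 = a)
    (hrec : ∀ e, b (e + 2) = a * b (e + 1) - b e) (m : ℕ) :
    ‖a‖ ^ (2 * m) ≤ (m.factorial : ℝ) * dseq b m := by
  have hexp := pow_eq_sum_kap hb0 hb1 hrec m
  have h1 : ‖a‖ ^ m ≤ ∑ e ∈ range (m + 1), kap m e * (if Even (m + e) then ‖b e‖ else 0) := by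
    rw [← norm_pow, hexp]
    refine (norm_sum_le _ _).trans (le_of_eq ?_)
    apply Finset.sum_congr rfl
    intro e _
    rw [norm_mul, Complex.norm_real, Real.norm_of_nonneg (kap_nonneg m e)]
    by_cases h : Even (m + e)
    · rw [if_pos h]
    · rw [if_neg h, kap_eq_zero_of_odd h]; ring
  have h0 : (0 : ℝ) ≤ ‖a‖ ^ m := by positivity
  calc ‖a‖ ^ (2 * m) = (‖a‖ ^ m) ^ 2 := by rw [← pow_mul, mul_comm]
    _ ≤ (∑ e ∈ range (m + 1), kap m e * (if Even (m + e) then ‖b e‖ else 0)) ^ 2 :=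
        pow_le_pow_left₀ h0 h1 2
    _ ≤ (∑ e ∈ range (m + 1), kap m e ^ 2)
          * ∑ e ∈ range (m + 1), (if Even (m + e) then ‖b e‖ else 0) ^ 2 :=
        Finset.sum_mul_sq_le_sq_mul_sq _ _ _
    _ = kapSq m * dseq b m := by rw [dseq_eq_range]; rfl
    _ ≤ (m.factorial : ℝ) * dseq b m := by
        apply mul_le_mul_of_nonneg_right (kapSq_le_factorial m)
        unfold dseq
        apply Finset.sum_nonneg
        intro kl _
        split_ifs <;> positivity

/-- Cauchy–Schwarz step, general `ε` of norm one. -/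
lemma norm_pow_le {a ε : ℂ} (hε : ‖ε‖ = 1) {b : ℕ → ℂ} (hb0 : b 0 = 1) (hb1 : b 1 = a)
    (hrec : ∀ e, b (e + 2) = a * b (e + 1) - ε * b e) (m : ℕ) :
    ‖a‖ ^ (2 * m) ≤ (m.factorial : ℝ) * dseq b m := by
  obtain ⟨η, hη⟩ : ∃ η : ℂ, η ^ 2 = ε := IsAlgClosed.exists_pow_nat_eq ε (by norm_num)
  have hηn : ‖η‖ = 1 := by
    have h1 : ‖η‖ ^ 2 = 1 := by rw [← norm_pow, hη, hε]
    have h2 : (0 : ℝ) ≤ ‖η‖ := norm_nonneg _
    nlinarith [sq_nonneg (‖η‖ - 1), sq_nonneg (‖η‖ + 1)]
  have hη0 : η ≠ 0 := by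
    intro h; rw [h, norm_zero] at hηn; exact zero_ne_one hηn
  set b' : ℕ → ℂ := fun e => b e * (η⁻¹) ^ e with hb'
  have hnb : ∀ e, ‖b' e‖ = ‖b e‖ := by
    intro e
    simp only [hb', norm_mul, norm_pow, norm_inv, hηn, inv_one, one_pow, mul_one]
  have hrec' : ∀ e, b' (e + 2) = (a * η⁻¹) * b' (e + 1) - b' e := by
    intro e
    have hmi : η * η⁻¹ = 1 := mul_inv_cancel₀ hη0
    simp only [hb']
    rw [hrec e, ← hη]
    linear_combination (-(b e) * (η⁻¹) ^ e * (η * η⁻¹ + 1)) * hmi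
  have h := norm_pow_le_one (a := a * η⁻¹) (b := b') (by simp [hb', hb0]) (by simp [hb', hb1])
    hrec' m
  have hna : ‖a * η⁻¹‖ = ‖a‖ := by rw [norm_mul, norm_inv, hηn, inv_one, mul_one]
  have hd : dseq b' m = dseq b m := by
    unfold dseq
    apply Finset.sum_congr rfl
    intro kl _
    rw [hnb]
  rwa [hna, hd] at h

/-- The even-indexed geometric series. -/
lemma hasSum_even_geom {X : ℝ} (hX0 : 0 ≤ X) (hX1 : X < 1) :
    HasSum (fun i : ℕ => (if Even i then (1 : ℝ) else 0) * X ^ i) (1 - X ^ 2)⁻¹ := by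
  have hX2 : X ^ 2 < 1 := by nlinarith
  have hgeo : HasSum (fun j : ℕ => (X ^ 2) ^ j) (1 - X ^ 2)⁻¹ :=
    hasSum_geometric_of_lt_one (by positivity) hX2
  have hinj : Function.Injective (fun j : ℕ => 2 * j) := fun x y h => by
    simpa using h
  have hsupp : ∀ i, i ∉ Set.range (fun j : ℕ => 2 * j) →
      (if Even i then (1 : ℝ) else 0) * X ^ i = 0 := by
    intro i hi
    rw [if_neg, zero_mul]
    intro hev
    apply hi
    obtain ⟨j, hj⟩ := hev
    exact ⟨j, by simp only; omega⟩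
  rw [← hinj.hasSum_iff hsupp]
  convert hgeo using 1
  funext j
  simp [pow_mul]

/-- **Local inequality.** -/
theorem local_ineq {a ε : ℂ} (hε : ‖ε‖ = 1) {b : ℕ → ℂ} (hb0 : b 0 = 1) (hb1 : b 1 = a)
    (hrec : ∀ e, b (e + 2) = a * b (e + 1) - ε * b e) {X : ℝ} (hX0 : 0 ≤ X) (hX1 : X < 1)
    (hsum : Summable fun e => ‖b e‖ ^ 2 * X ^ e) :
    Real.exp (‖a‖ ^ 2 * X) * (1 - X ^ 2) ≤ ∑' e, ‖b e‖ ^ 2 * X ^ e := by
  have hX2 : X ^ 2 < 1 := by nlinarith
  have h1X : 0 < 1 - X ^ 2 := by linarith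
  set u : ℕ → ℝ := fun e => ‖b e‖ ^ 2 * X ^ e with hu
  set v : ℕ → ℝ := fun i => (if Even i then (1 : ℝ) else 0) * X ^ i with hv
  have hu0 : ∀ e, 0 ≤ u e := fun e => by simp only [hu]; positivity
  have hv0 : ∀ i, 0 ≤ v i := fun i => by
    simp only [hv]; split_ifs <;> positivity
  have hvs : HasSum v (1 - X ^ 2)⁻¹ := hasSum_even_geom hX0 hX1
  have hun : Summable fun e => ‖u e‖ := by
    simpa [Real.norm_of_nonneg (hu0 _)] using hsum
  have hvn : Summable fun i => ‖v i‖ := by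
    simpa [Real.norm_of_nonneg (hv0 _)] using hvs.summable
  have hprod := tsum_mul_tsum_eq_tsum_sum_antidiagonal_of_summable_norm hun hvn
  have hsummable : Summable fun n => ∑ kl ∈ antidiagonal n, u kl.1 * v kl.2 :=
    summable_sum_mul_antidiagonal_of_summable_norm' hun hsum hvn hvs.summable
  have hterm : ∀ n, ∑ kl ∈ antidiagonal n, u kl.1 * v kl.2 = dseq b n * X ^ n := by
    intro n
    unfold dseq
    rw [Finset.sum_mul]
    apply Finset.sum_congr rfl
    intro kl hkl
    have hkl' : kl.1 + kl.2 = n := Finset.HasAntidiagonal.mem_antidiagonal.mp hkl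
    simp only [hu, hv]
    rw [← hkl', pow_add]
    ring
  have hexp : HasSum (fun n : ℕ => (‖a‖ ^ 2 * X) ^ n / (n.factorial : ℝ))
      (Real.exp (‖a‖ ^ 2 * X)) := by
    rw [Real.exp_eq_exp_ℝ]
    exact NormedSpace.expSeries_div_hasSum_exp (‖a‖ ^ 2 * X)
  have hle : ∀ n : ℕ, (‖a‖ ^ 2 * X) ^ n / (n.factorial : ℝ)
      ≤ ∑ kl ∈ antidiagonal n, u kl.1 * v kl.2 := by
    intro n
    rw [hterm, mul_pow, ← pow_mul]
    have hf : (0 : ℝ) < n.factorial := by exact_mod_cast Nat.factorial_pos n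
    rw [div_le_iff₀ hf]
    have := norm_pow_le hε hb0 hb1 hrec n
    have hXn : 0 ≤ X ^ n := by positivity
    nlinarith [mul_le_mul_of_nonneg_right this hXn]
  have hfinal : Real.exp (‖a‖ ^ 2 * X) ≤ (∑' e, u e) * (1 - X ^ 2)⁻¹ := by
    rw [← hvs.tsum_eq, hprod]
    exact hasSum_le hle hexp hsummable.hasSum
  calc Real.exp (‖a‖ ^ 2 * X) * (1 - X ^ 2)
      ≤ ((∑' e, u e) * (1 - X ^ 2)⁻¹) * (1 - X ^ 2) :=
        mul_le_mul_of_nonneg_right hfinal h1X.le
    _ = ∑' e, u e := by field_simp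

end Fermat.Agent.S48.H308

end
-- ===== PACK-END S48/H308/RankinLocal.lean

-- ===== PACK-BEGIN S48/H648/MeanSquare.lean
section
/-
S48 (Deligne–Serre), piece (P4) "elementary Rankin bound", part 1 (helper648).

Bessel/Parseval on a horocycle: for a holomorphic, `h`-periodic function `f` on the upper half
plane which is bounded at `i∞`, with `q`-expansion coefficients `a_n`,
  `∑_{n ∈ s} ‖a_n‖² e^{-4π n t / h} ≤ h⁻¹ ∫_0^h ‖f (u + i t)‖² du`   for every finite set `s`.
For a cusp form of weight `k` this gives `∑_{n ≤ x} ‖a_n‖² = O(x^k)`.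
Mathlib only.
-/


set_option autoImplicit false

open Complex UpperHalfPlane Function MeasureTheory Real
open scoped Real Manifold

noncomputable section

namespace Fermat.Agent.S48.H648

local notation "𝕢" => Function.Periodic.qParam

/-- The restriction of `f` to the horocycle of height `t`, as a function of the real part. -/
def horo (f : ℍ → ℂ) (t : ℝ) (u : ℝ) : ℂ := (f ∘ ofComplex) (u + t * Complex.I)

lemma horo_eq (f : ℍ → ℂ) {t : ℝ} (ht : 0 < t) (u : ℝ) :
    horo f t u = f ⟨u + t * Complex.I, by simpa using ht⟩ := by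
  unfold horo
  simp only [Function.comp_apply]
  rw [ofComplex_apply_of_im_pos (by simpa using ht)]

lemma continuous_horo {f : ℍ → ℂ} (hf : Continuous f) {t : ℝ} (ht : 0 < t) :
    Continuous (horo f t) := by
  have : horo f t = fun u : ℝ => f ⟨u + t * Complex.I, by simpa using ht⟩ := by
    ext u; exact horo_eq f ht u
  rw [this]
  refine hf.comp ?_
  refine Continuous.upperHalfPlaneMk ?_ _
  fun_prop

/-- Fourier coefficient of the horocycle function = `a_n e^{-2π n t / h}`. -/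
lemma fourierCoeffOn_horo {f : ℍ → ℂ} {h : ℝ} (hh : 0 < h)
    (hfper : Periodic (f ∘ ofComplex) h) (hfhol : MDifferentiable 𝓘(ℂ) 𝓘(ℂ) f)
    (hfbdd : IsBoundedAtImInfty f) (n : ℕ) {t : ℝ} (ht : 0 < t) :
    fourierCoeffOn (a := 0) (b := h) hh (horo f t) n =
      (qExpansion h f).coeff n * Real.exp (-2 * π * n * t / h) := by
  have hq : (qExpansion h f).coeff n = 1 / (h : ℂ) * ∫ u in (0:ℝ)..h,
      1 / 𝕢 h ((u : ℂ) + t * Complex.I) ^ n * f ⟨u + t * Complex.I, by simpa using ht⟩ :=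
    qExpansion_coeff_eq_intervalIntegral hh hfper hfhol hfbdd n ht
  rw [fourierCoeffOn_eq_integral, hq]
  simp only [fourier_coe_apply, smul_eq_mul, sub_zero]
  have key : ∀ u : ℝ, Complex.exp (2 * π * Complex.I * ((-(n : ℤ) : ℤ) : ℂ) * u / h) * horo f t u =
      (1 / 𝕢 h ((u : ℂ) + t * Complex.I) ^ n * f ⟨u + t * Complex.I, by simpa using ht⟩) *
        (Real.exp (-2 * π * n * t / h) : ℂ) := by
    intro u
    rw [horo_eq f ht u]
    have h1 : 𝕢 h ((u : ℂ) + t * Complex.I) ^ n =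
        Complex.exp (2 * π * Complex.I * n * u / h) * Complex.exp (-2 * π * n * t / h) := by
      rw [Function.Periodic.qParam, ← Complex.exp_nat_mul, ← Complex.exp_add]
      congr 1
      field_simp
      ring_nf
      rw [Complex.I_sq]
      ring
    rw [h1]
    have h2 : Complex.exp (2 * π * Complex.I * n * u / h) ≠ 0 := Complex.exp_ne_zero _
    have h3 : Complex.exp (-2 * π * n * t / h) ≠ 0 := Complex.exp_ne_zero _
    have h4 : Complex.exp (2 * ↑π * Complex.I * ((-(n : ℤ) : ℤ) : ℂ) * ↑u / ↑h) =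
        (Complex.exp (2 * π * Complex.I * n * u / h))⁻¹ := by
      rw [← Complex.exp_neg]
      congr 1
      push_cast
      ring
    rw [h4]
    push_cast
    field_simp
  have h5 : (∫ x in (0:ℝ)..h,
        Complex.exp (2 * π * Complex.I * ((-(n : ℤ) : ℤ) : ℂ) * x / h) * horo f t x) =
      (∫ u in (0:ℝ)..h, 1 / 𝕢 h ((u : ℂ) + t * Complex.I) ^ n *
        f ⟨u + t * Complex.I, by simpa using ht⟩) * (Real.exp (-2 * π * n * t / h) : ℂ) := by
    rw [← intervalIntegral.integral_mul_const]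
    exact intervalIntegral.integral_congr fun u _ => key u
  rw [h5]
  simp only [one_div, Complex.real_smul, Complex.ofReal_inv]
  ring

lemma memLp_horo {f : ℍ → ℂ} (hf : Continuous f) {t : ℝ} (ht : 0 < t) (h : ℝ) :
    MemLp (horo f t) 2 (volume.restrict (Set.Ioc 0 h)) := by
  have hc := continuous_horo hf ht
  obtain ⟨C, hC⟩ := (isCompact_Icc (a := (0:ℝ)) (b := h)).exists_bound_of_continuousOn
    hc.continuousOn
  refine MemLp.of_bound hc.aestronglyMeasurable C ?_
  rw [ae_restrict_iff' measurableSet_Ioc]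
  exact Filter.Eventually.of_forall fun x hx => hC x (Set.Ioc_subset_Icc_self hx)

/-- **Bessel on a horocycle.** -/
theorem sum_sq_coeff_mul_exp_le {f : ℍ → ℂ} {h : ℝ} (hh : 0 < h)
    (hfper : Periodic (f ∘ ofComplex) h) (hfhol : MDifferentiable 𝓘(ℂ) 𝓘(ℂ) f)
    (hfbdd : IsBoundedAtImInfty f) {t : ℝ} (ht : 0 < t) (s : Finset ℕ) :
    ∑ n ∈ s, ‖(qExpansion h f).coeff n‖ ^ 2 * Real.exp (-4 * π * n * t / h) ≤
      h⁻¹ * ∫ u in (0:ℝ)..h, ‖horo f t u‖ ^ 2 := by
  have hcont : Continuous f := hfhol.continuous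
  have hsum := hasSum_sq_fourierCoeffOn (a := 0) (b := h) hh (memLp_horo hcont ht h)
  simp only [sub_zero, smul_eq_mul] at hsum
  have hle := sum_le_hasSum (s.map Nat.castEmbedding) (fun i _ => by positivity) hsum
  refine le_trans (le_of_eq ?_) hle
  rw [Finset.sum_map]
  refine Finset.sum_congr rfl fun n _ => ?_
  simp only [Nat.castEmbedding_apply]
  rw [fourierCoeffOn_horo hh hfper hfhol hfbdd n ht, norm_mul, mul_pow, Complex.norm_real,
    Real.norm_of_nonneg (Real.exp_pos _).le, ← Real.exp_nat_mul]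
  congr 2
  push_cast
  ring

section CuspForm

variable {k : ℤ} {Γ : Subgroup (GL (Fin 2) ℝ)} [Γ.IsArithmetic]
  {F : Type*} [FunLike F ℍ ℂ] [CuspFormClass F Γ k]

/-- For a cusp form of weight `k`: `∑_{n ∈ s} ‖a_n‖² e^{-4π n t / h} ≤ C t^{-k}`, uniformly in
the finite set `s` and in `t > 0`. -/
theorem exists_sum_sq_coeff_mul_exp_le (f : F) {h : ℝ} (hh : 0 < h)
    (hΓ : h ∈ Γ.strictPeriods) :
    ∃ C : ℝ, 0 ≤ C ∧ ∀ t : ℝ, 0 < t → ∀ s : Finset ℕ,
      ∑ n ∈ s, ‖(qExpansion h f).coeff n‖ ^ 2 * Real.exp (-4 * π * n * t / h) ≤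
        C / t ^ (k : ℝ) := by
  obtain ⟨C₀, hC₀⟩ := CuspFormClass.exists_bound (Γ := Γ) (k := k) f
  have hC₀' : 0 ≤ C₀ := by
    have := hC₀ UpperHalfPlane.I
    have h1 : (0:ℝ) < UpperHalfPlane.I.im ^ ((k:ℝ) / 2) := by positivity
    have h2 : 0 ≤ C₀ / UpperHalfPlane.I.im ^ ((k:ℝ) / 2) := le_trans (norm_nonneg _) this
    rcases (div_nonneg_iff.mp h2) with h3 | h3
    · exact h3.1
    · exact absurd h3.2 (not_le.mpr h1)
  refine ⟨C₀ ^ 2, by positivity, fun t ht s => ?_⟩
  have : Fact (IsCusp OnePoint.infty Γ) := ⟨Γ.isCusp_of_mem_strictPeriods hh hΓ⟩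
  have hB := sum_sq_coeff_mul_exp_le (f := (f : ℍ → ℂ)) hh
    (SlashInvariantFormClass.periodic_comp_ofComplex f hΓ) (ModularFormClass.holo f)
    (ModularFormClass.bdd_at_infty f) ht s
  refine hB.trans ?_
  have hpt : ∀ u : ℝ, ‖horo (f : ℍ → ℂ) t u‖ ^ 2 ≤ C₀ ^ 2 / t ^ (k : ℝ) := by
    intro u
    rw [horo_eq _ ht u]
    have h1 := hC₀ ⟨u + t * Complex.I, by simpa using ht⟩
    have him : (⟨u + t * Complex.I, by simpa using ht⟩ : ℍ).im = t := by
      simp [UpperHalfPlane.im]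
    rw [him] at h1
    have h2 : (t ^ ((k:ℝ) / 2)) ^ 2 = t ^ (k : ℝ) := by
      rw [← Real.rpow_natCast, ← Real.rpow_mul ht.le]
      congr 1
      push_cast
      ring
    calc ‖(f : ℍ → ℂ) ⟨u + t * Complex.I, by simpa using ht⟩‖ ^ 2
        ≤ (C₀ / t ^ ((k:ℝ) / 2)) ^ 2 := by gcongr
      _ = C₀ ^ 2 / t ^ (k : ℝ) := by rw [div_pow, h2]
  have hint : (∫ u in (0:ℝ)..h, ‖horo (f : ℍ → ℂ) t u‖ ^ 2) ≤
      ∫ _u in (0:ℝ)..h, C₀ ^ 2 / t ^ (k : ℝ) := by
    refine intervalIntegral.integral_mono_on hh.le ?_ ?_ fun u _ => hpt u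
    · exact ((continuous_horo (ModularFormClass.holo f).continuous ht).norm.pow 2).intervalIntegrable _ _
    · exact continuous_const.intervalIntegrable _ _
  rw [intervalIntegral.integral_const, sub_zero, smul_eq_mul] at hint
  calc h⁻¹ * ∫ u in (0:ℝ)..h, ‖horo (f : ℍ → ℂ) t u‖ ^ 2
      ≤ h⁻¹ * (h * (C₀ ^ 2 / t ^ (k : ℝ))) := by gcongr
    _ = C₀ ^ 2 / t ^ (k : ℝ) := by field_simp

/-- **Mean-square bound** for the coefficients of a cusp form of weight `k`:
`∑_{n ≤ x} ‖a_n‖² ≤ C x^k` for all `x ≥ 1`. -/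
theorem exists_sum_sq_coeff_le (f : F) {h : ℝ} (hh : 0 < h) (hΓ : h ∈ Γ.strictPeriods) :
    ∃ C : ℝ, 0 ≤ C ∧ ∀ x : ℕ, 1 ≤ x →
      ∑ n ∈ Finset.range (x + 1), ‖(qExpansion h f).coeff n‖ ^ 2 ≤ C * (x : ℝ) ^ (k : ℝ) := by
  obtain ⟨C, hC, hbd⟩ := exists_sum_sq_coeff_mul_exp_le (Γ := Γ) (k := k) f hh hΓ
  refine ⟨C * Real.exp (4 * π / h), by positivity, fun x hx => ?_⟩
  have hx0 : (0:ℝ) < x := by exact_mod_cast hx
  have h1 := hbd (1 / x) (by positivity) (Finset.range (x + 1))
  have h2 : ∀ n ∈ Finset.range (x + 1), ‖(qExpansion h f).coeff n‖ ^ 2 * Real.exp (-(4 * π / h)) ≤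
      ‖(qExpansion h f).coeff n‖ ^ 2 * Real.exp (-4 * π * n * (1 / x) / h) := by
    intro n hn
    have hn' : (n : ℝ) ≤ x := by exact_mod_cast Nat.lt_succ_iff.mp (Finset.mem_range.mp hn)
    gcongr
    have h3 : (n : ℝ) * (1 / x) ≤ 1 := by
      rw [mul_one_div]; exact (div_le_one hx0).mpr hn'
    have h4 : 4 * π * (n * (1 / (x:ℝ))) / h ≤ 4 * π / h := by
      apply div_le_div_of_nonneg_right _ hh.le
      nlinarith [Real.pi_pos]
    have h5 : -4 * π * n * (1 / (x:ℝ)) / h = -(4 * π * (n * (1 / (x:ℝ))) / h) := by ring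
    rw [h5]
    linarith
  have h6 := (Finset.sum_le_sum h2).trans h1
  rw [← Finset.sum_mul] at h6
  have h7 : (1 / (x:ℝ)) ^ (k : ℝ) = ((x:ℝ) ^ (k : ℝ))⁻¹ := by
    rw [one_div, Real.inv_rpow hx0.le]
  rw [h7, div_inv_eq_mul] at h6
  have h8 : 0 < Real.exp (-(4 * π / h)) := Real.exp_pos _
  calc ∑ n ∈ Finset.range (x + 1), ‖(qExpansion h f).coeff n‖ ^ 2
      = (∑ n ∈ Finset.range (x + 1), ‖(qExpansion h f).coeff n‖ ^ 2) *
          Real.exp (-(4 * π / h)) * Real.exp (4 * π / h) := by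
        rw [mul_assoc, ← Real.exp_add]; simp
    _ ≤ C * (x:ℝ) ^ (k : ℝ) * Real.exp (4 * π / h) := by gcongr
    _ = C * Real.exp (4 * π / h) * (x : ℝ) ^ (k : ℝ) := by ring

end CuspForm

end Fermat.Agent.S48.H648

end
end
-- ===== PACK-END S48/H648/MeanSquare.lean

-- ===== PACK-BEGIN S48/H128/TsumWeight.lean
section


/-!
# S48 / P1 (helper128): a weighted version of `tsum_prod_pow_eq_tsum_sigma`

`∑_{d, c ≥ 1} w(d) c^k r^{dc} = ∑_{e ≥ 1} (∑_{d c = e} w(d) c^k) r^e` for a bounded weight `w`.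
-/

set_option autoImplicit false

open Filter Topology Nat Finset

namespace Fermat.Agent.S48.H128

/-- The twisted divisor sum `∑_{d c = n} w(d) c^k`. -/
noncomputable def sigmaW (w : ℕ → ℂ) (k n : ℕ) : ℂ :=
  ∑ x ∈ n.divisorsAntidiagonal, w x.1 * (x.2 : ℂ) ^ k

theorem sigmaW_zero (w : ℕ → ℂ) (k : ℕ) : sigmaW w k 0 = 0 := by
  simp [sigmaW]

theorem sigmaW_one (w : ℕ → ℂ) (k : ℕ) : sigmaW w k 1 = w 1 := by
  simp [sigmaW]

theorem summable_prod_weight (w : ℕ → ℂ) (hw : ∀ n, ‖w n‖ ≤ 1) (k : ℕ) {r : ℂ} (hr : ‖r‖ < 1) :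
    Summable fun c : (ℕ+ × ℕ+) ↦ w c.1 * (c.2 : ℂ) ^ k * r ^ (c.1 * c.2 : ℕ) := by
  have h := (summable_prod_mul_pow (𝕜 := ℂ) k hr).norm
  refine Summable.of_norm (h.of_nonneg_of_le (fun _ => norm_nonneg _) fun c => ?_)
  rw [mul_assoc, norm_mul]
  exact mul_le_of_le_one_left (norm_nonneg _) (hw _)

theorem tsum_prod_weight_eq (w : ℕ → ℂ) (hw : ∀ n, ‖w n‖ ≤ 1) (k : ℕ) {r : ℂ} (hr : ‖r‖ < 1) :
    ∑' d : ℕ+, ∑' c : ℕ+, w d * (c : ℂ) ^ k * r ^ (d * c : ℕ) =
      ∑' e : ℕ+, sigmaW w k e * r ^ (e : ℕ) := by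
  have hs := summable_prod_weight w hw k hr
  rw [← hs.tsum_prod (f := fun c : ℕ+ × ℕ+ => w c.1 * (c.2 : ℂ) ^ k * r ^ (c.1 * c.2 : ℕ))]
  rw [← sigmaAntidiagonalEquivProd.tsum_eq]
  have hs' : Summable fun x : (Σ n : ℕ+, Nat.divisorsAntidiagonal n) =>
      (fun c : ℕ+ × ℕ+ => w c.1 * (c.2 : ℂ) ^ k * r ^ (c.1 * c.2 : ℕ))
        (sigmaAntidiagonalEquivProd x) :=
    sigmaAntidiagonalEquivProd.summable_iff.mpr hs
  rw [hs'.tsum_sigma]
  refine tsum_congr fun n => ?_
  rw [tsum_fintype, sigmaW, Finset.sum_mul, Finset.univ_eq_attach]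
  rw [← (n : ℕ).divisorsAntidiagonal.sum_attach
    (fun x : ℕ × ℕ => w x.1 * (x.2 : ℂ) ^ k * r ^ (n : ℕ))]
  refine Finset.sum_congr rfl fun x _ => ?_
  have hx := Nat.mem_divisorsAntidiagonal.mp x.2
  simp only [sigmaAntidiagonalEquivProd, divisorsAntidiagonalFactors, Equiv.coe_fn_mk, PNat.mk_coe]
  rw [hx.1]

end Fermat.Agent.S48.H128

end
-- ===== PACK-END S48/H128/TsumWeight.lean

-- ===== PACK-BEGIN S29/H455/NormEmb.lean
section


/-!
# The norm as a product over an explicit complete family of embeddings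

Let `L / K` be a finite separable extension of degree `n` and let `τ i : L →+* E` (`i : I`,
`|I| = n`) be pairwise distinct ring homomorphisms into a field `E` which all restrict to the same
`j : K →+* E`.  Then `j (N_{L/K} x) = ∏ i, τ i x` (and similarly for the trace).

This is the Galois-theoretic input of the "Hecke operator on Kummer classes" computation
(`K = ` function field of `X₀(N)`, `L = ` function field of `X₀(Nℓ)`, `E = ` meromorphic functions
on the upper half plane, `τ i f = f ∘ γ_i`).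
-/

set_option autoImplicit false
set_option linter.style.haveILetI false
set_option linter.unusedSectionVars false

namespace Fermat.Agent.S29.H455

open Polynomial

section

variable {K L E : Type*} [Field K] [Field L] [Field E] [Algebra K L] [FiniteDimensional K L]
  [Algebra.IsSeparable K L]
variable (j : K →+* E) {I : Type*} [Fintype I] (τ : I → (L →+* E))

/-- The `K`-algebra homomorphism into the algebraic closure of `E` induced by `τ i`. -/
noncomputable def NormEmb_lift (hτ : ∀ i, (τ i).comp (algebraMap K L) = j) (i : I) :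
    letI : Algebra K E := j.toAlgebra
    L →ₐ[K] AlgebraicClosure E :=
  letI : Algebra K E := j.toAlgebra
  { (algebraMap E (AlgebraicClosure E)).comp (τ i) with
    commutes' := fun a => by
      have h := RingHom.congr_fun (hτ i) a
      simp only [RingHom.comp_apply] at h
      show (algebraMap E (AlgebraicClosure E)) (τ i (algebraMap K L a)) = _
      rw [h]
      rfl }

theorem NormEmb_lift_apply (hτ : ∀ i, (τ i).comp (algebraMap K L) = j) (i : I) (x : L) :
    (letI : Algebra K E := j.toAlgebra; NormEmb_lift j τ hτ i x)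
      = algebraMap E (AlgebraicClosure E) (τ i x) := rfl

theorem NormEmb_lift_bijective (hτ : ∀ i, (τ i).comp (algebraMap K L) = j)
    (hinj : Function.Injective τ) (hcard : Fintype.card I = Module.finrank K L) :
    letI : Algebra K E := j.toAlgebra
    Function.Bijective (NormEmb_lift j τ hτ) := by
  letI : Algebra K E := j.toAlgebra
  rw [Fintype.bijective_iff_injective_and_card]
  refine ⟨fun i i' h => hinj ?_, ?_⟩
  · ext x
    have := DFunLike.congr_fun h x
    rw [NormEmb_lift_apply, NormEmb_lift_apply] at this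
    exact (algebraMap E (AlgebraicClosure E)).injective this
  · rw [hcard, AlgHom.card K L (AlgebraicClosure E)]

/-- The norm is the product over a complete family of distinct embeddings. -/
theorem norm_eq_prod_of_injective (hτ : ∀ i, (τ i).comp (algebraMap K L) = j)
    (hinj : Function.Injective τ) (hcard : Fintype.card I = Module.finrank K L) (x : L) :
    j (Algebra.norm K x) = ∏ i, τ i x := by
  letI : Algebra K E := j.toAlgebra
  have h1 := Algebra.norm_eq_prod_embeddings K (AlgebraicClosure E) x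
  have h2 : ∏ i, NormEmb_lift j τ hτ i x = ∏ σ : L →ₐ[K] AlgebraicClosure E, σ x :=
    Fintype.prod_bijective _ (NormEmb_lift_bijective j τ hτ hinj hcard) _ _ (fun _ => rfl)
  rw [← h2] at h1
  simp only [NormEmb_lift_apply] at h1
  rw [← map_prod] at h1
  have h3 : algebraMap K (AlgebraicClosure E) (Algebra.norm K x)
      = algebraMap E (AlgebraicClosure E) (j (Algebra.norm K x)) := rfl
  rw [h3] at h1
  exact (algebraMap E (AlgebraicClosure E)).injective h1

/-- The trace is the sum over a complete family of distinct embeddings. -/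
theorem trace_eq_sum_of_injective (hτ : ∀ i, (τ i).comp (algebraMap K L) = j)
    (hinj : Function.Injective τ) (hcard : Fintype.card I = Module.finrank K L) (x : L) :
    j (Algebra.trace K L x) = ∑ i, τ i x := by
  letI : Algebra K E := j.toAlgebra
  have h1 := trace_eq_sum_embeddings (K := K) (L := L) (AlgebraicClosure E) (x := x)
  have h2 : ∑ i, NormEmb_lift j τ hτ i x = ∑ σ : L →ₐ[K] AlgebraicClosure E, σ x :=
    Fintype.sum_bijective _ (NormEmb_lift_bijective j τ hτ hinj hcard) _ _ (fun _ => rfl)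
  rw [← h2] at h1
  simp only [NormEmb_lift_apply] at h1
  rw [← map_sum] at h1
  have h3 : algebraMap K (AlgebraicClosure E) (Algebra.trace K L x)
      = algebraMap E (AlgebraicClosure E) (j (Algebra.trace K L x)) := rfl
  rw [h3] at h1
  exact (algebraMap E (AlgebraicClosure E)).injective h1

end

end Fermat.Agent.S29.H455

end
-- ===== PACK-END S29/H455/NormEmb.lean

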