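import Mathlib
import Fermat.Prelude.Def_EllipticCurve_FrobeniusTrace
import Mathlib.NumberTheory.ModularForms.CongruenceSubgroups
import Mathlib.Algebra.Field.ZMod
import Mathlib.Topology.Compactification.OnePoint.ProjectiveLine
import Fermat.Prelude.Def_ModularForm_HeckeOperator
import Fermat.Prelude.Def_ModularForm_HeckeOperatorForms
import Mathlib.NumberTheory.ModularForms.Basic
import Mathlib.NumberTheory.ModularForms.Cusps
import Mathlib.NumberTheory.ModularForms.BoundedAtCusp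
import Fermat.Agent.Pack.S44C.G0E2L2
import Fermat.Agent.Pack.S44C.G0E0L3
import Fermat.Agent.Pack.L1.E10L0

-- ===== PACK-BEGIN S18/H264/SepLift.lean
section


/-!
# S18 / G-SEP bridge (helper264): from separability of the residue field to the field
`separable` of `Alg.GoodModel`

Mathlib-only, abstract.  Setting: `Ω` a field, `R ≤ V` subrings, `x ∈ V`, `w ∈ Ω`,
`ρ : R →+* κ` surjective (residue map of `R`), `red : V →+* L` (reduction of `q`-expansions,
`L = κ((q))`) compatible with `ρ`, with `ker red ⊆ w V` and `V ∖ ker red ⊆ Vˣ`.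

* `exists_lift_simple_root` : a polynomial `P̄ ∈ κ[X][Y]` with `P̄(x̄, f̄) = 0`,
  `(∂P̄/∂Y)(x̄, f̄) ≠ 0` lifts to `P ∈ R[x][Y] ⊆ Ω[Y]` with `P(f)/w ∈ V`, `P'(f) ∈ Vˣ`.
* `goodModel_separable_of_red` : the field `separable` of `Alg.GoodModel` (stated with
  `Subring.closure (R ∪ {x})`, which is `Alg.polyRing R x` unfolded), for `L = κ((q))`,
  `κ` perfect of characteristic `p`, `p ∤ ord_q (red x)`, `red f` algebraic over `κ(red x)`.
-/

set_option autoImplicit false

namespace Fermat.Agent.S18.H264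

open Polynomial

section Lift

variable {Ω κ L : Type*} [Field Ω] [Field κ] [Field L] [Algebra κ L]

/-- The value at `x` of a polynomial with coefficients in `R` lies in `R[x]`. -/
theorem eval₂_subtype_mem_closure (R : Subring Ω) (x : Ω) (g : Polynomial R) :
    Polynomial.eval₂ R.subtype x g ∈ Subring.closure ((R : Set Ω) ∪ {x}) := by
  rw [eval₂_eq_sum_range]
  refine sum_mem fun i _ => ?_
  have h1 : ((g.coeff i : R) : Ω) ∈ Subring.closure ((R : Set Ω) ∪ {x}) :=
    Subring.subset_closure (Set.mem_union_left _ (g.coeff i).2)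
  have h2 : x ∈ Subring.closure ((R : Set Ω) ∪ {x}) :=
    Subring.subset_closure (Set.mem_union_right _ (Set.mem_singleton x))
  exact mul_mem h1 (pow_mem h2 _)

/-- Lifting a simple root equation from the residue field. -/
theorem exists_lift_simple_root (R V : Subring Ω) (x w : Ω) (hRV : R ≤ V) (hx : x ∈ V)
    (ρ : R →+* κ) (hρ : Function.Surjective ρ) (red : V →+* L)
    (hcompat : ∀ r : R, red ⟨r, hRV r.2⟩ = algebraMap κ L (ρ r))
    (hker : ∀ f : V, red f = 0 → (f : Ω) * w⁻¹ ∈ V)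
    (hunit : ∀ f : V, red f ≠ 0 → (f : Ω)⁻¹ ∈ V)
    (f : V) (Pbar : Polynomial (Polynomial κ))
    (h0 : Pbar.eval₂ (aeval (red ⟨x, hx⟩) : Polynomial κ →ₐ[κ] L).toRingHom (red f) = 0)
    (h1 : (derivative Pbar).eval₂
      (aeval (red ⟨x, hx⟩) : Polynomial κ →ₐ[κ] L).toRingHom (red f) ≠ 0) :
    ∃ P : Polynomial Ω, (∀ i, P.coeff i ∈ Subring.closure ((R : Set Ω) ∪ {x})) ∧
      P.eval (f : Ω) * w⁻¹ ∈ V ∧ (derivative P).eval (f : Ω) ≠ 0 ∧
      ((derivative P).eval (f : Ω))⁻¹ ∈ V := by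
  obtain ⟨Pt, hPt⟩ := Polynomial.map_surjective (Polynomial.mapRingHom ρ)
    (Polynomial.map_surjective ρ hρ) Pbar
  -- evaluation `R[X] → V`, `X ↦ x`
  set ev : Polynomial R →+* V := Polynomial.eval₂RingHom (Subring.inclusion hRV) ⟨x, hx⟩ with hev
  have hevval : ∀ g : Polynomial R, ((ev g : V) : Ω) = Polynomial.eval₂ R.subtype x g := by
    intro g
    rw [hev, coe_eval₂RingHom]
    have h := Polynomial.hom_eval₂ g (Subring.inclusion hRV) V.subtype ⟨x, hx⟩
    have hc : V.subtype.comp (Subring.inclusion hRV) = R.subtype := RingHom.ext fun _ => rfl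
    rw [hc] at h
    exact h
  have hcomp : red.comp ev =
      ((aeval (red ⟨x, hx⟩) : Polynomial κ →ₐ[κ] L).toRingHom).comp (Polynomial.mapRingHom ρ) := by
    refine Polynomial.ringHom_ext (fun r => ?_) ?_
    · simp only [RingHom.comp_apply, hev, coe_eval₂RingHom, eval₂_C, coe_mapRingHom, map_C,
        AlgHom.toRingHom_eq_coe, RingHom.coe_coe, aeval_C]
      exact hcompat r
    · simp only [RingHom.comp_apply, hev, coe_eval₂RingHom, eval₂_X, coe_mapRingHom, map_X,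
        AlgHom.toRingHom_eq_coe, RingHom.coe_coe, aeval_X]
  set PV : Polynomial V := Pt.map ev with hPV
  have hredP : ∀ Q : Polynomial (Polynomial R),
      red ((Q.map ev).eval f) =
        (Q.map (Polynomial.mapRingHom ρ)).eval₂
          (aeval (red ⟨x, hx⟩) : Polynomial κ →ₐ[κ] L).toRingHom (red f) := by
    intro Q
    rw [← Polynomial.eval₂_hom, Polynomial.eval₂_map, Polynomial.eval₂_map, eval₂_eq_eval_map,
      eval₂_eq_eval_map, ← Polynomial.map_map, ← hcomp, Polynomial.map_map]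
  refine ⟨PV.map V.subtype, ?_, ?_, ?_⟩
  · intro i
    rw [coeff_map, hPV, coeff_map]
    show ((ev (Pt.coeff i) : V) : Ω) ∈ _
    rw [hevval]
    exact eval₂_subtype_mem_closure R x _
  · have hval : (PV.map V.subtype).eval (f : Ω) = ((PV.eval f : V) : Ω) := by
      rw [eval_map]
      exact (Polynomial.hom_eval₂ PV (RingHom.id V) V.subtype f).symm ▸ by
        simp [eval₂_eq_eval_map]
    rw [hval]
    apply hker
    rw [hPV, hredP, hPt]
    exact h0
  · have hval : (derivative (PV.map V.subtype)).eval (f : Ω) =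
        ((((derivative Pt).map ev).eval f : V) : Ω) := by
      rw [derivative_map, eval_map, hPV, ← derivative_map]
      exact (Polynomial.hom_eval₂ _ (RingHom.id V) V.subtype f).symm ▸ by
        simp [eval₂_eq_eval_map]
    have hne : red (((derivative Pt).map ev).eval f) ≠ 0 := by
      rw [hredP, ← derivative_map, hPt]
      exact h1
    rw [hval]
    refine ⟨?_, hunit _ hne⟩
    intro h
    apply hne
    have : ((derivative Pt).map ev).eval f = 0 := Subtype.ext h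
    rw [this, map_zero]

end Lift

section GoodModel

variable {Ω κ : Type*} [Field Ω] [Field κ] [PerfectField κ] (p : ℕ) [hp : Fact p.Prime]
  [CharP κ p]

/-- **The field `separable` of `Alg.GoodModel`** from a reduction map to `κ((q))`.
`R ≤ V` subrings of `Ω`, `ρ : R →+* κ` onto a perfect field of characteristic `p`,
`red : V →+* κ((q))` compatible with `ρ`, `ker red ⊆ w V`, `V ∖ ker red ⊆ Vˣ`,
`p ∤ ord_q (red x)`, every `red f` algebraic over `κ(red x)`.
The conclusion is literally the field `separable` (with `Alg.polyRing R x` unfolded). -/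
theorem goodModel_separable_of_red (R V : Subring Ω) (x w : Ω) (hRV : R ≤ V) (hx : x ∈ V)
    (ρ : R →+* κ) (hρ : Function.Surjective ρ) (red : V →+* LaurentSeries κ)
    (hcompat : ∀ r : R, red ⟨r, hRV r.2⟩ = algebraMap κ (LaurentSeries κ) (ρ r))
    (hker : ∀ f : V, red f = 0 → (f : Ω) * w⁻¹ ∈ V)
    (hunit : ∀ f : V, red f ≠ 0 → (f : Ω)⁻¹ ∈ V)
    (hord : ¬ (p : ℤ) ∣ (red ⟨x, hx⟩).order)
    (halg : ∀ f : V, IsAlgebraic (IntermediateField.adjoin κ {red ⟨x, hx⟩}) (red f)) :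
    ∀ f ∈ V, ∃ P : Polynomial Ω, (∀ i, P.coeff i ∈ Subring.closure ((R : Set Ω) ∪ {x})) ∧
      P.eval f * w⁻¹ ∈ V ∧ (derivative P).eval f ≠ 0 ∧ ((derivative P).eval f)⁻¹ ∈ V := by
  intro f hf
  obtain ⟨Pbar, h0, h1⟩ :=
    exists_bivariate_simple_root_laurent p (red ⟨x, hx⟩) (red ⟨f, hf⟩) hord (halg ⟨f, hf⟩)
  exact exists_lift_simple_root R V x w hRV hx ρ hρ red hcompat hker hunit ⟨f, hf⟩ Pbar h0 h1

end GoodModel

end Fermat.Agent.S18.H264

end
-- ===== PACK-END S18/H264/SepLift.lean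

-- ===== PACK-BEGIN S48/H856/IgusaAbs.lean
section


/-!
# S48 / RES (Tower A1) / node IGUSA1 — the abstract core (helper856), Mathlib-only

Good reduction of the full-level (hence of the `Γ₁`-) modular function field at every prime
`p ∤ M`, deduced from Igusa's theorem for `X₀(M)` (landed S28) by pure Galois theory.

Setting: `L` a field with an action of a finite group `G` (`L` = full-level field over a number
field `E ∋ ζ_M`, `G` = image of `SL₂(ℤ)`), `V` a discrete valuation subring of `L` with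
uniformiser `w` (the Gauss valuation on `X`-expansions, `X = q^{1/M}`), `A₀ ⊆ Lᴳ` a subring with
`Frac A₀ = Lᴳ` (`A₀ = R[j]`), `B ≤ G` (the image of `Γ₀(M)`), `t ∈ G` (the image of
`T = (1 1; 0 1)`, acting by `X ↦ ζ X`).

* `eq_top_of_normalClosure_of_mul` : group theory (`G = D·B`, conjugates of `t` by `B` in `D`,
  normal closure of `t` is `G` ⟹ `D = G`);
* `smul_ideal_eq_of_unipotent`     : the same for the stabiliser of a prime ideal;
* `stable_of_unipotent`            : `V` is `G`-stable (**unique extension of the Gauss valuation**)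
  as soon as `t` preserves `V` and the `q`-expansion principle holds for `B`-invariant elements;
* `qep_of_stable`, `igusa_qep`     : the `q`-expansion principle for ALL of `L`
  (`b` integral over `A₀`, `b/w ∈ V` ⟹ `b/w` integral over `A₀`), in the shape of
  `Fermat.Agent.S18.Alg.GoodModel.qep_fin`.
-/

set_option autoImplicit false

open scoped Pointwise

namespace Fermat.Agent.S48.H856

/-! ## 1. Group theory -/

/-- If `G = D·B`, the `B`-conjugates of `t` lie in `D`, and the normal closure of `t` is `G`,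
then `D = G`. -/
theorem eq_top_of_normalClosure_of_mul {G : Type*} [Group G] (B D : Subgroup G) (t : G)
    (htn : ∀ b ∈ B, b * t * b⁻¹ ∈ D)
    (hDB : ∀ g : G, ∃ d ∈ D, ∃ b ∈ B, g = d * b)
    (hgen : Subgroup.normalClosure ({t} : Set G) = ⊤) : D = ⊤ := by
  rw [eq_top_iff, ← hgen]
  unfold Subgroup.normalClosure
  rw [Subgroup.closure_le]
  intro x hx
  rw [Group.mem_conjugatesOfSet_iff] at hx
  obtain ⟨a, ha, hax⟩ := hx
  rw [Set.mem_singleton_iff] at ha
  subst ha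
  obtain ⟨c, rfl⟩ := isConj_iff.mp hax
  obtain ⟨d, hd, b, hb, rfl⟩ := hDB c
  have h : d * b * a * (d * b)⁻¹ = d * (b * a * b⁻¹) * d⁻¹ := by group
  rw [SetLike.mem_coe, h]
  exact D.mul_mem (D.mul_mem hd (htn b hb)) (D.inv_mem hd)

/-! ## 2. Prime ideals -/

section Ideal

variable {C : Type*} [CommRing C] {G : Type*} [Group G] [Finite G] [MulSemiringAction G C]

/-- A prime ideal `P` of a ring with `G`-action is `G`-stable as soon as it is stable under an
element `t` whose normal closure is `G`, and its trace on the invariants of a subgroup `B`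
normalising `⟨t⟩` is the same for all conjugates of `P`. -/
theorem smul_ideal_eq_of_unipotent (P : Ideal C) [P.IsPrime] (B : Subgroup G) (t : G)
    (htn : ∀ b ∈ B, b * t * b⁻¹ ∈ Subgroup.zpowers t)
    (htP : t • P = P)
    (hB : ∀ g : G, ∀ x : C, (∀ b ∈ B, b • x = x) → (x ∈ g • P ↔ x ∈ P))
    (hgen : Subgroup.normalClosure ({t} : Set G) = ⊤) (g : G) : g • P = P := by
  have htD : t ∈ MulAction.stabilizer G P := htP
  have hzD : Subgroup.zpowers t ≤ MulAction.stabilizer G P := by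
    rwa [Subgroup.zpowers_le]
  have hDB : ∀ g : G, ∃ d ∈ MulAction.stabilizer G P, ∃ b ∈ B, g = d * b := by
    intro g
    have : Algebra.IsInvariant (FixedPoints.subring C B) C B :=
      ⟨fun x hx => ⟨⟨x, hx⟩, rfl⟩⟩
    have hQ : (g⁻¹ • P).IsPrime := Ideal.IsPrime.smul g⁻¹
    have hPQ : P.under (FixedPoints.subring C B) = (g⁻¹ • P).under (FixedPoints.subring C B) := by
      ext x
      simp only [Ideal.under_def, Ideal.mem_comap]
      exact (hB g⁻¹ x.1 (fun b hb => x.2 ⟨b, hb⟩)).symm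
    obtain ⟨β, hβ⟩ := Algebra.IsInvariant.exists_smul_of_under_eq
      (FixedPoints.subring C B) C B P (g⁻¹ • P) hPQ
    have hβ' : g⁻¹ • P = (β : G) • P := hβ
    refine ⟨g * β, ?_, (β : G)⁻¹, B.inv_mem β.2, by group⟩
    rw [MulAction.mem_stabilizer_iff, mul_smul, ← hβ', smul_inv_smul]
  have hD := eq_top_of_normalClosure_of_mul B (MulAction.stabilizer G P) t
    (fun b hb => hzD (htn b hb)) hDB hgen
  have hg : g ∈ MulAction.stabilizer G P := hD ▸ Subgroup.mem_top g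
  exact hg

end Ideal


/-! ## 3. Discrete valuation rings with a group action -/

section Valuation

variable {L : Type*} [Field L] {G : Type*} [Group G] [MulSemiringAction G L]

/-- `V` is a discrete valuation subring of `L` with uniformiser `w`. -/
structure IsDiscrete (V : ValuationSubring L) (w : L) : Prop where
  w_lt : V.valuation w < 1
  w_ne : w ≠ 0
  disc : ∀ y : L, y ≠ 0 → ∃ n : ℤ, V.valuation y = V.valuation w ^ n

variable {V : ValuationSubring L} {w : L}

theorem IsDiscrete.w_pos (h : IsDiscrete V w) : 0 < V.valuation w :=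
  zero_lt_iff.mpr ((Valuation.ne_zero_iff _).mpr h.w_ne)

/-- an element integral over a subring of `V` lies in `V` -/
theorem mem_of_isIntegral {A₀ : Subring L} (hA_le : A₀ ≤ V.toSubring) {c : L}
    (hc : IsIntegral A₀ c) : c ∈ V := by
  have h1 : IsIntegral V c := by
    obtain ⟨p, hmonic, hp⟩ := hc
    refine ⟨p.map (Subring.inclusion hA_le), hmonic.map _, ?_⟩
    rw [Polynomial.eval₂_map]
    exact hp
  obtain ⟨y, hy⟩ := IsIntegrallyClosed.isIntegral_iff.mp h1
  rw [← hy]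
  exact y.2

/-- the image of an integral element under an automorphism fixing the base is integral -/
theorem isIntegral_smul {A₀ : Subring L} (hA_fix : ∀ a ∈ A₀, ∀ g : G, g • a = a) {c : L}
    (hc : IsIntegral A₀ c) (g : G) : IsIntegral A₀ (g • c) := by
  obtain ⟨p, hmonic, hp⟩ := hc
  refine ⟨p, hmonic, ?_⟩
  have h1 : (MulSemiringAction.toRingHom G L g).comp (algebraMap A₀ L) = algebraMap A₀ L := by
    ext a
    exact hA_fix a.1 a.2 g
  have h2 := Polynomial.hom_eval₂ p (algebraMap A₀ L) (MulSemiringAction.toRingHom G L g) c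
  rw [hp, map_zero, h1] at h2
  exact h2.symm


variable [Finite G]

/-- every element of `L` has a nonzero multiple (by an element of `A₀`) integral over `A₀`,
as soon as the invariants of the finite group `G` lie in the fraction field of `A₀` -/
theorem exists_integral_mul (A₀ : Subring L)
    (hA_frac : ∀ y : L, (∀ g : G, g • y = y) → ∃ a ∈ A₀, ∃ s ∈ A₀, s ≠ 0 ∧ y * s = a) (x : L) :
    ∃ s ∈ A₀, s ≠ 0 ∧ IsIntegral A₀ (x * s) := by
  classical
  cases nonempty_fintype G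
  set f := MulSemiringAction.charpoly G x with hf
  have hcoef : ∀ i : ℕ, ∃ a ∈ A₀, ∃ s ∈ A₀, s ≠ 0 ∧ f.coeff i * s = a := fun i =>
    hA_frac _ (fun g => MulSemiringAction.smul_coeff_charpoly x i g)
  choose a ha s hs hs0 has using hcoef
  set n := f.natDegree with hn
  set S : L := ∏ i ∈ Finset.range (n + 1), s i with hS
  have hS0 : S ≠ 0 := Finset.prod_ne_zero_iff.mpr fun i _ => hs0 i
  have hSmem : ∀ i : ℕ, S * f.coeff i ∈ A₀ := by
    intro i
    by_cases hi : i ∈ Finset.range (n + 1)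
    · have h1 : S = (∏ j ∈ (Finset.range (n + 1)).erase i, s j) * s i := by
        rw [hS, Finset.prod_erase_mul _ _ hi]
      have h2 : S * f.coeff i = (∏ j ∈ (Finset.range (n + 1)).erase i, s j) * a i := by
        rw [h1, ← has i]; ring
      rw [h2]
      exact A₀.mul_mem (A₀.prod_mem fun j _ => hs j) (ha i)
    · have h0 : f.coeff i = 0 := by
        apply Polynomial.coeff_eq_zero_of_natDegree_lt
        rw [Finset.mem_range, not_lt] at hi
        omega
      rw [h0, mul_zero]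
      exact A₀.zero_mem
  have hlift : Polynomial.C S * f ∈ Polynomial.lifts (algebraMap A₀ L) := by
    rw [Polynomial.lifts_iff_coeff_lifts]
    intro i
    rw [Polynomial.coeff_C_mul]
    exact ⟨⟨_, hSmem i⟩, rfl⟩
  obtain ⟨p, hp⟩ := hlift
  replace hp : p.map (algebraMap A₀ L) = Polynomial.C S * f := hp
  have hp0 : p ≠ 0 := by
    rintro rfl
    rw [Polynomial.map_zero] at hp
    have hf0 : f ≠ 0 := (MulSemiringAction.monic_charpoly G x).ne_zero
    exact mul_ne_zero (Polynomial.C_ne_zero.mpr hS0) hf0 hp.symm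
  have halg : IsAlgebraic A₀ x := by
    refine ⟨p, hp0, ?_⟩
    rw [Polynomial.aeval_def, Polynomial.eval₂_eq_eval_map, hp, Polynomial.eval_mul,
      MulSemiringAction.eval_charpoly, mul_zero]
  obtain ⟨y, hy0, hy⟩ := halg.exists_integral_multiple
  refine ⟨y.1, y.2, fun h => hy0 (Subtype.ext h), ?_⟩
  have : y • x = x * (y : L) := by
    rw [Algebra.smul_def, mul_comm]; rfl
  rwa [this] at hy

variable (V w) in
/-- **Key inequality.**  If the `q`-expansion principle holds for `B`-invariant elements, then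
every conjugate valuation is `≥` the given one on `B`-invariant elements. -/
theorem valuation_smul_le_of_invariant (A₀ : Subring L) (B : Subgroup G)
    (hV : IsDiscrete V w)
    (hA_fix : ∀ a ∈ A₀, ∀ g : G, g • a = a)
    (hA_frac : ∀ y : L, (∀ g : G, g • y = y) → ∃ a ∈ A₀, ∃ s ∈ A₀, s ≠ 0 ∧ y * s = a)
    (hA_le : A₀ ≤ V.toSubring) (hw_mem : w ∈ A₀)
    (hq0 : ∀ b : L, (∀ β ∈ B, β • b = b) → IsIntegral A₀ b → b * w⁻¹ ∈ V →
      IsIntegral A₀ (b * w⁻¹))
    (x : L) (hx : ∀ β ∈ B, β • x = x) (h : G) :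
    V.valuation (h • x) ≤ V.valuation x := by
  by_cases hx0 : x = 0
  · rw [hx0, smul_zero]
  obtain ⟨s, hs, hs0, hc⟩ := exists_integral_mul (G := G) A₀ hA_frac x
  set c := x * s with hcdef
  have hc0 : c ≠ 0 := mul_ne_zero hx0 hs0
  have hwfix : ∀ g : G, g • w = w := fun g => hA_fix w hw_mem g
  have hwinvfix : ∀ g : G, g • w⁻¹ = w⁻¹ := fun g => by rw [smul_inv'', hwfix]
  have hcB : ∀ β ∈ B, β • c = c := fun β hβ => by
    rw [hcdef, smul_mul', hx β hβ, hA_fix s hs β]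
  have hcV : c ∈ V := mem_of_isIntegral hA_le hc
  obtain ⟨n, hn⟩ := hV.disc c hc0
  have hn0 : 0 ≤ n := by
    have h1 : V.valuation c ≤ 1 := (V.valuation_le_one_iff c).mpr hcV
    rw [hn] at h1
    exact (zpow_le_one_iff_right_of_lt_one₀ hV.w_pos hV.w_lt).mp h1
  obtain ⟨N, rfl⟩ := Int.eq_ofNat_of_zero_le hn0
  have hvwinv : V.valuation w⁻¹ = (V.valuation w)⁻¹ := map_inv₀ _ _
  have hval : ∀ i : ℕ, V.valuation (c * w⁻¹ ^ i) = V.valuation w ^ ((N : ℤ) - i) := by
    intro i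
    rw [map_mul, map_pow, hn, hvwinv, inv_pow, ← zpow_natCast (V.valuation w) i,
      ← zpow_neg, ← zpow_add₀ hV.w_pos.ne', sub_eq_add_neg]
  have hind : ∀ i : ℕ, i ≤ N → IsIntegral A₀ (c * w⁻¹ ^ i) ∧ ∀ β ∈ B, β • (c * w⁻¹ ^ i) = c * w⁻¹ ^ i := by
    intro i
    induction i with
    | zero => intro _; simpa using ⟨hc, hcB⟩
    | succ i ih =>
      intro hi
      obtain ⟨h1, h2⟩ := ih (by omega)
      have h3 : c * w⁻¹ ^ (i + 1) = c * w⁻¹ ^ i * w⁻¹ := by rw [pow_succ]; ring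
      have h4 : c * w⁻¹ ^ i * w⁻¹ ∈ V := by
        rw [← h3, ← V.valuation_le_one_iff, hval]
        apply (zpow_le_one_iff_right_of_lt_one₀ hV.w_pos hV.w_lt).mpr
        push_cast
        omega
      refine ⟨h3 ▸ hq0 _ h2 h1 h4, fun β hβ => ?_⟩
      rw [h3, smul_mul', h2 β hβ, hwinvfix]
  have hd := (hind N le_rfl).1
  have hd' : h • (c * w⁻¹ ^ N) ∈ V := mem_of_isIntegral hA_le (isIntegral_smul hA_fix hd h)
  rw [smul_mul', smul_pow', hwinvfix, ← V.valuation_le_one_iff, map_mul, map_pow, hvwinv,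
    inv_pow] at hd'
  have h5 : V.valuation (h • c) ≤ V.valuation w ^ N := by
    have hpos : 0 < V.valuation w ^ N := pow_pos hV.w_pos N
    calc V.valuation (h • c) = V.valuation (h • c) * (V.valuation w ^ N)⁻¹ * V.valuation w ^ N := by
          rw [mul_assoc, inv_mul_cancel₀ hpos.ne', mul_one]
      _ ≤ 1 * V.valuation w ^ N := by gcongr
      _ = V.valuation w ^ N := one_mul _
  have h6 : V.valuation (h • c) = V.valuation (h • x) * V.valuation s := by
    rw [hcdef, smul_mul', hA_fix s hs h, map_mul]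
  have h7 : V.valuation c = V.valuation x * V.valuation s := by rw [hcdef, map_mul]
  have hspos : 0 < V.valuation s := zero_lt_iff.mpr ((Valuation.ne_zero_iff _).mpr hs0)
  rw [zpow_natCast] at hn
  rw [← hn, h6, h7] at h5
  exact le_of_mul_le_mul_right h5 hspos


/-! ### The `G`-stable core of `V` -/

variable (G V) in
/-- the `G`-stable subring `⋂ g, g⁻¹ • V` of `L` -/
def coreRing : Subring L where
  carrier := {y | ∀ g : G, g • y ∈ V}
  zero_mem' := fun g => by rw [smul_zero]; exact V.zero_mem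
  one_mem' := fun g => by rw [smul_one]; exact V.one_mem
  add_mem' := fun ha hb g => by rw [smul_add]; exact V.add_mem _ _ (ha g) (hb g)
  mul_mem' := fun ha hb g => by rw [smul_mul']; exact V.mul_mem _ _ (ha g) (hb g)
  neg_mem' := fun ha g => by rw [smul_neg]; exact V.neg_mem _ (ha g)

omit [Finite G] in
theorem mem_coreRing {y : L} : y ∈ coreRing G V ↔ ∀ g : G, g • y ∈ V := Iff.rfl

instance instIsInvariantSubringCoreRing : IsInvariantSubring G (coreRing G V) where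
  smul_mem g x hx := fun g' => by rw [smul_smul]; exact hx _

omit [Finite G] in
theorem coreRing_le : coreRing G V ≤ V.toSubring := fun y hy => by
  have := hy 1
  rwa [one_smul] at this

omit [Finite G] in
theorem smul_zpow_of_fixed {g : G} {w : L} (hw : g • w = w) (k : ℤ) : g • w ^ k = w ^ k := by
  cases k with
  | ofNat k => rw [Int.ofNat_eq_natCast, zpow_natCast, smul_pow', hw]
  | negSucc k => rw [zpow_negSucc, smul_inv'', smul_pow', hw]

theorem valuation_lt_one_iff_inv_notMem {y : L} (hy : y ≠ 0) :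
    V.valuation y < 1 ↔ y⁻¹ ∉ V := by
  rw [← V.valuation_le_one_iff, map_inv₀, not_le]
  have hpos : 0 < V.valuation y := zero_lt_iff.mpr ((Valuation.ne_zero_iff _).mpr hy)
  constructor
  · intro h
    exact (one_lt_inv₀ hpos).mpr h
  · intro h
    exact (one_lt_inv₀ hpos).mp h

/-- **Unique extension of the Gauss valuation.**  `V` is stable under `G` (all conjugate
valuations coincide) as soon as: `t` preserves `V`, the normal closure of `t` is `G`, the
subgroup `B` normalises `⟨t⟩`, and the `q`-expansion principle holds for `B`-invariant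
elements. -/
theorem valuation_smul_of_unipotent (V : ValuationSubring L) (w : L) (A₀ : Subring L)
    (B : Subgroup G) (t : G) (hV : IsDiscrete V w)
    (hA_fix : ∀ a ∈ A₀, ∀ g : G, g • a = a)
    (hA_frac : ∀ y : L, (∀ g : G, g • y = y) → ∃ a ∈ A₀, ∃ s ∈ A₀, s ≠ 0 ∧ y * s = a)
    (hA_le : A₀ ≤ V.toSubring) (hw_mem : w ∈ A₀)
    (htn : ∀ b ∈ B, b * t * b⁻¹ ∈ Subgroup.zpowers t)
    (hgen : Subgroup.normalClosure ({t} : Set G) = ⊤)
    (htV : ∀ y : L, t • y ∈ V ↔ y ∈ V)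
    (hq0 : ∀ b : L, (∀ β ∈ B, β • b = b) → IsIntegral A₀ b → b * w⁻¹ ∈ V →
      IsIntegral A₀ (b * w⁻¹))
    (g : G) (y : L) : V.valuation (g • y) = V.valuation y := by
  classical
  cases nonempty_fintype G
  have key := valuation_smul_le_of_invariant V w A₀ B hV hA_fix hA_frac hA_le hw_mem hq0
  have hwfix : ∀ g : G, g • w = w := fun g => hA_fix w hw_mem g
  -- the prime ideal `P` of the core
  set P : Ideal (coreRing G V) :=
    (IsLocalRing.maximalIdeal V).comap (Subring.inclusion (coreRing_le (G := G) (V := V))) with hP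
  have hmemP : ∀ x : coreRing G V, x ∈ P ↔ V.valuation (x : L) < 1 := fun x => by
    rw [hP, Ideal.mem_comap]
    exact V.valuation_lt_one_iff _
  have hmemgP : ∀ (g : G) (x : coreRing G V), x ∈ g • P ↔ V.valuation (g⁻¹ • (x : L)) < 1 :=
    fun g x => by
      rw [Ideal.mem_pointwise_smul_iff_inv_smul_mem, hmemP]
      rfl
  have : P.IsPrime := Ideal.comap_isPrime _ _
  have hB : ∀ g : G, ∀ x : coreRing G V, (∀ b ∈ B, b • x = x) → (x ∈ g • P ↔ x ∈ P) := by
    intro g x hx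
    have hx' : ∀ β ∈ B, β • (x : L) = x := fun β hβ => congrArg Subtype.val (hx β hβ)
    rw [hmemgP, hmemP]
    constructor
    · intro h1
      by_contra h2
      have hxV : V.valuation (x : L) ≤ 1 := (V.valuation_le_one_iff _).mpr (coreRing_le x.2)
      have hx1 : V.valuation (x : L) = 1 := le_antisymm hxV (not_lt.mp h2)
      have hx0 : (x : L) ≠ 0 := by
        intro h0
        rw [h0, map_zero] at hx1
        exact zero_ne_one hx1
      have hinv : ∀ β ∈ B, β • (x : L)⁻¹ = (x : L)⁻¹ := fun β hβ => by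
        rw [smul_inv'', hx' β hβ]
      have h3 := key (x : L)⁻¹ hinv g⁻¹
      rw [smul_inv'', map_inv₀, map_inv₀, hx1, inv_one] at h3
      have hgx0 : g⁻¹ • (x : L) ≠ 0 := by
        rwa [Ne, smul_eq_zero_iff_eq]
      have hpos : 0 < V.valuation (g⁻¹ • (x : L)) :=
        zero_lt_iff.mpr ((Valuation.ne_zero_iff _).mpr hgx0)
      have h4 : 1 ≤ V.valuation (g⁻¹ • (x : L)) := (inv_le_one₀ hpos).mp h3
      exact absurd h1 (not_lt.mpr h4)
    · intro h1
      exact lt_of_le_of_lt (key (x : L) hx' g⁻¹) h1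
  have htP : t • P = P := by
    ext x
    rw [hmemgP, hmemP]
    by_cases hx0 : (x : L) = 0
    · rw [hx0, smul_zero]
    have hy0 : t⁻¹ • (x : L) ≠ 0 := by rwa [Ne, smul_eq_zero_iff_eq]
    rw [valuation_lt_one_iff_inv_notMem hy0, valuation_lt_one_iff_inv_notMem hx0,
      ← htV (t⁻¹ • (x : L))⁻¹, smul_inv'', smul_inv_smul]
  have hall := smul_ideal_eq_of_unipotent P B t htn htP hB hgen
  -- the discrete trick
  by_cases hy0 : y = 0
  · rw [hy0, smul_zero]
  have hgy0 : ∀ h : G, h • y ≠ 0 := fun h => by rwa [Ne, smul_eq_zero_iff_eq]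
  choose n hn using fun h : G => hV.disc (h • y) (hgy0 h)
  obtain ⟨h₀, -, hmin⟩ := Finset.exists_min_image Finset.univ n ⟨1, Finset.mem_univ 1⟩
  set m := n h₀ with hm
  set z : L := y * w ^ (-m) with hz
  have hvz : ∀ h : G, V.valuation (h • z) = V.valuation w ^ (n h - m) := by
    intro h
    rw [hz, smul_mul', smul_zpow_of_fixed (hwfix h), map_mul, hn h, map_zpow₀,
      ← zpow_add₀ hV.w_pos.ne', sub_eq_add_neg]
  have hzcore : z ∈ coreRing G V := by
    intro h
    rw [← V.valuation_le_one_iff, hvz]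
    apply (zpow_le_one_iff_right_of_lt_one₀ hV.w_pos hV.w_lt).mpr
    have := hmin h (Finset.mem_univ h)
    omega
  have hnh : ∀ h : G, n h = m := by
    intro h
    set z' : coreRing G V := h₀ • ⟨z, hzcore⟩ with hz'
    have hz'coe : (z' : L) = h₀ • z := rfl
    have hz'P : z' ∉ P := by
      rw [hmemP, hz'coe, hvz, sub_self, zpow_zero]
      exact lt_irrefl _
    have h1 : z' ∉ (h * h₀⁻¹)⁻¹ • P := by rwa [hall]
    rw [hmemgP, inv_inv, hz'coe, smul_smul, inv_mul_cancel_right, hvz] at h1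
    have h2 : V.valuation w ^ (n h - m) ≤ 1 := by
      rw [← hvz]
      exact (V.valuation_le_one_iff _).mpr (hzcore h)
    have h3 : V.valuation w ^ (n h - m) = V.valuation w ^ (0 : ℤ) := by
      rw [zpow_zero]
      exact le_antisymm h2 (not_lt.mp h1)
    have h4 : n h - m = 0 := zpow_right_injective₀ hV.w_pos hV.w_lt.ne h3
    omega
  have h1 := hn g
  have h2 := hn 1
  rw [one_smul] at h2
  rw [h1, h2, hnh g, hnh 1]

/-- `V` is `G`-stable (same hypotheses as `valuation_smul_of_unipotent`). -/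
theorem stable_of_unipotent (V : ValuationSubring L) (w : L) (A₀ : Subring L)
    (B : Subgroup G) (t : G) (hV : IsDiscrete V w)
    (hA_fix : ∀ a ∈ A₀, ∀ g : G, g • a = a)
    (hA_frac : ∀ y : L, (∀ g : G, g • y = y) → ∃ a ∈ A₀, ∃ s ∈ A₀, s ≠ 0 ∧ y * s = a)
    (hA_le : A₀ ≤ V.toSubring) (hw_mem : w ∈ A₀)
    (htn : ∀ b ∈ B, b * t * b⁻¹ ∈ Subgroup.zpowers t)
    (hgen : Subgroup.normalClosure ({t} : Set G) = ⊤)
    (htV : ∀ y : L, t • y ∈ V ↔ y ∈ V)
    (hq0 : ∀ b : L, (∀ β ∈ B, β • b = b) → IsIntegral A₀ b → b * w⁻¹ ∈ V →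
      IsIntegral A₀ (b * w⁻¹))
    (g : G) (y : L) : g • y ∈ V ↔ y ∈ V := by
  rw [← V.valuation_le_one_iff, ← V.valuation_le_one_iff,
    valuation_smul_of_unipotent V w A₀ B t hV hA_fix hA_frac hA_le hw_mem htn hgen htV hq0]

end Valuation


/-! ## 4. The `q`-expansion principle -/

section QEP

open Polynomial

variable {L : Type*} [Field L] {G : Type*} [Group G] [Finite G] [MulSemiringAction G L]

theorem mem_of_mul_inv_pow_mem (V : ValuationSubring L) (w : L) (A₀ : Subring L)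
    (hw_mem : w ∈ A₀) (hw_ne : w ≠ 0) (hA_le : A₀ ≤ V.toSubring)
    (hA_w : ∀ a ∈ A₀, a * w⁻¹ ∈ V → a * w⁻¹ ∈ A₀) :
    ∀ k : ℕ, ∀ a ∈ A₀, a * w⁻¹ ^ k ∈ V → a * w⁻¹ ^ k ∈ A₀ := by
  intro k
  induction k with
  | zero => intro a ha _; simpa using ha
  | succ k ih =>
    intro a ha h
    have h1 : a * w⁻¹ ^ k = (a * w⁻¹ ^ (k + 1)) * w := by
      rw [pow_succ, mul_assoc, mul_assoc, inv_mul_cancel₀ hw_ne, mul_one]
    have h2 : a * w⁻¹ ^ k ∈ V := by
      rw [h1]
      exact V.mul_mem _ _ h (hA_le hw_mem)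
    have h3 := ih a ha h2
    have h4 : a * w⁻¹ ^ (k + 1) = (a * w⁻¹ ^ k) * w⁻¹ := by rw [pow_succ]; ring
    rw [h4] at h ⊢
    exact hA_w _ h3 h

/-- coefficients of a product of monic linear factors with roots in a subring -/
theorem coeff_prod_X_sub_C_mem {ι : Type*} (s : Finset ι) (r : ι → L) (T : Subring L)
    (hr : ∀ i ∈ s, r i ∈ T) (n : ℕ) : (∏ i ∈ s, (X - C (r i))).coeff n ∈ T := by
  have h : ∏ i ∈ s, (X - C (r i)) ∈ Polynomial.lifts T.subtype := by
    apply Subsemiring.prod_mem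
    intro i hi
    have : (X - C (r i) : L[X]) = X + C (-(r i)) := by rw [C_neg, sub_eq_add_neg]
    rw [this]
    exact Subsemiring.add_mem _ (X_mem_lifts _) (C'_mem_lifts ⟨⟨-(r i), T.neg_mem (hr i hi)⟩, rfl⟩)
  rw [Polynomial.lifts_iff_coeff_lifts] at h
  obtain ⟨a, ha⟩ := h n
  rw [← ha]
  exact a.2

/-- **`q`-expansion principle from stability.**  If `V` is `G`-stable, `A₀` is integrally closed
in `Lᴳ` and `A₀[1/w] ∩ V = A₀`, then `b` integral over `A₀`, `b/w ∈ V` ⟹ `b/w` integral. -/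
theorem qep_of_stable (V : ValuationSubring L) (w : L) (A₀ : Subring L)
    (hA_fix : ∀ a ∈ A₀, ∀ g : G, g • a = a)
    (hA_ic : ∀ y : L, (∀ g : G, g • y = y) → IsIntegral A₀ y → y ∈ A₀)
    (hA_le : A₀ ≤ V.toSubring) (hw_mem : w ∈ A₀) (hw_ne : w ≠ 0)
    (hA_w : ∀ a ∈ A₀, a * w⁻¹ ∈ V → a * w⁻¹ ∈ A₀)
    (hstab : ∀ g : G, ∀ y ∈ V, g • y ∈ V)
    (b : L) (hb : IsIntegral A₀ b) (hbw : b * w⁻¹ ∈ V) : IsIntegral A₀ (b * w⁻¹) := by
  classical
  cases nonempty_fintype G
  set y := b * w⁻¹ with hy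
  have hwfix : ∀ g : G, g • w = w := fun g => hA_fix w hw_mem g
  have hgb : ∀ g : G, g • b = w * g • y := fun g => by
    rw [hy, smul_mul', smul_inv'', hwfix, mul_comm (g • b), ← mul_assoc, mul_inv_cancel₀ hw_ne,
      one_mul]
  set n := Fintype.card G with hn
  -- the scaling relation between the two characteristic polynomials
  have hrel : (MulSemiringAction.charpoly G b).comp (C w * X)
      = C (w ^ n) * MulSemiringAction.charpoly G y := by
    rw [MulSemiringAction.charpoly_eq, MulSemiringAction.charpoly_eq, Polynomial.prod_comp]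
    have h1 : ∀ g : G, (X - C (g • b)).comp (C w * X) = C w * (X - C (g • y)) := fun g => by
      rw [sub_comp, X_comp, C_comp, hgb g, C_mul]
      ring
    rw [Finset.prod_congr rfl (fun g _ => h1 g), Finset.prod_mul_distrib, Finset.prod_const,
      Finset.card_univ, ← C_pow]
  have hcoef : ∀ i : ℕ, (MulSemiringAction.charpoly G b).coeff i * w ^ i
      = w ^ n * (MulSemiringAction.charpoly G y).coeff i := fun i => by
    have := congrArg (fun p => p.coeff i) hrel
    simp only [Polynomial.comp_C_mul_X_coeff, Polynomial.coeff_C_mul] at this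
    exact this
  -- coefficients of `fb` lie in `A₀`
  have hfbA : ∀ i : ℕ, (MulSemiringAction.charpoly G b).coeff i ∈ A₀ := by
    intro i
    apply hA_ic _ (fun g => MulSemiringAction.smul_coeff_charpoly b i g)
    have h1 := coeff_prod_X_sub_C_mem (Finset.univ : Finset G) (fun g => g • b)
      (integralClosure A₀ L).toSubring (fun g _ => isIntegral_smul hA_fix hb g) i
    exact h1
  -- coefficients of `fy` lie in `V`
  have hfyV : ∀ i : ℕ, (MulSemiringAction.charpoly G y).coeff i ∈ V := by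
    intro i
    exact coeff_prod_X_sub_C_mem (Finset.univ : Finset G) (fun g => g • y)
      V.toSubring (fun g _ => hstab g y hbw) i
  have hpow := mem_of_mul_inv_pow_mem V w A₀ hw_mem hw_ne hA_le hA_w
  have hfyA : ∀ i : ℕ, (MulSemiringAction.charpoly G y).coeff i ∈ A₀ := by
    intro i
    by_cases hi : i ≤ n
    · have h1 : (MulSemiringAction.charpoly G y).coeff i
          = (MulSemiringAction.charpoly G b).coeff i * w⁻¹ ^ (n - i) := by
        have h2 := hcoef i
        have hwn : w ^ n = w ^ (n - i) * w ^ i := by rw [← pow_add, Nat.sub_add_cancel hi]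
        have hwi : w ^ i ≠ 0 := pow_ne_zero _ hw_ne
        have hwni : w ^ (n - i) ≠ 0 := pow_ne_zero _ hw_ne
        rw [hwn, mul_assoc, mul_comm (w ^ i), ← mul_assoc] at h2
        have h3 := mul_right_cancel₀ hwi h2
        rw [inv_pow, h3, mul_comm (w ^ (n - i)), mul_assoc, mul_inv_cancel₀ hwni, mul_one]
      rw [h1]
      apply hpow _ _ (hfbA i)
      rw [← h1]
      exact hfyV i
    · have hdeg : (MulSemiringAction.charpoly G y).natDegree = n := by
        rw [MulSemiringAction.charpoly_eq, natDegree_prod_of_monic _ _ (fun g _ => monic_X_sub_C _)]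
        simp [hn]
      rw [Polynomial.coeff_eq_zero_of_natDegree_lt (by omega)]
      exact A₀.zero_mem
  have hlift : MulSemiringAction.charpoly G y ∈ Polynomial.lifts (algebraMap A₀ L) := by
    rw [Polynomial.lifts_iff_coeff_lifts]
    intro i
    exact ⟨⟨_, hfyA i⟩, rfl⟩
  obtain ⟨p, hp1, -, hp2⟩ := Polynomial.lifts_and_natDegree_eq_and_monic hlift
    (MulSemiringAction.monic_charpoly G y)
  exact ⟨p, hp2, by rw [← eval_map, hp1, MulSemiringAction.eval_charpoly]⟩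

/-- **IGUSA1, abstract form.**  From the `q`-expansion principle for the invariants of `B`
(= Igusa's theorem for `X₀(M)`, landed S28) to the `q`-expansion principle for the whole
field `L` (full level), hence for every intermediate field (`Γ₁(M)`, ...). -/
theorem igusa_qep (V : ValuationSubring L) (w : L) (A₀ : Subring L)
    (B : Subgroup G) (t : G) (hV : IsDiscrete V w)
    (hA_fix : ∀ a ∈ A₀, ∀ g : G, g • a = a)
    (hA_frac : ∀ y : L, (∀ g : G, g • y = y) → ∃ a ∈ A₀, ∃ s ∈ A₀, s ≠ 0 ∧ y * s = a)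
    (hA_ic : ∀ y : L, (∀ g : G, g • y = y) → IsIntegral A₀ y → y ∈ A₀)
    (hA_le : A₀ ≤ V.toSubring) (hw_mem : w ∈ A₀)
    (hA_w : ∀ a ∈ A₀, a * w⁻¹ ∈ V → a * w⁻¹ ∈ A₀)
    (htn : ∀ b ∈ B, b * t * b⁻¹ ∈ Subgroup.zpowers t)
    (hgen : Subgroup.normalClosure ({t} : Set G) = ⊤)
    (htV : ∀ y : L, t • y ∈ V ↔ y ∈ V)
    (hq0 : ∀ b : L, (∀ β ∈ B, β • b = b) → IsIntegral A₀ b → b * w⁻¹ ∈ V →
      IsIntegral A₀ (b * w⁻¹)) :
    ∀ b : L, IsIntegral A₀ b → b * w⁻¹ ∈ V → IsIntegral A₀ (b * w⁻¹) :=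
  qep_of_stable V w A₀ hA_fix hA_ic hA_le hw_mem hV.w_ne hA_w
    (fun g y hy => (stable_of_unipotent V w A₀ B t hV hA_fix hA_frac hA_le hw_mem htn hgen htV
      hq0 g y).mpr hy)

end QEP

end Fermat.Agent.S48.H856

end
-- ===== PACK-END S48/H856/IgusaAbs.lean

-- ===== PACK-BEGIN S48/H856/GaussRing.lean
section


/-!
# S48 / RES / IGUSA1, leaves I-V and I-TV: the Gauss valuation ring of a field of Laurent series
(helper856, Mathlib-only)

`K` a field with a discrete valuation subring `𝒪` (uniformiser `w₀`), `L` a field with an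
expansion map `ex : L →+* K((X))`.  `gaussRing 𝒪 ex` = `{U₁/U₂ : ex U₁ integral, ex U₂ primitive}`.
`HasBd f` : `f` is a quotient of elements with bounded denominators (automatic on a subfield
generated by elements with integral expansions, `hasBd_of_mem_closure`).

* `IsPrim.mul`                    : Gauss' lemma for Laurent series;
* `GaussHyp.total`, `w_inv_notMem`, `discrete` : on elements with `HasBd`, `gaussRing` is a
  discrete valuation ring with uniformiser `w`;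
* `mem_gaussRing_of_isInt`, `GaussHyp.gauss_inv_mem` : the fields `R_le_V`, `x_mem_V`, `gauss`;
* `smul_mem_gaussRing_iff`        : an automorphism acting on expansions by `X ↦ ζ X`
  (`ζ` a unit of `𝒪`) preserves `gaussRing` (field `t_V` of `IgusaData`).
-/

set_option autoImplicit false

open HahnSeries

namespace Fermat.Agent.S48.H856

section Series

variable {K : Type*} [Field K] (𝒪 : ValuationSubring K)

/-- all coefficients lie in `𝒪` -/
def IsInt (s : LaurentSeries K) : Prop := ∀ k, s.coeff k ∈ 𝒪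

/-- integral, with a unit coefficient -/
def IsPrim (s : LaurentSeries K) : Prop := IsInt 𝒪 s ∧ ∃ k, 𝒪.valuation (s.coeff k) = 1

variable {𝒪}

theorem isInt_iff {s : LaurentSeries K} : IsInt 𝒪 s ↔ ∀ k, 𝒪.valuation (s.coeff k) ≤ 1 :=
  forall_congr' fun _ => (𝒪.valuation_le_one_iff _).symm

theorem isInt_zero : IsInt 𝒪 (0 : LaurentSeries K) := fun _ => by
  rw [HahnSeries.coeff_zero]; exact 𝒪.zero_mem

theorem coeff_C_eq (c : K) (k : ℤ) :
    (HahnSeries.C c : LaurentSeries K).coeff k = if k = 0 then c else 0 := by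
  rw [HahnSeries.C_apply, HahnSeries.coeff_single]
  split_ifs <;> rfl

theorem isInt_C {c : K} (hc : c ∈ 𝒪) : IsInt 𝒪 (HahnSeries.C c : LaurentSeries K) := fun k => by
  rw [coeff_C_eq]
  split_ifs
  · exact hc
  · exact 𝒪.zero_mem

theorem isInt_one : IsInt 𝒪 (1 : LaurentSeries K) := by
  have : (1 : LaurentSeries K) = HahnSeries.C 1 := (map_one _).symm
  rw [this]
  exact isInt_C 𝒪.one_mem

theorem isPrim_one : IsPrim 𝒪 (1 : LaurentSeries K) := by
  refine ⟨isInt_one, 0, ?_⟩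
  have : (1 : LaurentSeries K) = HahnSeries.C 1 := (map_one _).symm
  rw [this, coeff_C_eq, if_pos rfl, map_one]

theorem IsInt.add {s s' : LaurentSeries K} (h : IsInt 𝒪 s) (h' : IsInt 𝒪 s') :
    IsInt 𝒪 (s + s') := fun k => by
  rw [HahnSeries.coeff_add]; exact 𝒪.add_mem _ _ (h k) (h' k)

theorem IsInt.neg {s : LaurentSeries K} (h : IsInt 𝒪 s) : IsInt 𝒪 (-s) := fun k => by
  rw [HahnSeries.coeff_neg]; exact 𝒪.neg_mem _ (h k)

theorem IsInt.mul {s s' : LaurentSeries K} (h : IsInt 𝒪 s) (h' : IsInt 𝒪 s') :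
    IsInt 𝒪 (s * s') := fun k => by
  rw [HahnSeries.coeff_mul]
  exact 𝒪.toSubring.sum_mem fun ij _ => 𝒪.mul_mem _ _ (h _) (h' _)

theorem IsInt.pow {s : LaurentSeries K} (h : IsInt 𝒪 s) (n : ℕ) : IsInt 𝒪 (s ^ n) := by
  induction n with
  | zero => rw [pow_zero]; exact isInt_one
  | succ n ih => rw [pow_succ]; exact ih.mul h

theorem IsPrim.ne_zero {s : LaurentSeries K} (h : IsPrim 𝒪 s) : s ≠ 0 := by
  rintro rfl
  obtain ⟨k, hk⟩ := h.2
  rw [HahnSeries.coeff_zero, map_zero] at hk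
  exact zero_ne_one hk

theorem coeff_C_mul_eq (c : K) (s : LaurentSeries K) (k : ℤ) :
    (HahnSeries.C c * s).coeff k = c * s.coeff k := by
  rw [HahnSeries.C_mul_eq_smul, HahnSeries.coeff_smul, smul_eq_mul]

theorem coeff_mul_C_eq (c : K) (s : LaurentSeries K) (k : ℤ) :
    (s * HahnSeries.C c).coeff k = s.coeff k * c := by
  rw [mul_comm, coeff_C_mul_eq, mul_comm]

/-- **Gauss' lemma** for Laurent series over a valuation ring. -/
theorem IsPrim.mul {f g : LaurentSeries K} (hf : IsPrim 𝒪 f) (hg : IsPrim 𝒪 g) :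
    IsPrim 𝒪 (f * g) := by
  classical
  refine ⟨hf.1.mul hg.1, ?_⟩
  set v := 𝒪.valuation with hv
  -- least indices with unit coefficients
  have hSf : {k | v (f.coeff k) = 1} ⊆ f.support := fun k hk => by
    rw [HahnSeries.mem_support]
    intro h0
    have hk' : v (f.coeff k) = 1 := hk
    rw [h0, map_zero] at hk'
    exact zero_ne_one hk'
  have hSg : {k | v (g.coeff k) = 1} ⊆ g.support := fun k hk => by
    rw [HahnSeries.mem_support]
    intro h0
    have hk' : v (g.coeff k) = 1 := hk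
    rw [h0, map_zero] at hk'
    exact zero_ne_one hk'
  have hwf : {k | v (f.coeff k) = 1}.IsWF := f.isWF_support.mono hSf
  have hwg : {k | v (g.coeff k) = 1}.IsWF := g.isWF_support.mono hSg
  have hnf : {k | v (f.coeff k) = 1}.Nonempty := hf.2
  have hng : {k | v (g.coeff k) = 1}.Nonempty := hg.2
  set i₀ := hwf.min hnf with hi₀
  set j₀ := hwg.min hng with hj₀
  have hi₀1 : v (f.coeff i₀) = 1 := hwf.min_mem hnf
  have hj₀1 : v (g.coeff j₀) = 1 := hwg.min_mem hng
  have hflt : ∀ i, i < i₀ → v (f.coeff i) < 1 := fun i hi => by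
    refine lt_of_le_of_ne ((𝒪.valuation_le_one_iff _).mpr (hf.1 i)) fun h1 => ?_
    exact hwf.not_lt_min hnf h1 hi
  have hglt : ∀ j, j < j₀ → v (g.coeff j) < 1 := fun j hj => by
    refine lt_of_le_of_ne ((𝒪.valuation_le_one_iff _).mpr (hg.1 j)) fun h1 => ?_
    exact hwg.not_lt_min hng h1 hj
  refine ⟨i₀ + j₀, ?_⟩
  rw [HahnSeries.coeff_mul]
  have hmem : (i₀, j₀) ∈ Finset.antidiagonal f.isPWO_support g.isPWO_support (i₀ + j₀) := by
    rw [Finset.mem_antidiagonal]
    exact ⟨hSf hi₀1, hSg hj₀1, rfl⟩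
  rw [← Finset.add_sum_erase _ _ hmem]
  have hrest : v (∑ ij ∈ (Finset.antidiagonal f.isPWO_support g.isPWO_support
      (i₀ + j₀)).erase (i₀, j₀), f.coeff ij.1 * g.coeff ij.2) < 1 := by
    apply Valuation.map_sum_lt v one_ne_zero
    rintro ⟨i, j⟩ hij
    rw [Finset.mem_erase, Finset.mem_antidiagonal] at hij
    obtain ⟨hne, -, -, hsum⟩ := hij
    simp only at hsum
    rw [map_mul]
    have hfi : v (f.coeff i) ≤ 1 := (𝒪.valuation_le_one_iff _).mpr (hf.1 i)
    have hgj : v (g.coeff j) ≤ 1 := (𝒪.valuation_le_one_iff _).mpr (hg.1 j)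
    rcases lt_or_ge i i₀ with hi | hi
    · exact mul_lt_one_of_lt_of_le (hflt i hi) hgj
    · have hj : j < j₀ := by
        rcases lt_or_ge j j₀ with hj | hj
        · exact hj
        · exfalso
          apply hne
          have h1 : i = i₀ := by omega
          have h2 : j = j₀ := by omega
          rw [h1, h2]
      rw [mul_comm]
      exact mul_lt_one_of_lt_of_le (hglt j hj) hfi
  have h1 : v (f.coeff i₀ * g.coeff j₀) = 1 := by rw [map_mul, hi₀1, hj₀1, mul_one]
  rw [Valuation.map_add_eq_of_lt_left v (by rw [h1]; exact hrest), h1]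

end Series

section Field

variable {K : Type*} [Field K] (𝒪 : ValuationSubring K) {L : Type*} [Field L]
  (ex : L →+* LaurentSeries K)

/-- The Gauss valuation ring of `L`: quotients `U₁/U₂` with `ex U₁` integral and `ex U₂`
primitive. -/
def gaussRing : Subring L where
  carrier := {f | ∃ U₁ U₂ : L, IsInt 𝒪 (ex U₁) ∧ IsPrim 𝒪 (ex U₂) ∧ f * U₂ = U₁}
  zero_mem' := ⟨0, 1, by rw [map_zero]; exact isInt_zero, by rw [map_one]; exact isPrim_one,
    by simp⟩
  one_mem' := ⟨1, 1, by rw [map_one]; exact isInt_one, by rw [map_one]; exact isPrim_one,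
    by simp⟩
  add_mem' := by
    rintro f g ⟨U₁, U₂, h1, h2, h3⟩ ⟨U₁', U₂', h1', h2', h3'⟩
    refine ⟨U₁ * U₂' + U₁' * U₂, U₂ * U₂', ?_, ?_, ?_⟩
    · rw [map_add, map_mul, map_mul]; exact (h1.mul h2'.1).add (h1'.mul h2.1)
    · rw [map_mul]; exact h2.mul h2'
    · rw [← h3, ← h3']; ring
  mul_mem' := by
    rintro f g ⟨U₁, U₂, h1, h2, h3⟩ ⟨U₁', U₂', h1', h2', h3'⟩
    refine ⟨U₁ * U₁', U₂ * U₂', ?_, ?_, ?_⟩
    · rw [map_mul]; exact h1.mul h1'
    · rw [map_mul]; exact h2.mul h2'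
    · rw [← h3, ← h3']; ring
  neg_mem' := by
    rintro f ⟨U₁, U₂, h1, h2, h3⟩
    exact ⟨-U₁, U₂, by rw [map_neg]; exact h1.neg, h2, by rw [← h3]; ring⟩

variable {𝒪 ex}

theorem mem_gaussRing {f : L} : f ∈ gaussRing 𝒪 ex ↔
    ∃ U₁ U₂ : L, IsInt 𝒪 (ex U₁) ∧ IsPrim 𝒪 (ex U₂) ∧ f * U₂ = U₁ := Iff.rfl

/-- fields `R_le_V`, `x_mem_V`: an element with integral expansion lies in the Gauss ring -/
theorem mem_gaussRing_of_isInt {f : L} (h : IsInt 𝒪 (ex f)) : f ∈ gaussRing 𝒪 ex :=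
  ⟨f, 1, h, by rw [map_one]; exact isPrim_one, mul_one f⟩

theorem ne_zero_of_isPrim {f : L} (h : IsPrim 𝒪 (ex f)) : f ≠ 0 := by
  rintro rfl
  exact h.ne_zero (map_zero ex)

theorem inv_mem_gaussRing_of_isPrim {f : L} (h : IsPrim 𝒪 (ex f)) : f⁻¹ ∈ gaussRing 𝒪 ex :=
  ⟨1, f, by rw [map_one]; exact isInt_one, h, inv_mul_cancel₀ (ne_zero_of_isPrim h)⟩

variable (𝒪 ex)

/-- The hypotheses: `𝒪` is discrete with uniformiser `w₀` and `w ∈ L` is the constant `w₀`. -/
structure GaussHyp (w₀ : K) (w : L) : Prop where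
  disc : IsDiscrete 𝒪 w₀
  ex_w : ex w = HahnSeries.C w₀

/-- `U` has an expansion with bounded denominators -/
def IsBd (w : L) (U : L) : Prop := ∃ n : ℕ, IsInt 𝒪 (ex (U * w ^ n))

/-- `f` is a quotient of elements with bounded denominators (true for every element of a field
generated by elements with integral expansions, `hasBd_of_mem_closure`) -/
def HasBd (w : L) (f : L) : Prop :=
  ∃ U₁ U₂ : L, U₂ ≠ 0 ∧ IsBd 𝒪 ex w U₁ ∧ IsBd 𝒪 ex w U₂ ∧ f * U₂ = U₁

variable {𝒪 ex} {w₀ : K} {w : L}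

namespace GaussHyp

theorem w_ne_zero (h : GaussHyp 𝒪 ex w₀ w) : w ≠ 0 := by
  rintro rfl
  have h1 := h.ex_w
  rw [map_zero] at h1
  have h2 : (HahnSeries.C w₀ : LaurentSeries K) = HahnSeries.C 0 := by rw [← h1, map_zero]
  exact h.disc.w_ne (HahnSeries.C_injective h2)

theorem coeff_mul_zpow (h : GaussHyp 𝒪 ex w₀ w) (U : L) (a : ℤ) (k : ℤ) :
    (ex (U * w ^ a)).coeff k = (ex U).coeff k * w₀ ^ a := by
  rw [map_mul, map_zpow₀, h.ex_w, ← map_zpow₀, coeff_mul_C_eq]

theorem isInt_mul_zpow (h : GaussHyp 𝒪 ex w₀ w) {U : L} (hU : IsInt 𝒪 (ex U)) {a : ℤ}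
    (ha : 0 ≤ a) : IsInt 𝒪 (ex (U * w ^ a)) := by
  rw [isInt_iff]
  intro k
  rw [h.coeff_mul_zpow, map_mul, map_zpow₀]
  have h1 : 𝒪.valuation ((ex U).coeff k) ≤ 1 := (𝒪.valuation_le_one_iff _).mpr (hU k)
  have h2 : 𝒪.valuation w₀ ^ a ≤ 1 :=
    (zpow_le_one_iff_right_of_lt_one₀ h.disc.w_pos h.disc.w_lt).mpr ha
  calc 𝒪.valuation ((ex U).coeff k) * 𝒪.valuation w₀ ^ a ≤ 1 * 1 := by gcongr
    _ = 1 := one_mul 1

/-- a nonzero element with bounded denominators is `w ^ (-a)` times a primitive one -/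
theorem exists_prim_scale (h : GaussHyp 𝒪 ex w₀ w) {U : L} (hU : U ≠ 0)
    (hb : IsBd 𝒪 ex w U) : ∃ a : ℤ, IsPrim 𝒪 (ex (U * w ^ a)) := by
  obtain ⟨n, hn⟩ := hb
  have hexU : ex U ≠ 0 := fun h0 => hU ((map_eq_zero ex).mp h0)
  have hbdd : ∃ b : ℤ, ∀ z : ℤ, (∃ k, (ex U).coeff k ≠ 0 ∧
      𝒪.valuation ((ex U).coeff k) = 𝒪.valuation w₀ ^ z) → b ≤ z := by
    refine ⟨-n, ?_⟩
    rintro z ⟨k, -, hk⟩
    have h1 := (isInt_iff.mp hn) k
    rw [← zpow_natCast w n, h.coeff_mul_zpow, map_mul, map_zpow₀, hk,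
      ← zpow_add₀ h.disc.w_pos.ne'] at h1
    have := (zpow_le_one_iff_right_of_lt_one₀ h.disc.w_pos h.disc.w_lt).mp h1
    omega
  have hex : ∃ z : ℤ, ∃ k, (ex U).coeff k ≠ 0 ∧
      𝒪.valuation ((ex U).coeff k) = 𝒪.valuation w₀ ^ z := by
    have : ∃ k, (ex U).coeff k ≠ 0 := by
      by_contra hcon
      push Not at hcon
      exact hexU (HahnSeries.ext (funext fun k => by rw [hcon k, HahnSeries.coeff_zero]))
    obtain ⟨k, hk⟩ := this
    obtain ⟨z, hz⟩ := h.disc.disc _ hk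
    exact ⟨z, k, hk, hz⟩
  obtain ⟨m, ⟨k₀, -, hk₀v⟩, hmin⟩ := Int.exists_least_of_bdd hbdd hex
  refine ⟨-m, ?_, k₀, ?_⟩
  · rw [isInt_iff]
    intro k
    rw [h.coeff_mul_zpow, map_mul, map_zpow₀]
    by_cases hk : (ex U).coeff k = 0
    · rw [hk, map_zero, zero_mul]; exact zero_le_one
    · obtain ⟨z, hz⟩ := h.disc.disc _ hk
      have hmz := hmin z ⟨k, hk, hz⟩
      rw [hz, ← zpow_add₀ h.disc.w_pos.ne']
      apply (zpow_le_one_iff_right_of_lt_one₀ h.disc.w_pos h.disc.w_lt).mpr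
      omega
  · rw [h.coeff_mul_zpow, map_mul, map_zpow₀, hk₀v, ← zpow_add₀ h.disc.w_pos.ne',
      add_neg_cancel, zpow_zero]

/-- every nonzero element of `L` is `w ^ n` times a quotient of primitive elements -/
theorem exists_prim_quot (h : GaussHyp 𝒪 ex w₀ w) {f : L} (hbd : HasBd 𝒪 ex w f)
    (hf : f ≠ 0) :
    ∃ (n : ℤ) (P₁ P₂ : L), IsPrim 𝒪 (ex P₁) ∧ IsPrim 𝒪 (ex P₂) ∧ f * w ^ n * P₂ = P₁ := by
  obtain ⟨U₁, U₂, hU₂, hb₁, hb₂, hfU⟩ := hbd
  have hU₁ : U₁ ≠ 0 := by rw [← hfU]; exact mul_ne_zero hf hU₂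
  obtain ⟨a₁, ha₁⟩ := h.exists_prim_scale hU₁ hb₁
  obtain ⟨a₂, ha₂⟩ := h.exists_prim_scale hU₂ hb₂
  refine ⟨a₁ - a₂, U₁ * w ^ a₁, U₂ * w ^ a₂, ha₁, ha₂, ?_⟩
  rw [← hfU, zpow_sub₀ h.w_ne_zero]
  have := zpow_ne_zero a₂ h.w_ne_zero
  field_simp

/-- field `V_discrete` -/
theorem discrete (h : GaussHyp 𝒪 ex w₀ w) {f : L} (hbd : HasBd 𝒪 ex w f) (hf : f ≠ 0) :
    ∃ n : ℤ, f * w ^ n ∈ gaussRing 𝒪 ex ∧ (f * w ^ n)⁻¹ ∈ gaussRing 𝒪 ex := by
  obtain ⟨n, P₁, P₂, h1, h2, h3⟩ := h.exists_prim_quot hbd hf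
  refine ⟨n, ⟨P₁, P₂, h1.1, h2, h3⟩, ⟨P₂, P₁, h2.1, h1, ?_⟩⟩
  have hfw : f * w ^ n ≠ 0 := mul_ne_zero hf (zpow_ne_zero _ h.w_ne_zero)
  rw [← h3, ← mul_assoc, inv_mul_cancel₀ hfw, one_mul]

/-- field `V_total` -/
theorem total (h : GaussHyp 𝒪 ex w₀ w) {f : L} (hbd : HasBd 𝒪 ex w f) :
    f ∈ gaussRing 𝒪 ex ∨ f⁻¹ ∈ gaussRing 𝒪 ex := by
  by_cases hf : f = 0
  · left; rw [hf]; exact (gaussRing 𝒪 ex).zero_mem
  obtain ⟨n, h1, h2⟩ := h.discrete hbd hf
  have hwV : ∀ a : ℤ, 0 ≤ a → w ^ a ∈ gaussRing 𝒪 ex := fun a ha => by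
    have := h.isInt_mul_zpow (U := 1) (by rw [map_one]; exact isInt_one) ha
    rw [one_mul] at this
    exact mem_gaussRing_of_isInt this
  rcases le_total n 0 with hn | hn
  · left
    have : f = f * w ^ n * w ^ (-n) := by
      rw [mul_assoc, ← zpow_add₀ h.w_ne_zero, add_neg_cancel, zpow_zero, mul_one]
    rw [this]
    exact (gaussRing 𝒪 ex).mul_mem h1 (hwV _ (by omega))
  · right
    have : f⁻¹ = (f * w ^ n)⁻¹ * w ^ n := by
      rw [mul_inv, mul_assoc, inv_mul_cancel₀ (zpow_ne_zero _ h.w_ne_zero), mul_one]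
    rw [this]
    exact (gaussRing 𝒪 ex).mul_mem h2 (hwV _ hn)

/-- field `w_inv_not_mem_V` -/
theorem w_inv_notMem (h : GaussHyp 𝒪 ex w₀ w) : w⁻¹ ∉ gaussRing 𝒪 ex := by
  rintro ⟨U₁, U₂, h1, h2, h3⟩
  obtain ⟨k, hk⟩ := h2.2
  have hU₂ : U₂ = w * U₁ := by
    rw [← h3, ← mul_assoc, mul_inv_cancel₀ h.w_ne_zero, one_mul]
  rw [hU₂, map_mul, h.ex_w, coeff_C_mul_eq, map_mul] at hk
  have h4 : 𝒪.valuation ((ex U₁).coeff k) ≤ 1 := (𝒪.valuation_le_one_iff _).mpr (h1 k)
  have h5 : 𝒪.valuation w₀ * 𝒪.valuation ((ex U₁).coeff k) < 1 :=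
    mul_lt_one_of_lt_of_le h.disc.w_lt h4
  rw [hk] at h5
  exact lt_irrefl _ h5

end GaussHyp

/-! ### Bounded denominators are inherited by generated subfields -/

theorem isBd_of_isInt {w : L} {U : L} (h : IsInt 𝒪 (ex U)) : IsBd 𝒪 ex w U :=
  ⟨0, by rwa [pow_zero, mul_one]⟩

theorem IsBd.mono (h : GaussHyp 𝒪 ex w₀ w) {U : L} {n n' : ℕ} (hn : n ≤ n')
    (hU : IsInt 𝒪 (ex (U * w ^ n))) : IsInt 𝒪 (ex (U * w ^ n')) := by
  obtain ⟨d, rfl⟩ := Nat.exists_eq_add_of_le hn
  have h1 := h.isInt_mul_zpow hU (a := (d : ℤ)) (by omega)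
  have h2 : U * w ^ (n + d) = U * w ^ n * w ^ (d : ℤ) := by
    rw [zpow_natCast, _root_.pow_add, mul_assoc]
  rwa [h2]

theorem IsBd.add (h : GaussHyp 𝒪 ex w₀ w) {U U' : L} (hU : IsBd 𝒪 ex w U)
    (hU' : IsBd 𝒪 ex w U') : IsBd 𝒪 ex w (U + U') := by
  obtain ⟨n, hn⟩ := hU
  obtain ⟨n', hn'⟩ := hU'
  refine ⟨max n n', ?_⟩
  have h1 := IsBd.mono h (le_max_left n n') hn
  have h2 := IsBd.mono h (le_max_right n n') hn'
  rw [add_mul, map_add]
  exact h1.add h2

theorem IsBd.neg {w : L} {U : L} (hU : IsBd 𝒪 ex w U) : IsBd 𝒪 ex w (-U) := by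
  obtain ⟨n, hn⟩ := hU
  exact ⟨n, by rw [neg_mul, map_neg]; exact hn.neg⟩

theorem IsBd.mul {w : L} {U U' : L} (hU : IsBd 𝒪 ex w U) (hU' : IsBd 𝒪 ex w U') :
    IsBd 𝒪 ex w (U * U') := by
  obtain ⟨n, hn⟩ := hU
  obtain ⟨n', hn'⟩ := hU'
  refine ⟨n + n', ?_⟩
  have : U * U' * w ^ (n + n') = U * w ^ n * (U' * w ^ n') := by rw [_root_.pow_add]; ring
  rw [this, map_mul]
  exact hn.mul hn'

theorem isBd_zero {w : L} : IsBd 𝒪 ex w 0 := isBd_of_isInt (by rw [map_zero]; exact isInt_zero)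

theorem isBd_one {w : L} : IsBd 𝒪 ex w 1 := isBd_of_isInt (by rw [map_one]; exact isInt_one)

theorem hasBd_of_isBd {w : L} {U : L} (h : IsBd 𝒪 ex w U) : HasBd 𝒪 ex w U :=
  ⟨U, 1, one_ne_zero, h, isBd_one, mul_one U⟩

theorem HasBd.add (h : GaussHyp 𝒪 ex w₀ w) {f g : L} (hf : HasBd 𝒪 ex w f)
    (hg : HasBd 𝒪 ex w g) : HasBd 𝒪 ex w (f + g) := by
  obtain ⟨U₁, U₂, h0, h1, h2, h3⟩ := hf
  obtain ⟨U₁', U₂', h0', h1', h2', h3'⟩ := hg
  refine ⟨U₁ * U₂' + U₁' * U₂, U₂ * U₂', mul_ne_zero h0 h0',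
    IsBd.add h (h1.mul h2') (h1'.mul h2), h2.mul h2', ?_⟩
  rw [← h3, ← h3']; ring

theorem HasBd.neg {w : L} {f : L} (hf : HasBd 𝒪 ex w f) : HasBd 𝒪 ex w (-f) := by
  obtain ⟨U₁, U₂, h0, h1, h2, h3⟩ := hf
  exact ⟨-U₁, U₂, h0, h1.neg, h2, by rw [← h3]; ring⟩

theorem HasBd.mul {w : L} {f g : L} (hf : HasBd 𝒪 ex w f) (hg : HasBd 𝒪 ex w g) :
    HasBd 𝒪 ex w (f * g) := by
  obtain ⟨U₁, U₂, h0, h1, h2, h3⟩ := hf
  obtain ⟨U₁', U₂', h0', h1', h2', h3'⟩ := hg
  refine ⟨U₁ * U₁', U₂ * U₂', mul_ne_zero h0 h0', h1.mul h1', h2.mul h2', ?_⟩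
  rw [← h3, ← h3']; ring

theorem HasBd.inv {w : L} {f : L} (hf : HasBd 𝒪 ex w f) : HasBd 𝒪 ex w f⁻¹ := by
  by_cases hf0 : f = 0
  · rw [hf0, inv_zero]; exact hasBd_of_isBd isBd_zero
  obtain ⟨U₁, U₂, h0, h1, h2, h3⟩ := hf
  have hU₁ : U₁ ≠ 0 := by rw [← h3]; exact mul_ne_zero hf0 h0
  refine ⟨U₂, U₁, hU₁, h2, h1, ?_⟩
  rw [← h3, ← mul_assoc, inv_mul_cancel₀ hf0, one_mul]

/-- every element of the subfield generated by elements with bounded denominators is a quotient of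
elements with bounded denominators -/
theorem hasBd_of_mem_closure (h : GaussHyp 𝒪 ex w₀ w) {S : Set L}
    (hS : ∀ s ∈ S, IsBd 𝒪 ex w s) {f : L} (hf : f ∈ Subfield.closure S) : HasBd 𝒪 ex w f := by
  induction hf using Subfield.closure_induction with
  | mem z hz => exact hasBd_of_isBd (hS z hz)
  | one => exact hasBd_of_isBd isBd_one
  | add y z _ _ hy hz => exact hy.add h hz
  | neg y _ hy => exact hy.neg
  | inv y _ hy => exact hy.inv
  | mul y z _ _ hy hz => exact hy.mul hz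


/-! ### The `gauss` field: primitive polynomials in a coordinate with a pole -/

theorem IsInt.sum {ι : Type*} (s : Finset ι) (F : ι → LaurentSeries K)
    (h : ∀ i ∈ s, IsInt 𝒪 (F i)) : IsInt 𝒪 (∑ i ∈ s, F i) := fun k => by
  rw [HahnSeries.coeff_sum]
  exact 𝒪.toSubring.sum_mem fun i hi => h i hi k

theorem leadingCoeff_pow' (y : LaurentSeries K) (i : ℕ) :
    (y ^ i).leadingCoeff = y.leadingCoeff ^ i := by
  induction i with
  | zero =>
    rw [pow_zero, pow_zero]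
    have : (1 : LaurentSeries K) = HahnSeries.C 1 := (map_one _).symm
    rw [this, HahnSeries.leadingCoeff_eq, HahnSeries.order_C, coeff_C_eq, if_pos rfl]
  | succ i ih => rw [pow_succ, HahnSeries.leadingCoeff_mul, ih, pow_succ]

/-- A polynomial with coefficients in `𝒪`, one of them a unit, in a coordinate `x` whose expansion
is integral with a pole of order `m > 0` and unit leading coefficient, has primitive expansion. -/
theorem isPrim_sum_of_pole {x : L} (hx : IsInt 𝒪 (ex x)) {m : ℕ} (hm : 0 < m)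
    (hord : (ex x).order = -(m : ℤ)) (hlead : 𝒪.valuation (ex x).leadingCoeff = 1)
    (c : ℕ → L) (c₀ : ℕ → K) (hc : ∀ i, ex (c i) = HahnSeries.C (c₀ i)) (hc₀ : ∀ i, c₀ i ∈ 𝒪)
    (N : ℕ) (hunit : ∃ i, i ≤ N ∧ 𝒪.valuation (c₀ i) = 1) :
    IsPrim 𝒪 (ex (∑ i ∈ Finset.range (N + 1), c i * x ^ i)) := by
  classical
  set v := 𝒪.valuation with hv
  set y := ex x with hy
  have hexp : ex (∑ i ∈ Finset.range (N + 1), c i * x ^ i)
      = ∑ i ∈ Finset.range (N + 1), HahnSeries.C (c₀ i) * y ^ i := by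
    rw [map_sum]
    refine Finset.sum_congr rfl fun i _ => ?_
    rw [map_mul, map_pow, hc]
  rw [hexp]
  have hyint : ∀ i, IsInt 𝒪 (y ^ i) := fun i => hx.pow i
  refine ⟨IsInt.sum _ _ fun i _ => (isInt_C (hc₀ i)).mul (hyint i), ?_⟩
  -- the largest index with a unit coefficient
  obtain ⟨i₁, hi₁N, hi₁⟩ := hunit
  set d := Nat.findGreatest (fun i => v (c₀ i) = 1) N with hd
  have hdN : d ≤ N := Nat.findGreatest_le N
  have hd1 : v (c₀ d) = 1 := Nat.findGreatest_spec (P := fun i => v (c₀ i) = 1) hi₁N hi₁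
  have hgt : ∀ i, d < i → i ≤ N → v (c₀ i) < 1 := fun i hdi hiN => by
    refine lt_of_le_of_ne ((𝒪.valuation_le_one_iff _).mpr (hc₀ i)) fun h1 => ?_
    exact Nat.findGreatest_is_greatest (P := fun i => v (c₀ i) = 1) hdi hiN h1
  have hy0 : y ≠ 0 := by
    intro h0
    rw [h0, HahnSeries.leadingCoeff_zero, map_zero] at hlead
    exact zero_ne_one hlead
  have hordi : ∀ i : ℕ, (y ^ i).order = -((m : ℤ) * i) := fun i => by
    rw [HahnSeries.order_pow, hord]
    simp
    ring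
  refine ⟨-((m : ℤ) * d), ?_⟩
  rw [HahnSeries.coeff_sum]
  have hmem : d ∈ Finset.range (N + 1) := Finset.mem_range.mpr (by omega)
  rw [← Finset.add_sum_erase _ _ hmem]
  have hmain : v ((HahnSeries.C (c₀ d) * y ^ d).coeff (-((m : ℤ) * d))) = 1 := by
    rw [coeff_C_mul_eq, map_mul, hd1, one_mul]
    have : (y ^ d).coeff (-((m : ℤ) * d)) = (y ^ d).leadingCoeff := by
      rw [HahnSeries.leadingCoeff_eq, hordi]
    rw [this, leadingCoeff_pow', map_pow, hlead, one_pow]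
  have hrest : v (∑ i ∈ (Finset.range (N + 1)).erase d,
      (HahnSeries.C (c₀ i) * y ^ i).coeff (-((m : ℤ) * d))) < 1 := by
    apply Valuation.map_sum_lt v one_ne_zero
    intro i hi
    rw [Finset.mem_erase, Finset.mem_range] at hi
    obtain ⟨hne, hiN⟩ := hi
    rw [coeff_C_mul_eq, map_mul]
    rcases lt_or_gt_of_ne hne with hlt | hgt'
    · -- `i < d`: the coefficient vanishes
      have h0 : (y ^ i).coeff (-((m : ℤ) * d)) = 0 := by
        apply HahnSeries.coeff_eq_zero_of_lt_order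
        rw [hordi]
        have h1 : (i : ℤ) < d := by exact_mod_cast hlt
        have h2 : (0 : ℤ) < m := by exact_mod_cast hm
        nlinarith
      rw [h0, map_zero, mul_zero]
      exact zero_lt_one
    · have h1 : v ((y ^ i).coeff (-((m : ℤ) * d))) ≤ 1 :=
        (𝒪.valuation_le_one_iff _).mpr (hyint i _)
      exact mul_lt_one_of_lt_of_le (hgt i hgt' (by omega)) h1
  rw [Valuation.map_add_eq_of_lt_left v (by rw [hmain]; exact hrest), hmain]

/-! ### The `t_V` field: the substitution `X ↦ ζ X` -/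

theorem isInt_of_twist {ζ : K} (hζ : 𝒪.valuation ζ = 1) {s s' : LaurentSeries K}
    (h : ∀ k : ℤ, s'.coeff k = ζ ^ k * s.coeff k) (hs : IsInt 𝒪 s) : IsInt 𝒪 s' := by
  rw [isInt_iff] at hs ⊢
  intro k
  rw [h k, map_mul, map_zpow₀, hζ, one_zpow, one_mul]
  exact hs k

theorem isPrim_of_twist {ζ : K} (hζ : 𝒪.valuation ζ = 1) {s s' : LaurentSeries K}
    (h : ∀ k : ℤ, s'.coeff k = ζ ^ k * s.coeff k) (hs : IsPrim 𝒪 s) : IsPrim 𝒪 s' := by
  refine ⟨isInt_of_twist hζ h hs.1, ?_⟩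
  obtain ⟨k, hk⟩ := hs.2
  exact ⟨k, by rw [h k, map_mul, map_zpow₀, hζ, one_zpow, one_mul, hk]⟩

theorem mem_gaussRing_of_twist (τ : L →+* L) {ζ : K} (hζ : 𝒪.valuation ζ = 1)
    (hτ : ∀ (f : L) (k : ℤ), (ex (τ f)).coeff k = ζ ^ k * (ex f).coeff k) {f : L}
    (hf : f ∈ gaussRing 𝒪 ex) : τ f ∈ gaussRing 𝒪 ex := by
  obtain ⟨U₁, U₂, h1, h2, h3⟩ := hf
  exact ⟨τ U₁, τ U₂, isInt_of_twist hζ (hτ U₁) h1, isPrim_of_twist hζ (hτ U₂) h2,
    by rw [← map_mul, h3]⟩

/-- **Field `t_V`.**  An automorphism acting on expansions by `X ↦ ζ X`, `ζ` a unit of `𝒪`,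
preserves the Gauss valuation ring. -/
theorem smul_mem_gaussRing_iff (τ : L ≃+* L) {ζ : K} (hζ : 𝒪.valuation ζ = 1)
    (hτ : ∀ (f : L) (k : ℤ), (ex (τ f)).coeff k = ζ ^ k * (ex f).coeff k) (f : L) :
    τ f ∈ gaussRing 𝒪 ex ↔ f ∈ gaussRing 𝒪 ex := by
  have hζ0 : ζ ≠ 0 := by
    intro h0
    rw [h0, map_zero] at hζ
    exact zero_ne_one hζ
  constructor
  · intro h
    have hζ' : 𝒪.valuation ζ⁻¹ = 1 := by rw [map_inv₀, hζ, inv_one]
    have hτ' : ∀ (g : L) (k : ℤ),
        (ex ((τ.symm : L →+* L) g)).coeff k = ζ⁻¹ ^ k * (ex g).coeff k := by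
      intro g k
      have h1 := hτ (τ.symm g) k
      rw [RingEquiv.apply_symm_apply] at h1
      rw [h1, ← mul_assoc, ← mul_zpow, inv_mul_cancel₀ hζ0, one_zpow, one_mul]
      rfl
    have := mem_gaussRing_of_twist (τ.symm : L →+* L) hζ' hτ' h
    simpa using this
  · exact mem_gaussRing_of_twist (τ : L →+* L) hζ hτ

end Field

end Fermat.Agent.S48.H856

end
-- ===== PACK-END S48/H856/GaussRing.lean

-- ===== PACK-BEGIN Lib/Cheb/SpecQ.lean
section




/-!
# Shared library CHEB — Tier 3 ("CHEB-Q"): quantitative Chebotarev, frozen interface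

Client: row S48 (Deligne–Serre, Lemma 8.4): a set of primes whose Frobenius lies in a subset `C`
of a finite Galois group `G` has **lower Dirichlet density** at least `|C| / |G|`.

All densities are stated in *finite-sum form* (no `tsum`, no summability side conditions):
`HasLowerDensity X d` says that for every `ε > 0` and every `s > 1` close to `1` some finite
`T ⊆ X` has `∑_{p ∈ T} p ^ (-s) ≥ (d - ε) log (1 / (s - 1))`.

Pieces (plan, owners, status: `coord/CHEB-Q.md` on branch `origin/helper993`):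
* `CycDensityStatement`   (Q-CYC)   quantitative version of `Spec.CycStatement`;
* `CrossDensityStatement` (Q-CROSS) field crossing with `ℚ(ζ_m)`, `m` prime, `m ≡ 1 mod (ord g) ^ r`;
* `BridgeDensityStatement` (Q-BR)   from number fields to valuation subrings of `ℚ̄`;
* `ChebDensityStatement`  (END-Q)   the client statement.
-/

set_option autoImplicit false

open NumberField
open scoped Pointwise

namespace Fermat.Agent.Lib.Cheb.SpecQ

open Fermat.Agent.Lib.Cheb.Spec

/-- `X` has lower Dirichlet density at least `d` (finite-sum form). -/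
def HasLowerDensity (X : Set ℕ) (d : ℝ) : Prop :=
  ∀ ε : ℝ, 0 < ε → ∃ δ : ℝ, 0 < δ ∧ ∀ s : ℝ, 1 < s → s < 1 + δ →
    ∃ T : Finset ℕ, (∀ p ∈ T, p ∈ X) ∧
      (d - ε) * Real.log (1 / (s - 1)) ≤ ∑ p ∈ T, (p : ℝ) ^ (-s)

/-- `X` has upper Dirichlet density at most `d` (finite-sum form). -/
def HasUpperDensity (X : Set ℕ) (d : ℝ) : Prop :=
  ∀ ε : ℝ, 0 < ε → ∃ δ : ℝ, 0 < δ ∧ ∀ s : ℝ, 1 < s → s < 1 + δ →
    ∀ T : Finset ℕ, (∀ p ∈ T, p ∈ X) →
      ∑ p ∈ T, (p : ℝ) ^ (-s) ≤ (d + ε) * Real.log (1 / (s - 1))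

/-- The rational primes `p` such that some prime `P ∣ p` of `𝓞 L` has trivial inertia and
arithmetic Frobenius `g` (i.e. the Frobenius class of `p` is the conjugacy class of `g`). -/
def frobPrimes (L : Type) [Field L] [NumberField L] (g : L ≃ₐ[ℚ] L) : Set ℕ :=
  {p | p.Prime ∧ ∃ P : Ideal (𝓞 L), P.IsPrime ∧ (p : 𝓞 L) ∈ P ∧ InertiaTrivial L P ∧
    IsArithFrobAt ℤ g P}

/-- `|conjugacy class of g| / |Gal(L/ℚ)|`. -/
noncomputable def classDensity (L : Type) [Field L] [NumberField L] (g : L ≃ₐ[ℚ] L) : ℝ :=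
  (Nat.card (conjugatesOf g) : ℝ) / (Nat.card (L ≃ₐ[ℚ] L) : ℝ)

/-- (Q-CYC) quantitative cyclotomic case, in the situation of `Spec.CycStatement`. -/
def CycDensityStatement : Prop :=
  ∀ (L : Type) [Field L] [NumberField L] [IsGalois ℚ L] (m : ℕ) (ζ : L), 0 < m →
    IsPrimitiveRoot ζ m → ∀ g : L ≃ₐ[ℚ] L, (∀ k : ℕ, (g ^ k) ζ = ζ → g ^ k = 1) →
    HasLowerDensity (frobPrimes L g) (classDensity L g)

/-- Finite-level Chebotarev density theorem (lower bound; the upper bound follows). -/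
def ChebDensityFiniteStatement : Prop :=
  ∀ (L : Type) [Field L] [NumberField L] [IsGalois ℚ L] (g : L ≃ₐ[ℚ] L),
    HasLowerDensity (frobPrimes L g) (classDensity L g)

/-- (Q-CROSS) quantitative field crossing. -/
def CrossDensityStatement : Prop :=
  CycDensityStatement → ChebDensityFiniteStatement

/-- The primes `p ∉ S` at which `ρ` is unramified and some Frobenius element is mapped into `C`. -/
def frobPrimesHom {G : Type} [Group G] (ρ : GQ →* G) (C : Set G) (S : Finset ℕ) : Set ℕ :=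
  {p | p.Prime ∧ p ∉ S ∧ ∃ (A : ValuationSubring Qb) (τ : GQ),
    A.LiesOverPrime p ∧ A.IsFrobeniusAt τ p ∧ (∀ ι ∈ A.inertiaSubgroupIn ℚ, ρ ι = 1) ∧ ρ τ ∈ C}

/-- (END-Q) Chebotarev density theorem, client form: for a homomorphism `ρ` on `Gal(ℚ̄/ℚ)` that
factors through a finite extension `E`, and any subset `C` of the target, the primes `p ∉ S`
(unramified for `ρ`) with a Frobenius in `C` have lower Dirichlet density at least
`|C ∩ im ρ| / |im ρ|`. -/
def ChebDensityStatement : Prop :=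
  ∀ (G : Type) [Group G] (ρ : GQ →* G) (E : IntermediateField ℚ Qb), FiniteDimensional ℚ E →
    (∀ σ : GQ, (∀ x ∈ E, σ x = x) → ρ σ = 1) → ∀ (C : Set G) (S : Finset ℕ),
    HasLowerDensity (frobPrimesHom ρ C S)
      ((Nat.card ↥(C ∩ Set.range ρ) : ℝ) / (Nat.card ↥(Set.range ρ) : ℝ))

/-- (Q-BR) bridge. -/
def BridgeDensityStatement : Prop :=
  ChebDensityFiniteStatement → ChebDensityStatement

end Fermat.Agent.Lib.Cheb.SpecQ

end
-- ===== PACK-END Lib/Cheb/SpecQ.lean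

-- ===== PACK-BEGIN S48/H648/DirichletBound.lean
section
/-
S48 (Deligne–Serre), piece (P4) "elementary Rankin bound", part 2 (helper648).

Pure real analysis on nonnegative sequences `b : ℕ → ℝ` with `∑_{n ≤ x} b n ≤ C x^κ`:
* `sum_mul_rpow_neg_le` : every finite partial sum of `∑ b n n^{-σ}` is `≤ 2^(κ+1) C / (σ - κ)`
  for `κ < σ ≤ κ + 1` (dyadic decomposition; no integrals, no `tsum`);
* `prod_one_add_le` : Euler product inequality for sequences multiplicative on squarefree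
  products of primes from a set `S`;
* `sum_primes_le_log` / `sum_primes_ge_le_log` : `∑_{p ∈ P} b p p^{-σ} ≤ log (1/(σ-1)) + O(1)` on
  sets of primes where `b` is bounded, and `c ∑_{p ∈ P, b p ≥ c} p^{-σ} ≤ log (1/(σ-1)) + O(1)`.
Mathlib only.
-/


set_option autoImplicit false

open Finset

noncomputable section

namespace Fermat.Agent.S48.H648

/-- `1 - 2^(-δ) ≥ δ/2` for `0 ≤ δ ≤ 1`. -/
lemma one_sub_two_rpow_neg_ge {δ : ℝ} (h0 : 0 ≤ δ) (h1 : δ ≤ 1) :
    δ / 2 ≤ 1 - (2:ℝ) ^ (-δ) := by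
  have h := Real.geom_mean_le_arith_mean2_weighted (w₁ := 1 - δ) (w₂ := δ) (p₁ := 1)
    (p₂ := 1 / 2) (by linarith) h0 (by norm_num) (by norm_num) (by ring)
  rw [Real.one_rpow, one_mul] at h
  have h2 : ((1:ℝ) / 2) ^ δ = (2:ℝ) ^ (-δ) := by
    rw [Real.rpow_neg (by norm_num), one_div, Real.inv_rpow (by norm_num)]
  rw [h2] at h
  linarith

/-- Dyadic bound: finite partial sums of the Dirichlet series of a nonnegative sequence with
`∑_{n ≤ x} b n ≤ C x^κ`. -/
theorem sum_mul_rpow_neg_le {b : ℕ → ℝ} (hb : ∀ n, 0 ≤ b n) {C κ : ℝ} (hC : 0 ≤ C) (hκ : 0 ≤ κ)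
    (hsum : ∀ x : ℕ, 1 ≤ x → ∑ n ∈ range (x + 1), b n ≤ C * (x : ℝ) ^ κ)
    {σ : ℝ} (hσ : κ < σ) (hσ' : σ ≤ κ + 1) (s : Finset ℕ) (hs : ∀ n ∈ s, 1 ≤ n) :
    ∑ n ∈ s, b n * (n : ℝ) ^ (-σ) ≤ 2 ^ (κ + 1) * C / (σ - κ) := by
  classical
  set δ := σ - κ with hδ
  have hδ0 : 0 < δ := by linarith
  have hδ1 : δ ≤ 1 := by linarith
  have hσ0 : 0 < σ := lt_of_le_of_lt hκ hσ
  set r : ℝ := (2:ℝ) ^ (-δ) with hr
  have hr0 : 0 < r := by positivity
  have hr1 : r < 1 := by
    rw [hr]; exact Real.rpow_lt_one_of_one_lt_of_neg (by norm_num) (by linarith)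
  -- the index of the dyadic block
  let J : ℕ := (s.sup id) + 1
  have hmaps : ∀ n ∈ s, Nat.log 2 n ∈ range J := by
    intro n hn
    rw [mem_range]
    have h1 : Nat.log 2 n ≤ n := Nat.log_le_self 2 n
    have h2 : n ≤ s.sup id := Finset.le_sup (f := id) hn
    omega
  rw [← Finset.sum_fiberwise_of_maps_to hmaps]
  have hblock : ∀ j ∈ range J, ∑ n ∈ s with Nat.log 2 n = j, b n * (n : ℝ) ^ (-σ) ≤
      C * 2 ^ κ * r ^ j := by
    intro j _
    have h1 : ∀ n ∈ s.filter (fun n => Nat.log 2 n = j),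
        b n * (n : ℝ) ^ (-σ) ≤ b n * ((2:ℝ) ^ j) ^ (-σ) := by
      intro n hn
      rw [mem_filter] at hn
      have hn1 : 1 ≤ n := hs n hn.1
      have h2 : 2 ^ j ≤ n := by
        rw [← hn.2]; exact Nat.pow_log_le_self 2 (by omega)
      have h3 : ((2:ℝ) ^ j) ≤ (n : ℝ) := by exact_mod_cast h2
      have h4 : (n : ℝ) ^ (-σ) ≤ ((2:ℝ) ^ j) ^ (-σ) :=
        Real.rpow_le_rpow_of_nonpos (by positivity) h3 (by linarith)
      exact mul_le_mul_of_nonneg_left h4 (hb n)
    have h5 : ∑ n ∈ s.filter (fun n => Nat.log 2 n = j), b n ≤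
        ∑ n ∈ range (2 ^ (j + 1) + 1), b n := by
      refine Finset.sum_le_sum_of_subset_of_nonneg ?_ fun n _ _ => hb n
      intro n hn
      rw [mem_filter] at hn
      rw [mem_range]
      have : n < 2 ^ (Nat.log 2 n + 1) := Nat.lt_pow_succ_log_self (by norm_num) n
      rw [hn.2] at this
      omega
    have h6 := hsum (2 ^ (j + 1)) Nat.one_le_two_pow
    calc ∑ n ∈ s with Nat.log 2 n = j, b n * (n : ℝ) ^ (-σ)
        ≤ ∑ n ∈ s with Nat.log 2 n = j, b n * ((2:ℝ) ^ j) ^ (-σ) := Finset.sum_le_sum h1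
      _ = (∑ n ∈ s with Nat.log 2 n = j, b n) * ((2:ℝ) ^ j) ^ (-σ) := by rw [Finset.sum_mul]
      _ ≤ (C * ((2 ^ (j + 1) : ℕ) : ℝ) ^ κ) * ((2:ℝ) ^ j) ^ (-σ) := by
          gcongr
          exact h5.trans h6
      _ = C * 2 ^ κ * r ^ j := by
          have e1 : (((2 ^ (j + 1) : ℕ) : ℝ)) ^ κ = (2:ℝ) ^ κ * ((2:ℝ) ^ κ) ^ j := by
            push_cast
            rw [pow_succ, Real.mul_rpow (by positivity) (by norm_num), mul_comm,
              ← Real.rpow_natCast, ← Real.rpow_natCast, ← Real.rpow_mul (by norm_num),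
              ← Real.rpow_mul (by norm_num), mul_comm κ]
          have e2 : ((2:ℝ) ^ j) ^ (-σ) = ((2:ℝ) ^ (-σ)) ^ j := by
            rw [← Real.rpow_natCast, ← Real.rpow_natCast, ← Real.rpow_mul (by norm_num),
              ← Real.rpow_mul (by norm_num), mul_comm]
          have e3 : (2:ℝ) ^ κ * (2:ℝ) ^ (-σ) = r := by
            rw [hr, ← Real.rpow_add (by norm_num)]
            congr 1
            rw [hδ]; ring
          rw [e1, e2]
          calc C * ((2:ℝ) ^ κ * ((2:ℝ) ^ κ) ^ j) * ((2:ℝ) ^ (-σ)) ^ j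
              = C * 2 ^ κ * (((2:ℝ) ^ κ) * (2:ℝ) ^ (-σ)) ^ j := by rw [mul_pow]; ring
            _ = C * 2 ^ κ * r ^ j := by rw [e3]
  calc ∑ j ∈ range J, ∑ n ∈ s with Nat.log 2 n = j, b n * (n : ℝ) ^ (-σ)
      ≤ ∑ j ∈ range J, C * 2 ^ κ * r ^ j := Finset.sum_le_sum hblock
    _ = C * 2 ^ κ * ∑ j ∈ range J, r ^ j := by rw [Finset.mul_sum]
    _ ≤ C * 2 ^ κ * (1 - r)⁻¹ := by
        gcongr
        rw [geom_sum_eq hr1.ne]
        rw [← neg_sub, ← neg_sub (1:ℝ) r, neg_div_neg_eq, div_eq_mul_inv]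
        have : 1 - r ^ J ≤ 1 := by
          have := pow_nonneg hr0.le J
          linarith
        have h1r : 0 < 1 - r := by linarith
        calc (1 - r ^ J) * (1 - r)⁻¹ ≤ 1 * (1 - r)⁻¹ := by gcongr
          _ = (1 - r)⁻¹ := one_mul _
    _ ≤ C * 2 ^ κ * (2 / δ) := by
        gcongr
        have h1r : δ / 2 ≤ 1 - r := one_sub_two_rpow_neg_ge hδ0.le hδ1
        rw [inv_le_comm₀ (by linarith) (by positivity)]
        rw [inv_div]
        exact h1r
    _ = 2 ^ (κ + 1) * C / δ := by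
        rw [Real.rpow_add (by norm_num), Real.rpow_one]
        ring

/-- **Euler product inequality.**  If every finite partial sum of `∑ b n n^{-σ}` is `≤ B` and `b`
is multiplicative on the products of subsets of the finite set of primes `P`, then
`∏_{p ∈ P} (1 + b p p^{-σ}) ≤ B`. -/
theorem prod_one_add_le {b : ℕ → ℝ} {σ B : ℝ}
    (hB : ∀ s : Finset ℕ, (∀ n ∈ s, 1 ≤ n) → ∑ n ∈ s, b n * (n : ℝ) ^ (-σ) ≤ B)
    (P : Finset ℕ) (hP : ∀ p ∈ P, p.Prime)
    (hmul : ∀ T ⊆ P, b (∏ p ∈ T, p) = ∏ p ∈ T, b p) :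
    ∏ p ∈ P, (1 + b p * (p : ℝ) ^ (-σ)) ≤ B := by
  classical
  rw [Finset.prod_one_add]
  have hterm : ∀ T ∈ P.powerset, ∏ p ∈ T, b p * (p : ℝ) ^ (-σ) =
      b (∏ p ∈ T, p) * ((∏ p ∈ T, p : ℕ) : ℝ) ^ (-σ) := by
    intro T hT
    rw [mem_powerset] at hT
    rw [Finset.prod_mul_distrib, hmul T hT]
    congr 1
    push_cast
    rw [Real.finsetProd_rpow]
    intro i _
    positivity
  rw [Finset.sum_congr rfl hterm]
  have hinj : Set.InjOn (fun T : Finset ℕ => ∏ p ∈ T, p) (P.powerset : Set (Finset ℕ)) := by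
    intro T₁ h₁ T₂ h₂ h
    have h₁' : T₁ ⊆ P := mem_powerset.mp h₁
    have h₂' : T₂ ⊆ P := mem_powerset.mp h₂
    have e₁ := Nat.primeFactors_prod (s := T₁) fun p hp => hP p (h₁' hp)
    have e₂ := Nat.primeFactors_prod (s := T₂) fun p hp => hP p (h₂' hp)
    simp only at h
    rw [← e₁, ← e₂, h]
  rw [← Finset.sum_image (f := fun n : ℕ => b n * (n : ℝ) ^ (-σ)) hinj]
  refine hB _ fun n hn => ?_
  rw [mem_image] at hn
  obtain ⟨T, hT, rfl⟩ := hn
  exact Nat.one_le_iff_ne_zero.mpr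
    (Finset.prod_ne_zero_iff.mpr fun p hp => (hP p (mem_powerset.mp hT hp)).ne_zero)

lemma sum_inv_sq_le_two (P : Finset ℕ) : ∑ p ∈ P, ((p : ℝ) ^ 2)⁻¹ ≤ 2 := by
  have h := sum_le_hasSum P (fun i _ => by positivity) hasSum_zeta_two
  simp only [one_div] at h
  refine h.trans ?_
  have : Real.pi ^ 2 ≤ 12 := by
    have h1 := Real.pi_lt_d2
    have h2 := Real.pi_pos
    nlinarith
  linarith

/-- `log (1 + y) ≥ y - y²` for `y ≥ 0`. -/
lemma le_log_one_add {y : ℝ} (hy : 0 ≤ y) : y - y ^ 2 ≤ Real.log (1 + y) := by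
  have h1 : (0:ℝ) < 1 + y := by linarith
  have h2 := Real.one_sub_inv_le_log_of_pos h1
  refine le_trans ?_ h2
  rw [← sub_nonneg]
  have : 1 - (1 + y)⁻¹ - (y - y ^ 2) = y ^ 3 / (1 + y) := by
    field_simp
    ring
  rw [this]
  positivity

/-- Prime sums from the Euler product inequality: bounded coefficients. -/
theorem sum_primes_le_of_prod_le {b : ℕ → ℝ} (hb : ∀ n, 0 ≤ b n) {σ B β : ℝ} (hσ : 1 ≤ σ)
    (P : Finset ℕ) (hP : ∀ p ∈ P, p.Prime)
    (hprod : ∏ p ∈ P, (1 + b p * (p : ℝ) ^ (-σ)) ≤ B) (hβ : ∀ p ∈ P, b p ≤ β) :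
    ∑ p ∈ P, b p * (p : ℝ) ^ (-σ) ≤ Real.log B + 2 * β ^ 2 := by
  have hβ0 : ∀ p ∈ P, 0 ≤ β := fun p hp => (hb p).trans (hβ p hp)
  have hypos : ∀ p ∈ P, 0 ≤ b p * (p : ℝ) ^ (-σ) := fun p _ => by
    have := hb p
    positivity
  have hprodpos : 0 < ∏ p ∈ P, (1 + b p * (p : ℝ) ^ (-σ)) :=
    Finset.prod_pos fun p hp => by have := hypos p hp; linarith
  have hlog : Real.log (∏ p ∈ P, (1 + b p * (p : ℝ) ^ (-σ))) ≤ Real.log B :=
    Real.log_le_log hprodpos hprod
  rw [Real.log_prod (fun p hp => by have := hypos p hp; linarith)] at hlog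
  have hterm : ∀ p ∈ P, b p * (p : ℝ) ^ (-σ) - β ^ 2 * ((p : ℝ) ^ 2)⁻¹ ≤
      Real.log (1 + b p * (p : ℝ) ^ (-σ)) := by
    intro p hp
    refine le_trans ?_ (le_log_one_add (hypos p hp))
    have hp1 : (1:ℝ) ≤ p := by exact_mod_cast (hP p hp).one_le
    have h1 : (p : ℝ) ^ (-σ) ≤ (p : ℝ)⁻¹ := by
      rw [← Real.rpow_neg_one]
      exact Real.rpow_le_rpow_of_exponent_le hp1 (by linarith)
    have h2 : (0:ℝ) ≤ (p : ℝ) ^ (-σ) := by positivity
    have h3 : (b p * (p : ℝ) ^ (-σ)) ^ 2 ≤ β ^ 2 * ((p : ℝ) ^ 2)⁻¹ := by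
      rw [mul_pow, ← inv_pow]
      have := hb p
      have := hβ p hp
      gcongr
    linarith
  have hsum := (Finset.sum_le_sum hterm).trans hlog
  rw [Finset.sum_sub_distrib] at hsum
  have h4 : ∑ p ∈ P, β ^ 2 * ((p : ℝ) ^ 2)⁻¹ ≤ 2 * β ^ 2 := by
    rw [← Finset.mul_sum]
    have := sum_inv_sq_le_two P
    have hβ2 : 0 ≤ β ^ 2 := by positivity
    calc β ^ 2 * ∑ p ∈ P, ((p : ℝ) ^ 2)⁻¹ ≤ β ^ 2 * 2 := by gcongr
      _ = 2 * β ^ 2 := by ring
  linarith

/-- Prime sums from the Euler product inequality: the primes where the coefficient is large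
have small `σ`-mass. -/
theorem sum_primes_ge_le_of_prod_le {b : ℕ → ℝ} {σ B c : ℝ} (hσ : 1 ≤ σ) (hc : 0 ≤ c)
    (P : Finset ℕ) (hP : ∀ p ∈ P, p.Prime)
    (hprod : ∏ p ∈ P, (1 + b p * (p : ℝ) ^ (-σ)) ≤ B) (hbc : ∀ p ∈ P, c ≤ b p) :
    c * ∑ p ∈ P, (p : ℝ) ^ (-σ) ≤ Real.log B + 2 * c ^ 2 := by
  have hprod' : ∏ p ∈ P, (1 + (fun _ : ℕ => c) p * (p : ℝ) ^ (-σ)) ≤ B := by
    refine le_trans ?_ hprod
    refine Finset.prod_le_prod (fun p _ => by positivity) fun p hp => ?_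
    have := hbc p hp
    gcongr
  have := sum_primes_le_of_prod_le (b := fun _ => c) (fun _ => hc) hσ P hP hprod'
    (fun _ _ => le_rfl)
  rwa [← Finset.mul_sum] at this

end Fermat.Agent.S48.H648

end
end
-- ===== PACK-END S48/H648/DirichletBound.lean

-- ===== PACK-BEGIN Lib/Cheb/H236/Cross.lean
section



/-!
# CROSS: Chebotarev's field-crossing step (shared lib CHEB, Tier 2; helper236)

`theorem cross : Spec.CrossStatement`, i.e. `FrobStatement → CycStatement → ChebFiniteStatement`.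

For `σ ∈ Gal(L/ℚ)` of order `n` choose a prime `m ≡ 1 mod n` with `m > |disc L|`, put
`M = L(ζ_m)` (`CyclotomicField m L`), extend `σ` to `g ∈ Gal(M/ℚ)` with `g ζ = ζ ^ t`, `t` a
generator of `(ℤ/m)ˣ`.  Then `⟨g⟩` acts faithfully on `ζ`, `CycStatement` gives a prime of `M`
with Frobenius `g`, and its restriction to `L` has Frobenius `σ`.
-/

set_option autoImplicit false
set_option linter.style.haveILetI false
set_option linter.unusedSectionVars false

namespace Fermat.Agent.Lib.Cheb.H236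

open NumberField IntermediateField Polynomial

section Construct

variable (L : Type) [Field L] [NumberField L] (m : ℕ) [hm : Fact m.Prime]

/-- The crossing field `M = L(ζ_m)`. -/
abbrev CrossField : Type := CyclotomicField m L

instance crossNeZero : NeZero m := ⟨hm.out.ne_zero⟩

/-- the chosen primitive `m`-th root of unity of `M` -/
noncomputable def crossZeta : CrossField L m := IsCyclotomicExtension.zeta m L (CrossField L m)

theorem crossZeta_spec : IsPrimitiveRoot (crossZeta L m) m :=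
  IsCyclotomicExtension.zeta_spec m L (CrossField L m)

/-- the image of `L` in `M` -/
noncomputable def imL : IntermediateField ℚ (CrossField L m) :=
  (IsScalarTower.toAlgHom ℚ L (CrossField L m)).fieldRange

/-- `ℚ(ζ)` inside `M` -/
noncomputable def cycQ : IntermediateField ℚ (CrossField L m) :=
  ℚ⟮crossZeta L m⟯

theorem cycQ_sup_imL : cycQ L m ⊔ imL L m = ⊤ := by
  rw [eq_top_iff]
  rintro x -
  have hx : x ∈ Algebra.adjoin L ({crossZeta L m} : Set (CrossField L m)) := by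
    rw [IsCyclotomicExtension.adjoin_primitive_root_eq_top (crossZeta_spec L m)]
    trivial
  induction hx using Algebra.adjoin_induction with
  | mem y hy =>
    rw [Set.mem_singleton_iff] at hy
    subst hy
    exact (le_sup_left : cycQ L m ≤ _) (mem_adjoin_simple_self ℚ _)
  | algebraMap r =>
    exact (le_sup_right : imL L m ≤ _) ⟨r, rfl⟩
  | add _ _ _ _ hx hy => exact add_mem hx hy
  | mul _ _ _ _ hx hy => exact mul_mem hx hy

/-- `M` is normal over `ℚ`. -/
theorem normal_crossField [IsGalois ℚ L] : Normal ℚ (CrossField L m) := by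
  have hN2 : Normal ℚ (imL L m) := by
    have e : L ≃ₐ[ℚ] imL L m :=
      AlgEquiv.ofInjectiveField (IsScalarTower.toAlgHom ℚ L (CrossField L m))
    exact Normal.of_algEquiv e
  haveI : IsCyclotomicExtension {m} ℚ (cycQ L m) :=
    (crossZeta_spec L m).intermediateField_adjoin_isCyclotomicExtension ℚ
  haveI : IsGalois ℚ (cycQ L m) := IsCyclotomicExtension.isGalois {m} ℚ (cycQ L m)
  have hN1 : Normal ℚ (cycQ L m) := IsGalois.to_normal
  have hN : Normal ℚ (cycQ L m ⊔ imL L m : IntermediateField ℚ (CrossField L m)) :=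
    @IntermediateField.normal_sup ℚ (CrossField L m) _ _ _ (cycQ L m) (imL L m) hN1 hN2
  have e : (cycQ L m ⊔ imL L m : IntermediateField ℚ (CrossField L m)) ≃ₐ[ℚ] CrossField L m :=
    (IntermediateField.equivOfEq (cycQ_sup_imL L m)).trans IntermediateField.topEquiv
  exact @Normal.of_algEquiv ℚ _ _ _ _ _ _ _ hN e

theorem isGalois_crossField [IsGalois ℚ L] : IsGalois ℚ (CrossField L m) := by
  haveI := normal_crossField L m
  exact isGalois_iff.mpr ⟨inferInstance, inferInstance⟩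

/-- the degree of `M` over `L` is `m - 1` when `m ∤ disc L` -/
theorem finrank_crossField (hdisc : ¬ (m : ℤ) ∣ discr L) :
    Module.finrank L (CrossField L m) = m - 1 := by
  haveI : IsCyclotomicExtension {m} ℚ (cycQ L m) :=
    (crossZeta_spec L m).intermediateField_adjoin_isCyclotomicExtension ℚ
  haveI : IsGalois ℚ (cycQ L m) := IsCyclotomicExtension.isGalois {m} ℚ (cycQ L m)
  have e : L ≃ₐ[ℚ] imL L m :=
    AlgEquiv.ofInjectiveField (IsScalarTower.toAlgHom ℚ L (CrossField L m))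
  have hd1 : discr (cycQ L m) = (-1) ^ ((m - 1) / 2) * (m : ℤ) ^ (m - 2) :=
    IsCyclotomicExtension.Rat.discr_prime m (cycQ L m)
  have hd2 : discr (imL L m) = discr L := (discr_eq_discr_of_algEquiv L e).symm
  have hcop : IsCoprime (discr (cycQ L m)) (discr (imL L m)) := by
    rw [hd1, hd2]
    have hp : Prime (m : ℤ) := Nat.prime_iff_prime_int.mp hm.out
    have h1 : IsCoprime (m : ℤ) (discr L) := (Prime.coprime_iff_not_dvd hp).mpr hdisc
    rw [isCoprime_mul_unit_left_left (IsUnit.pow _ (isUnit_one.neg))]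
    exact h1.pow_left
  have hdisj := linearDisjoint_of_isGalois_isCoprime_discr (CrossField L m) (cycQ L m) (imL L m)
    hcop
  have h1 := hdisj.finrank_sup
  have h2 : Module.finrank ℚ (cycQ L m) = m - 1 := by
    rw [IsCyclotomicExtension.finrank (n := m) (cycQ L m)
      (Polynomial.cyclotomic.irreducible_rat (NeZero.pos m)), Nat.totient_prime hm.out]
  have h3 : Module.finrank ℚ (imL L m) = Module.finrank ℚ L := (e.toLinearEquiv.finrank_eq).symm
  have h4 : Module.finrank ℚ (cycQ L m ⊔ imL L m : IntermediateField ℚ (CrossField L m)) =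
      Module.finrank ℚ (CrossField L m) := by
    rw [cycQ_sup_imL]
    exact IntermediateField.finrank_top'
  have h5 : Module.finrank ℚ (CrossField L m) =
      Module.finrank ℚ L * Module.finrank L (CrossField L m) :=
    (Module.finrank_mul_finrank ℚ L (CrossField L m)).symm
  rw [h4, h2, h3, h5, mul_comm] at h1
  exact Nat.eq_of_mul_eq_mul_right Module.finrank_pos h1

theorem adjoin_crossZeta_eq_top : L⟮crossZeta L m⟯ = ⊤ :=
  IntermediateField.adjoin_eq_top_of_algebra L _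
    (IsCyclotomicExtension.adjoin_primitive_root_eq_top (crossZeta_spec L m))

/-- the `m`-th cyclotomic polynomial is irreducible over `L` when `m ∤ disc L` -/
theorem irreducible_cyclotomic_of_not_dvd_discr (hdisc : ¬ (m : ℤ) ∣ discr L) :
    Irreducible (cyclotomic m L) := by
  have hζ := crossZeta_spec L m
  have hfin := finrank_crossField L m hdisc
  have hint : IsIntegral L (crossZeta L m) := IsIntegral.of_finite L _
  have hdvd : minpoly L (crossZeta L m) ∣ cyclotomic m L := by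
    apply minpoly.dvd
    have h1 := hζ.isRoot_cyclotomic (NeZero.pos m)
    rw [aeval_def, eval₂_eq_eval_map, map_cyclotomic]
    exact h1
  have hdeg : (minpoly L (crossZeta L m)).natDegree = m - 1 := by
    rw [← hfin, ← IntermediateField.adjoin.finrank hint, adjoin_crossZeta_eq_top L m,
      IntermediateField.finrank_top']
  have heq : cyclotomic m L = minpoly L (crossZeta L m) := by
    refine Polynomial.eq_of_monic_of_dvd_of_natDegree_le (minpoly.monic hint)
      (cyclotomic.monic m L) hdvd ?_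
    rw [hdeg, natDegree_cyclotomic, Nat.totient_prime hm.out]
  rw [heq]
  exact minpoly.irreducible hint

/-- extension of `σ` to `M` with prescribed action on `ζ` -/
theorem exists_crossLift [IsGalois ℚ L] (hdisc : ¬ (m : ℤ) ∣ discr L) (σ : L ≃ₐ[ℚ] L)
    (t : (ZMod m)ˣ) :
    ∃ g : CrossField L m ≃ₐ[ℚ] CrossField L m,
      (∀ x : L, g (algebraMap L (CrossField L m) x) = algebraMap L (CrossField L m) (σ x)) ∧
      g (crossZeta L m) = crossZeta L m ^ (t : ZMod m).val := by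
  haveI := normal_crossField L m
  have hirr := irreducible_cyclotomic_of_not_dvd_discr L m hdisc
  set σ' : CrossField L m ≃ₐ[ℚ] CrossField L m := σ.liftNormal (CrossField L m) with hσ'
  have hμ0 : IsPrimitiveRoot (crossZeta L m ^ (t : ZMod m).val) m :=
    (crossZeta_spec L m).pow_of_coprime _ (ZMod.val_coe_unit_coprime t)
  have hμ : IsPrimitiveRoot (σ'.symm (crossZeta L m ^ (t : ZMod m).val)) m :=
    hμ0.map_of_injective σ'.symm.injective
  set h : CrossField L m ≃ₐ[L] CrossField L m := IsCyclotomicExtension.fromZetaAut hμ hirr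
    with hh
  have hspec : h (crossZeta L m) = σ'.symm (crossZeta L m ^ (t : ZMod m).val) :=
    IsCyclotomicExtension.fromZetaAut_spec hμ hirr
  refine ⟨(h.restrictScalars ℚ).trans σ', fun x => ?_, ?_⟩
  · rw [AlgEquiv.trans_apply, AlgEquiv.restrictScalars_apply, h.commutes]
    exact σ.liftNormal_commutes (CrossField L m) x
  · rw [AlgEquiv.trans_apply, AlgEquiv.restrictScalars_apply, hspec, AlgEquiv.apply_symm_apply]

/-- the cyclic group generated by the crossing lift acts faithfully on `ζ` -/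
theorem crossLift_faithful (σ : L ≃ₐ[ℚ] L) (t : (ZMod m)ˣ) (ht : orderOf σ ∣ orderOf t)
    (g : CrossField L m ≃ₐ[ℚ] CrossField L m)
    (hg1 : ∀ x : L, g (algebraMap L (CrossField L m) x) = algebraMap L (CrossField L m) (σ x))
    (hg2 : g (crossZeta L m) = crossZeta L m ^ (t : ZMod m).val) :
    ∀ k : ℕ, (g ^ k) (crossZeta L m) = crossZeta L m → g ^ k = 1 := by
  intro k hk
  have hζ := crossZeta_spec L m
  haveI : Fact (1 < m) := ⟨hm.out.one_lt⟩
  have hord : orderOf (crossZeta L m) = m := hζ.eq_orderOf.symm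
  have hpow : ∀ j : ℕ, (g ^ j) (crossZeta L m) =
      crossZeta L m ^ ((t ^ j : (ZMod m)ˣ) : ZMod m).val := by
    intro j
    induction j with
    | zero => simp [ZMod.val_one]
    | succ j ih =>
      have e1 : (g ^ (j + 1)) (crossZeta L m) = (g ^ j) (g (crossZeta L m)) := by
        rw [pow_succ, AlgEquiv.mul_apply]
      have e2 := pow_mod_orderOf (crossZeta L m)
        (((t ^ j : (ZMod m)ˣ) : ZMod m).val * ((t : (ZMod m)ˣ) : ZMod m).val)
      rw [hord] at e2
      rw [e1, hg2, map_pow, ih, ← pow_mul, pow_succ t j, Units.val_mul, ZMod.val_mul, e2]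
  have h1 : ((t ^ k : (ZMod m)ˣ) : ZMod m).val = 1 := by
    have h2 := hpow k
    rw [hk] at h2
    have h3 : crossZeta L m ^ 1 = crossZeta L m ^ ((t ^ k : (ZMod m)ˣ) : ZMod m).val := by
      rw [pow_one]; exact h2
    exact (hζ.pow_inj hm.out.one_lt (ZMod.val_lt _) h3).symm
  have h4 : t ^ k = 1 := by
    apply Units.ext
    apply ZMod.val_injective
    rw [h1, Units.val_one, ZMod.val_one]
  have h5 : σ ^ k = 1 := orderOf_dvd_iff_pow_eq_one.mp (ht.trans (orderOf_dvd_of_pow_eq_one h4))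
  have hgpow : ∀ (j : ℕ) (x : L), (g ^ j) (algebraMap L (CrossField L m) x) =
      algebraMap L (CrossField L m) ((σ ^ j) x) := by
    intro j
    induction j with
    | zero => intro x; simp
    | succ j ih =>
      intro x
      rw [pow_succ, AlgEquiv.mul_apply, hg1, ih, pow_succ, AlgEquiv.mul_apply]
  ext y
  rw [AlgEquiv.one_apply]
  have hy : y ∈ Algebra.adjoin L ({crossZeta L m} : Set (CrossField L m)) := by
    rw [IsCyclotomicExtension.adjoin_primitive_root_eq_top hζ]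
    trivial
  induction hy using Algebra.adjoin_induction with
  | mem z hz =>
    rw [Set.mem_singleton_iff] at hz
    subst hz
    exact hk
  | algebraMap r => rw [hgpow, h5, AlgEquiv.one_apply]
  | add _ _ _ _ hx hy => rw [map_add, hx, hy]
  | mul _ _ _ _ hx hy => rw [map_mul, hx, hy]

end Construct

section Restrict

variable {L M : Type} [Field L] [NumberField L] [Field M] [NumberField M] [Algebra L M]

/-- an arithmetic Frobenius of `M` restricts to an arithmetic Frobenius of `L` -/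
theorem isArithFrobAt_comap (σ : L ≃ₐ[ℚ] L) (g : M ≃ₐ[ℚ] M)
    (hg : ∀ x : L, g (algebraMap L M x) = algebraMap L M (σ x)) (P' : Ideal (𝓞 M))
    (h : IsArithFrobAt ℤ g P') :
    IsArithFrobAt ℤ σ (P'.comap (algebraMap (𝓞 L) (𝓞 M))) := by
  intro x
  have hunder : (P'.comap (algebraMap (𝓞 L) (𝓞 M))).under ℤ = P'.under ℤ := by
    rw [Ideal.under_def, Ideal.under_def, Ideal.comap_comap]
    congr 1
    exact RingHom.ext_int _ _
  have h1 := h (algebraMap (𝓞 L) (𝓞 M) x)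
  show (MulSemiringAction.toAlgHom ℤ (𝓞 L) σ) x -
    x ^ Nat.card (ℤ ⧸ (P'.comap (algebraMap (𝓞 L) (𝓞 M))).under ℤ) ∈ _
  rw [hunder, Ideal.mem_comap, map_sub, map_pow]
  have h2 : algebraMap (𝓞 L) (𝓞 M) ((MulSemiringAction.toAlgHom ℤ (𝓞 L) σ) x) =
      (MulSemiringAction.toAlgHom ℤ (𝓞 M) g) (algebraMap (𝓞 L) (𝓞 M) x) := by
    apply RingOfIntegers.ext
    show algebraMap L M (σ (x : L)) = g (algebraMap L M (x : L))
    rw [hg]
  rw [h2]
  exact h1

end Restrict

/-- **CROSS**: Chebotarev's field-crossing step. -/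
theorem cross : Spec.CrossStatement := by
  intro hD hC L _ _ _ σ S
  obtain ⟨B, hB⟩ := hD L
  -- the auxiliary prime `m`
  obtain ⟨m, hmp, hmgt, hmod⟩ :=
    Nat.exists_prime_gt_modEq_one (k := orderOf σ) (discr L).natAbs (orderOf_pos σ).ne'
  haveI : Fact m.Prime := ⟨hmp⟩
  have hdisc : ¬ (m : ℤ) ∣ discr L := by
    intro hdvd
    have h1 : m ∣ (discr L).natAbs := Int.natCast_dvd.mp hdvd
    have h2 : (discr L).natAbs ≠ 0 := Int.natAbs_ne_zero.mpr (discr_ne_zero L)
    exact absurd (Nat.le_of_dvd (Nat.pos_of_ne_zero h2) h1) (not_le.mpr hmgt)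
  -- a generator of `(ℤ/m)ˣ`
  haveI : IsCyclic (ZMod m)ˣ := ZMod.isCyclic_units_prime hmp
  obtain ⟨t, ht⟩ := isCyclic_iff_exists_orderOf_eq_natCard.mp (inferInstance : IsCyclic (ZMod m)ˣ)
  have hcard : Nat.card (ZMod m)ˣ = m - 1 := by
    rw [Nat.card_eq_fintype_card, ZMod.card_units_eq_totient, Nat.totient_prime hmp]
  have hdvd : orderOf σ ∣ orderOf t := by
    rw [ht, hcard]
    exact (Nat.modEq_iff_dvd' hmp.one_lt.le).mp hmod.symm
  obtain ⟨g, hg1, hg2⟩ := exists_crossLift L m hdisc σ t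
  haveI := isGalois_crossField L m
  obtain ⟨p, P', hp, hpS, hP', hpP', -, hfrob⟩ :=
    hC (CrossField L m) m (crossZeta L m) hmp.pos (crossZeta_spec L m) g
      (crossLift_faithful L m σ t hdvd g hg1 hg2) (S ∪ B)
  have hpS' : p ∉ S := fun h => hpS (Finset.mem_union_left _ h)
  have hpB : p ∉ B := fun h => hpS (Finset.mem_union_right _ h)
  set P : Ideal (𝓞 L) := P'.comap (algebraMap (𝓞 L) (𝓞 (CrossField L m))) with hP
  have hPprime : P.IsPrime := Ideal.comap_isPrime _ _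
  have hpP : (p : 𝓞 L) ∈ P := by
    rw [hP, Ideal.mem_comap, map_natCast]
    exact hpP'
  exact ⟨p, P, hp, hpS', hPprime, hpP, (hB p hp hpB P hPprime hpP).1,
    isArithFrobAt_comap σ g hg1 P' hfrob⟩

end Fermat.Agent.Lib.Cheb.H236

end
-- ===== PACK-END Lib/Cheb/H236/Cross.lean

-- ===== PACK-BEGIN S48/H848/Coset.lean
section
/-
S48 piece P0 (helper848): Hecke operator `T_p` on `Γ₁(N)`-invariant functions, with the diamond
operator inserted in front of the diagonal coset.  Function level; the coset identities are those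
of the Prelude proof for `Γ₀(N)`, re-proved with the lower right entry tracked modulo `N`.
-/





set_option autoImplicit false

noncomputable section

namespace Fermat.Agent.S48.H848

open Matrix.SpecialLinearGroup UpperHalfPlane CongruenceSubgroup ModularForm
open scoped MatrixGroups ModularForm OnePoint

/-- Invariance of a function under the weight `k` action of `Γ₁(N)`. -/
def SI1 (N : ℕ) (k : ℤ) (f : ℍ → ℂ) : Prop :=
  ∀ g : SL(2, ℤ), g ∈ Gamma1 N → f ∣[k] (mapGL ℝ g) = f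

theorem mapGL_apply848 (g : SL(2, ℤ)) (i j : Fin 2) :
    (mapGL ℝ g : GL (Fin 2) ℝ) i j = ((g i j : ℤ) : ℝ) := by
  simp

theorem det_eq848 (g : SL(2, ℤ)) : g 0 0 * g 1 1 - g 0 1 * g 1 0 = 1 := by
  have h := g.det_coe
  rwa [Matrix.det_fin_two] at h

theorem gamma0_diag_mul_eq_one {N : ℕ} {g : SL(2, ℤ)} (hg : g ∈ Gamma0 N) :
    ((g 0 0 : ℤ) : ZMod N) * ((g 1 1 : ℤ) : ZMod N) = 1 := by
  have h := congrArg (Int.cast : ℤ → ZMod N) (det_eq848 g)
  have hc : ((g 1 0 : ℤ) : ZMod N) = 0 := Gamma0_mem.mp hg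
  push_cast at h
  linear_combination h + ((g 0 1 : ℤ) : ZMod N) * hc

/-- An element of `Γ₀(N)` with lower right entry `≡ 1` lies in `Γ₁(N)`. -/
theorem mem_Gamma1_of_mem_Gamma0 {N : ℕ} {g : SL(2, ℤ)} (hg : g ∈ Gamma0 N)
    (h1 : ((g 1 1 : ℤ) : ZMod N) = 1) : g ∈ Gamma1 N := by
  rw [Gamma1_mem]
  refine ⟨?_, h1, Gamma0_mem.mp hg⟩
  have := gamma0_diag_mul_eq_one hg
  rwa [h1, mul_one] at this

theorem mul_inv_mem_Gamma1 {N : ℕ} {α β : SL(2, ℤ)} (hα : α ∈ Gamma0 N) (hβ : β ∈ Gamma0 N)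
    (h : ((α 1 1 : ℤ) : ZMod N) = ((β 1 1 : ℤ) : ZMod N)) : α * β⁻¹ ∈ Gamma1 N := by
  have hm : α * β⁻¹ ∈ Gamma0 N := (Gamma0 N).mul_mem hα ((Gamma0 N).inv_mem hβ)
  refine mem_Gamma1_of_mem_Gamma0 hm ?_
  have hα0 : ((α 1 0 : ℤ) : ZMod N) = 0 := Gamma0_mem.mp hα
  have hβd := gamma0_diag_mul_eq_one hβ
  have e : (α * β⁻¹) 1 1 = α 1 0 * (-(β 0 1)) + α 1 1 * β 0 0 := by
    rw [Matrix.SpecialLinearGroup.coe_mul, Matrix.mul_apply, Fin.sum_univ_two,
      Matrix.SpecialLinearGroup.coe_inv, Matrix.adjugate_fin_two]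
    simp
  rw [e]
  push_cast
  rw [hα0, h]
  linear_combination hβd

/-- For a `Γ₁(N)`-invariant function the slash by an element of `Γ₀(N)` only depends on the
lower right entry modulo `N`. -/
theorem slash_eq_of_entry_eq {N : ℕ} {k : ℤ} {f : ℍ → ℂ} (hf : SI1 N k f) {α β : SL(2, ℤ)}
    (hα : α ∈ Gamma0 N) (hβ : β ∈ Gamma0 N)
    (h : ((α 1 1 : ℤ) : ZMod N) = ((β 1 1 : ℤ) : ZMod N)) :
    f ∣[k] (mapGL ℝ α) = f ∣[k] (mapGL ℝ β) := by
  have h1 := hf _ (mul_inv_mem_Gamma1 hα hβ h)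
  have h2 : mapGL ℝ α = mapGL ℝ (α * β⁻¹) * mapGL ℝ β := by
    rw [← map_mul, inv_mul_cancel_right]
  rw [h2, SlashAction.slash_mul, h1]


theorem exists_SL2_848 (a b c d : ℤ) (h : a * d - b * c = 1) :
    ∃ g : SL(2, ℤ), g 0 0 = a ∧ g 0 1 = b ∧ g 1 0 = c ∧ g 1 1 = d :=
  ⟨⟨!![a, b; c, d], by rw [Matrix.det_fin_two_of]; exact h⟩, rfl, rfl, rfl, rfl⟩

section commutation

variable {p : ℕ} (hp : p ≠ 0)
include hp

theorem heckeMatrix_mul_track (g : SL(2, ℤ)) (j j' : ℕ) (e : ℤ)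
    (he : g 0 1 + j * g 1 1 = j' * (g 0 0 + j * g 1 0) + p * e) :
    ∃ g' : SL(2, ℤ), g' 1 0 = p * g 1 0 ∧ g' 1 1 = g 1 1 - g 1 0 * j' ∧
      heckeMatrix p j * mapGL ℝ g = mapGL ℝ g' * heckeMatrix p j' := by
  have hdet := det_eq848 g
  obtain ⟨g', h00, h01, h10, h11⟩ := exists_SL2_848 (g 0 0 + j * g 1 0) e (p * g 1 0)
    (g 1 1 - g 1 0 * j') (by linear_combination hdet + (g 1 0) * he)
  refine ⟨g', h10, h11, ?_⟩
  ext i j
  fin_cases i <;> fin_cases j <;>
    simp [hp, Matrix.mul_apply, Fin.sum_univ_two, h00, h01, h10, h11]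
  all_goals first
    | (have := congrArg (Int.cast : ℤ → ℝ) he; push_cast at this ⊢; linear_combination this)
    | (have := congrArg (Int.cast : ℤ → ℝ) he; push_cast at this ⊢; linear_combination -this)
    | ring1

theorem heckeMatrix_mul_track' (g : SL(2, ℤ)) (j : ℕ) (e : ℤ)
    (he : g 0 0 + j * g 1 0 = p * e) :
    ∃ g' : SL(2, ℤ), g' 1 0 = g 1 0 ∧ g' 1 1 = p * g 1 1 ∧
      heckeMatrix p j * mapGL ℝ g = mapGL ℝ g' * heckeDiagMatrix p := by
  have hdet := det_eq848 g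
  obtain ⟨g', h00, h01, h10, h11⟩ := exists_SL2_848 e (g 0 1 + j * g 1 1) (g 1 0) (p * g 1 1)
    (by linear_combination hdet - (g 1 1) * he)
  refine ⟨g', h10, h11, ?_⟩
  ext i j
  fin_cases i <;> fin_cases j <;>
    simp [hp, Matrix.mul_apply, Fin.sum_univ_two, h00, h01, h10, h11]
  all_goals first
    | (have := congrArg (Int.cast : ℤ → ℝ) he; push_cast at this ⊢; linear_combination this)
    | (have := congrArg (Int.cast : ℤ → ℝ) he; push_cast at this ⊢; linear_combination -this)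
    | ring1

theorem heckeDiagMatrix_mul_track (g : SL(2, ℤ)) (j' : ℕ) (e : ℤ)
    (he : g 1 1 = g 1 0 * j' + p * e) :
    ∃ g' : SL(2, ℤ), g' 1 0 = g 1 0 ∧ g' 1 1 = e ∧
      heckeDiagMatrix p * mapGL ℝ g = mapGL ℝ g' * heckeMatrix p j' := by
  have hdet := det_eq848 g
  obtain ⟨g', h00, h01, h10, h11⟩ := exists_SL2_848 (p * g 0 0) (g 0 1 - g 0 0 * j') (g 1 0) e
    (by linear_combination hdet - (g 0 0) * he)
  refine ⟨g', h10, h11, ?_⟩
  ext i j
  fin_cases i <;> fin_cases j <;>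
    simp [hp, Matrix.mul_apply, Fin.sum_univ_two, h00, h01, h10, h11]
  all_goals first
    | (have := congrArg (Int.cast : ℤ → ℝ) he; push_cast at this ⊢; linear_combination this)
    | (have := congrArg (Int.cast : ℤ → ℝ) he; push_cast at this ⊢; linear_combination -this)
    | ring1

theorem heckeDiagMatrix_mul_track' (g : SL(2, ℤ)) (e : ℤ) (he : g 1 0 = p * e) :
    ∃ g' : SL(2, ℤ), g' 1 0 = e ∧ g' 1 1 = g 1 1 ∧
      heckeDiagMatrix p * mapGL ℝ g = mapGL ℝ g' * heckeDiagMatrix p := by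
  have hdet := det_eq848 g
  obtain ⟨g', h00, h01, h10, h11⟩ := exists_SL2_848 (g 0 0) (p * g 0 1) e (g 1 1)
    (by linear_combination hdet + (g 0 1) * he)
  refine ⟨g', h10, h11, ?_⟩
  ext i j
  fin_cases i <;> fin_cases j <;>
    simp [hp, Matrix.mul_apply, Fin.sum_univ_two, h00, h01, h10, h11]
  all_goals first
    | (have := congrArg (Int.cast : ℤ → ℝ) he; push_cast at this ⊢; linear_combination this)
    | (have := congrArg (Int.cast : ℤ → ℝ) he; push_cast at this ⊢; linear_combination -this)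
    | ring1

end commutation

section reindex

variable {p : ℕ} [NeZero p]

theorem sum_range_eq_sum_zmod848 {M : Type*} [AddCommMonoid M] (F : ℕ → M) :
    ∑ j ∈ Finset.range p, F j = ∑ x : ZMod p, F x.val := by
  refine Finset.sum_nbij' (fun j : ℕ ↦ (j : ZMod p)) (fun x : ZMod p ↦ x.val)
    (fun _ _ ↦ Finset.mem_univ _)
    (fun x _ ↦ Finset.mem_range.mpr x.val_lt) (fun j hj ↦ ?_) (fun x _ ↦ ?_) (fun j hj ↦ ?_)
  · exact ZMod.val_cast_of_lt (Finset.mem_range.mp hj)
  · exact ZMod.natCast_zmod_val x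
  · rw [ZMod.val_cast_of_lt (Finset.mem_range.mp hj)]

theorem heckeU_eq_sum_zmod848 (k : ℤ) (f : ℍ → ℂ) :
    heckeU k p f = ∑ x : ZMod p, f ∣[k] heckeMatrix p x.val := by
  rw [heckeU_def]
  exact sum_range_eq_sum_zmod848 _

end reindex

section heckeT1

variable {p : ℕ}

/-- Coset representatives of `T_p`, indexed by the projective line over `𝔽_p`. -/
def heckeRep848 (p : ℕ) (x : OnePoint (ZMod p)) : GL (Fin 2) ℝ :=
  x.elim (heckeDiagMatrix p) (fun j ↦ heckeMatrix p j.val)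

theorem heckeRep848_infty : heckeRep848 p ∞ = heckeDiagMatrix p := rfl

theorem heckeRep848_coe (j : ZMod p) : heckeRep848 p j = heckeMatrix p j.val := rfl

/-- The diamond weight of a coset: `p` for the diagonal coset, `1` for the others. -/
def cosetWt (N p : ℕ) (x : OnePoint (ZMod p)) : ZMod N :=
  x.elim (p : ZMod N) (fun _ ↦ 1)

theorem cosetWt_infty (N : ℕ) : cosetWt N p ∞ = (p : ZMod N) := rfl

theorem cosetWt_coe (N : ℕ) (j : ZMod p) : cosetWt N p (j : OnePoint (ZMod p)) = 1 := rfl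

variable [Fact p.Prime]

variable (p) in
/-- Reduction mod `p` of the transposed-inverse-type matrix governing the permutation of cosets. -/
def redMatrix848 (g : SL(2, ℤ)) : GL (Fin 2) (ZMod p) :=
  Matrix.GeneralLinearGroup.mkOfDetNeZero
    !![((g 1 1 : ℤ) : ZMod p), ((g 0 1 : ℤ) : ZMod p);
       ((g 1 0 : ℤ) : ZMod p), ((g 0 0 : ℤ) : ZMod p)]
    (by
      have := congrArg (Int.cast : ℤ → ZMod p) (det_eq848 g)
      push_cast at this
      rw [Matrix.det_fin_two_of,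
        show ((g 1 1 : ℤ) : ZMod p) * ((g 0 0 : ℤ) : ZMod p) -
            ((g 0 1 : ℤ) : ZMod p) * ((g 1 0 : ℤ) : ZMod p) = 1 by linear_combination this]
      exact one_ne_zero)

theorem redMatrix848_apply_zero_zero (g : SL(2, ℤ)) :
    redMatrix848 p g 0 0 = ((g 1 1 : ℤ) : ZMod p) := by
  simp [redMatrix848]

theorem redMatrix848_apply_zero_one (g : SL(2, ℤ)) :
    redMatrix848 p g 0 1 = ((g 0 1 : ℤ) : ZMod p) := by
  simp [redMatrix848]

theorem redMatrix848_apply_one_zero (g : SL(2, ℤ)) :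
    redMatrix848 p g 1 0 = ((g 1 0 : ℤ) : ZMod p) := by
  simp [redMatrix848]

theorem redMatrix848_apply_one_one (g : SL(2, ℤ)) :
    redMatrix848 p g 1 1 = ((g 0 0 : ℤ) : ZMod p) := by
  simp [redMatrix848]

theorem heckeRep848_mul {N : ℕ} (hpN : ¬ p ∣ N) (g : SL(2, ℤ)) (hg : (N : ℤ) ∣ g 1 0)
    (x : OnePoint (ZMod p)) :
    ∃ g' : SL(2, ℤ), (N : ℤ) ∣ g' 1 0 ∧
      ((g' 1 1 : ℤ) : ZMod N) * cosetWt N p x =
        cosetWt N p (redMatrix848 p g • x) * ((g 1 1 : ℤ) : ZMod N) ∧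
      heckeRep848 p x * mapGL ℝ g = mapGL ℝ g' * heckeRep848 p (redMatrix848 p g • x) := by
  have hp : p ≠ 0 := (Fact.out : p.Prime).ne_zero
  have hgN : ((g 1 0 : ℤ) : ZMod N) = 0 := (ZMod.intCast_zmod_eq_zero_iff_dvd _ _).mpr hg
  induction x using OnePoint.rec with
  | infty =>
    rw [OnePoint.smul_infty_eq_ite]
    by_cases hc : ((g 1 0 : ℤ) : ZMod p) = 0
    · rw [if_pos (by simpa [redMatrix848_apply_one_zero] using hc), heckeRep848_infty]
      obtain ⟨e, he⟩ := (ZMod.intCast_zmod_eq_zero_iff_dvd _ _).mp hc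
      obtain ⟨g', hg', hg'1, hmul⟩ := heckeDiagMatrix_mul_track' hp g e he
      refine ⟨g', ?_, ?_, hmul⟩
      · rw [hg']
        have hcop : IsCoprime (N : ℤ) (p : ℤ) :=
          Nat.isCoprime_iff_coprime.mpr ((Nat.Prime.coprime_iff_not_dvd Fact.out).mpr hpN).symm
        exact hcop.dvd_of_dvd_mul_left (he ▸ hg)
      · rw [hg'1, cosetWt_infty, mul_comm]
    · rw [if_neg (by simpa [redMatrix848_apply_one_zero] using hc), heckeRep848_infty,
        heckeRep848_coe]
      set y : ZMod p := redMatrix848 p g 0 0 / redMatrix848 p g 1 0 with hy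
      obtain ⟨e, he⟩ : (p : ℤ) ∣ g 1 1 - g 1 0 * y.val := by
        rw [← ZMod.intCast_zmod_eq_zero_iff_dvd]
        push_cast
        rw [ZMod.natCast_zmod_val, hy, redMatrix848_apply_zero_zero, redMatrix848_apply_one_zero,
          mul_div_cancel₀ _ hc, sub_self]
      obtain ⟨g', hg', hg'1, hmul⟩ :=
        heckeDiagMatrix_mul_track hp g y.val e (by linear_combination he)
      refine ⟨g', hg' ▸ hg, ?_, hmul⟩
      rw [hg'1, cosetWt_infty, cosetWt_coe, one_mul]
      have := congrArg (Int.cast : ℤ → ZMod N) he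
      push_cast at this
      rw [hgN] at this
      linear_combination -this
  | coe j =>
    rw [OnePoint.smul_some_eq_ite]
    by_cases h : redMatrix848 p g 1 0 * j + redMatrix848 p g 1 1 = 0
    · rw [if_pos h, heckeRep848_infty, heckeRep848_coe]
      rw [redMatrix848_apply_one_zero, redMatrix848_apply_one_one] at h
      obtain ⟨e, he⟩ : (p : ℤ) ∣ g 0 0 + j.val * g 1 0 := by
        rw [← ZMod.intCast_zmod_eq_zero_iff_dvd]
        push_cast
        rw [ZMod.natCast_zmod_val]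
        linear_combination h
      obtain ⟨g', hg', hg'1, hmul⟩ := heckeMatrix_mul_track' hp g j.val e he
      refine ⟨g', hg' ▸ hg, ?_, hmul⟩
      rw [hg'1, cosetWt_infty, cosetWt_coe, mul_one]
      push_cast
      rfl
    · rw [if_neg h, heckeRep848_coe, heckeRep848_coe]
      set y : ZMod p := (redMatrix848 p g 0 0 * j + redMatrix848 p g 0 1) /
        (redMatrix848 p g 1 0 * j + redMatrix848 p g 1 1) with hy
      obtain ⟨e, he⟩ : (p : ℤ) ∣ g 0 1 + j.val * g 1 1 - y.val * (g 0 0 + j.val * g 1 0) := by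
        rw [← ZMod.intCast_zmod_eq_zero_iff_dvd]
        push_cast
        rw [ZMod.natCast_zmod_val, ZMod.natCast_zmod_val,
          show ((g 0 0 : ℤ) : ZMod p) + j * ((g 1 0 : ℤ) : ZMod p)
            = redMatrix848 p g 1 0 * j + redMatrix848 p g 1 1 by
              rw [redMatrix848_apply_one_zero, redMatrix848_apply_one_one]; ring,
          hy, div_mul_cancel₀ _ h, redMatrix848_apply_zero_zero, redMatrix848_apply_zero_one]
        ring
      obtain ⟨g', hg', hg'1, hmul⟩ :=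
        heckeMatrix_mul_track hp g j.val y.val e (by linear_combination he)
      refine ⟨g', hg' ▸ dvd_mul_of_dvd_right hg _, ?_, hmul⟩
      rw [hg'1, cosetWt_coe, cosetWt_coe, mul_one, one_mul]
      push_cast
      rw [hgN]
      ring

/-- Function-level `T_p` for `Γ₁(N)`: the diamond operator (slash by `σ ∈ Γ₀(N)` with lower
right entry `≡ p`) is inserted in front of the diagonal coset. -/
def heckeT1 (k : ℤ) (p : ℕ) (σ : SL(2, ℤ)) (f : ℍ → ℂ) : ℍ → ℂ :=
  heckeU k p f + (f ∣[k] mapGL ℝ σ) ∣[k] heckeDiagMatrix p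

/-- The element of `Γ₀(N)` by which the coset `x` is twisted. -/
def cosetTwist (p : ℕ) (σ : SL(2, ℤ)) (x : OnePoint (ZMod p)) : SL(2, ℤ) :=
  x.elim σ (fun _ ↦ 1)

omit [Fact p.Prime] in
theorem cosetTwist_infty (σ : SL(2, ℤ)) : cosetTwist p σ ∞ = σ := rfl

omit [Fact p.Prime] in
theorem cosetTwist_coe (σ : SL(2, ℤ)) (j : ZMod p) :
    cosetTwist p σ (j : OnePoint (ZMod p)) = 1 := rfl

omit [Fact p.Prime] in
theorem cosetTwist_mem {N : ℕ} {σ : SL(2, ℤ)} (hσ : σ ∈ Gamma0 N) (x : OnePoint (ZMod p)) :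
    cosetTwist p σ x ∈ Gamma0 N := by
  induction x using OnePoint.rec with
  | infty => exact hσ
  | coe j => exact (Gamma0 N).one_mem

omit [Fact p.Prime] in
theorem cosetTwist_entry {N : ℕ} {σ : SL(2, ℤ)} (hσp : ((σ 1 1 : ℤ) : ZMod N) = (p : ZMod N))
    (x : OnePoint (ZMod p)) :
    (((cosetTwist p σ x) 1 1 : ℤ) : ZMod N) = cosetWt N p x := by
  induction x using OnePoint.rec with
  | infty => rw [cosetTwist_infty, cosetWt_infty, hσp]
  | coe j => rw [cosetTwist_coe, cosetWt_coe]; simp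

theorem heckeT1_eq_sum (k : ℤ) (σ : SL(2, ℤ)) (f : ℍ → ℂ) :
    heckeT1 k p σ f =
      ∑ x : OnePoint (ZMod p), (f ∣[k] mapGL ℝ (cosetTwist p σ x)) ∣[k] heckeRep848 p x := by
  have : NeZero p := ⟨(Fact.out : p.Prime).ne_zero⟩
  rw [heckeT1, heckeU_eq_sum_zmod848, add_comm]
  rw [show (∑ x : OnePoint (ZMod p), (f ∣[k] mapGL ℝ (cosetTwist p σ x)) ∣[k] heckeRep848 p x) =
      _ from Fintype.sum_option
        (fun x : OnePoint (ZMod p) ↦ (f ∣[k] mapGL ℝ (cosetTwist p σ x)) ∣[k] heckeRep848 p x)]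
  congr 1
  refine Finset.sum_congr rfl fun j _ ↦ ?_
  change f ∣[k] heckeMatrix p j.val =
    (f ∣[k] mapGL ℝ (cosetTwist p σ (j : OnePoint (ZMod p)))) ∣[k] heckeMatrix p j.val
  rw [cosetTwist_coe, map_one, SlashAction.slash_one]

/-- **`T_p` preserves `Γ₁(N)`-invariance.** -/
theorem heckeT1_SI1 {N : ℕ} (hpN : ¬ p ∣ N) {k : ℤ} {f : ℍ → ℂ} (hf : SI1 N k f)
    {σ : SL(2, ℤ)} (hσ : σ ∈ Gamma0 N) (hσp : ((σ 1 1 : ℤ) : ZMod N) = (p : ZMod N)) :
    SI1 N k (heckeT1 k p σ f) := by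
  intro g hg
  have hg0 : g ∈ Gamma0 N := Gamma1_in_Gamma0 N hg
  have hcN : (N : ℤ) ∣ g 1 0 :=
    (ZMod.intCast_zmod_eq_zero_iff_dvd _ _).mp (Gamma0_mem.mp hg0)
  have hg11 : ((g 1 1 : ℤ) : ZMod N) = 1 := ((Gamma1_mem N g).mp hg).2.1
  rw [heckeT1_eq_sum k σ f, SlashAction.sum_slash]
  calc ∑ x : OnePoint (ZMod p),
        ((f ∣[k] mapGL ℝ (cosetTwist p σ x)) ∣[k] heckeRep848 p x) ∣[k] mapGL ℝ g
      = ∑ x : OnePoint (ZMod p), (f ∣[k] mapGL ℝ (cosetTwist p σ (redMatrix848 p g • x)))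
          ∣[k] heckeRep848 p (redMatrix848 p g • x) := by
        refine Finset.sum_congr rfl fun x _ ↦ ?_
        obtain ⟨g', hg', hg'1, hmul⟩ := heckeRep848_mul hpN g hcN x
        have hg'N : g' ∈ Gamma0 N :=
          Gamma0_mem.mpr ((ZMod.intCast_zmod_eq_zero_iff_dvd _ _).mpr hg')
        have hg'0 : ((g' 1 0 : ℤ) : ZMod N) = 0 := Gamma0_mem.mp hg'N
        rw [← SlashAction.slash_mul, hmul, SlashAction.slash_mul]
        congr 1
        rw [← SlashAction.slash_mul, ← map_mul]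
        refine slash_eq_of_entry_eq hf ((Gamma0 N).mul_mem (cosetTwist_mem hσ x) hg'N)
          (cosetTwist_mem hσ _) ?_
        rw [cosetTwist_entry hσp]
        have e : (cosetTwist p σ x * g') 1 1 =
            (cosetTwist p σ x) 1 0 * g' 0 1 + (cosetTwist p σ x) 1 1 * g' 1 1 := by
          rw [Matrix.SpecialLinearGroup.coe_mul, Matrix.mul_apply, Fin.sum_univ_two]
        rw [e]
        push_cast
        rw [Gamma0_mem.mp (cosetTwist_mem hσ x), cosetTwist_entry hσp, zero_mul, zero_add,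
          mul_comm, hg'1, hg11, mul_one]
    _ = ∑ x : OnePoint (ZMod p),
          (f ∣[k] mapGL ℝ (cosetTwist p σ x)) ∣[k] heckeRep848 p x :=
        Equiv.sum_comp (MulAction.toPerm (redMatrix848 p g))
          (fun x ↦ (f ∣[k] mapGL ℝ (cosetTwist p σ x)) ∣[k] heckeRep848 p x)

end heckeT1

end Fermat.Agent.S48.H848

end
end
-- ===== PACK-END S48/H848/Coset.lean

-- ===== PACK-BEGIN S48/H848/Forms.lean
section
/-
S48 piece P0 (helper848): diamond operators and the Hecke operator `T_p` on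
`CuspForm (Gamma1 N) k` (bundled), from the function-level results of `Coset.lean` and the
Prelude theorems on `heckeU` / `heckeT`.
-/



set_option autoImplicit false

noncomputable section

namespace Fermat.Agent.S48.H848

open Matrix.SpecialLinearGroup UpperHalfPlane CongruenceSubgroup ModularForm
open scoped MatrixGroups ModularForm OnePoint Manifold

variable {N : ℕ} {k : ℤ}

/-- Bundle a `Γ₁(N)`-invariant holomorphic function vanishing at all cusps. -/
def mkCusp1 (F : ℍ → ℂ) (hSI : SI1 N k F) (hol : MDiff F)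
    (hz : ∀ {c : OnePoint ℝ}, IsCusp c (Gamma1 N : Subgroup (GL (Fin 2) ℝ)) → c.IsZeroAt F k) :
    CuspForm (Gamma1 N) k where
  toFun := F
  slash_action_eq' := fun γ hγ ↦ by
    obtain ⟨g', hg, rfl⟩ := hγ
    exact hSI g' hg
  holo' := hol
  zero_at_cusps' := hz

@[simp] theorem coe_mkCusp1 (F : ℍ → ℂ) (hSI : SI1 N k F) (hol : MDiff F)
    (hz : ∀ {c : OnePoint ℝ}, IsCusp c (Gamma1 N : Subgroup (GL (Fin 2) ℝ)) → c.IsZeroAt F k) :
    ⇑(mkCusp1 F hSI hol hz) = F := rfl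

theorem SI1_coe (f : CuspForm (Gamma1 N) k) : SI1 N k ⇑f := fun _ hg ↦
  SlashInvariantFormClass.slash_action_eq f _ (Subgroup.mem_map_of_mem (mapGL ℝ) hg)

/-- Slash by an element of `Γ₀(N)` preserves `Γ₁(N)`-invariance. -/
theorem SI1_slash {f : ℍ → ℂ} (hf : SI1 N k f) {σ : SL(2, ℤ)} (hσ : σ ∈ Gamma0 N) :
    SI1 N k (f ∣[k] mapGL ℝ σ) := by
  intro g hg
  have hg0 : g ∈ Gamma0 N := Gamma1_in_Gamma0 N hg
  rw [← SlashAction.slash_mul, ← map_mul]
  refine slash_eq_of_entry_eq hf ((Gamma0 N).mul_mem hσ hg0) hσ ?_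
  have e : (σ * g) 1 1 = σ 1 0 * g 0 1 + σ 1 1 * g 1 1 := by
    rw [Matrix.SpecialLinearGroup.coe_mul, Matrix.mul_apply, Fin.sum_univ_two]
  rw [e]
  push_cast
  rw [Gamma0_mem.mp hσ, ((Gamma1_mem N g).mp hg).2.1, zero_mul, zero_add, mul_one]

section cusps

variable [NeZero N]

/-- Slash by an element of `SL(2, ℤ)` preserves vanishing at all cusps. -/
theorem isZeroAt_slash_SL (f : CuspForm (Gamma1 N) k) (σ : SL(2, ℤ)) {c : OnePoint ℝ}
    (hc : IsCusp c (Gamma1 N : Subgroup (GL (Fin 2) ℝ))) :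
    c.IsZeroAt (⇑f ∣[k] mapGL ℝ σ) k := by
  rw [← OnePoint.IsZeroAt.smul_iff]
  apply CuspFormClass.zero_at_cusps f
  rw [Subgroup.IsArithmetic.isCusp_iff_isCusp_SL2Z] at hc ⊢
  exact hc.smul_of_mem ⟨σ, rfl⟩

/-- The diamond operator attached to `σ ∈ Γ₀(N)`. -/
def diamondCF (σ : SL(2, ℤ)) (hσ : σ ∈ Gamma0 N) (f : CuspForm (Gamma1 N) k) :
    CuspForm (Gamma1 N) k :=
  mkCusp1 (⇑f ∣[k] mapGL ℝ σ) (SI1_slash (SI1_coe f) hσ)
    ((CuspFormClass.holo f).slash k _) (fun hc ↦ isZeroAt_slash_SL f σ hc)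

@[simp] theorem coe_diamondCF (σ : SL(2, ℤ)) (hσ : σ ∈ Gamma0 N) (f : CuspForm (Gamma1 N) k) :
    ⇑(diamondCF σ hσ f) = ⇑f ∣[k] mapGL ℝ σ := rfl

theorem isZeroAt_neg848 {F : ℍ → ℂ} {c : OnePoint ℝ} (h : c.IsZeroAt F k) :
    c.IsZeroAt (-F) k := by
  intro g hg
  rw [SlashAction.neg_slash]
  exact (h g hg).neg

/-- Slash by the diagonal matrix `diag(q, 1)` preserves vanishing at all cusps. -/
theorem isZeroAt_slash_diag (f : CuspForm (Gamma1 N) k) (q : ℕ) {c : OnePoint ℝ}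
    (hc : IsCusp c (Gamma1 N : Subgroup (GL (Fin 2) ℝ))) :
    c.IsZeroAt (⇑f ∣[k] heckeDiagMatrix q) k := by
  have h1 := CuspFormClass.isZeroAt_heckeT f q hc
  have h2 := CuspFormClass.isZeroAt_heckeU f q hc
  have e : ⇑f ∣[k] heckeDiagMatrix q = heckeT k q ⇑f + -heckeU k q ⇑f := by
    rw [heckeT_eq_heckeU_add]
    abel
  rw [e]
  exact h1.add (isZeroAt_neg848 h2)

/-- The bundled form `f ∣ diag(q, 1)`, when it is `Γ₁(N)`-invariant. -/
def diagCF (q : ℕ) (f : CuspForm (Gamma1 N) k)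
    (h : SI1 N k (⇑f ∣[k] heckeDiagMatrix q)) : CuspForm (Gamma1 N) k :=
  mkCusp1 (⇑f ∣[k] heckeDiagMatrix q) h ((CuspFormClass.holo f).slash k _)
    (fun hc ↦ isZeroAt_slash_diag f q hc)

@[simp] theorem coe_diagCF (q : ℕ) (f : CuspForm (Gamma1 N) k)
    (h : SI1 N k (⇑f ∣[k] heckeDiagMatrix q)) :
    ⇑(diagCF q f h) = ⇑f ∣[k] heckeDiagMatrix q := rfl

/-- The Hecke operator `T_p` on `S_k(Γ₁(N))`, `p ∤ N` prime; `σ ∈ Γ₀(N)` with lower right entry
`≡ p` realises the diamond operator `⟨p⟩`. -/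
def heckeT1CF {p : ℕ} [Fact p.Prime] (hpN : ¬ p ∣ N) (σ : SL(2, ℤ)) (hσ : σ ∈ Gamma0 N)
    (hσp : ((σ 1 1 : ℤ) : ZMod N) = (p : ZMod N)) (f : CuspForm (Gamma1 N) k) :
    CuspForm (Gamma1 N) k :=
  mkCusp1 (heckeT1 k p σ ⇑f) (heckeT1_SI1 hpN (SI1_coe f) hσ hσp)
    ((mdifferentiable_heckeU (CuspFormClass.holo f) k p).add
      (((CuspFormClass.holo f).slash k _).slash k _))
    (fun hc ↦ (CuspFormClass.isZeroAt_heckeU f p hc).add
      (isZeroAt_slash_diag (diamondCF σ hσ f) p hc))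

@[simp] theorem coe_heckeT1CF {p : ℕ} [Fact p.Prime] (hpN : ¬ p ∣ N) (σ : SL(2, ℤ))
    (hσ : σ ∈ Gamma0 N) (hσp : ((σ 1 1 : ℤ) : ZMod N) = (p : ZMod N))
    (f : CuspForm (Gamma1 N) k) :
    ⇑(heckeT1CF hpN σ hσ hσp f) = heckeT1 k p σ ⇑f := rfl

end cusps

end Fermat.Agent.S48.H848

end
end
-- ===== PACK-END S48/H848/Forms.lean

-- ===== PACK-BEGIN S48/H228/DepleteCusp.lean
section






/-!
# S48 / RES piece PACKET (helper228), part 1: slashing a cusp form by a rational matrix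

If `f` is a cusp form for an arithmetic group and `g ∈ GL₂(ℝ)` has rational entries, then
`f ∣[k] g` vanishes at every cusp of every arithmetic group (`isZeroAt_slash_of_isRatGL`).
-/

set_option autoImplicit false

open scoped MatrixGroups ModularForm
open Matrix Matrix.SpecialLinearGroup UpperHalfPlane ModularForm

namespace Fermat.Agent.S48.H228

/-- `g ∈ GL₂(ℝ)` has rational entries. -/
def IsRatGL (g : GL (Fin 2) ℝ) : Prop :=
  ∃ g₀ : GL (Fin 2) ℚ, g₀.map (Rat.castHom ℝ) = g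

lemma IsRatGL.mul {g h : GL (Fin 2) ℝ} (hg : IsRatGL g) (hh : IsRatGL h) : IsRatGL (g * h) := by
  obtain ⟨g₀, rfl⟩ := hg
  obtain ⟨h₀, rfl⟩ := hh
  exact ⟨g₀ * h₀, map_mul _ _ _⟩

/-- An invertible real matrix all of whose entries are rational is in `IsRatGL`. -/
lemma isRatGL_of_entries (g : GL (Fin 2) ℝ) (a b c d : ℚ)
    (h00 : g 0 0 = a) (h01 : g 0 1 = b) (h10 : g 1 0 = c) (h11 : g 1 1 = d) : IsRatGL g := by
  have hdet : (g : Matrix (Fin 2) (Fin 2) ℝ).det = ((a * d - b * c : ℚ) : ℝ) := by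
    rw [Matrix.det_fin_two, h00, h01, h10, h11]
    push_cast
    ring
  have hne : (a * d - b * c : ℚ) ≠ 0 := by
    intro h0
    have hu : IsUnit (g : Matrix (Fin 2) (Fin 2) ℝ).det :=
      (Matrix.isUnit_iff_isUnit_det _).mp g.isUnit
    rw [hdet, h0] at hu
    simp at hu
  refine ⟨Matrix.GeneralLinearGroup.mkOfDetNeZero !![a, b; c, d]
    (by rw [Matrix.det_fin_two_of]; exact hne), ?_⟩
  ext i j
  fin_cases i <;> fin_cases j <;>
    simp [Matrix.GeneralLinearGroup.mkOfDetNeZero, h00, h01, h10, h11]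

lemma isRatGL_heckeMatrix (p j : ℕ) : IsRatGL (heckeMatrix p j) := by
  by_cases hp : p = 0
  · subst hp
    rw [ModularForm.heckeMatrix_zero]
    exact ⟨1, map_one _⟩
  · refine isRatGL_of_entries _ 1 j 0 p ?_ ?_ ?_ ?_ <;> simp [hp]

lemma isRatGL_heckeDiagMatrix (p : ℕ) : IsRatGL (heckeDiagMatrix p) := by
  by_cases hp : p = 0
  · subst hp
    refine ⟨1, ?_⟩
    rw [map_one]
    simp [ModularForm.heckeDiagMatrix]
  · refine isRatGL_of_entries _ p 0 0 1 ?_ ?_ ?_ ?_ <;> simp [hp]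

/-- Rational matrices preserve the set of cusps `ℙ¹(ℚ)`. -/
lemma isCusp_smul_of_isRatGL {g : GL (Fin 2) ℝ} (hg : IsRatGL g) {c : OnePoint ℝ}
    (hc : IsCusp c 𝒮ℒ) : IsCusp (g • c) 𝒮ℒ := by
  obtain ⟨g₀, rfl⟩ := hg
  rw [isCusp_SL2Z_iff] at hc ⊢
  obtain ⟨c₀, rfl⟩ := hc
  refine ⟨g₀ • c₀, ?_⟩
  rw [← Rat.coe_castHom, OnePoint.map_smul]

/-- The slash of a cusp form by a rational matrix vanishes at all cusps. -/
theorem isZeroAt_slash_of_isRatGL {Γ Γ' : Subgroup (GL (Fin 2) ℝ)} [Γ.IsArithmetic]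
    [Γ'.IsArithmetic] {k : ℤ} {F : Type*} [FunLike F ℍ ℂ] [CuspFormClass F Γ k] (f : F)
    {g : GL (Fin 2) ℝ} (hg : IsRatGL g) {c : OnePoint ℝ} (hc : IsCusp c Γ') :
    c.IsZeroAt (⇑f ∣[k] g) k := by
  rw [← OnePoint.IsZeroAt.smul_iff]
  apply CuspFormClass.zero_at_cusps f
  rw [Subgroup.IsArithmetic.isCusp_iff_isCusp_SL2Z] at hc ⊢
  exact isCusp_smul_of_isRatGL hg hc

/-- Finite sums of functions vanishing at a cusp. -/
theorem isZeroAt_sum {ι : Type*} (s : Finset ι) (F : ι → ℍ → ℂ) {k : ℤ} {c : OnePoint ℝ}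
    (h : ∀ i ∈ s, c.IsZeroAt (F i) k) : c.IsZeroAt (∑ i ∈ s, F i) k := by
  classical
  induction s using Finset.induction_on with
  | empty =>
    intro g _
    simp only [Finset.sum_empty]
    rw [SlashAction.zero_slash]
    exact Filter.zero_zeroAtFilter _
  | insert a s ha ih =>
    rw [Finset.sum_insert ha]
    exact (h a (Finset.mem_insert_self a s)).add
      (ih fun i hi => h i (Finset.mem_insert_of_mem hi))

theorem isZeroAt_smul {F : ℍ → ℂ} {k : ℤ} {c : OnePoint ℝ} (a : ℂ)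
    (h : c.IsZeroAt F k) : c.IsZeroAt (a • F) k := by
  intro g hg
  rw [ModularForm.smul_slash]
  exact Filter.ZeroAtFilter.smul _ (h g hg)

end Fermat.Agent.S48.H228

end
-- ===== PACK-END S48/H228/DepleteCusp.lean

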