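import Mathlib
import Mathlib.GroupTheory.SpecificGroups.Cyclic
import Mathlib.Algebra.BigOperators.Group.Finset.Basic
import Mathlib.Data.Real.Basic
import Mathlib.Order.Filter.Basic
import Mathlib.Tactic
import Fermat.Prelude.Def_ModularForm_HeckeOperator
import Fermat.Prelude.Def_FLTPrelim_Modularity
import Fermat.Agent.Pack.S44C.G0E3L2
import Fermat.Agent.Pack.L1.E10L0

-- ===== PACK-BEGIN S48/H588/GaloisDescent.lean
section


/-!
# Tower A1 (S48 / RES): the `q`-expansion principle climbs a Galois step (Mathlib-only)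

`P ⊆ F₀ ⊆ F'` inside a field `Ω'`, `G` a finite group of automorphisms of `Ω'` fixing `P` and `w`,
preserving `F'` and a subring `V'` (the Gauss valuation ring of `F'`), with `(F')^G ⊆ F₀`.
If the `q`-expansion principle holds for `F₀`
(`c ∈ F₀ ∩ V'`, `c * w ^ j` integral over `P` ⟹ `c` integral over `P`), then it holds for `F'`:
`b ∈ F'` integral over `P`, `b / w ∈ V'` ⟹ `b / w` integral over `P`.

Proof: `z = b / w` is a root of `∏_{g ∈ G} (X - g z)`, whose coefficients `c_k` are `G`-invariant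
elements of `V'`, and `c_k * w ^ (n - k)` is a coefficient of `∏ (X - g b)`, hence integral.
No Krull domains, no going-down, no noetherian hypothesis.
-/

set_option autoImplicit false

namespace Fermat.Agent.S48.H588

open Polynomial

section Integral

variable {R B : Type*} [CommRing R] [CommRing B] [Algebra R B]

/-- A root of a monic polynomial whose coefficients are integral over `R` is integral over `R`. -/
theorem isIntegral_of_monic_of_coeff_isIntegral (p : B[X]) (hp : p.Monic)
    (hc : ∀ i, IsIntegral R (p.coeff i)) {z : B} (hz : p.eval z = 0) : IsIntegral R z := by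
  let A := integralClosure R B
  have hsub : (↑p.coeffs : Set B) ⊆ A.toSubring := by
    intro c hc'
    obtain ⟨i, _, rfl⟩ := Polynomial.mem_coeffs_iff.mp (by exact_mod_cast hc')
    exact hc i
  let p' : A.toSubring[X] := p.toSubring A.toSubring hsub
  have hp' : p'.Monic := (p.monic_toSubring _ _).mpr hp
  have hmap : p'.map (A.toSubring.subtype) = p := p.map_toSubring A.toSubring hsub
  have hA : IsIntegral A z := by
    refine ⟨p', hp', ?_⟩
    have : eval₂ (algebraMap A B) z p' = (p'.map (A.toSubring.subtype)).eval z := by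
      rw [eval_map]; rfl
    rw [this, hmap, hz]
  exact isIntegral_trans (A := A) z hA

end Integral

section Group

variable {Ω' : Type*} [Field Ω']

/-- The orbit polynomial `∏_{g ∈ G} (X - g z)`. -/
noncomputable def orbitPoly (G : Subgroup (Ω' ≃+* Ω')) [Fintype G] (z : Ω') : Ω'[X] :=
  ∏ g : G, (X - C ((g : Ω' ≃+* Ω') z))

variable (G : Subgroup (Ω' ≃+* Ω')) [Fintype G]

theorem orbitPoly_monic (z : Ω') : (orbitPoly G z).Monic :=
  monic_prod_of_monic _ _ (fun _ _ => monic_X_sub_C _)

theorem orbitPoly_natDegree (z : Ω') : (orbitPoly G z).natDegree = Fintype.card G := by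
  unfold orbitPoly
  rw [natDegree_prod_of_monic _ _ (fun _ _ => monic_X_sub_C _)]
  simp

theorem orbitPoly_eval (z : Ω') : (orbitPoly G z).eval z = 0 := by
  unfold orbitPoly
  rw [eval_prod]
  refine Finset.prod_eq_zero (Finset.mem_univ (1 : G)) ?_
  simp

theorem orbitPoly_map (z : Ω') (h : G) :
    (orbitPoly G z).map ((h : Ω' ≃+* Ω') : Ω' →+* Ω') = orbitPoly G z := by
  unfold orbitPoly
  rw [Polynomial.map_prod]
  refine Fintype.prod_equiv (Equiv.mulLeft h) _ _ (fun g => ?_)
  simp [Polynomial.map_sub]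

theorem orbitPoly_coeff_fixed (z : Ω') (h : G) (k : ℕ) :
    (h : Ω' ≃+* Ω') ((orbitPoly G z).coeff k) = (orbitPoly G z).coeff k := by
  have := congrArg (fun p => p.coeff k) (orbitPoly_map G z h)
  simpa [coeff_map] using this

/-- The coefficients of the orbit polynomial lie in every subring containing the orbit. -/
theorem orbitPoly_coeff_mem (z : Ω') (T : Subring Ω')
    (hz : ∀ g : G, (g : Ω' ≃+* Ω') z ∈ T) (k : ℕ) : (orbitPoly G z).coeff k ∈ T := by
  have : orbitPoly G z = (∏ g : G, (X - C (⟨(g : Ω' ≃+* Ω') z, hz g⟩ : T))).map T.subtype := by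
    unfold orbitPoly
    rw [Polynomial.map_prod]
    refine Finset.prod_congr rfl (fun g _ => ?_)
    simp
  rw [this, coeff_map]
  exact Subtype.property _

/-- Scaling: `∏ (X - g b)` composed with `w X` is `w ^ n ∏ (X - g (b / w))` when `G` fixes `w`. -/
theorem orbitPoly_comp (b w : Ω') (hw : w ≠ 0) (hGw : ∀ g : G, (g : Ω' ≃+* Ω') w = w) :
    (orbitPoly G b).comp (C w * X) = C (w ^ Fintype.card G) * orbitPoly G (b * w⁻¹) := by
  unfold orbitPoly
  rw [Polynomial.prod_comp]
  have h1 : ∀ g : G, (X - C ((g : Ω' ≃+* Ω') b)).comp (C w * X)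
      = C w * (X - C ((g : Ω' ≃+* Ω') (b * w⁻¹))) := by
    intro g
    rw [sub_comp, X_comp, C_comp, map_mul, map_inv₀, hGw g, mul_sub, ← C_mul]
    congr 2
    field_simp
  rw [Finset.prod_congr rfl (fun g _ => h1 g), Finset.prod_mul_distrib, Finset.prod_const,
    Finset.card_univ, ← C_pow]

theorem orbitPoly_coeff_scale (b w : Ω') (hw : w ≠ 0)
    (hGw : ∀ g : G, (g : Ω' ≃+* Ω') w = w) (k : ℕ) (hk : k ≤ Fintype.card G) :
    (orbitPoly G (b * w⁻¹)).coeff k * w ^ (Fintype.card G - k) = (orbitPoly G b).coeff k := by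
  have h := congrArg (fun p => p.coeff k) (orbitPoly_comp G b w hw hGw)
  simp only [comp_C_mul_X_coeff, coeff_C_mul] at h
  have hwk : w ^ k ≠ 0 := pow_ne_zero _ hw
  apply mul_right_cancel₀ hwk
  rw [h, mul_assoc, ← pow_add, Nat.sub_add_cancel hk, mul_comm]

end Group

section Descent

variable {Ω' : Type*} [Field Ω']

/-- **Galois descent of the `q`-expansion principle** (see the module docstring). -/
theorem qep_of_galois (P : Subring Ω') (F₀ F' : Subfield Ω') (V' : Subring Ω') (w : Ω')
    (hw : w ≠ 0) (hwF : w ∈ F') (G : Subgroup (Ω' ≃+* Ω')) [Finite G]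
    (hGP : ∀ g ∈ G, ∀ a ∈ P, (g : Ω' ≃+* Ω') a = a)
    (hGw : ∀ g ∈ G, (g : Ω' ≃+* Ω') w = w)
    (hGF : ∀ g ∈ G, ∀ f ∈ F', (g : Ω' ≃+* Ω') f ∈ F')
    (hGV : ∀ g ∈ G, ∀ f ∈ V', (g : Ω' ≃+* Ω') f ∈ V')
    (hinv : ∀ f ∈ F', (∀ g ∈ G, (g : Ω' ≃+* Ω') f = f) → f ∈ F₀)
    (hbase : ∀ c ∈ F₀, c ∈ V' → (∃ j : ℕ, IsIntegral P (c * w ^ j)) → IsIntegral P c)
    {b : Ω'} (hbF : b ∈ F') (hb : IsIntegral P b) (hbV : b * w⁻¹ ∈ V') :
    IsIntegral P (b * w⁻¹) := by
  classical
  have _inst : Fintype G := Fintype.ofFinite G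
  set z := b * w⁻¹ with hz
  have hzF : z ∈ F' := F'.mul_mem hbF (F'.inv_mem hwF)
  -- every conjugate of `b` is integral over `P`
  have hgb : ∀ g : G, IsIntegral P ((g : Ω' ≃+* Ω') b) := by
    intro g
    obtain ⟨q, hq, hqb⟩ := hb
    refine ⟨q, hq, ?_⟩
    have hcomp : (((g : Ω' ≃+* Ω') : Ω' →+* Ω').comp (algebraMap P Ω')) = algebraMap P Ω' := by
      ext a
      exact hGP g g.2 a a.2
    have := Polynomial.hom_eval₂ q (algebraMap P Ω') ((g : Ω' ≃+* Ω') : Ω' →+* Ω') b
    rw [hqb, map_zero, hcomp] at this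
    exact this.symm
  have hcoef : ∀ k, IsIntegral P ((orbitPoly G z).coeff k) := by
    intro k
    by_cases hk : k ≤ Fintype.card G
    · set c := (orbitPoly G z).coeff k with hc
      have hcF : c ∈ F' :=
        orbitPoly_coeff_mem G z F'.toSubring (fun g => hGF g g.2 z hzF) k
      have hcV : c ∈ V' := orbitPoly_coeff_mem G z V' (fun g => hGV g g.2 z hbV) k
      have hcfix : ∀ g ∈ G, (g : Ω' ≃+* Ω') c = c :=
        fun g hg => orbitPoly_coeff_fixed G z ⟨g, hg⟩ k
      have hcF₀ : c ∈ F₀ := hinv c hcF hcfix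
      refine hbase c hcF₀ hcV ⟨Fintype.card G - k, ?_⟩
      rw [hc, hz, orbitPoly_coeff_scale G b w hw (fun g => hGw g g.2) k hk]
      exact orbitPoly_coeff_mem G b (integralClosure P Ω').toSubring (fun g => hgb g) k
    · rw [coeff_eq_zero_of_natDegree_lt (by rw [orbitPoly_natDegree]; omega)]
      exact isIntegral_zero
  exact isIntegral_of_monic_of_coeff_isIntegral _ (orbitPoly_monic G z) hcoef (orbitPoly_eval G z)

end Descent

end Fermat.Agent.S48.H588

end
-- ===== PACK-END S48/H588/GaloisDescent.lean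

-- ===== PACK-BEGIN S48/H368/IGrp.lean
section


/-!
# S48 / Tower A1 / node I-GRP (helper368): the group theory of the decomposition-group argument

Mathlib-only.  Contents:

* `upperU t`, `lowerU t` : the elementary matrices of `SL₂(R)`; `elemSubgroup R` the subgroup they
  generate;
* `exists_isUnit_add_mul` : stable range one for `ZMod M` (`M ≠ 0`): if `a d - b c = 1` there is
  `t` with `a + t c` a unit;
* `elemSubgroup_zmod_eq_top` : `SL₂(ℤ/M)` is generated by elementary matrices (`M ≠ 0`), and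
  `elemSubgroup_int_eq_top` for `ℤ`;
* `normalClosure_le_of_mul` : if `G = D·B`, `U ≤ D` and `B` normalises `U`, then every conjugate
  of `U` lies in `D`;
* `map_sl2_le_of_mul` : if `ι : SL₂(ℤ/M) → G`, `G = D·B`, `ι(U) ≤ D` and `B` normalises `ι(U)` then
  `ι(SL₂(ℤ/M)) ≤ D`  (memo IGUSA1 §2 (c));
* `exists_mul_of_normal_le` : if `N ◁ G`, `N ≤ D` and `G = H·N` then `G = D·H` (memo §2 (d));
* `eq_scalar_of_conj_upper` : a `2 × 2` matrix all of whose conjugates by elementary matrices
  are upper triangular is scalar (memo §2 (e));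
* `exists_conj_upperU` : an upper triangular `b ∈ GL₂(R)` normalises the unipotent radical;
* `map_elemSubgroup_le_of_mul`, `exists_mul_of_sl2` : variants.
-/

set_option autoImplicit false

namespace Fermat.Agent.S48.H368

open Matrix

section Elem

variable {R : Type*} [CommRing R]

/-- The upper unitriangular matrix `(1 t; 0 1)`. -/
def upperU (t : R) : Matrix.SpecialLinearGroup (Fin 2) R :=
  ⟨!![1, t; 0, 1], by simp [Matrix.det_fin_two]⟩

/-- The lower unitriangular matrix `(1 0; t 1)`. -/
def lowerU (t : R) : Matrix.SpecialLinearGroup (Fin 2) R :=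
  ⟨!![1, 0; t, 1], by simp [Matrix.det_fin_two]⟩

@[simp] theorem coe_upperU (t : R) :
    ((upperU t : Matrix.SpecialLinearGroup (Fin 2) R) : Matrix (Fin 2) (Fin 2) R) =
      !![1, t; 0, 1] := rfl

@[simp] theorem coe_lowerU (t : R) :
    ((lowerU t : Matrix.SpecialLinearGroup (Fin 2) R) : Matrix (Fin 2) (Fin 2) R) =
      !![1, 0; t, 1] := rfl

theorem upperU_add (s t : R) : upperU (s + t) = upperU s * upperU t := by
  apply Subtype.ext
  simp only [Matrix.SpecialLinearGroup.coe_mul, coe_upperU]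
  ext i j
  fin_cases i <;> fin_cases j <;> simp [Matrix.mul_apply, Fin.sum_univ_two, add_comm]

theorem lowerU_add (s t : R) : lowerU (s + t) = lowerU s * lowerU t := by
  apply Subtype.ext
  simp only [Matrix.SpecialLinearGroup.coe_mul, coe_lowerU]
  ext i j
  fin_cases i <;> fin_cases j <;> simp [Matrix.mul_apply, Fin.sum_univ_two]

theorem upperU_zero : upperU (0 : R) = 1 := by
  apply Subtype.ext
  simp only [coe_upperU, Matrix.SpecialLinearGroup.coe_one]
  ext i j
  fin_cases i <;> fin_cases j <;> simp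

theorem lowerU_zero : lowerU (0 : R) = 1 := by
  apply Subtype.ext
  simp only [coe_lowerU, Matrix.SpecialLinearGroup.coe_one]
  ext i j
  fin_cases i <;> fin_cases j <;> simp

theorem upperU_neg (t : R) : upperU (-t) = (upperU t)⁻¹ := by
  rw [eq_inv_iff_mul_eq_one, ← upperU_add, neg_add_cancel, upperU_zero]

theorem lowerU_neg (t : R) : lowerU (-t) = (lowerU t)⁻¹ := by
  rw [eq_inv_iff_mul_eq_one, ← lowerU_add, neg_add_cancel, lowerU_zero]

/-- The Weyl element `w = (0 -1; 1 0)`, as a product of elementary matrices. -/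
def weylW (R : Type*) [CommRing R] : Matrix.SpecialLinearGroup (Fin 2) R :=
  upperU (-1) * lowerU 1 * upperU (-1)

theorem coe_weylW :
    ((weylW R : Matrix.SpecialLinearGroup (Fin 2) R) : Matrix (Fin 2) (Fin 2) R) =
      !![0, -1; 1, 0] := by
  simp only [weylW, Matrix.SpecialLinearGroup.coe_mul, coe_upperU, coe_lowerU]
  ext i j
  fin_cases i <;> fin_cases j <;> simp [Matrix.mul_apply, Fin.sum_univ_two]

/-- `w · (1 t; 0 1) · w⁻¹ = (1 0; -t 1)`. -/
theorem weylW_mul_upperU (t : R) : weylW R * upperU t = lowerU (-t) * weylW R := by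
  apply Subtype.ext
  simp only [Matrix.SpecialLinearGroup.coe_mul, coe_upperU, coe_lowerU, coe_weylW]
  ext i j
  fin_cases i <;> fin_cases j <;> simp [Matrix.mul_apply, Fin.sum_univ_two]

theorem lowerU_eq_conj (t : R) : lowerU t = weylW R * upperU (-t) * (weylW R)⁻¹ := by
  rw [weylW_mul_upperU, neg_neg, mul_inv_cancel_right]

variable (R) in
/-- The subgroup of `SL₂(R)` generated by the elementary matrices. -/
def elemSubgroup : Subgroup (Matrix.SpecialLinearGroup (Fin 2) R) :=
  Subgroup.closure (Set.range (upperU (R := R)) ∪ Set.range (lowerU (R := R)))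

theorem upperU_mem (t : R) : upperU t ∈ elemSubgroup R :=
  Subgroup.subset_closure (Or.inl ⟨t, rfl⟩)

theorem lowerU_mem (t : R) : lowerU t ∈ elemSubgroup R :=
  Subgroup.subset_closure (Or.inr ⟨t, rfl⟩)

theorem weylW_mem : weylW R ∈ elemSubgroup R :=
  mul_mem (mul_mem (upperU_mem _) (lowerU_mem _)) (upperU_mem _)

theorem sl2_det_eq (g : Matrix.SpecialLinearGroup (Fin 2) R) :
    g 0 0 * g 1 1 - g 0 1 * g 1 0 = 1 := by
  have := g.det_coe
  rwa [Matrix.det_fin_two] at this

/-- An upper triangular element of `SL₂(R)` is a product of elementary matrices. -/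
theorem mem_elemSubgroup_of_lowerLeft_zero (g : Matrix.SpecialLinearGroup (Fin 2) R)
    (h : g 1 0 = 0) : g ∈ elemSubgroup R := by
  have hdet := sl2_det_eq g
  rw [h, mul_zero, sub_zero] at hdet
  have key : g = upperU (g 0 0) * lowerU (-(g 1 1)) * upperU (g 0 0) * weylW R *
      upperU (g 1 1 * g 0 1) := by
    apply Subtype.ext
    simp only [Matrix.SpecialLinearGroup.coe_mul, coe_upperU, coe_lowerU, coe_weylW]
    ext i j
    fin_cases i <;> fin_cases j <;>
      simp [Matrix.mul_apply, Fin.sum_univ_two, h] <;>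
      first
      | linear_combination (g 0 0) * hdet
      | linear_combination (-(g 0 0)) * hdet
      | linear_combination (g 0 1 * (g 0 0 * g 1 1 - 1) - 1) * hdet
      | linear_combination (-(g 0 1 * (g 0 0 * g 1 1 - 1) - 1)) * hdet
      | linear_combination hdet
      | linear_combination (-1 : R) * hdet
      | linear_combination (g 1 1 * g 0 1) * hdet
      | linear_combination (-(g 1 1 * g 0 1)) * hdet
  rw [key]
  exact mul_mem (mul_mem (mul_mem (mul_mem (upperU_mem _) (lowerU_mem _)) (upperU_mem _))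
    weylW_mem) (upperU_mem _)

/-- An element of `SL₂(R)` whose upper left entry is a unit is a product of elementary
matrices. -/
theorem mem_elemSubgroup_of_isUnit (g : Matrix.SpecialLinearGroup (Fin 2) R)
    (h : IsUnit (g 0 0)) : g ∈ elemSubgroup R := by
  obtain ⟨u, hu⟩ := h
  have h1 : lowerU (-(g 1 0) * (↑u⁻¹ : R)) * g ∈ elemSubgroup R := by
    apply mem_elemSubgroup_of_lowerLeft_zero
    have : (↑u⁻¹ : R) * g 0 0 = 1 := by rw [← hu]; simp
    have e : (lowerU (-(g 1 0) * (↑u⁻¹ : R)) * g) 1 0 =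
        -(g 1 0) * (↑u⁻¹ : R) * g 0 0 + g 1 0 := by
      simp [Matrix.SpecialLinearGroup.coe_mul, Matrix.mul_apply, Fin.sum_univ_two]
    rw [e]
    linear_combination (-(g 1 0)) * this
  have := mul_mem (inv_mem (lowerU_mem (-(g 1 0) * (↑u⁻¹ : R)))) h1
  simpa using this

/-- If some `a + t c` is a unit (`a, c` the first column of `g`), then `g` is a product of
elementary matrices. -/
theorem mem_elemSubgroup_of_exists (g : Matrix.SpecialLinearGroup (Fin 2) R)
    (h : ∃ t : R, IsUnit (g 0 0 + t * g 1 0)) : g ∈ elemSubgroup R := by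
  obtain ⟨t, ht⟩ := h
  have h1 : upperU t * g ∈ elemSubgroup R := by
    apply mem_elemSubgroup_of_isUnit
    have : (upperU t * g) 0 0 = g 0 0 + t * g 1 0 := by
      simp [Matrix.SpecialLinearGroup.coe_mul, Matrix.mul_apply, Fin.sum_univ_two]
    rw [this]; exact ht
  have := mul_mem (inv_mem (upperU_mem t)) h1
  simpa using this

end Elem

section ZMod

/-- **Stable range one for `ℤ/M`.**  If `a d - b c = 1` in `ZMod M` (`M ≠ 0`) there is `t` with
`a + t c` a unit. -/
theorem exists_isUnit_add_mul (M : ℕ) [NeZero M] (a b c d : ZMod M) (h : a * d - b * c = 1) :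
    ∃ t : ZMod M, IsUnit (a + t * c) := by
  classical
  -- no prime factor of `M` divides both `a.val` and `c.val`
  have hnot : ∀ p : ℕ, p.Prime → p ∣ M → p ∣ a.val → p ∣ c.val → False := by
    intro p hp hpM hpa hpc
    have : Fact p.Prime := ⟨hp⟩
    have ha : ZMod.castHom hpM (ZMod p) a = 0 := by
      rw [ZMod.castHom_apply, ← ZMod.natCast_val, ZMod.natCast_eq_zero_iff]; exact hpa
    have hc : ZMod.castHom hpM (ZMod p) c = 0 := by
      rw [ZMod.castHom_apply, ← ZMod.natCast_val, ZMod.natCast_eq_zero_iff]; exact hpc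
    have := congrArg (ZMod.castHom hpM (ZMod p)) h
    simp only [map_sub, map_mul, ha, hc, map_one, zero_mul, mul_zero, sub_zero] at this
    exact zero_ne_one this
  set T : ℕ := ∏ p ∈ M.primeFactors.filter (fun p => ¬ p ∣ a.val), p with hT
  refine ⟨(T : ZMod M), ?_⟩
  have hcop : Nat.Coprime (a.val + T * c.val) M := by
    apply Nat.Coprime.symm
    apply Nat.coprime_of_dvd
    intro p hp hpM hpsum
    by_cases hpa : p ∣ a.val
    · -- `p ∣ a`, so `p ∤ c` and `p ∤ T`
      have hpTc : p ∣ T * c.val := (Nat.dvd_add_right hpa).mp hpsum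
      rcases (Nat.Prime.dvd_mul hp).mp hpTc with hpT | hpc
      · rw [hT] at hpT
        obtain ⟨q, hq, hpq⟩ := (Prime.dvd_finsetProd_iff (Nat.Prime.prime hp) _).mp hpT
        rw [Finset.mem_filter, Nat.mem_primeFactors] at hq
        have : p = q := (Nat.prime_dvd_prime_iff_eq hp hq.1.1).mp hpq
        exact hq.2 (this ▸ hpa)
      · exact hnot p hp hpM hpa hpc
    · -- `p ∤ a`, so `p ∣ T`
      have hpT : p ∣ T := by
        rw [hT]
        apply Finset.dvd_prod_of_mem
        rw [Finset.mem_filter, Nat.mem_primeFactors]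
        exact ⟨⟨hp, hpM, NeZero.ne M⟩, hpa⟩
      exact hpa ((Nat.dvd_add_left (Dvd.dvd.mul_right hpT _)).mp hpsum)
  have := (ZMod.isUnit_iff_coprime (a.val + T * c.val) M).mpr hcop
  simpa using this

/-- `SL₂(ℤ/M)` is generated by elementary matrices (`M ≠ 0`). -/
theorem elemSubgroup_zmod_eq_top (M : ℕ) [NeZero M] : elemSubgroup (ZMod M) = ⊤ := by
  rw [eq_top_iff]
  intro g _
  apply mem_elemSubgroup_of_exists
  exact exists_isUnit_add_mul M (g 0 0) (g 0 1) (g 1 0) (g 1 1) (sl2_det_eq g)

/-- `SL₂(ℤ)` is generated by elementary matrices (from Mathlib's `SL2Z_generators`). -/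
theorem elemSubgroup_int_eq_top : elemSubgroup ℤ = ⊤ := by
  rw [eq_top_iff, ← _root_.SpecialLinearGroup.SL2Z_generators, Subgroup.closure_le]
  intro g hg
  rcases hg with rfl | hg
  · have : ModularGroup.S = weylW ℤ := by
      apply Subtype.ext
      rw [coe_weylW]
      rfl
    rw [this]
    exact weylW_mem
  · rw [Set.mem_singleton_iff] at hg
    have : ModularGroup.T = upperU (1 : ℤ) := by
      apply Subtype.ext
      rw [coe_upperU]
      rfl
    rw [hg, this]
    exact upperU_mem 1

end ZMod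

section Abstract

variable {G : Type*} [Group G]

/-- If `G = D·B`, `U ≤ D` and `B` normalises `U`, then every conjugate of an element of `U` lies
in `D`. -/
theorem conj_mem_of_mul (D B U : Subgroup G) (hDB : ∀ g : G, ∃ d ∈ D, ∃ b ∈ B, g = d * b)
    (hUD : U ≤ D) (hBU : ∀ b ∈ B, ∀ u ∈ U, b * u * b⁻¹ ∈ U) (g u : G) (hu : u ∈ U) :
    g * u * g⁻¹ ∈ D := by
  obtain ⟨d, hd, b, hb, rfl⟩ := hDB g
  have : d * b * u * (d * b)⁻¹ = d * (b * u * b⁻¹) * d⁻¹ := by group
  rw [this]
  exact mul_mem (mul_mem hd (hUD (hBU b hb u hu))) (inv_mem hd)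

/-- If `G = D·B`, `U ≤ D` and `B` normalises `U`, then the normal closure of `U` lies in `D`. -/
theorem normalClosure_le_of_mul (D B U : Subgroup G)
    (hDB : ∀ g : G, ∃ d ∈ D, ∃ b ∈ B, g = d * b)
    (hUD : U ≤ D) (hBU : ∀ b ∈ B, ∀ u ∈ U, b * u * b⁻¹ ∈ U) :
    Subgroup.normalClosure (U : Set G) ≤ D := by
  rw [Subgroup.normalClosure, Subgroup.closure_le]
  intro x hx
  rw [Group.mem_conjugatesOfSet_iff] at hx
  obtain ⟨u, hu, hc⟩ := hx
  rw [isConj_iff] at hc
  obtain ⟨c, rfl⟩ := hc
  exact conj_mem_of_mul D B U hDB hUD hBU c u hu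

/-- **Memo IGUSA1 §2 (d).**  If `N` is a normal subgroup contained in `D` and `G = H·N`, then
`G = D·H` (so `D` acts transitively on `G/H`: a single double coset `D \ G / H`). -/
theorem exists_mul_of_normal_le (D H N : Subgroup G) [N.Normal] (hND : N ≤ D)
    (hHN : ∀ g : G, ∃ h ∈ H, ∃ n ∈ N, g = h * n) (g : G) :
    ∃ d ∈ D, ∃ h ∈ H, g = d * h := by
  obtain ⟨h, hh, n, hn, rfl⟩ := hHN g
  refine ⟨h * n * h⁻¹, hND (Subgroup.Normal.conj_mem inferInstance n hn h), h, hh, ?_⟩
  group

/-- Variant of `exists_mul_of_normal_le` with `G = N·H`. -/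
theorem exists_mul_of_normal_le' (D H N : Subgroup G) (hND : N ≤ D)
    (hNH : ∀ g : G, ∃ n ∈ N, ∃ h ∈ H, g = n * h) (g : G) :
    ∃ d ∈ D, ∃ h ∈ H, g = d * h := by
  obtain ⟨n, hn, h, hh, rfl⟩ := hNH g
  exact ⟨n, hND hn, h, hh, rfl⟩

end Abstract

section Decomposition

variable {G : Type*} [Group G]

/-- **Memo IGUSA1 §2 (c), general ring.**  Let `ι : SL₂(R) → G`, `G = D·B`, `ι(upperU t) ∈ D` for
all `t`, and suppose `B` normalises `ι(U)`.  Then `ι` maps the elementary subgroup into `D`. -/
theorem map_elemSubgroup_le_of_mul {R : Type*} [CommRing R]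
    (ι : Matrix.SpecialLinearGroup (Fin 2) R →* G) (D B : Subgroup G)
    (hDB : ∀ g : G, ∃ d ∈ D, ∃ b ∈ B, g = d * b)
    (hU : ∀ t : R, ι (upperU t) ∈ D)
    (hB : ∀ b ∈ B, ∀ t : R, ∃ s : R, b * ι (upperU t) * b⁻¹ = ι (upperU s)) :
    (elemSubgroup R).map ι ≤ D := by
  rw [Subgroup.map_le_iff_le_comap, elemSubgroup, Subgroup.closure_le]
  rintro g (⟨t, rfl⟩ | ⟨t, rfl⟩)
  · exact hU t
  · rw [SetLike.mem_coe, Subgroup.mem_comap, lowerU_eq_conj, map_mul, map_mul, map_inv]
    obtain ⟨d, hd, b, hb, hdb⟩ := hDB (ι (weylW R))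
    obtain ⟨s, hs⟩ := hB b hb (-t)
    have : ι (weylW R) * ι (upperU (-t)) * (ι (weylW R))⁻¹ = d * ι (upperU s) * d⁻¹ := by
      rw [hdb, ← hs]; group
    rw [this]
    exact mul_mem (mul_mem hd (hU s)) (inv_mem hd)

/-- **Memo IGUSA1 §2 (c).**  Let `ι : SL₂(ℤ/M) → G` (`M ≠ 0`), `G = D·B`, `ι(U) ≤ D` for the upper
unitriangular group `U`, and suppose `B` normalises `ι(U)`.  Then `ι(SL₂(ℤ/M)) ≤ D`. -/
theorem map_sl2_le_of_mul (M : ℕ) [NeZero M]
    (ι : Matrix.SpecialLinearGroup (Fin 2) (ZMod M) →* G) (D B : Subgroup G)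
    (hDB : ∀ g : G, ∃ d ∈ D, ∃ b ∈ B, g = d * b)
    (hU : ∀ t : ZMod M, ι (upperU t) ∈ D)
    (hB : ∀ b ∈ B, ∀ t : ZMod M, ∃ s : ZMod M, b * ι (upperU t) * b⁻¹ = ι (upperU s)) :
    ι.range ≤ D := by
  have := map_elemSubgroup_le_of_mul ι D B hDB hU hB
  rwa [elemSubgroup_zmod_eq_top, ← MonoidHom.range_eq_map] at this

/-- **Memo IGUSA1 §2 (c)+(d).**  In the situation of `map_sl2_le_of_mul`, if moreover
`G = ι(SL₂(ℤ/M))·H`, then `G = D·H`. -/
theorem exists_mul_of_sl2 (M : ℕ) [NeZero M]
    (ι : Matrix.SpecialLinearGroup (Fin 2) (ZMod M) →* G) (D B H : Subgroup G)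
    (hDB : ∀ g : G, ∃ d ∈ D, ∃ b ∈ B, g = d * b)
    (hU : ∀ t : ZMod M, ι (upperU t) ∈ D)
    (hB : ∀ b ∈ B, ∀ t : ZMod M, ∃ s : ZMod M, b * ι (upperU t) * b⁻¹ = ι (upperU s))
    (hH : ∀ g : G, ∃ s : Matrix.SpecialLinearGroup (Fin 2) (ZMod M), ∃ h ∈ H, g = ι s * h)
    (g : G) : ∃ d ∈ D, ∃ h ∈ H, g = d * h := by
  obtain ⟨s, h, hh, rfl⟩ := hH g
  exact ⟨ι s, map_sl2_le_of_mul M ι D B hDB hU hB ⟨s, rfl⟩, h, hh, rfl⟩

end Decomposition

section Scalar

variable {R : Type*} [CommRing R]

/-- **Memo IGUSA1 §2 (e).**  A `2 × 2` matrix all of whose conjugates by elementary matrices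
are upper triangular is scalar. -/
theorem eq_scalar_of_conj_upper (A : Matrix (Fin 2) (Fin 2) R)
    (h : ∀ s : Matrix.SpecialLinearGroup (Fin 2) R, s ∈ elemSubgroup R →
      ((s : Matrix (Fin 2) (Fin 2) R) * A * ((s⁻¹ : Matrix.SpecialLinearGroup (Fin 2) R) :
        Matrix (Fin 2) (Fin 2) R)) 1 0 = 0) :
    A = Matrix.scalar (Fin 2) (A 0 0) := by
  have h1 := h 1 (one_mem _)
  have h2 := h (weylW R) weylW_mem
  have h3 := h (lowerU 1) (lowerU_mem 1)
  have ew : (((weylW R)⁻¹ : Matrix.SpecialLinearGroup (Fin 2) R) :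
      Matrix (Fin 2) (Fin 2) R) = !![0, 1; -1, 0] := by
    rw [Matrix.SpecialLinearGroup.coe_inv, coe_weylW, Matrix.adjugate_fin_two]
    simp
  have el : (((lowerU (1 : R))⁻¹ : Matrix.SpecialLinearGroup (Fin 2) R) :
      Matrix (Fin 2) (Fin 2) R) = !![1, 0; -1, 1] := by
    rw [Matrix.SpecialLinearGroup.coe_inv, coe_lowerU, Matrix.adjugate_fin_two]
    simp
  rw [ew, coe_weylW] at h2
  rw [el, coe_lowerU] at h3
  rw [Matrix.SpecialLinearGroup.coe_one, inv_one, Matrix.SpecialLinearGroup.coe_one, one_mul,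
    mul_one] at h1
  have e2 : ((!![0, -1; 1, 0] : Matrix (Fin 2) (Fin 2) R) * A *
      (!![0, 1; -1, 0] : Matrix (Fin 2) (Fin 2) R)) 1 0 = -(A 0 1) := by
    simp [Matrix.mul_apply, Fin.sum_univ_two, Matrix.vecMul, dotProduct]
  have e3 : ((!![1, 0; 1, 1] : Matrix (Fin 2) (Fin 2) R) * A *
      (!![1, 0; -1, 1] : Matrix (Fin 2) (Fin 2) R)) 1 0 =
      A 0 0 + A 1 0 - A 0 1 - A 1 1 := by
    simp [Matrix.mul_apply, Fin.sum_univ_two, Matrix.vecMul, dotProduct]
    ring
  rw [e2, neg_eq_zero] at h2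
  rw [e3, h1, h2] at h3
  have h4 : A 1 1 = A 0 0 := by linear_combination -h3
  ext i j
  fin_cases i <;> fin_cases j
  · simp
  · simpa using h2
  · simpa using h1
  · simpa using h4

/-- **The Borel subgroup normalises the unipotent radical.**  For an upper triangular
`b ∈ GL₂(R)` one has `b (1 t; 0 1) b⁻¹ = (1 s; 0 1)` with `s = b₀₀² t / det b`. -/
theorem exists_conj_upperU (b : GL (Fin 2) R) (hb : (b : Matrix (Fin 2) (Fin 2) R) 1 0 = 0)
    (t : R) :
    ∃ s : R, b * Matrix.SpecialLinearGroup.toGL (upperU t) * b⁻¹ =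
      Matrix.SpecialLinearGroup.toGL (upperU s) := by
  set δ : Rˣ := Matrix.GeneralLinearGroup.det b with hδ
  have hdet : (b : Matrix (Fin 2) (Fin 2) R) 0 0 * (b : Matrix (Fin 2) (Fin 2) R) 1 1 =
      (δ : R) := by
    have : (δ : R) = (b : Matrix (Fin 2) (Fin 2) R).det := rfl
    rw [this, Matrix.det_fin_two, hb, mul_zero, sub_zero]
  have hδ' : (δ : R) * (↑δ⁻¹ : R) = 1 := by simp
  refine ⟨(b : Matrix (Fin 2) (Fin 2) R) 0 0 * t *
    ((b : Matrix (Fin 2) (Fin 2) R) 0 0 * (↑δ⁻¹ : R)), ?_⟩
  rw [mul_inv_eq_iff_eq_mul]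
  apply Units.ext
  rw [Units.val_mul, Units.val_mul]
  simp only [Matrix.SpecialLinearGroup.coe_GL_coe_matrix, coe_upperU]
  ext i j
  fin_cases i <;> fin_cases j
  · simp [Matrix.mul_apply, Fin.sum_univ_two, hb]
  · simp [Matrix.mul_apply, Fin.sum_univ_two]
    linear_combination -((b : Matrix (Fin 2) (Fin 2) R) 0 0 * t) * hδ' -
      ((b : Matrix (Fin 2) (Fin 2) R) 0 0 * t * (↑δ⁻¹ : R)) * hdet
  · simp [Matrix.mul_apply, Fin.sum_univ_two]
  · simp [Matrix.mul_apply, Fin.sum_univ_two, hb]

end Scalar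

end Fermat.Agent.S48.H368

end
-- ===== PACK-END S48/H368/IGrp.lean

-- ===== PACK-BEGIN S48/H368/IGrpT.lean
section


/-!
# S48 / Tower A1 / node I-GRP, part 2 (helper368): the normal closure of `T`

The hypothesis `hgen : Subgroup.normalClosure {t} = ⊤` of `H856.igusa_qep` /
`H856.eq_top_of_normalClosure_of_mul`:

* `normalClosure_upperU_one_zmod` : the normal closure of `T = (1 1; 0 1)` in `SL₂(ℤ/M)` is
  everything (`M ≠ 0`);
* `normalClosure_upperU_one_int`, `normalClosure_T` : the same in `SL₂(ℤ)`;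
* `normalClosure_map_of_surjective` : normal closures of singletons push forward along
  surjections; `normalClosure_map_T`, `normalClosure_map_upperU_zmod` : the images of `T` in any
  quotient of `SL₂(ℤ)`, `SL₂(ℤ/M)` normally generate.
-/

set_option autoImplicit false

namespace Fermat.Agent.S48.H368

open Matrix

section General

variable {R : Type*} [CommRing R]

theorem upperU_nsmul (n : ℕ) (t : R) : upperU (n • t) = upperU t ^ n := by
  induction n with
  | zero => simp [upperU_zero]
  | succ n ih => rw [succ_nsmul, upperU_add, ih, pow_succ]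

theorem upperU_zsmul (n : ℤ) (t : R) : upperU (n • t) = upperU t ^ n := by
  cases n with
  | ofNat n => simpa using upperU_nsmul n t
  | negSucc n =>
    rw [negSucc_zsmul, upperU_neg, upperU_nsmul, zpow_negSucc]

/-- If every `upperU t` is a power of `upperU 1`, the normal closure of `upperU 1` contains the
elementary subgroup. -/
theorem elemSubgroup_le_normalClosure
    (h : ∀ t : R, upperU t ∈ Subgroup.zpowers (upperU (1 : R))) :
    elemSubgroup R ≤ Subgroup.normalClosure ({upperU (1 : R)} : Set _) := by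
  have hz : Subgroup.zpowers (upperU (1 : R)) ≤
      Subgroup.normalClosure ({upperU (1 : R)} : Set _) := by
    rw [Subgroup.zpowers_le]
    exact Subgroup.subset_normalClosure (Set.mem_singleton _)
  rw [elemSubgroup, Subgroup.closure_le]
  rintro g (⟨t, rfl⟩ | ⟨t, rfl⟩)
  · exact hz (h t)
  · rw [lowerU_eq_conj]
    exact Subgroup.Normal.conj_mem inferInstance _ (hz (h (-t))) _

end General

/-- The normal closure of `T = (1 1; 0 1)` in `SL₂(ℤ/M)` is the whole group (`M ≠ 0`). -/
theorem normalClosure_upperU_one_zmod (M : ℕ) [NeZero M] :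
    Subgroup.normalClosure ({upperU (1 : ZMod M)} : Set _) = ⊤ := by
  rw [eq_top_iff, ← elemSubgroup_zmod_eq_top M]
  apply elemSubgroup_le_normalClosure
  intro t
  refine ⟨(t.val : ℤ), ?_⟩
  change upperU (1 : ZMod M) ^ (t.val : ℤ) = upperU t
  rw [← upperU_zsmul]
  congr 1
  simp

/-- The normal closure of `T = (1 1; 0 1)` in `SL₂(ℤ)` is the whole group. -/
theorem normalClosure_upperU_one_int :
    Subgroup.normalClosure ({upperU (1 : ℤ)} : Set _) = ⊤ := by
  rw [eq_top_iff, ← elemSubgroup_int_eq_top]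
  apply elemSubgroup_le_normalClosure
  intro t
  refine ⟨t, ?_⟩
  change upperU (1 : ℤ) ^ t = upperU t
  rw [← upperU_zsmul]
  congr 1
  simp

theorem modularGroup_T_eq : ModularGroup.T = upperU (1 : ℤ) := by
  apply Subtype.ext
  rw [coe_upperU]
  rfl

/-- The normal closure of Mathlib's `ModularGroup.T` in `SL₂(ℤ)` is the whole group. -/
theorem normalClosure_T :
    Subgroup.normalClosure ({ModularGroup.T} : Set (Matrix.SpecialLinearGroup (Fin 2) ℤ)) = ⊤ := by
  rw [modularGroup_T_eq]
  exact normalClosure_upperU_one_int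

/-- Normal generation pushes forward along surjections. -/
theorem normalClosure_map_of_surjective {H G : Type*} [Group H] [Group G] (π : H →* G)
    (hπ : Function.Surjective π) (t : H)
    (ht : Subgroup.normalClosure ({t} : Set H) = ⊤) :
    Subgroup.normalClosure ({π t} : Set G) = ⊤ := by
  rw [eq_top_iff]
  have h1 : Subgroup.normalClosure ({t} : Set H) ≤
      (Subgroup.normalClosure ({π t} : Set G)).comap π := by
    apply Subgroup.normalClosure_le_normal
    intro x hx
    rw [Set.mem_singleton_iff] at hx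
    subst hx
    exact Subgroup.subset_normalClosure (Set.mem_singleton _)
  intro g _
  obtain ⟨h, rfl⟩ := hπ g
  exact h1 (ht ▸ Subgroup.mem_top h)

/-- The image of `T` normally generates every quotient of `SL₂(ℤ)`. -/
theorem normalClosure_map_T {G : Type*} [Group G]
    (π : Matrix.SpecialLinearGroup (Fin 2) ℤ →* G) (hπ : Function.Surjective π) :
    Subgroup.normalClosure ({π ModularGroup.T} : Set G) = ⊤ :=
  normalClosure_map_of_surjective π hπ _ normalClosure_T

/-- The image of `T` normally generates every quotient of `SL₂(ℤ/M)` (`M ≠ 0`). -/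
theorem normalClosure_map_upperU_zmod (M : ℕ) [NeZero M] {G : Type*} [Group G]
    (π : Matrix.SpecialLinearGroup (Fin 2) (ZMod M) →* G) (hπ : Function.Surjective π) :
    Subgroup.normalClosure ({π (upperU (1 : ZMod M))} : Set G) = ⊤ :=
  normalClosure_map_of_surjective π hπ _ (normalClosure_upperU_one_zmod M)

/-- The image of `T` normally generates the range of any homomorphism from `SL₂(ℤ)`. -/
theorem normalClosure_rangeRestrict_T {G : Type*} [Group G]
    (π : Matrix.SpecialLinearGroup (Fin 2) ℤ →* G) :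
    Subgroup.normalClosure ({π.rangeRestrict ModularGroup.T} : Set π.range) = ⊤ :=
  normalClosure_map_T π.rangeRestrict π.rangeRestrict_surjective

end Fermat.Agent.S48.H368

end
-- ===== PACK-END S48/H368/IGrpT.lean

-- ===== PACK-BEGIN S48/H428/Count.lean
section


/-!
# S48 / P5 (helper428): abstract fixed point counting

`exists_index_le_two_or_index_le`: a finite group `G` acting on a set `P`, with a normal
subgroup `Z` acting trivially, such that every `g ∉ Z` has exactly two fixed points, has a point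
stabilizer of index `≤ 2`, or `[G : Z] ≤ 60`.

(Classical counting proof of the classification of finite subgroups of `PGL₂`: cyclic, dihedral,
`A₄`, `S₄`, `A₅`.)
-/

set_option autoImplicit false
set_option linter.style.haveILetI false

namespace Fermat.Agent.S48.H428

open MulAction

/-- The arithmetic of three orbits: `(2,2,m)`, `(2,3,3)`, `(2,3,4)`, `(2,3,5)`. -/
lemma three_orbits_arith (n m0 m1 m2 t0 t1 t2 : ℕ)
    (hm0 : 3 ≤ m0) (hm1 : 3 ≤ m1) (hm2 : 3 ≤ m2)
    (ht0 : 2 ≤ t0) (ht1 : 2 ≤ t1) (ht2 : 2 ≤ t2)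
    (h0 : m0 * t0 = n) (h1 : m1 * t1 = n) (h2 : m2 * t2 = n)
    (hsum : m0 + m1 + m2 = n + 2) : n ≤ 60 := by
  have key : ∀ m t : ℕ, 2 ≤ t → m * t = n →
      (n = 2 * m ∨ n = 3 * m ∨ n = 4 * m ∨ n = 5 * m ∨ 6 * m ≤ n) := by
    intro m t ht hmt
    have : t = 2 ∨ t = 3 ∨ t = 4 ∨ t = 5 ∨ 6 ≤ t := by omega
    rcases this with rfl | rfl | rfl | rfl | h6
    · left; omega
    · right; left; omega
    · right; right; left; omega
    · right; right; right; left; omega
    · right; right; right; right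
      calc 6 * m = m * 6 := by ring
        _ ≤ m * t := Nat.mul_le_mul_left m h6
        _ = n := hmt
  rcases key m0 t0 ht0 h0 with a | a | a | a | a <;>
  rcases key m1 t1 ht1 h1 with b | b | b | b | b <;>
  rcases key m2 t2 ht2 h2 with c | c | c | c | c <;>
  omega

section Counting

variable {G : Type*} [Group G] {P : Type*} [MulAction G P]

/-- The poles: the points fixed by some element outside `Z`. -/
def poles (Z : Subgroup G) [hZ : Z.Normal] : SubMulAction G P where
  carrier := {x | ∃ g : G, g ∉ Z ∧ g • x = x}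
  smul_mem' := by
    rintro h x ⟨g, hg, hx⟩
    refine ⟨h * g * h⁻¹, fun hc => hg ?_, ?_⟩
    · have := hZ.conj_mem _ hc h⁻¹
      simpa [mul_assoc] using this
    · rw [mul_smul, mul_smul, inv_smul_smul, hx]

lemma mem_poles {Z : Subgroup G} [Z.Normal] {x : P} :
    x ∈ (poles Z : SubMulAction G P) ↔ ∃ g : G, g ∉ Z ∧ g • x = x := Iff.rfl

lemma finite_poles [Finite G] (Z : Subgroup G) [Z.Normal]
    (h2 : ∀ g : G, g ∉ Z → ∃ x y : P, x ≠ y ∧ ∀ p : P, g • p = p ↔ p = x ∨ p = y) :
    Finite (poles Z : SubMulAction G P) := by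
  classical
  have hfin : ∀ g : G, g ∉ Z → (fixedBy P g).Finite := by
    intro g hg
    obtain ⟨x, y, -, h⟩ := h2 g hg
    refine (Set.toFinite ({x, y} : Set P)).subset fun p hp => ?_
    rcases (h p).mp hp with rfl | rfl <;> simp
  have hsub : ((poles Z : SubMulAction G P) : Set P) ⊆ ⋃ g : {g : G // g ∉ Z}, fixedBy P g.1 := by
    rintro x ⟨g, hg, hx⟩
    exact Set.mem_iUnion.mpr ⟨⟨g, hg⟩, hx⟩
  exact Set.finite_coe_iff.mpr ((Set.finite_iUnion fun g : {g : G // g ∉ Z} =>
    hfin g.1 g.2).subset hsub)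

lemma ncard_fixedBy_poles_of_mem (Z : Subgroup G) [Z.Normal]
    (hZ : ∀ z ∈ Z, ∀ x : P, z • x = x) {g : G} (hg : g ∈ Z) :
    Nat.card (fixedBy (poles Z : SubMulAction G P) g) = Nat.card (poles Z : SubMulAction G P) := by
  have : fixedBy (poles Z : SubMulAction G P) g = Set.univ := by
    ext x
    simp only [mem_fixedBy, Set.mem_univ, iff_true]
    exact Subtype.ext (hZ g hg x)
  rw [this]
  exact Nat.card_congr (Equiv.Set.univ _)

lemma ncard_fixedBy_poles_of_not_mem (Z : Subgroup G) [Z.Normal]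
    (h2 : ∀ g : G, g ∉ Z → ∃ x y : P, x ≠ y ∧ ∀ p : P, g • p = p ↔ p = x ∨ p = y)
    {g : G} (hg : g ∉ Z) :
    Nat.card (fixedBy (poles Z : SubMulAction G P) g) = 2 := by
  classical
  obtain ⟨x, y, hxy, h⟩ := h2 g hg
  have hx : x ∈ (poles Z : SubMulAction G P) := ⟨g, hg, (h x).mpr (Or.inl rfl)⟩
  have hy : y ∈ (poles Z : SubMulAction G P) := ⟨g, hg, (h y).mpr (Or.inr rfl)⟩
  have : fixedBy (poles Z : SubMulAction G P) g = {⟨x, hx⟩, ⟨y, hy⟩} := by
    ext p
    simp only [mem_fixedBy, Set.mem_insert_iff, Set.mem_singleton_iff]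
    constructor
    · intro hp
      have hp' : g • (p : P) = p := congrArg Subtype.val hp
      rcases (h p).mp hp' with e | e
      · exact Or.inl (Subtype.ext e)
      · exact Or.inr (Subtype.ext e)
    · rintro (rfl | rfl)
      · exact Subtype.ext ((h x).mpr (Or.inl rfl))
      · exact Subtype.ext ((h y).mpr (Or.inr rfl))
  rw [this, Nat.card_coe_set_eq, Set.ncard_pair]
  exact fun e => hxy (congrArg Subtype.val e)

/-- Burnside's lemma for the action on the poles. -/
theorem burnside_poles [Finite G] (Z : Subgroup G) [Z.Normal]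
    (hZ : ∀ z ∈ Z, ∀ x : P, z • x = x)
    (h2 : ∀ g : G, g ∉ Z → ∃ x y : P, x ≠ y ∧ ∀ p : P, g • p = p ↔ p = x ∨ p = y) :
    Nat.card Z * Nat.card (poles Z : SubMulAction G P) + 2 * (Nat.card G - Nat.card Z) =
      Nat.card (Quotient (orbitRel G (poles Z : SubMulAction G P))) * Nat.card G := by
  classical
  haveI := finite_poles Z h2
  letI := Fintype.ofFinite G
  letI : ∀ g : G, Fintype (fixedBy (poles Z : SubMulAction G P) g) := fun g => Fintype.ofFinite _
  letI := Fintype.ofFinite (Quotient (orbitRel G (poles Z : SubMulAction G P)))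
  have hB := sum_card_fixedBy_eq_card_orbits_mul_card_group G (poles Z : SubMulAction G P)
  simp only [← Nat.card_eq_fintype_card] at hB
  rw [← hB]
  have hval : ∀ g : G, Nat.card (fixedBy (poles Z : SubMulAction G P) g) =
      if g ∈ Z then Nat.card (poles Z : SubMulAction G P) else 2 := by
    intro g
    split_ifs with hg
    · exact ncard_fixedBy_poles_of_mem Z hZ hg
    · exact ncard_fixedBy_poles_of_not_mem Z h2 hg
  simp_rw [hval]
  rw [Finset.sum_ite, Finset.sum_const, Finset.sum_const, smul_eq_mul, smul_eq_mul]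
  have h1 : (Finset.univ.filter fun g : G => g ∈ Z).card = Nat.card Z := by
    rw [Nat.card_eq_fintype_card, Fintype.card_subtype]
  have h3 : (Finset.univ.filter fun g : G => g ∉ Z).card = Nat.card G - Nat.card Z := by
    rw [Finset.filter_not, Finset.card_sdiff_of_subset (Finset.filter_subset _ _), h1,
      Finset.card_univ, ← Nat.card_eq_fintype_card]
  rw [h1, h3, mul_comm (Nat.card G - Nat.card Z) 2]

lemma card_poles_eq_sum [Finite G] (Z : Subgroup G) [Z.Normal]
    [Fintype (Quotient (orbitRel G (poles Z : SubMulAction G P)))] :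
    Nat.card (poles Z : SubMulAction G P) =
      ∑ ω : Quotient (orbitRel G (poles Z : SubMulAction G P)), (stabilizer G ω.out).index := by
  rw [Nat.card_congr (selfEquivSigmaOrbitsQuotientStabilizer G (poles Z : SubMulAction G P)),
    Nat.card_sigma]
  rfl

lemma stabilizer_pole_card [Finite G] (Z : Subgroup G) [Z.Normal]
    (hZ : ∀ z ∈ Z, ∀ x : P, z • x = x) (x : (poles Z : SubMulAction G P)) :
    ∃ k : ℕ, 2 ≤ k ∧ Nat.card (stabilizer G x) = Nat.card Z * k := by
  have hle : Z ≤ stabilizer G x := fun z hz => Subtype.ext (hZ z hz x)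
  obtain ⟨k, hk⟩ := Subgroup.card_dvd_of_le hle
  refine ⟨k, ?_, hk⟩
  by_contra hk2
  have hk1 : k ≤ 1 := by omega
  have hcard : Nat.card (stabilizer G x) ≤ Nat.card Z := by
    rw [hk]
    calc Nat.card Z * k ≤ Nat.card Z * 1 := Nat.mul_le_mul_left _ hk1
      _ = Nat.card Z := mul_one _
  have heq : Z = stabilizer G x := Subgroup.eq_of_le_of_card_ge hle hcard
  obtain ⟨g, hg, hgx⟩ := x.2
  exact hg (heq ▸ (show g ∈ stabilizer G x from Subtype.ext hgx))

/-- **Counting theorem.** A finite group `G` acting on `P`, with a normal subgroup `Z` acting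
trivially and such that every `g ∉ Z` has exactly two fixed points, has a point stabilizer of
index `≤ 2`, or `[G : Z] ≤ 60`. -/
theorem exists_index_le_two_or_index_le [Finite G] (Z : Subgroup G) [Z.Normal]
    (hZ : ∀ z ∈ Z, ∀ x : P, z • x = x)
    (h2 : ∀ g : G, g ∉ Z → ∃ x y : P, x ≠ y ∧ ∀ p : P, g • p = p ↔ p = x ∨ p = y) :
    (∃ x : P, (stabilizer G x).index ≤ 2) ∨ Z.index ≤ 60 := by
  classical
  by_contra hcon
  rw [not_or, not_exists] at hcon
  obtain ⟨hst, hZ60⟩ := hcon
  haveI := finite_poles Z h2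
  letI := Fintype.ofFinite (Quotient (orbitRel G (poles Z : SubMulAction G P)))
  set Ω := Quotient (orbitRel G (poles Z : SubMulAction G P)) with hΩ
  set N := Nat.card G with hN
  set z := Nat.card Z with hz
  set n := Z.index with hn
  have hnz : n * z = N := Subgroup.index_mul_card Z
  have hzpos : 0 < z := Nat.card_pos
  have hNpos : 0 < N := Nat.card_pos
  have hzN : z ≤ N := Subgroup.card_le_card_group Z
  -- data of the orbits
  set m : Ω → ℕ := fun ω => (stabilizer G ω.out).index with hm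
  have hm3 : ∀ ω, 3 ≤ m ω := by
    intro ω
    have := hst ((ω.out : (poles Z : SubMulAction G P)) : P)
    rw [← SubMulAction.stabilizer_of_subMul] at this
    simp only [hm]
    omega
  have hk : ∀ ω : Ω, ∃ k : ℕ, 2 ≤ k ∧ m ω * k = n := by
    intro ω
    obtain ⟨k, hk2, hk⟩ := stabilizer_pole_card Z hZ ω.out
    refine ⟨k, hk2, ?_⟩
    have h1 : m ω * Nat.card (stabilizer G ω.out) = N := Subgroup.index_mul_card _
    rw [hk] at h1
    have h2' : (m ω * k) * z = n * z := by rw [hnz, ← h1]; ring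
    exact Nat.eq_of_mul_eq_mul_right hzpos h2'
  have hmle : ∀ ω : Ω, 2 * m ω ≤ n := by
    intro ω
    obtain ⟨k, hk2, hk⟩ := hk ω
    calc 2 * m ω = m ω * 2 := by ring
      _ ≤ m ω * k := Nat.mul_le_mul_left _ hk2
      _ = n := hk
  have hB := burnside_poles Z hZ h2
  rw [card_poles_eq_sum Z, ← hN, ← hz, ← hnz] at hB
  -- divide by `z`
  have hB' : ∑ ω : Ω, m ω + 2 * (n - 1) = Nat.card Ω * n := by
    have e1 : n * z - z = (n - 1) * z := by rw [Nat.sub_mul, one_mul]
    rw [e1] at hB
    have : (∑ ω : Ω, m ω + 2 * (n - 1)) * z = (Nat.card Ω * n) * z := by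
      calc (∑ ω : Ω, m ω + 2 * (n - 1)) * z
          = z * ∑ ω : Ω, (stabilizer G ω.out).index + 2 * ((n - 1) * z) := by
            simp only [hm]; ring
        _ = Nat.card Ω * (n * z) := hB
        _ = (Nat.card Ω * n) * z := by ring
    exact Nat.eq_of_mul_eq_mul_right hzpos this
  have hn1 : 1 ≤ n := by
    rcases Nat.eq_zero_or_pos n with h0 | h0
    · rw [h0, zero_mul] at hnz; omega
    · exact h0
  have hsum_le : 2 * ∑ ω : Ω, m ω ≤ Nat.card Ω * n := by
    rw [Finset.mul_sum, Nat.card_eq_fintype_card, ← Finset.card_univ, ← smul_eq_mul]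
    exact Finset.sum_le_card_nsmul _ _ _ fun ω _ => hmle ω
  have hr : Nat.card Ω ≤ 3 := by
    by_contra h4
    have h4' : 4 ≤ Nat.card Ω := by omega
    have : 4 * n ≤ Nat.card Ω * n := Nat.mul_le_mul_right n h4'
    omega
  rw [Nat.card_eq_fintype_card] at hr hB' hsum_le
  have hcases : Fintype.card Ω = 0 ∨ Fintype.card Ω = 1 ∨ Fintype.card Ω = 2 ∨
      Fintype.card Ω = 3 := by omega
  rcases hcases with h0 | h1 | h2c | h3
  · -- no poles
    rw [h0] at hB'
    have : ∑ ω : Ω, m ω = 0 := by
      haveI : IsEmpty Ω := Fintype.card_eq_zero_iff.mp h0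
      simp
    omega
  · obtain ⟨a, ha⟩ := Finset.card_eq_one.mp (Finset.card_univ.trans h1)
    rw [h1, ha, Finset.sum_singleton] at hB'
    have := hm3 a
    have := hmle a
    omega
  · obtain ⟨a, b, hab, habu⟩ := Finset.card_eq_two.mp (Finset.card_univ.trans h2c)
    rw [h2c, habu, Finset.sum_pair hab] at hB'
    have := hm3 a
    have := hm3 b
    omega
  · obtain ⟨a, b, c, hab, hac, hbc, habu⟩ := Finset.card_eq_three.mp (Finset.card_univ.trans h3)
    rw [h3, habu, Finset.sum_insert (by simp [hab, hac]), Finset.sum_pair hbc] at hB'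
    obtain ⟨ka, hka2, hka⟩ := hk a
    obtain ⟨kb, hkb2, hkb⟩ := hk b
    obtain ⟨kc, hkc2, hkc⟩ := hk c
    have hsum : m a + m b + m c = n + 2 := by omega
    exact hZ60 (three_orbits_arith n (m a) (m b) (m c) ka kb kc (hm3 a) (hm3 b) (hm3 c)
      hka2 hkb2 hkc2 hka hkb hkc hsum)

end Counting

end Fermat.Agent.S48.H428

end
-- ===== PACK-END S48/H428/Count.lean

-- ===== PACK-BEGIN S48/H428/Eigen.lean
section


/-!
# S48 / P5 (helper428): `2 × 2` linear algebra

* `exists_two_fixed` : over an algebraically closed field `K`, a non-scalar `g ∈ GL₂(K)` of finite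
  order prime to the characteristic has exactly two fixed points on `ℙ¹(K)`.
-/

set_option autoImplicit false

namespace Fermat.Agent.S48.H428

open scoped LinearAlgebra.Projectivization Matrix MatrixGroups

variable {K : Type*} [Field K]

/-- Cayley–Hamilton for `2 × 2` matrices. -/
lemma cayley_two (M : Matrix (Fin 2) (Fin 2) K) :
    M * M = M.trace • M - M.det • (1 : Matrix (Fin 2) (Fin 2) K) := by
  ext i j
  fin_cases i <;> fin_cases j <;>
    simp [Matrix.mul_apply, Fin.sum_univ_two, Matrix.trace_fin_two, Matrix.det_fin_two] <;> ring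

lemma det_sub_smul_one (M : Matrix (Fin 2) (Fin 2) K) (a : K) :
    (M - a • (1 : Matrix (Fin 2) (Fin 2) K)).det = a ^ 2 - M.trace * a + M.det := by
  simp [Matrix.det_fin_two, Matrix.trace_fin_two]
  ring

/-- An eigenvalue is a root of the characteristic polynomial. -/
lemma eigenvalue_root (M : Matrix (Fin 2) (Fin 2) K) {v : Fin 2 → K} (hv : v ≠ 0) {a : K}
    (h : M *ᵥ v = a • v) : a ^ 2 - M.trace * a + M.det = 0 := by
  rw [← det_sub_smul_one]
  refine Matrix.exists_mulVec_eq_zero_iff.mp ⟨v, hv, ?_⟩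
  rw [Matrix.sub_mulVec, Matrix.smul_mulVec, Matrix.one_mulVec, h, sub_self]

/-- Two vectors with vanishing determinant are proportional. -/
lemma proportional_of_det_eq_zero {x y : Fin 2 → K} (hx : x ≠ 0)
    (h : x 0 * y 1 - x 1 * y 0 = 0) : ∃ c : K, y = c • x := by
  by_cases h0 : x 0 = 0
  · have h1 : x 1 ≠ 0 := by
      intro h1
      apply hx
      ext i
      fin_cases i <;> simp [h0, h1]
    refine ⟨y 1 / x 1, ?_⟩
    ext i
    fin_cases i
    · simp only [Fin.zero_eta, Pi.smul_apply, smul_eq_mul, h0, mul_zero]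
      rw [h0, zero_mul, zero_sub, neg_eq_zero] at h
      exact (mul_eq_zero.mp h).resolve_left h1
    · simp only [Fin.mk_one, Pi.smul_apply, smul_eq_mul]
      field_simp
  · refine ⟨y 0 / x 0, ?_⟩
    ext i
    fin_cases i
    · simp only [Fin.zero_eta, Pi.smul_apply, smul_eq_mul]
      field_simp
    · simp only [Fin.mk_one, Pi.smul_apply, smul_eq_mul]
      field_simp
      linear_combination h

/-- A matrix killing two non-proportional vectors vanishes. -/
lemma eq_zero_of_mulVec_eq_zero (A : Matrix (Fin 2) (Fin 2) K) {x y : Fin 2 → K}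
    (h : x 0 * y 1 - x 1 * y 0 ≠ 0) (hx : A *ᵥ x = 0) (hy : A *ᵥ y = 0) : A = 0 := by
  have hx0 := congrFun hx 0
  have hx1 := congrFun hx 1
  have hy0 := congrFun hy 0
  have hy1 := congrFun hy 1
  simp only [Matrix.mulVec, dotProduct, Fin.sum_univ_two, Pi.zero_apply] at hx0 hx1 hy0 hy1
  ext i j
  fin_cases i <;> fin_cases j <;> simp only [Fin.zero_eta, Fin.mk_one, Matrix.zero_apply]
  · have : A 0 0 * (x 0 * y 1 - x 1 * y 0) = 0 := by linear_combination y 1 * hx0 - x 1 * hy0
    exact (mul_eq_zero.mp this).resolve_right h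
  · have : A 0 1 * (x 0 * y 1 - x 1 * y 0) = 0 := by linear_combination x 0 * hy0 - y 0 * hx0
    exact (mul_eq_zero.mp this).resolve_right h
  · have : A 1 0 * (x 0 * y 1 - x 1 * y 0) = 0 := by linear_combination y 1 * hx1 - x 1 * hy1
    exact (mul_eq_zero.mp this).resolve_right h
  · have : A 1 1 * (x 0 * y 1 - x 1 * y 0) = 0 := by linear_combination x 0 * hy1 - y 0 * hx1
    exact (mul_eq_zero.mp this).resolve_right h

/-- The kernel of a nonzero `2 × 2` matrix is at most a line. -/
lemma ker_proportional (A : Matrix (Fin 2) (Fin 2) K) (hA : A ≠ 0) {x y : Fin 2 → K}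
    (hx : x ≠ 0) (hAx : A *ᵥ x = 0) (hAy : A *ᵥ y = 0) : ∃ c : K, y = c • x := by
  by_cases h : x 0 * y 1 - x 1 * y 0 = 0
  · exact proportional_of_det_eq_zero hx h
  · exact absurd (eq_zero_of_mulVec_eq_zero A h hAx hAy) hA

/-- A matrix of finite order prime to the characteristic whose characteristic polynomial has a
double root is scalar. -/
lemma eq_smul_one_of_double_root (M : Matrix (Fin 2) (Fin 2) K) (a : K)
    (htr : M.trace = a + a) (hdet : M.det = a * a) (ha : a ≠ 0)
    (m : ℕ) (hm : (m : K) ≠ 0) (hMm : M ^ m = 1) : M = a • (1 : Matrix (Fin 2) (Fin 2) K) := by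
  set A : Matrix (Fin 2) (Fin 2) K := M - a • (1 : Matrix (Fin 2) (Fin 2) K) with hA
  have hM : M = a • (1 : Matrix (Fin 2) (Fin 2) K) + A := by rw [hA]; abel
  have hAA : A * A = 0 := by
    have h := cayley_two M
    rw [htr, hdet] at h
    rw [hA, sub_mul, mul_sub, mul_sub, h]
    simp only [Matrix.smul_mul, Matrix.mul_smul, Matrix.one_mul, Matrix.mul_one, smul_smul]
    ext i j
    simp only [Matrix.sub_apply, Matrix.smul_apply, Matrix.zero_apply, smul_eq_mul]
    ring
  have hpow : ∀ k : ℕ, a • M ^ k = (a ^ (k + 1)) • (1 : Matrix (Fin 2) (Fin 2) K)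
      + ((k : K) * a ^ k) • A := by
    intro k
    induction k with
    | zero => simp
    | succ k ih =>
      rw [pow_succ, ← Matrix.smul_mul, ih]
      conv_lhs => rw [hM]
      simp only [add_mul, mul_add, Matrix.smul_mul, Matrix.mul_smul, Matrix.one_mul,
        Matrix.mul_one, smul_smul, hAA, smul_zero, add_zero]
      ext i j
      simp only [Matrix.add_apply, Matrix.smul_apply, smul_eq_mul, Nat.cast_succ]
      ring
  have h1 := hpow m
  rw [hMm] at h1
  -- multiply by `A`
  have h2 : (a - a ^ (m + 1)) • A = 0 := by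
    have := congrArg (fun X => X * A) h1
    simp only [add_mul, Matrix.smul_mul, Matrix.one_mul, hAA, smul_zero, add_zero] at this
    rw [sub_smul, this, sub_self]
  by_contra hne
  have hA0 : A ≠ 0 := by
    intro h0
    apply hne
    rw [hM, h0, add_zero]
  have h3 : a - a ^ (m + 1) = 0 := by
    rcases smul_eq_zero.mp h2 with h | h
    · exact h
    · exact absurd h hA0
  have h4 : ((m : K) * a ^ m) • A = 0 := by
    have e : a ^ (m + 1) = a := by linear_combination -h3
    rw [e] at h1
    exact left_eq_add.mp h1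
  rcases smul_eq_zero.mp h4 with h | h
  · rcases mul_eq_zero.mp h with h | h
    · exact hm h
    · exact ha (pow_eq_zero_iff (by
        rintro rfl
        simp at hm) |>.mp h)
  · exact hA0 h

/-! ### Fixed points on the projective line -/

lemma smul_mk_eq_iff (g : GL (Fin 2) K) (v : Fin 2 → K) (hv : v ≠ 0) :
    g • Projectivization.mk K v hv = Projectivization.mk K v hv ↔
      ∃ a : K, (g : Matrix (Fin 2) (Fin 2) K) *ᵥ v = a • v := by
  rw [Projectivization.smul_mk, Projectivization.mk_eq_mk_iff]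
  constructor
  · rintro ⟨a, ha⟩
    exact ⟨(a : K), ha.symm⟩
  · rintro ⟨a, ha⟩
    have hgv : g • v ≠ 0 := (smul_ne_zero_iff_ne g).mpr hv
    have ha0 : a ≠ 0 := by
      rintro rfl
      rw [zero_smul] at ha
      exact hgv ha
    exact ⟨Units.mk0 a ha0, ha.symm⟩

lemma mk_eq_mk_of_smul {v w : Fin 2 → K} (hv : v ≠ 0) (hw : w ≠ 0) {c : K} (h : v = c • w) :
    Projectivization.mk K v hv = Projectivization.mk K w hw := by
  rw [Projectivization.mk_eq_mk_iff]
  have hc : c ≠ 0 := by
    rintro rfl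
    rw [zero_smul] at h
    exact hv h
  exact ⟨Units.mk0 c hc, h.symm⟩

lemma exists_sum_prod [IsAlgClosed K] (t d : K) : ∃ a b : K, a + b = t ∧ a * b = d := by
  have hdeg : (Polynomial.X ^ 2 - Polynomial.C t * Polynomial.X + Polynomial.C d :
      Polynomial K).degree ≠ 0 := by
    have : (Polynomial.X ^ 2 - Polynomial.C t * Polynomial.X + Polynomial.C d :
        Polynomial K).degree = 2 := by
      compute_degree!
    rw [this]
    norm_num
  obtain ⟨a, ha⟩ := IsAlgClosed.exists_root _ hdeg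
  simp only [Polynomial.IsRoot.def, Polynomial.eval_add, Polynomial.eval_sub, Polynomial.eval_pow,
    Polynomial.eval_X, Polynomial.eval_mul, Polynomial.eval_C] at ha
  exact ⟨a, t - a, by ring, by linear_combination -ha⟩

lemma not_mem_center_iff {g : GL (Fin 2) K} :
    g ∉ Subgroup.center (GL (Fin 2) K) ↔
      ∀ a : K, (g : Matrix (Fin 2) (Fin 2) K) ≠ a • (1 : Matrix (Fin 2) (Fin 2) K) := by
  rw [Matrix.GeneralLinearGroup.mem_center_iff_val_mem_range_scalar]
  simp only [Set.mem_range, not_exists, Matrix.scalar_apply, ← Matrix.smul_one_eq_diagonal]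
  exact ⟨fun h a e => h a e.symm, fun h a e => h a e.symm⟩

/-- A non-scalar element of `GL₂(K)` (`K` algebraically closed) of finite order prime to the
characteristic has exactly two fixed points on the projective line. -/
theorem exists_two_fixed [IsAlgClosed K] (g : GL (Fin 2) K)
    (hg : g ∉ Subgroup.center (GL (Fin 2) K)) (m : ℕ) (hm : (m : K) ≠ 0) (hgm : g ^ m = 1) :
    ∃ x y : ℙ K (Fin 2 → K), x ≠ y ∧ ∀ p : ℙ K (Fin 2 → K), g • p = p ↔ p = x ∨ p = y := by
  set M : Matrix (Fin 2) (Fin 2) K := (g : Matrix (Fin 2) (Fin 2) K) with hM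
  have hns := not_mem_center_iff.mp hg
  have hMm : M ^ m = 1 := by
    have := congrArg (fun u : GL (Fin 2) K => (u : Matrix (Fin 2) (Fin 2) K)) hgm
    simpa using this
  have hdet : M.det ≠ 0 := by
    have := Matrix.GeneralLinearGroup.det_ne_zero g
    simpa [hM] using this
  obtain ⟨a, b, hab, hab'⟩ := exists_sum_prod M.trace M.det
  have ha0 : a ≠ 0 := by
    rintro rfl
    rw [zero_mul] at hab'
    exact hdet hab'.symm
  have hne : a ≠ b := by
    rintro rfl
    exact hns a (eq_smul_one_of_double_root M a hab.symm hab'.symm ha0 m hm hMm)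
  have hdeta : (M - a • (1 : Matrix (Fin 2) (Fin 2) K)).det = 0 := by
    rw [det_sub_smul_one, ← hab, ← hab']; ring
  have hdetb : (M - b • (1 : Matrix (Fin 2) (Fin 2) K)).det = 0 := by
    rw [det_sub_smul_one, ← hab, ← hab']; ring
  obtain ⟨va, hva, hva'⟩ := Matrix.exists_mulVec_eq_zero_iff.mpr hdeta
  obtain ⟨vb, hvb, hvb'⟩ := Matrix.exists_mulVec_eq_zero_iff.mpr hdetb
  have eva : M *ᵥ va = a • va := by
    rw [Matrix.sub_mulVec, Matrix.smul_mulVec, Matrix.one_mulVec, sub_eq_zero] at hva'
    exact hva'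
  have evb : M *ᵥ vb = b • vb := by
    rw [Matrix.sub_mulVec, Matrix.smul_mulVec, Matrix.one_mulVec, sub_eq_zero] at hvb'
    exact hvb'
  have hAa : M - a • (1 : Matrix (Fin 2) (Fin 2) K) ≠ 0 := fun h => hns a (sub_eq_zero.mp h)
  have hAb : M - b • (1 : Matrix (Fin 2) (Fin 2) K) ≠ 0 := fun h => hns b (sub_eq_zero.mp h)
  refine ⟨Projectivization.mk K va hva, Projectivization.mk K vb hvb, ?_, ?_⟩
  · intro h
    rw [Projectivization.mk_eq_mk_iff] at h
    obtain ⟨c, hc⟩ := h
    have h1 : M *ᵥ va = b • va := by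
      rw [← hc, Units.smul_def, Matrix.mulVec_smul, evb, smul_comm]
    rw [eva] at h1
    have h2 : (a - b) • va = 0 := by rw [sub_smul, h1, sub_self]
    rcases smul_eq_zero.mp h2 with h3 | h3
    · exact hne (sub_eq_zero.mp h3)
    · exact hva h3
  · intro p
    induction p using Projectivization.ind with
    | h v hv =>
      constructor
      · intro hp
        obtain ⟨e, he⟩ := (smul_mk_eq_iff g v hv).mp hp
        have hroot := eigenvalue_root M hv he
        have hfac : (e - a) * (e - b) = 0 := by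
          rw [← hab, ← hab'] at hroot
          linear_combination hroot
        have hker : ∀ c : K, e = c → (M - c • (1 : Matrix (Fin 2) (Fin 2) K)) *ᵥ v = 0 := by
          rintro c rfl
          rw [Matrix.sub_mulVec, Matrix.smul_mulVec, Matrix.one_mulVec, he, sub_self]
        rcases mul_eq_zero.mp hfac with h | h
        · left
          obtain ⟨c, hc⟩ := ker_proportional _ hAa hva hva' (hker a (sub_eq_zero.mp h))
          exact mk_eq_mk_of_smul hv hva hc
        · right
          obtain ⟨c, hc⟩ := ker_proportional _ hAb hvb hvb' (hker b (sub_eq_zero.mp h))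
          exact mk_eq_mk_of_smul hv hvb hc
      · rintro (h | h)
        · rw [h]
          exact (smul_mk_eq_iff g va hva).mpr ⟨a, eva⟩
        · rw [h]
          exact (smul_mk_eq_iff g vb hvb).mpr ⟨b, evb⟩

end Fermat.Agent.S48.H428

end
-- ===== PACK-END S48/H428/Eigen.lean

-- ===== PACK-BEGIN S48/H428/Coprime.lean
section




/-!
# S48 / P5 (helper428): finite subgroups of `GL₂(K)` of order prime to the characteristic

`card_bound_of_coprime`: for a finite subgroup `G ≤ GL₂(K)` (`K` algebraically closed,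
`|G| ≠ 0` in `K`) and a finite subset `H ⊆ G` on which `(tr, det)` takes `M` values,
`2 |H| ≤ |G| + 4 M` or `|H| ≤ 120 M`.
-/

set_option autoImplicit false
set_option linter.style.haveILetI false

namespace Fermat.Agent.S48.H428

open scoped LinearAlgebra.Projectivization Matrix MatrixGroups
open MulAction

variable {K : Type*} [Field K]

/-- The class function `(tr, det)`. -/
def trDet (g : GL (Fin 2) K) : K × K :=
  ((g : Matrix (Fin 2) (Fin 2) K).trace, (g : Matrix (Fin 2) (Fin 2) K).det)

lemma trDet_fst (g : GL (Fin 2) K) : (trDet g).1 = (g : Matrix (Fin 2) (Fin 2) K).trace := rfl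

lemma trDet_snd (g : GL (Fin 2) K) : (trDet g).2 = (g : Matrix (Fin 2) (Fin 2) K).det := rfl

/-- A unipotent element of finite order prime to the characteristic is trivial. -/
lemma eq_one_of_fixed_of_det (k : GL (Fin 2) K) {v : Fin 2 → K} (hv : v ≠ 0)
    (hkv : (k : Matrix (Fin 2) (Fin 2) K) *ᵥ v = v)
    (hdet : (k : Matrix (Fin 2) (Fin 2) K).det = 1)
    (N : ℕ) (hN : (N : K) ≠ 0) (hkN : k ^ N = 1) : k = 1 := by
  set M : Matrix (Fin 2) (Fin 2) K := (k : Matrix (Fin 2) (Fin 2) K) with hM
  have hMN : M ^ N = 1 := by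
    have := congrArg (fun u : GL (Fin 2) K => (u : Matrix (Fin 2) (Fin 2) K)) hkN
    simpa using this
  have hroot := eigenvalue_root M hv (a := 1) (by rw [one_smul]; exact hkv)
  have htr : M.trace = 1 + 1 := by
    rw [hdet] at hroot
    linear_combination -hroot
  have := eq_smul_one_of_double_root M 1 htr (by rw [hdet, mul_one]) one_ne_zero N hN hMN
  rw [one_smul] at this
  exact Units.ext this

/-- An element fixing a line is determined by its eigenvalue on the line and its determinant. -/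
lemma eq_of_eigen_of_det (g g' : GL (Fin 2) K) {v : Fin 2 → K} (hv : v ≠ 0) (c : K)
    (hg : (g : Matrix (Fin 2) (Fin 2) K) *ᵥ v = c • v)
    (hg' : (g' : Matrix (Fin 2) (Fin 2) K) *ᵥ v = c • v)
    (hdet : (g : Matrix (Fin 2) (Fin 2) K).det = (g' : Matrix (Fin 2) (Fin 2) K).det)
    (N : ℕ) (hN : (N : K) ≠ 0) (hkN : (g⁻¹ * g') ^ N = 1) : g = g' := by
  have hk : g⁻¹ * g' = 1 := by
    refine eq_one_of_fixed_of_det (g⁻¹ * g') hv ?_ ?_ N hN hkN
    · have h1 : g • ((g⁻¹ * g') • v) = g • v := by
        rw [← mul_smul, mul_inv_cancel_left]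
        exact hg'.trans hg.symm
      exact MulAction.injective g h1
    · have hd : (g : Matrix (Fin 2) (Fin 2) K).det ≠ 0 := by
        have := Matrix.GeneralLinearGroup.det_ne_zero g
        simpa using this
      have h2 : (g : Matrix (Fin 2) (Fin 2) K).det *
          ((g⁻¹ * g' : GL (Fin 2) K) : Matrix (Fin 2) (Fin 2) K).det =
          (g : Matrix (Fin 2) (Fin 2) K).det := by
        rw [← Matrix.det_mul, ← Units.val_mul, mul_inv_cancel_left, hdet]
      exact mul_left_cancel₀ hd (h2.trans (mul_one _).symm)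
  have := congrArg (fun u => g * u) hk
  simpa using this.symm

variable [IsAlgClosed K]

/-- In a finite group of order prime to the characteristic, the elements fixing a given point of
the projective line and with given `(tr, det)` are at most two. -/
lemma card_fiber_stabilizer_le (G : Subgroup (GL (Fin 2) K)) [Finite G]
    (hN : (Nat.card G : K) ≠ 0) (x : ℙ K (Fin 2 → K)) (b : K × K)
    (S : Finset (GL (Fin 2) K))
    (hS : ∀ g ∈ S, g ∈ G ∧ g • x = x ∧ trDet g = b) : S.card ≤ 2 := by
  classical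
  induction x using Projectivization.ind with
  | h v hv =>
    obtain ⟨a, a', haa, haa'⟩ := exists_sum_prod b.1 b.2
    -- the eigenvalue on `v`
    have hex : ∀ g ∈ S, ∃ c : K, (g : Matrix (Fin 2) (Fin 2) K) *ᵥ v = c • v :=
      fun g hg => (smul_mk_eq_iff g v hv).mp (hS g hg).2.1
    let χ : GL (Fin 2) K → K := fun g =>
      if h : ∃ c : K, (g : Matrix (Fin 2) (Fin 2) K) *ᵥ v = c • v then h.choose else 0
    have hχ : ∀ g ∈ S, (g : Matrix (Fin 2) (Fin 2) K) *ᵥ v = χ g • v := by
      intro g hg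
      simp only [χ, dif_pos (hex g hg)]
      exact (hex g hg).choose_spec
    refine (Finset.card_le_card_of_injOn χ (t := {a, a'}) ?_ ?_).trans Finset.card_le_two
    · intro g hg
      have hroot := eigenvalue_root _ hv (hχ g hg)
      have hb := (hS g hg).2.2
      rw [← trDet_fst, ← trDet_snd, hb, ← haa, ← haa'] at hroot
      have hfac : (χ g - a) * (χ g - a') = 0 := by linear_combination hroot
      simp only [Finset.coe_insert, Finset.coe_singleton, Set.mem_insert_iff,
        Set.mem_singleton_iff]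
      rcases mul_eq_zero.mp hfac with h | h
      · exact Or.inl (sub_eq_zero.mp h)
      · exact Or.inr (sub_eq_zero.mp h)
    · intro g hg g' hg' hgg'
      have hg1 := hχ g hg
      have hg2 := hχ g' hg'
      rw [← hgg'] at hg2
      have hdet : (g : Matrix (Fin 2) (Fin 2) K).det = (g' : Matrix (Fin 2) (Fin 2) K).det := by
        rw [← trDet_snd, ← trDet_snd, (hS g hg).2.2, (hS g' hg').2.2]
      refine eq_of_eigen_of_det g g' hv (χ g) hg1 hg2 hdet (Nat.card G) hN ?_
      have hmem : g⁻¹ * g' ∈ G := G.mul_mem (G.inv_mem (hS g hg).1) (hS g' hg').1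
      have := pow_card_eq_one' (G := G) (x := ⟨g⁻¹ * g', hmem⟩)
      exact congrArg Subtype.val this

omit [IsAlgClosed K] in
/-- Two elements of the same coset of the scalars with the same determinant differ by a sign. -/
lemma eq_or_eq_neg_of_center (g g' : GL (Fin 2) K)
    (hz : g⁻¹ * g' ∈ Subgroup.center (GL (Fin 2) K))
    (hdet : (g : Matrix (Fin 2) (Fin 2) K).det = (g' : Matrix (Fin 2) (Fin 2) K).det) :
    g' = g ∨ g' = -g := by
  rw [Matrix.GeneralLinearGroup.mem_center_iff_val_mem_range_scalar] at hz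
  obtain ⟨c, hc⟩ := hz
  rw [Matrix.scalar_apply, ← Matrix.smul_one_eq_diagonal] at hc
  have hg' : (g' : Matrix (Fin 2) (Fin 2) K) = c • (g : Matrix (Fin 2) (Fin 2) K) := by
    have h1 : (g' : Matrix (Fin 2) (Fin 2) K) =
        (g : Matrix (Fin 2) (Fin 2) K) * ((g⁻¹ * g' : GL (Fin 2) K) : Matrix (Fin 2) (Fin 2) K) := by
      rw [← Units.val_mul, mul_inv_cancel_left]
    rw [h1, ← hc, Matrix.mul_smul, Matrix.mul_one]
  have hd : (g : Matrix (Fin 2) (Fin 2) K).det ≠ 0 := by
    have := Matrix.GeneralLinearGroup.det_ne_zero g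
    simpa using this
  have hc2 : (c - 1) * (c + 1) = 0 := by
    have h2 : (g' : Matrix (Fin 2) (Fin 2) K).det = c ^ 2 * (g : Matrix (Fin 2) (Fin 2) K).det := by
      rw [hg', Matrix.det_smul, Fintype.card_fin]
    rw [← hdet] at h2
    have h3 : (c ^ 2 - 1) * (g : Matrix (Fin 2) (Fin 2) K).det = 0 := by linear_combination -h2
    rcases mul_eq_zero.mp h3 with h | h
    · linear_combination h
    · exact absurd h hd
  rcases mul_eq_zero.mp hc2 with h | h
  · left
    have : c = 1 := by linear_combination h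
    rw [this, one_smul] at hg'
    exact Units.ext hg'
  · right
    have : c = -1 := by linear_combination h
    rw [this, neg_one_smul] at hg'
    exact Units.ext (by rw [hg', Units.val_neg])

omit [IsAlgClosed K] in
/-- If the scalars have index `≤ n` in `G`, every fiber of `(tr, det)` on `G` has at most `2 n`
elements. -/
lemma card_fiber_le_of_index (G : Subgroup (GL (Fin 2) K)) [Finite G] (b : K × K)
    (S : Finset (GL (Fin 2) K)) (hS : ∀ g ∈ S, g ∈ G ∧ trDet g = b) :
    S.card ≤ 2 * ((Subgroup.center (GL (Fin 2) K)).subgroupOf G).index := by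
  classical
  set Z := (Subgroup.center (GL (Fin 2) K)).subgroupOf G with hZ
  haveI : Finite (G ⧸ Z) := Quotient.finite _
  letI := Fintype.ofFinite (G ⧸ Z)
  let f : GL (Fin 2) K → G ⧸ Z := fun g =>
    if h : g ∈ G then QuotientGroup.mk ⟨g, h⟩ else QuotientGroup.mk 1
  have h1 : S.card ≤ 2 * (S.image f).card := by
    refine Finset.card_le_mul_card_image S 2 fun q _ => ?_
    rcases (S.filter fun a => f a = q).eq_empty_or_nonempty with he | ⟨g0, hg0⟩
    · rw [he]; simp
    · have hsub : (S.filter fun a => f a = q) ⊆ {g0, -g0} := by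
        intro g hg
        rw [Finset.mem_filter] at hg hg0
        have hgG := (hS g hg.1).1
        have hg0G := (hS g0 hg0.1).1
        have hq : f g0 = f g := hg0.2.trans hg.2.symm
        simp only [f, dif_pos hgG, dif_pos hg0G] at hq
        have hmem := QuotientGroup.eq.mp hq
        rw [hZ, Subgroup.mem_subgroupOf] at hmem
        have hdet : (g0 : Matrix (Fin 2) (Fin 2) K).det = (g : Matrix (Fin 2) (Fin 2) K).det := by
          rw [← trDet_snd, ← trDet_snd, (hS g hg.1).2, (hS g0 hg0.1).2]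
        simp only [Finset.mem_insert, Finset.mem_singleton]
        exact eq_or_eq_neg_of_center g0 g hmem hdet
      exact (Finset.card_le_card hsub).trans Finset.card_le_two
  have h2 : (S.image f).card ≤ Z.index := by
    rw [Subgroup.index, Nat.card_eq_fintype_card]
    exact Finset.card_le_univ _
  calc S.card ≤ 2 * (S.image f).card := h1
    _ ≤ 2 * Z.index := Nat.mul_le_mul_left 2 h2

/-- **Order prime to the characteristic.** -/
theorem card_bound_of_coprime (G : Subgroup (GL (Fin 2) K)) [Finite G]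
    (hN : (Nat.card G : K) ≠ 0) (H : Finset (GL (Fin 2) K)) (hHG : ∀ h ∈ H, h ∈ G) :
    2 * H.card ≤ Nat.card G + 4 * (trDet '' (H : Set (GL (Fin 2) K))).ncard ∨
      H.card ≤ 120 * (trDet '' (H : Set (GL (Fin 2) K))).ncard := by
  classical
  have hncard : (trDet '' (H : Set (GL (Fin 2) K))).ncard = (H.image trDet).card := by
    rw [← Finset.coe_image, Set.ncard_coe_finset]
  rw [hncard]
  set Z := (Subgroup.center (GL (Fin 2) K)).subgroupOf G with hZdef
  haveI : Z.Normal := Subgroup.normal_subgroupOf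
  have hZ : ∀ z ∈ Z, ∀ x : ℙ K (Fin 2 → K), z • x = x := by
    intro z hz x
    rw [hZdef, Subgroup.mem_subgroupOf,
      Matrix.GeneralLinearGroup.mem_center_iff_val_mem_range_scalar] at hz
    obtain ⟨c, hc⟩ := hz
    rw [Matrix.scalar_apply, ← Matrix.smul_one_eq_diagonal] at hc
    induction x using Projectivization.ind with
    | h v hv =>
      refine (smul_mk_eq_iff (z : GL (Fin 2) K) v hv).mpr ⟨c, ?_⟩
      rw [← hc, Matrix.smul_mulVec, Matrix.one_mulVec]
  have h2 : ∀ g : G, g ∉ Z → ∃ x y : ℙ K (Fin 2 → K), x ≠ y ∧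
      ∀ p : ℙ K (Fin 2 → K), g • p = p ↔ p = x ∨ p = y := by
    intro g hg
    have hg' : (g : GL (Fin 2) K) ∉ Subgroup.center (GL (Fin 2) K) := fun h =>
      hg (Subgroup.mem_subgroupOf.mpr h)
    have hpow : (g : GL (Fin 2) K) ^ Nat.card G = 1 :=
      congrArg Subtype.val (pow_card_eq_one' (G := G) (x := g))
    exact exists_two_fixed (g : GL (Fin 2) K) hg' (Nat.card G) hN hpow
  rcases exists_index_le_two_or_index_le Z hZ h2 with ⟨x, hx⟩ | hidx
  · left
    -- the stabilizer of `x`
    set St := stabilizer G x with hSt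
    have hcard : Nat.card St * St.index = Nat.card G := Subgroup.card_mul_index St
    have hidx1 : 1 ≤ St.index := by
      rcases Nat.eq_zero_or_pos St.index with h0 | h0
      · rw [h0, mul_zero] at hcard
        have : 0 < Nat.card G := Nat.card_pos
        omega
      · exact h0
    have hSt2 : Nat.card G ≤ 2 * Nat.card St := by
      have : Nat.card St * St.index ≤ Nat.card St * 2 := Nat.mul_le_mul_left _ hx
      omega
    set H1 := H.filter fun h => h • x = x with hH1
    set H2 := H.filter fun h => ¬ h • x = x with hH2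
    have hsplit : H1.card + H2.card = H.card := Finset.card_filter_add_card_filter_not _
    have hH1le : H1.card ≤ 2 * (H.image trDet).card := by
      have : H1.card ≤ 2 * (H1.image trDet).card := by
        refine Finset.card_le_mul_card_image H1 2 fun b _ => ?_
        refine card_fiber_stabilizer_le G hN x b _ fun g hg => ?_
        rw [Finset.mem_filter, hH1, Finset.mem_filter] at hg
        exact ⟨hHG g hg.1.1, hg.1.2, hg.2⟩
      exact this.trans (Nat.mul_le_mul_left 2
        (Finset.card_le_card (Finset.image_subset_image (Finset.filter_subset _ _))))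
    have hH2le : H2.card + Nat.card St ≤ Nat.card G := by
      let F : {h // h ∈ H2} ⊕ St → G := fun u =>
        match u with
        | Sum.inl h => ⟨h.1, hHG h.1 (Finset.mem_of_mem_filter _ h.2)⟩
        | Sum.inr s => s.1
      have hF : Function.Injective F := by
        rintro (h | s) (h' | s') e
        · have : (F (Sum.inl h)).1 = (F (Sum.inl h')).1 := congrArg Subtype.val e
          exact congrArg Sum.inl (Subtype.ext this)
        · exfalso
          have hmem : (F (Sum.inr s')) ∈ St := s'.2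
          rw [← e] at hmem
          have hh := (Finset.mem_filter.mp h.2).2
          exact hh (by
            have := (mem_stabilizer_iff.mp hmem)
            exact this)
        · exfalso
          have hmem : (F (Sum.inr s)) ∈ St := s.2
          rw [e] at hmem
          have hh := (Finset.mem_filter.mp h'.2).2
          exact hh (by
            have := (mem_stabilizer_iff.mp hmem)
            exact this)
        · have : (F (Sum.inr s)) = (F (Sum.inr s')) := e
          exact congrArg Sum.inr (Subtype.ext this)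
      have := Nat.card_le_card_of_injective F hF
      rw [Nat.card_sum, Nat.card_eq_fintype_card, Fintype.card_coe] at this
      exact this
    omega
  · right
    have hfib : ∀ b ∈ H.image trDet, (H.filter fun a => trDet a = b).card ≤ 120 := by
      intro b _
      have := card_fiber_le_of_index G b (H.filter fun a => trDet a = b) fun g hg => by
        rw [Finset.mem_filter] at hg
        exact ⟨hHG g hg.1, hg.2⟩
      calc (H.filter fun a => trDet a = b).card ≤ 2 * Z.index := this
        _ ≤ 2 * 60 := Nat.mul_le_mul_left 2 hidx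
    exact Finset.card_le_mul_card_image H 120 hfib

end Fermat.Agent.S48.H428

end
-- ===== PACK-END S48/H428/Coprime.lean

-- ===== PACK-BEGIN Lib/Cheb/H583/Core.lean
section






/-!
# Frobenius density theorem: calculus of "equal up to a bounded function" (helper583)

`BddDiff l f g` : `f - g` is eventually bounded along the filter `l`.
-/

set_option autoImplicit false

open Finset Filter

namespace Fermat.Agent.Lib.Cheb.H583

/-- `f` and `g` differ by a function which is eventually bounded along `l`. -/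
def BddDiff (l : Filter ℝ) (f g : ℝ → ℝ) : Prop :=
  ∃ B : ℝ, ∀ᶠ s in l, |f s - g s| ≤ B

variable {l : Filter ℝ}

theorem BddDiff.refl (l : Filter ℝ) (f : ℝ → ℝ) : BddDiff l f f :=
  ⟨0, Eventually.of_forall fun s => by simp⟩

theorem BddDiff.symm {f g : ℝ → ℝ} (h : BddDiff l f g) : BddDiff l g f := by
  obtain ⟨B, hB⟩ := h
  exact ⟨B, hB.mono fun s hs => by rw [abs_sub_comm]; exact hs⟩

theorem BddDiff.trans {f g k : ℝ → ℝ} (h₁ : BddDiff l f g)
    (h₂ : BddDiff l g k) : BddDiff l f k := by
  obtain ⟨B₁, hB₁⟩ := h₁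
  obtain ⟨B₂, hB₂⟩ := h₂
  refine ⟨B₁ + B₂, (hB₁.and hB₂).mono fun s hs => ?_⟩
  have := abs_sub_le (f s) (g s) (k s)
  linarith [hs.1, hs.2]

theorem BddDiff.add {f g f' g' : ℝ → ℝ} (h₁ : BddDiff l f g)
    (h₂ : BddDiff l f' g') : BddDiff l (fun s => f s + f' s) (fun s => g s + g' s) := by
  obtain ⟨B₁, hB₁⟩ := h₁
  obtain ⟨B₂, hB₂⟩ := h₂
  refine ⟨B₁ + B₂, (hB₁.and hB₂).mono fun s hs => ?_⟩
  have h : f s + f' s - (g s + g' s) = (f s - g s) + (f' s - g' s) := by ring
  rw [h]
  exact (abs_add_le _ _).trans (add_le_add hs.1 hs.2)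

theorem BddDiff.sub {f g f' g' : ℝ → ℝ} (h₁ : BddDiff l f g)
    (h₂ : BddDiff l f' g') : BddDiff l (fun s => f s - f' s) (fun s => g s - g' s) := by
  obtain ⟨B₁, hB₁⟩ := h₁
  obtain ⟨B₂, hB₂⟩ := h₂
  refine ⟨B₁ + B₂, (hB₁.and hB₂).mono fun s hs => ?_⟩
  have h : f s - f' s - (g s - g' s) = (f s - g s) - (f' s - g' s) := by ring
  rw [h]
  exact (abs_sub _ _).trans (add_le_add hs.1 hs.2)

theorem BddDiff.const_mul {f g : ℝ → ℝ} (c : ℝ) (h : BddDiff l f g) :
    BddDiff l (fun s => c * f s) (fun s => c * g s) := by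
  obtain ⟨B, hB⟩ := h
  refine ⟨|c| * B, hB.mono fun s hs => ?_⟩
  have h : c * f s - c * g s = c * (f s - g s) := by ring
  rw [h, abs_mul]
  exact mul_le_mul_of_nonneg_left hs (abs_nonneg c)

theorem BddDiff.finset_sum {ι : Type*} (t : Finset ι) {f g : ι → ℝ → ℝ}
    (h : ∀ i ∈ t, BddDiff l (f i) (g i)) :
    BddDiff l (fun s => ∑ i ∈ t, f i s) (fun s => ∑ i ∈ t, g i s) := by
  classical
  induction t using Finset.induction_on with
  | empty => exact ⟨0, Eventually.of_forall fun s => by simp⟩
  | insert a t ha ih =>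
    have h1 := h a (Finset.mem_insert_self a t)
    have h2 := ih (fun i hi => h i (Finset.mem_insert_of_mem hi))
    have := h1.add h2
    simpa [Finset.sum_insert ha] using this

theorem BddDiff.congr' {f g f' g' : ℝ → ℝ} (h : BddDiff l f g)
    (hf : ∀ᶠ s in l, f s = f' s) (hg : ∀ᶠ s in l, g s = g' s) : BddDiff l f' g' := by
  obtain ⟨B, hB⟩ := h
  exact ⟨B, (hB.and (hf.and hg)).mono fun s hs => by rw [← hs.2.1, ← hs.2.2]; exact hs.1⟩

theorem BddDiff.congr {f g f' g' : ℝ → ℝ} (h : BddDiff l f g)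
    (hf : ∀ s, f s = f' s) (hg : ∀ s, g s = g' s) : BddDiff l f' g' :=
  h.congr' (Eventually.of_forall hf) (Eventually.of_forall hg)

/-- A function which is eventually bounded in absolute value. -/
theorem BddDiff.of_abs_le {f g : ℝ → ℝ} (B : ℝ) (h : ∀ᶠ s in l, |f s - g s| ≤ B) :
    BddDiff l f g := ⟨B, h⟩

theorem bddDiff_zero_iff {f : ℝ → ℝ} :
    BddDiff l f (fun _ => 0) ↔ ∃ C : ℝ, ∀ᶠ s in l, |f s| ≤ C := by
  simp [BddDiff]

theorem bddDiff_iff_sub {f g : ℝ → ℝ} :
    BddDiff l f g ↔ ∃ C : ℝ, ∀ᶠ s in l, |(fun s => f s - g s) s| ≤ C := Iff.rfl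

end Fermat.Agent.Lib.Cheb.H583

end
-- ===== PACK-END Lib/Cheb/H583/Core.lean

-- ===== PACK-BEGIN Lib/Cheb/H583/Induction.lean
section


/-!
# Frobenius density theorem: induction over cyclic subgroups (helper583)
-/

set_option autoImplicit false

open Finset Filter

namespace Fermat.Agent.Lib.Cheb.H583

open Classical

variable {G : Type*} [Group G] [Fintype G]

/-- The elements of the cyclic subgroup generated by `g`, as a finset. -/
noncomputable def zpFinset (g : G) : Finset G :=
  univ.filter (fun x => x ∈ Subgroup.zpowers g)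

/-- The generators of the cyclic subgroup generated by `g`, as a finset. -/
noncomputable def genFinset (g : G) : Finset G :=
  univ.filter (fun x => Subgroup.zpowers x = Subgroup.zpowers g)

/-- The non-generators in the cyclic subgroup generated by `g`, as a finset. -/
noncomputable def properFinset (g : G) : Finset G :=
  univ.filter (fun x => x ∈ Subgroup.zpowers g ∧ Subgroup.zpowers x ≠ Subgroup.zpowers g)

theorem mem_zpFinset {g x : G} : x ∈ zpFinset g ↔ x ∈ Subgroup.zpowers g := by
  simp [zpFinset]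

theorem mem_genFinset {g x : G} : x ∈ genFinset g ↔ Subgroup.zpowers x = Subgroup.zpowers g := by
  simp [genFinset]

theorem mem_properFinset {g x : G} :
    x ∈ properFinset g ↔ x ∈ Subgroup.zpowers g ∧ Subgroup.zpowers x ≠ Subgroup.zpowers g := by
  simp [properFinset]

theorem self_mem_genFinset (g : G) : g ∈ genFinset g := mem_genFinset.2 rfl

theorem genFinset_card_pos (g : G) : 0 < (genFinset g).card :=
  Finset.card_pos.2 ⟨g, self_mem_genFinset g⟩

theorem genFinset_eq_of_mem {g x : G} (hx : x ∈ genFinset g) : genFinset x = genFinset g := by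
  ext y
  rw [mem_genFinset, mem_genFinset, mem_genFinset.1 hx]

omit [Fintype G] in
theorem mem_zpowers_iff_le {g x : G} :
    x ∈ Subgroup.zpowers g ↔ Subgroup.zpowers x ≤ Subgroup.zpowers g := by
  constructor
  · intro h
    exact Subgroup.zpowers_le.2 h
  · intro h
    exact h (Subgroup.mem_zpowers x)

theorem zpFinset_eq_union (g : G) : zpFinset g = genFinset g ∪ properFinset g := by
  ext x
  rw [mem_union, mem_zpFinset, mem_genFinset, mem_properFinset]
  constructor
  · intro h
    by_cases hx : Subgroup.zpowers x = Subgroup.zpowers g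
    · exact Or.inl hx
    · exact Or.inr ⟨h, hx⟩
  · rintro (h | h)
    · rw [mem_zpowers_iff_le, h]
    · exact h.1

theorem disjoint_gen_proper (g : G) : Disjoint (genFinset g) (properFinset g) := by
  rw [Finset.disjoint_left]
  intro x hx hx'
  exact (mem_properFinset.1 hx').2 (mem_genFinset.1 hx)

theorem card_zpFinset (g : G) : (zpFinset g).card = Nat.card (Subgroup.zpowers g) := by
  classical
  rw [Nat.card_eq_fintype_card, Fintype.card_subtype]
  rfl

theorem card_zpowers_lt_of_mem_proper {g x : G} (hx : x ∈ properFinset g) :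
    Nat.card (Subgroup.zpowers x) < Nat.card (Subgroup.zpowers g) := by
  obtain ⟨h1, h2⟩ := mem_properFinset.1 hx
  have hle : Subgroup.zpowers x ≤ Subgroup.zpowers g := mem_zpowers_iff_le.1 h1
  have hlt : Subgroup.zpowers x < Subgroup.zpowers g := lt_of_le_of_ne hle h2
  rw [← card_zpFinset, ← card_zpFinset]
  apply Finset.card_lt_card
  rw [Finset.ssubset_iff_of_subset]
  · obtain ⟨y, hy1, hy2⟩ := SetLike.exists_of_lt hlt
    exact ⟨y, mem_zpFinset.2 hy1, fun h => hy2 (mem_zpFinset.1 h)⟩
  · intro y hy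
    exact mem_zpFinset.2 (hle (mem_zpFinset.1 hy))

/-- Double counting: a sum over the non-generators is the sum of the normalised sums over
generator classes. -/
theorem sum_proper_eq (g : G) (φ : G → ℝ) :
    ∑ x ∈ properFinset g, φ x =
      ∑ x ∈ properFinset g, ((genFinset x).card : ℝ)⁻¹ * ∑ y ∈ genFinset x, φ y := by
  have h1 : ∑ x ∈ properFinset g, ((genFinset x).card : ℝ)⁻¹ * ∑ y ∈ genFinset x, φ y =
      ∑ x ∈ properFinset g, ∑ y ∈ genFinset x, ((genFinset x).card : ℝ)⁻¹ * φ y := by
    refine Finset.sum_congr rfl fun x _ => ?_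
    rw [Finset.mul_sum]
  rw [h1]
  rw [Finset.sum_comm' (s' := fun y => genFinset y) (t' := properFinset g)]
  · refine Finset.sum_congr rfl fun y _ => ?_
    have h2 : ∑ x ∈ genFinset y, ((genFinset x).card : ℝ)⁻¹ * φ y =
        ∑ _x ∈ genFinset y, ((genFinset y).card : ℝ)⁻¹ * φ y := by
      refine Finset.sum_congr rfl fun x hx => ?_
      rw [genFinset_eq_of_mem hx]
    rw [h2, Finset.sum_const, nsmul_eq_mul, ← mul_assoc,
      mul_inv_cancel₀ (by exact_mod_cast (genFinset_card_pos y).ne'), one_mul]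
  · intro x y
    rw [mem_genFinset, mem_genFinset, mem_properFinset, mem_properFinset]
    constructor
    · rintro ⟨⟨h1, h2⟩, h3⟩
      refine ⟨h3.symm, ?_, ?_⟩
      · rw [mem_zpowers_iff_le, h3, ← mem_zpowers_iff_le]; exact h1
      · rw [h3]; exact h2
    · rintro ⟨h3, h1, h2⟩
      refine ⟨⟨?_, ?_⟩, h3.symm⟩
      · rw [mem_zpowers_iff_le, h3, ← mem_zpowers_iff_le]; exact h1
      · rw [h3]; exact h2

/-- **Combinatorial core of the Frobenius density theorem.**  If for every cyclic subgroup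
`⟨h⟩` the sum of the `Φ x` over `x ∈ ⟨h⟩` is `|⟨h⟩| * lp` up to a bounded function, then for
every `g` the sum of `Φ x` over the generators `x` of `⟨g⟩` is `#generators * lp` up to a
bounded function. -/
theorem bddDiff_sum_genFinset (Φ : G → ℝ → ℝ) (lp : ℝ → ℝ) (l : Filter ℝ)
    (hH : ∀ h : G, BddDiff l (fun s => ∑ x ∈ zpFinset h, Φ x s)
      (fun s => (Nat.card (Subgroup.zpowers h) : ℝ) * lp s)) (g : G) :
    BddDiff l (fun s => ∑ x ∈ genFinset g, Φ x s)
      (fun s => ((genFinset g).card : ℝ) * lp s) := by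
  induction' hn : Nat.card (Subgroup.zpowers g) using Nat.strong_induction_on with n ih generalizing g
  -- the sum over the proper part
  have hP : BddDiff l (fun s => ∑ x ∈ properFinset g, Φ x s)
      (fun s => ((properFinset g).card : ℝ) * lp s) := by
    have h1 : BddDiff l
        (fun s => ∑ x ∈ properFinset g,
          ((genFinset x).card : ℝ)⁻¹ * ∑ y ∈ genFinset x, Φ y s)
        (fun s => ∑ x ∈ properFinset g,
          ((genFinset x).card : ℝ)⁻¹ * (((genFinset x).card : ℝ) * lp s)) := by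
      apply BddDiff.finset_sum
      intro x hx
      apply BddDiff.const_mul
      exact ih _ (hn ▸ card_zpowers_lt_of_mem_proper hx) x rfl
    refine h1.congr (fun s => (sum_proper_eq g (fun x => Φ x s)).symm) (fun s => ?_)
    have h2 : ∀ x ∈ properFinset g,
        ((genFinset x).card : ℝ)⁻¹ * (((genFinset x).card : ℝ) * lp s) = lp s := by
      intro x _
      rw [← mul_assoc, inv_mul_cancel₀ (by exact_mod_cast (genFinset_card_pos x).ne'), one_mul]
    rw [Finset.sum_congr rfl h2, Finset.sum_const, nsmul_eq_mul]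
  have hZ := hH g
  have hsub := hZ.sub hP
  refine hsub.congr (fun s => ?_) (fun s => ?_)
  · rw [zpFinset_eq_union, Finset.sum_union (disjoint_gen_proper g)]
    ring
  · have hc : (Nat.card (Subgroup.zpowers g) : ℝ) =
        ((genFinset g).card : ℝ) + ((properFinset g).card : ℝ) := by
      rw [← card_zpFinset, zpFinset_eq_union, Finset.card_union_of_disjoint (disjoint_gen_proper g)]
      push_cast
      ring
    rw [hc]
    ring

/-- Consequence: if `lp` tends to `+∞` along `l` (`l ≠ ⊥`), then the sum of the `Φ x` over the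
generators `x` of `⟨g⟩` is not eventually bounded above along `l`. -/
theorem not_eventually_le_sum_genFinset {l : Filter ℝ} [l.NeBot] (Φ : G → ℝ → ℝ) (lp : ℝ → ℝ)
    (hH : ∀ h : G, BddDiff l (fun s => ∑ x ∈ zpFinset h, Φ x s)
      (fun s => (Nat.card (Subgroup.zpowers h) : ℝ) * lp s))
    (hlp : Tendsto lp l atTop) (g : G) (M : ℝ) :
    ¬ ∀ᶠ s in l, ∑ x ∈ genFinset g, Φ x s ≤ M := by
  intro hM
  obtain ⟨B, hB⟩ := bddDiff_sum_genFinset Φ lp l hH g
  have hcard : (1 : ℝ) ≤ ((genFinset g).card : ℝ) := by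
    exact_mod_cast genFinset_card_pos g
  have h1 : ∀ᶠ s in l, max (B + M) 0 < lp s := hlp.eventually_gt_atTop _
  obtain ⟨s, hs1, hs2, hs3⟩ := (hB.and (hM.and h1)).exists
  have h3 := abs_le.1 hs1
  have hlp_pos : 0 < lp s := lt_of_le_of_lt (le_max_right _ _) hs3
  have h4 : lp s ≤ ((genFinset g).card : ℝ) * lp s := by
    have := mul_le_mul_of_nonneg_right hcard hlp_pos.le
    linarith
  have h5 : B + M < lp s := lt_of_le_of_lt (le_max_left _ _) hs3
  linarith [h3.1]

end Fermat.Agent.Lib.Cheb.H583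

end
-- ===== PACK-END Lib/Cheb/H583/Induction.lean

-- ===== PACK-BEGIN S48/H128/HeckeRing.lean
section


/-!
# S48 / P1 (helper128): formal Hecke operators on power series and finiteness of the
ring of eigenvalues

* `formalT e p` : the operator `(T g)_n = g_{pn} + e · [p ∣ n] g_{n/p}` on `ℂ⟦q⟧`.
* `coeffModule 𝒪 F` : the `𝒪`-submodule of `ℂ` spanned by the coefficients of `F`.
* `adjoin_eigenvalues_le` : if `F` has `a₁ = 1` and is an eigenvector of `formalT (e p) p` with
  eigenvalue `a p` for all `p ∈ S` (`e p ∈ 𝒪`), then `𝒪[a p : p ∈ S] ⊆ coeffModule 𝒪 F`.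
* `coeffModule_fg_of_mem_span` : if `F` is a `ℂ`-linear combination of series with coefficients in
  `𝒪`, then `coeffModule 𝒪 F` is contained in a finitely generated `𝒪`-module.
-/

set_option autoImplicit false

open PowerSeries

namespace Fermat.Agent.S48.H128

/-- The formal Hecke operator `(T g)_n = g_{pn} + e · [p ∣ n] g_{n/p}`. -/
noncomputable def formalT (e : ℂ) (p : ℕ) : PowerSeries ℂ →ₗ[ℂ] PowerSeries ℂ where
  toFun g := PowerSeries.mk fun n => coeff (p * n) g + e * (if p ∣ n then coeff (n / p) g else 0)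
  map_add' g h := by
    ext n
    simp only [coeff_mk, map_add]
    split_ifs <;> ring
  map_smul' c g := by
    ext n
    simp only [coeff_mk, map_smul, smul_eq_mul, RingHom.id_apply]
    split_ifs <;> ring

@[simp] theorem coeff_formalT (e : ℂ) (p n : ℕ) (g : PowerSeries ℂ) :
    coeff n (formalT e p g) = coeff (p * n) g + e * (if p ∣ n then coeff (n / p) g else 0) := by
  simp [formalT]

variable (𝒪 : Subring ℂ)

/-- The `𝒪`-submodule of `ℂ` spanned by the coefficients of `F`. -/
noncomputable def coeffModule (F : PowerSeries ℂ) : Submodule 𝒪 ℂ :=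
  Submodule.span 𝒪 (Set.range fun n => coeff n F)

theorem coeff_mem_coeffModule (F : PowerSeries ℂ) (n : ℕ) : coeff n F ∈ coeffModule 𝒪 F :=
  Submodule.subset_span ⟨n, rfl⟩

/-- All coefficients of `G` lie in the submodule `M`. -/
def CoeffIn (M : Submodule 𝒪 ℂ) (G : PowerSeries ℂ) : Prop := ∀ n, coeff n G ∈ M

theorem CoeffIn.formalT {M : Submodule 𝒪 ℂ} {G : PowerSeries ℂ} (hG : CoeffIn 𝒪 M G)
    {e : ℂ} (he : e ∈ 𝒪) (p : ℕ) : CoeffIn 𝒪 M (formalT e p G) := by
  intro n
  rw [coeff_formalT]
  refine M.add_mem (hG _) ?_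
  have : e * (if p ∣ n then coeff (n / p) G else 0) =
      (⟨e, he⟩ : 𝒪) • (if p ∣ n then coeff (n / p) G else 0) := rfl
  rw [this]
  refine M.smul_mem _ ?_
  split_ifs
  · exact hG _
  · exact M.zero_mem

theorem CoeffIn.smul_of_mem {M : Submodule 𝒪 ℂ} {G : PowerSeries ℂ} (hG : CoeffIn 𝒪 M G)
    {c : ℂ} (hc : c ∈ 𝒪) : CoeffIn 𝒪 M (c • G) := by
  intro n
  rw [map_smul]
  exact M.smul_mem (⟨c, hc⟩ : 𝒪) (hG n)

/-- **Eigenvalues lie in the coefficient module.** -/
theorem adjoin_eigenvalues_le {ι : Type*} (F : PowerSeries ℂ) (h1 : coeff 1 F = 1)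
    (p : ι → ℕ) (e a : ι → ℂ) (he : ∀ i, e i ∈ 𝒪)
    (hT : ∀ i, formalT (e i) (p i) F = a i • F) :
    Subalgebra.toSubmodule (Algebra.adjoin 𝒪 (Set.range a)) ≤ coeffModule 𝒪 F := by
  -- eigenvectors with coefficients in the coefficient module
  let P : PowerSeries ℂ → Prop := fun G =>
    CoeffIn 𝒪 (coeffModule 𝒪 F) G ∧ ∀ i, formalT (e i) (p i) G = a i • G
  have hF : P F := ⟨coeff_mem_coeffModule 𝒪 F, hT⟩
  have key : ∀ m ∈ Submonoid.closure (Set.range a), ∀ G, P G → P (m • G) := by
    intro m hm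
    induction hm using Submonoid.closure_induction with
    | mem x hx =>
      obtain ⟨i, rfl⟩ := hx
      intro G hG
      refine ⟨?_, fun j => ?_⟩
      · rw [← hG.2 i]
        exact CoeffIn.formalT 𝒪 hG.1 (he i) (p i)
      · rw [map_smul, hG.2 j, smul_comm]
    | one =>
      intro G hG
      rwa [one_smul]
    | mul x y _ _ hx' hy' =>
      intro G hG
      rw [mul_smul]
      exact hx' _ (hy' G hG)
  rw [Algebra.adjoin_eq_span, Submodule.span_le]
  intro m hm
  have h := (key m hm F hF).1 1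
  rw [map_smul, h1, smul_eq_mul, mul_one] at h
  exact h

/-- A `ℂ`-linear combination of series with coefficients in `𝒪` has its coefficients in a
finitely generated `𝒪`-submodule of `ℂ`. -/
theorem exists_fg_coeffIn {F : PowerSeries ℂ}
    (hF : F ∈ Submodule.span ℂ {G : PowerSeries ℂ | ∀ n, coeff n G ∈ 𝒪}) :
    ∃ M : Submodule 𝒪 ℂ, M.FG ∧ CoeffIn 𝒪 M F := by
  induction hF using Submodule.span_induction with
  | mem G hG =>
    refine ⟨Submodule.span 𝒪 {1}, Submodule.fg_span_singleton _, fun n => ?_⟩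
    have : coeff n G = (⟨coeff n G, hG n⟩ : 𝒪) • (1 : ℂ) := by
      rw [Subring.smul_def, smul_eq_mul, mul_one]
    rw [this]
    exact Submodule.smul_mem _ _ (Submodule.subset_span rfl)
  | zero =>
    exact ⟨⊥, Submodule.fg_bot, fun n => by simp⟩
  | add G H _ _ hG hH =>
    obtain ⟨M₁, h₁, hG'⟩ := hG
    obtain ⟨M₂, h₂, hH'⟩ := hH
    refine ⟨M₁ ⊔ M₂, h₁.sup h₂, fun n => ?_⟩
    rw [map_add]
    exact Submodule.add_mem_sup (hG' n) (hH' n)
  | smul c G _ hG =>
    obtain ⟨M, hM, hG'⟩ := hG
    refine ⟨M.map (LinearMap.restrictScalars 𝒪 (LinearMap.mulLeft ℂ c)), hM.map _, fun n => ?_⟩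
    rw [map_smul]
    exact ⟨coeff n G, hG' n, rfl⟩

theorem coeffModule_le_of_coeffIn {M : Submodule 𝒪 ℂ} {F : PowerSeries ℂ}
    (h : CoeffIn 𝒪 M F) : coeffModule 𝒪 F ≤ M := by
  rw [coeffModule, Submodule.span_le]
  rintro _ ⟨n, rfl⟩
  exact h n

/-- **Finiteness of the ring of Hecke eigenvalues.** -/
theorem finite_adjoin_eigenvalues [Module.Finite ℤ 𝒪] {ι : Type*} (F : PowerSeries ℂ)
    (h1 : coeff 1 F = 1) (p : ι → ℕ) (e a : ι → ℂ) (he : ∀ i, e i ∈ 𝒪)
    (hT : ∀ i, formalT (e i) (p i) F = a i • F)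
    (hF : F ∈ Submodule.span ℂ {G : PowerSeries ℂ | ∀ n, coeff n G ∈ 𝒪}) :
    Module.Finite ℤ (Algebra.adjoin 𝒪 (Set.range a)) := by
  obtain ⟨M, hM, hFM⟩ := exists_fg_coeffIn 𝒪 hF
  have hle : Subalgebra.toSubmodule (Algebra.adjoin 𝒪 (Set.range a)) ≤ M :=
    (adjoin_eigenvalues_le 𝒪 F h1 p e a he hT).trans (coeffModule_le_of_coeffIn 𝒪 hFM)
  have : Module.Finite 𝒪 M := Module.Finite.of_fg hM
  have : Module.Finite ℤ M := Module.Finite.trans 𝒪 M
  have : IsNoetherian ℤ M := isNoetherian_of_isNoetherianRing_of_finite ℤ M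
  exact Module.Finite.of_injective
    ((Submodule.inclusion hle).restrictScalars ℤ) (Submodule.inclusion_injective hle)

end Fermat.Agent.S48.H128

end
-- ===== PACK-END S48/H128/HeckeRing.lean

-- ===== PACK-BEGIN S16/Defs.lean
section





/-!
# S16 (Mazur, Eisenstein ideal index): shared definitions — FROZEN INTERFACE (owner helper556)

Function-level conventions (as in `Fermat.Agent.S20.Core`):
* `MF Γ k`, `SF Γ k` (from S20.Core): weight `k` modular / cusp forms for `Γ ≤ SL(2,ℤ)`,
  as submodules of `ℍ → ℂ`.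
* `ModularFormClass.qCoeff f n` (Prelude): `n`-th coefficient of the `q`-expansion at `∞` (period 1).
* `ModularForm.heckeU k p f` (Prelude): `U_p`, i.e. `a_n ↦ a_{pn}`.

New here:
* `sigmaP p k`  : sum of the divisors of `k` prime to `p`.
* `IntFrom1 f`  : all `q`-coefficients of index `≥ 1` are integers.
* `IntAll f`    : all `q`-coefficients are integers.
* `frickeGL p`  : the Fricke matrix `[[0,-1],[p,0]] ∈ GL₂(ℝ)`.
* `hat p k F`   : `F^(z) = z^{-k} F(-1/(pz))`  ( `= p • F ∣[k] frickeGL p` ), multiplicative in `F`.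
* `Vp p F`      : `F(pz)`.
* `tr p k F`    : trace to level one `F + p^{1-k} U_p (F^)`  ( `= F + ∑_{j<p} F ∣[k] S T^j` ).
-/

set_option autoImplicit false

noncomputable section

namespace Fermat.Agent.S16

open UpperHalfPlane ModularForm CongruenceSubgroup MatrixGroups
open scoped Manifold

/-- Sum of the divisors of `k` which are prime to `p`. -/
def sigmaP (p k : ℕ) : ℕ := ∑ d ∈ k.divisors with ¬ p ∣ d, d

/-- All `q`-coefficients of index `≥ 1` are integers. -/
def IntFrom1 (f : ℍ → ℂ) : Prop :=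
  ∀ k : ℕ, 1 ≤ k → ∃ m : ℤ, ModularFormClass.qCoeff f k = (m : ℂ)

/-- All `q`-coefficients are integers. -/
def IntAll (f : ℍ → ℂ) : Prop :=
  ∀ k : ℕ, ∃ m : ℤ, ModularFormClass.qCoeff f k = (m : ℂ)

/-- The Fricke matrix `[[0,-1],[p,0]]`. -/
def frickeGL (p : ℕ) : GL (Fin 2) ℝ :=
  if hp : p = 0 then 1 else
    Matrix.GeneralLinearGroup.mkOfDetNeZero !![0, -1; (p : ℝ), 0]
      (by rw [Matrix.det_fin_two_of]; simpa using hp)

/-- `F^ = p • (F ∣[k] W_p)`, i.e. `F^(z) = z^{-k} F(-1/(pz))`. -/
def hat (p : ℕ) (k : ℤ) (F : ℍ → ℂ) : ℍ → ℂ := (p : ℂ) • (F ∣[k] frickeGL p)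

/-- `V_p F (z) = F (p z)`. -/
def Vp (p : ℕ) (F : ℍ → ℂ) : ℍ → ℂ := fun z => F (heckeDiagMatrix p • z)

/-- Trace from `Γ₀(p)` to level one: `F + p^{1-k} U_p (F^)`. -/
def tr (p : ℕ) (k : ℤ) (F : ℍ → ℂ) : ℍ → ℂ :=
  F + ((p : ℂ) ^ (1 - k)) • heckeU k p (hat p k F)

end Fermat.Agent.S16

end
end
-- ===== PACK-END S16/Defs.lean

-- ===== PACK-BEGIN S23/H548/FixedField.lean
section


namespace Fermat.Agent.S23.H548

open MvPolynomial

/-- A copy of `ℂ` used as the target of the lift, to avoid clashing algebra instances. -/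
def CTarget : Type := ℂ

noncomputable instance instFieldCTarget : Field CTarget := inferInstanceAs (Field ℂ)
instance instIsAlgClosedCTarget : IsAlgClosed CTarget := inferInstanceAs (IsAlgClosed ℂ)

/-- The identity, as a ring isomorphism from the copy back to `ℂ`. -/
noncomputable def cTargetEquiv : CTarget ≃+* ℂ := RingEquiv.refl ℂ

/-- Extension of a "twisted structure map" on the polynomial ring of a transcendence basis
to a ring endomorphism of `ℂ`. -/
theorem exists_ringHom_of_transcendenceBasis {A : Type} [Field A] [Algebra A ℂ]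
    {ι : Type} (v : ι → ℂ) (hv : IsTranscendenceBasis A v)
    (g : MvPolynomial ι A →+* ℂ) (hg : Function.Injective g) :
    ∃ σ : ℂ →+* ℂ, ∀ p : MvPolynomial ι A, σ (aeval v p) = g p := by
  classical
  let R' := Algebra.adjoin A (Set.range v)
  let e : MvPolynomial ι A ≃ₐ[A] R' := hv.1.aevalEquiv
  let g' : R' →+* CTarget :=
    (cTargetEquiv.symm : ℂ →+* CTarget).comp (g.comp (e.symm : R' →+* MvPolynomial ι A))
  have hg' : Function.Injective g' :=
    cTargetEquiv.symm.injective.comp (hg.comp e.symm.injective)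
  let algM : Algebra R' CTarget := g'.toAlgebra
  have hfa : FaithfulSMul R' CTarget := (faithfulSMul_iff_algebraMap_injective R' CTarget).mpr hg'
  have halg : Algebra.IsAlgebraic R' ℂ := hv.isAlgebraic
  let L : ℂ →ₐ[R'] CTarget := IsAlgClosed.lift
  refine ⟨(cTargetEquiv : CTarget →+* ℂ).comp (L : ℂ →+* CTarget), fun p => ?_⟩
  have h1 : (aeval v p : ℂ) = algebraMap R' ℂ (e p) := rfl
  rw [h1, RingHom.comp_apply]
  have h2 : L (algebraMap R' ℂ (e p)) = algebraMap R' CTarget (e p) := L.commutes (e p)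
  have h3 : algebraMap R' CTarget (e p) = cTargetEquiv.symm (g (e.symm (e p))) := rfl
  rw [AlgHom.coe_toRingHom, h2, h3, AlgEquiv.symm_apply_apply]
  exact cTargetEquiv.apply_symm_apply _

/-- An algebraic irrational complex number is moved by some ring endomorphism of `ℂ`. -/
theorem exists_ringHom_ne_of_isAlgebraic (x : ℂ) (hx : x ∉ Set.range (algebraMap ℚ ℂ))
    (hxa : x ∈ algebraicClosure ℚ ℂ) : ∃ σ : ℂ →+* ℂ, σ x ≠ x := by
  classical
  let A := algebraicClosure ℚ ℂ
  have : IsAlgClosure ℚ A := algebraicClosure.isAlgClosure ℚ ℂ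
  have : IsGalois ℚ A := IsAlgClosure.isGalois ℚ A
  let xA : A := ⟨x, hxa⟩
  have hxA : xA ∉ Set.range (algebraMap ℚ A) := by
    rintro ⟨r, hr⟩
    exact hx ⟨r, by simpa [xA] using congrArg (algebraMap A ℂ) hr⟩
  rw [InfiniteGalois.mem_range_algebraMap_iff_fixed] at hxA
  push Not at hxA
  obtain ⟨f, hf⟩ := hxA
  obtain ⟨ι, v, hv⟩ := exists_isTranscendenceBasis' A ℂ
  let τ : A →+* A := (f : A →+* A)
  let g : MvPolynomial ι A →+* ℂ := ((aeval v : MvPolynomial ι A →ₐ[A] ℂ) : _ →+* ℂ).comp (map τ)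
  have hg : Function.Injective g := by
    have h1 : Function.Injective (map τ : MvPolynomial ι A →+* MvPolynomial ι A) :=
      map_injective τ τ.injective
    have h2 : Function.Injective (aeval v : MvPolynomial ι A →ₐ[A] ℂ) := hv.1
    intro p q hpq
    exact h1 (h2 hpq)
  obtain ⟨σ, hσ⟩ := exists_ringHom_of_transcendenceBasis v hv g hg
  refine ⟨σ, ?_⟩
  have h := hσ (C xA)
  simp only [g, RingHom.comp_apply, map_C, AlgHom.coe_toRingHom, aeval_C] at h
  have h2 : (algebraMap A ℂ) xA = x := rfl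
  rw [h2] at h
  rw [h]
  intro hc
  apply hf
  apply Subtype.ext
  exact hc

/-- A transcendental complex number is moved by some ring endomorphism of `ℂ`. -/
theorem exists_ringHom_ne_of_transcendental (x : ℂ) (hxa : x ∉ algebraicClosure ℚ ℂ) :
    ∃ σ : ℂ →+* ℂ, σ x ≠ x := by
  classical
  let A := algebraicClosure ℚ ℂ
  have hxt : Transcendental ℚ x := fun h => hxa (mem_algebraicClosure_iff.mpr h)
  have hxtA : Transcendental A x := hxt.algebraicClosure
  have hind : AlgebraicIndepOn A id ({x} : Set ℂ) := by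
    have : AlgebraicIndependent A (fun i : ({x} : Set ℂ) => (i : ℂ)) := by
      rw [algebraicIndependent_singleton_iff (⟨x, rfl⟩ : ({x} : Set ℂ))]
      exact hxtA
    exact this
  obtain ⟨t, hxt', hv⟩ := exists_isTranscendenceBasis_superset hind
  let i0 : t := ⟨x, hxt' rfl⟩
  let ψ : MvPolynomial t A →ₐ[A] MvPolynomial t A :=
    aeval (fun i => if i = i0 then X i0 + 1 else X i)
  let ψ' : MvPolynomial t A →ₐ[A] MvPolynomial t A :=
    aeval (fun i => if i = i0 then X i0 - 1 else X i)
  have hψ : ψ'.comp ψ = AlgHom.id A _ := by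
    apply MvPolynomial.algHom_ext
    intro i
    by_cases hi : i = i0
    · subst hi
      simp [ψ, ψ']
    · simp [ψ, ψ', hi]
  have hψinj : Function.Injective ψ := by
    intro p q hpq
    have := congrArg ψ' hpq
    have h1 : ∀ r, ψ' (ψ r) = r := fun r => by
      have := congrArg (fun F : MvPolynomial t A →ₐ[A] MvPolynomial t A => F r) hψ
      simpa using this
    rwa [h1, h1] at this
  let g : MvPolynomial t A →+* ℂ :=
    ((aeval (Subtype.val : t → ℂ) : MvPolynomial t A →ₐ[A] ℂ) : _ →+* ℂ).comp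
      (ψ : MvPolynomial t A →+* MvPolynomial t A)
  have hg : Function.Injective g := by
    have h2 : Function.Injective (aeval (Subtype.val : t → ℂ) : MvPolynomial t A →ₐ[A] ℂ) := hv.1
    intro p q hpq
    exact hψinj (h2 hpq)
  obtain ⟨σ, hσ⟩ := exists_ringHom_of_transcendenceBasis (Subtype.val : t → ℂ) hv g hg
  refine ⟨σ, ?_⟩
  have h := hσ (X i0)
  simp only [g, RingHom.comp_apply, AlgHom.coe_toRingHom, aeval_X, ψ, if_true, map_add,
    map_one] at h
  have h2 : (i0 : ℂ) = x := rfl
  rw [h2] at h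
  rw [h]
  simp

/-- **W1.** A complex number fixed by every ring endomorphism of `ℂ` is rational. -/
theorem mem_range_rat_of_forall_ringHom_fixed (x : ℂ) (h : ∀ σ : ℂ →+* ℂ, σ x = x) :
    x ∈ Set.range (algebraMap ℚ ℂ) := by
  by_contra hx
  by_cases hxa : x ∈ algebraicClosure ℚ ℂ
  · obtain ⟨σ, hσ⟩ := exists_ringHom_ne_of_isAlgebraic x hx hxa
    exact hσ (h σ)
  · obtain ⟨σ, hσ⟩ := exists_ringHom_ne_of_transcendental x hxa
    exact hσ (h σ)

end Fermat.Agent.S23.H548

end
-- ===== PACK-END S23/H548/FixedField.lean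

-- ===== PACK-BEGIN S48/H188/M4aAlg.lean
section


/-!
# S48 / Tower A1, node M4a1 (helper188): the abstract Nakayama step

* `exists_eigen_hom_of_commRing` : a commutative ring `A` acting faithfully on a `ℂ`-space `S`,
  a finitely generated group `G` with a separating, `A`-stable family of period functionals
  `lam γ ∈ Dual S`, and a character `χ : A → F` (`F` a field of characteristic `ℓ > 0`) give a
  nonzero additive `c : G → F` with `∑ᵢ c (wᵢ) = χ x * c γ` whenever
  `lam γ ∘ x = ∑ᵢ lam (wᵢ)`.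
* `exists_eigen_hom_of_per` : the same for `A = Algebra.adjoin ℤ gens` (commuting generators with
  transfer formulas) and a linear injective period map `per : S → Hom(G, ℂ)`.

No characteristic-zero eigenform is needed: only the ring homomorphism `χ`.
-/

set_option autoImplicit false
set_option linter.style.haveILetI false

namespace Fermat.Agent.S48.H188

noncomputable section

section Abstract

variable {S : Type*} [AddCommGroup S] [Module ℂ S]
variable {A : Type*} [CommRing A]

/-- The module structure on `Module.Dual ℂ S` over a commutative ring `A` acting on `S`: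
`x • φ = φ ∘ act x`. -/
@[reducible] def dualModule (act : A →+* Module.End ℂ S) : Module A (Module.Dual ℂ S) where
  smul x φ := φ.comp (act x)
  one_smul φ := by
    show φ.comp (act 1) = φ
    rw [map_one]; rfl
  mul_smul x y φ := by
    show φ.comp (act (x * y)) = (φ.comp (act y)).comp (act x)
    rw [mul_comm x y, map_mul]; rfl
  smul_zero x := by
    show (0 : Module.Dual ℂ S).comp (act x) = 0
    exact LinearMap.zero_comp _
  smul_add x φ ψ := by
    show (φ + ψ).comp (act x) = φ.comp (act x) + ψ.comp (act x)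
    exact LinearMap.add_comp _ _ _
  add_smul x y φ := by
    show φ.comp (act (x + y)) = φ.comp (act x) + φ.comp (act y)
    rw [map_add]; exact LinearMap.comp_add _ _ _
  zero_smul φ := by
    show φ.comp (act 0) = 0
    rw [map_zero]; exact LinearMap.comp_zero _

variable {G : Type*} [AddGroup G]

/-- The period lattice as an `A`-submodule of the dual. -/
def latticeSub (act : A →+* Module.End ℂ S) (lam : G →+ Module.Dual ℂ S)
    (hstab : ∀ (x : A) (γ : G), (lam γ).comp (act x) ∈ lam.range) :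
    letI := dualModule act
    Submodule A (Module.Dual ℂ S) :=
  letI := dualModule act
  { carrier := lam.range
    add_mem' := fun {a b} ha hb => lam.range.add_mem ha hb
    zero_mem' := lam.range.zero_mem
    smul_mem' := fun x φ hφ => by
      obtain ⟨γ, rfl⟩ := hφ
      exact hstab x γ }

/-- **Abstract Nakayama step** (M4a1): a finitely generated group `G` with a separating family of
period functionals `lam γ ∈ Dual S`, a commutative ring `A` acting faithfully on `S` and
preserving the period lattice, and a character `χ : A → F` into a field of characteristic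
`ℓ > 0`.  Then there is a nonzero additive `c : G → F` which is a `χ`-eigenvector for the
transposed action of `A`. -/
theorem exists_eigen_hom_of_commRing (hG : AddGroup.FG G)
    (lam : G →+ Module.Dual ℂ S)
    (hsep : ∀ g : S, (∀ γ, lam γ g = 0) → g = 0)
    (act : A →+* Module.End ℂ S) (hact : Function.Injective act)
    (hstab : ∀ (x : A) (γ : G), (lam γ).comp (act x) ∈ lam.range)
    {F : Type*} [Field F] (ℓ : ℕ) [Fact ℓ.Prime] [CharP F ℓ] (χ : A →+* F) :
    ∃ c : G →+ F, c ≠ 0 ∧ (∀ γ, lam γ = 0 → c γ = 0) ∧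
      ∀ (x : A) (γ : G) (ι : Type) (s : Finset ι) (w : ι → G),
        (lam γ).comp (act x) = ∑ i ∈ s, lam (w i) → ∑ i ∈ s, c (w i) = χ x * c γ := by
  letI := dualModule act
  set Λ : Submodule A (Module.Dual ℂ S) := latticeSub act lam hstab with hΛ
  have hmemΛ : ∀ φ : Module.Dual ℂ S, φ ∈ Λ ↔ φ ∈ lam.range := fun φ => Iff.rfl
  -- `Λ` is finitely generated over `ℤ`
  let toΛ : G →+ Λ :=
    { toFun := fun γ => ⟨lam γ, ⟨γ, rfl⟩⟩
      map_zero' := Subtype.ext (map_zero lam)
      map_add' := fun a b => Subtype.ext (map_add lam a b) }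
  have htoΛ_surj : Function.Surjective toΛ := by
    rintro ⟨φ, γ, rfl⟩
    exact ⟨γ, rfl⟩
  haveI hfinZ : Module.Finite ℤ Λ := by
    rw [Module.Finite.iff_addGroup_fg]
    haveI := hG
    exact AddGroup.fg_of_surjective htoΛ_surj
  haveI hfinA : Module.Finite A Λ := Module.Finite.of_restrictScalars_finite ℤ A Λ
  -- faithfulness
  have hfaith : ∀ x : A, (∀ v : Λ, x • v = 0) → x = 0 := by
    intro x hx
    apply hact
    rw [map_zero]
    refine LinearMap.ext fun g => ?_
    apply hsep
    intro γ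
    have h1 := hx (toΛ γ)
    have h2 : (lam γ).comp (act x) = 0 := congrArg Subtype.val h1
    have h3 := LinearMap.congr_fun h2 g
    simpa using h3
  -- `A` is integral over `ℤ`
  haveI hint : Algebra.IsIntegral ℤ A := by
    refine ⟨fun x => ?_⟩
    obtain ⟨P, hP, hPx⟩ := LinearMap.exists_monic_and_aeval_eq_zero ℤ
      (Algebra.lsmul ℤ ℤ Λ x)
    refine ⟨P, hP, ?_⟩
    rw [← Polynomial.aeval_def]
    apply hfaith
    intro v
    rw [Polynomial.aeval_algHom_apply] at hPx
    have h1 := LinearMap.congr_fun hPx v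
    simpa using h1
  set m : Ideal A := RingHom.ker χ with hm
  haveI hprime : m.IsPrime := RingHom.ker_isPrime χ
  haveI hmax : m.IsMaximal := by
    refine Ideal.isMaximal_of_isIntegral_of_isMaximal_comap (R := ℤ) m ?_
    have hq : ((ℓ : ℤ) : A) ∈ m := by
      rw [hm, RingHom.mem_ker, map_intCast]
      exact_mod_cast CharP.cast_eq_zero F ℓ
    have hne : m.comap (algebraMap ℤ A) ≠ ⊥ := by
      intro h
      have h1 : (ℓ : ℤ) ∈ m.comap (algebraMap ℤ A) := by
        rw [Ideal.mem_comap]
        exact hq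
      rw [h, Ideal.mem_bot] at h1
      exact (Fact.out : ℓ.Prime).ne_zero (by exact_mod_cast h1)
    exact Ideal.IsPrime.isMaximal (Ideal.comap_isPrime _ _) hne
  -- Nakayama
  have hnak : ¬ ((⊤ : Submodule A Λ) ≤ m • ⊤) := by
    intro hle
    obtain ⟨r, hr1, hr0⟩ := Submodule.exists_sub_one_mem_and_smul_eq_zero_of_fg_of_le_smul m
      (⊤ : Submodule A Λ) Module.Finite.fg_top hle
    have h5 : r = 0 := hfaith r fun v => hr0 v trivial
    rw [h5, zero_sub, hm, RingHom.mem_ker, map_neg, map_one, neg_eq_zero] at hr1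
    exact one_ne_zero hr1
  obtain ⟨v, -, hv⟩ := SetLike.not_le_iff_exists.mp hnak
  letI : Field (A ⧸ m) := Ideal.Quotient.field m
  set Q := Λ ⧸ (m • ⊤ : Submodule A Λ) with hQ
  have hv0 : (Submodule.Quotient.mk v : Q) ≠ 0 := by
    rw [Ne, Submodule.Quotient.mk_eq_zero]
    exact hv
  obtain ⟨φ, hφ⟩ : ∃ φ : Module.Dual (A ⧸ m) Q, φ (Submodule.Quotient.mk v) ≠ 0 := by
    by_contra hcon
    have hcon' : ∀ φ : Module.Dual (A ⧸ m) Q, φ (Submodule.Quotient.mk v) = 0 := fun φ =>
      by_contra fun h => hcon ⟨φ, h⟩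
    exact hv0 ((Module.forall_dual_apply_eq_zero_iff (A ⧸ m) _).mp hcon')
  let ψbar : (A ⧸ m) →+* F := RingHom.kerLift χ
  have hψbar : Function.Injective ψbar := RingHom.kerLift_injective χ
  let u : Λ →+ F :=
    ((ψbar : (A ⧸ m) →+ F).comp (φ : Q →+ (A ⧸ m))).comp
      ((Submodule.mkQ (m • ⊤ : Submodule A Λ)) : Λ →+ Q)
  have hu : ∀ (x : A) (y : Λ), u (x • y) = χ x * u y := by
    intro x y
    show ψbar (φ (Submodule.Quotient.mk (x • y))) = χ x * ψbar (φ (Submodule.Quotient.mk y))
    rw [Submodule.Quotient.mk_smul]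
    have h2 : (x • (Submodule.Quotient.mk y : Q))
        = (Ideal.Quotient.mk m x) • (Submodule.Quotient.mk y : Q) := rfl
    rw [h2, map_smul, smul_eq_mul, map_mul]
    rfl
  refine ⟨u.comp toΛ, ?_, ?_, ?_⟩
  · intro h0
    obtain ⟨γ, hγ⟩ := htoΛ_surj v
    have h1 : u v = 0 := by
      rw [← hγ]
      exact DFunLike.congr_fun h0 γ
    have h2 : ψbar (φ (Submodule.Quotient.mk v)) = 0 := h1
    rw [← map_zero ψbar] at h2
    exact hφ (hψbar h2)
  · intro γ hγ
    have h1 : toΛ γ = 0 := Subtype.ext hγ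
    rw [AddMonoidHom.comp_apply, h1, map_zero]
  · intro x γ ι s w hw
    have h1 : x • toΛ γ = ∑ i ∈ s, toΛ (w i) := by
      apply Subtype.ext
      rw [Submodule.coe_sum]
      exact hw
    have h2 := hu x (toΛ γ)
    rw [h1, map_sum] at h2
    exact h2

end Abstract

/-! ### The version for an algebra generated by commuting operators and a period map -/

section Adjoin

variable {S : Type*} [AddCommGroup S] [Module ℂ S] {G : Type*} [AddGroup G]

/-- The period functionals attached to a linear period map. -/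
def perDual (per : S →ₗ[ℂ] (G →+ ℂ)) : G →+ Module.Dual ℂ S where
  toFun γ :=
    { toFun := fun g => per g γ
      map_add' := fun g g' => by rw [map_add]; rfl
      map_smul' := fun a g => by rw [map_smul]; rfl }
  map_zero' := by
    refine LinearMap.ext fun g => ?_
    exact map_zero (per g)
  map_add' γ γ' := by
    refine LinearMap.ext fun g => ?_
    exact map_add (per g) γ γ'

@[simp] theorem perDual_apply (per : S →ₗ[ℂ] (G →+ ℂ)) (γ : G) (g : S) :
    perDual per γ g = per g γ := rfl

/-- Stability of the period lattice under the algebra generated by operators with transfer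
formulas. -/
theorem perDual_comp_mem_range (per : S →ₗ[ℂ] (G →+ ℂ)) (gens : Set (Module.End ℂ S))
    (htr : ∀ t ∈ gens, ∀ γ : G, ∃ (ι : Type) (s : Finset ι) (w : ι → G),
      ∀ g : S, per (t g) γ = ∑ i ∈ s, per g (w i))
    {x : Module.End ℂ S} (hx : x ∈ Algebra.adjoin ℤ gens) (γ : G) :
    (perDual per γ).comp x ∈ (perDual per).range := by
  have key : ∀ φ ∈ (perDual per).range, φ.comp x ∈ (perDual per).range := by
    induction hx using Algebra.adjoin_induction with
    | mem t ht =>
      rintro _ ⟨γ, rfl⟩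
      obtain ⟨ι, s, w, hw⟩ := htr t ht γ
      have h1 : (perDual per γ).comp t = ∑ i ∈ s, perDual per (w i) := by
        refine LinearMap.ext fun g => ?_
        rw [LinearMap.comp_apply, perDual_apply, hw g, LinearMap.sum_apply]
        rfl
      rw [h1]
      exact (perDual per).range.sum_mem fun i _ => ⟨w i, rfl⟩
    | algebraMap r =>
      intro φ hφ
      have h1 : φ.comp (algebraMap ℤ (Module.End ℂ S) r) = r • φ := by
        refine LinearMap.ext fun g => ?_
        rw [LinearMap.comp_apply, LinearMap.smul_apply, Algebra.algebraMap_eq_smul_one,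
          LinearMap.smul_apply, map_zsmul]
        rfl
      rw [h1]
      exact (perDual per).range.zsmul_mem hφ r
    | add y z _ _ hy hz =>
      intro φ hφ
      rw [LinearMap.comp_add]
      exact (perDual per).range.add_mem (hy φ hφ) (hz φ hφ)
    | mul y z _ _ hy hz =>
      intro φ hφ
      have h1 : φ.comp (y * z) = (φ.comp y).comp z := rfl
      rw [h1]
      exact hz _ (hy φ hφ)
  exact key _ ⟨γ, rfl⟩

open scoped IsMulCommutative in
/-- **M4a1, abstract form.**  `per : S → Hom(G, ℂ)` an injective linear period map on a finitely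
generated group, `gens` a set of pairwise commuting operators on `S` each of which has a transfer
formula `per (t g) γ = ∑ᵢ per g (wᵢ)`, and `χ` a ring homomorphism from the `ℤ`-algebra generated
by `gens` to a field of characteristic `ℓ > 0`.  Then there is a nonzero additive `c : G → F`,
vanishing wherever all periods vanish, with `∑ᵢ c (wᵢ) = χ t * c γ` for EVERY transfer formula of
every `t` in the algebra. -/
theorem exists_eigen_hom_of_per (hG : AddGroup.FG G) (per : S →ₗ[ℂ] (G →+ ℂ))
    (hinj : Function.Injective per) (gens : Set (Module.End ℂ S))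
    (hcomm : ∀ x ∈ gens, ∀ y ∈ gens, x * y = y * x)
    (htr : ∀ t ∈ gens, ∀ γ : G, ∃ (ι : Type) (s : Finset ι) (w : ι → G),
      ∀ g : S, per (t g) γ = ∑ i ∈ s, per g (w i))
    {F : Type*} [Field F] (ℓ : ℕ) [Fact ℓ.Prime] [CharP F ℓ]
    (χ : Algebra.adjoin ℤ gens →+* F) :
    ∃ c : G →+ F, c ≠ 0 ∧ (∀ γ : G, (∀ g : S, per g γ = 0) → c γ = 0) ∧
      ∀ (t : Algebra.adjoin ℤ gens) (γ : G) (ι : Type) (s : Finset ι) (w : ι → G),
        (∀ g : S, per ((t : Module.End ℂ S) g) γ = ∑ i ∈ s, per g (w i)) →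
          ∑ i ∈ s, c (w i) = χ t * c γ := by
  haveI := Algebra.isMulCommutative_adjoin ℤ hcomm
  have hsep : ∀ g : S, (∀ γ, perDual per γ g = 0) → g = 0 := by
    intro g hg
    apply hinj
    rw [map_zero]
    exact AddMonoidHom.ext fun γ => hg γ
  obtain ⟨c, hc0, hcker, hceig⟩ := exists_eigen_hom_of_commRing (A := Algebra.adjoin ℤ gens) hG
    (perDual per) hsep (Algebra.adjoin ℤ gens).val.toRingHom Subtype.val_injective
    (fun x γ => perDual_comp_mem_range per gens htr x.2 γ) ℓ χ
  refine ⟨c, hc0, fun γ hγ => hcker γ (LinearMap.ext fun g => hγ g), ?_⟩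
  intro t γ ι s w hw
  refine hceig t γ ι s w ?_
  refine LinearMap.ext fun g => ?_
  rw [LinearMap.sum_apply]
  exact hw g

end Adjoin


end

end Fermat.Agent.S48.H188

end
-- ===== PACK-END S48/H188/M4aAlg.lean

-- ===== PACK-BEGIN S48/H428/NormRep.lean
section


/-!
# S48 / RES (Tower A1) — NORMID1, part 4: coset representatives (helper428)

For `gcd(M, p) = 1` and every residue `b` there is `h ∈ Γ₁(M)` with
`diag(p,1) · h = δ · [[1,b],[0,p]]`, `δ ∈ Γ₀(M)`, `δ₀₀ ≡ p` mod `M`.
-/

set_option autoImplicit false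

open scoped MatrixGroups

namespace Fermat.Agent.S48.H428

open CongruenceSubgroup

theorem exists_rep1 {M p : ℕ} (hcop : Nat.Coprime M p) (b : ℤ) :
    ∃ h δ : SL(2, ℤ), h ∈ Gamma1 M ∧ δ ∈ Gamma0 M ∧
      ((δ 0 0 : ℤ) : ZMod M) = (p : ZMod M) ∧
      (p : ℤ) * h 0 0 = δ 0 0 * (1 : ℕ) ∧
      (p : ℤ) * h 0 1 = δ 0 0 * b + δ 0 1 * p ∧
      h 1 0 = δ 1 0 * (1 : ℕ) ∧ h 1 1 = δ 1 0 * b + δ 1 1 * p := by
  have hc : IsCoprime (M : ℤ) (p : ℤ) := Nat.isCoprime_iff_coprime.mpr hcop
  obtain ⟨u, v, huv⟩ := hc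
  -- `w = v p + M b ≡ 1` mod `M`
  set w : ℤ := v * p + M * b with hw
  have hwM : IsCoprime w (M : ℤ) := by
    refine ⟨1, u - b, ?_⟩
    rw [hw]
    linear_combination huv
  obtain ⟨s, t, hst⟩ := hwM
  have hdet : (!![s, -t; (M : ℤ), w] : Matrix (Fin 2) (Fin 2) ℤ).det = 1 := by
    rw [Matrix.det_fin_two_of]
    linear_combination hst
  have hdet' : (!![(p : ℤ) * s, -t - b * s; (M : ℤ), v] : Matrix (Fin 2) (Fin 2) ℤ).det = 1 := by
    rw [Matrix.det_fin_two_of]
    rw [hw] at hst
    linear_combination hst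
  let h : SL(2, ℤ) := ⟨!![s, -t; (M : ℤ), w], hdet⟩
  let δ : SL(2, ℤ) := ⟨!![(p : ℤ) * s, -t - b * s; (M : ℤ), v], hdet'⟩
  have h00 : h 0 0 = s := by simp [h]
  have h01 : h 0 1 = -t := by simp [h]
  have h10 : h 1 0 = (M : ℤ) := by simp [h]
  have h11 : h 1 1 = w := by simp [h]
  have d00 : δ 0 0 = (p : ℤ) * s := by simp [δ]
  have d01 : δ 0 1 = -t - b * s := by simp [δ]
  have d10 : δ 1 0 = (M : ℤ) := by simp [δ]
  have d11 : δ 1 1 = v := by simp [δ]
  have hwM1 : ((w : ℤ) : ZMod M) = 1 := by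
    have e : w = 1 + (M : ℤ) * (b - u) := by rw [hw]; linear_combination huv
    rw [e]
    push_cast
    simp
  have hsM1 : ((s : ℤ) : ZMod M) = 1 := by
    have e := congrArg (fun z : ℤ => (z : ZMod M)) hst
    simp only [Int.cast_add, Int.cast_mul, Int.cast_natCast, Int.cast_one] at e
    rw [hwM1, mul_one] at e
    simpa using e
  refine ⟨h, δ, ?_, ?_, ?_, ?_, ?_, ?_, ?_⟩
  · rw [Gamma1_mem, h00, h11, h10]
    exact ⟨hsM1, hwM1, by simp⟩
  · rw [Gamma0_mem, d10]
    simp
  · rw [d00]
    push_cast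
    rw [hsM1, mul_one]
  · rw [h00, d00]; push_cast; ring
  · rw [h01, d00, d01]; ring
  · rw [h10, d10]; push_cast; ring
  · rw [h11, d10, d11, hw]; ring

end Fermat.Agent.S48.H428

end
-- ===== PACK-END S48/H428/NormRep.lean

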