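import Mathlib
import Fermat.Prelude.Def_ModularCurve_LaurentCoeff
import Fermat.Prelude.Def_GaloisRep_Residual
import Fermat.Prelude.Def_ModularCurve_X0
import Fermat.Agent.Pack.S44C.G0E2L3
import Fermat.Agent.Pack.S44C.G0E0L3
import Fermat.Agent.Pack.S44C.G0E2L0
import Fermat.Agent.Pack.S44C.G0E0L0
import Fermat.Agent.Pack.L1.E10L0

-- ===== PACK-BEGIN S48/H588/StepBasic.lean
section



/-!
# Tower A1 (S48 / RES): one step of the tower of good models — basic transport lemmas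

`ι : Ω →+* Ω'` is a field embedding (`Ω = F·Q̄`, `Ω' = F'·Q̄`).  We transport the sub-objects of a
`Fermat.Agent.S18.Alg.GoodModel` in `Ω` to `Ω'`.
-/

set_option autoImplicit false

namespace Fermat.Agent.S48.H588

open Fermat.Agent.S18.Alg Polynomial

variable {Ω Ω' : Type*} [Field Ω] [Field Ω'] (ι : Ω →+* Ω')

theorem polyRing_map (R : Subring Ω) (x : Ω) :
    (polyRing R x).map ι = polyRing (R.map ι) (ι x) := by
  unfold polyRing
  rw [RingHom.map_closure]
  congr 1
  ext z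
  simp only [Set.mem_image, Set.mem_union, SetLike.mem_coe, Set.mem_singleton_iff,
    Subring.mem_map]
  constructor
  · rintro ⟨a, ha | ha, rfl⟩
    · exact Or.inl ⟨a, ha, rfl⟩
    · exact Or.inr (by rw [ha])
  · rintro (⟨a, ha, rfl⟩ | rfl)
    · exact ⟨a, Or.inl ha, rfl⟩
    · exact ⟨x, Or.inr rfl, rfl⟩

theorem ratField_map (Ec : Subfield Ω) (x : Ω) :
    (ratField Ec x).map ι = ratField (Ec.map ι) (ι x) := by
  unfold ratField
  rw [RingHom.map_field_closure]
  congr 1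
  ext z
  simp only [Set.mem_image, Set.mem_union, SetLike.mem_coe, Set.mem_singleton_iff,
    Subfield.mem_map]
  constructor
  · rintro ⟨a, ha | ha, rfl⟩
    · exact Or.inl ⟨a, ha, rfl⟩
    · exact Or.inr (by rw [ha])
  · rintro (⟨a, ha, rfl⟩ | rfl)
    · exact ⟨a, Or.inl ha, rfl⟩
    · exact ⟨x, Or.inr rfl, rfl⟩

/-- Integrality over a subring is preserved by a ring homomorphism. -/
theorem isIntegral_map_of_isIntegral {P : Subring Ω} {b : Ω} (hb : IsIntegral P b) :
    IsIntegral (P.map ι) (ι b) := by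
  obtain ⟨p, hp, hpb⟩ := hb
  let φ : P →+* P.map ι :=
    { toFun := fun a => ⟨ι a, Subring.mem_map.mpr ⟨a, a.2, rfl⟩⟩
      map_one' := by ext; simp
      map_mul' := fun a b => by ext; simp
      map_zero' := by ext; simp
      map_add' := fun a b => by ext; simp }
  refine ⟨p.map φ, hp.map φ, ?_⟩
  have h1 : (algebraMap (P.map ι) Ω').comp φ = ι.comp (algebraMap P Ω) := by
    ext a; rfl
  rw [eval₂_map, h1, ← hom_eval₂, hpb, map_zero]

/-- Integrality over a subring is reflected by an (injective) field homomorphism. -/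
theorem isIntegral_of_isIntegral_map {P : Subring Ω} {b : Ω}
    (hb : IsIntegral (P.map ι) (ι b)) : IsIntegral P b := by
  obtain ⟨p, hp, hpb⟩ := hb
  have hsurj : ∀ c : P.map ι, ∃ a : P, ι a = c := fun c => by
    obtain ⟨a, ha, h⟩ := Subring.mem_map.mp c.2
    exact ⟨⟨a, ha⟩, h⟩
  choose s hs using hsurj
  -- lift the polynomial coefficientwise
  let q : Polynomial P := ∑ i ∈ Finset.range (p.natDegree), monomial i (s (p.coeff i))
    + monomial p.natDegree 1
  have hqdeg : (∑ i ∈ Finset.range (p.natDegree), monomial i (s (p.coeff i))).degree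
      < p.natDegree := by
    refine (degree_sum_le _ _).trans_lt ?_
    rw [Finset.sup_lt_iff (WithBot.bot_lt_coe _)]
    intro i hi
    refine (degree_monomial_le _ _).trans_lt ?_
    exact_mod_cast Finset.mem_range.mp hi
  have hq : q.Monic := by
    have : q = monomial p.natDegree 1 +
        ∑ i ∈ Finset.range (p.natDegree), monomial i (s (p.coeff i)) := add_comm _ _
    rw [this, ← X_pow_eq_monomial]
    exact monic_X_pow_add hqdeg
  refine ⟨q, hq, ?_⟩
  apply ι.injective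
  rw [map_zero, hom_eval₂]
  have key : eval₂ (ι.comp (algebraMap P Ω)) (ι b) q = eval₂ (algebraMap (P.map ι) Ω') (ι b) p := by
    conv_rhs => rw [hp.as_sum]
    simp only [q, eval₂_add, eval₂_finsetSum, eval₂_monomial, eval₂_mul, eval₂_C, eval₂_X_pow,
      map_one, one_mul]
    rw [add_comm]
    congr 1
    refine Finset.sum_congr rfl (fun i _ => ?_)
    congr 1
    exact hs (p.coeff i)
  rw [key, hpb]

theorem chart_map {Fc : Subfield Ω} {R : Subring Ω} {x b : Ω} (hb : b ∈ chart Fc R x) :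
    ι b ∈ chart (Fc.map ι) (R.map ι) (ι x) := by
  refine ⟨Subfield.mem_map.mpr ⟨b, hb.1, rfl⟩, ?_⟩
  rw [← polyRing_map]
  exact isIntegral_map_of_isIntegral ι hb.2

theorem mem_chart_of_map {Fc : Subfield Ω} {R : Subring Ω} {x b : Ω} (hbF : b ∈ Fc)
    (hb : IsIntegral (polyRing (R.map ι) (ι x)) (ι b)) : b ∈ chart Fc R x := by
  refine ⟨hbF, ?_⟩
  rw [← polyRing_map] at hb
  exact isIntegral_of_isIntegral_map ι hb

end Fermat.Agent.S48.H588

end
-- ===== PACK-END S48/H588/StepBasic.lean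

-- ===== PACK-BEGIN S48/H248/IVBasic.lean
section



/-!
# S48 / RES (Tower A1) / node IGUSA1, piece I-V (helper248) — part 1: the Gauss valuation ring

GENERIC in the field.  `K` a field (`Q̄`), `A` a valuation subring of `K`, `E` a subfield of `K`,
`Ω` a field with a ring hom `ι : Ω →+* K((X))` (`Ω = K((X))`, `ι = id`, or `Ω` a subfield of
`K((X))`, `ι` the inclusion), `F` a subfield of `Ω`.

* `IsInt A E ι F U`  : `U ∈ A((X))` has coefficients in `E` and is (the expansion of) an element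
                        of `F`  (same shape as `S18.Mod.IsIntE`);
* `VSet A E ι F`     : quotients `U₁/U₂` of such series with `U₂ ≢ 0` modulo the maximal ideal of
                        `A`  (same shape as `S18.Mod.VcSet`);
* `VRing`            : `VSet` is a subring;
* `R_le_V`, `w_inv_not_mem_V`, `VSet_mono`.

`inc = coeffMap A.subtype`, `red = coeffMap (residue A)`.
-/

set_option autoImplicit false

noncomputable section

namespace Fermat.Agent.S48.H248

open HahnSeries ModularCurve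

variable {K : Type*} [Field K] (A : ValuationSubring K) (E : Subfield K)
variable {Ω : Type*} [Field Ω] (ι : Ω →+* LaurentSeries K) (F : Subfield Ω)

/-- `A((X)) → K((X))`. -/
abbrev ivInc : LaurentSeries A →+* LaurentSeries K := coeffMap A.subtype

/-- `A((X)) → κ((X))`. -/
abbrev ivRed : LaurentSeries A →+* LaurentSeries (IsLocalRing.ResidueField A) :=
  coeffMap (IsLocalRing.residue A)

variable {A} in
theorem ivInc_injective : Function.Injective (ivInc A) := by
  intro x y hxy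
  ext k
  have := congrArg (fun z => z.coeff k) hxy
  simpa using this

variable {A} in
theorem ivInc_coeff (U : LaurentSeries A) (n : ℤ) : (ivInc A U).coeff n = (U.coeff n : K) := by
  rw [coeffMap_coeff]; rfl

variable {A} in
theorem ivRed_coeff (U : LaurentSeries A) (n : ℤ) :
    (ivRed A U).coeff n = IsLocalRing.residue A (U.coeff n) := by
  rw [coeffMap_coeff]

variable {A} in
/-- A series over `K` with coefficients in `A` comes from `A((X))`. -/
theorem exists_ivInc_eq {g : LaurentSeries K} (hg : ∀ n, g.coeff n ∈ A) :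
    ∃ U : LaurentSeries A, ivInc A U = g := by
  have hsupp : (Function.support fun n => (⟨g.coeff n, hg n⟩ : A)) = g.support := by
    ext n
    simp only [Function.mem_support, HahnSeries.mem_support, ne_eq]
    constructor
    · intro h h0
      exact h (Subtype.ext h0)
    · intro h h0
      exact h (congrArg Subtype.val h0)
  refine ⟨⟨fun n => ⟨g.coeff n, hg n⟩, ?_⟩, ?_⟩
  · rw [hsupp]; exact g.isPWO_support
  · ext n
    rw [ivInc_coeff]

variable {A} in
theorem ivRed_eq_zero_iff (U : LaurentSeries A) :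
    ivRed A U = 0 ↔ ∀ n, U.coeff n ∈ IsLocalRing.maximalIdeal A := by
  constructor
  · intro h n
    have := congrArg (fun z => z.coeff n) h
    simp only [ivRed_coeff, HahnSeries.coeff_zero] at this
    exact (IsLocalRing.residue_eq_zero_iff _).mp this
  · intro h
    ext n
    rw [ivRed_coeff, HahnSeries.coeff_zero]
    exact (IsLocalRing.residue_eq_zero_iff _).mpr (h n)

variable {A} in
/-- an element of `A` is in the maximal ideal iff it is `0` or its inverse is not in `A`. -/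
theorem iv_mem_maximalIdeal_iff (c : A) :
    c ∈ IsLocalRing.maximalIdeal A ↔ (c : K) = 0 ∨ (c : K)⁻¹ ∉ A := by
  rw [IsLocalRing.mem_maximalIdeal, mem_nonunits_iff]
  constructor
  · intro h
    by_contra hcon
    rw [not_or, not_not] at hcon
    apply h
    exact isUnit_iff_exists_inv.mpr ⟨⟨(c : K)⁻¹, hcon.2⟩, Subtype.ext (by
      show (c : K) * (c : K)⁻¹ = 1
      exact mul_inv_cancel₀ hcon.1)⟩
  · rintro (h | h) hu
    · have : c = 0 := Subtype.ext h
      rw [this] at hu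
      exact not_isUnit_zero hu
    · obtain ⟨d, hd⟩ := isUnit_iff_exists_inv.mp hu
      apply h
      have h1 : (c : K) * (d : K) = 1 := congrArg Subtype.val hd
      have : (c : K)⁻¹ = d := inv_eq_of_mul_eq_one_right h1
      rw [this]; exact d.2

variable {A} in
theorem ivRed_ne_zero_imp_ivInc_ne_zero {U : LaurentSeries A} (h : ivRed A U ≠ 0) :
    ivInc A U ≠ 0 := by
  intro h0
  apply h
  have : U = 0 := ivInc_injective (by rw [h0, map_zero])
  rw [this, map_zero]

theorem ivInc_C (c : A) : ivInc A (HahnSeries.C c) = HahnSeries.C (c : K) := by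
  ext n
  rw [ivInc_coeff]
  by_cases hn : n = 0
  · subst hn
    simp [HahnSeries.C_apply]
  · rw [HahnSeries.C_apply, HahnSeries.C_apply, HahnSeries.coeff_single_of_ne hn,
      HahnSeries.coeff_single_of_ne hn]
    rfl

theorem ivRed_C (c : A) : ivRed A (HahnSeries.C c) = HahnSeries.C (IsLocalRing.residue A c) := by
  ext n
  rw [ivRed_coeff]
  by_cases hn : n = 0
  · subst hn
    simp [HahnSeries.C_apply]
  · rw [HahnSeries.C_apply, HahnSeries.C_apply, HahnSeries.coeff_single_of_ne hn,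
      HahnSeries.coeff_single_of_ne hn, map_zero]

/-! ### Integral series -/

/-- `U ∈ A((X))` is `E`-rational and is the expansion of an element of `F`. -/
def IsInt (U : LaurentSeries A) : Prop :=
  (∀ n : ℤ, ((U.coeff n : A) : K) ∈ E) ∧ ∃ f ∈ F, ι f = ivInc A U

variable {A E ι F}

theorem IsInt.mono {F' : Subfield Ω} (hF : F ≤ F') {U : LaurentSeries A}
    (h : IsInt A E ι F U) : IsInt A E ι F' U :=
  ⟨h.1, let ⟨f, hf, hfU⟩ := h.2; ⟨f, hF hf, hfU⟩⟩

theorem isInt_zero : IsInt A E ι F 0 :=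
  ⟨fun n => by simp, 0, zero_mem _, by simp⟩

theorem isInt_one : IsInt A E ι F 1 := by
  refine ⟨fun n => ?_, 1, one_mem _, by simp⟩
  rw [HahnSeries.coeff_one]
  split_ifs
  · exact E.one_mem
  · exact E.zero_mem

theorem IsInt.add {U U' : LaurentSeries A} (h : IsInt A E ι F U) (h' : IsInt A E ι F U') :
    IsInt A E ι F (U + U') := by
  obtain ⟨f, hf, hfU⟩ := h.2
  obtain ⟨f', hf', hfU'⟩ := h'.2
  refine ⟨fun n => ?_, f + f', add_mem hf hf', by rw [map_add, map_add, hfU, hfU']⟩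
  rw [HahnSeries.coeff_add]
  exact E.add_mem (h.1 n) (h'.1 n)

theorem IsInt.neg {U : LaurentSeries A} (h : IsInt A E ι F U) : IsInt A E ι F (-U) := by
  obtain ⟨f, hf, hfU⟩ := h.2
  refine ⟨fun n => ?_, -f, neg_mem hf, by rw [map_neg, map_neg, hfU]⟩
  rw [HahnSeries.coeff_neg]
  exact E.neg_mem (h.1 n)

/-- the coefficients of `ι f` lie in `E` when `ι f = inc U` with `U` integral. -/
theorem IsInt.coeff_mem {U : LaurentSeries A} (h : IsInt A E ι F U) (n : ℤ) :
    (ivInc A U).coeff n ∈ E := by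
  rw [ivInc_coeff]; exact h.1 n

theorem IsInt.mul {U U' : LaurentSeries A} (h : IsInt A E ι F U) (h' : IsInt A E ι F U') :
    IsInt A E ι F (U * U') := by
  obtain ⟨f, hf, hfU⟩ := h.2
  obtain ⟨f', hf', hfU'⟩ := h'.2
  refine ⟨fun n => ?_, f * f', mul_mem hf hf', by rw [map_mul, map_mul, hfU, hfU']⟩
  have hc : ((U * U').coeff n : K) = (ivInc A (U * U')).coeff n := (ivInc_coeff _ n).symm
  rw [hc, map_mul, HahnSeries.coeff_mul]
  refine E.sum_mem fun ij _ => E.mul_mem ?_ ?_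
  · exact h.coeff_mem ij.1
  · exact h'.coeff_mem ij.2

theorem IsInt.pow {U : LaurentSeries A} (h : IsInt A E ι F U) (n : ℕ) :
    IsInt A E ι F (U ^ n) := by
  induction n with
  | zero => rw [pow_zero]; exact isInt_one
  | succ n ih => rw [pow_succ]; exact IsInt.mul ih h

/-- From an element of `F` whose expansion has coefficients in `A ∩ E`. -/
theorem exists_isInt_of_coeff_mem {f : Ω} (hf : f ∈ F) (hA : ∀ n, (ι f).coeff n ∈ A)
    (hE : ∀ n, (ι f).coeff n ∈ E) : ∃ U : LaurentSeries A, IsInt A E ι F U ∧ ι f = ivInc A U := by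
  obtain ⟨U, hU⟩ := exists_ivInc_eq hA
  refine ⟨U, ⟨fun n => ?_, f, hf, hU.symm⟩, hU.symm⟩
  rw [← ivInc_coeff, hU]
  exact hE n

/-! ### Constants -/

section Constants

variable (cst : K →+* Ω) (hcst : ∀ c : K, ι (cst c) = HahnSeries.C c)
  (hEF : ∀ c ∈ E, cst c ∈ F)

include hcst hEF

/-- A constant `c ∈ A ∩ E` as an integral series. -/
theorem isInt_C {c : A} (hc : (c : K) ∈ E) : IsInt A E ι F (HahnSeries.C c) := by
  refine ⟨fun n => ?_, cst (c : K), hEF _ hc, by rw [hcst, ivInc_C]⟩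
  by_cases hn : n = 0
  · subst hn
    simpa [HahnSeries.C_apply] using hc
  · rw [HahnSeries.C_apply, HahnSeries.coeff_single_of_ne hn]
    exact E.zero_mem

end Constants

/-! ### The Gauss valuation ring -/

variable (A E ι F) in
/-- The Gauss valuation ring of `F`, as a set (same shape as `S18.Mod.VcSet`). -/
def VSet : Set Ω :=
  {f | f ∈ F ∧ ∃ U₁ U₂ : LaurentSeries A, IsInt A E ι F U₁ ∧ IsInt A E ι F U₂ ∧
    ivRed A U₂ ≠ 0 ∧ ι f * ivInc A U₂ = ivInc A U₁}

theorem mem_VSet_iff {f : Ω} :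
    f ∈ VSet A E ι F ↔ f ∈ F ∧ ∃ U₁ U₂ : LaurentSeries A, IsInt A E ι F U₁ ∧
      IsInt A E ι F U₂ ∧ ivRed A U₂ ≠ 0 ∧ ι f * ivInc A U₂ = ivInc A U₁ := Iff.rfl

/-- An integral series defines an element of `V`. -/
theorem mem_VSet_of_isInt {f : Ω} {U : LaurentSeries A} (hU : IsInt A E ι F U)
    (hf : ι f = ivInc A U) : f ∈ VSet A E ι F := by
  obtain ⟨g, hg, hgU⟩ := hU.2
  have hfg : f = g := ι.injective (by rw [hf, hgU])
  refine ⟨hfg ▸ hg, U, 1, hU, isInt_one, ?_, ?_⟩
  · rw [map_one]; exact one_ne_zero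
  · rw [map_one, mul_one, hf]

variable (A E ι F) in
/-- The Gauss valuation ring `V` of `F`, as a subring of `Ω`. -/
def VRing : Subring Ω where
  carrier := VSet A E ι F
  zero_mem' := mem_VSet_of_isInt isInt_zero (by simp)
  one_mem' := mem_VSet_of_isInt isInt_one (by simp)
  add_mem' := by
    rintro f g ⟨hf, U₁, U₂, h₁, h₂, hr, hfU⟩ ⟨hg, W₁, W₂, k₁, k₂, kr, hgW⟩
    refine ⟨add_mem hf hg, U₁ * W₂ + W₁ * U₂, U₂ * W₂,
      IsInt.add (IsInt.mul h₁ k₂) (IsInt.mul k₁ h₂), IsInt.mul h₂ k₂, ?_, ?_⟩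
    · rw [map_mul]; exact mul_ne_zero hr kr
    · rw [map_add, map_mul, map_add, map_mul, map_mul, ← hfU, ← hgW]
      ring
  mul_mem' := by
    rintro f g ⟨hf, U₁, U₂, h₁, h₂, hr, hfU⟩ ⟨hg, W₁, W₂, k₁, k₂, kr, hgW⟩
    refine ⟨mul_mem hf hg, U₁ * W₁, U₂ * W₂, IsInt.mul h₁ k₁, IsInt.mul h₂ k₂, ?_, ?_⟩
    · rw [map_mul]; exact mul_ne_zero hr kr
    · rw [map_mul, map_mul, map_mul, ← hfU, ← hgW]
      ring
  neg_mem' := by
    rintro f ⟨hf, U₁, U₂, h₁, h₂, hr, hfU⟩
    refine ⟨neg_mem hf, -U₁, U₂, IsInt.neg h₁, h₂, hr, ?_⟩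
    rw [map_neg, map_neg, ← hfU]
    ring

variable (A E ι F) in
theorem coe_VRing : (VRing A E ι F : Set Ω) = VSet A E ι F := rfl

theorem mem_VRing_iff {f : Ω} : f ∈ VRing A E ι F ↔ f ∈ VSet A E ι F := Iff.rfl

variable (A E ι F) in
/-- field `V_le` of `GoodModel`. -/
theorem VRing_le : (VRing A E ι F : Set Ω) ⊆ F := fun _ hf => hf.1

/-- `V` is monotone in the field. -/
theorem VRing_mono {F' : Subfield Ω} (hF : F ≤ F') : VRing A E ι F ≤ VRing A E ι F' := by
  rintro f ⟨hf, U₁, U₂, h₁, h₂, hr, hfU⟩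
  exact ⟨hF hf, U₁, U₂, h₁.mono hF, h₂.mono hF, hr, hfU⟩

section Constants

variable (cst : K →+* Ω) (hcst : ∀ c : K, ι (cst c) = HahnSeries.C c)
  (hEF : ∀ c ∈ E, cst c ∈ F)

variable (A E) in
/-- The constants from `A ∩ E`, as a subring of `Ω`. -/
def RcG : Subring Ω := (A.toSubring ⊓ E.toSubring).map cst

variable (E) in
/-- The constants from `E`, as a subfield of `Ω`. -/
def EcG : Subfield Ω := E.map cst

theorem mem_RcG_iff {y : Ω} : y ∈ RcG A E cst ↔ ∃ c : K, c ∈ A ∧ c ∈ E ∧ cst c = y := by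
  unfold RcG
  rw [Subring.mem_map]
  constructor
  · rintro ⟨c, ⟨hA, hE⟩, rfl⟩
    exact ⟨c, hA, hE, rfl⟩
  · rintro ⟨c, hA, hE, rfl⟩
    exact ⟨c, ⟨hA, hE⟩, rfl⟩

theorem mem_EcG_iff {y : Ω} : y ∈ EcG E cst ↔ ∃ c : K, c ∈ E ∧ cst c = y := by
  unfold EcG
  rw [Subfield.mem_map]

theorem RcG_le_EcG : ∀ r ∈ RcG A E cst, r ∈ EcG E cst := by
  intro r hr
  obtain ⟨c, -, hE, rfl⟩ := (mem_RcG_iff cst).mp hr
  exact (mem_EcG_iff cst).mpr ⟨c, hE, rfl⟩

include hcst hEF in
/-- field `R_le_V`. -/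
theorem RcG_le_VRing : RcG A E cst ≤ VRing A E ι F := by
  intro r hr
  obtain ⟨c, hcA, hcE, rfl⟩ := (mem_RcG_iff cst).mp hr
  refine mem_VSet_of_isInt (U := HahnSeries.C (⟨c, hcA⟩ : A)) (isInt_C cst hcst hEF hcE) ?_
  rw [hcst, ivInc_C]

include hcst in
/-- field `w_inv_not_mem_V`: a non-unit `w₀ ≠ 0` of `A` is not invertible in `V`. -/
theorem w_inv_not_mem_VRing {w₀ : K} (hw0 : w₀ ≠ 0) (hwn : w₀⁻¹ ∉ A) :
    (cst w₀)⁻¹ ∉ VRing A E ι F := by
  rintro ⟨-, U₁, U₂, -, -, hr, hU⟩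
  apply hr
  rw [ivRed_eq_zero_iff]
  intro n
  rw [iv_mem_maximalIdeal_iff]
  have hval : ι ((cst w₀)⁻¹) = HahnSeries.C (w₀⁻¹) := by
    rw [← map_inv₀, hcst]
  rw [hval] at hU
  have hn := congrArg (fun z => z.coeff n) hU
  simp only [HahnSeries.C_mul_eq_smul, HahnSeries.coeff_smul, ivInc_coeff, smul_eq_mul] at hn
  by_cases h0 : ((U₂.coeff n : A) : K) = 0
  · exact Or.inl h0
  · right
    intro hinv
    apply hwn
    have : w₀⁻¹ = (U₁.coeff n : K) * ((U₂.coeff n : A) : K)⁻¹ := by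
      rw [← hn]; field_simp
    rw [this]
    exact A.mul_mem _ _ (U₁.coeff n).2 hinv

end Constants

end Fermat.Agent.S48.H248

end
end
-- ===== PACK-END S48/H248/IVBasic.lean

-- ===== PACK-BEGIN S48/H248/IVNormal.lean
section


/-!
# S48 / RES (Tower A1) / node IGUSA1, piece I-V (helper248) — part 2: normal form

For a uniformiser `w₀` of the discrete valuation ring `A ∩ E` (`IsUnifG`):

* `exists_normalise`   : a nonzero integral series is `w₀ ^ k` times an integral series with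
                          nonzero reduction;
* `IsRatio`            : `f` is a quotient of two integral series (no condition on reductions);
  `isRatio_of_mem_closure` : every element of a field generated over `E` by quotients of integral
                          series is such a quotient;
* `V_discrete`, `V_total`, `V_gen`, `VRing_inf` (`V_{F'} ∩ F = V_F`).
-/

set_option autoImplicit false

noncomputable section

namespace Fermat.Agent.S48.H248

open HahnSeries ModularCurve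

variable {K : Type*} [Field K] {A : ValuationSubring K} {E : Subfield K}
variable {Ω : Type*} [Field Ω] {ι : Ω →+* LaurentSeries K} {F : Subfield Ω}

/-- `w₀` is a uniformiser of the discrete valuation ring `A ∩ E`. -/
structure IsUnifG (A : ValuationSubring K) (E : Subfield K) (w₀ : K) : Prop where
  mem_A : w₀ ∈ A
  mem_E : w₀ ∈ E
  ne_zero : w₀ ≠ 0
  inv_not_mem : w₀⁻¹ ∉ A
  discrete : ∀ c, c ∈ A → c ∈ E → c ≠ 0 →
    ∃ n : ℕ, c * (w₀⁻¹) ^ n ∈ A ∧ (c * (w₀⁻¹) ^ n)⁻¹ ∈ A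

theorem IsUnifG.gen {w₀ : K} (hw : IsUnifG A E w₀) (c : K) (hcA : c ∈ A) (hcE : c ∈ E)
    (hinv : c⁻¹ ∉ A) : c * w₀⁻¹ ∈ A := by
  by_cases hc0 : c = 0
  · rw [hc0, zero_mul]; exact A.zero_mem
  obtain ⟨n, h1, h2⟩ := hw.discrete c hcA hcE hc0
  cases n with
  | zero =>
    exfalso
    apply hinv
    simpa using h2
  | succ n =>
    have : c * w₀⁻¹ = c * (w₀⁻¹) ^ (n + 1) * w₀ ^ n := by
      rw [pow_succ, inv_pow]
      field_simp [hw.ne_zero]
    rw [this]
    exact A.mul_mem _ _ h1 (pow_mem hw.mem_A n)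

section Constants

variable (cst : K →+* Ω) (hcst : ∀ c : K, ι (cst c) = HahnSeries.C c)
  (hEF : ∀ c ∈ E, cst c ∈ F)

include hcst hEF

/-- Dividing an integral series with zero reduction by the uniformiser. -/
theorem exists_div_unifG {w₀ : K} (hw : IsUnifG A E w₀) {U : LaurentSeries A}
    (hU : IsInt A E ι F U) (hred : ivRed A U = 0) :
    ∃ U' : LaurentSeries A, IsInt A E ι F U' ∧ ivInc A U = HahnSeries.C w₀ * ivInc A U' := by
  have hcoef : ∀ n, (HahnSeries.C (w₀⁻¹) * ivInc A U).coeff n ∈ A := by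
    intro n
    rw [HahnSeries.C_mul_eq_smul, HahnSeries.coeff_smul, ivInc_coeff, smul_eq_mul, mul_comm]
    have hm := (ivRed_eq_zero_iff U).mp hred n
    rcases (iv_mem_maximalIdeal_iff _).mp hm with h0 | hni
    · rw [h0, zero_mul]; exact A.zero_mem
    · exact hw.gen _ (U.coeff n).2 (hU.1 n) hni
  obtain ⟨U', hU'⟩ := exists_ivInc_eq hcoef
  obtain ⟨f, hf, hfU⟩ := hU.2
  refine ⟨U', ⟨fun n => ?_, (cst w₀)⁻¹ * f, ?_, ?_⟩, ?_⟩
  · rw [← ivInc_coeff, hU', HahnSeries.C_mul_eq_smul, HahnSeries.coeff_smul, smul_eq_mul]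
    exact E.mul_mem (E.inv_mem hw.mem_E) (hU.coeff_mem n)
  · exact mul_mem (inv_mem (hEF _ hw.mem_E)) hf
  · rw [map_mul, map_inv₀, hcst, hfU, hU', ← map_inv₀]
  · rw [hU', ← mul_assoc, ← map_mul, mul_inv_cancel₀ hw.ne_zero, map_one, one_mul]

/-- Auxiliary induction for `exists_normalise`. -/
theorem exists_normalise_aux {w₀ : K} (hw : IsUnifG A E w₀) (m : ℕ) :
    ∀ U : LaurentSeries A, IsInt A E ι F U →
      (∃ n₀ : ℤ, ((U.coeff n₀ : A) : K) * (w₀⁻¹) ^ m ∈ A ∧
        (((U.coeff n₀ : A) : K) * (w₀⁻¹) ^ m)⁻¹ ∈ A ∧ ((U.coeff n₀ : A) : K) ≠ 0) →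
      ∃ (k : ℕ) (U' : LaurentSeries A), IsInt A E ι F U' ∧ ivRed A U' ≠ 0 ∧
        ivInc A U = HahnSeries.C w₀ ^ k * ivInc A U' := by
  induction m with
  | zero =>
    rintro U hU ⟨n₀, -, h2, h3⟩
    refine ⟨0, U, hU, ?_, by rw [pow_zero, one_mul]⟩
    intro hred
    have hm := (ivRed_eq_zero_iff U).mp hred n₀
    rcases (iv_mem_maximalIdeal_iff _).mp hm with h0 | hni
    · exact h3 h0
    · apply hni
      simpa using h2
  | succ m ih =>
    rintro U hU ⟨n₀, h1, h2, h3⟩
    by_cases hred : ivRed A U = 0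
    · obtain ⟨U₁, hU₁, hUU₁⟩ := exists_div_unifG cst hcst hEF hw hU hred
      have hc : ((U.coeff n₀ : A) : K) = w₀ * ((U₁.coeff n₀ : A) : K) := by
        have := congrArg (fun z => z.coeff n₀) hUU₁
        simpa only [HahnSeries.C_mul_eq_smul, HahnSeries.coeff_smul, ivInc_coeff, smul_eq_mul]
          using this
      have hc' : ((U₁.coeff n₀ : A) : K) * (w₀⁻¹) ^ m
          = ((U.coeff n₀ : A) : K) * (w₀⁻¹) ^ (m + 1) := by
        rw [hc, pow_succ]
        field_simp [hw.ne_zero]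
      have h3' : ((U₁.coeff n₀ : A) : K) ≠ 0 := by
        intro h0
        apply h3
        rw [hc, h0, mul_zero]
      obtain ⟨k, U', hU', hr', hk⟩ := ih U₁ hU₁ ⟨n₀, by rw [hc']; exact h1,
        by rw [hc']; exact h2, h3'⟩
      refine ⟨k + 1, U', hU', hr', ?_⟩
      rw [hUU₁, hk, pow_succ]
      ring
    · exact ⟨0, U, hU, hred, by rw [pow_zero, one_mul]⟩

/-- **Normal form**: a nonzero integral series is `w₀ ^ k` times an integral series with
nonzero reduction. -/
theorem exists_normalise {w₀ : K} (hw : IsUnifG A E w₀) {U : LaurentSeries A}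
    (hU : IsInt A E ι F U) (hU0 : ivInc A U ≠ 0) :
    ∃ (k : ℕ) (U' : LaurentSeries A), IsInt A E ι F U' ∧ ivRed A U' ≠ 0 ∧
      ivInc A U = HahnSeries.C w₀ ^ k * ivInc A U' := by
  obtain ⟨n₀, hn₀⟩ : ∃ n₀ : ℤ, (ivInc A U).coeff n₀ ≠ 0 := by
    by_contra hcon
    apply hU0
    ext n
    by_contra hn
    exact hcon ⟨n, hn⟩
  rw [ivInc_coeff] at hn₀
  obtain ⟨m, h1, h2⟩ := hw.discrete _ (U.coeff n₀).2 (hU.1 n₀) hn₀
  exact exists_normalise_aux cst hcst hEF hw m U hU ⟨n₀, h1, h2, hn₀⟩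

end Constants

/-! ### Quotients of integral series -/

variable (A E ι F) in
/-- `f` is a quotient of two integral series of `F`. -/
def IsRatio (f : Ω) : Prop :=
  ∃ U₁ U₂ : LaurentSeries A, IsInt A E ι F U₁ ∧ IsInt A E ι F U₂ ∧ ivInc A U₂ ≠ 0 ∧
    ι f * ivInc A U₂ = ivInc A U₁

theorem IsRatio.mono {F' : Subfield Ω} (hF : F ≤ F') {f : Ω} (h : IsRatio A E ι F f) :
    IsRatio A E ι F' f := by
  obtain ⟨U₁, U₂, h₁, h₂, h0, hf⟩ := h
  exact ⟨U₁, U₂, h₁.mono hF, h₂.mono hF, h0, hf⟩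

theorem isRatio_of_mem_VRing {f : Ω} (h : f ∈ VRing A E ι F) : IsRatio A E ι F f := by
  obtain ⟨-, U₁, U₂, h₁, h₂, hr, hf⟩ := h
  exact ⟨U₁, U₂, h₁, h₂, ivRed_ne_zero_imp_ivInc_ne_zero hr, hf⟩

theorem isRatio_of_isInt {f : Ω} {U : LaurentSeries A} (hU : IsInt A E ι F U)
    (hf : ι f = ivInc A U) : IsRatio A E ι F f :=
  ⟨U, 1, hU, isInt_one, by rw [map_one]; exact one_ne_zero, by rw [map_one, mul_one, hf]⟩

theorem isRatio_zero : IsRatio A E ι F 0 := isRatio_of_isInt isInt_zero (by simp)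

theorem isRatio_one : IsRatio A E ι F 1 := isRatio_of_isInt isInt_one (by simp)

theorem IsRatio.add {f g : Ω} (hf : IsRatio A E ι F f) (hg : IsRatio A E ι F g) :
    IsRatio A E ι F (f + g) := by
  obtain ⟨U₁, U₂, h₁, h₂, hr, hfU⟩ := hf
  obtain ⟨W₁, W₂, k₁, k₂, kr, hgW⟩ := hg
  refine ⟨U₁ * W₂ + W₁ * U₂, U₂ * W₂, IsInt.add (IsInt.mul h₁ k₂) (IsInt.mul k₁ h₂),
    IsInt.mul h₂ k₂, ?_, ?_⟩
  · rw [map_mul]; exact mul_ne_zero hr kr
  · rw [map_add, map_mul, map_add, map_mul, map_mul, ← hfU, ← hgW]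
    ring

theorem IsRatio.mul {f g : Ω} (hf : IsRatio A E ι F f) (hg : IsRatio A E ι F g) :
    IsRatio A E ι F (f * g) := by
  obtain ⟨U₁, U₂, h₁, h₂, hr, hfU⟩ := hf
  obtain ⟨W₁, W₂, k₁, k₂, kr, hgW⟩ := hg
  refine ⟨U₁ * W₁, U₂ * W₂, IsInt.mul h₁ k₁, IsInt.mul h₂ k₂, ?_, ?_⟩
  · rw [map_mul]; exact mul_ne_zero hr kr
  · rw [map_mul, map_mul, map_mul, ← hfU, ← hgW]
    ring

theorem IsRatio.neg {f : Ω} (hf : IsRatio A E ι F f) : IsRatio A E ι F (-f) := by
  obtain ⟨U₁, U₂, h₁, h₂, hr, hfU⟩ := hf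
  refine ⟨-U₁, U₂, IsInt.neg h₁, h₂, hr, ?_⟩
  rw [map_neg, map_neg, ← hfU]
  ring

theorem IsRatio.inv {f : Ω} (hf : IsRatio A E ι F f) : IsRatio A E ι F f⁻¹ := by
  by_cases hf0 : f = 0
  · rw [hf0, inv_zero]; exact isRatio_zero
  obtain ⟨U₁, U₂, h₁, h₂, hr, hfU⟩ := hf
  have hιf : ι f ≠ 0 := (map_ne_zero ι).mpr hf0
  refine ⟨U₂, U₁, h₂, h₁, ?_, ?_⟩
  · rw [← hfU]; exact mul_ne_zero hιf hr
  · rw [← hfU, map_inv₀, ← mul_assoc, inv_mul_cancel₀ hιf, one_mul]

section Constants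

variable (cst : K →+* Ω) (hcst : ∀ c : K, ι (cst c) = HahnSeries.C c)
  (hEF : ∀ c ∈ E, cst c ∈ F)

include hcst hEF

theorem isRatio_cst {c : K} (hc : c ∈ E) : IsRatio A E ι F (cst c) := by
  rcases A.mem_or_inv_mem c with hA | hA
  · exact isRatio_of_isInt (U := HahnSeries.C (⟨c, hA⟩ : A)) (isInt_C cst hcst hEF hc)
      (by rw [hcst, ivInc_C])
  · have h := isRatio_of_isInt (f := cst c⁻¹) (U := HahnSeries.C (⟨c⁻¹, hA⟩ : A))
      (isInt_C cst hcst hEF (E.inv_mem hc)) (by rw [hcst, ivInc_C])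
    have h' := h.inv
    rwa [← map_inv₀, inv_inv] at h'

/-- Every element of a field generated over `E` by quotients of integral series is a quotient
of integral series. -/
theorem isRatio_of_mem_closure (S : Set Ω) (hS : ∀ s ∈ S, IsRatio A E ι F s) {f : Ω}
    (hf : f ∈ Subfield.closure ((EcG E cst : Set Ω) ∪ S)) : IsRatio A E ι F f := by
  induction hf using Subfield.closure_induction with
  | mem x hx =>
    rcases hx with hx | hx
    · obtain ⟨c, hc, rfl⟩ := (mem_EcG_iff cst).mp hx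
      exact isRatio_cst cst hcst hEF hc
    · exact hS x hx
  | one => exact isRatio_one
  | add x y _ _ hx hy => exact hx.add hy
  | neg x _ hx => exact hx.neg
  | inv x _ hx => exact hx.inv
  | mul x y _ _ hx hy => exact hx.mul hy

/-- field `V_discrete` of `IgusaData`. -/
theorem V_discrete {w₀ : K} (hw : IsUnifG A E w₀) {f : Ω} (hfF : f ∈ F)
    (hf : IsRatio A E ι F f) (hf0 : f ≠ 0) :
    ∃ n : ℤ, f * cst w₀ ^ n ∈ VRing A E ι F ∧ (f * cst w₀ ^ n)⁻¹ ∈ VRing A E ι F := by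
  obtain ⟨U₁, U₂, h₁, h₂, hr, hfU⟩ := hf
  have hιf : ι f ≠ 0 := (map_ne_zero ι).mpr hf0
  have hU₁0 : ivInc A U₁ ≠ 0 := by rw [← hfU]; exact mul_ne_zero hιf hr
  obtain ⟨k₁, V₁, hV₁, hr₁, hk₁⟩ := exists_normalise cst hcst hEF hw h₁ hU₁0
  obtain ⟨k₂, V₂, hV₂, hr₂, hk₂⟩ := exists_normalise cst hcst hEF hw h₂ hr
  have hw0 : cst w₀ ≠ 0 := (map_ne_zero cst).mpr hw.ne_zero
  have hCw0 : (HahnSeries.C w₀ : LaurentSeries K) ≠ 0 := by
    rw [← hcst]; exact (map_ne_zero ι).mpr hw0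
  have hwF : cst w₀ ∈ F := hEF _ hw.mem_E
  have hmem : f * cst w₀ ^ ((k₂ : ℤ) - k₁) ∈ F := mul_mem hfF (zpow_mem hwF _)
  have hkey : ι (f * cst w₀ ^ ((k₂ : ℤ) - k₁)) * ivInc A V₂ = ivInc A V₁ := by
    rw [map_mul, map_zpow₀, hcst, zpow_sub₀ hCw0, zpow_natCast, zpow_natCast]
    have h := hfU
    rw [hk₁, hk₂] at h
    have hp1 : (HahnSeries.C w₀ : LaurentSeries K) ^ k₁ ≠ 0 := pow_ne_zero _ hCw0
    field_simp
    rw [← h]
    ring
  refine ⟨(k₂ : ℤ) - k₁, ⟨hmem, V₁, V₂, hV₁, hV₂, hr₂, hkey⟩,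
    ⟨inv_mem hmem, V₂, V₁, hV₂, hV₁, hr₁, ?_⟩⟩
  have hne : ι (f * cst w₀ ^ ((k₂ : ℤ) - k₁)) ≠ 0 :=
    (map_ne_zero ι).mpr (mul_ne_zero hf0 (zpow_ne_zero _ hw0))
  rw [← hkey, map_inv₀, ← mul_assoc, inv_mul_cancel₀ hne, one_mul]

/-- `w ∈ V`. -/
theorem cst_unif_mem_VRing {w₀ : K} (hw : IsUnifG A E w₀) : cst w₀ ∈ VRing A E ι F :=
  RcG_le_VRing cst hcst hEF ((mem_RcG_iff cst).mpr ⟨w₀, hw.mem_A, hw.mem_E, rfl⟩)

/-- If `u` is a unit of `V` and `u * w ^ n ∈ V`, then `0 ≤ n`. -/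
theorem nonneg_of_unit_mul_zpow_mem {w₀ : K} (hw : IsUnifG A E w₀) {u : Ω} {n : ℤ}
    (hu : u⁻¹ ∈ VRing A E ι F) (hu0 : u ≠ 0) (h : u * cst w₀ ^ n ∈ VRing A E ι F) : 0 ≤ n := by
  by_contra hn
  rw [not_le] at hn
  have hw0 : cst w₀ ≠ 0 := (map_ne_zero cst).mpr hw.ne_zero
  have h1 : cst w₀ ^ n ∈ VRing A E ι F := by
    have := (VRing A E ι F).mul_mem hu h
    rwa [← mul_assoc, inv_mul_cancel₀ hu0, one_mul] at this
  obtain ⟨m, hm⟩ : ∃ m : ℕ, n = -((m : ℤ) + 1) := ⟨(-n - 1).toNat, by omega⟩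
  have h2 : (cst w₀)⁻¹ = cst w₀ ^ n * cst w₀ ^ m := by
    rw [hm, zpow_neg, zpow_add₀ hw0, zpow_natCast, zpow_one]
    field_simp
  apply w_inv_not_mem_VRing (E := E) (ι := ι) (F := F) cst hcst hw.ne_zero hw.inv_not_mem
  rw [h2]
  exact (VRing A E ι F).mul_mem h1 (pow_mem (cst_unif_mem_VRing cst hcst hEF hw) m)

/-- field `V_total`. -/
theorem V_total {w₀ : K} (hw : IsUnifG A E w₀) {f : Ω} (hfF : f ∈ F)
    (hf : IsRatio A E ι F f) : f ∈ VRing A E ι F ∨ f⁻¹ ∈ VRing A E ι F := by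
  by_cases hf0 : f = 0
  · left; rw [hf0]; exact zero_mem _
  obtain ⟨n, h1, h2⟩ := V_discrete cst hcst hEF hw hfF hf hf0
  have hw0 : cst w₀ ≠ 0 := (map_ne_zero cst).mpr hw.ne_zero
  have hwV := cst_unif_mem_VRing (ι := ι) (F := F) cst hcst hEF hw
  rcases le_or_gt n 0 with hn | hn
  · left
    obtain ⟨m, hm⟩ : ∃ m : ℕ, n = -(m : ℤ) := ⟨(-n).toNat, by omega⟩
    have : f = f * cst w₀ ^ n * cst w₀ ^ m := by
      rw [hm, zpow_neg, zpow_natCast]
      field_simp
    rw [this]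
    exact (VRing A E ι F).mul_mem h1 (pow_mem hwV m)
  · right
    obtain ⟨m, hm⟩ : ∃ m : ℕ, n = (m : ℤ) := ⟨n.toNat, by omega⟩
    have : f⁻¹ = (f * cst w₀ ^ n)⁻¹ * cst w₀ ^ m := by
      rw [hm, zpow_natCast]
      field_simp
    rw [this]
    exact (VRing A E ι F).mul_mem h2 (pow_mem hwV m)

/-- field `V_gen` of `GoodModel`. -/
theorem V_gen {w₀ : K} (hw : IsUnifG A E w₀) {f : Ω} (hf : f ∈ VRing A E ι F)
    (hinv : f⁻¹ ∉ VRing A E ι F) : f * (cst w₀)⁻¹ ∈ VRing A E ι F := by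
  have hf0 : f ≠ 0 := by
    rintro rfl
    apply hinv
    rw [inv_zero]; exact zero_mem _
  obtain ⟨n, h1, h2⟩ := V_discrete cst hcst hEF hw hf.1 (isRatio_of_mem_VRing hf) hf0
  have hw0 : cst w₀ ≠ 0 := (map_ne_zero cst).mpr hw.ne_zero
  have hwV := cst_unif_mem_VRing (ι := ι) (F := F) cst hcst hEF hw
  set u := f * cst w₀ ^ n with hu
  have hu0 : u ≠ 0 := mul_ne_zero hf0 (zpow_ne_zero _ hw0)
  have hfu : f = u * cst w₀ ^ (-n) := by
    rw [hu, zpow_neg]
    field_simp
  have hn : 0 ≤ -n := nonneg_of_unit_mul_zpow_mem cst hcst hEF hw h2 hu0 (hfu ▸ hf)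
  have hn' : -n ≠ 0 := by
    intro h0
    apply hinv
    rw [hfu, h0, zpow_zero, mul_one]
    exact h2
  obtain ⟨m, hm⟩ : ∃ m : ℕ, -n = (m : ℤ) + 1 := ⟨(-n - 1).toNat, by omega⟩
  have : f * (cst w₀)⁻¹ = u * cst w₀ ^ m := by
    rw [hfu, hm, zpow_add₀ hw0, zpow_natCast, zpow_one]
    field_simp
  rw [this]
  exact (VRing A E ι F).mul_mem h1 (pow_mem hwV m)

/-- `V_{F'} ∩ F = V_F` for `F ≤ F'` (on quotients of integral series of `F`). -/
theorem mem_VRing_of_mem_of_le {w₀ : K} (hw : IsUnifG A E w₀) {F' : Subfield Ω} (hF : F ≤ F')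
    {f : Ω} (hfF : f ∈ F) (hf : IsRatio A E ι F f) (hfV : f ∈ VRing A E ι F') :
    f ∈ VRing A E ι F := by
  by_cases hf0 : f = 0
  · rw [hf0]; exact zero_mem _
  obtain ⟨n, h1, h2⟩ := V_discrete cst hcst hEF hw hfF hf hf0
  have hw0 : cst w₀ ≠ 0 := (map_ne_zero cst).mpr hw.ne_zero
  have hwV := cst_unif_mem_VRing (ι := ι) (F := F) cst hcst hEF hw
  set u := f * cst w₀ ^ n with hu
  have hu0 : u ≠ 0 := mul_ne_zero hf0 (zpow_ne_zero _ hw0)
  have hfu : f = u * cst w₀ ^ (-n) := by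
    rw [hu, zpow_neg]
    field_simp
  have hEF' : ∀ c ∈ E, cst c ∈ F' := fun c hc => hF (hEF c hc)
  have hn : 0 ≤ -n := nonneg_of_unit_mul_zpow_mem (F := F') cst hcst hEF' hw
    (VRing_mono hF h2) hu0 (hfu ▸ hfV)
  obtain ⟨m, hm⟩ : ∃ m : ℕ, -n = (m : ℤ) := ⟨(-n).toNat, by omega⟩
  rw [hfu, hm, zpow_natCast]
  exact (VRing A E ι F).mul_mem h1 (pow_mem hwV m)

end Constants

end Fermat.Agent.S48.H248

end
end
-- ===== PACK-END S48/H248/IVNormal.lean

-- ===== PACK-BEGIN S48/H828/IActRoof.lean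
section


/-!
# S48 / Tower A1 / IGUSA1 (helper828), part 8a: transport of the `q`-expansion principle
along a roof `Ω₁ --φ--> Ω₂ <--θ-- Ω₃`

Language of `S18/Alg/Spec.lean` (`polyRing`, `chart`); Mathlib + `S18/Alg/Spec` only.
(The one-map lemmas are the same as helper608's `IS28Gen` on his branch; restated here with
fresh names so that this file is self-contained.)

* `iact_isIntegral_subring_iff`, `iact_polyRing_map`, `iact_isIntegral_map_iff`,
  `iact_map_mem_chart_iff` : `chart` commutes with field homomorphisms;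
* `iact_mem_of_roof` : the valuation ring `V₁` of `F₁` is cut out by `V₃` along the roof, as soon
  as `V₁ ⊆ V₃` along the roof and `w₃⁻¹ ∉ V₃`;
* `iact_qep_roof` : the `q`-expansion principle for `(F₁, R₁, V₁, w₁, x₁)` inside `Ω₁` gives the
  one for `(F₃, R₃, V₃, w₃, x₃)` inside `Ω₃`.
-/

set_option autoImplicit false

namespace Fermat.Agent.S48.H828

open Fermat.Agent.S18.Alg Polynomial

variable {Ω₁ Ω₂ Ω₃ : Type*} [Field Ω₁] [Field Ω₂] [Field Ω₃]

/-- Integrality over a subring, in terms of polynomials over the ambient field. -/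
theorem iact_isIntegral_subring_iff {Ω : Type*} [Field Ω] (T : Subring Ω) (b : Ω) :
    IsIntegral T b ↔ ∃ p : Polynomial Ω, p.Monic ∧ (∀ i, p.coeff i ∈ T) ∧ p.eval b = 0 := by
  constructor
  · rintro ⟨q, hq, hqb⟩
    refine ⟨q.map T.subtype, hq.map _, fun i => ?_, ?_⟩
    · rw [coeff_map]; exact (q.coeff i).2
    · rw [eval_map]; exact hqb
  · rintro ⟨p, hp, hc, hpb⟩
    have hsub : (↑p.coeffs : Set Ω) ⊆ T := by
      intro c hc'
      obtain ⟨i, _, rfl⟩ := Polynomial.mem_coeffs_iff.mp (by exact_mod_cast hc')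
      exact hc i
    refine ⟨p.toSubring T hsub, (p.monic_toSubring _ _).mpr hp, ?_⟩
    have : eval₂ (algebraMap T Ω) b (p.toSubring T hsub)
        = ((p.toSubring T hsub).map T.subtype).eval b := by
      rw [eval_map]; rfl
    rw [this, p.map_toSubring T hsub, hpb]

/-- `(R.map φ)[φ x] = (R[x]).map φ`. -/
theorem iact_polyRing_map (φ : Ω₁ →+* Ω₂) (R : Subring Ω₁) (x : Ω₁) :
    polyRing (R.map φ) (φ x) = (polyRing R x).map φ := by
  unfold polyRing
  rw [RingHom.map_closure, Set.image_union, Set.image_singleton]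
  rfl

/-- Integrality is transported by a field homomorphism, in both directions. -/
theorem iact_isIntegral_map_iff (φ : Ω₁ →+* Ω₂) (T : Subring Ω₁) (b : Ω₁) :
    IsIntegral (T.map φ) (φ b) ↔ IsIntegral T b := by
  rw [iact_isIntegral_subring_iff, iact_isIntegral_subring_iff]
  constructor
  · rintro ⟨p, hp, hc, hpb⟩
    have hlift : p ∈ Polynomial.lifts φ := by
      rw [Polynomial.lifts_iff_coeff_lifts]
      intro n
      obtain ⟨a, -, ha⟩ := hc n
      exact ⟨a, ha⟩
    obtain ⟨q, hq, -, hqm⟩ := Polynomial.lifts_and_degree_eq_and_monic hlift hp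
    refine ⟨q, hqm, fun i => ?_, ?_⟩
    · obtain ⟨a, haT, ha⟩ := hc i
      have h1 : φ (q.coeff i) = φ a := by
        rw [ha, ← hq, coeff_map]
      rw [φ.injective h1]
      exact haT
    · apply φ.injective
      rw [map_zero, ← hpb, ← hq, eval_map, eval₂_at_apply]
  · rintro ⟨p, hp, hc, hpb⟩
    refine ⟨p.map φ, hp.map _, fun i => ?_, ?_⟩
    · rw [coeff_map]
      exact ⟨p.coeff i, hc i, rfl⟩
    · rw [eval_map, eval₂_at_apply, hpb, map_zero]

/-- The chart of the image is the image of the chart. -/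
theorem iact_map_mem_chart_iff (φ : Ω₁ →+* Ω₂) (F : Subfield Ω₁) (R : Subring Ω₁) (x b : Ω₁) :
    φ b ∈ chart (F.map φ) (R.map φ) (φ x) ↔ b ∈ chart F R x := by
  constructor
  · rintro ⟨⟨b₁, hb₁, hb⟩, hint⟩
    rw [iact_polyRing_map, iact_isIntegral_map_iff] at hint
    have : b₁ = b := φ.injective hb
    exact ⟨this ▸ hb₁, hint⟩
  · rintro ⟨hb₁, hint⟩
    refine ⟨⟨b, hb₁, rfl⟩, ?_⟩
    rw [iact_polyRing_map, iact_isIntegral_map_iff]
    exact hint

/-- An element of the chart of the image comes from the chart. -/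
theorem iact_exists_of_mem_chart_map (φ : Ω₁ →+* Ω₂) (F : Subfield Ω₁) (R : Subring Ω₁)
    (x : Ω₁) {y : Ω₂} (hy : y ∈ chart (F.map φ) (R.map φ) (φ x)) :
    ∃ b ∈ chart F R x, φ b = y := by
  obtain ⟨b, hb, rfl⟩ := hy.1
  exact ⟨b, (iact_map_mem_chart_iff φ F R x b).mp hy, rfl⟩

section Roof

variable (φ : Ω₁ →+* Ω₂) (θ : Ω₃ →+* Ω₂)
  {F₁ : Subfield Ω₁} {R₁ V₁ : Subring Ω₁} {w₁ x₁ : Ω₁}
  {F₃ : Subfield Ω₃} {R₃ V₃ : Subring Ω₃} {w₃ x₃ : Ω₃}

/-- **The Gauss ring upstairs cuts out the Gauss ring downstairs** (along a roof).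
`V₁` total on `F₁`, `w₁` generates its non-units, `V₁ ⊆ V₃` along the roof, `w₃⁻¹ ∉ V₃`. -/
theorem iact_mem_of_roof (hw : θ w₃ = φ w₁)
    (hVtot : ∀ f ∈ F₁, f ∈ V₁ ∨ f⁻¹ ∈ V₁)
    (hVgen : ∀ f ∈ V₁, f⁻¹ ∉ V₁ → f * w₁⁻¹ ∈ V₁)
    (hmap : ∀ f ∈ V₁, ∀ g : Ω₃, θ g = φ f → g ∈ V₃)
    (hw₃ : w₃⁻¹ ∉ V₃) {f : Ω₁} (hf : f ∈ F₁) {g : Ω₃} (hgf : θ g = φ f) (hg : g ∈ V₃) :
    f ∈ V₁ := by
  by_contra hfV
  have hfinv : f⁻¹ ∈ V₁ := (hVtot f hf).resolve_left hfV
  have hf0 : f ≠ 0 := by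
    rintro rfl
    exact hfV V₁.zero_mem
  have h1 : f⁻¹ * w₁⁻¹ ∈ V₁ := hVgen f⁻¹ hfinv (by rwa [inv_inv])
  have hg0 : g ≠ 0 := by
    rintro rfl
    rw [map_zero] at hgf
    exact hf0 ((map_eq_zero φ).mp hgf.symm)
  have h2 : g⁻¹ * w₃⁻¹ ∈ V₃ := by
    refine hmap _ h1 _ ?_
    rw [map_mul, map_mul, map_inv₀, map_inv₀, map_inv₀, map_inv₀, hgf, hw]
  have h3 : g * (g⁻¹ * w₃⁻¹) ∈ V₃ := V₃.mul_mem hg h2
  rw [← mul_assoc, mul_inv_cancel₀ hg0, one_mul] at h3
  exact hw₃ h3

/-- **Transport of the `q`-expansion principle along a roof.** -/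
theorem iact_qep_roof (hF : F₃.map θ = F₁.map φ) (hR : R₃.map θ = R₁.map φ)
    (hx : θ x₃ = φ x₁) (hw : θ w₃ = φ w₁) (hw₁ : w₁ ∈ F₁)
    (hVtot : ∀ f ∈ F₁, f ∈ V₁ ∨ f⁻¹ ∈ V₁)
    (hVgen : ∀ f ∈ V₁, f⁻¹ ∉ V₁ → f * w₁⁻¹ ∈ V₁)
    (hmap : ∀ f ∈ V₁, ∀ g : Ω₃, θ g = φ f → g ∈ V₃)
    (hw₃ : w₃⁻¹ ∉ V₃)
    (hq : ∀ b ∈ chart F₁ R₁ x₁, b * w₁⁻¹ ∈ V₁ → b * w₁⁻¹ ∈ chart F₁ R₁ x₁) :
    ∀ b ∈ chart F₃ R₃ x₃, b * w₃⁻¹ ∈ V₃ → b * w₃⁻¹ ∈ chart F₃ R₃ x₃ := by
  intro b hb hbV
  have h1 : θ b ∈ chart (F₁.map φ) (R₁.map φ) (φ x₁) := by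
    rw [← hF, ← hR, ← hx]
    exact (iact_map_mem_chart_iff θ F₃ R₃ x₃ b).mpr hb
  obtain ⟨b₁, hb₁, hbb⟩ := iact_exists_of_mem_chart_map φ F₁ R₁ x₁ h1
  have h2 : θ (b * w₃⁻¹) = φ (b₁ * w₁⁻¹) := by
    rw [map_mul, map_mul, map_inv₀, map_inv₀, hw, hbb]
  have h3 : b₁ * w₁⁻¹ ∈ V₁ :=
    iact_mem_of_roof φ θ hw hVtot hVgen hmap hw₃ (F₁.mul_mem hb₁.1 (F₁.inv_mem hw₁)) h2 hbV
  have h4 := hq b₁ hb₁ h3
  have h5 : θ (b * w₃⁻¹) ∈ chart (F₃.map θ) (R₃.map θ) (θ x₃) := by
    rw [h2, hF, hR, hx]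
    exact (iact_map_mem_chart_iff φ F₁ R₁ x₁ _).mpr h4
  exact (iact_map_mem_chart_iff θ F₃ R₃ x₃ _).mp h5

end Roof

end Fermat.Agent.S48.H828

end
-- ===== PACK-END S48/H828/IActRoof.lean

-- ===== PACK-BEGIN S48/H528/IdemLift.lean
section


/-!
# S48 / LIFT-R — lifting idempotent matrices over "algebraically closed" local rings

`MonicSplits R` : every monic polynomial over `R` is a product of linear factors
(true for a valuation subring of an algebraically closed field, `monicSplits_valuationSubring`).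

`exists_idempotent_lift` : if `R` is a local ring with `MonicSplits R` and `A` is a square matrix
over `R` whose reduction modulo the maximal ideal is idempotent, then some polynomial `f(A)` in
`A` is idempotent and has the same reduction as `A`.
-/

set_option autoImplicit false

noncomputable section

open Polynomial IsLocalRing

namespace Fermat.Agent.S48.H528

/-- every monic polynomial over `R` is a product of linear factors -/
def MonicSplits (R : Type*) [CommRing R] : Prop :=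
  ∀ P : R[X], P.Monic → ∃ s : Multiset R, P = (s.map (fun r => X - C r)).prod

section Coprime

variable {R : Type*} [CommRing R]

theorem isCoprime_X_sub_C_prod (a : R) (s : Multiset R) (h : ∀ b ∈ s, IsUnit (a - b)) :
    IsCoprime (X - C a) (s.map (fun r => X - C r)).prod := by
  induction s using Multiset.induction_on with
  | empty =>
      rw [Multiset.map_zero, Multiset.prod_zero]
      exact isCoprime_one_right
  | cons b s ih =>
      rw [Multiset.map_cons, Multiset.prod_cons]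
      exact IsCoprime.mul_right
        (isCoprime_X_sub_C_of_isUnit_sub (h b (Multiset.mem_cons_self b s)))
        (ih fun c hc => h c (Multiset.mem_cons_of_mem hc))

theorem isCoprime_prod_prod (s t : Multiset R) (h : ∀ a ∈ s, ∀ b ∈ t, IsUnit (a - b)) :
    IsCoprime (s.map (fun r => X - C r)).prod (t.map (fun r => X - C r)).prod := by
  induction s using Multiset.induction_on with
  | empty =>
      rw [Multiset.map_zero, Multiset.prod_zero]
      exact isCoprime_one_left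
  | cons a s ih =>
      rw [Multiset.map_cons, Multiset.prod_cons]
      exact IsCoprime.mul_left
        (isCoprime_X_sub_C_prod a t (h a (Multiset.mem_cons_self a s)))
        (ih fun c hc => h c (Multiset.mem_cons_of_mem hc))

end Coprime

section Field

variable {k : Type*} [Field k] {ι : Type*} [Fintype ι] [DecidableEq ι]

/-- a root of the characteristic polynomial of an idempotent matrix is `0` or `1` -/
theorem eq_zero_or_one_of_isRoot_charpoly (B : Matrix ι ι k) (hB : B * B = B) (x : k)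
    (hx : B.charpoly.eval x = 0) : x = 0 ∨ x = 1 := by
  rw [Matrix.eval_charpoly] at hx
  obtain ⟨v, hv, hv0⟩ := Matrix.exists_mulVec_eq_zero_iff.mpr hx
  have h1 : B.mulVec v = x • v := by
    have : (Matrix.scalar ι x - B).mulVec v = x • v - B.mulVec v := by
      rw [Matrix.sub_mulVec]
      congr 1
      ext i
      simp [Matrix.mulVec, dotProduct, Matrix.scalar_apply, Matrix.diagonal_apply]
    rw [this, sub_eq_zero] at hv0
    exact hv0.symm
  have h2 : B.mulVec (B.mulVec v) = B.mulVec v := by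
    rw [Matrix.mulVec_mulVec, hB]
  rw [h1, Matrix.mulVec_smul, h1, smul_smul] at h2
  have h3 : (x * x - x) • v = 0 := by
    rw [sub_smul, h2, sub_self]
  rcases smul_eq_zero.mp h3 with h | h
  · have : x * (x - 1) = 0 := by ring_nf; ring_nf at h; exact h
    rcases mul_eq_zero.mp this with h' | h'
    · exact Or.inl h'
    · exact Or.inr (sub_eq_zero.mp h')
  · exact absurd h hv

end Field

section Main

variable {R : Type*} [CommRing R] [IsLocalRing R]
variable {ι : Type*} [Fintype ι] [DecidableEq ι]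

theorem mapMatrix_aeval (A : Matrix ι ι R) (f : R[X]) :
    (aeval A f).map (residue R) = aeval (A.map (residue R)) (f.map (residue R)) := by
  have h := Polynomial.map_aeval_eq_aeval_map (S := Matrix ι ι R) (U := Matrix ι ι (ResidueField R))
    (φ := residue R) (ψ := (residue R).mapMatrix) (by
      ext r i j
      simp only [RingHom.coe_comp, Function.comp_apply, RingHom.mapMatrix_apply, Matrix.map_apply,
        Matrix.algebraMap_matrix_apply]
      split_ifs <;> simp) f A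
  exact h

/-- **Idempotent lifting.** -/
theorem exists_idempotent_lift (hR : MonicSplits R) (A : Matrix ι ι R)
    (hA : A.map (residue R) * A.map (residue R) = A.map (residue R)) :
    ∃ f : R[X], aeval A f * aeval A f = aeval A f ∧
      (aeval A f).map (residue R) = A.map (residue R) := by
  classical
  set res := residue R with hres
  set B := A.map res with hBdef
  set P : R[X] := A.charpoly * (X * (X - C 1)) with hPdef
  have hPmonic : P.Monic := (Matrix.charpoly_monic A).mul (monic_X.mul (monic_X_sub_C 1))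
  obtain ⟨s, hs⟩ := hR P hPmonic
  have hPA : aeval A P = 0 := by
    rw [hPdef, map_mul, Matrix.aeval_self_charpoly, zero_mul]
  have hPmap : P.map res = B.charpoly * (X * (X - C 1)) := by
    rw [hPdef, Polynomial.map_mul, Polynomial.map_mul, Polynomial.map_sub, Polynomial.map_X,
      Polynomial.map_C, map_one, ← Matrix.charpoly_map]
  -- the roots reduce to `0` or `1`
  have hroot : ∀ r ∈ s, res r = 0 ∨ res r = 1 := by
    intro r hr
    have h1 : P.eval r = 0 := by
      rw [hs, Polynomial.eval_multiset_prod]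
      apply Multiset.prod_eq_zero
      rw [Multiset.mem_map]
      refine ⟨X - C r, Multiset.mem_map.mpr ⟨r, hr, rfl⟩, by simp⟩
    have h2 : (P.map res).eval (res r) = 0 := by
      rw [Polynomial.eval_map, Polynomial.eval₂_at_apply, h1, map_zero]
    rw [hPmap, Polynomial.eval_mul, Polynomial.eval_mul, Polynomial.eval_X, Polynomial.eval_sub,
      Polynomial.eval_X, Polynomial.eval_C] at h2
    rcases mul_eq_zero.mp h2 with h | h
    · exact eq_zero_or_one_of_isRoot_charpoly B hA _ h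
    · rcases mul_eq_zero.mp h with h' | h'
      · exact Or.inl h'
      · exact Or.inr (sub_eq_zero.mp h')
  set s₀ := s.filter (fun r => res r = 0) with hs₀
  set s₁ := s.filter (fun r => ¬ res r = 0) with hs₁
  set P₀ : R[X] := (s₀.map (fun r => X - C r)).prod with hP₀
  set P₁ : R[X] := (s₁.map (fun r => X - C r)).prod with hP₁
  have hsplit : P = P₀ * P₁ := by
    rw [hs, hP₀, hP₁, ← Multiset.prod_add, ← Multiset.map_add, hs₀, hs₁, Multiset.filter_add_not]
  have hcop : IsCoprime P₀ P₁ := by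
    apply isCoprime_prod_prod
    intro a ha b hb
    rw [hs₀, Multiset.mem_filter] at ha
    rw [hs₁, Multiset.mem_filter] at hb
    have hb1 : res b = 1 := (hroot b hb.1).resolve_left hb.2
    rw [← residue_ne_zero_iff_isUnit, map_sub, ← hres, ha.2, hb1, zero_sub]
    exact neg_ne_zero.mpr one_ne_zero
  obtain ⟨U, V, hUV⟩ := hcop
  refine ⟨U * P₀, ?_, ?_⟩
  · have h1 : (U * P₀) * (U * P₀) - U * P₀ = -(U * V) * P := by
      rw [hsplit]
      have : U * P₀ = 1 - V * P₁ := by rw [← hUV]; ring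
      calc (U * P₀) * (U * P₀) - U * P₀ = (U * P₀) * ((U * P₀) - 1) := by ring
        _ = (U * P₀) * (-(V * P₁)) := by rw [this]; ring
        _ = -(U * V) * (P₀ * P₁) := by ring
    have h2 : aeval A ((U * P₀) * (U * P₀) - U * P₀) = 0 := by
      rw [h1, map_mul, hPA, mul_zero]
    rw [map_sub, map_mul, sub_eq_zero] at h2
    exact h2
  · rw [mapMatrix_aeval]
    show aeval B ((U * P₀).map res) = B
    -- reductions of `P₀`, `P₁`
    have hP₀map : P₀.map res = X ^ (Multiset.card s₀) := by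
      rw [hP₀, Polynomial.map_multiset_prod, Multiset.map_map]
      have : ∀ r ∈ s₀, (Polynomial.map res ∘ fun r => X - C r) r = (X : (ResidueField R)[X]) := by
        intro r hr
        rw [hs₀, Multiset.mem_filter] at hr
        simp [hr.2]
      rw [Multiset.map_congr rfl this, Multiset.map_const', Multiset.prod_replicate]
    have hP₁map : P₁.map res = (X - C 1) ^ (Multiset.card s₁) := by
      rw [hP₁, Polynomial.map_multiset_prod, Multiset.map_map]
      have : ∀ r ∈ s₁, (Polynomial.map res ∘ fun r => X - C r) r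
          = (X - C 1 : (ResidueField R)[X]) := by
        intro r hr
        rw [hs₁, Multiset.mem_filter] at hr
        have hr1 : res r = 1 := (hroot r hr.1).resolve_left hr.2
        simp [hr1]
      rw [Multiset.map_congr rfl this, Multiset.map_const', Multiset.prod_replicate]
    have hPmap' : P.map res = X ^ (Multiset.card s₀) * (X - C 1) ^ (Multiset.card s₁) := by
      rw [hsplit, Polynomial.map_mul, hP₀map, hP₁map]
    have hc₀ : Multiset.card s₀ ≠ 0 := by
      intro h0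
      have h := congrArg (Polynomial.eval (0 : ResidueField R)) hPmap'
      rw [hPmap, h0] at h
      simp only [eval_mul, eval_X, zero_mul, mul_zero, pow_zero, eval_pow, eval_sub, eval_C,
        zero_sub, one_mul] at h
      have h' : ((-1 : ResidueField R)) ^ (Multiset.card s₁) ≠ 0 :=
        pow_ne_zero _ (neg_ne_zero.mpr one_ne_zero)
      exact h' h.symm
    have hc₁ : Multiset.card s₁ ≠ 0 := by
      intro h0
      have h := congrArg (Polynomial.eval (1 : ResidueField R)) hPmap'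
      rw [hPmap, h0] at h
      simp at h
    have hUVmap : U.map res * P₀.map res + V.map res * P₁.map res = 1 := by
      rw [← Polynomial.map_mul, ← Polynomial.map_mul, ← Polynomial.map_add, hUV,
        Polynomial.map_one]
    -- `X (X - 1) ∣ f̄ - X`
    have hd₀ : (X : (ResidueField R)[X]) ∣ (U * P₀).map res - X := by
      rw [Polynomial.map_mul, hP₀map]
      refine dvd_sub (Dvd.dvd.mul_left (dvd_pow_self X hc₀) _) dvd_rfl
    have hd₁ : (X - C 1 : (ResidueField R)[X]) ∣ (U * P₀).map res - X := by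
      have : (U * P₀).map res - X = -(X - C 1) - V.map res * P₁.map res := by
        have h1 : U.map res * P₀.map res = 1 - V.map res * P₁.map res := by
          rw [← hUVmap]; ring
        rw [Polynomial.map_mul, h1, map_one]
        ring
      rw [this, hP₁map]
      exact dvd_sub (dvd_neg.mpr dvd_rfl) (Dvd.dvd.mul_left (dvd_pow_self _ hc₁) _)
    have hcop' : IsCoprime (X : (ResidueField R)[X]) (X - C 1) := by
      have := isCoprime_X_sub_C_of_isUnit_sub (R := ResidueField R) (a := 0) (b := 1)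
        (by simp)
      simpa using this
    obtain ⟨Q, hQ⟩ := hcop'.mul_dvd hd₀ hd₁
    have hB0 : aeval B (X * (X - C 1) : (ResidueField R)[X]) = 0 := by
      rw [map_mul, map_sub, aeval_X, aeval_C, map_one, mul_sub, mul_one, hA, sub_self]
    have h3 : aeval B ((U * P₀).map res - X) = 0 := by
      rw [hQ, map_mul, hB0, zero_mul]
    rw [map_sub, aeval_X, sub_eq_zero] at h3
    exact h3

end Main

section ValuationSubring

variable {K : Type*} [Field K] [IsAlgClosed K]

/-- A valuation subring of an algebraically closed field has `MonicSplits`. -/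
theorem monicSplits_valuationSubring (A : ValuationSubring K) : MonicSplits A := by
  intro P hP
  have hsp : (P.map (algebraMap A K)).Splits := IsAlgClosed.splits _
  have hmon : (P.map (algebraMap A K)).Monic := hP.map _
  have hprod := hsp.eq_prod_roots_of_monic hmon
  have hmem : ∀ z ∈ (P.map (algebraMap A K)).roots, z ∈ A := by
    intro z hz
    have hz0 : (P.map (algebraMap A K)).eval z = 0 := (Polynomial.mem_roots'.mp hz).2
    have hint : IsIntegral A z := ⟨P, hP, by rwa [Polynomial.eval_map] at hz0⟩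
    obtain ⟨y, hy⟩ := (IsIntegrallyClosed.isIntegral_iff (R := A) (K := K)).mp hint
    rw [← hy]
    exact y.2
  refine ⟨(P.map (algebraMap A K)).roots.attach.map (fun z => (⟨z.1, hmem z.1 z.2⟩ : A)), ?_⟩
  apply Polynomial.map_injective (algebraMap A K) (FaithfulSMul.algebraMap_injective A K)
  rw [Polynomial.map_multiset_prod, Multiset.map_map, Multiset.map_map]
  conv_lhs => rw [hprod]
  conv_lhs => rw [← Multiset.attach_map_val (P.map (algebraMap A K)).roots, Multiset.map_map]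
  congr 1
  apply Multiset.map_congr rfl
  intro z _
  simp

end ValuationSubring

end Fermat.Agent.S48.H528

end
end
-- ===== PACK-END S48/H528/IdemLift.lean

-- ===== PACK-BEGIN S48/H528/Lift.lean
section


/-!
# S48 / LIFT-R — lifting representations of finite groups of invertible order

`R` a local ring with `MonicSplits R` (e.g. a valuation subring of `ℂ`), `k` its residue field,
`G` a finite group whose order is nonzero in `k`.  Every matrix representation
`ρ̄ : G →* Matrix n n k` lifts to `ρ : G →* Matrix n n R` with `(ρ g).map residue = ρ̄ g`.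

Proof: `Ē = |G|⁻¹ Σ_g ρ̄(g) ⊗ g` is an idempotent of `M_n(k)[G]`, realised as a matrix on
`n × G` commuting with the translations `tr h`; lift it to an idempotent `E` commuting with the
translations (`exists_idempotent_lift`); the columns `w_j = E e_{(j,1)}` span the image of `E`
and the translations act on them through the wanted matrices.
-/

set_option autoImplicit false
set_option linter.unusedSectionVars false
set_option linter.unusedSimpArgs false

noncomputable section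

open Polynomial IsLocalRing Matrix

namespace Fermat.Agent.S48.H528

section Translation

variable {S : Type*} [CommRing S] {G : Type*} [Group G] [Fintype G] [DecidableEq G]
variable {n : Type*} [Fintype n] [DecidableEq n] {m : Type*} [Fintype m]

/-- the translation by `g` on `n × G`, as a permutation matrix -/
def tr (S : Type*) [CommRing S] (n : Type*) [DecidableEq n] (g : G) :
    Matrix (n × G) (n × G) S :=
  fun p q => if p.1 = q.1 ∧ p.2 = g * q.2 then 1 else 0

theorem tr_mul_apply (g : G) (X : Matrix (n × G) m S) (p : n × G) (j : m) :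
    (tr S n g * X) p j = X (p.1, g⁻¹ * p.2) j := by
  rw [Matrix.mul_apply, Finset.sum_eq_single (p.1, g⁻¹ * p.2)]
  · simp [tr]
  · intro x _ hx
    have : ¬ (p.1 = x.1 ∧ p.2 = g * x.2) := by
      rintro ⟨h1, h2⟩
      apply hx
      ext
      · exact h1.symm
      · simp [h2]
    simp [tr, this]
  · intro h; exact absurd (Finset.mem_univ _) h

theorem mul_tr_apply (g : G) (Y : Matrix m (n × G) S) (i : m) (q : n × G) :
    (Y * tr S n g) i q = Y i (q.1, g * q.2) := by
  rw [Matrix.mul_apply, Finset.sum_eq_single (q.1, g * q.2)]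
  · simp [tr]
  · intro x _ hx
    have : ¬ (x.1 = q.1 ∧ x.2 = g * q.2) := by
      rintro ⟨h1, h2⟩
      apply hx
      ext
      · exact h1
      · exact h2
    simp [tr, this]
  · intro h; exact absurd (Finset.mem_univ _) h

theorem tr_one : tr S n (1 : G) = 1 := by
  ext p q
  rw [Matrix.one_apply]
  simp only [tr, one_mul]
  by_cases h : p = q
  · subst h; simp
  · rw [if_neg h, if_neg]
    rintro ⟨h1, h2⟩
    exact h (Prod.ext h1 h2)

theorem tr_mul (g h : G) : tr S n (g * h) = tr S n g * tr S n h := by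
  ext p q
  rw [tr_mul_apply]
  simp only [tr]
  congr 1
  apply propext
  constructor
  · rintro ⟨h1, h2⟩
    exact ⟨h1, by rw [h2]; group⟩
  · rintro ⟨h1, h2⟩
    refine ⟨h1, ?_⟩
    have := congrArg (fun x => g * x) h2
    simpa [mul_assoc] using this

omit [Fintype G] [Fintype n] in
theorem tr_map {S' : Type*} [CommRing S'] (f : S →+* S') (g : G) :
    (tr S n g).map f = tr S' n g := by
  ext p q
  simp only [Matrix.map_apply, tr]
  split_ifs <;> simp

end Translation

section Conv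

variable {S : Type*} [CommRing S] {G : Type*} [Group G] [Fintype G] [DecidableEq G]
variable {n : Type*} [Fintype n] [DecidableEq n] {m : Type*} [Fintype m]

/-- the convolution identity behind all the computations -/
theorem sum_conv (ρ : G →* Matrix n n S) (a b : G) (i j : n) :
    ∑ r : n × G, ρ (a * r.2) i r.1 * ρ (r.2⁻¹ * b) r.1 j =
      (Fintype.card G : S) * ρ (a * b) i j := by
  rw [Fintype.sum_prod_type_right]
  have h : ∀ x : G, ∑ l : n, ρ (a * x) i l * ρ (x⁻¹ * b) l j = ρ (a * b) i j := by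
    intro x
    rw [← Matrix.mul_apply, ← map_mul]
    have : a * x * (x⁻¹ * b) = a * b := by group
    rw [this]
  simp only [h, Finset.sum_const, Finset.card_univ, nsmul_eq_mul]

/-- the averaging matrix `ν Σ_g α(g) ⊗ g` (an idempotent when `α` is multiplicative and
`ν = |G|⁻¹`) -/
def avgMat (ν : S) (α : G → Matrix n n S) : Matrix (n × G) (n × G) S :=
  fun p q => ν * α (p.2⁻¹ * q.2) p.1 q.1

/-- the map `(x_g)_g ↦ Σ_g α(g) x_g` -/
def projMat (α : G → Matrix n n S) : Matrix n (n × G) S :=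
  fun i q => α q.2 i q.1

/-- the inclusion of the component at `1 : G` -/
def inclMat (S : Type*) [CommRing S] (n : Type*) [DecidableEq n] (G : Type*) [Group G]
    [DecidableEq G] : Matrix (n × G) n S :=
  fun p j => if p.1 = j ∧ p.2 = 1 then 1 else 0

theorem mul_inclMat_apply (X : Matrix m (n × G) S) (i : m) (j : n) :
    (X * inclMat S n G) i j = X i (j, 1) := by
  rw [Matrix.mul_apply, Finset.sum_eq_single (j, (1 : G))]
  · simp [inclMat]
  · intro x _ hx
    have : ¬ (x.1 = j ∧ x.2 = 1) := by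
      rintro ⟨h1, h2⟩
      apply hx
      ext
      · exact h1
      · exact h2
    simp [inclMat, this]
  · intro h; exact absurd (Finset.mem_univ _) h

omit [Fintype G] [Fintype n] [DecidableEq n] [DecidableEq G] in
theorem avgMat_map {S' : Type*} [CommRing S'] (f : S →+* S') (ν : S) (α : G → Matrix n n S) :
    (avgMat ν α).map f = avgMat (f ν) (fun g => (α g).map f) := by
  ext p q
  simp [avgMat]

omit [Fintype G] [Fintype n] [DecidableEq n] [DecidableEq G] [Group G] in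
theorem projMat_map {S' : Type*} [CommRing S'] (f : S →+* S') (α : G → Matrix n n S) :
    (projMat α).map f = projMat (fun g => (α g).map f) := by
  ext p q
  simp [projMat]

omit [Fintype G] [Fintype n] in
theorem inclMat_map {S' : Type*} [CommRing S'] (f : S →+* S') :
    (inclMat S n G).map f = inclMat S' n G := by
  ext p q
  simp only [Matrix.map_apply, inclMat]
  split_ifs <;> simp

theorem tr_mul_avgMat (ν : S) (α : G → Matrix n n S) (h : G) :
    tr S n h * avgMat ν α = avgMat ν α * tr S n h := by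
  ext p q
  rw [tr_mul_apply, mul_tr_apply]
  simp only [avgMat, _root_.mul_inv_rev, inv_inv, mul_assoc]

theorem avgMat_mul_self (ρ : G →* Matrix n n S) (ν : S)
    (hν : ν * (Fintype.card G : S) = 1) :
    avgMat ν ρ * avgMat ν ρ = avgMat ν ρ := by
  ext p q
  rw [Matrix.mul_apply]
  have h : ∀ r : n × G, avgMat ν (fun g => ρ g) p r * avgMat ν (fun g => ρ g) r q =
      ν * ν * (ρ (p.2⁻¹ * r.2) p.1 r.1 * ρ (r.2⁻¹ * q.2) r.1 q.1) := by
    intro r
    simp only [avgMat]
    ring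
  simp only [h]
  rw [← Finset.mul_sum, sum_conv]
  simp only [avgMat]
  calc ν * ν * ((Fintype.card G : S) * ρ (p.2⁻¹ * q.2) p.1 q.1)
      = ν * (ν * (Fintype.card G : S)) * ρ (p.2⁻¹ * q.2) p.1 q.1 := by ring
    _ = ν * ρ (p.2⁻¹ * q.2) p.1 q.1 := by rw [hν, mul_one]

theorem avgMat_inclMat_apply (ν : S) (α : G → Matrix n n S) (p : n × G) (j : n) :
    (avgMat ν α * inclMat S n G) p j = ν * α (p.2⁻¹) p.1 j := by
  rw [mul_inclMat_apply]
  simp [avgMat]

theorem projMat_mul_tr_avgMat_inclMat (ρ : G →* Matrix n n S) (ν : S)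
    (hν : ν * (Fintype.card G : S) = 1) (g : G) :
    projMat ρ * (tr S n g * (avgMat ν ρ * inclMat S n G)) = ρ g := by
  ext i j
  rw [Matrix.mul_apply]
  have h : ∀ r : n × G, projMat (fun g => ρ g) i r *
      (tr S n g * (avgMat ν (fun g => ρ g) * inclMat S n G)) r j =
      ν * (ρ (1 * r.2) i r.1 * ρ (r.2⁻¹ * g) r.1 j) := by
    intro r
    rw [tr_mul_apply, avgMat_inclMat_apply]
    simp only [projMat, _root_.mul_inv_rev, inv_inv, one_mul]
    ring
  simp only [h]
  rw [← Finset.mul_sum, sum_conv, ← mul_assoc, hν, one_mul, one_mul]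

theorem projMat_mul_avgMat_inclMat (ρ : G →* Matrix n n S) (ν : S)
    (hν : ν * (Fintype.card G : S) = 1) :
    projMat ρ * (avgMat ν ρ * inclMat S n G) = 1 := by
  have h := projMat_mul_tr_avgMat_inclMat ρ ν hν 1
  rwa [tr_one, Matrix.one_mul, map_one] at h

theorem avgMat_inclMat_mul_projMat (ρ : G →* Matrix n n S) (ν : S) :
    avgMat ν ρ * inclMat S n G * projMat ρ = avgMat ν ρ := by
  ext p q
  rw [Matrix.mul_apply]
  simp only [avgMat_inclMat_apply]
  simp only [projMat, avgMat, map_mul, Matrix.mul_apply, Finset.mul_sum, mul_assoc]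

end Conv

section Local

variable {R : Type*} [CommRing R] [IsLocalRing R]
variable {ι : Type*} [Fintype ι] [DecidableEq ι]

theorem isUnit_det_of_map_eq_one (C : Matrix ι ι R) (h : C.map (residue R) = 1) :
    IsUnit C.det := by
  rw [← residue_ne_zero_iff_isUnit, RingHom.map_det, RingHom.mapMatrix_apply, h, Matrix.det_one]
  exact one_ne_zero

/-- an idempotent matrix over a local ring which vanishes modulo the maximal ideal is zero -/
theorem eq_zero_of_idempotent_of_map_eq_zero (Q : Matrix ι ι R) (hQ : Q * Q = Q)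
    (h0 : Q.map (residue R) = 0) : Q = 0 := by
  have hdet : IsUnit (1 - Q).det := by
    apply isUnit_det_of_map_eq_one
    have : (1 - Q).map (residue R) = (residue R).mapMatrix (1 - Q) := rfl
    rw [this, map_sub, map_one, RingHom.mapMatrix_apply, h0, sub_zero]
  have h1 : Q * (1 - Q) = 0 := by rw [mul_sub, mul_one, hQ, sub_self]
  have h2 : Q * (1 - Q) * (1 - Q)⁻¹ = Q := by
    rw [mul_assoc, Matrix.mul_nonsing_inv _ hdet, mul_one]
  rw [← h2, h1, zero_mul]

end Local

section Lift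

variable {R : Type*} [CommRing R] [IsLocalRing R]
variable {G : Type*} [Group G] [Fintype G] [DecidableEq G]
variable {n : Type*} [Fintype n] [DecidableEq n]

theorem commute_aeval_of_commute {ι : Type*} [Fintype ι] [DecidableEq ι]
    (T A : Matrix ι ι R) (h : T * A = A * T) (f : R[X]) :
    T * aeval A f = aeval A f * T := by
  have hc : Commute T A := h
  have : Commute T (aeval A f) := by
    rw [Polynomial.aeval_eq_sum_range]
    apply Commute.sum_right
    intro i _
    exact (hc.pow_right i).smul_right _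
  exact this

/-- **Lifting representations of finite groups of invertible order** (matrix form). -/
theorem exists_lift_matrix (hR : MonicSplits R) (ρbar : G →* Matrix n n (ResidueField R))
    (hN : (Fintype.card G : ResidueField R) ≠ 0) :
    ∃ ρ : G →* Matrix n n R, ∀ g, (ρ g).map (residue R) = ρbar g := by
  classical
  have hsurj : Function.Surjective (residue R) := residue_surjective
  obtain ⟨α, hα⟩ : ∃ α : G → Matrix n n R, ∀ g, (α g).map (residue R) = ρbar g := by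
    refine ⟨fun g => (ρbar g).map (Function.surjInv hsurj), fun g => ?_⟩
    ext i j
    simp [Function.surjInv_eq hsurj]
  have hαfun : (fun g => (α g).map (residue R)) = fun g => ρbar g := funext hα
  have hNu : IsUnit (Fintype.card G : R) := by
    rw [← residue_ne_zero_iff_isUnit, map_natCast]
    exact hN
  obtain ⟨u, hu⟩ := hNu
  obtain ⟨ν, hν⟩ : ∃ ν : R, ν * (Fintype.card G : R) = 1 :=
    ⟨((u⁻¹ : Rˣ) : R), by rw [← hu]; exact Units.inv_mul u⟩
  have hνres : residue R ν * (Fintype.card G : ResidueField R) = 1 := by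
    rw [← map_natCast (residue R), ← map_mul, hν, map_one]
  -- the averaging matrix and its idempotent lift
  have hAres : (avgMat ν α).map (residue R) = avgMat (residue R ν) ρbar := by
    rw [avgMat_map, hαfun]
  have hAidem : (avgMat ν α).map (residue R) * (avgMat ν α).map (residue R) =
      (avgMat ν α).map (residue R) := by
    rw [hAres]
    exact avgMat_mul_self ρbar _ hνres
  obtain ⟨f, hE, hEres⟩ := exists_idempotent_lift hR (avgMat ν α) hAidem
  obtain ⟨E, hEdef⟩ : ∃ E : Matrix (n × G) (n × G) R, E = aeval (avgMat ν α) f := ⟨_, rfl⟩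
  rw [← hEdef] at hE hEres
  rw [hAres] at hEres
  have hEtr : ∀ h : G, tr R n h * E = E * tr R n h := by
    intro h
    rw [hEdef]
    exact commute_aeval_of_commute _ _ (tr_mul_avgMat ν α h) f
  -- the columns of `E` at `1 : G`
  obtain ⟨W, hWdef⟩ : ∃ W : Matrix (n × G) n R, W = E * inclMat R n G := ⟨_, rfl⟩
  have hWres : W.map (residue R) =
      avgMat (residue R ν) ρbar * inclMat (ResidueField R) n G := by
    rw [hWdef, Matrix.map_mul, hEres, inclMat_map]
  have hEW : E * W = W := by rw [hWdef, ← Matrix.mul_assoc, hE]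
  have hPres : (projMat α).map (residue R) = projMat ρbar := by
    rw [projMat_map, hαfun]
  obtain ⟨C, hCdef⟩ : ∃ C : Matrix n n R, C = projMat α * W := ⟨_, rfl⟩
  have hCres : C.map (residue R) = 1 := by
    rw [hCdef, Matrix.map_mul, hPres, hWres]
    exact projMat_mul_avgMat_inclMat ρbar _ hνres
  have hCdet : IsUnit C.det := isUnit_det_of_map_eq_one C hCres
  have hCinvres : (C⁻¹).map (residue R) = 1 := by
    have h1 : (C⁻¹ * C).map (residue R) = 1 := by
      rw [Matrix.nonsing_inv_mul _ hCdet]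
      ext i j
      simp [Matrix.one_apply]
    rwa [Matrix.map_mul, hCres, mul_one] at h1
  obtain ⟨L, hLdef⟩ : ∃ L : Matrix n (n × G) R, L = C⁻¹ * projMat α := ⟨_, rfl⟩
  have hLW : L * W = 1 := by
    rw [hLdef, Matrix.mul_assoc, ← hCdef]
    exact Matrix.nonsing_inv_mul C hCdet
  have hLres : L.map (residue R) = projMat ρbar := by
    rw [hLdef, Matrix.map_mul, hCinvres, Matrix.one_mul, hPres]
  have hWLres : (W * L).map (residue R) = E.map (residue R) := by
    rw [Matrix.map_mul, hWres, hLres, hEres]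
    exact avgMat_inclMat_mul_projMat ρbar _
  -- `E = W L E`
  have hQ : ((1 - W * L) * E) * ((1 - W * L) * E) = (1 - W * L) * E := by
    have h1 : E * ((1 - W * L) * E) = (1 - W * L) * E := by
      rw [sub_mul, one_mul, mul_sub, hE, ← mul_assoc, ← Matrix.mul_assoc E W L, hEW]
    have h2 : (1 - W * L) * (1 - W * L) = 1 - W * L := by
      have : W * L * (W * L) = W * L := by
        rw [Matrix.mul_assoc, ← Matrix.mul_assoc L, hLW, Matrix.one_mul]
      rw [mul_sub, mul_one, sub_mul, one_mul, this, sub_self, sub_zero]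
    rw [mul_assoc, h1, ← mul_assoc, h2]
  have hQ0 : ((1 - W * L) * E).map (residue R) = 0 := by
    have h1 : (1 - W * L).map (residue R) = 1 - E.map (residue R) := by
      have : (1 - W * L).map (residue R) = (residue R).mapMatrix (1 - W * L) := rfl
      rw [this, map_sub, map_one, RingHom.mapMatrix_apply, hWLres]
    rw [Matrix.map_mul, h1, sub_mul, one_mul, hEres, avgMat_mul_self ρbar _ hνres, sub_self]
  have hQz := eq_zero_of_idempotent_of_map_eq_zero _ hQ hQ0
  have hWLE : W * L * E = E := by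
    rw [sub_mul, one_mul, sub_eq_zero] at hQz
    exact hQz.symm
  have key : ∀ h : G, W * L * (tr R n h * W) = tr R n h * W := by
    intro h
    have h1 : tr R n h * W = E * (tr R n h * inclMat R n G) := by
      rw [hWdef, ← Matrix.mul_assoc, hEtr h, Matrix.mul_assoc]
    rw [h1, ← Matrix.mul_assoc, hWLE]
  refine ⟨{ toFun := fun g => L * (tr R n g * W), map_one' := ?_, map_mul' := ?_ }, ?_⟩
  · change L * (tr R n 1 * W) = 1
    rw [tr_one, Matrix.one_mul]
    exact hLW
  · intro g h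
    change L * (tr R n (g * h) * W) = L * (tr R n g * W) * (L * (tr R n h * W))
    calc L * (tr R n (g * h) * W) = L * (tr R n g * (tr R n h * W)) := by
          rw [tr_mul, Matrix.mul_assoc]
      _ = L * (tr R n g * (W * L * (tr R n h * W))) := by rw [key h]
      _ = L * (tr R n g * W) * (L * (tr R n h * W)) := by simp only [Matrix.mul_assoc]
  · intro g
    change (L * (tr R n g * W)).map (residue R) = ρbar g
    rw [Matrix.map_mul, Matrix.map_mul, hLres, hWres, tr_map]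
    exact projMat_mul_tr_avgMat_inclMat ρbar _ hνres g

end Lift

end Fermat.Agent.S48.H528

end
end
-- ===== PACK-END S48/H528/Lift.lean

-- ===== PACK-BEGIN Lib/ChebQ/Spec.lean
section




/-!
# Shared library CHEB-Q — quantitative Chebotarev (lower Dirichlet density), frozen statements

Client: row S48 (Deligne–Serre, Lemma 8.4): a set of primes of small upper Dirichlet density cannot
contain all primes whose Frobenius lies in a large conjugation-stable subset of a finite Galois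
group.  Lib/Cheb Tier 1/2 (`Fermat.Agent.Lib.Cheb.Spec`) are qualitative; this file states the
density versions, in the "finite set" form (no summability side conditions):

* `HasLowerDensity X d` : `∃ K, ∀ s ∈ (1,2], ∃ T ⊆ X finite, d·log(1/(s-1)) - K ≤ ∑_{p∈T} p^{-s}`;
* `HasUpperDensity X d` : `∃ K, ∀ s ∈ (1,2], ∀ T ⊆ X finite, ∑_{p∈T} p^{-s} ≤ d·log(1/(s-1)) + K`.

Definitions and `Prop`s only.  Owner: helper968.  Plan: `coord/S48-CHEBQ.md` on `origin/helper968`.
-/

set_option autoImplicit false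

open NumberField

namespace Fermat.Agent.Lib.ChebQ.Spec

open Fermat.Agent.Lib.Cheb

/-- `X` has lower Dirichlet density at least `d` (finite-set form, `O(1)` error). -/
def HasLowerDensity (X : Set ℕ) (d : ℝ) : Prop :=
  ∃ K : ℝ, ∀ s : ℝ, 1 < s → s ≤ 2 → ∃ T : Finset ℕ, (↑T ⊆ X) ∧
    d * Real.log (1 / (s - 1)) - K ≤ ∑ p ∈ T, (p : ℝ) ^ (-s)

/-- `X` has upper Dirichlet density at most `d` (finite-set form, `O(1)` error). -/
def HasUpperDensity (X : Set ℕ) (d : ℝ) : Prop :=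
  ∃ K : ℝ, ∀ s : ℝ, 1 < s → s ≤ 2 → ∀ T : Finset ℕ, (↑T ⊆ X) →
    ∑ p ∈ T, (p : ℝ) ^ (-s) ≤ d * Real.log (1 / (s - 1)) + K

/-- The rational primes `p` at which `σ` is an arithmetic Frobenius, at some prime of `𝓞 L` above
`p` with trivial inertia group.  (Invariant under conjugation of `σ`.) -/
def frobPrimes (L : Type) [Field L] [NumberField L] (σ : L ≃ₐ[ℚ] L) : Set ℕ :=
  {p | p.Prime ∧ ∃ P : Ideal (𝓞 L), P.IsPrime ∧ (p : 𝓞 L) ∈ P ∧ Spec.InertiaTrivial L P ∧
    IsArithFrobAt ℤ σ P}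

/-- (ABS-Q) quantitative abstract Dirichlet lemma: same hypotheses as helper221's
`AbstractDirichletStatement` (CYC skeleton of Lib/Cheb), quantitative conclusion. -/
def AbstractDirichletQStatement : Prop :=
  ∀ (m : ℕ) [NeZero m] (c : Nat.Primes → ℝ), (∀ p, 0 ≤ c p) →
    (∀ s : ℝ, 1 < s → s ≤ 2 → Summable (fun p : Nat.Primes => c p * (p : ℝ) ^ (-s))) →
    ∀ A : Subgroup (ZMod m)ˣ,
    (∃ B : Finset ℕ, ∀ p : Nat.Primes, (p : ℕ) ∉ B → c p ≠ 0 →
      ∃ u ∈ A, ((u : (ZMod m)ˣ) : ZMod m) = ((p : ℕ) : ZMod m)) →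
    (∃ C : ℝ, ∀ s : ℝ, 1 < s → s ≤ 2 →
      |(∑' p : Nat.Primes, c p * (p : ℝ) ^ (-s)) - Real.log (1 / (s - 1))| ≤ C) →
    (∃ C : ℝ, ∀ s : ℝ, 1 < s → s ≤ 2 →
      (Nat.card A : ℝ)⁻¹ * Real.log (1 / (s - 1)) - C ≤
        ∑' p : Nat.Primes, if ((p : ℕ) : ZMod m) = 1 then c p * (p : ℝ) ^ (-s) else 0) →
    (∀ χ : DirichletCharacter ℂ m, (∃ u ∈ A, χ ((u : (ZMod m)ˣ) : ZMod m) ≠ 1) →
      ∃ (Λ : ℝ → ℂ) (ℓ : ℂ) (C : ℝ), ContinuousOn Λ (Set.Ioi 1) ∧
        Filter.Tendsto (fun s => Complex.exp (Λ s)) (nhdsWithin 1 (Set.Ioi 1)) (nhds ℓ) ∧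
        ∀ s : ℝ, 1 < s → s ≤ 2 →
          ‖Λ s - ∑' p : Nat.Primes, χ ((p : ℕ) : ZMod m) * ((c p * (p : ℝ) ^ (-s) : ℝ) : ℂ)‖ ≤ C) →
    ∀ a ∈ A, ∃ K : ℝ, ∀ s : ℝ, 1 < s → s ≤ 2 →
      |(∑' p : Nat.Primes,
          if ((p : ℕ) : ZMod m) = ((a : (ZMod m)ˣ) : ZMod m) then c p * (p : ℝ) ^ (-s) else 0) -
        (Nat.card A : ℝ)⁻¹ * Real.log (1 / (s - 1))| ≤ K

/-- (CYC-Q) quantitative cyclotomic case, in the setting of `Cheb.Spec.CycStatement`: if `⟨g⟩`
acts faithfully on `ζ_m`, the primes with Frobenius `g` have lower density `≥ 1/|C_G(g)|`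
(`= |conjugacy class of g| / |G|`). -/
def CycDensityStatement : Prop :=
  ∀ (L : Type) [Field L] [NumberField L] [IsGalois ℚ L] (m : ℕ) (ζ : L), 0 < m →
    IsPrimitiveRoot ζ m → ∀ g : L ≃ₐ[ℚ] L, (∀ k : ℕ, (g ^ k) ζ = ζ → g ^ k = 1) →
    HasLowerDensity (frobPrimes L g)
      (Nat.card (Subgroup.centralizer ({g} : Set (L ≃ₐ[ℚ] L))) : ℝ)⁻¹

/-- (CHEB-Q, finite level) **Chebotarev density theorem, lower bound**: for every `δ > 0` the
primes with Frobenius (conjugate to) `σ` have lower Dirichlet density `≥ 1/|C_G(σ)| - δ`. -/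
def ChebDensityStatement : Prop :=
  ∀ (L : Type) [Field L] [NumberField L] [IsGalois ℚ L] (σ : L ≃ₐ[ℚ] L) (δ : ℝ), 0 < δ →
    HasLowerDensity (frobPrimes L σ)
      ((Nat.card (Subgroup.centralizer ({σ} : Set (L ≃ₐ[ℚ] L))) : ℝ)⁻¹ - δ)

/-- (CROSS-Q) quantitative field crossing. -/
def CrossDensityStatement : Prop :=
  Spec.FrobStatement → CycDensityStatement → ChebDensityStatement

/-- (CLIENT) Prelude-level client form (Deligne–Serre Lemma 8.4): `ρ` a homomorphism of `G_ℚ` to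
a finite group factoring through a finite level, `C` a conjugation-stable subset; if a set `X` of
upper density `≤ η` contains every prime `p` having a Frobenius element `φ` (in the Prelude's
sense) with `ρ φ ∈ C`, then `|C ∩ im ρ| ≤ η · |im ρ|`. -/
def ChebDensityClientStatement : Prop :=
  ∀ (G : Type) [Group G] [Finite G] (ρ : Spec.GQ →* G), GaloisFactorsThroughFiniteLevel ρ →
    ∀ C : Set G, (∀ g h : G, g ∈ C → h * g * h⁻¹ ∈ C) →
    ∀ (X : Set ℕ) (η : ℝ), HasUpperDensity X η →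
      (∀ (p : ℕ) (A : ValuationSubring Spec.Qb) (φ : Spec.GQ), p.Prime → A.LiesOverPrime p →
        A.IsFrobeniusAt φ p → ρ φ ∈ C → p ∈ X) →
      (Nat.card ↥(C ∩ Set.range ρ) : ℝ) ≤ η * (Nat.card ↥(Set.range ρ) : ℝ)

/-- (BRIDGE-Q) finite level ⇒ client form. -/
def ClientBridgeStatement : Prop :=
  ChebDensityStatement → ChebDensityClientStatement

end Fermat.Agent.Lib.ChebQ.Spec

end
-- ===== PACK-END Lib/ChebQ/Spec.lean

-- ===== PACK-BEGIN Lib/ChebQ/H968/Count.lean
section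


/-!
# CHEB-Q / CROSS-Q, combinatorial part (helper968)

In a finite cyclic group `U` whose order is divisible by `n ^ k` (`k ≥ 1`), all but a proportion
`≤ n / 2 ^ k` of the elements have order divisible by `n`.
-/

set_option autoImplicit false

namespace Fermat.Agent.Lib.ChebQ.H968

/-- If `d ∣ N`, `n ^ k ∣ N`, `1 ≤ k` and `¬ n ∣ d`, then some prime `q ∣ n` has `d ∣ N / q ^ k`. -/
theorem exists_prime_dvd_div_pow {d N n k : ℕ} (hN : N ≠ 0) (hk : 1 ≤ k) (hdN : d ∣ N)
    (hnN : n ^ k ∣ N) (hnd : ¬ n ∣ d) :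
    ∃ q : ℕ, q.Prime ∧ q ∣ n ∧ q ^ k ∣ N ∧ d ∣ N / q ^ k := by
  have hd0 : d ≠ 0 := fun h => hN (by simpa [h] using hdN)
  have hn0 : n ≠ 0 := by
    rintro rfl
    rw [zero_pow (by omega)] at hnN
    exact hN (zero_dvd_iff.mp hnN)
  -- a prime `q` with `v_q(d) < v_q(n)`
  obtain ⟨q, hq⟩ : ∃ q, d.factorization q < n.factorization q := by
    by_contra hcon
    apply hnd
    rw [← Nat.factorization_le_iff_dvd hn0 hd0]
    intro q
    exact not_lt.mp (fun h => hcon ⟨q, h⟩)
  have hqp : q.Prime := by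
    by_contra hnp
    rw [Nat.factorization_eq_zero_of_not_prime n hnp] at hq
    exact absurd hq (Nat.not_lt_zero _)
  have hqn : q ∣ n := by
    have : 0 < n.factorization q := lt_of_le_of_lt (Nat.zero_le _) hq
    exact Nat.dvd_of_factorization_pos (by omega)
  have hqk : q ^ k ∣ N := (pow_dvd_pow_of_dvd hqn k).trans hnN
  refine ⟨q, hqp, hqn, hqk, ?_⟩
  have hdiv0 : N / q ^ k ≠ 0 := by
    intro h
    have hpos : 0 < q ^ k := pow_pos hqp.pos k
    have := Nat.div_mul_cancel hqk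
    rw [h, zero_mul] at this
    exact hN this.symm
  rw [← Nat.factorization_le_iff_dvd hd0 hdiv0]
  intro r
  rw [Nat.factorization_div hqk]
  simp only [Finsupp.coe_tsub, Pi.sub_apply]
  have hdr : d.factorization r ≤ N.factorization r :=
    (Nat.factorization_le_iff_dvd hd0 hN).mpr hdN r
  by_cases hrq : r = q
  · subst hrq
    have h1 : (n ^ k).factorization r ≤ N.factorization r :=
      (Nat.factorization_le_iff_dvd (pow_ne_zero k hn0) hN).mpr hnN r
    rw [Nat.factorization_pow] at h1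
    simp only [Finsupp.coe_smul, Pi.smul_apply, smul_eq_mul] at h1
    rw [Nat.Prime.factorization_pow hqp]
    simp only [Finsupp.single_eq_same]
    -- v(d) + 1 ≤ v(n), k * v(n) ≤ v(N)
    have h2 : k * (d.factorization r + 1) ≤ N.factorization r :=
      le_trans (Nat.mul_le_mul_left k hq) h1
    have h3 : d.factorization r + k ≤ k * (d.factorization r + 1) := by
      have : d.factorization r ≤ k * d.factorization r := Nat.le_mul_of_pos_left _ (by omega)
      linarith [Nat.mul_add k (d.factorization r) 1]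
    omega
  · rw [Nat.Prime.factorization_pow hqp]
    simp only [Finsupp.single_apply]
    rw [if_neg (fun h => hrq h.symm)]
    simpa using hdr

variable {U : Type*} [Group U] [Fintype U] [DecidableEq U]

/-- In a finite cyclic group of order divisible by `n ^ k`, `k ≥ 1`, the number of elements whose
order is not divisible by `n` is at most `n * (|U| / 2 ^ k)`. -/
theorem card_filter_not_dvd_orderOf_le [IsCyclic U] {n k : ℕ} (hk : 1 ≤ k)
    (hnN : n ^ k ∣ Fintype.card U) :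
    (Finset.univ.filter (fun t : U => ¬ n ∣ orderOf t)).card ≤ n * (Fintype.card U / 2 ^ k) := by
  classical
  set N := Fintype.card U with hNdef
  have hN : N ≠ 0 := Fintype.card_ne_zero
  by_cases hn0 : n = 0
  · subst hn0
    rw [zero_pow (by omega)] at hnN
    exact absurd (zero_dvd_iff.mp hnN) hN
  -- the bad set is covered by the sets `{t | t ^ (N / q ^ k) = 1}`, `q ∈ n.primeFactors`
  have hcover : Finset.univ.filter (fun t : U => ¬ n ∣ orderOf t) ⊆
      n.primeFactors.biUnion (fun q => Finset.univ.filter (fun t : U => t ^ (N / q ^ k) = 1)) := by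
    intro t ht
    rw [Finset.mem_filter] at ht
    obtain ⟨q, hqp, hqn, -, hd⟩ :=
      exists_prime_dvd_div_pow hN hk (orderOf_dvd_card (x := t)) hnN ht.2
    rw [Finset.mem_biUnion]
    refine ⟨q, Nat.mem_primeFactors.mpr ⟨hqp, hqn, hn0⟩, ?_⟩
    rw [Finset.mem_filter]
    exact ⟨Finset.mem_univ _, orderOf_dvd_iff_pow_eq_one.mp hd⟩
  refine (Finset.card_le_card hcover).trans (Finset.card_biUnion_le.trans ?_)
  have hle : ∀ q ∈ n.primeFactors,
      (Finset.univ.filter (fun t : U => t ^ (N / q ^ k) = 1)).card ≤ N / 2 ^ k := by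
    intro q hq
    have hqp : q.Prime := (Nat.mem_primeFactors.mp hq).1
    have hqn : q ∣ n := (Nat.mem_primeFactors.mp hq).2.1
    have hqk : q ^ k ∣ N := (pow_dvd_pow_of_dvd hqn k).trans hnN
    have hpos : 0 < N / q ^ k :=
      Nat.div_pos (Nat.le_of_dvd (Nat.pos_of_ne_zero hN) hqk) (pow_pos hqp.pos k)
    refine (IsCyclic.card_pow_eq_one_le hpos).trans ?_
    exact Nat.div_le_div_left (Nat.pow_le_pow_left hqp.two_le k) (pow_pos (by norm_num) k)
  calc ∑ q ∈ n.primeFactors, (Finset.univ.filter (fun t : U => t ^ (N / q ^ k) = 1)).card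
      ≤ ∑ _q ∈ n.primeFactors, N / 2 ^ k := Finset.sum_le_sum hle
    _ = n.primeFactors.card * (N / 2 ^ k) := by rw [Finset.sum_const, smul_eq_mul]
    _ ≤ n * (N / 2 ^ k) := by
        apply Nat.mul_le_mul_right
        calc n.primeFactors.card ≤ (Finset.Icc 1 n).card := by
              apply Finset.card_le_card
              intro q hq
              have hqp : q.Prime := (Nat.mem_primeFactors.mp hq).1
              have hqn : q ∣ n := (Nat.mem_primeFactors.mp hq).2.1
              exact Finset.mem_Icc.mpr ⟨hqp.one_lt.le, Nat.le_of_dvd (Nat.pos_of_ne_zero hn0) hqn⟩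
          _ = n := by simp

/-- Real form: the good elements (order divisible by `n`) are at least `(1 - n / 2 ^ k) |U|`. -/
theorem card_filter_dvd_orderOf_ge [IsCyclic U] {n k : ℕ} (hk : 1 ≤ k)
    (hnN : n ^ k ∣ Fintype.card U) :
    (1 - (n : ℝ) / 2 ^ k) * (Fintype.card U : ℝ) ≤
      ((Finset.univ.filter (fun t : U => n ∣ orderOf t)).card : ℝ) := by
  classical
  have h1 := card_filter_not_dvd_orderOf_le (U := U) hk hnN
  have h2 : (Finset.univ.filter (fun t : U => n ∣ orderOf t)).card +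
      (Finset.univ.filter (fun t : U => ¬ n ∣ orderOf t)).card = Fintype.card U := by
    rw [Finset.card_filter_add_card_filter_not, Finset.card_univ]
  have h3 : ((Fintype.card U / 2 ^ k : ℕ) : ℝ) ≤ (Fintype.card U : ℝ) / 2 ^ k := by
    rw [le_div_iff₀ (by positivity)]
    have := Nat.div_mul_le_self (Fintype.card U) (2 ^ k)
    exact_mod_cast this
  have h4 : ((Finset.univ.filter (fun t : U => ¬ n ∣ orderOf t)).card : ℝ) ≤
      (n : ℝ) * ((Fintype.card U : ℝ) / 2 ^ k) := by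
    calc ((Finset.univ.filter (fun t : U => ¬ n ∣ orderOf t)).card : ℝ)
        ≤ ((n * (Fintype.card U / 2 ^ k) : ℕ) : ℝ) := by exact_mod_cast h1
      _ = (n : ℝ) * ((Fintype.card U / 2 ^ k : ℕ) : ℝ) := by push_cast; ring
      _ ≤ (n : ℝ) * ((Fintype.card U : ℝ) / 2 ^ k) := by gcongr
  have h5 : ((Finset.univ.filter (fun t : U => n ∣ orderOf t)).card : ℝ) +
      ((Finset.univ.filter (fun t : U => ¬ n ∣ orderOf t)).card : ℝ) = (Fintype.card U : ℝ) := by
    exact_mod_cast h2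
  have h6 : (1 - (n : ℝ) / 2 ^ k) * (Fintype.card U : ℝ) =
      (Fintype.card U : ℝ) - (n : ℝ) * ((Fintype.card U : ℝ) / 2 ^ k) := by ring
  rw [h6]
  linarith

/-- choice of `k`: `n / 2 ^ k ≤ δ` for some `k ≥ 1`. -/
theorem exists_pow_two_ge (n : ℕ) {δ : ℝ} (hδ : 0 < δ) : ∃ k : ℕ, 1 ≤ k ∧ (n : ℝ) / 2 ^ k ≤ δ := by
  obtain ⟨k, hk⟩ := pow_unbounded_of_one_lt ((n : ℝ) / δ) (by norm_num : (1 : ℝ) < 2)
  refine ⟨k + 1, by omega, ?_⟩
  rw [div_le_iff₀ (by positivity)]
  have h1 : (n : ℝ) < δ * 2 ^ k := by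
    rw [div_lt_iff₀ hδ] at hk
    linarith
  have h2 : (2 : ℝ) ^ k ≤ 2 ^ (k + 1) := by
    rw [pow_succ]
    have : (0 : ℝ) < 2 ^ k := by positivity
    linarith
  nlinarith

end Fermat.Agent.Lib.ChebQ.H968

end
-- ===== PACK-END Lib/ChebQ/H968/Count.lean

-- ===== PACK-BEGIN S48/H288/EisChar.lean
section



/-!
# S48 / P1 (helper288): Eisenstein series with character

For a Dirichlet character `χ` mod `N` and `k ≥ 3` we consider
`eisChar χ k z = ∑_{(c,d) ∈ ℤ²} χ(c) (c z + d)^{-k}`.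

* `eisChar_slash` : `eisChar χ k ∣[k] γ = χ(γ₁₁) • eisChar χ k` for `γ ∈ Γ₀(N)`;
* `eisCharMF` : it is a modular form on `Γ₁(N)`;
* `eisChar_eq_tsum` : for `χ(-1) = (-1)^k = -1`,
  `eisChar χ k z = 2 (-2πi)^k/(k-1)! ∑_{n ≥ 1} (∑_{d ∣ n} χ(d) (n/d)^{k-1}) q^n`.

Built on the landed `Fermat.Agent.S29.H332.WeightedEis` (weighted Eisenstein sums).
-/

set_option autoImplicit false

open UpperHalfPlane ModularForm MatrixGroups CongruenceSubgroup EisensteinSeries Matrix
open scoped Real Manifold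
open Complex Nat

noncomputable section

namespace Fermat.Agent.S48.H288

open Fermat.Agent.S29.H332

variable {N : ℕ}

/-- The weight function `v ↦ χ(v₀)` on `ℤ²`. -/
def chiWeight (χ : DirichletCharacter ℂ N) (v : Fin 2 → ℤ) : ℂ := χ ((v 0 : ℤ) : ZMod N)

theorem norm_chiWeight_le (χ : DirichletCharacter ℂ N) (v : Fin 2 → ℤ) : ‖chiWeight χ v‖ ≤ 1 :=
  χ.norm_le_one _

/-- The Eisenstein series `∑ χ(c) (cz+d)^{-k}`. -/
def eisChar (χ : DirichletCharacter ℂ N) (k : ℤ) : ℍ → ℂ := wEis (chiWeight χ) k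

theorem chiWeight_vecMul_inv (χ : DirichletCharacter ℂ N) (γ : SL(2, ℤ)) (hγ : γ ∈ Gamma0 N)
    (v : Fin 2 → ℤ) :
    chiWeight χ (v ᵥ* (γ⁻¹).1) = χ ((γ 1 1 : ℤ) : ZMod N) * chiWeight χ v := by
  unfold chiWeight
  have h : ((γ 1 0 : ℤ) : ZMod N) = 0 := Gamma0_mem.mp hγ
  have h2 : (v ᵥ* (γ⁻¹).1) 0 = v 0 * γ 1 1 - v 1 * γ 1 0 := by
    rw [Matrix.SpecialLinearGroup.coe_inv, Matrix.adjugate_fin_two]
    simp [Matrix.vecMul, dotProduct, Fin.sum_univ_two]
    ring
  rw [h2]
  push_cast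
  rw [h, mul_zero, sub_zero, map_mul, mul_comm]

/-- Transformation law under `Γ₀(N)`. -/
theorem eisChar_slash (χ : DirichletCharacter ℂ N) (k : ℤ) (γ : SL(2, ℤ)) (hγ : γ ∈ Gamma0 N) :
    eisChar χ k ∣[k] γ = χ ((γ 1 1 : ℤ) : ZMod N) • eisChar χ k := by
  unfold eisChar
  rw [wEis_slash]
  ext z
  simp only [wEis, Pi.smul_apply, smul_eq_mul]
  rw [← tsum_mul_left]
  congr 1
  funext v
  rw [chiWeight_vecMul_inv χ γ hγ]
  ring

theorem eisChar_slash_Gamma1 (χ : DirichletCharacter ℂ N) (k : ℤ) (γ : SL(2, ℤ))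
    (hγ : γ ∈ Gamma1 N) : eisChar χ k ∣[k] γ = eisChar χ k := by
  rw [eisChar_slash χ k γ (Gamma1_in_Gamma0 N hγ)]
  have := ((Gamma1_mem N γ).mp hγ).2.1
  rw [this, map_one, one_smul]

/-! ### The `q`-expansion -/

section qexp


theorem summable_weight_prod_mul_pow (w : ℕ → ℂ) (hw : ∀ n, ‖w n‖ ≤ 1) (k : ℕ) {r : ℂ}
    (hr : ‖r‖ < 1) :
    Summable fun c : ℕ+ × ℕ+ ↦ w c.1 * ((c.2 : ℂ) ^ k * r ^ (c.1 * c.2 : ℕ)) := by
  have h := (summable_prod_mul_pow (𝕜 := ℂ) k hr).norm
  refine Summable.of_norm_bounded h fun c ↦ ?_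
  rw [norm_mul]
  exact mul_le_of_le_one_left (norm_nonneg _) (hw _)

theorem tsum_prod_weight_pow (w : ℕ → ℂ) (hw : ∀ n, ‖w n‖ ≤ 1) (k : ℕ) {r : ℂ} (hr : ‖r‖ < 1) :
    ∑' d : ℕ+, ∑' c : ℕ+, w d * ((c : ℂ) ^ k * r ^ (d * c : ℕ)) =
      ∑' e : ℕ+, (∑ d ∈ (e : ℕ).divisors, w d * ((e / d : ℕ) : ℂ) ^ k) * r ^ (e : ℕ) := by
  have hS := summable_weight_prod_mul_pow w hw k hr
  rw [← hS.tsum_prod]
  have hS' : Summable fun c : (n : ℕ+) × {x // x ∈ (n : ℕ).divisorsAntidiagonal} ↦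
      w c.2.1.1 * ((c.2.1.2 : ℂ) ^ k * r ^ (c.2.1.1 * c.2.1.2)) := by
    have := sigmaAntidiagonalEquivProd.summable_iff.mpr hS
    refine this.congr fun c ↦ ?_
    simp [sigmaAntidiagonalEquivProd, divisorsAntidiagonalFactors]
  rw [← sigmaAntidiagonalEquivProd.tsum_eq]
  simp only [sigmaAntidiagonalEquivProd, divisorsAntidiagonalFactors, PNat.mk_coe, Equiv.coe_fn_mk]
  rw [Summable.tsum_sigma hS']
  refine tsum_congr fun n ↦ ?_
  rw [tsum_fintype, Finset.sum_mul, Finset.univ_eq_attach,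
    (n : ℕ).divisorsAntidiagonal.sum_attach
      fun x : ℕ × ℕ ↦ w x.1 * ((x.2 : ℂ) ^ k * r ^ (x.1 * x.2)),
    Nat.sum_divisorsAntidiagonal fun x y ↦ w x * ((y : ℂ) ^ k * r ^ (x * y))]
  refine Finset.sum_congr rfl fun i hi ↦ ?_
  rw [Nat.mul_div_cancel' (dvd_of_mem_divisors hi)]
  ring



theorem chi_zero_of_odd (χ : DirichletCharacter ℂ N) (hχ : χ (-1) = -1) : χ 0 = 0 := by
  by_contra h
  have hu : IsUnit (0 : ZMod N) := by
    by_contra hu
    exact h (χ.map_nonunit hu)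
  have h1 : (-1 : ZMod N) = 1 := by
    have : Subsingleton (ZMod N) := by
      obtain ⟨u, hu⟩ := hu
      have h01 : (0 : ZMod N) = 1 := by
        have := u.mul_inv
        rw [hu, zero_mul] at this
        exact this
      exact subsingleton_of_zero_eq_one h01
    exact Subsingleton.elim _ _
  rw [h1, map_one] at hχ
  norm_num at hχ

theorem summable_chi_eisSummand_prod (χ : DirichletCharacter ℂ N) {k : ℕ} (hk : 3 ≤ k) (z : ℍ) :
    Summable fun x : ℤ × ℤ ↦ χ ((x.1 : ℤ) : ZMod N) * eisSummand k ![x.1, x.2] z := by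
  have h := summable_wEis (norm_chiWeight_le χ) (k := (k : ℤ)) (by exact_mod_cast hk) z
  refine (finTwoArrowEquiv ℤ).summable_iff.mp <| h.congr (fun v ↦ ?_)
  simp [chiWeight, show ![v 0, v 1] = v from List.ofFn_inj.mp rfl]

theorem eisChar_eq_tsum_prod (χ : DirichletCharacter ℂ N) {k : ℕ} (hk : 3 ≤ k) (z : ℍ) :
    eisChar χ k z = ∑' c : ℤ, ∑' d : ℤ, χ ((c : ℤ) : ZMod N) * eisSummand k ![c, d] z := by
  unfold eisChar wEis chiWeight
  rw [← (finTwoArrowEquiv ℤ).symm.tsum_eq, finTwoArrowEquiv_symm_apply,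
    Summable.tsum_prod (by simpa using summable_chi_eisSummand_prod χ hk z)]
  simp



/-- the inner sum -/
def innerSum (χ : DirichletCharacter ℂ N) (k : ℕ) (z : ℍ) (c : ℤ) : ℂ :=
  ∑' d : ℤ, χ ((c : ℤ) : ZMod N) * eisSummand k ![c, d] z

theorem innerSum_even (χ : DirichletCharacter ℂ N) (hχ : χ (-1) = -1) {k : ℕ} (hodd : Odd k)
    (z : ℍ) : Function.Even (innerSum χ k z) := by
  intro c
  unfold innerSum
  rw [← tsum_comp_neg]
  refine tsum_congr fun d ↦ ?_
  have h1 : χ ((((-c : ℤ)) : ℤ) : ZMod N) = - χ ((c : ℤ) : ZMod N) := by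
    rw [Int.cast_neg, ← neg_one_mul, map_mul, hχ, neg_one_mul]
  have h2 : eisSummand k ![-c, -d] z = - eisSummand k ![c, d] z := by
    simp only [eisSummand, Matrix.cons_val_zero, Matrix.cons_val_one, Int.cast_neg]
    rw [show (-(c : ℂ) * (z : ℂ) + -(d : ℂ)) = -((c : ℂ) * z + d) by ring]
    rw [_root_.zpow_neg, _root_.zpow_neg, zpow_natCast, zpow_natCast, hodd.neg_pow, inv_neg]
  rw [h1, h2]
  ring

theorem innerSum_zero (χ : DirichletCharacter ℂ N) (hχ : χ (-1) = -1) (k : ℕ) (z : ℍ) :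
    innerSum χ k z 0 = 0 := by
  unfold innerSum
  simp [chi_zero_of_odd χ hχ]

theorem innerSum_pnat (χ : DirichletCharacter ℂ N) {k : ℕ} (hk : 3 ≤ k) (z : ℍ) (c : ℕ+) :
    innerSum χ k z (c : ℕ) = ((-2 * π * Complex.I) ^ k / (k - 1)!) *
      ∑' n : ℕ+, χ ((c : ℕ) : ZMod N) * ((n : ℂ) ^ (k - 1) * cexp (2 * π * Complex.I * z) ^ (c * n : ℕ)) := by
  unfold innerSum
  have H := qExpansion_identity_pnat (k := k - 1) (by omega) ⟨c * z, by simpa using z.2⟩
  simp_rw [show k - 1 + 1 = k by omega, one_div] at H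
  rw [tsum_mul_left, tsum_mul_left]
  have h3 : ∑' d : ℤ, eisSummand k ![((c : ℕ) : ℤ), d] z =
      ∑' d : ℤ, (((c : ℂ) * (z : ℂ)) + d)⁻¹ ^ k := by
    refine tsum_congr fun d ↦ ?_
    simp [eisSummand]
  rw [h3]
  simp only [inv_pow]
  rw [H]
  have h4 : ∀ n : ℕ+, cexp (2 * π * Complex.I * (c * z)) ^ (n : ℕ) = cexp (2 * π * Complex.I * z) ^ (c * n : ℕ) := by
    intro n
    rw [← Complex.exp_nat_mul, ← Complex.exp_nat_mul]
    congr 1
    push_cast
    ring
  simp_rw [h4]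
  simp
  ring


/-- The `q`-expansion of `eisChar` as a convergent series. -/
theorem eisChar_eq_tsum (χ : DirichletCharacter ℂ N) (hχ : χ (-1) = -1) {k : ℕ} (hk : 3 ≤ k)
    (hodd : Odd k) (z : ℍ) :
    eisChar χ k z = 2 * ((-2 * π * Complex.I) ^ k / (k - 1)!) *
      ∑' n : ℕ+, (∑ d ∈ (n : ℕ).divisors, χ ((d : ℕ) : ZMod N) * ((n / d : ℕ) : ℂ) ^ (k - 1)) *
        cexp (2 * π * Complex.I * z) ^ (n : ℕ) := by
  rw [eisChar_eq_tsum_prod χ hk z]
  have hsum : Summable (innerSum χ k z) := (summable_chi_eisSummand_prod χ hk z).prod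
  have h1 := tsum_int_eq_zero_add_two_mul_tsum_pnat (innerSum_even χ hχ hodd z) hsum
  unfold innerSum at h1
  rw [h1]
  have h0 := innerSum_zero χ hχ k z
  unfold innerSum at h0
  rw [h0, zero_add]
  have h2 : ∀ c : ℕ+, ∑' d : ℤ, χ ((((c : ℕ) : ℤ)) : ZMod N) * eisSummand k ![((c : ℕ) : ℤ), d] z =
      ((-2 * π * Complex.I) ^ k / (k - 1)!) *
      ∑' n : ℕ+, χ ((c : ℕ) : ZMod N) *
        ((n : ℂ) ^ (k - 1) * cexp (2 * π * Complex.I * z) ^ (c * n : ℕ)) := fun c ↦
    innerSum_pnat χ hk z c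
  simp_rw [h2]
  rw [tsum_mul_left, tsum_prod_weight_pow (fun d ↦ χ ((d : ℕ) : ZMod N)) (fun d ↦ χ.norm_le_one _)
    (k - 1) (norm_exp_two_pi_I_lt_one z)]
  rw [nsmul_eq_mul]
  push_cast
  ring




theorem one_mem_strictPeriods_Gamma1 (N : ℕ) :
    (1 : ℝ) ∈ ((Gamma1 N).map (Matrix.SpecialLinearGroup.mapGL ℝ)).strictPeriods := by
  simp

/-- The twisted divisor sum `∑_{d ∣ n} χ(d) (n/d)^k`. -/
def sigmaChi (χ : DirichletCharacter ℂ N) (k : ℕ) (n : ℕ) : ℂ :=
  ∑ d ∈ n.divisors, χ ((d : ℕ) : ZMod N) * ((n / d : ℕ) : ℂ) ^ k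

@[simp] theorem sigmaChi_zero (χ : DirichletCharacter ℂ N) (k : ℕ) : sigmaChi χ k 0 = 0 := by
  simp [sigmaChi]

@[simp] theorem sigmaChi_one (χ : DirichletCharacter ℂ N) (k : ℕ) : sigmaChi χ k 1 = 1 := by
  simp [sigmaChi]

theorem norm_sigmaChi_le (χ : DirichletCharacter ℂ N) (k : ℕ) (n : ℕ) :
    ‖sigmaChi χ k n‖ ≤ (n : ℝ) ^ (k + 1) := by
  unfold sigmaChi
  refine (norm_sum_le _ _).trans ?_
  have h1 : ∀ d ∈ n.divisors, ‖χ ((d : ℕ) : ZMod N) * ((n / d : ℕ) : ℂ) ^ k‖ ≤ (n : ℝ) ^ k := by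
    intro d hd
    rw [norm_mul, norm_pow, Complex.norm_natCast]
    calc ‖χ ((d : ℕ) : ZMod N)‖ * ((n / d : ℕ) : ℝ) ^ k ≤ 1 * (n : ℝ) ^ k := by
          gcongr
          · exact χ.norm_le_one _
          · exact_mod_cast Nat.div_le_self n d
      _ = (n : ℝ) ^ k := one_mul _
  refine (Finset.sum_le_sum h1).trans ?_
  rw [Finset.sum_const, nsmul_eq_mul, pow_succ, mul_comm]
  gcongr
  exact_mod_cast Nat.card_divisors_le_self n

theorem summable_sigmaChi_mul_pow (χ : DirichletCharacter ℂ N) (k : ℕ) {r : ℂ} (hr : ‖r‖ < 1) :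
    Summable fun n : ℕ ↦ sigmaChi χ k n * r ^ n := by
  apply Summable.of_norm_bounded
    (summable_norm_pow_mul_geometric_of_norm_lt_one (k + 1) hr)
  intro n
  simp only [norm_mul, Complex.norm_natCast, norm_pow]
  gcongr
  exact norm_sigmaChi_le χ k n


variable [NeZero N]

/-- `eisChar χ k` as a modular form on `Γ₁(N)`. -/
def eisCharMF (χ : DirichletCharacter ℂ N) {k : ℤ} (hk : 3 ≤ k) :
    ModularForm ((Gamma1 N).map (Matrix.SpecialLinearGroup.mapGL ℝ)) k where
  toFun := eisChar χ k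
  slash_action_eq' := by
    rintro _ ⟨γ, hγ, rfl⟩
    exact eisChar_slash_Gamma1 χ k γ hγ
  holo' := wEis_mdifferentiable (norm_chiWeight_le χ) hk
  bdd_at_cusps' {c} hc := by
    rw [Subgroup.IsArithmetic.isCusp_iff_isCusp_SL2Z] at hc
    rw [OnePoint.isBoundedAt_iff_forall_SL2Z hc]
    exact fun γ _ ↦ wEis_slash_isBoundedAtImInfty (norm_chiWeight_le χ) hk γ

@[simp] theorem coe_eisCharMF (χ : DirichletCharacter ℂ N) {k : ℤ} (hk : 3 ≤ k) :
    ⇑(eisCharMF χ hk) = eisChar χ k := rfl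

/-- The normalised Eisenstein series with character `χ`, with `q`-expansion
`∑_{n ≥ 1} (∑_{d ∣ n} χ(d) (n/d)^{k-1}) q^n`. -/
def eisCharNorm (χ : DirichletCharacter ℂ N) {k : ℕ} (hk : 3 ≤ k) :
    ModularForm ((Gamma1 N).map (Matrix.SpecialLinearGroup.mapGL ℝ)) k :=
  (2 * ((-2 * π * Complex.I) ^ k / (k - 1)!))⁻¹ • eisCharMF χ (k := (k : ℤ)) (by exact_mod_cast hk)

theorem eisCharNorm_apply (χ : DirichletCharacter ℂ N) {k : ℕ} (hk : 3 ≤ k) (z : ℍ) :
    eisCharNorm χ hk z = (2 * ((-2 * π * Complex.I) ^ k / (k - 1)!))⁻¹ * eisChar χ k z := rfl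

theorem eisConst_ne_zero (k : ℕ) : (2 * ((-2 * π * Complex.I) ^ k / (k - 1)!) : ℂ) ≠ 0 := by
  have h1 : (-2 * π * Complex.I : ℂ) ≠ 0 := by
    simp [Real.pi_ne_zero, Complex.I_ne_zero]
  have h2 : ((k - 1)! : ℂ) ≠ 0 := by exact_mod_cast Nat.factorial_ne_zero _
  exact mul_ne_zero two_ne_zero (div_ne_zero (pow_ne_zero _ h1) h2)

theorem eisCharNorm_hasSum (χ : DirichletCharacter ℂ N) (hχ : χ (-1) = -1) {k : ℕ} (hk : 3 ≤ k)
    (hodd : Odd k) (τ : ℍ) :
    HasSum (fun m : ℕ ↦ sigmaChi χ (k - 1) m • Function.Periodic.qParam (1 : ℝ) τ ^ m) (eisCharNorm χ hk τ) := by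
  have hq : Function.Periodic.qParam (1 : ℝ) τ = cexp (2 * π * Complex.I * τ) := by
    simp [Function.Periodic.qParam]
  rw [hq]
  have hS : Summable fun n : ℕ ↦ sigmaChi χ (k - 1) n * cexp (2 * π * Complex.I * τ) ^ n :=
    summable_sigmaChi_mul_pow χ (k - 1) (norm_exp_two_pi_I_lt_one τ)
  have hval : eisCharNorm χ hk τ =
      ∑' n : ℕ, sigmaChi χ (k - 1) n * cexp (2 * π * Complex.I * τ) ^ n := by
    rw [eisCharNorm_apply, eisChar_eq_tsum χ hχ hk hodd τ, ← mul_assoc,
      inv_mul_cancel₀ (eisConst_ne_zero k), one_mul,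
      tsum_pnat_eq_tsum_succ
        (f := fun n ↦ (∑ d ∈ (n : ℕ).divisors, χ ((d : ℕ) : ZMod N) * ((n / d : ℕ) : ℂ) ^ (k - 1)) *
          cexp (2 * π * Complex.I * τ) ^ n)]
    rw [hS.tsum_eq_zero_add]
    simp [sigmaChi]
  rw [hval]
  simpa [smul_eq_mul] using hS.hasSum

/-- The `q`-expansion coefficients of the normalised Eisenstein series with character. -/
theorem eisCharNorm_qExpansion_coeff (χ : DirichletCharacter ℂ N) (hχ : χ (-1) = -1) {k : ℕ}
    (hk : 3 ≤ k) (hodd : Odd k) (m : ℕ) :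
    (qExpansion 1 (eisCharNorm χ hk)).coeff m = sigmaChi χ (k - 1) m :=
  (ModularFormClass.qExpansion_coeff_unique one_pos (one_mem_strictPeriods_Gamma1 N)
    (eisCharNorm_hasSum χ hχ hk hodd) m).symm

theorem eisCharNorm_ne_zero (χ : DirichletCharacter ℂ N) (hχ : χ (-1) = -1) {k : ℕ}
    (hk : 3 ≤ k) (hodd : Odd k) : eisCharNorm χ hk ≠ 0 := by
  intro h
  have h1 := eisCharNorm_qExpansion_coeff χ hχ hk hodd 1
  rw [h, sigmaChi_one] at h1
  simp [qExpansion_zero] at h1

end qexp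

end Fermat.Agent.S48.H288

end
end
-- ===== PACK-END S48/H288/EisChar.lean

-- ===== PACK-BEGIN S24/Mod/H708QSubst.lean
section



/-!
# S24 / MOD-QINF (helper708), part 2: twists, substitution `τ ↦ (aτ+b)/d`

* `twist ξ` : the ring automorphism `φ(z) ↦ φ(ξ z)` of `LaurentSeries ℂ` (`ξ ≠ 0`),
  with `order`/`leadingCoeff` formulas in the shape of `LocalData`.
* `HasQExp.comp_affine` : if `f` has `q_h`-expansion `φ` then `τ ↦ f ((aτ+b)/d)` has
  `q_{h'}`-expansion `qExpand e (twist ξ φ)`, `e = h' a / (d h)`, `ξ = exp (2πi b/(d h))`.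
-/

set_option autoImplicit false
set_option linter.unusedSectionVars false

noncomputable section

namespace Fermat.Agent.S24.H708

open Complex Function Filter
open UpperHalfPlane hiding I
open scoped Manifold Real Topology

/-! ### The twist `φ(z) ↦ φ(ξ z)` -/

/-- `φ(z) ↦ φ(ξ z)` on Laurent series, as a plain function. -/
def twistFun (ξ : ℂ) (φ : LaurentSeries ℂ) : LaurentSeries ℂ where
  coeff n := ξ ^ n * φ.coeff n
  isPWO_support' := φ.isPWO_support.mono (fun n hn => by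
    simp only [Function.mem_support, ne_eq] at hn ⊢
    intro h0
    exact hn (by rw [h0, mul_zero]))

@[simp] lemma twistFun_coeff (ξ : ℂ) (φ : LaurentSeries ℂ) (n : ℤ) :
    (twistFun ξ φ).coeff n = ξ ^ n * φ.coeff n := rfl

lemma twistFun_support {ξ : ℂ} (hξ : ξ ≠ 0) (φ : LaurentSeries ℂ) :
    (twistFun ξ φ).support = φ.support := by
  ext n
  simp [HahnSeries.mem_support, zpow_ne_zero n hξ]

lemma twistFun_mul {ξ : ℂ} (hξ : ξ ≠ 0) (x y : LaurentSeries ℂ) :
    twistFun ξ (x * y) = twistFun ξ x * twistFun ξ y := by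
  ext a
  rw [twistFun_coeff, HahnSeries.coeff_mul, HahnSeries.coeff_mul, Finset.mul_sum]
  refine Finset.sum_congr ?_ ?_
  · ext ij
    simp only [Finset.mem_antidiagonal, twistFun_support hξ]
  · intro ij hij
    rw [Finset.mem_antidiagonal] at hij
    obtain ⟨-, -, rfl⟩ := hij
    rw [twistFun_coeff, twistFun_coeff, zpow_add₀ hξ]
    ring

/-- The ring homomorphism `φ(z) ↦ φ(ξ z)` of `LaurentSeries ℂ`. -/
def twist (ξ : ℂ) (hξ : ξ ≠ 0) : LaurentSeries ℂ →+* LaurentSeries ℂ where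
  toFun := twistFun ξ
  map_one' := by
    ext n
    rw [twistFun_coeff, HahnSeries.coeff_one]
    by_cases hn : n = 0
    · subst hn; simp
    · simp [hn]
  map_mul' := twistFun_mul hξ
  map_zero' := by ext n; simp
  map_add' x y := by ext n; simp [mul_add]

@[simp] lemma twist_coeff {ξ : ℂ} (hξ : ξ ≠ 0) (φ : LaurentSeries ℂ) (n : ℤ) :
    (twist ξ hξ φ).coeff n = ξ ^ n * φ.coeff n := rfl

lemma twist_C {ξ : ℂ} (hξ : ξ ≠ 0) (c : ℂ) : twist ξ hξ (HahnSeries.C c) = HahnSeries.C c := by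
  ext n
  rw [twist_coeff]
  show ξ ^ n * (HahnSeries.single 0 c).coeff n = (HahnSeries.single 0 c).coeff n
  by_cases hn : n = 0
  · subst hn; simp
  · rw [HahnSeries.coeff_single_of_ne hn, mul_zero]

lemma twist_one_eq {hξ : (1 : ℂ) ≠ 0} (φ : LaurentSeries ℂ) : twist 1 hξ φ = φ := by
  ext n; simp

lemma twist_twist {ξ η : ℂ} (hξ : ξ ≠ 0) (hη : η ≠ 0) (φ : LaurentSeries ℂ) :
    twist ξ hξ (twist η hη φ) = twist (ξ * η) (mul_ne_zero hξ hη) φ := by
  ext n
  simp only [twist_coeff, mul_zpow]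
  ring

lemma twist_injective {ξ : ℂ} (hξ : ξ ≠ 0) : Function.Injective (twist ξ hξ) := by
  intro x y hxy
  ext n
  have := congrArg (fun z => z.coeff n) hxy
  simp only [twist_coeff] at this
  exact mul_left_cancel₀ (zpow_ne_zero n hξ) this

lemma twist_eq_zero_iff {ξ : ℂ} (hξ : ξ ≠ 0) {φ : LaurentSeries ℂ} :
    twist ξ hξ φ = 0 ↔ φ = 0 :=
  map_eq_zero_iff _ (twist_injective hξ)

lemma twist_order {ξ : ℂ} (hξ : ξ ≠ 0) (φ : LaurentSeries ℂ) :
    (twist ξ hξ φ).order = φ.order := by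
  by_cases h0 : φ = 0
  · subst h0; simp
  have h0' : twist ξ hξ φ ≠ 0 := fun h => h0 ((twist_eq_zero_iff hξ).mp h)
  apply le_antisymm
  · apply HahnSeries.order_le_of_coeff_ne_zero
    rw [twist_coeff]
    exact mul_ne_zero (zpow_ne_zero _ hξ) (HahnSeries.coeff_order_eq_zero.not.mpr h0)
  · apply HahnSeries.order_le_of_coeff_ne_zero
    have := HahnSeries.coeff_order_eq_zero.not.mpr h0'
    rw [twist_coeff] at this
    exact right_ne_zero_of_mul this

/-- `leadingCoeff` of a twist, in the shape of `LocalData.σ_perm_leadingCoeff`. -/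
lemma twist_leadingCoeff {ξ : ℂ} (hξ : ξ ≠ 0) (φ : LaurentSeries ℂ) :
    (twist ξ hξ φ).leadingCoeff = ξ ^ φ.order * φ.leadingCoeff := by
  rw [HahnSeries.leadingCoeff_eq, HahnSeries.leadingCoeff_eq, twist_order, twist_coeff]


/-! ### Order and leading coefficient of `qExpand` -/

section qExpand

open ModularCurve

variable (e : ℕ) [NeZero e]

lemma qExpand_eq_zero_iff {φ : LaurentSeries ℂ} : qExpand ℂ e φ = 0 ↔ φ = 0 :=
  map_eq_zero_iff _ (qExpand_injective e)

lemma qExpand_order (φ : LaurentSeries ℂ) : (qExpand ℂ e φ).order = (e : ℤ) * φ.order := by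
  by_cases h0 : φ = 0
  · subst h0; simp
  have h0' : qExpand ℂ e φ ≠ 0 := fun h => h0 ((qExpand_eq_zero_iff e).mp h)
  have hepos : (0 : ℤ) < (e : ℤ) := by exact_mod_cast Nat.pos_of_ne_zero (NeZero.ne e)
  apply le_antisymm
  · apply HahnSeries.order_le_of_coeff_ne_zero
    rw [qExpand_coeff_mul]
    exact HahnSeries.coeff_order_eq_zero.not.mpr h0
  · have hne := HahnSeries.coeff_order_eq_zero.not.mpr h0'
    have hdvd : (e : ℤ) ∣ (qExpand ℂ e φ).order := by
      by_contra hnd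
      exact hne (qExpand_coeff_of_not_dvd e φ hnd)
    obtain ⟨k, hk⟩ := hdvd
    rw [hk, qExpand_coeff_mul] at hne
    rw [hk]
    exact mul_le_mul_of_nonneg_left (HahnSeries.order_le_of_coeff_ne_zero hne) hepos.le

lemma qExpand_leadingCoeff (φ : LaurentSeries ℂ) :
    (qExpand ℂ e φ).leadingCoeff = φ.leadingCoeff := by
  rw [HahnSeries.leadingCoeff_eq, HahnSeries.leadingCoeff_eq, qExpand_order, qExpand_coeff_mul]

end qExpand

/-! ### Substitution `τ ↦ (aτ+b)/d` -/

section subst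

open ModularCurve

lemma exp_ne_zero' (z : ℂ) : Complex.exp z ≠ 0 := Complex.exp_ne_zero z

/-- The root of unity / twisting factor `exp (2πi b/(d h))`. -/
def twistFactor (b : ℤ) (d h : ℕ) : ℂ := Complex.exp (2 * π * I * (b : ℂ) / ((d : ℂ) * (h : ℂ)))

lemma twistFactor_ne_zero (b : ℤ) (d h : ℕ) : twistFactor b d h ≠ 0 := Complex.exp_ne_zero _

lemma qh_affine {h h' a d : ℕ} [NeZero h] [NeZero h'] (hd : d ≠ 0) (b : ℤ) (e : ℕ)
    (he : e * (d * h) = h' * a) (τ τ' : ℍ) (hτ' : (τ' : ℂ) = ((a : ℂ) * τ + b) / d) :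
    qh h τ' = twistFactor b d h * qh h' τ ^ e := by
  have hh : (h : ℂ) ≠ 0 := by exact_mod_cast NeZero.ne h
  have hh' : (h' : ℂ) ≠ 0 := by exact_mod_cast NeZero.ne h'
  have hdc : (d : ℂ) ≠ 0 := by exact_mod_cast hd
  have hec : (e : ℂ) * ((d : ℂ) * (h : ℂ)) = (h' : ℂ) * (a : ℂ) := by exact_mod_cast he
  have h1 : (a : ℂ) / ((d : ℂ) * h) = e / h' := by
    rw [div_eq_div_iff (mul_ne_zero hdc hh) hh']
    linear_combination -hec
  have h2 : 2 * (π : ℂ) * I * (((a : ℂ) * τ + b) / d) / h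
      = 2 * π * I * b / (d * h) + 2 * π * I * τ * ((a : ℂ) / ((d : ℂ) * h)) := by
    field_simp
    ring
  have key : 2 * (π : ℂ) * I * (((a : ℂ) * τ + b) / d) / h
      = 2 * π * I * b / (d * h) + e * (2 * π * I * τ / h') := by
    rw [h2, h1]
    ring
  simp only [qh_apply, Function.Periodic.qParam, twistFactor, ← Complex.exp_nat_mul,
    ← Complex.exp_add, hτ']
  refine congrArg Complex.exp ?_
  rw [Complex.ofReal_natCast, Complex.ofReal_natCast]
  exact key

lemma mdiff_comp_affine {f : ℍ → ℂ} (hf : MDiff f) {a d : ℕ} (ha : a ≠ 0) (hd : d ≠ 0) (b : ℤ)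
    (A : ℍ → ℍ) (hA : ∀ τ : ℍ, (A τ : ℂ) = ((a : ℂ) * τ + b) / d) : MDiff (f ∘ A) := by
  rw [UpperHalfPlane.mdifferentiable_iff] at hf ⊢
  have hdc : (d : ℂ) ≠ 0 := by exact_mod_cast hd
  have hapos : (0 : ℝ) < a := by exact_mod_cast Nat.pos_of_ne_zero ha
  have hdpos : (0 : ℝ) < d := by exact_mod_cast Nat.pos_of_ne_zero hd
  have him : ∀ w : ℂ, 0 < w.im → 0 < ((((a : ℂ) * w + b) / d)).im := by
    intro w hw
    have : ((((a : ℂ) * w + b) / d)).im = (a : ℝ) * w.im / d := by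
      have h1 : (((a : ℂ) * w + b) / d) = (((a : ℝ) : ℂ) * w + ((b : ℝ) : ℂ)) / ((d : ℝ) : ℂ) := by
        push_cast; rfl
      rw [h1, Complex.div_ofReal_im]
      simp
    rw [this]
    positivity
  have hg : DifferentiableOn ℂ (fun w : ℂ => ((a : ℂ) * w + b) / d) {z : ℂ | 0 < z.im} := by
    apply Differentiable.differentiableOn
    fun_prop
  have hcomp := hf.comp hg (fun w hw => him w hw)
  refine hcomp.congr ?_
  intro w hw
  simp only [comp_apply]
  congr 1
  apply UpperHalfPlane.ext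
  rw [hA, ofComplex_apply_of_im_pos hw, ofComplex_apply_of_im_pos (him w hw)]

/-- **Substitution.** If `f` has `q_h`-expansion `φ`, then `τ ↦ f ((aτ+b)/d)` has
`q_{h'}`-expansion `φ(ξ z^e)`, where `e = h' a / (d h)` and `ξ = exp (2πi b/(d h))`. -/
theorem HasQExp.comp_affine {h h' a d : ℕ} [NeZero h] [NeZero h'] (ha : a ≠ 0) (hd : d ≠ 0)
    (b : ℤ) (e : ℕ) [NeZero e] (he : e * (d * h) = h' * a) {f : ℍ → ℂ} {φ : LaurentSeries ℂ}
    (hf : HasQExp h f φ) (A : ℍ → ℍ) (hA : ∀ τ : ℍ, (A τ : ℂ) = ((a : ℂ) * τ + b) / d) :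
    HasQExp h' (f ∘ A) (qExpand ℂ e (twist (twistFactor b d h) (twistFactor_ne_zero b d h) φ)) := by
  refine HasQExp.of_hasSum (mdiff_comp_affine hf.mdiff ha hd b A hA) ?_
  intro τ
  set ξ := twistFactor b d h with hξdef
  have hξ : ξ ≠ 0 := twistFactor_ne_zero b d h
  set ψ := qExpand ℂ e (twist ξ hξ φ) with hψ
  have hq : qh h (A τ) = ξ * qh h' τ ^ e := qh_affine hd b e he τ (A τ) (hA τ)
  have hs := hf.hasSum (A τ)
  have hinj : Function.Injective (fun n : ℤ => (e : ℤ) * n) := by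
    intro x y hxy
    have hepos : (e : ℤ) ≠ 0 := by exact_mod_cast NeZero.ne e
    exact mul_left_cancel₀ hepos hxy
  have hrange : ∀ m : ℤ, m ∉ Set.range (fun n : ℤ => (e : ℤ) * n) →
      (fun m : ℤ => ψ.coeff m * qh h' τ ^ m) m = 0 := by
    intro m hm
    have hnd : ¬ (e : ℤ) ∣ m := by
      rintro ⟨k, rfl⟩
      exact hm ⟨k, rfl⟩
    simp only [hψ, qExpand_coeff_of_not_dvd e _ hnd, zero_mul]
  rw [← hinj.hasSum_iff hrange]
  have hfun : ((fun m : ℤ => ψ.coeff m * qh h' τ ^ m) ∘ fun n : ℤ => (e : ℤ) * n)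
      = fun n : ℤ => φ.coeff n * qh h (A τ) ^ n := by
    funext n
    simp only [comp_apply, hψ, qExpand_coeff_mul, twist_coeff, hq, mul_zpow]
    rw [zpow_mul, zpow_natCast]
    ring
  rw [hfun]
  exact hs

/-- Translation `τ ↦ τ + 1`: the expansion is twisted by `ζ_h = exp (2πi/h)`. -/
theorem HasQExp.comp_translate {h : ℕ} [NeZero h] {f : ℍ → ℂ} {φ : LaurentSeries ℂ}
    (hf : HasQExp h f φ) (A : ℍ → ℍ) (hA : ∀ τ : ℍ, (A τ : ℂ) = (τ : ℂ) + 1) :
    HasQExp h (f ∘ A) (twist (twistFactor 1 1 h) (twistFactor_ne_zero 1 1 h) φ) := by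
  have := hf.comp_affine (h' := h) (a := 1) (d := 1) one_ne_zero one_ne_zero 1 1 (by ring) A
    (by intro τ; rw [hA]; push_cast; ring)
  rwa [qExpand_one_apply] at this

/-- Change of period `h → h * k`. -/
theorem HasQExp.of_period_mul {h : ℕ} [NeZero h] (k : ℕ) [NeZero k] {f : ℍ → ℂ}
    {φ : LaurentSeries ℂ} (hf : HasQExp h f φ) :
    haveI : NeZero (h * k) := ⟨mul_ne_zero (NeZero.ne h) (NeZero.ne k)⟩
    HasQExp (h * k) f (qExpand ℂ k φ) := by
  have : NeZero (h * k) := ⟨mul_ne_zero (NeZero.ne h) (NeZero.ne k)⟩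
  have := hf.comp_affine (h' := h * k) (a := 1) (d := 1) one_ne_zero one_ne_zero 0 k (by ring) id
    (by intro τ; simp)
  have h1 : twistFactor 0 1 h = 1 := by simp [twistFactor]
  have h2 : twist (twistFactor 0 1 h) (twistFactor_ne_zero 0 1 h) φ = φ := by
    ext n; simp [h1]
  rwa [h2] at this

end subst

end Fermat.Agent.S24.H708

end
end
-- ===== PACK-END S24/Mod/H708QSubst.lean

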