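import Mathlib
import Fermat.Prelude.Def_ModularCurve_ReductionModL
import Fermat.Prelude.Def_GaloisRep_Residual
import Fermat.Prelude.Def_Deformations_MatrixRepresentation
import Fermat.Prelude.Thm_UpperHalfPlane_qCoeff_heckeU
import Fermat.Prelude.Thm_ModularForm_mdifferentiable_heckeU
import Fermat.Prelude.Thm_ModularForm_isBoundedAtImInfty_heckeU
import Fermat.Prelude.Thm_ModularForm_periodic_heckeU_comp_ofComplex
import Fermat.Agent.Pack.S44C.G0E0L1
import Fermat.Agent.Pack.S44C.G0E11L0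
import Fermat.Agent.Pack.L1B.E0L1
import Fermat.Agent.Pack.L1B.E0L0
import Fermat.Agent.Pack.L1B.E0L2
import Fermat.Agent.Pack.L1B.E0L3
import Fermat.Agent.Pack.L1.E2L1
import Fermat.Agent.Pack.L1.E10L0

-- ===== PACK-BEGIN S18/H516/GaussBC.lean
section





/-!
# S18 / MOD (helper516): base-change bookkeeping

* `baseChange_eq_fullC` : `laurentBaseChange L (modularFunctionFieldFull N) = modularFunctionFieldFullC L N`.
* `algebraMap_eq_C`, `aeval_jq_eq_evJ`, `integral_map` (integrality equations along coefficient maps),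
  `integral_of_mem_closure`, `transcendental_jqModC`.
-/

set_option autoImplicit false
set_option linter.unusedSectionVars false

noncomputable section

namespace Fermat.Agent.S18.H516

open ModularCurve IntermediateField Polynomial Fermat.Agent.S28

section BaseChange

variable (L : Type*) [Field L] [Algebra ℚ L] (N : ℕ) [NeZero N]

theorem coeffEmb_qExpand_jq (d : ℕ) [NeZero d] :
    coeffEmb L (qExpand ℚ d jq) = qExpand L d (jqModC L) := by
  rw [coeffEmb, coeffMap_qExpand, ← jqModC_rat, coeffMap_jqModC]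

theorem coeffEmb_algebraMap' (r : ℚ) :
    coeffEmb L (algebraMap ℚ (LaurentSeries ℚ) r) =
      algebraMap L (LaurentSeries L) (algebraMap ℚ L r) := by
  rw [algebraMap_laurentSeries_eq_single, algebraMap_laurentSeries_eq_single, coeffEmb,
    coeffMap_single]

theorem coeffEmb_mem_fullC {x : LaurentSeries ℚ} (hx : x ∈ modularFunctionFieldFull N) :
    coeffEmb L x ∈ modularFunctionFieldFullC L N := by
  unfold modularFunctionFieldFull at hx
  induction hx using IntermediateField.adjoin_induction with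
  | mem x hx =>
    obtain ⟨d, hd, hdN, rfl⟩ := hx
    rw [coeffEmb_qExpand_jq]
    exact jqModCd_mem_full L N hdN
  | algebraMap r =>
    rw [coeffEmb_algebraMap']
    exact (modularFunctionFieldFullC L N).algebraMap_mem _
  | add x y _ _ hx hy => rw [map_add]; exact add_mem hx hy
  | inv x _ hx => rw [map_inv₀]; exact inv_mem hx
  | mul x y _ _ hx hy => rw [map_mul]; exact mul_mem hx hy

/-- The two descriptions of the function field over `L` agree. -/
theorem baseChange_eq_fullC :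
    laurentBaseChange L (modularFunctionFieldFull N) = modularFunctionFieldFullC L N := by
  apply le_antisymm
  · rw [laurentBaseChange, adjoin_le_iff]
    rintro z ⟨w, hw, rfl⟩
    exact coeffEmb_mem_fullC L N hw
  · rw [modularFunctionFieldFullC, adjoin_le_iff]
    rintro z ⟨d, hd, hdN, rfl⟩
    rw [← coeffEmb_qExpand_jq]
    exact coeffEmb_mem_laurentBaseChange L (jqd_mem_full N hdN)

end BaseChange

section Aeval

variable {R : Type*} [CommRing R]

theorem algebraMap_eq_C (a : R) :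
    algebraMap R (LaurentSeries R) a = HahnSeries.C (Γ := ℤ) a := by
  have h1 : algebraMap R (PowerSeries R) a = PowerSeries.C a := by simp
  rw [HahnSeries.algebraMap_apply', h1, HahnSeries.ofPowerSeries_C]

theorem aeval_jq_eq_evJ (s : R[X]) : Polynomial.aeval (jqModC R) s = evJ s := by
  rw [Polynomial.aeval_def, evJ]
  congr 1
  ext a : 1
  exact algebraMap_eq_C a

theorem aeval_toRingHom_comp_map {S : Type*} [CommRing S] (f : R →+* S) (x : LaurentSeries R) :
    ((Polynomial.aeval (coeffMap f x)).toRingHom).comp (Polynomial.mapRingHom f) =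
      (coeffMap f).comp (Polynomial.aeval x).toRingHom := by
  apply Polynomial.ringHom_ext
  · intro a
    simp only [RingHom.comp_apply, Polynomial.coe_mapRingHom, Polynomial.map_C,
      AlgHom.toRingHom_eq_coe, RingHom.coe_coe, Polynomial.aeval_C]
    rw [algebraMap_eq_C, algebraMap_eq_C, coeffMap_C]
  · simp only [RingHom.comp_apply, Polynomial.coe_mapRingHom, Polynomial.map_X,
      AlgHom.toRingHom_eq_coe, RingHom.coe_coe, Polynomial.aeval_X]

/-- Base change of an integrality equation along a coefficient map. -/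
theorem integral_map {S : Type*} [CommRing S] (f : R →+* S) {x y : LaurentSeries R}
    (h : ∃ P : R[X][X], P.Monic ∧ P.eval₂ (Polynomial.aeval x).toRingHom y = 0) :
    ∃ P : S[X][X], P.Monic ∧
      P.eval₂ (Polynomial.aeval (coeffMap f x)).toRingHom (coeffMap f y) = 0 := by
  obtain ⟨P, hP, hPy⟩ := h
  refine ⟨P.map (Polynomial.mapRingHom f), hP.map _, ?_⟩
  rw [Polynomial.eval₂_map, aeval_toRingHom_comp_map, ← Polynomial.hom_eval₂, hPy, map_zero]

end Aeval

section IntZ

/-- Elements of `ℤ[j(q^d) : d ∣ N]` are integral over `ℤ[j]` as soon as the generators are. -/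
theorem integral_of_mem_closure (N : ℕ)
    (hint : ∀ (d : ℕ) [NeZero d], d ∣ N →
      ∃ P : Polynomial (Polynomial ℤ), P.Monic ∧
        P.eval₂ (evalAt (jqModC ℤ)) (qExpand ℤ d (jqModC ℤ)) = 0)
    {y : LaurentSeries ℤ} (hy : y ∈ Subring.closure (intDivisorExpansions N)) :
    (evalAt (jqModC ℤ)).IsIntegralElem y := by
  induction hy using Subring.closure_induction with
  | mem x hx =>
    obtain ⟨d, hd, hdN, rfl⟩ := hx
    exact hint d hdN
  | zero => exact (evalAt (jqModC ℤ)).isIntegralElem_zero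
  | one => exact (evalAt (jqModC ℤ)).isIntegralElem_one
  | add x y _ _ hx hy => exact RingHom.IsIntegralElem.add _ hx hy
  | neg x _ hx => exact RingHom.IsIntegralElem.neg _ hx
  | mul x y _ _ hx hy => exact RingHom.IsIntegralElem.mul _ hx hy

end IntZ

theorem transcendental_jqModC (K : Type*) [Field K] : Transcendental K (jqModC K) := by
  rw [transcendental_iff]
  intro p hp
  rw [aeval_eq_evJ] at hp
  exact (evJ_eq_zero_iff K).mp hp

end Fermat.Agent.S18.H516

end
end
-- ===== PACK-END S18/H516/GaussBC.lean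

-- ===== PACK-BEGIN S48/Top/Spec.lean
section





/-!
# S48 (Deligne–Serre) — TOP-LEVEL frozen interface (row deputy helper948)

Everything in this file is a `Prop` (no proofs, no `sorry`).  The row is assembled as

  `RankinStatement` + `EigenConjStatement`                       ⟹ `ValuesStatement`        (VAL)
  `ResidualStatement` (TOWER A1 + P2)                            ⟹ `ResidualMatStatement`   (MAT)
  MAT + VAL + `ChebDensityStatement` + `FiniteImageStatement`    ⟹ `BoundedImageStatement`  (BND)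
  BND + `LiftStatement`                                          ⟹ `ComplexLiftStatement`   (CLIFT)
  CLIFT                                                          ⟹ `ExactAwayStatement`     (EXA)
  EXA + `ChebDensityStatement`                                   ⟹ `ExactStatement`         (TWO)
  `RankinStatement` + `ChebDensityStatement`                     ⟹ `IrreducibleStatement`   (IRR)
  `ExactStatement` + `IrreducibleStatement`                      ⟹ `S48Statement`           (END)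

External inputs (deep): `ResidualStatement`, `EigenConjStatement`, `RankinStatement`,
`FiniteImageStatement`, `LiftStatement`, `Lib.Cheb.SpecQ.ChebDensityStatement`.
Plan, owners, status: `coord/S48.md` on branch `origin/helper948`.
-/

set_option autoImplicit false

open CongruenceSubgroup
open scoped MatrixGroups
open Matrix

namespace Fermat.Agent.S48.Top

open Fermat.Agent.Lib.Cheb.Spec Fermat.Agent.Lib.Cheb.SpecQ

/-- `ℤ̄ ⊆ ℂ`, the ring of algebraic integers (the coefficient ring of the Prelude). -/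
abbrev Zbar : Type := integralClosure ℤ ℂ

/-! ## The hypotheses of S48 -/

/-- The hypotheses of S48 on `(N, ε, f)`: `a₁ = 1` and the Hecke relations at `p ∤ N`. -/
def IsEigen (N : ℕ) [NeZero N] (ε : DirichletCharacter ℂ N) (f : CuspForm (Gamma1 N) 1) : Prop :=
  ModularFormClass.qCoeff f 1 = 1 ∧
  ∀ p : ℕ, p.Prime → ¬ p ∣ N → ∀ n : ℕ,
    ModularFormClass.qCoeff f (p * n) +
        ε (p : ZMod N) * (if p ∣ n then ModularFormClass.qCoeff f (n / p) else 0) =
      ModularFormClass.qCoeff f p * ModularFormClass.qCoeff f n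

/-! ## Attachment predicates -/

/-- `r : G_ℚ → GL₂(k)` is attached to `(f, ε)` through `φ : ℤ̄ → k` away from `D`: it is unramified
at every prime `p ∤ D`, and every Frobenius at `p` has trace `φ(a_p)` and determinant `φ(ε(p))`. -/
def IsAttachedMod {N : ℕ} [NeZero N] (ε : DirichletCharacter ℂ N) (f : CuspForm (Gamma1 N) 1)
    {k : Type} [Field k] (φ : Zbar →+* k) (D : ℕ) (r : GQ →* GL (Fin 2) k) : Prop :=
  ∀ p : ℕ, p.Prime → ¬ p ∣ D → ∀ A : ValuationSubring Qb, A.LiesOverPrime p →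
    (∀ σ ∈ A.inertiaSubgroupIn ℚ, r σ = 1) ∧
    ∀ σ : GQ, A.IsFrobeniusAt σ p →
      ∃ a e : Zbar, (a : ℂ) = ModularFormClass.qCoeff f p ∧ (e : ℂ) = ε (p : ZMod N) ∧
        ((r σ : GL (Fin 2) k) : Matrix (Fin 2) (Fin 2) k).trace = φ a ∧
        ((r σ : GL (Fin 2) k) : Matrix (Fin 2) (Fin 2) k).det = φ e

/-- `ρ : G_ℚ → GL₂(ℂ)` is congruent to `(f, ε)` modulo `φ` away from `D`: unramified at `p ∤ D`, and
trace and determinant of every Frobenius at `p` are algebraic integers with the same image under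
`φ` as `a_p` and `ε(p)`. -/
def IsCongruentC {N : ℕ} [NeZero N] (ε : DirichletCharacter ℂ N) (f : CuspForm (Gamma1 N) 1)
    {k : Type} [Field k] (φ : Zbar →+* k) (D : ℕ) (ρ : GQ →* GL (Fin 2) ℂ) : Prop :=
  ∀ p : ℕ, p.Prime → ¬ p ∣ D → ∀ A : ValuationSubring Qb, A.LiesOverPrime p →
    (∀ σ ∈ A.inertiaSubgroupIn ℚ, ρ σ = 1) ∧
    ∀ σ : GQ, A.IsFrobeniusAt σ p →
      ∃ a e t d : Zbar, (a : ℂ) = ModularFormClass.qCoeff f p ∧ (e : ℂ) = ε (p : ZMod N) ∧
        (t : ℂ) = ((ρ σ : GL (Fin 2) ℂ) : Matrix (Fin 2) (Fin 2) ℂ).trace ∧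
        (d : ℂ) = ((ρ σ : GL (Fin 2) ℂ) : Matrix (Fin 2) (Fin 2) ℂ).det ∧
        φ t = φ a ∧ φ d = φ e

/-- `ρ : G_ℚ → GL₂(ℂ)` is attached to `(f, ε)` away from `D` (the last clause of S48 for `D = N`). -/
def IsAttachedC {N : ℕ} [NeZero N] (ε : DirichletCharacter ℂ N) (f : CuspForm (Gamma1 N) 1)
    (D : ℕ) (ρ : GQ →* GL (Fin 2) ℂ) : Prop :=
  ∀ p : ℕ, p.Prime → ¬ p ∣ D → ∀ A : ValuationSubring Qb, A.LiesOverPrime p →
    (∀ σ ∈ A.inertiaSubgroupIn ℚ, ρ σ = 1) ∧
    ∀ σ : GQ, A.IsFrobeniusAt σ p →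
      ((ρ σ : GL (Fin 2) ℂ) : Matrix (Fin 2) (Fin 2) ℂ).trace = ModularFormClass.qCoeff f p ∧
      ((ρ σ : GL (Fin 2) ℂ) : Matrix (Fin 2) (Fin 2) ℂ).det = ε (p : ZMod N)

/-! ## Group-theoretic predicates (same bodies as `S48/FI/Spec.lean` of helper768) -/

section Defs

variable {F : Type*} [Field F]

/-- `(trace, det)` of an invertible `2 × 2` matrix. -/
def trDet (g : GL (Fin 2) F) : F × F :=
  ((g : Matrix (Fin 2) (Fin 2) F).trace, (g : Matrix (Fin 2) (Fin 2) F).det)

/-- Semisimplicity of the tautological representation of `G` on `F²`: every `G`-stable line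
has a `G`-stable complement. -/
def StableLinesSplit (G : Subgroup (GL (Fin 2) F)) : Prop :=
  ∀ v : Fin 2 → F, v ≠ 0 →
    (∀ g ∈ G, ∃ c : F, (g : Matrix (Fin 2) (Fin 2) F) *ᵥ v = c • v) →
    ∃ w : Fin 2 → F, (∀ c : F, w ≠ c • v) ∧
      ∀ g ∈ G, ∃ c : F, (g : Matrix (Fin 2) (Fin 2) F) *ᵥ w = c • w

/-- The condition `C(η, M)` of Deligne–Serre: a subset `H` of proportion at least `1 - η` on
which `(trace, det)` takes at most `M` values. -/
def CondC (η : ℝ) (M : ℕ) (G : Subgroup (GL (Fin 2) F)) : Prop :=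
  ∃ H : Set (GL (Fin 2) F), H ⊆ (G : Set (GL (Fin 2) F)) ∧
    (1 - η) * (Nat.card G : ℝ) ≤ (Nat.card H : ℝ) ∧
    ∃ P : Finset (F × F), P.card ≤ M ∧ ∀ h ∈ H, trDet h ∈ P

end Defs

/-! ## External inputs -/

/-- **P4 (RANKIN), sharp form.**  `∑_{p ∈ T} |a_p|² p^{-s} ≤ log (1/(s-1)) + C` for `1 < s ≤ 2`
and every finite set `T` of primes not dividing `N`. -/
def RankinStatement : Prop :=
  ∀ (N : ℕ) [NeZero N] (ε : DirichletCharacter ℂ N) (f : CuspForm (Gamma1 N) 1),
    IsEigen N ε f → ∃ C : ℝ, ∀ s : ℝ, 1 < s → s ≤ 2 → ∀ T : Finset ℕ,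
      (∀ p ∈ T, p.Prime ∧ ¬ p ∣ N) →
      ∑ p ∈ T, ‖ModularFormClass.qCoeff f p‖ ^ 2 * (p : ℝ) ^ (-s) ≤
        Real.log (1 / (s - 1)) + C

/-- **P1 (INT / rational structure of `S₁(Γ₁(N))`), in the form consumed by the row.**  The
eigenvalues `a_p` (`p ∤ N`) are algebraic integers of a number field `K ⊆ ℂ`, and for every
embedding `τ` of `K` the conjugate system `(τ a_p)` is again the system of eigenvalues of a
form satisfying the hypotheses of S48 (for some character `ε'`, in fact `τ ∘ ε`). -/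
def EigenConjStatement : Prop :=
  ∀ (N : ℕ) [NeZero N] (ε : DirichletCharacter ℂ N) (f : CuspForm (Gamma1 N) 1),
    IsEigen N ε f → ∃ K : IntermediateField ℚ ℂ, FiniteDimensional ℚ K ∧
      (∀ p : ℕ, p.Prime → ¬ p ∣ N →
        ModularFormClass.qCoeff f p ∈ K ∧ IsIntegral ℤ (ModularFormClass.qCoeff f p)) ∧
      ∀ τ : K →ₐ[ℚ] ℂ, ∃ (ε' : DirichletCharacter ℂ N) (f' : CuspForm (Gamma1 N) 1),
        IsEigen N ε' f' ∧ ∀ p : ℕ, p.Prime → ¬ p ∣ N → ∀ x : K,
          (x : ℂ) = ModularFormClass.qCoeff f p → ModularFormClass.qCoeff f' p = τ x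

/-- **P2 + P3 (TOWER A1), in the shape of the frozen S29.**  For every large prime `ℓ`, every
field `k` of characteristic `ℓ` and every `φ : ℤ̄ → k` there is a residual Galois representation
over `k`, unramified outside `Nℓ`, with Frobenius characteristic polynomials
`X² - φ(a_p) X + φ(ε(p))` (`p ∤ Nℓ`). -/
def ResidualStatement : Prop :=
  ∀ (N : ℕ) [NeZero N] (ε : DirichletCharacter ℂ N) (f : CuspForm (Gamma1 N) 1),
    IsEigen N ε f → ∃ B : ℕ, ∀ ℓ : ℕ, ℓ.Prime → B < ℓ →
      ∀ (k : Type) [Field k] [CharP k ℓ] (φ : Zbar →+* k),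
        ∃ ρ : ResidualGaloisRep k,
          ∀ p : ℕ, p.Prime → ¬ p ∣ N * ℓ → ρ.IsUnramifiedAt p ∧
            ∀ A : ValuationSubring Qb, A.LiesOverPrime p →
              ∀ σ : GQ, A.IsFrobeniusAt σ p →
                ∃ a e : Zbar, (a : ℂ) = ModularFormClass.qCoeff f p ∧
                  (e : ℂ) = ε (p : ZMod N) ∧
                  LinearMap.charpoly (ρ.ρ σ) =
                    Polynomial.X ^ 2 - Polynomial.C (φ a) * Polynomial.X + Polynomial.C (φ e)

/-- **P5 (FI), general-field form.**  For `η < 1/2` and `M` there is `A` such that for every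
prime `ℓ > A`, every field `k` of characteristic `ℓ` and every finite semisimple subgroup
`G ≤ GL₂(k)` with `C(η, M)` one has `|G| ≤ A`. -/
def FiniteImageStatement : Prop :=
  ∀ (η : ℝ) (M : ℕ), η < 1 / 2 → ∃ A : ℕ, ∀ ℓ : ℕ, ℓ.Prime → A < ℓ →
    ∀ (k : Type) [Field k] [CharP k ℓ] (G : Subgroup (GL (Fin 2) k)), Finite G →
      StableLinesSplit G → CondC η M G → Nat.card G ≤ A

/-- **P6a (LIFT).**  For every prime `ℓ` there are a field `k` of characteristic `ℓ` and
`φ : ℤ̄ → k` such that every homomorphism `r` from a finite group of order prime to `ℓ` to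
`GL₂(k)` lifts to `GL₂(ℂ)`: traces and determinants of the lift are algebraic integers reducing
to those of `r` under `φ`. -/
def LiftStatement : Prop :=
  ∀ ℓ : ℕ, ℓ.Prime → ∃ (k : Type) (_ : Field k) (_ : CharP k ℓ) (φ : Zbar →+* k),
    ∀ (G : Type) [Group G] [Finite G], ¬ ℓ ∣ Nat.card G → ∀ r : G →* GL (Fin 2) k,
      ∃ R : G →* GL (Fin 2) ℂ, ∀ g : G, ∃ t d : Zbar,
        (t : ℂ) = ((R g : GL (Fin 2) ℂ) : Matrix (Fin 2) (Fin 2) ℂ).trace ∧
        (d : ℂ) = ((R g : GL (Fin 2) ℂ) : Matrix (Fin 2) (Fin 2) ℂ).det ∧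
        φ t = ((r g : GL (Fin 2) k) : Matrix (Fin 2) (Fin 2) k).trace ∧
        φ d = ((r g : GL (Fin 2) k) : Matrix (Fin 2) (Fin 2) k).det

/-! ## Derived statements (the layers of the assembly) -/

/-- **VAL** (D–S Prop. 5.5): outside a set of primes of upper density `≤ η`, the eigenvalues
`a_p` take finitely many values. -/
def ValuesStatement : Prop :=
  ∀ (N : ℕ) [NeZero N] (ε : DirichletCharacter ℂ N) (f : CuspForm (Gamma1 N) 1),
    IsEigen N ε f → ∀ η : ℝ, 0 < η → ∃ Y : Finset ℂ,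
      HasUpperDensity {p : ℕ | p.Prime ∧ ¬ p ∣ N ∧ ModularFormClass.qCoeff f p ∉ Y} η

/-- **MAT**: `ResidualStatement` in matrix form, semisimplified. -/
def ResidualMatStatement : Prop :=
  ∀ (N : ℕ) [NeZero N] (ε : DirichletCharacter ℂ N) (f : CuspForm (Gamma1 N) 1),
    IsEigen N ε f → ∃ B : ℕ, ∀ ℓ : ℕ, ℓ.Prime → B < ℓ →
      ∀ (k : Type) [Field k] [CharP k ℓ] (φ : Zbar →+* k),
        ∃ r : GQ →* GL (Fin 2) k, GaloisFactorsThroughFiniteLevel r ∧
          StableLinesSplit r.range ∧ IsAttachedMod ε f φ (N * ℓ) r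

/-- **BND** (D–S §8, first half): the images of the mod-`ℓ` representations have bounded order. -/
def BoundedImageStatement : Prop :=
  ∀ (N : ℕ) [NeZero N] (ε : DirichletCharacter ℂ N) (f : CuspForm (Gamma1 N) 1),
    IsEigen N ε f → ∃ A B : ℕ, ∀ ℓ : ℕ, ℓ.Prime → B < ℓ →
      ∀ (k : Type) [Field k] [CharP k ℓ] (φ : Zbar →+* k),
        ∃ r : GQ →* GL (Fin 2) k, GaloisFactorsThroughFiniteLevel r ∧
          IsAttachedMod ε f φ (N * ℓ) r ∧ Finite r.range ∧ Nat.card r.range ≤ A

/-- **CLIFT**: complex representations of bounded image, congruent to `(f, ε)` modulo a place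
above `ℓ`, for every large `ℓ`. -/
def ComplexLiftStatement : Prop :=
  ∀ (N : ℕ) [NeZero N] (ε : DirichletCharacter ℂ N) (f : CuspForm (Gamma1 N) 1),
    IsEigen N ε f → ∃ A B : ℕ, ∀ ℓ : ℕ, ℓ.Prime → B < ℓ →
      ∃ (k : Type) (_ : Field k) (_ : CharP k ℓ) (φ : Zbar →+* k) (ρ : GQ →* GL (Fin 2) ℂ),
        GaloisFactorsThroughFiniteLevel ρ ∧ IsCongruentC ε f φ (N * ℓ) ρ ∧
          Finite ρ.range ∧ Nat.card ρ.range ≤ A

/-- **EXA** (D–S §8, second half): for every large `ℓ` a complex representation of finite image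
attached to `(f, ε)` away from `Nℓ`. -/
def ExactAwayStatement : Prop :=
  ∀ (N : ℕ) [NeZero N] (ε : DirichletCharacter ℂ N) (f : CuspForm (Gamma1 N) 1),
    IsEigen N ε f → ∃ B : ℕ, ∀ ℓ : ℕ, ℓ.Prime → B < ℓ →
      ∃ ρ : GQ →* GL (Fin 2) ℂ, GaloisFactorsThroughFiniteLevel ρ ∧ IsAttachedC ε f (N * ℓ) ρ

/-- **TWO** (removing `ℓ` by comparing two primes): a complex representation of finite image
attached to `(f, ε)` away from `N`. -/
def ExactStatement : Prop :=
  ∀ (N : ℕ) [NeZero N] (ε : DirichletCharacter ℂ N) (f : CuspForm (Gamma1 N) 1),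
    IsEigen N ε f →
      ∃ ρ : GQ →* GL (Fin 2) ℂ, GaloisFactorsThroughFiniteLevel ρ ∧ IsAttachedC ε f N ρ

/-- **IRR**: such a representation is irreducible. -/
def IrreducibleStatement : Prop :=
  ∀ (N : ℕ) [NeZero N] (ε : DirichletCharacter ℂ N) (f : CuspForm (Gamma1 N) 1),
    IsEigen N ε f → ∀ ρ : GQ →* GL (Fin 2) ℂ, GaloisFactorsThroughFiniteLevel ρ →
      IsAttachedC ε f N ρ → (Deformation.matrixRepresentation ρ).IsIrreducible

/-- The frozen statement S48, as a `Prop`. -/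
def S48Statement : Prop :=
  ∀ (N : ℕ) [NeZero N] (ε : DirichletCharacter ℂ N) (f : CuspForm (Gamma1 N) 1),
    ModularFormClass.qCoeff f 1 = 1 →
    (∀ p : ℕ, p.Prime → ¬ p ∣ N → ∀ n : ℕ,
        ModularFormClass.qCoeff f (p * n) +
            ε (p : ZMod N) * (if p ∣ n then ModularFormClass.qCoeff f (n / p) else 0) =
          ModularFormClass.qCoeff f p * ModularFormClass.qCoeff f n) →
    ∃ ρ : GQ →* GL (Fin 2) ℂ, GaloisFactorsThroughFiniteLevel ρ ∧
      (Deformation.matrixRepresentation ρ).IsIrreducible ∧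
      ∀ p : ℕ, p.Prime → ¬ p ∣ N →
        ∀ A : ValuationSubring (AlgebraicClosure ℚ), A.LiesOverPrime p →
          (∀ σ ∈ A.inertiaSubgroupIn ℚ, ρ σ = 1) ∧
          ∀ σ : GQ, A.IsFrobeniusAt σ p →
            ((ρ σ : GL (Fin 2) ℂ) : Matrix (Fin 2) (Fin 2) ℂ).trace =
              ModularFormClass.qCoeff f p ∧
            ((ρ σ : GL (Fin 2) ℂ) : Matrix (Fin 2) (Fin 2) ℂ).det = ε (p : ZMod N)

/-! ## The pieces of the assembly (each is to be proved as `theorem foo : FooPiece`) -/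

/-- (VAL) -/
def ValuesPiece : Prop := RankinStatement → EigenConjStatement → ValuesStatement
/-- (MAT) -/
def ResidualMatPiece : Prop := ResidualStatement → ResidualMatStatement
/-- (BND) -/
def BoundedImagePiece : Prop :=
  ResidualMatStatement → ValuesStatement → ChebDensityStatement → FiniteImageStatement →
    BoundedImageStatement
/-- (CLIFT) -/
def ComplexLiftPiece : Prop := BoundedImageStatement → LiftStatement → ComplexLiftStatement
/-- (EXA) -/
def ExactAwayPiece : Prop := ComplexLiftStatement → ExactAwayStatement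
/-- (TWO) -/
def ExactPiece : Prop := ExactAwayStatement → ChebDensityStatement → ExactStatement
/-- (IRR) -/
def IrreduciblePiece : Prop := RankinStatement → ChebDensityStatement → IrreducibleStatement
/-- (END) -/
def EndPiece : Prop := ExactStatement → IrreducibleStatement → S48Statement

end Fermat.Agent.S48.Top

end
-- ===== PACK-END S48/Top/Spec.lean

-- ===== PACK-BEGIN S48/Res/Parts.lean
section



/-!
# S48 / RES (Tower A1) — the REMAINING INPUTS of `Top.ResidualStatement`, as `Prop`s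

RES deputy architect helper168 (row-lead decisions D1–D8 in `coord/S48-lead.md`).  The chain

  `Res.residual_of_parts (s : Bool) : RawES1Statement s → Occ1Statement s → Top.ResidualStatement`

is PROVED in `Fermat/Agent/S48/Res/Chain.lean` (sorry-free).  A piece is DONE when it proves one of
the `Prop`s of this file verbatim, for ONE value of the orientation flag `s` (the same for both
pieces).  Objects: `Fermat/Agent/S48/F1/{Defs,Basic}.lean`.

Orientation (details in `coord/S48-F1.md`).  In the model `F1 M ⊆ ℚ((q))` the reduction of the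
correspondence `T_p = α_* β^*` is `V + ⟨p⟩ F` with `⟨p⟩ = diamond1 M p` (`P_a ↦ P_{p a}` on
functions, `[z] ↦ [γ z]`, `γ₁₁ ≡ p`, on points), which gives `⟨p⟩ σ² - T_p σ + p = 0`, i.e. `s = true`.
The flag `s = false` (`⟨p⟩⁻¹` instead of `⟨p⟩`) is offered in case the proof of RawES1 produces the
other orientation (row-lead decision D4); the chain is insensitive to it.
-/

set_option autoImplicit false

noncomputable section

open CongruenceSubgroup ModularCurve AlgebraicCurve
open scoped TensorProduct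

namespace Fermat.Agent.S48.Res

open Fermat.Agent.S48.F1 Fermat.Agent.S48.Top

/-- The diamond operator `⟨p⟩^{±1}` on `J₁(M)` (`s = true`: `⟨p⟩`, `s = false`: `⟨p⟩⁻¹`). -/
def diamondS (s : Bool) (M p : ℕ) : Module.End ℤ (J1 M) :=
  if s then diamond1 M (unitOf M p) else diamond1Inv M (unitOf M p)

/-- The diamond operator `⟨p⟩^{±1}` on `J₁(M)[m]`. -/
def diamondST (s : Bool) (M m p : ℕ) : Module.End ℤ (J1T M m) :=
  if s then diamondT M m (unitOf M p) else diamondInvT M m (unitOf M p)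

/-- **RawES1** (port of rows S18 + S37 to `X₁(M)`): RAW Eichler–Shimura with diamond on the
`ℓ`-torsion of `J₁(M)`.  For every prime `p ∤ M ℓ` and every place `A` of `ℚ̄` above `p`:
inertia acts trivially on `J₁(M)[ℓ]`, and every Frobenius `σ` satisfies
`⟨p⟩^{±1} σ² - T_p σ + p = 0`, `T_p = hecke1 M p = α_* β^*`, `⟨p⟩ = diamond1 M p` (on points:
`[z] ↦ [γ z]`, `γ ∈ Γ₀(M)` with lower right entry `≡ p`). -/
def RawES1Statement (s : Bool) : Prop :=
  ∀ (M ℓ p : ℕ), M ≠ 0 → ℓ.Prime → p.Prime → ¬ p ∣ M * ℓ →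
    ∀ A : ValuationSubring (AlgebraicClosure ℚ), A.LiesOverPrime p →
      (∀ σ ∈ A.inertiaSubgroupIn ℚ, ∀ x : J1 M, (ℓ : ℤ) • x = 0 → σ • x = x) ∧
      (∀ σ : AlgebraicClosure ℚ ≃ₐ[ℚ] AlgebraicClosure ℚ, A.IsFrobeniusAt σ p →
        ∀ x : J1 M, (ℓ : ℤ) • x = 0 →
          diamondS s M p (σ • σ • x) - hecke1 M p (σ • x) + (p : ℤ) • x = 0)

/-- **OCC1** (PACKET + P2 + CHI0 + M4a1 + M4b1 + HCoh1): for every large `ℓ` the eigen-system of
`(f, ε)` occurs in `F ⊗ J₁(M)[ℓ]` for some level `M` with the same prime divisors as `N ℓ`: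
a nonzero `v` with `T_p v = d_p ψ(a_p) v`, `⟨p⟩^{±1} v = d_p v`, where `d_p ψ(ε(p)) = p` in `F`
(`d_p = ψ(η(p))⁻¹`, `η = ε ω⁻¹` the nebentypus of `f · E`). -/
def Occ1Statement (s : Bool) : Prop :=
  ∀ (N : ℕ) [NeZero N] (ε : DirichletCharacter ℂ N) (f : CuspForm (Gamma1 N) 1),
    IsEigen N ε f → ∃ B : ℕ, ∀ ℓ : ℕ, ℓ.Prime → B < ℓ →
      ∀ (F : Type) [Field F] [IsAlgClosed F] [CharP F ℓ] (ψ : Zbar →+* F),
        ∃ (M : ℕ) (a e : ℕ → Zbar) (d : ℕ → F), M ≠ 0 ∧
          (∀ p : ℕ, p.Prime → p ∣ M → p ∣ N * ℓ) ∧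
          (∀ p : ℕ, p.Prime → ¬ p ∣ N * ℓ →
            ((a p : Zbar) : ℂ) = ModularFormClass.qCoeff f p ∧
            ((e p : Zbar) : ℂ) = ε (p : ZMod N) ∧ d p * ψ (e p) = (p : F)) ∧
          ∃ v : F ⊗[ℤ] J1T M ℓ, v ≠ 0 ∧ ∀ p : ℕ, p.Prime → ¬ p ∣ N * ℓ →
            (heckeT M ℓ p).baseChange F v = (d p * ψ (a p)) • v ∧
            (diamondST s M ℓ p).baseChange F v = d p • v

end Fermat.Agent.S48.Res

end
end
-- ===== PACK-END S48/Res/Parts.lean

-- ===== PACK-BEGIN S48/Top/End.lean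
section


/-!
# S48 — top-level assembly, last step (END) and the chain of the pieces (helper948)
-/

set_option autoImplicit false

open CongruenceSubgroup
open scoped MatrixGroups

namespace Fermat.Agent.S48.Top

open Fermat.Agent.Lib.Cheb.Spec Fermat.Agent.Lib.Cheb.SpecQ

/-- (END) -/
theorem endPiece : EndPiece := by
  intro hE hI N _ ε f hf₁ hT
  have hyp : IsEigen N ε f := ⟨hf₁, hT⟩
  obtain ⟨ρ, hfin, hatt⟩ := hE N ε f hyp
  exact ⟨ρ, hfin, hI N ε f hyp ρ hfin hatt, hatt⟩

/-- The whole chain: S48 from the six external inputs and the seven pieces. -/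
theorem s48_of_pieces
    (pVal : ValuesPiece) (pMat : ResidualMatPiece) (pBnd : BoundedImagePiece)
    (pLift : ComplexLiftPiece) (pExa : ExactAwayPiece) (pTwo : ExactPiece)
    (pIrr : IrreduciblePiece)
    (hRankin : RankinStatement) (hConj : EigenConjStatement) (hRes : ResidualStatement)
    (hFI : FiniteImageStatement) (hLift : LiftStatement) (hCheb : ChebDensityStatement) :
    S48Statement :=
  endPiece
    (pTwo (pExa (pLift (pBnd (pMat hRes) (pVal hRankin hConj) hCheb hFI) hLift)) hCheb)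
    (pIrr hRankin hCheb)

end Fermat.Agent.S48.Top

end
-- ===== PACK-END S48/Top/End.lean

-- ===== PACK-BEGIN S48/H308/Values.lean
section


/-!
# S48 (Deligne–Serre), glue piece VAL (D–S Prop. 5.5)

`values : Top.ValuesPiece`, i.e. `RankinStatement → EigenConjStatement → ValuesStatement`:
outside a set of primes of upper Dirichlet density `≤ η` the eigenvalues `a_p` take finitely
many values.

Proof: let `K` be the number field of `EigenConjStatement`, `d` the number of its complex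
embeddings and `c = d / η`.  For each embedding `τ` the Rankin bound for the conjugate form gives
`c · ∑_{p ∈ T, ‖τ a_p‖² ≥ c} p^{-s} ≤ log (1/(s-1)) + C_τ`; summing over `τ`, the primes `p` such that
some conjugate of `a_p` has `‖τ a_p‖² > c` have upper density `≤ d / c = η`; the other `a_p` are
algebraic integers of `K` all of whose conjugates are bounded by `√c`: a finite set.
-/

set_option autoImplicit false

namespace Fermat.Agent.S48.H308

open Fermat.Agent.S48.Top Fermat.Agent.Lib.Cheb.SpecQ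

/-- From an `O(1)`-bound on `(1, 2]` to `HasUpperDensity` (which absorbs the constant). -/
theorem hasUpperDensity_of_bound (X : Set ℕ) (d K : ℝ)
    (h : ∀ s : ℝ, 1 < s → s ≤ 2 → ∀ T : Finset ℕ, (∀ p ∈ T, p ∈ X) →
      ∑ p ∈ T, (p : ℝ) ^ (-s) ≤ d * Real.log (1 / (s - 1)) + K) :
    HasUpperDensity X d := by
  intro ε hε
  refine ⟨min 1 (Real.exp (-(|K| / ε))), lt_min one_pos (Real.exp_pos _), ?_⟩
  intro s hs hsδ T hT
  have hs2 : s ≤ 2 := by
    have := min_le_left 1 (Real.exp (-(|K| / ε)))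
    linarith
  have hs0 : 0 < s - 1 := by linarith
  have hse : s - 1 < Real.exp (-(|K| / ε)) := by
    have := min_le_right 1 (Real.exp (-(|K| / ε)))
    linarith
  have hlog : |K| / ε ≤ Real.log (1 / (s - 1)) := by
    rw [one_div, Real.log_inv]
    have h1 : Real.log (s - 1) < -(|K| / ε) := by
      rw [Real.log_lt_iff_lt_exp hs0]
      exact hse
    linarith
  have hK : K ≤ ε * Real.log (1 / (s - 1)) := by
    have h1 : |K| ≤ ε * Real.log (1 / (s - 1)) := by
      rw [div_le_iff₀ hε] at hlog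
      linarith
    exact (le_abs_self K).trans h1
  calc ∑ p ∈ T, (p : ℝ) ^ (-s) ≤ d * Real.log (1 / (s - 1)) + K := h s hs hs2 T hT
    _ ≤ d * Real.log (1 / (s - 1)) + ε * Real.log (1 / (s - 1)) := by linarith
    _ = (d + ε) * Real.log (1 / (s - 1)) := by ring

/-- **VAL**, exact `Top/Spec.lean` shape. -/
theorem values : ValuesPiece := by
  intro hR hE N _ ε f hf η hη
  classical
  obtain ⟨K, hKfd, hKa, hKτ⟩ := hE N ε f hf
  have : FiniteDimensional ℚ K := hKfd
  have : NumberField K := ⟨⟩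
  choose ε' f' hf' hcoef using hKτ
  choose C hC using fun τ : K →ₐ[ℚ] ℂ => hR N (ε' τ) (f' τ) (hf' τ)
  set d : ℕ := Fintype.card (K →ₐ[ℚ] ℂ) with hd
  have hdpos : 0 < d := Fintype.card_pos_iff.mpr ⟨K.val⟩
  have hdR : (0 : ℝ) < d := by exact_mod_cast hdpos
  set c : ℝ := d / η with hc
  have hcpos : 0 < c := div_pos hdR hη
  have hfin := NumberField.Embeddings.finite_of_norm_le K ℂ (Real.sqrt c)
  refine ⟨hfin.toFinset.image (fun x : K => (x : ℂ)), ?_⟩
  -- for every exceptional prime some conjugate is large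
  have hex : ∀ p : ℕ, p.Prime → ¬ p ∣ N →
      ModularFormClass.qCoeff f p ∉ hfin.toFinset.image (fun x : K => (x : ℂ)) →
      ∃ τ : K →ₐ[ℚ] ℂ, c ≤ ‖ModularFormClass.qCoeff (f' τ) p‖ ^ 2 := by
    intro p hp hpN hY
    obtain ⟨hmem, hint⟩ := hKa p hp hpN
    set x : K := ⟨ModularFormClass.qCoeff f p, hmem⟩ with hx
    have hxint : IsIntegral ℤ x := by
      have : IsIntegral ℤ (algebraMap K ℂ x) := hint
      exact (isIntegral_algebraMap_iff (algebraMap K ℂ).injective).mp this
    have hnot : ¬ (IsIntegral ℤ x ∧ ∀ φ : K →+* ℂ, ‖φ x‖ ≤ Real.sqrt c) := by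
      intro hcon
      apply hY
      rw [Finset.mem_image]
      exact ⟨x, hfin.mem_toFinset.mpr hcon, rfl⟩
    have hφ : ∃ φ : K →+* ℂ, Real.sqrt c < ‖φ x‖ := by
      by_contra hcon
      push Not at hcon
      exact hnot ⟨hxint, hcon⟩
    obtain ⟨φ, hφ⟩ := hφ
    refine ⟨φ.toRatAlgHom, ?_⟩
    rw [hcoef φ.toRatAlgHom p hp hpN x rfl]
    have h1 : Real.sqrt c ^ 2 = c := Real.sq_sqrt hcpos.le
    have h2 : Real.sqrt c ^ 2 ≤ ‖φ x‖ ^ 2 :=
      pow_le_pow_left₀ (Real.sqrt_nonneg c) hφ.le 2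
    have h3 : (φ.toRatAlgHom : K → ℂ) x = φ x := rfl
    rw [h3]
    linarith
  refine hasUpperDensity_of_bound _ η ((∑ τ : K →ₐ[ℚ] ℂ, C τ) / c) ?_
  intro s hs hs2 T hT
  have hL : 0 ≤ Real.log (1 / (s - 1)) := by
    apply Real.log_nonneg
    rw [le_div_iff₀ (by linarith)]
    linarith
  -- choose a large conjugate for every prime of `T`
  have hT' : ∀ p ∈ T, ∃ τ : K →ₐ[ℚ] ℂ, c ≤ ‖ModularFormClass.qCoeff (f' τ) p‖ ^ 2 :=
    fun p hp => hex p (hT p hp).1 (hT p hp).2.1 (hT p hp).2.2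
  have hT'' : ∀ p : ℕ, ∃ τ : K →ₐ[ℚ] ℂ, p ∈ T → c ≤ ‖ModularFormClass.qCoeff (f' τ) p‖ ^ 2 := by
    intro p
    by_cases hp : p ∈ T
    · obtain ⟨τ, hτ⟩ := hT' p hp
      exact ⟨τ, fun _ => hτ⟩
    · exact ⟨K.val, fun h => absurd h hp⟩
  choose τof hτof using hT''
  have hfib : ∑ p ∈ T, (p : ℝ) ^ (-s) =
      ∑ τ : K →ₐ[ℚ] ℂ, ∑ p ∈ T with τof p = τ, (p : ℝ) ^ (-s) :=
    (Finset.sum_fiberwise T τof fun p => (p : ℝ) ^ (-s)).symm
  have hτ : ∀ τ : K →ₐ[ℚ] ℂ, ∑ p ∈ T with τof p = τ, (p : ℝ) ^ (-s) ≤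
      (Real.log (1 / (s - 1)) + C τ) / c := by
    intro τ
    rw [le_div_iff₀ hcpos, Finset.sum_mul]
    refine le_trans ?_ (hC τ s hs hs2 (T.filter fun p => τof p = τ) ?_)
    · refine Finset.sum_le_sum fun p hp => ?_
      rw [Finset.mem_filter] at hp
      have h1 := hτof p hp.1
      rw [hp.2] at h1
      rw [mul_comm]
      exact mul_le_mul_of_nonneg_right h1 (Real.rpow_nonneg (Nat.cast_nonneg p) _)
    · intro p hp
      rw [Finset.mem_filter] at hp
      exact ⟨(hT p hp.1).1, (hT p hp.1).2.1⟩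
  calc ∑ p ∈ T, (p : ℝ) ^ (-s)
      = ∑ τ : K →ₐ[ℚ] ℂ, ∑ p ∈ T with τof p = τ, (p : ℝ) ^ (-s) := hfib
    _ ≤ ∑ τ : K →ₐ[ℚ] ℂ, (Real.log (1 / (s - 1)) + C τ) / c :=
        Finset.sum_le_sum fun τ _ => hτ τ
    _ = η * Real.log (1 / (s - 1)) + (∑ τ : K →ₐ[ℚ] ℂ, C τ) / c := by
        rw [← Finset.sum_div, Finset.sum_add_distrib, Finset.sum_const, Finset.card_univ,
          nsmul_eq_mul, add_div]
        congr 1
        rw [hc, ← hd]
        field_simp

end Fermat.Agent.S48.H308

end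
-- ===== PACK-END S48/H308/Values.lean

-- ===== PACK-BEGIN S48/H108/Mat.lean
section


/-!
# S48 (Deligne–Serre) — glue piece MAT (helper108)

`residualMat : Top.ResidualMatPiece`: `ResidualStatement ⟹ ResidualMatStatement`.

* choose a basis of the `2`-dimensional space `V` of the `ResidualGaloisRep`: `matRep`;
* `charpoly = X² - t X + d` gives trace `t` and determinant `d`;
* semisimplification: if some stable line has no stable complement, replace the representation
  by `diag(χ₁, det / χ₁)` where `χ₁` is the character of the stable line (`diagRep`).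
-/

set_option autoImplicit false

open CongruenceSubgroup
open scoped MatrixGroups
open Matrix

namespace Fermat.Agent.S48.H108

open Fermat.Agent.Lib.Cheb.Spec Fermat.Agent.Lib.Cheb.SpecQ Fermat.Agent.S48.Top

/-! ## Matrix form of a `ResidualGaloisRep` -/

section MatRep

variable {k : Type} [Field k]

/-- A basis of the underlying space of a residual representation. -/
noncomputable def resBasis (ρ : ResidualGaloisRep k) : Module.Basis (Fin 2) k ρ.V :=
  Module.finBasisOfFinrankEq k ρ.V ρ.finrank_eq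

/-- The matrix form of a residual representation (with respect to `resBasis`). -/
noncomputable def matRep (ρ : ResidualGaloisRep k) : GQ →* GL (Fin 2) k :=
  (((LinearMap.toMatrixAlgEquiv (resBasis ρ)).toAlgHom.toRingHom.toMonoidHom).comp
    ρ.ρ).toHomUnits

theorem matRep_coe (ρ : ResidualGaloisRep k) (σ : GQ) :
    ((matRep ρ σ : GL (Fin 2) k) : Matrix (Fin 2) (Fin 2) k) =
      LinearMap.toMatrix (resBasis ρ) (resBasis ρ) (ρ.ρ σ) := rfl

theorem matRep_eq_one (ρ : ResidualGaloisRep k) {σ : GQ} (h : ρ.ρ σ = 1) : matRep ρ σ = 1 := by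
  apply Units.ext
  rw [matRep_coe, h]
  exact LinearMap.toMatrix_one (resBasis ρ)

theorem matRep_charpoly (ρ : ResidualGaloisRep k) (σ : GQ) :
    ((matRep ρ σ : GL (Fin 2) k) : Matrix (Fin 2) (Fin 2) k).charpoly =
      LinearMap.charpoly (ρ.ρ σ) := by
  rw [matRep_coe]
  exact LinearMap.charpoly_toMatrix (ρ.ρ σ) (resBasis ρ)

/-- Trace and determinant from the characteristic polynomial. -/
theorem trace_det_of_charpoly (M : Matrix (Fin 2) (Fin 2) k) (t d : k)
    (h : M.charpoly = Polynomial.X ^ 2 - Polynomial.C t * Polynomial.X + Polynomial.C d) :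
    M.trace = t ∧ M.det = d := by
  rw [Matrix.charpoly_fin_two] at h
  have h1 := congrArg (fun q : Polynomial k => q.coeff 1) h
  have h0 := congrArg (fun q : Polynomial k => q.coeff 0) h
  simp only [Polynomial.coeff_add, Polynomial.coeff_sub, Polynomial.coeff_X_pow,
    Polynomial.coeff_C_mul, Polynomial.coeff_X_one, Polynomial.coeff_X_zero,
    Polynomial.coeff_C] at h1 h0
  constructor
  · simpa using h1
  · simpa using h0

end MatRep

/-! ## Semisimplification -/

section Diag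

variable {F : Type*} [Field F]

/-- An eigenvalue of a `2 × 2` matrix is a root of `X² - tr X + det`. -/
theorem eigen_quadratic (M : Matrix (Fin 2) (Fin 2) F) {v : Fin 2 → F} (hv : v ≠ 0) {c : F}
    (h : M *ᵥ v = c • v) : c * c - M.trace * c + M.det = 0 := by
  have h0 : (M - c • (1 : Matrix (Fin 2) (Fin 2) F)) *ᵥ v = 0 := by
    rw [Matrix.sub_mulVec, h, Matrix.smul_mulVec, Matrix.one_mulVec, sub_self]
  have hdet : (M - c • (1 : Matrix (Fin 2) (Fin 2) F)).det = 0 :=
    Matrix.exists_mulVec_eq_zero_iff.1 ⟨v, hv, h0⟩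
  rw [Matrix.det_fin_two] at hdet
  rw [Matrix.trace_fin_two, Matrix.det_fin_two]
  simp only [Matrix.sub_apply, Matrix.smul_apply, Matrix.one_apply_eq, smul_eq_mul, mul_one,
    ne_eq, Fin.reduceEq, not_false_eq_true, Matrix.one_apply_ne, mul_zero, sub_zero] at hdet
  linear_combination hdet

/-- The diagonal `2 × 2` matrix. -/
def diag2 (a b : F) : Matrix (Fin 2) (Fin 2) F := !![a, 0; 0, b]

theorem diag2_mul (a b a' b' : F) : diag2 a b * diag2 a' b' = diag2 (a * a') (b * b') := by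
  unfold diag2
  rw [Matrix.mul_fin_two]
  simp

theorem diag2_one : diag2 (1 : F) 1 = 1 := by
  unfold diag2
  exact Matrix.one_fin_two.symm

theorem diag2_trace (a b : F) : (diag2 a b).trace = a + b := by
  unfold diag2
  exact Matrix.trace_fin_two_of a 0 0 b

theorem diag2_det (a b : F) : (diag2 a b).det = a * b := by
  unfold diag2
  rw [Matrix.det_fin_two_of]
  ring

theorem diag2_mulVec (a b : F) (w : Fin 2 → F) : diag2 a b *ᵥ w = ![a * w 0, b * w 1] := by
  unfold diag2
  ext i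
  fin_cases i <;> simp [Matrix.mulVec, dotProduct, Fin.sum_univ_two]

/-- Every group of diagonal matrices is semisimple in the sense of `StableLinesSplit`. -/
theorem stableLinesSplit_of_diag (G : Subgroup (GL (Fin 2) F))
    (hG : ∀ g ∈ G, ∃ a b : F, (g : Matrix (Fin 2) (Fin 2) F) = diag2 a b) :
    StableLinesSplit G := by
  intro v _ _
  by_cases hv1 : v 1 = 0
  · refine ⟨![0, 1], ?_, ?_⟩
    · intro c hc
      have := congrFun hc 1
      simp [hv1] at this
    · intro g hg
      obtain ⟨a, b, hab⟩ := hG g hg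
      refine ⟨b, ?_⟩
      rw [hab, diag2_mulVec]
      ext i
      fin_cases i <;> simp
  · refine ⟨![1, 0], ?_, ?_⟩
    · intro c hc
      have h1 := congrFun hc 1
      have h0 := congrFun hc 0
      simp only [Matrix.cons_val_one, Matrix.cons_val_zero, Pi.smul_apply, smul_eq_mul] at h1 h0
      have hc0 : c = 0 := by
        rcases mul_eq_zero.1 h1.symm with h | h
        · exact h
        · exact absurd h hv1
      rw [hc0, zero_mul] at h0
      exact one_ne_zero h0
    · intro g hg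
      obtain ⟨a, b, hab⟩ := hG g hg
      refine ⟨a, ?_⟩
      rw [hab, diag2_mulVec]
      ext i
      fin_cases i <;> simp

variable {Γ : Type*} [Group Γ]

/-- The character by which `Γ` acts on a stable line `F v`. -/
noncomputable def lineChar (r : Γ →* GL (Fin 2) F) (v : Fin 2 → F)
    (hstab : ∀ σ : Γ, ∃ c : F, ((r σ : GL (Fin 2) F) : Matrix (Fin 2) (Fin 2) F) *ᵥ v = c • v)
    (σ : Γ) : F :=
  Classical.choose (hstab σ)

theorem lineChar_spec (r : Γ →* GL (Fin 2) F) (v : Fin 2 → F)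
    (hstab : ∀ σ : Γ, ∃ c : F, ((r σ : GL (Fin 2) F) : Matrix (Fin 2) (Fin 2) F) *ᵥ v = c • v)
    (σ : Γ) :
    ((r σ : GL (Fin 2) F) : Matrix (Fin 2) (Fin 2) F) *ᵥ v = lineChar r v hstab σ • v :=
  Classical.choose_spec (hstab σ)

theorem lineChar_unique (r : Γ →* GL (Fin 2) F) {v : Fin 2 → F} (hv : v ≠ 0)
    (hstab : ∀ σ : Γ, ∃ c : F, ((r σ : GL (Fin 2) F) : Matrix (Fin 2) (Fin 2) F) *ᵥ v = c • v)
    (σ : Γ) {c : F}
    (h : ((r σ : GL (Fin 2) F) : Matrix (Fin 2) (Fin 2) F) *ᵥ v = c • v) :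
    lineChar r v hstab σ = c := by
  have := (lineChar_spec r v hstab σ).symm.trans h
  exact smul_left_injective F hv this

theorem lineChar_one (r : Γ →* GL (Fin 2) F) {v : Fin 2 → F} (hv : v ≠ 0)
    (hstab : ∀ σ : Γ, ∃ c : F, ((r σ : GL (Fin 2) F) : Matrix (Fin 2) (Fin 2) F) *ᵥ v = c • v)
    {σ : Γ} (h : r σ = 1) : lineChar r v hstab σ = 1 := by
  apply lineChar_unique r hv hstab σ
  rw [h, Units.val_one, Matrix.one_mulVec, one_smul]

theorem lineChar_mul (r : Γ →* GL (Fin 2) F) {v : Fin 2 → F} (hv : v ≠ 0)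
    (hstab : ∀ σ : Γ, ∃ c : F, ((r σ : GL (Fin 2) F) : Matrix (Fin 2) (Fin 2) F) *ᵥ v = c • v)
    (σ τ : Γ) : lineChar r v hstab (σ * τ) = lineChar r v hstab σ * lineChar r v hstab τ := by
  apply lineChar_unique r hv hstab (σ * τ)
  rw [map_mul, Units.val_mul, ← Matrix.mulVec_mulVec, lineChar_spec r v hstab τ,
    Matrix.mulVec_smul, lineChar_spec r v hstab σ, smul_smul, mul_comm]

/-- The semisimplification `diag(χ₁, det / χ₁)` as a monoid homomorphism to matrices. -/
noncomputable def diagHom (r : Γ →* GL (Fin 2) F) {v : Fin 2 → F} (hv : v ≠ 0)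
    (hstab : ∀ σ : Γ, ∃ c : F, ((r σ : GL (Fin 2) F) : Matrix (Fin 2) (Fin 2) F) *ᵥ v = c • v) :
    Γ →* Matrix (Fin 2) (Fin 2) F where
  toFun σ := diag2 (lineChar r v hstab σ)
    (((r σ : GL (Fin 2) F) : Matrix (Fin 2) (Fin 2) F).det * (lineChar r v hstab σ)⁻¹)
  map_one' := by
    rw [lineChar_one r hv hstab (map_one r), map_one, Units.val_one, Matrix.det_one, inv_one,
      mul_one, diag2_one]
  map_mul' σ τ := by
    rw [diag2_mul, lineChar_mul r hv hstab, map_mul, Units.val_mul, Matrix.det_mul, mul_inv]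
    congr 1
    ring

/-- The semisimplification `diag(χ₁, det / χ₁)`. -/
noncomputable def diagRep (r : Γ →* GL (Fin 2) F) {v : Fin 2 → F} (hv : v ≠ 0)
    (hstab : ∀ σ : Γ, ∃ c : F, ((r σ : GL (Fin 2) F) : Matrix (Fin 2) (Fin 2) F) *ᵥ v = c • v) :
    Γ →* GL (Fin 2) F :=
  (diagHom r hv hstab).toHomUnits

theorem diagRep_coe (r : Γ →* GL (Fin 2) F) {v : Fin 2 → F} (hv : v ≠ 0)
    (hstab : ∀ σ : Γ, ∃ c : F, ((r σ : GL (Fin 2) F) : Matrix (Fin 2) (Fin 2) F) *ᵥ v = c • v)
    (σ : Γ) :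
    ((diagRep r hv hstab σ : GL (Fin 2) F) : Matrix (Fin 2) (Fin 2) F) =
      diag2 (lineChar r v hstab σ)
        (((r σ : GL (Fin 2) F) : Matrix (Fin 2) (Fin 2) F).det * (lineChar r v hstab σ)⁻¹) :=
  rfl

theorem lineChar_ne_zero (r : Γ →* GL (Fin 2) F) {v : Fin 2 → F} (hv : v ≠ 0)
    (hstab : ∀ σ : Γ, ∃ c : F, ((r σ : GL (Fin 2) F) : Matrix (Fin 2) (Fin 2) F) *ᵥ v = c • v)
    (σ : Γ) : lineChar r v hstab σ ≠ 0 := by
  intro h0
  have h1 : lineChar r v hstab (σ * σ⁻¹) = 1 :=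
    lineChar_one r hv hstab (by rw [mul_inv_cancel, map_one])
  rw [lineChar_mul r hv hstab, h0, zero_mul] at h1
  exact zero_ne_one h1

theorem diagRep_det (r : Γ →* GL (Fin 2) F) {v : Fin 2 → F} (hv : v ≠ 0)
    (hstab : ∀ σ : Γ, ∃ c : F, ((r σ : GL (Fin 2) F) : Matrix (Fin 2) (Fin 2) F) *ᵥ v = c • v)
    (σ : Γ) :
    ((diagRep r hv hstab σ : GL (Fin 2) F) : Matrix (Fin 2) (Fin 2) F).det =
      ((r σ : GL (Fin 2) F) : Matrix (Fin 2) (Fin 2) F).det := by
  rw [diagRep_coe, diag2_det]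
  field_simp [lineChar_ne_zero r hv hstab σ]

theorem diagRep_trace (r : Γ →* GL (Fin 2) F) {v : Fin 2 → F} (hv : v ≠ 0)
    (hstab : ∀ σ : Γ, ∃ c : F, ((r σ : GL (Fin 2) F) : Matrix (Fin 2) (Fin 2) F) *ᵥ v = c • v)
    (σ : Γ) :
    ((diagRep r hv hstab σ : GL (Fin 2) F) : Matrix (Fin 2) (Fin 2) F).trace =
      ((r σ : GL (Fin 2) F) : Matrix (Fin 2) (Fin 2) F).trace := by
  rw [diagRep_coe, diag2_trace]
  have hq := eigen_quadratic _ hv (lineChar_spec r v hstab σ)
  have hne := lineChar_ne_zero r hv hstab σ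
  field_simp
  linear_combination hq

theorem diagRep_eq_one (r : Γ →* GL (Fin 2) F) {v : Fin 2 → F} (hv : v ≠ 0)
    (hstab : ∀ σ : Γ, ∃ c : F, ((r σ : GL (Fin 2) F) : Matrix (Fin 2) (Fin 2) F) *ᵥ v = c • v)
    {σ : Γ} (h : r σ = 1) : diagRep r hv hstab σ = 1 := by
  apply Units.ext
  rw [diagRep_coe, lineChar_one r hv hstab h, h, Units.val_one, Matrix.det_one, inv_one,
    mul_one, diag2_one]

theorem diagRep_stableLinesSplit (r : Γ →* GL (Fin 2) F) {v : Fin 2 → F} (hv : v ≠ 0)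
    (hstab : ∀ σ : Γ, ∃ c : F, ((r σ : GL (Fin 2) F) : Matrix (Fin 2) (Fin 2) F) *ᵥ v = c • v) :
    StableLinesSplit (diagRep r hv hstab).range := by
  apply stableLinesSplit_of_diag
  rintro g ⟨σ, rfl⟩
  exact ⟨_, _, diagRep_coe r hv hstab σ⟩

/-- **Semisimplification.**  Every `r : Γ → GL₂(F)` can be replaced by a semisimple `r'` with the
same traces and determinants and with `r σ = 1 → r' σ = 1`. -/
theorem exists_semisimplification (r : Γ →* GL (Fin 2) F) :
    ∃ r' : Γ →* GL (Fin 2) F, StableLinesSplit r'.range ∧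
      (∀ σ : Γ, r σ = 1 → r' σ = 1) ∧
      ∀ σ : Γ,
        ((r' σ : GL (Fin 2) F) : Matrix (Fin 2) (Fin 2) F).trace =
          ((r σ : GL (Fin 2) F) : Matrix (Fin 2) (Fin 2) F).trace ∧
        ((r' σ : GL (Fin 2) F) : Matrix (Fin 2) (Fin 2) F).det =
          ((r σ : GL (Fin 2) F) : Matrix (Fin 2) (Fin 2) F).det := by
  by_cases hss : StableLinesSplit r.range
  · exact ⟨r, hss, fun _ h => h, fun _ => ⟨rfl, rfl⟩⟩
  · unfold StableLinesSplit at hss
    rw [not_forall] at hss
    obtain ⟨v, hv⟩ := hss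
    rw [Classical.not_imp] at hv
    obtain ⟨hv0, hv⟩ := hv
    rw [Classical.not_imp] at hv
    obtain ⟨hstab0, -⟩ := hv
    have hstab : ∀ σ : Γ, ∃ c : F,
        ((r σ : GL (Fin 2) F) : Matrix (Fin 2) (Fin 2) F) *ᵥ v = c • v :=
      fun σ => hstab0 (r σ) ⟨σ, rfl⟩
    exact ⟨diagRep r hv0 hstab, diagRep_stableLinesSplit r hv0 hstab,
      fun σ h => diagRep_eq_one r hv0 hstab h,
      fun σ => ⟨diagRep_trace r hv0 hstab σ, diagRep_det r hv0 hstab σ⟩⟩

end Diag

/-! ## MAT -/

/-- **MAT**: `ResidualStatement ⟹ ResidualMatStatement`. -/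
theorem residualMat : ResidualMatPiece := by
  intro hRES N _ ε f hf
  obtain ⟨B, hB⟩ := hRES N ε f hf
  refine ⟨B, ?_⟩
  intro ℓ hℓ hBℓ k _ _ φ
  obtain ⟨ρ, hρ⟩ := hB ℓ hℓ hBℓ k φ
  obtain ⟨r, hss, hone, htd⟩ := exists_semisimplification (matRep ρ)
  refine ⟨r, ?_, hss, ?_⟩
  · obtain ⟨L, hL, hker⟩ := ρ.factorsThroughFiniteLevel
    exact ⟨L, hL, fun σ hσ => hone σ (matRep_eq_one ρ (hker σ hσ))⟩
  · intro p hp hpNℓ A hA
    obtain ⟨hunr, hfrob⟩ := hρ p hp hpNℓ
    refine ⟨fun σ hσ => hone σ (matRep_eq_one ρ (hunr A hA σ hσ)), ?_⟩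
    intro σ hσ
    obtain ⟨a, e, ha, he, hcp⟩ := hfrob A hA σ hσ
    rw [← matRep_charpoly] at hcp
    obtain ⟨ht, hd⟩ := trace_det_of_charpoly _ _ _ hcp
    exact ⟨a, e, ha, he, (htd σ).1.trans ht, (htd σ).2.trans hd⟩

end Fermat.Agent.S48.H108

end
-- ===== PACK-END S48/H108/Mat.lean

-- ===== PACK-BEGIN S48/H108/Bnd.lean
section


/-!
# S48 (Deligne–Serre) — glue piece BND (helper108)

`boundedImage : Top.BoundedImagePiece`:
MAT + VAL + `ChebDensityStatement` + `FiniteImageStatement` ⟹ `BoundedImageStatement`.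

Small shared lemmas (own namespace):
* `lowerDensity_le_upperDensity` : `HasLowerDensity X d`, `X ⊆ X'`, `HasUpperDensity X' e` ⟹ `d ≤ e`;
* `finite_range_of_factors`      : `GaloisFactorsThroughFiniteLevel r` ⟹ `Finite r.range`.
-/

set_option autoImplicit false

open CongruenceSubgroup
open scoped MatrixGroups
open Matrix

namespace Fermat.Agent.S48.H108

open Fermat.Agent.Lib.Cheb.Spec Fermat.Agent.Lib.Cheb.SpecQ Fermat.Agent.S48.Top

/-- A lower density of a subset is at most an upper density of a superset. -/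
theorem lowerDensity_le_upperDensity {X X' : Set ℕ} {d e : ℝ} (hXX' : X ⊆ X')
    (hl : HasLowerDensity X d) (hu : HasUpperDensity X' e) : d ≤ e := by
  by_contra hlt
  rw [not_le] at hlt
  have hεpos : 0 < (d - e) / 4 := by linarith
  obtain ⟨δ₁, hδ₁, h₁⟩ := hl ((d - e) / 4) hεpos
  obtain ⟨δ₂, hδ₂, h₂⟩ := hu ((d - e) / 4) hεpos
  have hδpos : 0 < min (min δ₁ δ₂) (1 / 2) := lt_min (lt_min hδ₁ hδ₂) (by norm_num)
  have hle₁ : min (min δ₁ δ₂) (1 / 2) ≤ δ₁ := (min_le_left _ _).trans (min_le_left _ _)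
  have hle₂ : min (min δ₁ δ₂) (1 / 2) ≤ δ₂ := (min_le_left _ _).trans (min_le_right _ _)
  have hle₃ : min (min δ₁ δ₂) (1 / 2) ≤ 1 / 2 := min_le_right _ _
  set δ := min (min δ₁ δ₂) (1 / 2) with hδ
  have hs1 : (1 : ℝ) < 1 + δ / 2 := by linarith
  obtain ⟨T, hT, hsum⟩ := h₁ (1 + δ / 2) hs1 (by linarith)
  have hsum' := h₂ (1 + δ / 2) hs1 (by linarith) T (fun p hp => hXX' (hT p hp))
  have hL : 0 < Real.log (1 / (1 + δ / 2 - 1)) := by
    apply Real.log_pos
    rw [lt_div_iff₀ (by linarith)]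
    linarith
  have := hsum.trans hsum'
  nlinarith

/-- A lower density which is positive forces the set to be non-empty. -/
theorem nonempty_of_lowerDensity_pos {X : Set ℕ} {d : ℝ} (hd : 0 < d)
    (hl : HasLowerDensity X d) : X.Nonempty := by
  by_contra hne
  rw [Set.not_nonempty_iff_eq_empty] at hne
  have hu : HasUpperDensity X 0 := by
    intro ε hε
    refine ⟨1 / 2, by norm_num, ?_⟩
    intro s hs1 hs2 T hT
    have hTe : T = ∅ := by
      apply Finset.eq_empty_of_forall_notMem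
      intro p hp
      have := hT p hp
      rw [hne] at this
      exact this
    subst hTe
    have hL : 0 < Real.log (1 / (s - 1)) := by
      apply Real.log_pos
      rw [lt_div_iff₀ (by linarith)]
      linarith
    simp only [Finset.sum_empty, zero_add]
    positivity
  have := lowerDensity_le_upperDensity (le_refl X) hl hu
  linarith

/-- `ℚ̄ / ℚ` is Galois (for the `Algebra` instance used by the Prelude). -/
theorem isGalois_Qb : IsGalois ℚ (AlgebraicClosure ℚ) := by
  have h1 : Algebra.IsAlgebraic ℚ (AlgebraicClosure ℚ) := AlgebraicClosure.isAlgebraic ℚ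
  have h2 : IsAlgClosure ℚ (AlgebraicClosure ℚ) := ⟨inferInstance, h1⟩
  have h3 : Normal ℚ (AlgebraicClosure ℚ) := IsAlgClosure.normal ℚ (AlgebraicClosure ℚ)
  exact isGalois_iff.mpr ⟨inferInstance, h3⟩

/-- A homomorphism on `Gal(ℚ̄/ℚ)` which factors through a finite level has finite range. -/
theorem finite_range_of_factors {M : Type} [Group M] (r : GQ →* M)
    (h : GaloisFactorsThroughFiniteLevel r) : Finite r.range := by
  obtain ⟨L, hL, hker⟩ := h
  have hle : L.fixingSubgroup ≤ r.ker := by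
    intro σ hσ
    rw [MonoidHom.mem_ker]
    apply hker
    intro x hx
    exact (IntermediateField.mem_fixingSubgroup_iff L σ).1 hσ x hx
  have hGal : IsGalois ℚ (AlgebraicClosure ℚ) := isGalois_Qb
  have hidx : L.fixingSubgroup.index ≠ 0 := by
    rw [← IntermediateField.finrank_eq_fixingSubgroup_index]
    exact Module.finrank_pos.ne'
  have hidx' : r.ker.index ≠ 0 := fun h0 =>
    hidx (Nat.eq_zero_of_zero_dvd (h0 ▸ Subgroup.index_dvd_of_le hle))
  rw [Subgroup.index_ker] at hidx'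
  exact Nat.finite_of_card_ne_zero hidx'

/-! ## The finite set of candidate `(trace, det)` pairs -/

section Pairs

variable {k : Type} [Field k]

/-- Extension by zero of `φ : ℤ̄ → k` to `ℂ`. -/
noncomputable def extZero (φ : Zbar →+* k) (y : ℂ) : k :=
  open Classical in if h : y ∈ integralClosure ℤ ℂ then φ ⟨y, h⟩ else 0

theorem extZero_coe (φ : Zbar →+* k) (a : Zbar) : extZero φ (a : ℂ) = φ a := by
  unfold extZero
  rw [dif_pos a.2]

/-- The candidate pairs `(φ y, φ (ε u))`, `y ∈ Y`, `u ∈ ℤ/N`. -/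
noncomputable def pairSet {N : ℕ} [NeZero N] (ε : DirichletCharacter ℂ N) (Y : Finset ℂ)
    (φ : Zbar →+* k) : Finset (k × k) :=
  open Classical in
  (Y ×ˢ (Finset.univ : Finset (ZMod N))).image
    (fun x : ℂ × ZMod N => (extZero φ x.1, extZero φ (ε x.2)))

theorem card_pairSet_le {N : ℕ} [NeZero N] (ε : DirichletCharacter ℂ N) (Y : Finset ℂ)
    (φ : Zbar →+* k) : (pairSet ε Y φ).card ≤ Y.card * N := by
  classical
  unfold pairSet
  refine Finset.card_image_le.trans ?_
  rw [Finset.card_product, Finset.card_univ, ZMod.card]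

theorem mem_pairSet {N : ℕ} [NeZero N] (ε : DirichletCharacter ℂ N) (Y : Finset ℂ)
    (φ : Zbar →+* k) {a e : Zbar} {u : ZMod N} (ha : (a : ℂ) ∈ Y) (he : (e : ℂ) = ε u) :
    (φ a, φ e) ∈ pairSet ε Y φ := by
  classical
  unfold pairSet
  rw [Finset.mem_image]
  refine ⟨((a : ℂ), u), ?_, ?_⟩
  · exact Finset.mem_product.2 ⟨ha, Finset.mem_univ _⟩
  · simp only
    rw [← he, extZero_coe, extZero_coe]

end Pairs

/-! ## BND -/

/-- **BND**: MAT + VAL + Chebotarev density + FI ⟹ the mod-`ℓ` images have bounded order. -/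
theorem boundedImage : BoundedImagePiece := by
  intro hMAT hVAL hCheb hFI N _ ε f hf
  classical
  obtain ⟨Y, hY⟩ := hVAL N ε f hf (1 / 8) (by norm_num)
  obtain ⟨A₀, hA₀⟩ := hFI (1 / 4) (Y.card * N) (by norm_num)
  obtain ⟨B₀, hB₀⟩ := hMAT N ε f hf
  refine ⟨A₀, max A₀ B₀, ?_⟩
  intro ℓ hℓ hBℓ k _ _ φ
  obtain ⟨r, hr_fin, hr_ss, hr_att⟩ :=
    hB₀ ℓ hℓ (lt_of_le_of_lt (le_max_right _ _) hBℓ) k φ
  have hfin : Finite r.range := finite_range_of_factors r hr_fin
  refine ⟨r, hr_fin, hr_att, hfin, ?_⟩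
  apply hA₀ ℓ hℓ (lt_of_le_of_lt (le_max_left _ _) hBℓ) k r.range hfin hr_ss
  -- the condition `C(1/4, M)`
  set P : Finset (k × k) := pairSet ε Y φ with hP
  set C : Set (GL (Fin 2) k) := {g | trDet g ∉ P} with hC
  have hNℓ : N * ℓ ≠ 0 := Nat.mul_ne_zero (NeZero.ne N) hℓ.ne_zero
  obtain ⟨E, hE, hEker⟩ := hr_fin
  have hdens := hCheb (GL (Fin 2) k) r E hE hEker C (N * ℓ).primeFactors
  -- the Frobenius primes of `C` are exceptional
  have hsub : frobPrimesHom r C (N * ℓ).primeFactors ⊆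
      {p : ℕ | p.Prime ∧ ¬ p ∣ N ∧ ModularFormClass.qCoeff f p ∉ Y} := by
    rintro p ⟨hp, hpS, A, τ, hA, hτ, -, hτC⟩
    have hpNℓ : ¬ p ∣ N * ℓ := fun hdvd => hpS (Nat.mem_primeFactors.2 ⟨hp, hdvd, hNℓ⟩)
    refine ⟨hp, fun hdvd => hpNℓ (Dvd.dvd.mul_right hdvd ℓ), fun hmem => ?_⟩
    obtain ⟨a, e, ha, he, htr, hdet⟩ := (hr_att p hp hpNℓ A hA).2 τ hτ
    apply hτC
    have : trDet (r τ) = (φ a, φ e) := by
      unfold trDet
      rw [htr, hdet]
    rw [this]
    exact mem_pairSet ε Y φ (by rw [ha]; exact hmem) he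
  have hratio := lowerDensity_le_upperDensity hsub hdens hY
  -- counting
  have hrange : (Set.range r) = (r.range : Set (GL (Fin 2) k)) := (MonoidHom.coe_range r).symm
  have hfinS : (r.range : Set (GL (Fin 2) k)).Finite := Set.toFinite _
  have hcard_pos : 0 < (r.range : Set (GL (Fin 2) k)).ncard :=
    (Set.ncard_pos hfinS).2 ⟨1, r.range.one_mem⟩
  rw [hrange, Nat.card_coe_set_eq, Nat.card_coe_set_eq] at hratio
  refine ⟨(r.range : Set (GL (Fin 2) k)) \ C, Set.sdiff_subset, ?_, P, card_pairSet_le ε Y φ, ?_⟩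
  · have hsplit := Set.ncard_inter_add_ncard_sdiff_eq_ncard (r.range : Set (GL (Fin 2) k)) C hfinS
    rw [Set.inter_comm] at hsplit
    have hG : (Nat.card r.range : ℝ) = ((r.range : Set (GL (Fin 2) k)).ncard : ℝ) := by
      rw [← Nat.card_coe_set_eq]
      rfl
    rw [Nat.card_coe_set_eq, hG]
    have hsplit' : ((C ∩ (r.range : Set (GL (Fin 2) k))).ncard : ℝ) +
        (((r.range : Set (GL (Fin 2) k)) \ C).ncard : ℝ) =
        ((r.range : Set (GL (Fin 2) k)).ncard : ℝ) := by
      exact_mod_cast hsplit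
    have hpos : (0 : ℝ) < ((r.range : Set (GL (Fin 2) k)).ncard : ℝ) := by exact_mod_cast hcard_pos
    rw [div_le_iff₀ hpos] at hratio
    linarith
  · rintro h ⟨-, hhC⟩
    by_contra hne
    exact hhC hne

end Fermat.Agent.S48.H108

end
-- ===== PACK-END S48/H108/Bnd.lean

-- ===== PACK-BEGIN S48/H468/CLift.lean
section


/-!
# S48 (Deligne–Serre) / glue piece CLIFT (helper468)

`complexLiftPiece : Top.ComplexLiftPiece`, i.e.
`BoundedImageStatement → LiftStatement → ComplexLiftStatement`: the mod-`ℓ` representations of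
bounded image lift to complex representations of bounded image, congruent to `(f, ε)`.
-/

set_option autoImplicit false

open CongruenceSubgroup
open scoped MatrixGroups
open Matrix

namespace Fermat.Agent.S48.H468

open Fermat.Agent.S48.Top
open Fermat.Agent.Lib.Cheb.Spec Fermat.Agent.Lib.Cheb.SpecQ

/-- (CLIFT) -/
theorem complexLiftPiece : ComplexLiftPiece := by
  intro hB hL N _ ε f hf
  obtain ⟨A, B, hAB⟩ := hB N ε f hf
  refine ⟨A, max A B, ?_⟩
  intro ℓ hℓ hlt
  obtain ⟨k, instF, instC, φ, hlift⟩ := hL ℓ hℓ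
  obtain ⟨r, hfin, hatt, hfinR, hcard⟩ :=
    hAB ℓ hℓ (lt_of_le_of_lt (le_max_right _ _) hlt) k φ
  have hAℓ : A < ℓ := lt_of_le_of_lt (le_max_left _ _) hlt
  have hndvd : ¬ ℓ ∣ Nat.card r.range := by
    intro h
    have hpos : 0 < Nat.card r.range := Nat.card_pos
    have := Nat.le_of_dvd hpos h
    omega
  obtain ⟨R, hR⟩ := hlift r.range hndvd r.range.subtype
  refine ⟨k, instF, instC, φ, R.comp r.rangeRestrict, ?_, ?_, ?_, ?_⟩
  · -- finite level
    obtain ⟨L, hLfin, hker⟩ := hfin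
    refine ⟨L, hLfin, fun σ hσ => ?_⟩
    have h1 : r.rangeRestrict σ = 1 := Subtype.ext (hker σ hσ)
    rw [MonoidHom.comp_apply, h1, map_one]
  · -- congruence
    intro p hp hpN V hV
    obtain ⟨hin, hfrob⟩ := hatt p hp hpN V hV
    refine ⟨fun σ hσ => ?_, fun σ hσ => ?_⟩
    · have h1 : r.rangeRestrict σ = 1 := Subtype.ext (hin σ hσ)
      rw [MonoidHom.comp_apply, h1, map_one]
    · obtain ⟨a, e, ha, he, htr, hdet⟩ := hfrob σ hσ
      obtain ⟨t, d, ht, hd, hφt, hφd⟩ := hR (r.rangeRestrict σ)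
      refine ⟨a, e, t, d, ha, he, ht, hd, ?_, ?_⟩
      · rw [hφt, ← htr]; rfl
      · rw [hφd, ← hdet]; rfl
  · -- finiteness
    have hsurj : Function.Surjective
        (fun x : r.range => (⟨R x, ⟨(Classical.choose x.2), by
          have := Classical.choose_spec x.2
          rw [MonoidHom.comp_apply]
          congr 1
          exact Subtype.ext this⟩⟩ : (R.comp r.rangeRestrict).range)) := by
      rintro ⟨y, σ, rfl⟩
      exact ⟨r.rangeRestrict σ, rfl⟩
    exact Finite.of_surjective _ hsurj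
  · have hsurj : Function.Surjective
        (fun x : r.range => (⟨R x, ⟨(Classical.choose x.2), by
          have := Classical.choose_spec x.2
          rw [MonoidHom.comp_apply]
          congr 1
          exact Subtype.ext this⟩⟩ : (R.comp r.rangeRestrict).range)) := by
      rintro ⟨y, σ, rfl⟩
      exact ⟨r.rangeRestrict σ, rfl⟩
    exact (Nat.card_le_card_of_surjective _ hsurj).trans hcard

end Fermat.Agent.S48.H468

end
-- ===== PACK-END S48/H468/CLift.lean

-- ===== PACK-BEGIN S48/H948/ZLemma.lean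
section


/-!
# S48 glue (helper948): the Z-lemma and roots of unity

* `exists_nat_cast_eq_zero`: a non-zero algebraic number `z` has a non-zero "norm" `n : ℕ` such
  that every ring hom `φ : ℤ̄ → k` killing (a preimage of) `z` kills `n`.
* `killNat`, `killProd`: the choice of such an `n`, and its product over a finite set.
* `exists_roots_of_pow_eq_one`: a matrix `g ∈ GL₂(ℂ)` with `g ^ m = 1` has trace `α + β` and
  determinant `α β` with `α ^ m = β ^ m = 1`.
-/

set_option autoImplicit false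

namespace Fermat.Agent.S48.H948

open Polynomial Fermat.Agent.S48.Top

/-- An algebraic element `x ≠ 0` of a domain is a root of an integer polynomial with non-zero
constant term. -/
theorem exists_poly_coeff_zero_ne_zero {R : Type*} [CommRing R] [IsDomain R] (x : R) (hx : x ≠ 0) :
    ∀ (n : ℕ) (P : ℤ[X]), P.natDegree ≤ n → P ≠ 0 → aeval x P = 0 →
      ∃ Q : ℤ[X], aeval x Q = 0 ∧ Q.coeff 0 ≠ 0 := by
  intro n
  induction n with
  | zero =>
    intro P hdeg hP hroot
    by_cases h0 : P.coeff 0 = 0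
    · exfalso
      apply hP
      rw [Polynomial.eq_C_of_natDegree_le_zero hdeg, h0, map_zero]
    · exact ⟨P, hroot, h0⟩
  | succ n ih =>
    intro P hdeg hP hroot
    by_cases h0 : P.coeff 0 = 0
    · have hPX : P = P.divX * X := by
        have := Polynomial.divX_mul_X_add P
        rw [h0, map_zero, add_zero] at this
        exact this.symm
      have hQ : P.divX ≠ 0 := by
        intro h
        apply hP
        rw [hPX, h, zero_mul]
      have hroot' : aeval x P.divX = 0 := by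
        rw [hPX, map_mul, aeval_X] at hroot
        rcases mul_eq_zero.mp hroot with h | h
        · exact h
        · exact absurd h hx
      have hdeg' : P.divX.natDegree ≤ n := by
        rw [Polynomial.natDegree_divX_eq_natDegree_tsub_one]
        omega
      exact ih P.divX hdeg' hQ hroot'
    · exact ⟨P, hroot, h0⟩

/-- **Z-lemma.**  A non-zero algebraic integer `z ∈ ℂ` has a non-zero natural number `n` which
vanishes in every field `k` receiving a ring hom `φ : ℤ̄ → k` with `φ z = 0`. -/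
theorem exists_nat_cast_eq_zero (z : ℂ) (hz : IsIntegral ℤ z) (h0 : z ≠ 0) :
    ∃ n : ℕ, n ≠ 0 ∧ ∀ (k : Type) [Field k] (φ : Zbar →+* k) (x : Zbar),
      (x : ℂ) = z → φ x = 0 → (n : k) = 0 := by
  obtain ⟨P, hPm, hPz⟩ := hz
  have hP0 : P ≠ 0 := hPm.ne_zero
  have hPz' : aeval z P = 0 := by
    rw [Polynomial.aeval_def]; exact hPz
  obtain ⟨Q, hQz, hQ0⟩ := exists_poly_coeff_zero_ne_zero z h0 P.natDegree P le_rfl hP0 hPz'
  refine ⟨(Q.coeff 0).natAbs, Int.natAbs_ne_zero.mpr hQ0, ?_⟩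
  intro k _ φ x hx hφ
  have hQx : aeval x Q = 0 := by
    have h1 : ((aeval x Q : Zbar) : ℂ) = aeval z Q := by
      rw [← hx]
      exact (Polynomial.aeval_algebraMap_apply ℂ x Q).symm ▸ rfl
    have h2 : ((aeval x Q : Zbar) : ℂ) = 0 := by rw [h1, hQz]
    exact_mod_cast h2
  have h3 : φ (aeval x Q) = 0 := by rw [hQx, map_zero]
  have h4 : φ (aeval x Q) = ((Q.coeff 0 : ℤ) : k) := by
    rw [Polynomial.aeval_eq_sum_range, map_sum]
    rw [Finset.sum_eq_single 0]
    · simp
    · intro i _ hi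
      rw [zsmul_eq_mul, map_mul, map_pow, hφ, zero_pow hi, mul_zero]
    · intro h
      exact absurd (Finset.mem_range.mpr (Nat.succ_pos _)) h
  rw [h4] at h3
  have h5 : (((Q.coeff 0).natAbs : ℤ) : k) = 0 := by
    rcases Int.natAbs_eq (Q.coeff 0) with h | h
    · rw [← h]; exact h3
    · have : ((Q.coeff 0).natAbs : ℤ) = - Q.coeff 0 := by omega
      rw [this, Int.cast_neg, h3, neg_zero]
  rw [Int.cast_natCast] at h5
  exact h5

open Classical in
/-- A natural number killed by every `φ : ℤ̄ → k` that kills `z` (`1` if `z` is zero or not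
integral). -/
noncomputable def killNat (z : ℂ) : ℕ :=
  if h : IsIntegral ℤ z ∧ z ≠ 0 then (exists_nat_cast_eq_zero z h.1 h.2).choose else 1

theorem killNat_ne_zero (z : ℂ) : killNat z ≠ 0 := by
  unfold killNat
  split_ifs with h
  · exact (exists_nat_cast_eq_zero z h.1 h.2).choose_spec.1
  · exact one_ne_zero

theorem killNat_cast {z : ℂ} (h0 : z ≠ 0) {k : Type} [Field k] (φ : Zbar →+* k) (x : Zbar)
    (hx : (x : ℂ) = z) (hφ : φ x = 0) : (killNat z : k) = 0 := by
  have hz : IsIntegral ℤ z := hx ▸ x.2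
  unfold killNat
  rw [dif_pos ⟨hz, h0⟩]
  exact (exists_nat_cast_eq_zero z hz h0).choose_spec.2 k φ x hx hφ

/-- The product of the `killNat z`, `z ∈ D`. -/
noncomputable def killProd (D : Finset ℂ) : ℕ := ∏ z ∈ D, killNat z

theorem killProd_ne_zero (D : Finset ℂ) : killProd D ≠ 0 :=
  Finset.prod_ne_zero_iff.mpr fun z _ => killNat_ne_zero z

/-- If `ℓ = char k` exceeds `killProd D`, then `φ` is injective on pairs with difference in `D`:
`φ a = φ b`, `a - b ∈ D` imply `a = b`. -/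
theorem eq_of_map_eq_of_lt_char (D : Finset ℂ) {ℓ : ℕ} {k : Type} [Field k] [CharP k ℓ]
    (hℓ : killProd D < ℓ) (φ : Zbar →+* k) (a b : Zbar) (hD : (a : ℂ) - (b : ℂ) ∈ D)
    (hφ : φ a = φ b) : a = b := by
  by_contra hab
  have h0 : ((a - b : Zbar) : ℂ) ≠ 0 := by
    intro h
    apply hab
    have : (a - b : Zbar) = 0 := by exact_mod_cast h
    exact sub_eq_zero.mp this
  have hx : ((a - b : Zbar) : ℂ) = (a : ℂ) - (b : ℂ) := by push_cast; rfl
  have h1 : (killNat ((a : ℂ) - (b : ℂ)) : k) = 0 :=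
    killNat_cast (hx ▸ h0) φ (a - b) hx (by rw [map_sub, hφ, sub_self])
  have h2 : (killProd D : k) = 0 := by
    unfold killProd
    rw [Nat.cast_prod]
    exact Finset.prod_eq_zero hD h1
  have h3 : ℓ ∣ killProd D := (CharP.cast_eq_zero_iff k ℓ _).mp h2
  have h4 := Nat.le_of_dvd (Nat.pos_of_ne_zero (killProd_ne_zero D)) h3
  omega

end Fermat.Agent.S48.H948

end
-- ===== PACK-END S48/H948/ZLemma.lean

-- ===== PACK-BEGIN S48/H948/Roots.lean
section


/-!
# S48 glue (helper948): matrices of finite order in `GL₂(ℂ)`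

* `exists_roots_of_pow_eq_one`: `g ^ m = 1` ⟹ `tr g = α + β`, `det g = α β`, `α ^ m = β ^ m = 1`.
* `unitPairs m`: the finite set `{(α + β, α β) : α ^ m = β ^ m = 1}`.
* `eq_one_of_pow_eq_one_of_trace_det`: `g ^ m = 1`, `m ≠ 0`, `tr g = 2`, `det g = 1` ⟹ `g = 1`.
-/

set_option autoImplicit false

namespace Fermat.Agent.S48.H948

open Polynomial Matrix

/-- A matrix `g ∈ GL₂(ℂ)` with `g ^ m = 1` has trace `α + β` and determinant `α β` with
`α ^ m = β ^ m = 1`. -/
theorem exists_roots_of_pow_eq_one (g : GL (Fin 2) ℂ) (m : ℕ) (hg : g ^ m = 1) :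
    ∃ α β : ℂ, α ^ m = 1 ∧ β ^ m = 1 ∧
      (g : Matrix (Fin 2) (Fin 2) ℂ).trace = α + β ∧
      (g : Matrix (Fin 2) (Fin 2) ℂ).det = α * β ∧
      (g : Matrix (Fin 2) (Fin 2) ℂ).charpoly.roots = {α, β} := by
  set M : Matrix (Fin 2) (Fin 2) ℂ := (g : Matrix (Fin 2) (Fin 2) ℂ) with hM
  have hMm : M ^ m = 1 := by
    have := congrArg (fun u : GL (Fin 2) ℂ => (u : Matrix (Fin 2) (Fin 2) ℂ)) hg
    simpa using this
  have hcard : M.charpoly.roots.card = 2 := by
    rw [Polynomial.splits_iff_card_roots.mp (IsAlgClosed.splits M.charpoly),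
      Matrix.charpoly_natDegree_eq_dim, Fintype.card_fin]
  obtain ⟨α, β, hαβ⟩ := Multiset.card_eq_two.mp hcard
  have hroot : ∀ x ∈ M.charpoly.roots, x ^ m = 1 := by
    intro x hx
    have h1 : IsRoot M.charpoly x := (Polynomial.mem_roots'.mp hx).2
    have h2 : x ∈ spectrum ℂ M := Matrix.mem_spectrum_iff_isRoot_charpoly.mpr h1
    have h3 : x ^ m ∈ spectrum ℂ (M ^ m) := spectrum.pow_mem_pow M m h2
    rw [hMm, spectrum.one_eq] at h3
    exact h3
  refine ⟨α, β, hroot α (by rw [hαβ]; simp), hroot β (by rw [hαβ]; simp), ?_, ?_, hαβ⟩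
  · rw [Matrix.trace_eq_sum_roots_charpoly, hαβ]
    simp
  · rw [Matrix.det_eq_prod_roots_charpoly, hαβ]
    simp

/-- The finite set of complex `m`-th roots of unity (`m ≠ 0`). -/
noncomputable def unitRoots (m : ℕ) : Finset ℂ := Polynomial.nthRootsFinset m (1 : ℂ)

theorem mem_unitRoots {m : ℕ} (hm : 0 < m) {z : ℂ} : z ∈ unitRoots m ↔ z ^ m = 1 :=
  Polynomial.mem_nthRootsFinset hm 1

/-- The finite set `{(α + β, α β) : α ^ m = β ^ m = 1}`. -/
noncomputable def unitPairs (m : ℕ) : Finset (ℂ × ℂ) :=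
  (unitRoots m ×ˢ unitRoots m).image fun x => (x.1 + x.2, x.1 * x.2)

theorem trace_det_mem_unitPairs (g : GL (Fin 2) ℂ) {m : ℕ} (hm : 0 < m) (hg : g ^ m = 1) :
    ((g : Matrix (Fin 2) (Fin 2) ℂ).trace, (g : Matrix (Fin 2) (Fin 2) ℂ).det) ∈ unitPairs m := by
  obtain ⟨α, β, hα, hβ, htr, hdet, -⟩ := exists_roots_of_pow_eq_one g m hg
  rw [unitPairs, Finset.mem_image]
  exact ⟨(α, β), Finset.mem_product.mpr ⟨(mem_unitRoots hm).mpr hα, (mem_unitRoots hm).mpr hβ⟩,
    by rw [htr, hdet]⟩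

/-- Elements of `unitPairs m` are pairs of algebraic integers. -/
theorem isIntegral_of_mem_unitPairs {m : ℕ} (hm : 0 < m) {y : ℂ × ℂ} (hy : y ∈ unitPairs m) :
    IsIntegral ℤ y.1 ∧ IsIntegral ℤ y.2 := by
  rw [unitPairs, Finset.mem_image] at hy
  obtain ⟨x, hx, rfl⟩ := hy
  rw [Finset.mem_product] at hx
  have h1 : IsIntegral ℤ x.1 :=
    IsIntegral.of_pow hm (by rw [(mem_unitRoots hm).mp hx.1]; exact isIntegral_one)
  have h2 : IsIntegral ℤ x.2 :=
    IsIntegral.of_pow hm (by rw [(mem_unitRoots hm).mp hx.2]; exact isIntegral_one)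
  exact ⟨h1.add h2, h1.mul h2⟩

/-- A matrix of finite order in `GL₂(ℂ)` with trace `2` and determinant `1` is the identity. -/
theorem eq_one_of_pow_eq_one_of_trace_det (g : GL (Fin 2) ℂ) {m : ℕ} (hm : 0 < m)
    (hg : g ^ m = 1) (htr : (g : Matrix (Fin 2) (Fin 2) ℂ).trace = 2)
    (hdet : (g : Matrix (Fin 2) (Fin 2) ℂ).det = 1) : g = 1 := by
  set M : Matrix (Fin 2) (Fin 2) ℂ := (g : Matrix (Fin 2) (Fin 2) ℂ) with hM
  have hMm : M ^ m = 1 := by
    have := congrArg (fun u : GL (Fin 2) ℂ => (u : Matrix (Fin 2) (Fin 2) ℂ)) hg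
    simpa using this
  -- Cayley–Hamilton: (M - 1)^2 = 0
  have hCH : M ^ 2 - (1 + 1) * M + 1 = 0 := by
    have h := Matrix.aeval_self_charpoly M
    rw [Matrix.charpoly_fin_two, htr, hdet] at h
    simpa [map_sub, map_add, map_mul, map_pow, aeval_X, aeval_C, two_smul, two_mul,
      Algebra.algebraMap_eq_smul_one] using h
  set n : Matrix (Fin 2) (Fin 2) ℂ := M - 1 with hn
  have hn2 : n * n = 0 := by
    have : n * n = M ^ 2 - (1 + 1) * M + 1 := by
      rw [hn]; noncomm_ring
    rw [this, hCH]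
  have hMn : M = 1 + n := by rw [hn]; abel
  -- (1 + n)^m = 1 + m n
  have hpow : ∀ j : ℕ, (1 + n) ^ j = 1 + (j : ℂ) • n := by
    intro j
    induction j with
    | zero => simp
    | succ j ih =>
      rw [pow_succ, ih]
      have : (1 + (j : ℂ) • n) * (1 + n) = 1 + ((j : ℂ) + 1) • n + (j : ℂ) • (n * n) := by
        rw [add_smul, one_smul]
        simp only [mul_add, add_mul, mul_one, one_mul, smul_mul_assoc]
        abel
      rw [this, hn2, smul_zero, add_zero]
      push_cast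
      rfl
  have h1 : (m : ℂ) • n = 0 := by
    have := hpow m
    rw [← hMn, hMm] at this
    have h2 : (1 : Matrix (Fin 2) (Fin 2) ℂ) + (m : ℂ) • n = 1 + 0 := by rw [← this, add_zero]
    exact add_left_cancel h2
  have hn0 : n = 0 := by
    rcases smul_eq_zero.mp h1 with h | h
    · exact absurd (by exact_mod_cast h : m = 0) hm.ne'
    · exact h
  apply Units.ext
  show M = 1
  rw [hMn, hn0, add_zero]

end Fermat.Agent.S48.H948

end
-- ===== PACK-END S48/H948/Roots.lean

-- ===== PACK-BEGIN S48/H948/Basic.lean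
section


/-!
# S48 glue (helper948): small shared lemmas

* `finite_range_of_finiteLevel`: a homomorphism on `G_ℚ` of finite level has finite image.
* `HasLowerDensity.nonempty`: positive lower density ⟹ non-empty.
* `le_of_lowerDensity_of_upperDensity`: lower density of a subset `≤` upper density.
-/

set_option autoImplicit false

namespace Fermat.Agent.S48.H948

open Fermat.Agent.Lib.Cheb.Spec Fermat.Agent.Lib.Cheb.SpecQ Fermat.Agent.S48.Top

/-- A homomorphism on `G_ℚ` which factors through a finite level has finite image. -/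
theorem finite_range_of_finiteLevel {M : Type} [Group M] (ρ : GQ →* M)
    (h : GaloisFactorsThroughFiniteLevel ρ) : Finite ρ.range := by
  obtain ⟨L, hL, hρ⟩ := h
  have : FiniteDimensional ℚ L := hL
  -- restriction to `L`
  let res : GQ → (L →ₐ[ℚ] Qb) := fun σ => (σ : Qb →ₐ[ℚ] Qb).comp L.val
  have hres : ∀ σ τ : GQ, res σ = res τ → ρ σ = ρ τ := by
    intro σ τ hστ
    have h1 : ρ (σ⁻¹ * τ) = 1 := by
      apply hρ
      intro x hx
      have h2 : σ x = τ x := congrArg (fun g : L →ₐ[ℚ] Qb => g ⟨x, hx⟩) hστ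
      show σ⁻¹ (τ x) = x
      rw [← h2]
      exact σ.symm_apply_apply x
    rw [map_mul, map_inv, inv_mul_eq_one] at h1
    exact h1
  -- the image of `ρ` is the image of a map from the finite set `Set.range res`
  let g : Set.range res → ρ.range := fun y => ⟨ρ y.2.choose, y.2.choose, rfl⟩
  have hg : Function.Surjective g := by
    rintro ⟨_, σ, rfl⟩
    refine ⟨⟨res σ, σ, rfl⟩, ?_⟩
    apply Subtype.ext
    show ρ _ = ρ σ
    exact hres _ _ (Set.mem_range_self (f := res) σ).choose_spec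
  exact Finite.of_surjective g hg

/-- Positive lower density implies non-empty. -/
theorem nonempty_of_hasLowerDensity {X : Set ℕ} {d : ℝ} (h : HasLowerDensity X d)
    (hd : 0 < d) : X.Nonempty := by
  obtain ⟨δ, hδ, hs⟩ := h (d / 2) (by positivity)
  set s : ℝ := 1 + min δ 1 / 2 with hsdef
  have hmin : 0 < min δ 1 := lt_min hδ one_pos
  have hs1 : 1 < s := by rw [hsdef]; linarith
  have hs2 : s < 1 + δ := by
    rw [hsdef]
    have : min δ 1 ≤ δ := min_le_left _ _
    linarith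
  obtain ⟨T, hT, hsum⟩ := hs s hs1 hs2
  have hlog : 0 < Real.log (1 / (s - 1)) := by
    apply Real.log_pos
    have h1 : s - 1 = min δ 1 / 2 := by rw [hsdef]; ring
    rw [h1]
    have h2 : min δ 1 ≤ 1 := min_le_right _ _
    rw [lt_div_iff₀ (by positivity)]
    linarith
  have hpos : 0 < ∑ p ∈ T, (p : ℝ) ^ (-s) := by
    refine lt_of_lt_of_le ?_ hsum
    have : d - d / 2 = d / 2 := by ring
    rw [this]
    positivity
  by_contra hX
  rw [Set.not_nonempty_iff_eq_empty] at hX
  have hTe : T = ∅ := by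
    apply Finset.eq_empty_of_forall_notMem
    intro p hp
    have := hT p hp
    rw [hX] at this
    exact this
  rw [hTe, Finset.sum_empty] at hpos
  exact lt_irrefl _ hpos

/-- The lower density of a subset is at most the upper density of the set. -/
theorem le_of_lowerDensity_of_upperDensity {X X' : Set ℕ} {d e : ℝ}
    (hX : HasLowerDensity X d) (hsub : X ⊆ X') (hX' : HasUpperDensity X' e) : d ≤ e := by
  by_contra hlt'
  have hlt : e < d := not_le.mp hlt'
  set η : ℝ := (d - e) / 4 with hη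
  have hηpos : 0 < η := by rw [hη]; linarith
  obtain ⟨δ₁, hδ₁, h1⟩ := hX η hηpos
  obtain ⟨δ₂, hδ₂, h2⟩ := hX' η hηpos
  set s : ℝ := 1 + min (min δ₁ δ₂) 1 / 2 with hsdef
  have hmin : 0 < min (min δ₁ δ₂) 1 := lt_min (lt_min hδ₁ hδ₂) one_pos
  have hs1 : 1 < s := by rw [hsdef]; linarith
  have hm1 : min (min δ₁ δ₂) 1 ≤ δ₁ := (min_le_left _ _).trans (min_le_left _ _)
  have hm2 : min (min δ₁ δ₂) 1 ≤ δ₂ := (min_le_left _ _).trans (min_le_right _ _)
  have hs2 : s < 1 + δ₁ := by rw [hsdef]; linarith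
  have hs3 : s < 1 + δ₂ := by rw [hsdef]; linarith
  obtain ⟨T, hT, hsum⟩ := h1 s hs1 hs2
  have hup := h2 s hs1 hs3 T (fun p hp => hsub (hT p hp))
  have hlog : 0 < Real.log (1 / (s - 1)) := by
    apply Real.log_pos
    have h1 : s - 1 = min (min δ₁ δ₂) 1 / 2 := by rw [hsdef]; ring
    rw [h1]
    have h2 : min (min δ₁ δ₂) 1 ≤ 1 := min_le_right _ _
    rw [lt_div_iff₀ (by positivity)]
    linarith
  have h3 : (d - η) * Real.log (1 / (s - 1)) ≤ (e + η) * Real.log (1 / (s - 1)) :=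
    hsum.trans hup
  have h4 : d - η ≤ e + η := le_of_mul_le_mul_right h3 hlog
  rw [hη] at h4
  linarith

end Fermat.Agent.S48.H948

end
-- ===== PACK-END S48/H948/Basic.lean

-- ===== PACK-BEGIN S48/H948/Irr1.lean
section


/-!
# S48 glue piece IRR, algebraic part (helper948)

* `mul_trace_sub_eq_det`: an eigenvalue `c` of a `2 × 2` matrix satisfies `c (tr - c) = det`.
* `two_mul_card_le_sum_normSq_trace`: a finite subgroup `Γ ≤ GL₂(ℂ)` stabilising a line satisfies
  `2 |Γ| ≤ ∑_{g ∈ Γ} ‖tr g‖²`.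
* `isIrreducible_of_no_stable_line`: a representation `G → GL₂(k)` without stable line is
  irreducible (in the sense of `Representation.IsIrreducible`).
-/

set_option autoImplicit false

namespace Fermat.Agent.S48.H948

open Matrix

/-- An eigenvalue `c` of a `2 × 2` matrix satisfies `c (tr - c) = det`. -/
theorem mul_trace_sub_eq_det {F : Type*} [Field F] (M : Matrix (Fin 2) (Fin 2) F)
    (v : Fin 2 → F) (hv : v ≠ 0) (c : F) (h : M *ᵥ v = c • v) :
    c * (M.trace - c) = M.det := by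
  have h0 : (M - c • (1 : Matrix (Fin 2) (Fin 2) F)) *ᵥ v = 0 := by
    rw [Matrix.sub_mulVec, h, Matrix.smul_mulVec, Matrix.one_mulVec, sub_self]
  have hdet : (M - c • (1 : Matrix (Fin 2) (Fin 2) F)).det = 0 :=
    Matrix.exists_mulVec_eq_zero_iff.mp ⟨v, hv, h0⟩
  rw [Matrix.det_fin_two] at hdet
  simp only [Matrix.sub_apply, Matrix.smul_apply, Matrix.one_apply_eq, smul_eq_mul, mul_one,
    Matrix.one_apply_ne (show (0 : Fin 2) ≠ 1 by decide),
    Matrix.one_apply_ne (show (1 : Fin 2) ≠ 0 by decide), mul_zero, sub_zero] at hdet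
  rw [Matrix.trace_fin_two, Matrix.det_fin_two]
  linear_combination -hdet

section Stable

variable (Γ : Subgroup (GL (Fin 2) ℂ)) (v : Fin 2 → ℂ) (hv : v ≠ 0)
  (hstab : ∀ g ∈ Γ, ∃ c : ℂ, ((g : GL (Fin 2) ℂ) : Matrix (Fin 2) (Fin 2) ℂ) *ᵥ v = c • v)

/-- the eigenvalue of `g ∈ Γ` on the stable line -/
noncomputable def eigVal
    (hstab : ∀ g ∈ Γ, ∃ c : ℂ, ((g : GL (Fin 2) ℂ) : Matrix (Fin 2) (Fin 2) ℂ) *ᵥ v = c • v)
    (g : Γ) : ℂ :=
  (hstab g g.2).choose

theorem eigVal_spec (g : Γ) :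
    ((g : GL (Fin 2) ℂ) : Matrix (Fin 2) (Fin 2) ℂ) *ᵥ v = eigVal Γ v hstab g • v :=
  (hstab g g.2).choose_spec

include hv in
theorem eigVal_unique (g : Γ) (c : ℂ)
    (h : ((g : GL (Fin 2) ℂ) : Matrix (Fin 2) (Fin 2) ℂ) *ᵥ v = c • v) :
    eigVal Γ v hstab g = c := by
  have h1 := eigVal_spec Γ v hstab g
  rw [h] at h1
  have h2 : (c - eigVal Γ v hstab g) • v = 0 := by rw [sub_smul, h1, sub_self]
  rcases smul_eq_zero.mp h2 with h3 | h3
  · exact (sub_eq_zero.mp h3).symm
  · exact absurd h3 hv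

/-- the eigenvalue character -/
noncomputable def eigHom : Γ →* ℂ where
  toFun := eigVal Γ v hstab
  map_one' := by
    apply eigVal_unique Γ v hv hstab
    simp
  map_mul' g h := by
    apply eigVal_unique Γ v hv hstab
    have : (((g * h : Γ) : GL (Fin 2) ℂ) : Matrix (Fin 2) (Fin 2) ℂ) =
        ((g : GL (Fin 2) ℂ) : Matrix (Fin 2) (Fin 2) ℂ) *
          ((h : GL (Fin 2) ℂ) : Matrix (Fin 2) (Fin 2) ℂ) := by simp
    rw [this, ← Matrix.mulVec_mulVec, eigVal_spec Γ v hstab h, Matrix.mulVec_smul,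
      eigVal_spec Γ v hstab g, smul_smul, mul_comm]

/-- the determinant character -/
noncomputable def detHom : Γ →* ℂ where
  toFun g := ((g : GL (Fin 2) ℂ) : Matrix (Fin 2) (Fin 2) ℂ).det
  map_one' := by simp
  map_mul' g h := by simp

theorem eigHom_apply (g : Γ) : eigHom Γ v hv hstab g = eigVal Γ v hstab g := rfl

/-- values of a homomorphism from a finite group to `ℂ` have norm one -/
theorem norm_hom_eq_one [Fintype Γ] (f : Γ →* ℂ) (g : Γ) : ‖f g‖ = 1 := by
  have h1 : f g ^ Fintype.card Γ = 1 := by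
    rw [← map_pow, pow_card_eq_one, map_one]
  exact Complex.norm_eq_one_of_pow_eq_one h1 Fintype.card_ne_zero

/-- the character `c² · conj(det) = c / c'` -/
noncomputable def ratioHom : Γ →* ℂ :=
  (eigHom Γ v hv hstab) ^ 2 * ((starRingEnd ℂ : ℂ →+* ℂ) : ℂ →* ℂ).comp (detHom Γ)

theorem normSq_trace_eq [Fintype Γ] (g : Γ) :
    ‖((g : GL (Fin 2) ℂ) : Matrix (Fin 2) (Fin 2) ℂ).trace‖ ^ 2 =
      2 + 2 * (ratioHom Γ v hv hstab g).re := by
  set c := eigVal Γ v hstab g with hc
  set M := ((g : GL (Fin 2) ℂ) : Matrix (Fin 2) (Fin 2) ℂ) with hM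
  set c' := M.trace - c with hc'
  have hcc' : c * c' = M.det := mul_trace_sub_eq_det M v hv c (eigVal_spec Γ v hstab g)
  have hnc : ‖c‖ = 1 := norm_hom_eq_one Γ (eigHom Γ v hv hstab) g
  have hnd : ‖M.det‖ = 1 := norm_hom_eq_one Γ (detHom Γ) g
  have hnc' : ‖c'‖ = 1 := by
    have : ‖c‖ * ‖c'‖ = 1 := by rw [← norm_mul, hcc', hnd]
    rw [hnc, one_mul] at this
    exact this
  have htr : M.trace = c + c' := by rw [hc']; ring
  have hNc : Complex.normSq c = 1 := by
    rw [Complex.normSq_eq_norm_sq, hnc]; norm_num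
  have hNc' : Complex.normSq c' = 1 := by
    rw [Complex.normSq_eq_norm_sq, hnc']; norm_num
  have hratio : ratioHom Γ v hv hstab g = c * (starRingEnd ℂ) c' := by
    show (eigVal Γ v hstab g) ^ 2 * (starRingEnd ℂ) M.det = c * (starRingEnd ℂ) c'
    rw [← hcc', map_mul, ← hc]
    have h1 : c * (starRingEnd ℂ) c = 1 := by
      rw [Complex.mul_conj, hNc]; norm_num
    calc c ^ 2 * ((starRingEnd ℂ) c * (starRingEnd ℂ) c')
        = (c * (starRingEnd ℂ) c) * (c * (starRingEnd ℂ) c') := by ring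
      _ = c * (starRingEnd ℂ) c' := by rw [h1, one_mul]
  rw [← Complex.normSq_eq_norm_sq, htr, Complex.normSq_add, hNc, hNc', hratio]
  ring

include hv hstab in
/-- A finite subgroup of `GL₂(ℂ)` stabilising a line satisfies `2 |Γ| ≤ ∑ ‖tr g‖²`. -/
theorem two_mul_card_le_sum_normSq_trace [Fintype Γ] :
    2 * (Fintype.card Γ : ℝ) ≤
      ∑ g : Γ, ‖((g : GL (Fin 2) ℂ) : Matrix (Fin 2) (Fin 2) ℂ).trace‖ ^ 2 := by
  classical
  have h1 : ∀ g : Γ, ‖((g : GL (Fin 2) ℂ) : Matrix (Fin 2) (Fin 2) ℂ).trace‖ ^ 2 =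
      2 + 2 * (ratioHom Γ v hv hstab g).re := normSq_trace_eq Γ v hv hstab
  rw [Finset.sum_congr rfl (fun g _ => h1 g), Finset.sum_add_distrib, ← Finset.mul_sum,
    Finset.sum_const, Finset.card_univ, nsmul_eq_mul]
  have h2 : (∑ g : Γ, (ratioHom Γ v hv hstab g).re) = (∑ g : Γ, ratioHom Γ v hv hstab g).re := by
    rw [Complex.re_sum]
  have h3 : 0 ≤ (∑ g : Γ, ratioHom Γ v hv hstab g).re := by
    rw [sum_hom_units (ratioHom Γ v hv hstab)]
    split_ifs
    · simp
    · simp
  rw [h2]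
  nlinarith

end Stable

/-- A representation `G → GL₂(k)` without stable line is irreducible. -/
theorem isIrreducible_of_no_stable_line {G : Type} [Group G] {k : Type} [Field k]
    (ρ : G →* GL (Fin 2) k)
    (h : ¬ ∃ v : Fin 2 → k, v ≠ 0 ∧
      ∀ σ : G, ∃ c : k, ((ρ σ : GL (Fin 2) k) : Matrix (Fin 2) (Fin 2) k) *ᵥ v = c • v) :
    (Deformation.matrixRepresentation ρ).IsIrreducible := by
  have hnt : Nontrivial (Subrepresentation (Deformation.matrixRepresentation ρ)) := by
    refine ⟨⊥, ⊤, fun hbt => ?_⟩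
    have h1 := congrArg Subrepresentation.toSubmodule hbt
    exact bot_ne_top h1
  refine { toNontrivial := hnt, eq_bot_or_eq_top := ?_ }
  intro W
  have hdim : Module.finrank k (Fin 2 → k) = 2 := by simp
  have hle : Module.finrank k W.toSubmodule ≤ 2 :=
    (Submodule.finrank_le _).trans hdim.le
  have hcases : Module.finrank k W.toSubmodule = 0 ∨ Module.finrank k W.toSubmodule = 1 ∨
      Module.finrank k W.toSubmodule = 2 := by omega
  rcases hcases with h0 | h1 | h2
  · left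
    apply Subrepresentation.toSubmodule_injective
    exact Submodule.finrank_eq_zero.mp h0
  · exfalso
    apply h
    obtain ⟨v, hv0, hv⟩ := finrank_eq_one_iff'.mp h1
    refine ⟨(v : Fin 2 → k), fun hz => hv0 (Subtype.ext hz), ?_⟩
    intro σ
    have hmem : (Deformation.matrixRepresentation ρ) σ (v : Fin 2 → k) ∈ W.toSubmodule :=
      W.apply_mem_toSubmodule σ v.2
    obtain ⟨c, hc⟩ := hv ⟨_, hmem⟩
    refine ⟨c, ?_⟩
    have h3 := congrArg (fun x : W.toSubmodule => (x : Fin 2 → k)) hc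
    simp only [Submodule.coe_smul] at h3
    rw [h3, Deformation.matrixRepresentation_apply, Matrix.mulVecLin_apply]
  · right
    apply Subrepresentation.toSubmodule_injective
    apply Submodule.eq_top_of_finrank_eq
    rw [h2, hdim]

end Fermat.Agent.S48.H948

end
-- ===== PACK-END S48/H948/Irr1.lean

-- ===== PACK-BEGIN S48/H428/Coset.lean
section


/-!
# S48 / P5 (helper428): the coset lemma (case `ℓ ∣ |G|`, any field of characteristic `ℓ`)

Let `k` be a field of characteristic `ℓ`, `Γ` a finite group of order divisible by `ℓ` with an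
injective homomorphism `ρ : Γ → GL₂(k)` whose image stabilises no line, and `H ⊆ Γ` a subset on
which `(tr, det)` takes its values in `P`.  Then `2 ℓ |H| ≤ (ℓ + 2 |P|) |Γ|` (`coset_bound`).

Proof.  An element `u` of order `ℓ` is `1 + N`, `N² = 0`, `N ≠ 0`.  Let `v = N w ≠ 0` and let `B`
be the stabiliser of the line `k v`; it is a proper subgroup.  For `h ∉ B` one has
`tr(ρ(h) N) ≠ 0` (`N g N = tr(g N) N`), and `tr(ρ(h uʲ)) = tr ρ(h) + j tr(ρ(h) N)`, so the map
`h ↦ ((tr, det)(h), h ⟨u⟩)` is injective on `H ∖ B`.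
-/

set_option autoImplicit false
set_option linter.style.haveILetI false

namespace Fermat.Agent.S48.H428

open scoped LinearAlgebra.Projectivization Matrix MatrixGroups
open MulAction

variable {k : Type*} [Field k]

/-- For a `2 × 2` matrix `N` of determinant `0` (rank `≤ 1`): `N g N = tr(g N) N`. -/
lemma mul_mul_eq_trace_smul (N g : Matrix (Fin 2) (Fin 2) k) (hdet : N.det = 0) :
    N * g * N = (g * N).trace • N := by
  rw [Matrix.det_fin_two] at hdet
  ext i j
  fin_cases i <;> fin_cases j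
  · simp only [Fin.zero_eta, Matrix.mul_apply, Fin.sum_univ_two, Matrix.smul_apply,
      Matrix.trace_fin_two, smul_eq_mul]
    linear_combination (-(g 1 1)) * hdet
  · simp only [Fin.zero_eta, Fin.mk_one, Matrix.mul_apply, Fin.sum_univ_two, Matrix.smul_apply,
      Matrix.trace_fin_two, smul_eq_mul]
    linear_combination (g 0 1) * hdet
  · simp only [Fin.zero_eta, Fin.mk_one, Matrix.mul_apply, Fin.sum_univ_two, Matrix.smul_apply,
      Matrix.trace_fin_two, smul_eq_mul]
    linear_combination (g 1 0) * hdet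
  · simp only [Fin.mk_one, Matrix.mul_apply, Fin.sum_univ_two, Matrix.smul_apply,
      Matrix.trace_fin_two, smul_eq_mul]
    linear_combination (-(g 0 0)) * hdet

/-- A nilpotent `2 × 2` matrix over a field has square zero. -/
lemma mul_self_eq_zero_of_pow_eq_zero {N : Matrix (Fin 2) (Fin 2) k} {n : ℕ} (h : N ^ n = 0) :
    N * N = 0 := by
  have hN : IsNilpotent N := ⟨n, h⟩
  have h1 := Matrix.isNilpotent_charpoly_sub_pow_of_isNilpotent hN
  have h2 : N.charpoly = Polynomial.X ^ 2 := by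
    have := h1.eq_zero
    simpa [sub_eq_zero] using this
  have h3 := Matrix.aeval_self_charpoly N
  rw [h2] at h3
  simpa [pow_two] using h3

/-- `(1 + N)ⁿ = 1 + n N` when `N² = 0`. -/
lemma one_add_pow_of_mul_self {N : Matrix (Fin 2) (Fin 2) k} (hN : N * N = 0) (n : ℕ) :
    (1 + N) ^ n = 1 + (n : k) • N := by
  induction n with
  | zero => simp
  | succ n ih =>
    rw [pow_succ, ih, mul_add, mul_one, add_mul, one_mul, smul_mul_assoc, hN, smul_zero,
      add_zero, Nat.cast_succ, add_smul, one_smul, add_assoc]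

/-- A nonzero matrix does not kill every vector. -/
lemma exists_mulVec_ne_zero {N : Matrix (Fin 2) (Fin 2) k} (hN : N ≠ 0) :
    ∃ w : Fin 2 → k, N *ᵥ w ≠ 0 := by
  by_contra h
  push Not at h
  apply hN
  ext i j
  have := congrFun (h (Pi.single j 1)) i
  simpa using this

/-- **The coset lemma.** -/
theorem coset_bound {Γ : Type*} [Group Γ] [Finite Γ] (ρ : Γ →* GL (Fin 2) k)
    (hρ : Function.Injective ρ) (ℓ : ℕ) (hℓ : ℓ.Prime) [CharP k ℓ] (hdvd : ℓ ∣ Nat.card Γ)
    (hns : ∀ v : Fin 2 → k, v ≠ 0 →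
      ∃ g : Γ, ∀ c : k, (ρ g : Matrix (Fin 2) (Fin 2) k) *ᵥ v ≠ c • v)
    (H : Finset Γ) (P : Finset (k × k)) (hP : ∀ h ∈ H, trDet (ρ h) ∈ P) :
    2 * ℓ * H.card ≤ (ℓ + 2 * P.card) * Nat.card Γ := by
  classical
  haveI : Fact ℓ.Prime := ⟨hℓ⟩
  haveI : Fintype Γ := Fintype.ofFinite Γ
  obtain ⟨u, hu⟩ := exists_prime_orderOf_dvd_card' ℓ hdvd
  have hu1 : u ≠ 1 := by
    rintro rfl
    rw [orderOf_one] at hu
    exact hℓ.one_lt.ne hu
  have hul : u ^ ℓ = 1 := by
    have := pow_orderOf_eq_one u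
    rwa [hu] at this
  -- the nilpotent part
  set U : Matrix (Fin 2) (Fin 2) k := (ρ u : Matrix (Fin 2) (Fin 2) k) with hU
  set N : Matrix (Fin 2) (Fin 2) k := U - 1 with hNdef
  have hUN : U = 1 + N := by rw [hNdef]; abel
  have hN0 : N ≠ 0 := by
    intro h
    apply hu1
    apply hρ
    rw [map_one]
    exact Units.ext (by rw [Units.val_one]; exact sub_eq_zero.mp h)
  have hUl : U ^ ℓ = 1 := by
    rw [hU, ← Units.val_pow_eq_pow_val, ← map_pow, hul, map_one, Units.val_one]
  have hNl : N ^ ℓ = 0 := by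
    rw [hNdef, sub_pow_char_of_commute ℓ (Commute.one_right U), hUl, one_pow, sub_self]
  have hNN : N * N = 0 := mul_self_eq_zero_of_pow_eq_zero hNl
  have hNdet : N.det = 0 := by
    have h1 : (N * N).det = 0 := by rw [hNN]; simp
    rw [Matrix.det_mul] at h1
    exact mul_self_eq_zero.mp h1
  obtain ⟨w, hw⟩ := exists_mulVec_ne_zero hN0
  set v : Fin 2 → k := N *ᵥ w with hv
  have hNv : N *ᵥ v = 0 := by rw [hv, Matrix.mulVec_mulVec, hNN, Matrix.zero_mulVec]
  -- vanishing of `tr (g N)` forces `g` to stabilise the line of `v`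
  have key : ∀ g : Matrix (Fin 2) (Fin 2) k, (g * N).trace = 0 → ∃ c : k, g *ᵥ v = c • v := by
    intro g hg
    have h1 : N *ᵥ (g *ᵥ v) = 0 := by
      rw [hv, Matrix.mulVec_mulVec, Matrix.mulVec_mulVec,
        mul_mul_eq_trace_smul N g hNdet, hg, zero_smul, Matrix.zero_mulVec]
    exact ker_proportional N hN0 hw hNv h1
  -- powers of `u`
  have hUpow : ∀ n : ℕ, ((ρ (u ^ n) : GL (Fin 2) k) : Matrix (Fin 2) (Fin 2) k) =
      1 + (n : k) • N := by
    intro n
    rw [map_pow, Units.val_pow_eq_pow_val, ← hU, hUN, one_add_pow_of_mul_self hNN]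
  -- the stabiliser of the line of `v`
  let x : ℙ k (Fin 2 → k) := Projectivization.mk k v hw
  let B : Subgroup Γ := (MulAction.stabilizer (GL (Fin 2) k) x).comap ρ
  have hBmem : ∀ g : Γ, g ∈ B ↔ ∃ c : k, (ρ g : Matrix (Fin 2) (Fin 2) k) *ᵥ v = c • v := by
    intro g
    rw [Subgroup.mem_comap, MulAction.mem_stabilizer_iff]
    exact smul_mk_eq_iff (ρ g) v hw
  have hBtop : B ≠ ⊤ := by
    intro h
    obtain ⟨g, hg⟩ := hns v hw
    have : g ∈ B := by rw [h]; exact Subgroup.mem_top g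
    obtain ⟨c, hc⟩ := (hBmem g).mp this
    exact hg c hc
  have hBcard : 2 * Nat.card B ≤ Nat.card Γ := by
    have h1 : B.index * Nat.card B = Nat.card Γ := Subgroup.index_mul_card B
    have h2 : B.index ≠ 1 := fun h => hBtop (Subgroup.index_eq_one.mp h)
    have h3 : B.index ≠ 0 := Subgroup.index_ne_zero_of_finite
    have h4 : 2 ≤ B.index := by omega
    calc 2 * Nat.card B ≤ B.index * Nat.card B := Nat.mul_le_mul_right _ h4
      _ = Nat.card Γ := h1
  -- the part of `H` inside `B`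
  have hHB : (H.filter (fun h => h ∈ B)).card ≤ Nat.card B := by
    have h1 : ((H.filter (fun h => h ∈ B) : Finset Γ) : Set Γ) ⊆ (B : Set Γ) := by
      intro h hh
      exact (Finset.mem_filter.mp (Finset.mem_coe.mp hh)).2
    have h2 := Set.ncard_le_ncard h1 (Set.toFinite _)
    rw [Set.ncard_coe_finset] at h2
    exact h2.trans (le_of_eq (Nat.card_coe_set_eq (B : Set Γ)).symm)
  -- the part of `H` outside `B`
  let Z : Subgroup Γ := Subgroup.zpowers u
  have hZcard : Nat.card (Γ ⧸ Z) * ℓ = Nat.card Γ := by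
    have h1 := Subgroup.card_eq_card_quotient_mul_card_subgroup Z
    rw [Nat.card_zpowers, hu] at h1
    exact h1.symm
  haveI : Fintype (Γ ⧸ Z) := Fintype.ofFinite _
  have hS : (H.filter (fun h => h ∉ B)).card ≤ P.card * Nat.card (Γ ⧸ Z) := by
    have hmaps : ∀ h ∈ H.filter (fun h => h ∉ B),
        ((trDet (ρ h), (QuotientGroup.mk h : Γ ⧸ Z)) : (k × k) × (Γ ⧸ Z)) ∈
          P ×ˢ (Finset.univ : Finset (Γ ⧸ Z)) := by
      intro h hh
      rw [Finset.mem_product]
      exact ⟨hP h (Finset.mem_filter.mp hh).1, Finset.mem_univ _⟩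
    have hinj : Set.InjOn
        (fun h : Γ => ((trDet (ρ h), (QuotientGroup.mk h : Γ ⧸ Z)) : (k × k) × (Γ ⧸ Z)))
        (H.filter (fun h => h ∉ B) : Finset Γ) := by
      intro h hh h' _ heq
      rw [Finset.mem_coe, Finset.mem_filter] at hh
      simp only [Prod.mk.injEq] at heq
      obtain ⟨htd, hq⟩ := heq
      have hmem : h⁻¹ * h' ∈ Z := QuotientGroup.eq.mp hq
      obtain ⟨n, hn⟩ : h⁻¹ * h' ∈ Submonoid.powers u := mem_powers_iff_mem_zpowers.mpr hmem
      have hn' : u ^ n = h⁻¹ * h' := hn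
      have hh' : h' = h * u ^ n := by rw [hn', mul_inv_cancel_left]
      have htr : ((ρ h' : GL (Fin 2) k) : Matrix (Fin 2) (Fin 2) k).trace =
          ((ρ h : GL (Fin 2) k) : Matrix (Fin 2) (Fin 2) k).trace +
            (n : k) * ((ρ h : Matrix (Fin 2) (Fin 2) k) * N).trace := by
        rw [hh', map_mul, Units.val_mul, hUpow n, mul_add, mul_one, Matrix.trace_add,
          Matrix.mul_smul, Matrix.trace_smul, smul_eq_mul]
      have htr0 : ((ρ h : Matrix (Fin 2) (Fin 2) k) * N).trace ≠ 0 := by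
        intro h0
        exact hh.2 ((hBmem h).mpr (key _ h0))
      have h1 : (n : k) * ((ρ h : Matrix (Fin 2) (Fin 2) k) * N).trace = 0 := by
        have := congrArg Prod.fst htd
        simp only [trDet] at this
        rw [htr] at this
        linear_combination -this
      have h2 : (n : k) = 0 := (mul_eq_zero.mp h1).resolve_right htr0
      have h3 : ℓ ∣ n := (CharP.cast_eq_zero_iff k ℓ n).mp h2
      have h4 : u ^ n = 1 := by
        rw [← hu] at h3
        exact orderOf_dvd_iff_pow_eq_one.mp h3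
      rw [hh', h4, mul_one]
    have := Finset.card_le_card_of_injOn _ hmaps hinj
    rw [Finset.card_product, Finset.card_univ, ← Nat.card_eq_fintype_card] at this
    exact this
  have hsplit : H.card = (H.filter (fun h => h ∈ B)).card +
      (H.filter (fun h => h ∉ B)).card :=
    (Finset.card_filter_add_card_filter_not (fun h => h ∈ B)).symm
  calc 2 * ℓ * H.card
      = ℓ * (2 * (H.filter (fun h => h ∈ B)).card) +
          2 * ((H.filter (fun h => h ∉ B)).card * ℓ) := by rw [hsplit]; ring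
    _ ≤ ℓ * (2 * Nat.card B) + 2 * (P.card * Nat.card (Γ ⧸ Z) * ℓ) := by
        gcongr
    _ ≤ ℓ * Nat.card Γ + 2 * (P.card * Nat.card Γ) := by
        rw [mul_assoc P.card, hZcard]
        gcongr
    _ = (ℓ + 2 * P.card) * Nat.card Γ := by ring

end Fermat.Agent.S48.H428

end
-- ===== PACK-END S48/H428/Coset.lean

-- ===== PACK-BEGIN S48/H428/FiniteImage.lean
section



/-!
# S48 (Deligne–Serre) / P5 = FI (helper428): the finite image lemma, general-field form

`finiteImage : Top.FiniteImageStatement` (Deligne–Serre 1974, Prop. 7.2), unconditional, in the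
exact shape of `Fermat/Agent/S48/Top/Spec.lean`:
for `η < 1/2` and `M` there is `A` such that for every prime `ℓ > A`, every field `k` of
characteristic `ℓ` and every finite semisimple subgroup `G ≤ GL₂(k)` with `C(η, M)` one has
`|G| ≤ A`.  Here `A = 240 M + ⌈4 M / (1 - 2 η)⌉`.

* `ℓ ∣ |G|` is impossible for `ℓ > 2 M / (1 - 2 η)`: `coset_bound` (the coset lemma), using
  that a semisimple `G` of order divisible by `ℓ` stabilises no line (`noStableLine_of_split`).
* `ℓ ∤ |G|`: base change to the algebraic closure of `k` and `card_bound_of_coprime`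
  (Burnside count on the fixed points on the projective line; no trichotomy needed):
  `|G| ≤ 4 M / (1 - 2 η)` or `|G| ≤ 240 M`.
-/

set_option autoImplicit false
set_option linter.style.haveILetI false

namespace Fermat.Agent.S48.H428

open Matrix

section Transfer

variable {F K : Type*} [Field F] [Field K] (f : F →+* K)

/-- `GL₂(F) → GL₂(K)` is injective. -/
lemma glMap_injective :
    Function.Injective (Matrix.GeneralLinearGroup.map (n := Fin 2) f) := by
  intro g h hgh
  apply Units.ext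
  ext i j
  have := congrArg (fun x : GL (Fin 2) K => x i j) hgh
  simp only [Matrix.GeneralLinearGroup.map_apply] at this
  exact f.injective this

/-- `(trace, det)` is compatible with base change. -/
lemma trDet_glMap (g : GL (Fin 2) F) :
    trDet (Matrix.GeneralLinearGroup.map (n := Fin 2) f g) = Prod.map f f (Top.trDet g) := by
  ext
  · simp [trDet, Top.trDet, Matrix.trace_fin_two]
  · simp [trDet, Top.trDet, Matrix.det_fin_two]

end Transfer

/-- The coprime case over any field of characteristic `ℓ`. -/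
theorem card_bound_field (ℓ : ℕ) (k : Type*) [Field k] [CharP k ℓ]
    (G : Subgroup (GL (Fin 2) k)) [Finite G]
    (hl : ¬ ℓ ∣ Nat.card G) (H : Set (GL (Fin 2) k))
    (hHG : H ⊆ (G : Set (GL (Fin 2) k)))
    (P : Finset (k × k)) (hP : ∀ h ∈ H, Top.trDet h ∈ P) :
    2 * Nat.card H ≤ Nat.card G + 4 * P.card ∨ Nat.card H ≤ 120 * P.card := by
  classical
  let K := AlgebraicClosure k
  let f : k →+* K := algebraMap k K
  let φ : GL (Fin 2) k →* GL (Fin 2) K := Matrix.GeneralLinearGroup.map f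
  have hφ : Function.Injective φ := glMap_injective f
  haveI : CharP K ℓ := charP_of_injective_algebraMap f.injective ℓ
  have hcardG : Nat.card (G.map φ) = Nat.card G := Subgroup.card_map_of_injective hφ
  have hGpos : 0 < Nat.card G := Nat.card_pos
  haveI : Finite (G.map φ) := Nat.finite_of_card_ne_zero (by omega)
  have hN : (Nat.card (G.map φ) : K) ≠ 0 := by
    rw [hcardG, Ne, CharP.cast_eq_zero_iff K ℓ]
    exact hl
  have hHfin : H.Finite := (Set.toFinite (G : Set (GL (Fin 2) k))).subset hHG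
  let H' : Finset (GL (Fin 2) K) := hHfin.toFinset.image φ
  have hH'G : ∀ h ∈ H', h ∈ G.map φ := by
    intro h hh
    obtain ⟨x, hx, rfl⟩ := Finset.mem_image.mp hh
    exact Subgroup.mem_map_of_mem φ (hHG ((Set.Finite.mem_toFinset _).mp hx))
  have hH'card : H'.card = Nat.card H := by
    rw [Finset.card_image_of_injective _ hφ, ← Set.ncard_eq_toFinset_card H hHfin,
      Nat.card_coe_set_eq]
  have himg : (trDet '' (H' : Set (GL (Fin 2) K))).ncard ≤ P.card := by
    have hsub : trDet '' (H' : Set (GL (Fin 2) K)) ⊆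
        ((P.image (Prod.map f f) : Finset (K × K)) : Set (K × K)) := by
      rintro _ ⟨h, hh, rfl⟩
      obtain ⟨x, hx, rfl⟩ := Finset.mem_image.mp (Finset.mem_coe.mp hh)
      rw [Finset.mem_coe, Finset.mem_image]
      exact ⟨Top.trDet x, hP x ((Set.Finite.mem_toFinset _).mp hx), (trDet_glMap f x).symm⟩
    calc (trDet '' (H' : Set (GL (Fin 2) K))).ncard
        ≤ ((P.image (Prod.map f f) : Finset (K × K)) : Set (K × K)).ncard :=
          Set.ncard_le_ncard hsub (Finset.finite_toSet _)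
      _ = (P.image (Prod.map f f)).card := Set.ncard_coe_finset _
      _ ≤ P.card := Finset.card_image_le
  rcases card_bound_of_coprime (G.map φ) hN H' hH'G with h | h
  · left
    rw [hH'card, hcardG] at h
    omega
  · right
    rw [hH'card] at h
    omega

/-- A semisimple subgroup of `GL₂(k)`, `k` of characteristic `ℓ`, of order divisible by `ℓ`
stabilises no line. -/
theorem noStableLine_of_split (ℓ : ℕ) (hℓ : ℓ.Prime) (k : Type*) [Field k] [CharP k ℓ]
    (G : Subgroup (GL (Fin 2) k)) [Finite G]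
    (hs : Top.StableLinesSplit G) (hl : ℓ ∣ Nat.card G) (v : Fin 2 → k) (hv : v ≠ 0) :
    ∃ g : G, ∀ c : k, ((g : GL (Fin 2) k) : Matrix (Fin 2) (Fin 2) k) *ᵥ v ≠ c • v := by
  haveI : Fact ℓ.Prime := ⟨hℓ⟩
  by_contra hns
  push Not at hns
  have hstab : ∀ g ∈ G, ∃ c : k, (g : Matrix (Fin 2) (Fin 2) k) *ᵥ v = c • v :=
    fun g hg => hns ⟨g, hg⟩
  obtain ⟨w, hw, hwstab⟩ := hs v hv hstab
  obtain ⟨u, hu⟩ := exists_prime_orderOf_dvd_card' ℓ hl
  have hUord : orderOf (u : GL (Fin 2) k) = ℓ := by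
    rw [Subgroup.orderOf_coe]; exact hu
  obtain ⟨U, hUG⟩ := u
  simp only at hUord
  have hU1 : U ≠ 1 := by
    intro h
    rw [h, orderOf_one] at hUord
    exact hℓ.one_lt.ne hUord
  have hUl : U ^ ℓ = 1 := by
    have := pow_orderOf_eq_one U
    rwa [hUord] at this
  have hUl' : (U : Matrix (Fin 2) (Fin 2) k) ^ ℓ = 1 := by
    rw [← Units.val_pow_eq_pow_val, hUl, Units.val_one]
  have key : ∀ x : Fin 2 → k, x ≠ 0 →
      (∃ c : k, (U : Matrix (Fin 2) (Fin 2) k) *ᵥ x = c • x) →
      ((U : Matrix (Fin 2) (Fin 2) k) - 1) *ᵥ x = 0 := by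
    rintro x hx ⟨c, hc⟩
    have hpow : ∀ n : ℕ, ((U : Matrix (Fin 2) (Fin 2) k) ^ n) *ᵥ x = c ^ n • x := by
      intro n
      induction n with
      | zero => simp
      | succ n ih =>
        rw [pow_succ, ← Matrix.mulVec_mulVec, hc, Matrix.mulVec_smul, ih, smul_smul, pow_succ,
          mul_comm]
    have h1 := hpow ℓ
    rw [hUl', Matrix.one_mulVec] at h1
    have h2 : c ^ ℓ = 1 := by
      by_contra hne
      have h3 : (c ^ ℓ - 1) • x = 0 := by rw [sub_smul, one_smul, ← h1, sub_self]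
      rcases smul_eq_zero.mp h3 with h4 | h4
      · exact hne (sub_eq_zero.mp h4)
      · exact hx h4
    have h5 : c = 1 := by
      have h6 : (c - 1) ^ ℓ = 0 := by rw [sub_pow_char, h2, one_pow, sub_self]
      exact sub_eq_zero.mp (pow_eq_zero_iff hℓ.ne_zero |>.mp h6)
    rw [Matrix.sub_mulVec, Matrix.one_mulVec, hc, h5, one_smul, sub_self]
  have hw0 : w ≠ 0 := by
    intro h
    exact hw 0 (by rw [h, zero_smul])
  have hA : (U : Matrix (Fin 2) (Fin 2) k) - 1 ≠ 0 := by
    intro h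
    exact hU1 (Units.ext (by rw [Units.val_one]; exact sub_eq_zero.mp h))
  obtain ⟨c, hc⟩ := ker_proportional _ hA hv (key v hv (hstab U hUG)) (key w hw0 (hwstab U hUG))
  exact hw c hc

/-- The case `ℓ ∣ |G|`: the coset lemma for a subgroup and a subset. -/
theorem coset_bound_subgroup (ℓ : ℕ) (hℓ : ℓ.Prime) (k : Type*) [Field k] [CharP k ℓ]
    (G : Subgroup (GL (Fin 2) k)) [Finite G]
    (hs : Top.StableLinesSplit G) (hl : ℓ ∣ Nat.card G) (H : Set (GL (Fin 2) k))
    (hHG : H ⊆ (G : Set (GL (Fin 2) k)))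
    (P : Finset (k × k)) (hP : ∀ h ∈ H, Top.trDet h ∈ P) :
    2 * ℓ * Nat.card H ≤ (ℓ + 2 * P.card) * Nat.card G := by
  classical
  have hHfin : H.Finite := (Set.toFinite (G : Set (GL (Fin 2) k))).subset hHG
  let H' : Finset G := hHfin.toFinset.subtype (fun g => g ∈ G)
  have hH'card : H'.card = Nat.card H := by
    have hfil : hHfin.toFinset.filter (fun g => g ∈ G) = hHfin.toFinset :=
      Finset.filter_true_of_mem (fun h hh => hHG ((Set.Finite.mem_toFinset _).mp hh))
    rw [Finset.card_subtype, hfil, ← Set.ncard_eq_toFinset_card H hHfin,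
      Nat.card_coe_set_eq]
  have h := coset_bound (G.subtype) (Subgroup.subtype_injective G) ℓ hℓ hl
    (noStableLine_of_split ℓ hℓ k G hs hl) H' P (fun h hh => by
      rw [Finset.mem_subtype] at hh
      exact hP _ ((Set.Finite.mem_toFinset _).mp hh))
  rwa [hH'card] at h

/-- **P5 = FI: the finite image lemma** (Deligne–Serre, Prop. 7.2), general-field form. -/
theorem finiteImage : Top.FiniteImageStatement := by
  intro η M hη
  refine ⟨240 * M + ⌈4 * (M : ℝ) / (1 - 2 * η)⌉₊, ?_⟩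
  intro ℓ hℓ hAℓ k _ _ G hGfin hs hC
  obtain ⟨H, hHG, hcard, P, hPM, hP⟩ := hC
  haveI : Finite G := hGfin
  have hGpos : 0 < Nat.card G := Nat.card_pos
  have hGpos' : (0 : ℝ) < (Nat.card G : ℝ) := by exact_mod_cast hGpos
  have hPM' : (P.card : ℝ) ≤ (M : ℝ) := by exact_mod_cast hPM
  have hpos : (0 : ℝ) < 1 - 2 * η := by linarith
  have hM0 : (0 : ℝ) ≤ (M : ℝ) := Nat.cast_nonneg M
  by_cases hl : ℓ ∣ Nat.card G
  · exfalso
    have h1 := coset_bound_subgroup ℓ hℓ k G hs hl H hHG P hP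
    have h1' : 2 * (ℓ : ℝ) * (Nat.card H : ℝ) ≤
        ((ℓ : ℝ) + 2 * (P.card : ℝ)) * (Nat.card G : ℝ) := by exact_mod_cast h1
    have hℓpos : (0 : ℝ) < (ℓ : ℝ) := by exact_mod_cast hℓ.pos
    -- `ℓ (1 - 2 η) ≤ 2 M`
    have h2 : 2 * (ℓ : ℝ) * ((1 - η) * (Nat.card G : ℝ)) ≤
        ((ℓ : ℝ) + 2 * (M : ℝ)) * (Nat.card G : ℝ) := by
      calc 2 * (ℓ : ℝ) * ((1 - η) * (Nat.card G : ℝ))
          ≤ 2 * (ℓ : ℝ) * (Nat.card H : ℝ) :=
            mul_le_mul_of_nonneg_left hcard (by positivity)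
        _ ≤ ((ℓ : ℝ) + 2 * (P.card : ℝ)) * (Nat.card G : ℝ) := h1'
        _ ≤ ((ℓ : ℝ) + 2 * (M : ℝ)) * (Nat.card G : ℝ) :=
            mul_le_mul_of_nonneg_right (by linarith) hGpos'.le
    have h3 : 2 * (ℓ : ℝ) * (1 - η) ≤ (ℓ : ℝ) + 2 * (M : ℝ) := by
      have h4 : (2 * (ℓ : ℝ) * (1 - η)) * (Nat.card G : ℝ) ≤
          ((ℓ : ℝ) + 2 * (M : ℝ)) * (Nat.card G : ℝ) := by linarith
      exact le_of_mul_le_mul_right h4 hGpos'
    have h5 : (ℓ : ℝ) * (1 - 2 * η) ≤ 2 * (M : ℝ) := by linarith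
    have h6 : (ℓ : ℝ) ≤ 4 * (M : ℝ) / (1 - 2 * η) := by
      rw [le_div_iff₀ hpos]
      linarith
    have h7 : ℓ ≤ ⌈4 * (M : ℝ) / (1 - 2 * η)⌉₊ :=
      Nat.cast_le.mp (le_trans h6 (Nat.le_ceil _))
    omega
  · have hhalf : (Nat.card G : ℝ) / 2 < (1 - η) * (Nat.card G : ℝ) := by nlinarith
    rcases card_bound_field ℓ k G hl H hHG P hP with h | h
    · have h' : 2 * (Nat.card H : ℝ) ≤ (Nat.card G : ℝ) + 4 * (P.card : ℝ) := by
        exact_mod_cast h
      have h8 : (Nat.card G : ℝ) ≤ 4 * (M : ℝ) / (1 - 2 * η) := by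
        rw [le_div_iff₀ hpos]
        nlinarith
      have h9 : Nat.card G ≤ ⌈4 * (M : ℝ) / (1 - 2 * η)⌉₊ :=
        Nat.cast_le.mp (le_trans h8 (Nat.le_ceil _))
      omega
    · have h' : (Nat.card H : ℝ) ≤ 120 * (P.card : ℝ) := by exact_mod_cast h
      have h8 : (Nat.card G : ℝ) < 240 * (M : ℝ) := by linarith
      have h9 : Nat.card G < 240 * M := by exact_mod_cast h8
      omega

end Fermat.Agent.S48.H428

end
-- ===== PACK-END S48/H428/FiniteImage.lean

-- ===== PACK-BEGIN S48/H528/LiftTop.lean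
section



/-!
# S48 / P6a — `liftStatement : Top.LiftStatement`  (helper528)

For every prime `ℓ` we take a valuation subring `R` of `ℂ` in which `ℓ` is not a unit
(Chevalley), `k := ResidueField R` and `φ : ℤ̄ ⊆ R → k`.  Every representation
`r : G →* GL₂(k)` of a finite group of order prime to `ℓ` lifts to `G →* GL₂(R) ⊆ GL₂(ℂ)`
(`exists_lift_matrix`, via idempotent lifting in `M_{2|G|}(R)`), and traces and determinants of
finite-order matrices are algebraic integers.
-/

set_option autoImplicit false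
set_option linter.unusedSectionVars false

noncomputable section

open Polynomial IsLocalRing Matrix

namespace Fermat.Agent.S48.H528

/-- trace and determinant of a complex matrix of finite order are algebraic integers -/
theorem isIntegral_trace_det_of_pow_eq_one (M : Matrix (Fin 2) (Fin 2) ℂ) (N : ℕ) (hN : 0 < N)
    (h : M ^ N = 1) : IsIntegral ℤ M.trace ∧ IsIntegral ℤ M.det := by
  have hroot : ∀ γ ∈ M.charpoly.roots, IsIntegral ℤ γ := by
    intro γ hγ
    have h1 : γ ∈ spectrum ℂ M :=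
      Matrix.mem_spectrum_iff_isRoot_charpoly.2 (Polynomial.isRoot_of_mem_roots hγ)
    have h2 := spectrum.pow_mem_pow M N h1
    rw [h, spectrum.one_eq] at h2
    have h3 : γ ^ N = 1 := h2
    exact IsIntegral.of_pow hN (h3 ▸ isIntegral_one)
  constructor
  · rw [Matrix.trace_eq_sum_roots_charpoly]
    exact IsIntegral.multiset_sum hroot
  · rw [Matrix.det_eq_prod_roots_charpoly]
    exact IsIntegral.multiset_prod hroot

/-- a valuation subring of `ℂ` in which the prime `ℓ` is not a unit -/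
theorem exists_valuationSubring_natCast_eq_zero (ℓ : ℕ) (hℓ : ℓ.Prime) :
    ∃ R : ValuationSubring ℂ, ((ℓ : ℕ) : ResidueField R) = 0 := by
  let A : Subring ℂ := (Int.castRingHom ℂ).range
  have hmem : ((ℓ : ℕ) : ℂ) ∈ A := ⟨(ℓ : ℤ), by simp⟩
  let I : Ideal A := Ideal.span {⟨((ℓ : ℕ) : ℂ), hmem⟩}
  have hI : I ≠ ⊤ := by
    intro htop
    have h1 : (1 : A) ∈ I := by rw [htop]; trivial
    obtain ⟨a, ha⟩ := Ideal.mem_span_singleton'.mp h1
    obtain ⟨m, hm⟩ := a.2
    have h2 : ((m * (ℓ : ℤ) : ℤ) : ℂ) = ((1 : ℤ) : ℂ) := by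
      have := congrArg (fun x : A => (x : ℂ)) ha
      simp only [Subring.coe_mul, Subring.coe_one] at this
      rw [← hm] at this
      push_cast
      simpa using this
    have h3 : m * (ℓ : ℤ) = 1 := by exact_mod_cast h2
    have h4 : (ℓ : ℤ) ∣ 1 := Dvd.intro_left m h3
    have h5 : ℓ ∣ 1 := by exact_mod_cast h4
    exact hℓ.one_lt.ne' (Nat.dvd_one.mp h5)
  obtain ⟨B, hAB, hB⟩ := Ideal.image_subset_nonunits_valuationSubring I hI
  refine ⟨B, ?_⟩
  have h1 : ((ℓ : ℕ) : ℂ) ∈ B.nonunits :=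
    hB ⟨⟨((ℓ : ℕ) : ℂ), hmem⟩, Ideal.subset_span rfl, rfl⟩
  obtain ⟨hb, hmax⟩ := ValuationSubring.mem_nonunits_iff_exists_mem_maximalIdeal.mp h1
  have h2 : ((ℓ : ℕ) : B) = ⟨((ℓ : ℕ) : ℂ), hb⟩ := Subtype.ext (by simp)
  rw [← map_natCast (residue B), h2]
  exact (residue_eq_zero_iff _).mpr hmax

/-- algebraic integers lie in every valuation subring of `ℂ` -/
theorem zbar_mem_valuationSubring (R : ValuationSubring ℂ) (x : Top.Zbar) : (x : ℂ) ∈ R := by
  have h1 : IsIntegral ℤ (x : ℂ) := x.2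
  have h2 : IsIntegral R (x : ℂ) := h1.tower_top
  obtain ⟨y, hy⟩ := (IsIntegrallyClosed.isIntegral_iff (R := R) (K := ℂ)).mp h2
  rw [← hy]
  exact y.2

/-- the inclusion `ℤ̄ ⊆ R` -/
def zbarToVal (R : ValuationSubring ℂ) : Top.Zbar →+* R :=
  RingHom.codRestrict (algebraMap Top.Zbar ℂ) R (zbar_mem_valuationSubring R)

theorem coe_zbarToVal (R : ValuationSubring ℂ) (x : Top.Zbar) :
    ((zbarToVal R x : R) : ℂ) = (x : ℂ) := rfl

/-- **P6a (LIFT).** -/
theorem liftStatement : Top.LiftStatement := by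
  intro ℓ hℓ
  obtain ⟨R, hR0⟩ := exists_valuationSubring_natCast_eq_zero ℓ hℓ
  have hchar : CharP (ResidueField R) ℓ := (CharP.charP_iff_prime_eq_zero hℓ).mpr hR0
  refine ⟨ResidueField R, inferInstance, hchar, (residue R).comp (zbarToVal R), ?_⟩
  intro G _ _ hcard r
  classical
  let _ : Fintype G := Fintype.ofFinite G
  have hN : ((Fintype.card G : ℕ) : ResidueField R) ≠ 0 := by
    rw [Ne, CharP.cast_eq_zero_iff (ResidueField R) ℓ, ← Nat.card_eq_fintype_card]
    exact hcard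
  obtain ⟨ρ₀, hρ₀⟩ := exists_lift_matrix (monicSplits_valuationSubring R)
    ((Units.coeHom (Matrix (Fin 2) (Fin 2) (ResidueField R))).comp r) hN
  let Rc : G →* GL (Fin 2) ℂ :=
    (Units.map (R.subtype.mapMatrix (m := Fin 2)).toMonoidHom).comp ρ₀.toHomUnits
  have hRc : ∀ g, ((Rc g : GL (Fin 2) ℂ) : Matrix (Fin 2) (Fin 2) ℂ) =
      (ρ₀ g).map R.subtype := fun g => rfl
  refine ⟨Rc, fun g => ?_⟩
  have hpow : ((Rc g : GL (Fin 2) ℂ) : Matrix (Fin 2) (Fin 2) ℂ) ^ Fintype.card G = 1 := by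
    rw [← Units.val_pow_eq_pow_val, ← map_pow, pow_card_eq_one, map_one, Units.val_one]
  obtain ⟨hint_t, hint_d⟩ := isIntegral_trace_det_of_pow_eq_one _ _ Fintype.card_pos hpow
  have htr : ((Rc g : GL (Fin 2) ℂ) : Matrix (Fin 2) (Fin 2) ℂ).trace =
      (((ρ₀ g).trace : R) : ℂ) := by
    rw [hRc]
    exact (AddMonoidHom.map_trace R.subtype.toAddMonoidHom (ρ₀ g)).symm
  have hdet : ((Rc g : GL (Fin 2) ℂ) : Matrix (Fin 2) (Fin 2) ℂ).det =
      (((ρ₀ g).det : R) : ℂ) := by
    rw [hRc]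
    exact (RingHom.map_det R.subtype (ρ₀ g)).symm
  have hrtr : residue R (ρ₀ g).trace =
      ((r g : GL (Fin 2) (ResidueField R)) : Matrix (Fin 2) (Fin 2) (ResidueField R)).trace := by
    have h1 : residue R (ρ₀ g).trace = ((ρ₀ g).map (residue R)).trace :=
      AddMonoidHom.map_trace (residue R).toAddMonoidHom (ρ₀ g)
    rw [h1, hρ₀ g]
    rfl
  have hrdet : residue R (ρ₀ g).det =
      ((r g : GL (Fin 2) (ResidueField R)) : Matrix (Fin 2) (Fin 2) (ResidueField R)).det := by
    rw [RingHom.map_det]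
    congr 1
    exact hρ₀ g
  refine ⟨⟨_, hint_t⟩, ⟨_, hint_d⟩, rfl, rfl, ?_, ?_⟩
  · rw [← hrtr]
    change residue R (zbarToVal R ⟨_, hint_t⟩) = _
    have h1 : zbarToVal R ⟨_, hint_t⟩ = (ρ₀ g).trace := Subtype.ext htr
    rw [h1]
  · rw [← hrdet]
    change residue R (zbarToVal R ⟨_, hint_d⟩) = _
    have h1 : zbarToVal R ⟨_, hint_d⟩ = (ρ₀ g).det := Subtype.ext hdet
    rw [h1]

end Fermat.Agent.S48.H528

end
end
-- ===== PACK-END S48/H528/LiftTop.lean

-- ===== PACK-BEGIN S16/H260/QCalc.lean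
section







/-!
# S16 (helper260): `q`-expansion calculus at function level

`Nice f` : `f` is `1`-periodic, holomorphic and bounded at `i∞`; for such functions the
`q`-coefficients of products, scalar multiples, `U_p f` and `V_p f = f(p·)` are computed.
-/

set_option autoImplicit false

noncomputable section

namespace Fermat.Agent.S16.H260

open UpperHalfPlane ModularForm CongruenceSubgroup MatrixGroups ModularFormClass
open Fermat.Agent.S20 (MF SF)
open scoped Manifold

local notation "𝕢" => Function.Periodic.qParam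

/-- `1`-periodic, holomorphic, bounded at `i∞`. -/
structure Nice (f : ℍ → ℂ) : Prop where
  per : Function.Periodic (f ∘ ofComplex) 1
  hol : MDiff f
  bdd : IsBoundedAtImInfty f

namespace Nice

variable {f g : ℍ → ℂ}

theorem analyticAt (hf : Nice f) : AnalyticAt ℂ (cuspFunction 1 f) 0 :=
  analyticAt_cuspFunction_zero one_pos hf.per hf.hol hf.bdd

theorem mul (hf : Nice f) (hg : Nice g) : Nice (f * g) where
  per := by
    intro w
    have h1 := hf.per w
    have h2 := hg.per w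
    simp only [Function.comp_apply, Pi.mul_apply] at h1 h2 ⊢
    rw [h1, h2]
  hol := hf.hol.mul hg.hol
  bdd := hf.bdd.mul hg.bdd

theorem smul (c : ℂ) (hf : Nice f) : Nice (c • f) where
  per := by
    intro w
    have h1 := hf.per w
    simp only [Function.comp_apply, Pi.smul_apply] at h1 ⊢
    rw [h1]
  hol := hf.hol.const_smul c
  bdd := hf.bdd.const_smul_left c

theorem heckeU (hf : Nice f) (k : ℤ) (p : ℕ) : Nice (ModularForm.heckeU k p f) where
  per := ModularForm.periodic_heckeU_comp_ofComplex hf.per k p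
  hol := ModularForm.mdifferentiable_heckeU hf.hol k p
  bdd := ModularForm.isBoundedAtImInfty_heckeU hf.bdd k p

theorem hasSum (hf : Nice f) (z : ℍ) :
    HasSum (fun n : ℕ => qCoeff f n • 𝕢 1 z ^ n) (f z) :=
  hasSum_qExpansion one_pos hf.per hf.hol hf.bdd z

end Nice

theorem qCoeff_mul {f g : ℍ → ℂ} (hf : Nice f) (hg : Nice g) (n : ℕ) :
    qCoeff (f * g) n = ∑ x ∈ Finset.HasAntidiagonal.antidiagonal n, qCoeff f x.1 * qCoeff g x.2 := by
  unfold qCoeff
  rw [qExpansion_mul hf.analyticAt hg.analyticAt, PowerSeries.coeff_mul]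

theorem qCoeff_smul {f : ℍ → ℂ} (hf : Nice f) (c : ℂ) (n : ℕ) :
    qCoeff (c • f) n = c * qCoeff f n := by
  unfold qCoeff
  rw [qExpansion_smul hf.analyticAt]
  simp

theorem qCoeff_heckeU {f : ℍ → ℂ} (hf : Nice f) (k : ℤ) {p : ℕ} (hp : p ≠ 0) (n : ℕ) :
    qCoeff (ModularForm.heckeU k p f) n = qCoeff f (n * p) := by
  rw [UpperHalfPlane.qCoeff_heckeU hf.per hf.hol hf.bdd k hp n]
  rfl

/-- product formula with analyticity hypotheses only -/
theorem qCoeff_mul' {f g : ℍ → ℂ} (hf : AnalyticAt ℂ (cuspFunction 1 f) 0)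
    (hg : AnalyticAt ℂ (cuspFunction 1 g) 0) (n : ℕ) :
    qCoeff (f * g) n = ∑ x ∈ Finset.HasAntidiagonal.antidiagonal n, qCoeff f x.1 * qCoeff g x.2 := by
  unfold qCoeff
  rw [qExpansion_mul hf hg, PowerSeries.coeff_mul]

/-- Elements of `MF Γ k` are nice as soon as `T ∈ Γ`. -/
theorem nice_of_mem_MF {Γ : Subgroup SL(2, ℤ)} (hT : ModularGroup.T ∈ Γ) {k : ℤ} {f : ℍ → ℂ}
    (hf : f ∈ MF Γ k) : Nice f where
  per := by
    have hshift : ∀ z : ℍ, f ((1 : ℝ) +ᵥ z) = f z := by
      intro z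
      have h1 := congrFun (hf.2.1 _ hT) z
      rw [ModularForm.SL_slash_apply, UpperHalfPlane.modular_T_smul] at h1
      have : denom ModularGroup.T z = 1 := by
        rw [ModularGroup.denom_apply]
        simp [ModularGroup.T]
      rwa [this, one_zpow, mul_one] at h1
    intro w
    by_cases! hw : 0 < Complex.im w
    · have hw' : 0 < Complex.im (w + 1) := by simp [hw]
      simp only [Function.comp_apply, ofComplex_apply_of_im_pos hw',
        ofComplex_apply_of_im_pos hw]
      rw [← hshift ⟨w, hw⟩]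
      congr 1
      ext
      simp [add_comm]
    · have hw' : Complex.im (w + 1) ≤ 0 := by simpa using hw
      simp only [Function.comp_apply]
      rw [ofComplex_apply_eq_of_im_nonpos hw' hw]
  hol := hf.1
  bdd := by
    have := hf.2.2 1
    rwa [SlashAction.slash_one] at this

theorem T_mem_Gamma0 (N : ℕ) : ModularGroup.T ∈ Gamma0 N := by
  rw [Gamma0_mem]
  simp [ModularGroup.T]

theorem nice_of_mem_MF_Gamma0 {N : ℕ} {k : ℤ} {f : ℍ → ℂ} (hf : f ∈ MF (Gamma0 N) k) : Nice f :=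
  nice_of_mem_MF (T_mem_Gamma0 N) hf

theorem nice_of_mem_MF_top {k : ℤ} {f : ℍ → ℂ} (hf : f ∈ MF ⊤ k) : Nice f :=
  nice_of_mem_MF (Subgroup.mem_top _) hf

/-- `V_p F` is holomorphic. -/
theorem mdiff_Vp {F : ℍ → ℂ} (hF : MDiff F) {p : ℕ} (hp : p ≠ 0) : MDiff (Vp p F) := by
  have h1 : Vp p F = F ∣[(1 : ℤ)] heckeDiagMatrix p := by
    funext z
    rw [slash_heckeDiagMatrix_apply 1 hp]
    simp [Vp]
  rw [h1]
  exact hF.slash 1 _

/-- `q`-coefficients of `V_p F = F(p·)`. -/
theorem qCoeff_Vp {F : ℍ → ℂ} (hF : Nice F) {p : ℕ} (hp : 0 < p) :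
    AnalyticAt ℂ (cuspFunction 1 (Vp p F)) 0 ∧
      ∀ n, qCoeff (Vp p F) n = if p ∣ n then qCoeff F (n / p) else 0 := by
  have hα : ∀ z : ℍ, 𝕢 1 ((heckeDiagMatrix p • z : ℍ) : ℂ) = 1 * 𝕢 1 (z : ℂ) ^ p := by
    intro z
    rw [coe_heckeDiagMatrix_smul hp.ne', one_mul]
    simp only [Function.Periodic.qParam, ← Complex.exp_nat_mul]
    congr 1
    push_cast
    ring
  obtain ⟨h1, h2⟩ := Fermat.Agent.S22T.expand_main (F := F) (G := Vp p F) (c := qCoeff F)
    hF.hasSum one_pos (fun z => heckeDiagMatrix p • z) p hp 1 hα (fun z => rfl)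
    (mdiff_Vp hF.hol hp.ne')
  refine ⟨h1, fun n => ?_⟩
  have := h2 n
  unfold qCoeff
  rw [this]
  simp [Fermat.Agent.S22T.expandCoeff, qCoeff]

end Fermat.Agent.S16.H260

end
end
-- ===== PACK-END S16/H260/QCalc.lean

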