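import Fermat.Prelude.Def_FLTPrelim_Modularity
import Mathlib
import Fermat.Prelude.Def_EllipticCurve_FrobeniusTrace
import Fermat.Agent.Pack.S44C.G0E0L3
import Fermat.Agent.Pack.S44C.G0E10L1
import Fermat.Agent.Pack.L1B.E0L3
import Fermat.Agent.Pack.L1B.E0L0
import Fermat.Agent.Pack.L1B.E0L1
import Fermat.Agent.Pack.S44C.G0E6L2
import Fermat.Agent.Pack.S44C.G0E2L0
import Fermat.Agent.Pack.L1.E2L1
import Fermat.Agent.Pack.L1.E10L0

-- ===== PACK-BEGIN Lib/Cheb/H761/TwistedPrimeSum.lean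
section



/-!
# CYC piece DEG: twisted prime-ideal sums versus twisted sums over rational primes

For a Dirichlet character `χ` mod `m` and a number field `F`,
`∑_𝔭 χ(N𝔭) N𝔭^(-s) - ∑_p χ(p) c_F(p) p^(-s)` is bounded on `(1, 2]` (it is the sum over the primes
of degree `≥ 2`, bounded by `highBound F`).  This is `TwistedPrimeSumStatement` of the CYC skeleton
of helper221 (`coord/CHEB-CYC.md`), here even without the hypothesis `Spec.PrimeSumStatement`.
-/

set_option autoImplicit false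
set_option linter.unusedSectionVars false
set_option linter.unusedVariables false

namespace Fermat.Agent.Lib.Cheb.H761

open IsDedekindDomain Filter Topology NumberField Ideal

noncomputable section TwistedPrimeSum

variable (F : Type) [Field F] [NumberField F]

/-- The twisted term `χ(N I) N(I)^(-s)`. -/
def twTerm {m : ℕ} (χ : DirichletCharacter ℂ m) (s : ℝ) (I : Ideal (𝓞 F)) : ℂ :=
  χ ((absNorm I : ℕ) : ZMod m) * (((absNorm I : ℝ) ^ (-s) : ℝ) : ℂ)

lemma norm_twTerm_le {m : ℕ} (χ : DirichletCharacter ℂ m) (s : ℝ) (I : Ideal (𝓞 F)) :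
    ‖twTerm F χ s I‖ ≤ normPow F s I := by
  unfold twTerm normPow
  rw [norm_mul, Complex.norm_real, Real.norm_of_nonneg (Real.rpow_nonneg (Nat.cast_nonneg _) _)]
  calc ‖χ ((absNorm I : ℕ) : ZMod m)‖ * (absNorm I : ℝ) ^ (-s)
      ≤ 1 * (absNorm I : ℝ) ^ (-s) :=
        mul_le_mul_of_nonneg_right (DirichletCharacter.norm_le_one χ _)
          (Real.rpow_nonneg (Nat.cast_nonneg _) _)
    _ = (absNorm I : ℝ) ^ (-s) := one_mul _

lemma summable_twTerm_primes {m : ℕ} (χ : DirichletCharacter ℂ m) {s : ℝ} (hs : 1 < s) :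
    Summable (fun 𝔭 : HeightOneSpectrum (𝓞 F) => twTerm F χ s 𝔭.asIdeal) :=
  Summable.of_norm_bounded (summable_primeSum F hs) fun 𝔭 => norm_twTerm_le F χ s _

/-- Summability of `∑_p c_F(p) p^(-s)`. -/
theorem summable_primeCount_mul {s : ℝ} (hs : 1 < s) :
    Summable (fun p : Nat.Primes => (Spec.primeCount F p : ℝ) * ((p : ℕ) : ℝ) ^ (-s)) := by
  have hsum : Summable (fun 𝔭 : lowPrimes F => normPow F s 𝔭.1.asIdeal) :=
    (summable_primeSum F hs).subtype _
  have hsum' : Summable (fun y : Σ p : Nat.Primes, {𝔭 : lowPrimes F // lowNorm F 𝔭 = p} =>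
      normPow F s y.2.1.1.asIdeal) :=
    ((Equiv.sigmaFiberEquiv (lowNorm F)).summable_iff
      (f := fun 𝔭 : lowPrimes F => normPow F s 𝔭.1.asIdeal)).mpr hsum
  have h := hsum'.sigma
  refine h.congr fun p => ?_
  exact tsum_fibre F s p

lemma tsum_fibre_twTerm {m : ℕ} (χ : DirichletCharacter ℂ m) (s : ℝ) (p : Nat.Primes) :
    ∑' x : {𝔭 : lowPrimes F // lowNorm F 𝔭 = p}, twTerm F χ s x.1.1.asIdeal =
      χ (((p : ℕ) : ℕ) : ZMod m) *
        (((Spec.primeCount F p : ℝ) * ((p : ℕ) : ℝ) ^ (-s) : ℝ) : ℂ) := by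
  have := finite_fibre F p
  have : Fintype {𝔭 : lowPrimes F // lowNorm F 𝔭 = p} := Fintype.ofFinite _
  rw [tsum_fintype]
  have h : ∀ x : {𝔭 : lowPrimes F // lowNorm F 𝔭 = p},
      twTerm F χ s x.1.1.asIdeal =
        χ (((p : ℕ) : ℕ) : ZMod m) * ((((p : ℕ) : ℝ) ^ (-s) : ℝ) : ℂ) := by
    intro x
    have := congrArg Subtype.val x.2
    simp only [lowNorm] at this
    simp only [twTerm, this]
  simp only [h, Finset.sum_const, Finset.card_univ, nsmul_eq_mul, ← card_fibre F p,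
    Nat.card_eq_fintype_card]
  push_cast
  ring

/-- The twisted sum over the primes of prime norm, indexed by the rational primes. -/
theorem tsum_lowPrimes_twTerm {m : ℕ} (χ : DirichletCharacter ℂ m) {s : ℝ} (hs : 1 < s) :
    ∑' 𝔭 : lowPrimes F, twTerm F χ s 𝔭.1.asIdeal =
      ∑' p : Nat.Primes, χ (((p : ℕ) : ℕ) : ZMod m) *
        (((Spec.primeCount F p : ℝ) * ((p : ℕ) : ℝ) ^ (-s) : ℝ) : ℂ) := by
  have hsum : Summable (fun 𝔭 : lowPrimes F => twTerm F χ s 𝔭.1.asIdeal) :=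
    (summable_twTerm_primes F χ hs).subtype _
  have hsum' : Summable (fun y : Σ p : Nat.Primes, {𝔭 : lowPrimes F // lowNorm F 𝔭 = p} =>
      twTerm F χ s y.2.1.1.asIdeal) :=
    ((Equiv.sigmaFiberEquiv (lowNorm F)).summable_iff
      (f := fun 𝔭 : lowPrimes F => twTerm F χ s 𝔭.1.asIdeal)).mpr hsum
  calc ∑' 𝔭 : lowPrimes F, twTerm F χ s 𝔭.1.asIdeal
      = ∑' y : Σ p : Nat.Primes, {𝔭 : lowPrimes F // lowNorm F 𝔭 = p},
          twTerm F χ s y.2.1.1.asIdeal :=
        ((Equiv.sigmaFiberEquiv (lowNorm F)).tsum_eq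
          (fun 𝔭 : lowPrimes F => twTerm F χ s 𝔭.1.asIdeal)).symm
    _ = ∑' p : Nat.Primes, ∑' x : {𝔭 : lowPrimes F // lowNorm F 𝔭 = p},
          twTerm F χ s x.1.1.asIdeal := hsum'.tsum_sigma
    _ = _ := tsum_congr fun p => tsum_fibre_twTerm F χ s p

/-- The twisted sum over all primes minus the twisted sum over rational primes is the twisted sum
over the primes of degree `≥ 2`. -/
theorem tsum_twTerm_sub {m : ℕ} (χ : DirichletCharacter ℂ m) {s : ℝ} (hs : 1 < s) :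
    (∑' 𝔭 : HeightOneSpectrum (𝓞 F), twTerm F χ s 𝔭.asIdeal) -
      ∑' p : Nat.Primes, χ (((p : ℕ) : ℕ) : ZMod m) *
        (((Spec.primeCount F p : ℝ) * ((p : ℕ) : ℝ) ^ (-s) : ℝ) : ℂ) =
      ∑' 𝔭 : highPrimes F, twTerm F χ s 𝔭.1.asIdeal := by
  have hsum := summable_twTerm_primes F χ hs
  have hc : highPrimes F = (lowPrimes F)ᶜ := rfl
  have hsplit := (hsum.subtype (lowPrimes F)).tsum_add_tsum_compl (hsum.subtype (lowPrimes F)ᶜ)
  rw [← tsum_lowPrimes_twTerm F χ hs, hc, ← hsplit]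
  exact add_sub_cancel_left _ _

/-- **DEG**, strong form: the bound is `highBound F`, for all `s > 1`. -/
theorem norm_tsum_twTerm_sub_le {m : ℕ} (χ : DirichletCharacter ℂ m) {s : ℝ} (hs : 1 < s) :
    ‖(∑' 𝔭 : HeightOneSpectrum (𝓞 F), χ ((absNorm 𝔭.asIdeal : ℕ) : ZMod m) *
          (((absNorm 𝔭.asIdeal : ℝ) ^ (-s) : ℝ) : ℂ)) -
        ∑' p : Nat.Primes, χ (((p : ℕ) : ℕ) : ZMod m) *
          (((Spec.primeCount F p : ℝ) * ((p : ℕ) : ℝ) ^ (-s) : ℝ) : ℂ)‖ ≤ highBound F := by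
  have h := tsum_twTerm_sub F χ hs
  simp only [twTerm] at h
  rw [h]
  have hsumh : Summable (fun 𝔭 : highPrimes F => normPow F s 𝔭.1.asIdeal) :=
    (summable_primeSum F hs).subtype _
  refine le_trans ?_ (tsum_highPrimes_le F hs)
  exact tsum_of_norm_bounded hsumh.hasSum fun 𝔭 => norm_twTerm_le F χ s _

/-- **DEG** in the exact shape of `H221.TwistedPrimeSumStatement` (skeleton of helper221). -/
theorem twistedPrimeSum_statement :
    Spec.PrimeSumStatement →
    ∀ (F : Type) [Field F] [NumberField F] (m : ℕ) [NeZero m] (χ : DirichletCharacter ℂ m),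
      ∃ C : ℝ, ∀ s : ℝ, 1 < s → s ≤ 2 →
        Summable (fun p : Nat.Primes => (Spec.primeCount F p : ℝ) * (p : ℝ) ^ (-s)) ∧
        ‖(∑' 𝔭 : HeightOneSpectrum (𝓞 F), χ (Ideal.absNorm 𝔭.asIdeal : ZMod m) *
            (((Ideal.absNorm 𝔭.asIdeal : ℝ) ^ (-s) : ℝ) : ℂ)) -
          ∑' p : Nat.Primes, χ ((p : ℕ) : ZMod m) *
            (((Spec.primeCount F p : ℝ) * (p : ℝ) ^ (-s) : ℝ) : ℂ)‖ ≤ C := by
  intro _ F _ _ m _ χ
  exact ⟨highBound F, fun s hs1 _ =>
    ⟨summable_primeCount_mul F hs1, norm_tsum_twTerm_sub_le F χ hs1⟩⟩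

end TwistedPrimeSum

end Fermat.Agent.Lib.Cheb.H761

end
-- ===== PACK-END Lib/Cheb/H761/TwistedPrimeSum.lean

-- ===== PACK-BEGIN S48/H248/IVGauss.lean
section


/-!
# S48 / RES (Tower A1) / node IGUSA1, piece I-V (helper248) — part 3: the Gauss property

Let `x ∈ F` be the expansion of an integral series `X₀` having a coefficient of NEGATIVE index
which is a unit of `A` (`x = j`: `X₀ = X^{-M} + 744 + …`; `x = t₂, t₃`: `X₀ = q⁻¹ + …`).
Then the reduction of `x` is transcendental over the residue field, hence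

* `gauss`   : a polynomial in `x` with coefficients in `R = A ∩ E`, one of them a unit, is a unit
              of `V` (field `gauss` of `S18.Alg.GoodModel` and of `H856.IgusaData`);
* `x_mem_V` : `x ∈ V`.
-/

set_option autoImplicit false

noncomputable section

namespace Fermat.Agent.S48.H248

open HahnSeries ModularCurve

variable {K : Type*} [Field K] {A : ValuationSubring K} {E : Subfield K}
variable {Ω : Type*} [Field Ω] {ι : Ω →+* LaurentSeries K} {F : Subfield Ω}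

theorem IsInt.sum {α : Type*} (s : Finset α) (U : α → LaurentSeries A)
    (h : ∀ i ∈ s, IsInt A E ι F (U i)) : IsInt A E ι F (∑ i ∈ s, U i) := by
  classical
  induction s using Finset.induction_on with
  | empty => rw [Finset.sum_empty]; exact isInt_zero
  | insert a s ha ih =>
    rw [Finset.sum_insert ha]
    exact IsInt.add (h a (Finset.mem_insert_self a s))
      (ih fun i hi => h i (Finset.mem_insert_of_mem hi))

/-- A Laurent series over a field with a nonzero coefficient of negative index is not a root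
of a nonzero "polynomial" `∑ i ≤ n, c i • y ^ i`. -/
theorem sum_smul_pow_ne_zero {κ : Type*} [Field κ] (y : LaurentSeries κ) (hy : y.order < 0)
    (n : ℕ) (c : ℕ → κ) (hc : ∃ i ∈ Finset.range (n + 1), c i ≠ 0) :
    ∑ i ∈ Finset.range (n + 1), HahnSeries.C (c i) * y ^ i ≠ 0 := by
  classical
  have hy0 : y ≠ 0 := by
    rintro rfl
    simp at hy
  set T := (Finset.range (n + 1)).filter fun i => c i ≠ 0 with hT
  have hTne : T.Nonempty := by
    obtain ⟨i, hi, hci⟩ := hc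
    exact ⟨i, Finset.mem_filter.mpr ⟨hi, hci⟩⟩
  set d := T.max' hTne with hd
  have hdT : d ∈ T := Finset.max'_mem T hTne
  have hdr : d ∈ Finset.range (n + 1) := (Finset.mem_filter.mp hdT).1
  have hcd : c d ≠ 0 := (Finset.mem_filter.mp hdT).2
  intro h0
  have hcoef := congrArg (fun z => z.coeff (d • y.order)) h0
  simp only [HahnSeries.coeff_sum, HahnSeries.C_mul_eq_smul, HahnSeries.coeff_smul,
    smul_eq_mul, HahnSeries.coeff_zero] at hcoef
  rw [Finset.sum_eq_single d] at hcoef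
  · have h1 : (y ^ d).coeff (d • y.order) ≠ 0 := by
      rw [← HahnSeries.order_pow, ← HahnSeries.leadingCoeff_eq]
      exact HahnSeries.leadingCoeff_ne_zero.mpr (pow_ne_zero d hy0)
    exact mul_ne_zero hcd h1 hcoef
  · intro i hi hid
    by_cases hci : c i = 0
    · rw [hci, zero_mul]
    · have hiT : i ∈ T := Finset.mem_filter.mpr ⟨hi, hci⟩
      have hle : i ≤ d := Finset.le_max' T i hiT
      have hlt : i < d := lt_of_le_of_ne hle hid
      have : (y ^ i).coeff (d • y.order) = 0 := by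
        apply HahnSeries.coeff_eq_zero_of_lt_order
        rw [HahnSeries.order_pow]
        rw [nsmul_eq_mul, nsmul_eq_mul]
        have h2 : (i : ℤ) < d := by exact_mod_cast hlt
        nlinarith
      rw [this, mul_zero]
  · intro h
    exact absurd hdr h

section Constants

variable (cst : K →+* Ω) (hcst : ∀ c : K, ι (cst c) = HahnSeries.C c)
  (hEF : ∀ c ∈ E, cst c ∈ F)

/-- field `x_mem_V`. -/
theorem x_mem_VRing {x : Ω} {X₀ : LaurentSeries A} (hX₀ : IsInt A E ι F X₀)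
    (hx : ι x = ivInc A X₀) : x ∈ VRing A E ι F :=
  mem_VSet_of_isInt hX₀ hx

include hcst hEF

/-- field `gauss` of `GoodModel` / `IgusaData`. -/
theorem gauss {x : Ω} {X₀ : LaurentSeries A} (hX₀ : IsInt A E ι F X₀)
    (hx : ι x = ivInc A X₀) (n₀ : ℤ) (hn₀ : n₀ < 0) (hne : ((X₀.coeff n₀ : A) : K) ≠ 0)
    (hunit : ((X₀.coeff n₀ : A) : K)⁻¹ ∈ A)
    (P : Polynomial Ω) (hP : ∀ i, P.coeff i ∈ RcG A E cst)
    (hPu : ∃ i, P.coeff i ≠ 0 ∧ (P.coeff i)⁻¹ ∈ RcG A E cst) :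
    (P.eval x)⁻¹ ∈ VRing A E ι F := by
  classical
  have hxF : x ∈ F := by
    obtain ⟨g, hg, hgU⟩ := hX₀.2
    have : x = g := ι.injective (by rw [hx, hgU])
    rw [this]; exact hg
  -- choose the coefficients
  have hch : ∀ i, ∃ c : K, c ∈ A ∧ c ∈ E ∧ cst c = P.coeff i := fun i =>
    (mem_RcG_iff cst).mp (hP i)
  choose c hcA hcE hcP using hch
  set n := P.natDegree with hn
  set U : LaurentSeries A :=
    ∑ i ∈ Finset.range (n + 1), HahnSeries.C (⟨c i, hcA i⟩ : A) * X₀ ^ i with hU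
  have hUint : IsInt A E ι F U :=
    IsInt.sum _ _ fun i _ => IsInt.mul (isInt_C cst hcst hEF (hcE i)) (hX₀.pow i)
  have hUval : ivInc A U = ι (P.eval x) := by
    rw [Polynomial.eval_eq_sum_range, hU, map_sum, map_sum]
    refine Finset.sum_congr rfl fun i _ => ?_
    rw [map_mul, map_mul, map_pow, map_pow, ivInc_C, ← hcP i, hcst, hx]
  -- the reduction
  have hred : ivRed A U ≠ 0 := by
    rw [hU, map_sum]
    have hterm : ∀ i ∈ Finset.range (n + 1),
        ivRed A (HahnSeries.C (⟨c i, hcA i⟩ : A) * X₀ ^ i)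
          = HahnSeries.C (IsLocalRing.residue A ⟨c i, hcA i⟩) * (ivRed A X₀) ^ i := by
      intro i _
      rw [map_mul, map_pow, ivRed_C]
    rw [Finset.sum_congr rfl hterm]
    apply sum_smul_pow_ne_zero
    · -- the reduction of `X₀` has negative order
      have hcoef : (ivRed A X₀).coeff n₀ ≠ 0 := by
        rw [ivRed_coeff, Ne, IsLocalRing.residue_eq_zero_iff, iv_mem_maximalIdeal_iff]
        rintro (h | h)
        · exact hne h
        · exact h hunit
      exact lt_of_le_of_lt (HahnSeries.order_le_of_coeff_ne_zero hcoef) hn₀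
    · obtain ⟨i, hi0, hiu⟩ := hPu
      have hin : i ∈ Finset.range (n + 1) := by
        rw [Finset.mem_range, Nat.lt_succ_iff]
        exact Polynomial.le_natDegree_of_ne_zero hi0
      refine ⟨i, hin, ?_⟩
      rw [Ne, IsLocalRing.residue_eq_zero_iff, iv_mem_maximalIdeal_iff]
      obtain ⟨e, heA, -, hec⟩ := (mem_RcG_iff cst).mp hiu
      have hci0 : c i ≠ 0 := by
        intro h0
        apply hi0
        rw [← hcP i, h0, map_zero]
      have he : e = (c i)⁻¹ := by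
        apply cst.injective
        rw [hec, ← hcP i, map_inv₀]
      rintro (h | h)
      · exact hci0 h
      · apply h
        show (c i)⁻¹ ∈ A
        rw [← he]; exact heA
  have hPF : P.eval x ∈ F := by
    rw [Polynomial.eval_eq_sum_range]
    refine F.sum_mem fun i _ => F.mul_mem ?_ (F.pow_mem hxF i)
    rw [← hcP i]
    exact hEF _ (hcE i)
  have hne0 : ι (P.eval x) ≠ 0 := by
    rw [← hUval]
    exact ivRed_ne_zero_imp_ivInc_ne_zero hred
  refine ⟨inv_mem hPF, 1, U, isInt_one, hUint, hred, ?_⟩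
  rw [hUval, map_one, map_inv₀, inv_mul_cancel₀ hne0]

end Constants

/-! ### Stability of `V` under the twist `X ↦ ζ X` (piece I-TV) -/

section Twist

variable (t : Ω ≃+* Ω) (ζ : K)

/-- field `t_V` of `IgusaData`: an automorphism `t` of `Ω` preserving `F` and acting on
expansions by `X ↦ ζ X` (`ζ` a unit of `A ∩ E`) preserves the Gauss valuation ring. -/
theorem twist_mem_VRing (hζA : ζ ∈ A) (hζE : ζ ∈ E) (hζ0 : ζ ≠ 0) (hζinv : ζ⁻¹ ∈ A)
    (ht : ∀ (f : Ω) (n : ℤ), (ι (t f)).coeff n = ζ ^ n * (ι f).coeff n)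
    (htF : ∀ f ∈ F, t f ∈ F) {f : Ω} (hf : f ∈ VRing A E ι F) : t f ∈ VRing A E ι F := by
  obtain ⟨hfF, U₁, U₂, h₁, h₂, hr, hfU⟩ := hf
  have hζn : ∀ n : ℤ, ζ ^ n ∈ A ∧ ζ ^ n ∈ E := by
    intro n
    constructor
    · cases n with
      | ofNat k => rw [Int.ofNat_eq_natCast, zpow_natCast]; exact pow_mem hζA k
      | negSucc k => rw [zpow_negSucc, ← inv_pow]; exact pow_mem hζinv (k + 1)
    · exact zpow_mem hζE n
  -- twisting an integral series
  have key : ∀ U : LaurentSeries A, IsInt A E ι F U →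
      ∃ U' : LaurentSeries A, IsInt A E ι F U' ∧
        (∀ g : Ω, ι g = ivInc A U → ι (t g) = ivInc A U') ∧
        (ivRed A U ≠ 0 → ivRed A U' ≠ 0) := by
    intro U hU
    obtain ⟨g, hg, hgU⟩ := hU.2
    have hA : ∀ n, (ι (t g)).coeff n ∈ A := fun n => by
      rw [ht, hgU, ivInc_coeff]
      exact A.mul_mem _ _ (hζn n).1 (U.coeff n).2
    have hE : ∀ n, (ι (t g)).coeff n ∈ E := fun n => by
      rw [ht, hgU, ivInc_coeff]
      exact E.mul_mem (hζn n).2 (hU.1 n)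
    obtain ⟨U', hU', hval⟩ := exists_isInt_of_coeff_mem (htF g hg) hA hE
    refine ⟨U', hU', fun g' hg' => ?_, fun hred hred' => ?_⟩
    · have : g' = g := ι.injective (by rw [hg', hgU])
      rw [this, hval]
    · apply hred
      rw [ivRed_eq_zero_iff] at hred' ⊢
      intro n
      have h1 := hred' n
      rw [iv_mem_maximalIdeal_iff] at h1 ⊢
      have hc : ((U'.coeff n : A) : K) = ζ ^ n * ((U.coeff n : A) : K) := by
        rw [← ivInc_coeff, ← hval, ht, hgU, ivInc_coeff]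
      rw [hc] at h1
      rcases h1 with h1 | h1
      · left
        rcases mul_eq_zero.mp h1 with h2 | h2
        · exact absurd h2 (zpow_ne_zero n hζ0)
        · exact h2
      · by_cases hu0 : ((U.coeff n : A) : K) = 0
        · exact Or.inl hu0
        · right
          intro hinv
          apply h1
          rw [mul_inv, ← zpow_neg]
          exact A.mul_mem _ _ (hζn (-n)).1 hinv
  obtain ⟨W₁, hW₁, hv₁, -⟩ := key U₁ h₁
  obtain ⟨W₂, hW₂, hv₂, hr₂⟩ := key U₂ h₂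
  obtain ⟨g₁, hg₁, hgU₁⟩ := h₁.2
  obtain ⟨g₂, hg₂, hgU₂⟩ := h₂.2
  refine ⟨htF f hfF, W₁, W₂, hW₁, hW₂, hr₂ hr, ?_⟩
  rw [← hv₁ g₁ hgU₁, ← hv₂ g₂ hgU₂, ← map_mul, ← map_mul]
  congr 1
  congr 1
  apply ι.injective
  rw [map_mul, hgU₁, hgU₂, hfU]

/-- field `t_V` of `IgusaData`, as an equivalence. -/
theorem twist_mem_VRing_iff (hζA : ζ ∈ A) (hζE : ζ ∈ E) (hζ0 : ζ ≠ 0) (hζinv : ζ⁻¹ ∈ A)
    (ht : ∀ (f : Ω) (n : ℤ), (ι (t f)).coeff n = ζ ^ n * (ι f).coeff n)
    (htF : ∀ f ∈ F, t f ∈ F) (htF' : ∀ f ∈ F, t.symm f ∈ F) (f : Ω) :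
    t f ∈ VRing A E ι F ↔ f ∈ VRing A E ι F := by
  constructor
  · intro h
    have ht' : ∀ (g : Ω) (n : ℤ), (ι (t.symm g)).coeff n = ζ⁻¹ ^ n * (ι g).coeff n := by
      intro g n
      have := ht (t.symm g) n
      rw [RingEquiv.apply_symm_apply] at this
      rw [this, ← mul_assoc, ← mul_zpow, inv_mul_cancel₀ hζ0, one_zpow, one_mul]
    have := twist_mem_VRing (A := A) (E := E) (ι := ι) (F := F) t.symm ζ⁻¹ hζinv
      (E.inv_mem hζE) (inv_ne_zero hζ0) (by rwa [inv_inv]) ht' htF' h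
    rwa [RingEquiv.symm_apply_apply] at this
  · exact twist_mem_VRing t ζ hζA hζE hζ0 hζinv ht htF

end Twist

end Fermat.Agent.S48.H248

end
end
-- ===== PACK-END S48/H248/IVGauss.lean

-- ===== PACK-BEGIN S48/H248/IV.lean
section


/-!
# S48 / RES (Tower A1) / node IGUSA1, pieces I-V and I-TV (helper248) — SUMMARY

Setting (GENERIC): `K` a field, `A` a valuation subring of `K`, `E` a subfield of `K`, `w₀` a
uniformiser of `A ∩ E` (`IsUnifG A E w₀`), `Ω` a field with `ι : Ω →+* K((X))` and constants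
`cst : K →+* Ω` (`ι (cst c) = C c`), `F` a subfield of `Ω` containing the constants of `E`, such
that every element of `F` is a quotient of two integral series of `F` (`IsRatio`; automatic if
`F` is generated over `E` by such quotients: `isRatio_of_mem_closure`).

With `R := RcG A E cst`, `Ec := EcG E cst`, `V := VRing A E ι F`, `w := cst w₀`:

* `igusa_R_fields`  : the fields `R_le R_total w_mem w_ne_zero w_inv_not_mem w_discrete`
                      of `H856.IgusaData` (and of `S18.Alg.GoodModel`, plus `w_gen`);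
* `igusa_V_fields`  : the fields `R_le_V x_mem_V V_total w_inv_not_mem_V V_discrete gauss`
                      of `H856.IgusaData`;
* `goodModel_V_fields` : the fields `V_le V_total R_le_V w_inv_not_mem_V V_gen x_mem_V gauss`
                      of `S18.Alg.GoodModel`;
* `twist_mem_VRing_iff` (`IVGauss.lean`) : field `t_V` of `H856.IgusaData`;
* `VRing_mono`, `mem_VRing_of_mem_of_le` : `V_F = V_{F'} ∩ F` for `F ≤ F'`.

WARNING for the owners of the full-level field: "every element of `Ffull` is a quotient of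
integral series" (bounded denominators) is NOT automatic for a field of `E`-rational
`X`-expansions: `R((X))` is not integrally closed in `E((X))` (`w * sqrt (1 + X / w ^ 2)` is
integral over `R[X]`, with unbounded denominators).  It holds for `Ffull = E(j, generators)` as
soon as the generators have `X`-expansions in `(1/d) R((X))`.
-/

set_option autoImplicit false

noncomputable section

namespace Fermat.Agent.S48.H248

open HahnSeries ModularCurve

variable {K : Type*} [Field K] {A : ValuationSubring K} {E : Subfield K}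
variable {Ω : Type*} [Field Ω] {ι : Ω →+* LaurentSeries K} {F : Subfield Ω}

section RFields

variable (cst : K →+* Ω)

theorem RcG_total : ∀ e ∈ EcG E cst, e ∈ RcG A E cst ∨ e⁻¹ ∈ RcG A E cst := by
  intro e he
  obtain ⟨c, hc, rfl⟩ := (mem_EcG_iff cst).mp he
  rcases A.mem_or_inv_mem c with h | h
  · exact Or.inl ((mem_RcG_iff cst).mpr ⟨c, h, hc, rfl⟩)
  · exact Or.inr ((mem_RcG_iff cst).mpr ⟨c⁻¹, h, E.inv_mem hc, map_inv₀ cst c⟩)

theorem cst_mem_RcG_iff {c : K} : cst c ∈ RcG A E cst ↔ c ∈ A ∧ c ∈ E := by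
  constructor
  · intro h
    obtain ⟨c', hA, hE, hcc⟩ := (mem_RcG_iff cst).mp h
    have : c' = c := cst.injective hcc
    exact this ▸ ⟨hA, hE⟩
  · rintro ⟨hA, hE⟩
    exact (mem_RcG_iff cst).mpr ⟨c, hA, hE, rfl⟩

/-- The `R`-fields of `H856.IgusaData` (in the order of the structure), plus `w_gen`. -/
theorem igusa_R_fields {w₀ : K} (hw : IsUnifG A E w₀) :
    (∀ r ∈ RcG A E cst, r ∈ EcG E cst) ∧
    (∀ e ∈ EcG E cst, e ∈ RcG A E cst ∨ e⁻¹ ∈ RcG A E cst) ∧
    cst w₀ ∈ RcG A E cst ∧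
    cst w₀ ≠ 0 ∧
    (cst w₀)⁻¹ ∉ RcG A E cst ∧
    (∀ r ∈ RcG A E cst, r ≠ 0 →
      ∃ n : ℕ, r * ((cst w₀)⁻¹) ^ n ∈ RcG A E cst ∧ (r * ((cst w₀)⁻¹) ^ n)⁻¹ ∈ RcG A E cst) ∧
    (∀ r ∈ RcG A E cst, r⁻¹ ∉ RcG A E cst → r * (cst w₀)⁻¹ ∈ RcG A E cst) := by
  refine ⟨RcG_le_EcG cst, RcG_total cst, (cst_mem_RcG_iff cst).mpr ⟨hw.mem_A, hw.mem_E⟩,
    (map_ne_zero cst).mpr hw.ne_zero, ?_, ?_, ?_⟩
  · rw [← map_inv₀, cst_mem_RcG_iff]
    exact fun h => hw.inv_not_mem h.1
  · intro r hr hr0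
    obtain ⟨c, hcA, hcE, rfl⟩ := (mem_RcG_iff cst).mp hr
    have hc0 : c ≠ 0 := fun h => hr0 (by rw [h, map_zero])
    obtain ⟨n, h1, h2⟩ := hw.discrete c hcA hcE hc0
    refine ⟨n, ?_, ?_⟩
    · rw [← map_inv₀, ← map_pow, ← map_mul, cst_mem_RcG_iff]
      exact ⟨h1, E.mul_mem hcE (E.pow_mem (E.inv_mem hw.mem_E) n)⟩
    · rw [← map_inv₀, ← map_pow, ← map_mul, ← map_inv₀, cst_mem_RcG_iff]
      exact ⟨h2, E.inv_mem (E.mul_mem hcE (E.pow_mem (E.inv_mem hw.mem_E) n))⟩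
  · intro r hr hinv
    obtain ⟨c, hcA, hcE, rfl⟩ := (mem_RcG_iff cst).mp hr
    rw [← map_inv₀, ← map_mul, cst_mem_RcG_iff]
    refine ⟨hw.gen c hcA hcE fun h => hinv ?_, E.mul_mem hcE (E.inv_mem hw.mem_E)⟩
    rw [← map_inv₀, cst_mem_RcG_iff]
    exact ⟨h, E.inv_mem hcE⟩

end RFields

section VFields

variable (cst : K →+* Ω) (hcst : ∀ c : K, ι (cst c) = HahnSeries.C c)
  (hEF : ∀ c ∈ E, cst c ∈ F)

include hcst hEF

/-- The `V`-fields of `H856.IgusaData` (in the order of the structure) for the Gauss valuation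
ring `V = VRing A E ι F`. -/
theorem igusa_V_fields {w₀ : K} (hw : IsUnifG A E w₀)
    (hgen : ∀ f ∈ F, IsRatio A E ι F f)
    {x : Ω} {X₀ : LaurentSeries A} (hX₀ : IsInt A E ι F X₀) (hx : ι x = ivInc A X₀)
    (n₀ : ℤ) (hn₀ : n₀ < 0) (hne : ((X₀.coeff n₀ : A) : K) ≠ 0)
    (hunit : ((X₀.coeff n₀ : A) : K)⁻¹ ∈ A) :
    RcG A E cst ≤ VRing A E ι F ∧
    x ∈ VRing A E ι F ∧
    (∀ f ∈ F, f ∈ VRing A E ι F ∨ f⁻¹ ∈ VRing A E ι F) ∧
    (cst w₀)⁻¹ ∉ VRing A E ι F ∧
    (∀ f ∈ F, f ≠ 0 →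
      ∃ n : ℤ, f * cst w₀ ^ n ∈ VRing A E ι F ∧ (f * cst w₀ ^ n)⁻¹ ∈ VRing A E ι F) ∧
    (∀ P : Polynomial Ω, (∀ i, P.coeff i ∈ RcG A E cst) →
      (∃ i, P.coeff i ≠ 0 ∧ (P.coeff i)⁻¹ ∈ RcG A E cst) →
      (P.eval x)⁻¹ ∈ VRing A E ι F) :=
  ⟨RcG_le_VRing cst hcst hEF, x_mem_VRing hX₀ hx,
    fun f hf => V_total cst hcst hEF hw hf (hgen f hf),
    w_inv_not_mem_VRing cst hcst hw.ne_zero hw.inv_not_mem,
    fun f hf hf0 => V_discrete cst hcst hEF hw hf (hgen f hf) hf0,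
    fun P hP hPu => gauss cst hcst hEF hX₀ hx n₀ hn₀ hne hunit P hP hPu⟩

/-- The `V`-fields of `S18.Alg.GoodModel` (in the order of the structure) for the Gauss
valuation ring `V = VRing A E ι F`. -/
theorem goodModel_V_fields {w₀ : K} (hw : IsUnifG A E w₀)
    (hgen : ∀ f ∈ F, IsRatio A E ι F f)
    {x : Ω} {X₀ : LaurentSeries A} (hX₀ : IsInt A E ι F X₀) (hx : ι x = ivInc A X₀)
    (n₀ : ℤ) (hn₀ : n₀ < 0) (hne : ((X₀.coeff n₀ : A) : K) ≠ 0)
    (hunit : ((X₀.coeff n₀ : A) : K)⁻¹ ∈ A) :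
    (VRing A E ι F : Set Ω) ⊆ F ∧
    (∀ f ∈ F, f ∈ VRing A E ι F ∨ f⁻¹ ∈ VRing A E ι F) ∧
    RcG A E cst ≤ VRing A E ι F ∧
    (cst w₀)⁻¹ ∉ VRing A E ι F ∧
    (∀ f ∈ VRing A E ι F, f⁻¹ ∉ VRing A E ι F → f * (cst w₀)⁻¹ ∈ VRing A E ι F) ∧
    x ∈ VRing A E ι F ∧
    (∀ P : Polynomial Ω, (∀ i, P.coeff i ∈ RcG A E cst) →
      (∃ i, P.coeff i ≠ 0 ∧ (P.coeff i)⁻¹ ∈ RcG A E cst) →
      (P.eval x)⁻¹ ∈ VRing A E ι F) :=
  ⟨VRing_le A E ι F, fun f hf => V_total cst hcst hEF hw hf (hgen f hf),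
    RcG_le_VRing cst hcst hEF, w_inv_not_mem_VRing cst hcst hw.ne_zero hw.inv_not_mem,
    fun _ hf hinv => V_gen cst hcst hEF hw hf hinv, x_mem_VRing hX₀ hx,
    fun P hP hPu => gauss cst hcst hEF hX₀ hx n₀ hn₀ hne hunit P hP hPu⟩

/-- `V_F = V_{F'} ∩ F` for `F ≤ F'`. -/
theorem VRing_eq_inf {w₀ : K} (hw : IsUnifG A E w₀) (hgen : ∀ f ∈ F, IsRatio A E ι F f)
    {F' : Subfield Ω} (hF : F ≤ F') (f : Ω) :
    f ∈ VRing A E ι F ↔ f ∈ VRing A E ι F' ∧ f ∈ F :=
  ⟨fun h => ⟨VRing_mono hF h, h.1⟩,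
    fun h => mem_VRing_of_mem_of_le cst hcst hEF hw hF h.2 (hgen f h.2) h.1⟩

end VFields

end Fermat.Agent.S48.H248

end
end
-- ===== PACK-END S48/H248/IV.lean

-- ===== PACK-BEGIN S48/H308/RankinEuler.lean
section


/-!
# S48 (Deligne–Serre), piece RANKIN, part 3: from a bound on the Dirichlet series to the
# Rankin bound over primes (Euler product, no analytic continuation)

`rankin_abs`: if `a 1 = 1`, the Hecke relations hold at all primes `p ∤ N` with `‖ε p‖ = 1`, and all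
finite partial sums of `∑ ‖a n‖² n^{-s}` are `≤ D`, then for every finite set `P` of primes not
dividing `N`:   `∑_{p ∈ P} ‖a p‖² p^{-s} ≤ log D + 2`.
-/

set_option autoImplicit false

namespace Fermat.Agent.S48.H308

open Finset

section Mult

variable {N : ℕ} {a : ℕ → ℂ} {ε : ℕ → ℂ}

/-- Hecke relation at prime powers. -/
lemma hecke_rec (hT : ∀ p : ℕ, p.Prime → ¬ p ∣ N → ∀ n : ℕ,
      a (p * n) + ε p * (if p ∣ n then a (n / p) else 0) = a p * a n)
    {p : ℕ} (hp : p.Prime) (hpN : ¬ p ∣ N) (n : ℕ) (e : ℕ) :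
    a (p ^ (e + 2) * n) = a p * a (p ^ (e + 1) * n) - ε p * a (p ^ e * n) := by
  have h := hT p hp hpN (p ^ (e + 1) * n)
  have hdvd : p ∣ p ^ (e + 1) * n := Dvd.dvd.mul_right (dvd_pow_self p (by omega)) n
  rw [if_pos hdvd] at h
  have hdiv : p ^ (e + 1) * n / p = p ^ e * n := by
    rw [pow_succ, mul_assoc, mul_comm p n, ← mul_assoc, Nat.mul_div_cancel _ hp.pos]
  rw [hdiv] at h
  have hmul : p * (p ^ (e + 1) * n) = p ^ (e + 2) * n := by ring
  rw [hmul] at h
  linear_combination h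

lemma hecke_prime_pow_mul (h1 : a 1 = 1)
    (hT : ∀ p : ℕ, p.Prime → ¬ p ∣ N → ∀ n : ℕ,
      a (p * n) + ε p * (if p ∣ n then a (n / p) else 0) = a p * a n)
    {p : ℕ} (hp : p.Prime) (hpN : ¬ p ∣ N) {n : ℕ} (hn : ¬ p ∣ n) (e : ℕ) :
    a (p ^ e * n) = a (p ^ e) * a n := by
  have key : ∀ e, a (p ^ e * n) = a (p ^ e) * a n ∧ a (p ^ (e + 1) * n) = a (p ^ (e + 1)) * a n := by
    intro e
    induction e with
    | zero =>
      refine ⟨by simp [h1], ?_⟩
      have h := hT p hp hpN n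
      rw [if_neg hn] at h
      simpa using h
    | succ e ih =>
      refine ⟨ih.2, ?_⟩
      have hr := hecke_rec hT hp hpN n e
      have hr1 := hecke_rec hT hp hpN 1 e
      simp only [mul_one] at hr1
      rw [hr, ih.1, ih.2, hr1]; ring
  exact (key e).1

lemma hecke_mul (h1 : a 1 = 1)
    (hT : ∀ p : ℕ, p.Prime → ¬ p ∣ N → ∀ n : ℕ,
      a (p * n) + ε p * (if p ∣ n then a (n / p) else 0) = a p * a n) :
    ∀ m : ℕ, Nat.Coprime m N → ∀ n : ℕ, Nat.Coprime m n → a (m * n) = a m * a n := by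
  intro m
  induction m using Nat.recOnPosPrimePosCoprime with
  | prime_pow p k hp hk =>
    intro hN n hn
    have hpN : ¬ p ∣ N := by
      intro hd
      have := (Nat.coprime_pow_left_iff hk p N).mp hN
      exact hp.one_lt.ne' (Nat.Coprime.eq_one_of_dvd this hd)
    have hpn : ¬ p ∣ n := by
      intro hd
      have := (Nat.coprime_pow_left_iff hk p n).mp hn
      exact hp.one_lt.ne' (Nat.Coprime.eq_one_of_dvd this hd)
    exact hecke_prime_pow_mul h1 hT hp hpN hpn k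
  | zero =>
    intro _ n hn
    have : n = 1 := by simpa using hn
    subst this
    simp [h1]
  | one =>
    intro _ n _
    simp [h1]
  | coprime x y hx hy hxy ihx ihy =>
    intro hN n hn
    have hxN : Nat.Coprime x N := Nat.Coprime.coprime_mul_right hN
    have hyN : Nat.Coprime y N := Nat.Coprime.coprime_mul_left hN
    have hxn : Nat.Coprime x n := Nat.Coprime.coprime_mul_right hn
    have hyn : Nat.Coprime y n := Nat.Coprime.coprime_mul_left hn
    rw [mul_assoc, ihx hxN (y * n) (Nat.Coprime.mul_right hxy hxn), ihy hyN n hyn,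
      ihx hxN y hxy]
    ring

end Mult

/-- `1 - x ≥ exp (-2x)` on `[0, 1/2]`. -/
lemma exp_neg_two_mul_le {x : ℝ} (h0 : 0 ≤ x) (h1 : x ≤ 1 / 2) :
    Real.exp (-(2 * x)) ≤ 1 - x := by
  have h2 : 1 + 2 * x ≤ Real.exp (2 * x) := by
    have := Real.add_one_le_exp (2 * x); linarith
  have hpos : 0 < 1 + 2 * x := by linarith
  rw [Real.exp_neg]
  calc (Real.exp (2 * x))⁻¹ ≤ (1 + 2 * x)⁻¹ := inv_anti₀ hpos h2
    _ ≤ 1 - x := by
      rw [inv_le_iff_one_le_mul₀ hpos]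
      nlinarith

/-- `∑_{p ∈ P} 1/p² ≤ 1` over any finite set of integers `≥ 2`. -/
lemma sum_inv_sq_le_one (P : Finset ℕ) (hP : ∀ p ∈ P, 2 ≤ p) :
    ∑ p ∈ P, ((p : ℝ) ^ 2)⁻¹ ≤ 1 := by
  -- compare with the telescoping sum over `2 ≤ n ≤ M`
  have htel : ∀ M : ℕ, ∑ n ∈ Finset.Icc 2 M, ((n : ℝ) ^ 2)⁻¹ ≤ 1 - 1 / (max M 1 : ℝ) := by
    intro M
    induction M with
    | zero => simp
    | succ M ih =>
      rcases Nat.lt_or_ge M 1 with hM | hM
      · have : M = 0 := by omega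
        subst this
        simp
      · rw [Finset.sum_Icc_succ_top (by omega : 2 ≤ M + 1)]
        have hM1 : (1 : ℝ) ≤ M := by exact_mod_cast hM
        have e1 : (max (M : ℝ) 1) = M := max_eq_left hM1
        have e2 : (max ((M + 1 : ℕ) : ℝ) 1) = (M : ℝ) + 1 := by
          push_cast; exact max_eq_left (by linarith)
        rw [e1] at ih
        rw [e2]
        have hpos : (0 : ℝ) < M := by linarith
        have hpos1 : (0 : ℝ) < (M : ℝ) + 1 := by linarith
        have hstep : (((M + 1 : ℕ) : ℝ) ^ 2)⁻¹ ≤ 1 / (M : ℝ) - 1 / ((M : ℝ) + 1) := by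
          push_cast
          rw [div_sub_div _ _ hpos.ne' hpos1.ne', inv_eq_one_div,
            div_le_div_iff₀ (by positivity) (by positivity)]
          nlinarith
        linarith
  obtain ⟨M, hM⟩ : ∃ M, ∀ p ∈ P, p ≤ M := ⟨P.sup id, fun p hp => Finset.le_sup (f := id) hp⟩
  calc ∑ p ∈ P, ((p : ℝ) ^ 2)⁻¹ ≤ ∑ n ∈ Finset.Icc 2 M, ((n : ℝ) ^ 2)⁻¹ := by
        apply Finset.sum_le_sum_of_subset_of_nonneg
        · intro p hp
          rw [Finset.mem_Icc]
          exact ⟨hP p hp, hM p hp⟩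
        · intro _ _ _; positivity
    _ ≤ 1 - 1 / (max M 1 : ℝ) := htel M
    _ ≤ 1 := by
        have : (0 : ℝ) ≤ 1 / (max M 1 : ℝ) := by positivity
        linarith

lemma cast_pow_rpow (p e : ℕ) (s : ℝ) :
    ((p ^ e : ℕ) : ℝ) ^ (-s) = ((p : ℝ) ^ (-s)) ^ e := by
  rw [Nat.cast_pow, ← Real.rpow_natCast ((p : ℝ) ^ (-s)) e, ← Real.rpow_mul (Nat.cast_nonneg p),
    mul_comm, Real.rpow_mul (Nat.cast_nonneg p), Real.rpow_natCast]

/-- **Abstract Rankin bound.** -/
theorem rankin_abs (N : ℕ) (a : ℕ → ℂ) (ε : ℕ → ℂ) (h1 : a 1 = 1)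
    (hT : ∀ p : ℕ, p.Prime → ¬ p ∣ N → ∀ n : ℕ,
      a (p * n) + ε p * (if p ∣ n then a (n / p) else 0) = a p * a n)
    (hε : ∀ p : ℕ, p.Prime → ¬ p ∣ N → ‖ε p‖ = 1)
    (s : ℝ) (hs : 1 < s) (D : ℝ)
    (hD : ∀ F : Finset ℕ, ∑ n ∈ F, ‖a n‖ ^ 2 * (n : ℝ) ^ (-s) ≤ D)
    (P : Finset ℕ) (hP : ∀ p ∈ P, p.Prime ∧ ¬ p ∣ N) :
    ∑ p ∈ P, ‖a p‖ ^ 2 * (p : ℝ) ^ (-s) ≤ Real.log D + 2 := by
  classical
  -- the multiplicative function
  set g : ℕ → ℝ := fun n => if Nat.Coprime n N then ‖a n‖ ^ 2 * (n : ℝ) ^ (-s) else 0 with hg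
  have hg_nonneg : ∀ n, 0 ≤ g n := by
    intro n; simp only [hg]; split_ifs
    · positivity
    · exact le_rfl
  have hg_le : ∀ n, g n ≤ ‖a n‖ ^ 2 * (n : ℝ) ^ (-s) := by
    intro n; simp only [hg]; split_ifs
    · exact le_rfl
    · positivity
  have hg1 : g 1 = 1 := by simp [hg, h1]
  have hgmul : ∀ {m n : ℕ}, Nat.Coprime m n → g (m * n) = g m * g n := by
    intro m n hmn
    simp only [hg]
    by_cases hm : Nat.Coprime m N
    · by_cases hn : Nat.Coprime n N
      · rw [if_pos (Nat.Coprime.mul_left hm hn), if_pos hm, if_pos hn,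
          hecke_mul h1 hT m hm n hmn, norm_mul, Nat.cast_mul,
          Real.mul_rpow (Nat.cast_nonneg m) (Nat.cast_nonneg n)]
        ring
      · rw [if_neg hn, mul_zero, if_neg]
        exact fun h => hn (Nat.Coprime.coprime_mul_left h)
    · rw [if_neg hm, zero_mul, if_neg]
      exact fun h => hm (Nat.Coprime.coprime_mul_right h)
  have hgsum : Summable g := by
    apply summable_of_sum_le hg_nonneg (c := D)
    intro F
    exact (Finset.sum_le_sum fun n _ => hg_le n).trans (hD F)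
  have hgnorm : Summable fun n => ‖g n‖ := by
    simpa [Real.norm_of_nonneg (hg_nonneg _)] using hgsum
  have hgtsum : ∑' n, g n ≤ D := by
    apply hgsum.tsum_le_of_sum_le
    intro F
    exact (Finset.sum_le_sum fun n _ => hg_le n).trans (hD F)
  have hD1 : 1 ≤ D := by
    have := hD {1}
    simpa [h1] using this
  -- Euler product over `P`
  have hPprime : P.filter Nat.Prime = P := by
    apply Finset.filter_true_of_mem
    intro p hp; exact (hP p hp).1
  have heul : ∏ p ∈ P, ∑' e : ℕ, g (p ^ e) ≤ D := by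
    have h := EulerProduct.prod_filter_prime_tsum_eq_tsum_factoredNumbers hg1 hgmul hgnorm P
    rw [hPprime] at h
    rw [h]
    refine le_trans ?_ hgtsum
    exact hgsum.tsum_subtype_le _ _ hg_nonneg
  -- local factors
  have hloc : ∀ p ∈ P, Real.exp (‖a p‖ ^ 2 * (p : ℝ) ^ (-s)) * (1 - ((p : ℝ) ^ (-s)) ^ 2)
      ≤ ∑' e : ℕ, g (p ^ e) := by
    intro p hp
    obtain ⟨hpp, hpN⟩ := hP p hp
    have hp0 : (0 : ℝ) < p := by exact_mod_cast hpp.pos
    have hp1 : (1 : ℝ) < p := by exact_mod_cast hpp.one_lt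
    set X : ℝ := (p : ℝ) ^ (-s) with hX
    have hX0 : 0 ≤ X := by positivity
    have hX1 : X < 1 := Real.rpow_lt_one_of_one_lt_of_neg hp1 (by linarith)
    have hcop : ∀ e : ℕ, Nat.Coprime (p ^ e) N := by
      intro e
      apply Nat.Coprime.pow_left
      exact (Nat.Prime.coprime_iff_not_dvd hpp).mpr hpN
    have hge : ∀ e : ℕ, g (p ^ e) = ‖a (p ^ e)‖ ^ 2 * X ^ e := by
      intro e
      simp only [hg]
      rw [if_pos (hcop e), hX, cast_pow_rpow]
    have hsumloc : Summable fun e : ℕ => ‖a (p ^ e)‖ ^ 2 * X ^ e := by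
      have := hgsum.comp_injective (Nat.pow_right_injective hpp.two_le)
      simpa [Function.comp_def, hge] using this
    have hrec : ∀ e, a (p ^ (e + 2)) = a p * a (p ^ (e + 1)) - ε p * a (p ^ e) := by
      intro e
      have := hecke_rec hT hpp hpN 1 e
      simpa using this
    have := local_ineq (hε p hpp hpN) (b := fun e => a (p ^ e)) (by simp [h1]) (by simp)
      hrec hX0 hX1 hsumloc
    simpa [hge] using this
  -- product of the local inequalities
  have hprod : ∏ p ∈ P, (Real.exp (‖a p‖ ^ 2 * (p : ℝ) ^ (-s)) * (1 - ((p : ℝ) ^ (-s)) ^ 2))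
      ≤ D := by
    refine le_trans (Finset.prod_le_prod ?_ hloc) heul
    intro p hp
    obtain ⟨hpp, -⟩ := hP p hp
    have hp1 : (1 : ℝ) < p := by exact_mod_cast hpp.one_lt
    have hX1 : (p : ℝ) ^ (-s) < 1 := Real.rpow_lt_one_of_one_lt_of_neg hp1 (by linarith)
    have hX0 : (0 : ℝ) ≤ (p : ℝ) ^ (-s) := by positivity
    have : 0 ≤ 1 - ((p : ℝ) ^ (-s)) ^ 2 := by nlinarith
    positivity
  -- lower bound for the factors `1 - X²`
  have hfac : ∀ p ∈ P, Real.exp (-(2 * ((p : ℝ) ^ 2)⁻¹)) ≤ 1 - ((p : ℝ) ^ (-s)) ^ 2 := by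
    intro p hp
    obtain ⟨hpp, -⟩ := hP p hp
    have hp2 : (2 : ℝ) ≤ p := by exact_mod_cast hpp.two_le
    have hp0 : (0 : ℝ) < p := by linarith
    have hXle : ((p : ℝ) ^ (-s)) ^ 2 ≤ ((p : ℝ) ^ 2)⁻¹ := by
      rw [← Real.rpow_natCast, ← Real.rpow_mul hp0.le, ← Real.rpow_natCast, ← Real.rpow_neg hp0.le]
      apply Real.rpow_le_rpow_of_exponent_le (by linarith)
      push_cast
      nlinarith
    have hinv : ((p : ℝ) ^ 2)⁻¹ ≤ 1 / 2 := by
      rw [inv_le_comm₀ (by positivity) (by norm_num)]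
      nlinarith
    calc Real.exp (-(2 * ((p : ℝ) ^ 2)⁻¹)) ≤ 1 - ((p : ℝ) ^ 2)⁻¹ :=
          exp_neg_two_mul_le (by positivity) hinv
      _ ≤ 1 - ((p : ℝ) ^ (-s)) ^ 2 := by linarith
  have hexpprod : Real.exp (∑ p ∈ P, ‖a p‖ ^ 2 * (p : ℝ) ^ (-s) - 2)
      ≤ ∏ p ∈ P, (Real.exp (‖a p‖ ^ 2 * (p : ℝ) ^ (-s)) * (1 - ((p : ℝ) ^ (-s)) ^ 2)) := by
    have h2 : ∑ p ∈ P, (‖a p‖ ^ 2 * (p : ℝ) ^ (-s) - 2 * ((p : ℝ) ^ 2)⁻¹)
        ≥ ∑ p ∈ P, ‖a p‖ ^ 2 * (p : ℝ) ^ (-s) - 2 := by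
      rw [Finset.sum_sub_distrib, ← Finset.mul_sum]
      have := sum_inv_sq_le_one P (fun p hp => (hP p hp).1.two_le)
      linarith
    calc Real.exp (∑ p ∈ P, ‖a p‖ ^ 2 * (p : ℝ) ^ (-s) - 2)
        ≤ Real.exp (∑ p ∈ P, (‖a p‖ ^ 2 * (p : ℝ) ^ (-s) - 2 * ((p : ℝ) ^ 2)⁻¹)) :=
          Real.exp_le_exp.mpr h2
      _ = ∏ p ∈ P, Real.exp (‖a p‖ ^ 2 * (p : ℝ) ^ (-s) - 2 * ((p : ℝ) ^ 2)⁻¹) :=
          Real.exp_sum _ _
      _ ≤ ∏ p ∈ P, (Real.exp (‖a p‖ ^ 2 * (p : ℝ) ^ (-s)) * (1 - ((p : ℝ) ^ (-s)) ^ 2)) := by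
          apply Finset.prod_le_prod
          · intro p _; positivity
          · intro p hp
            rw [sub_eq_add_neg, Real.exp_add]
            exact mul_le_mul_of_nonneg_left (hfac p hp) (Real.exp_pos _).le
  have hfin : Real.exp (∑ p ∈ P, ‖a p‖ ^ 2 * (p : ℝ) ^ (-s) - 2) ≤ D := hexpprod.trans hprod
  have hDpos : 0 < D := by linarith
  have := (Real.le_log_iff_exp_le hDpos).mpr hfin
  linarith

end Fermat.Agent.S48.H308

end
-- ===== PACK-END S48/H308/RankinEuler.lean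

-- ===== PACK-BEGIN S48/H308/Rankin.lean
section





/-!
# S48 (Deligne–Serre), piece RANKIN: the final bound for weight one forms on `Γ₁(N)`

For `f : CuspForm (Gamma1 N) 1` with `a₁ = 1` satisfying the Hecke relations `hT` of the frozen
statement S48 (for an arbitrary Dirichlet character `ε`), there is a constant `C` with

  `∑_{p ∈ P} ‖a_p‖² p^{-s} ≤ log (1 / (s - 1)) + C`

for all `1 < s ≤ 2` and all finite sets `P` of primes not dividing `N`
(`rankin_bound`; constant `1` in front of the logarithm, no boundedness hypothesis on `a_p`).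

Ingredients: the mean square bound `∑_{n ≤ x} ‖a_n‖² ≤ C x` and the dyadic bound for the Dirichlet
series (helper648, `H648/MeanSquare.lean`, `H648/DirichletBound.lean`), and the Euler product
argument with the sharp local inequality (`RankinLocal.lean`, `RankinEuler.lean`).
-/

set_option autoImplicit false

namespace Fermat.Agent.S48.H308

open CongruenceSubgroup UpperHalfPlane
open scoped MatrixGroups

/-- `1` is a strict period of (the image in `GL₂(ℝ)` of) `Γ₁(N)`. -/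
lemma one_mem_strictPeriods_Gamma1 (N : ℕ) :
    (1 : ℝ) ∈ (Subgroup.map (Matrix.SpecialLinearGroup.mapGL ℝ) (Gamma1 N)).strictPeriods := by
  have hT : ModularGroup.T ∈ Gamma1 N := by
    rw [Gamma1_mem]
    simp [ModularGroup.T]
  rw [Subgroup.strictPeriods_eq_zmultiples_one_of_T_mem hT]
  exact AddSubgroup.mem_zmultiples (1 : ℝ)

/-- Mean square bound for the `q`-expansion coefficients of a weight one cusp form on `Γ₁(N)`. -/
theorem rankin_meanSquare (N : ℕ) [NeZero N] (f : CuspForm (Gamma1 N) 1) :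
    ∃ C : ℝ, 0 ≤ C ∧ ∀ x : ℕ, 1 ≤ x →
      ∑ n ∈ Finset.range (x + 1), ‖ModularFormClass.qCoeff f n‖ ^ 2 ≤ C * (x : ℝ) := by
  obtain ⟨C, hC, h⟩ := Fermat.Agent.S48.H648.exists_sum_sq_coeff_le
    (Γ := Subgroup.map (Matrix.SpecialLinearGroup.mapGL ℝ) (Gamma1 N)) (k := 1) f
    (h := 1) one_pos (one_mem_strictPeriods_Gamma1 N)
  refine ⟨C, hC, fun x hx => ?_⟩
  have := h x hx
  simpa [ModularFormClass.qCoeff] using this

/-- Bound for the Dirichlet series `∑ ‖a_n‖² n^{-s}` on `(1, 2]`. -/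
theorem rankin_dirichlet (N : ℕ) [NeZero N] (f : CuspForm (Gamma1 N) 1) :
    ∃ C : ℝ, 0 < C ∧ ∀ s : ℝ, 1 < s → s ≤ 2 → ∀ F : Finset ℕ,
      ∑ n ∈ F, ‖ModularFormClass.qCoeff f n‖ ^ 2 * (n : ℝ) ^ (-s) ≤ C / (s - 1) := by
  obtain ⟨C, hC, h⟩ := rankin_meanSquare N f
  refine ⟨4 * C + 1, by positivity, fun s hs hs2 F => ?_⟩
  classical
  have hsplit : ∑ n ∈ F, ‖ModularFormClass.qCoeff f n‖ ^ 2 * (n : ℝ) ^ (-s) =
      ∑ n ∈ F.filter (fun n => 1 ≤ n), ‖ModularFormClass.qCoeff f n‖ ^ 2 * (n : ℝ) ^ (-s) := by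
    rw [Finset.sum_filter]
    refine Finset.sum_congr rfl fun n _ => ?_
    split_ifs with hn
    · rfl
    · have hn0 : n = 0 := by omega
      subst hn0
      rw [Nat.cast_zero, Real.zero_rpow (by linarith), mul_zero]
  rw [hsplit]
  have key := Fermat.Agent.S48.H648.sum_mul_rpow_neg_le
    (b := fun n => ‖ModularFormClass.qCoeff f n‖ ^ 2) (fun n => by positivity) hC
    (κ := 1) zero_le_one
    (fun x hx => by simpa using h x hx) (σ := s) hs (by linarith)
    (F.filter (fun n => 1 ≤ n)) (fun n hn => (Finset.mem_filter.mp hn).2)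
  refine key.trans ?_
  have hs0 : 0 < s - 1 := by linarith
  have e : (2 : ℝ) ^ ((1 : ℝ) + 1) = 4 := by
    rw [Real.rpow_add (by norm_num), Real.rpow_one]; norm_num
  rw [e]
  gcongr
  linarith

/-- **Rankin bound** (Deligne–Serre, §5), elementary form: for a weight one cusp form on `Γ₁(N)`
with `a₁ = 1` satisfying the Hecke relations of S48 at the primes `p ∤ N`,
`∑_{p ∈ P} ‖a_p‖² p^{-s} ≤ log (1/(s-1)) + C` for `1 < s ≤ 2`, uniformly in the finite set `P` of
primes not dividing `N`. -/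
theorem rankin_bound (N : ℕ) [NeZero N] (ε : DirichletCharacter ℂ N) (f : CuspForm (Gamma1 N) 1)
    (hf₁ : ModularFormClass.qCoeff f 1 = 1)
    (hT : ∀ p : ℕ, p.Prime → ¬ p ∣ N → ∀ n : ℕ,
        ModularFormClass.qCoeff f (p * n) +
            ε (p : ZMod N) * (if p ∣ n then ModularFormClass.qCoeff f (n / p) else 0) =
          ModularFormClass.qCoeff f p * ModularFormClass.qCoeff f n) :
    ∃ C : ℝ, ∀ s : ℝ, 1 < s → s ≤ 2 → ∀ P : Finset ℕ, (∀ p ∈ P, p.Prime ∧ ¬ p ∣ N) →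
      ∑ p ∈ P, ‖ModularFormClass.qCoeff f p‖ ^ 2 * (p : ℝ) ^ (-s) ≤
        Real.log (1 / (s - 1)) + C := by
  obtain ⟨C, hC, h⟩ := rankin_dirichlet N f
  refine ⟨Real.log C + 2, fun s hs hs2 P hP => ?_⟩
  have hε : ∀ p : ℕ, p.Prime → ¬ p ∣ N → ‖(fun p : ℕ => ε (p : ZMod N)) p‖ = 1 := by
    intro p hp hpN
    have hu : IsUnit ((p : ℕ) : ZMod N) := by
      rw [ZMod.isUnit_iff_coprime]
      exact (Nat.Prime.coprime_iff_not_dvd hp).mpr hpN
    obtain ⟨u, hu⟩ := hu
    show ‖ε (p : ZMod N)‖ = 1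
    rw [← hu]
    exact DirichletCharacter.unit_norm_eq_one ε u
  have key := rankin_abs N (fun n => ModularFormClass.qCoeff f n) (fun p : ℕ => ε (p : ZMod N))
    hf₁ hT hε s hs (C / (s - 1)) (h s hs hs2) P hP
  have hs0 : 0 < s - 1 := by linarith
  have hlog : Real.log (C / (s - 1)) = Real.log (1 / (s - 1)) + Real.log C := by
    rw [div_eq_mul_one_div, Real.log_mul hC.ne' (one_div_pos.mpr hs0).ne']
    ring
  rw [hlog] at key
  linarith

/-- Consequence: the primes `p ∤ N` with `‖a_p‖² ≥ c` are "of upper density at most `1/c`":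
`c · ∑_{p ∈ P, ‖a_p‖² ≥ c} p^{-s} ≤ log (1/(s-1)) + C`. -/
theorem rankin_density (N : ℕ) [NeZero N] (ε : DirichletCharacter ℂ N) (f : CuspForm (Gamma1 N) 1)
    (hf₁ : ModularFormClass.qCoeff f 1 = 1)
    (hT : ∀ p : ℕ, p.Prime → ¬ p ∣ N → ∀ n : ℕ,
        ModularFormClass.qCoeff f (p * n) +
            ε (p : ZMod N) * (if p ∣ n then ModularFormClass.qCoeff f (n / p) else 0) =
          ModularFormClass.qCoeff f p * ModularFormClass.qCoeff f n) :
    ∃ C : ℝ, ∀ c : ℝ, ∀ s : ℝ, 1 < s → s ≤ 2 → ∀ P : Finset ℕ,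
      (∀ p ∈ P, p.Prime ∧ ¬ p ∣ N ∧ c ≤ ‖ModularFormClass.qCoeff f p‖ ^ 2) →
      c * ∑ p ∈ P, (p : ℝ) ^ (-s) ≤ Real.log (1 / (s - 1)) + C := by
  obtain ⟨C, h⟩ := rankin_bound N ε f hf₁ hT
  refine ⟨C, fun c s hs hs2 P hP => ?_⟩
  refine le_trans ?_ (h s hs hs2 P fun p hp => ⟨(hP p hp).1, (hP p hp).2.1⟩)
  rw [Finset.mul_sum]
  refine Finset.sum_le_sum fun p hp => ?_
  exact mul_le_mul_of_nonneg_right (hP p hp).2.2 (Real.rpow_nonneg (Nat.cast_nonneg p) _)

end Fermat.Agent.S48.H308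

end
-- ===== PACK-END S48/H308/Rankin.lean

-- ===== PACK-BEGIN Lib/Cheb/SpecQ2.lean
section





/-!
# Shared library CHEB — Tier 3 ("CHEB-Q"): frozen statements of the internal pieces

Top-level interface: `SpecQ.lean`.  Plan, owners, status: `coord/CHEB-Q.md` on `origin/helper993`.

* `AbstractDirichletQStatement` (Q-ABS): the abstract Dirichlet lemma of CYC (helper221's
  `AbstractDirichletStatement`, same hypotheses) with the **quantitative** conclusion
  `∑_{p ≡ a} c(p) p^{-s} ≥ |A|⁻¹ log (1/(s-1)) - C`.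
* `CycSumStatement` (Q-SUM): the same for `c = primeCount (L^⟨g⟩)` in the situation of CYC
  (= helper221's GLUE with Q-ABS instead of ABS).
* `CycCountStatement` (Q-ALG): for `p ≡ a mod m` the degree-one primes of `L^⟨g⟩` over `p`
  are the primes of `L` with Frobenius `g`; orbit count `c(p) · ord g · |C_g| ≤ |G|`.
* `FrobDisjointStatement` (Q-DISJ): a prime has at most one Frobenius class.
* `ChebDensitySetStatement` (Q-SET): finite level, arbitrary subsets `C ⊆ Gal(L/ℚ)`.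
* `BridgeDensitySetStatement` (Q-BR): from Q-SET to the client statement.
-/

set_option autoImplicit false

open NumberField Filter Topology
open scoped Pointwise

namespace Fermat.Agent.Lib.Cheb.SpecQ

open Fermat.Agent.Lib.Cheb.Spec

/-- (Q-ABS) quantitative abstract Dirichlet lemma. -/
def AbstractDirichletQStatement : Prop :=
  ∀ (m : ℕ) [NeZero m] (c : Nat.Primes → ℝ), (∀ p, 0 ≤ c p) →
    (∀ s : ℝ, 1 < s → s ≤ 2 → Summable (fun p : Nat.Primes => c p * (p : ℝ) ^ (-s))) →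
    ∀ A : Subgroup (ZMod m)ˣ,
    (∃ B : Finset ℕ, ∀ p : Nat.Primes, (p : ℕ) ∉ B → c p ≠ 0 →
      ∃ u ∈ A, ((u : (ZMod m)ˣ) : ZMod m) = ((p : ℕ) : ZMod m)) →
    (∃ C : ℝ, ∀ s : ℝ, 1 < s → s ≤ 2 →
      |(∑' p : Nat.Primes, c p * (p : ℝ) ^ (-s)) - Real.log (1 / (s - 1))| ≤ C) →
    (∃ C : ℝ, ∀ s : ℝ, 1 < s → s ≤ 2 →
      (Nat.card A : ℝ)⁻¹ * Real.log (1 / (s - 1)) - C ≤
        ∑' p : Nat.Primes, if ((p : ℕ) : ZMod m) = 1 then c p * (p : ℝ) ^ (-s) else 0) →
    (∀ χ : DirichletCharacter ℂ m, (∃ u ∈ A, χ ((u : (ZMod m)ˣ) : ZMod m) ≠ 1) →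
      ∃ (Λ : ℝ → ℂ) (ℓ : ℂ) (C : ℝ), ContinuousOn Λ (Set.Ioi 1) ∧
        Tendsto (fun s => Complex.exp (Λ s)) (𝓝[>] 1) (𝓝 ℓ) ∧
        ∀ s : ℝ, 1 < s → s ≤ 2 →
          ‖Λ s - ∑' p : Nat.Primes, χ ((p : ℕ) : ZMod m) * ((c p * (p : ℝ) ^ (-s) : ℝ) : ℂ)‖ ≤ C) →
    ∀ a ∈ A, ∃ C : ℝ, ∀ s : ℝ, 1 < s → s ≤ 2 →
      (Nat.card A : ℝ)⁻¹ * Real.log (1 / (s - 1)) - C ≤
        ∑' p : Nat.Primes, if ((p : ℕ) : ZMod m) = ((a : (ZMod m)ˣ) : ZMod m)
          then c p * (p : ℝ) ^ (-s) else 0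

/-- (Q-SUM) quantitative prime sum in the class of `g`, situation of `Spec.CycStatement`. -/
def CycSumStatement : Prop :=
  ∀ (L : Type) [Field L] [NumberField L] [IsGalois ℚ L] (m : ℕ) [NeZero m] (ζ : L)
    (hζ : IsPrimitiveRoot ζ m) (g : L ≃ₐ[ℚ] L), (∀ k : ℕ, (g ^ k) ζ = ζ → g ^ k = 1) →
    ∃ C : ℝ, ∀ s : ℝ, 1 < s → s ≤ 2 →
      Summable (fun p : Nat.Primes =>
        (primeCount (IntermediateField.fixedField (Subgroup.zpowers g)) p : ℝ) *
          (p : ℝ) ^ (-s)) ∧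
      (orderOf g : ℝ)⁻¹ * Real.log (1 / (s - 1)) - C ≤
        ∑' p : Nat.Primes,
          if ((p : ℕ) : ZMod m) = ((hζ.autToPow ℚ g : (ZMod m)ˣ) : ZMod m)
          then (primeCount (IntermediateField.fixedField (Subgroup.zpowers g)) p : ℝ) *
            (p : ℝ) ^ (-s)
          else 0

/-- (Q-ALG) orbit count in the situation of `Spec.CycStatement`. -/
def CycCountStatement : Prop :=
  ∀ (L : Type) [Field L] [NumberField L] [IsGalois ℚ L] (m : ℕ) [NeZero m] (ζ : L)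
    (hζ : IsPrimitiveRoot ζ m) (g : L ≃ₐ[ℚ] L), (∀ k : ℕ, (g ^ k) ζ = ζ → g ^ k = 1) →
    ∃ B : Finset ℕ, ∀ p : ℕ, p.Prime → p ∉ B →
      (p : ZMod m) = ((hζ.autToPow ℚ g : (ZMod m)ˣ) : ZMod m) →
      primeCount (IntermediateField.fixedField (Subgroup.zpowers g)) p ≠ 0 →
      p ∈ frobPrimes L g ∧
      primeCount (IntermediateField.fixedField (Subgroup.zpowers g)) p * orderOf g *
        Nat.card (conjugatesOf g) ≤ Nat.card (L ≃ₐ[ℚ] L)

/-- (Q-CYC) assembly of the quantitative cyclotomic case. -/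
def CycDensityGlueStatement : Prop :=
  CycSumStatement → CycCountStatement → CycDensityStatement

/-- (Q-DISJ) a rational prime has at most one Frobenius class. -/
def FrobDisjointStatement : Prop :=
  ∀ (L : Type) [Field L] [NumberField L] [IsGalois ℚ L] (g h : L ≃ₐ[ℚ] L) (p : ℕ),
    p ∈ frobPrimes L g → p ∈ frobPrimes L h → IsConj g h

/-- (Q-SET) finite-level Chebotarev density theorem for arbitrary subsets of the Galois group. -/
def ChebDensitySetStatement : Prop :=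
  ∀ (L : Type) [Field L] [NumberField L] [IsGalois ℚ L] (C : Set (L ≃ₐ[ℚ] L)),
    HasLowerDensity {p | ∃ g ∈ C, p ∈ frobPrimes L g}
      ((Nat.card ↥C : ℝ) / (Nat.card (L ≃ₐ[ℚ] L) : ℝ))

/-- (Q-SET glue) -/
def ChebDensitySetGlueStatement : Prop :=
  FrobDisjointStatement → ChebDensityFiniteStatement → ChebDensitySetStatement

/-- (Q-BR) bridge from Q-SET to the client statement. -/
def BridgeDensitySetStatement : Prop :=
  ChebDensitySetStatement → ChebDensityStatement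

end Fermat.Agent.Lib.Cheb.SpecQ

end
-- ===== PACK-END Lib/Cheb/SpecQ2.lean

-- ===== PACK-BEGIN Lib/Cheb/DensityBasic.lean
section



/-!
# CHEB-Q: calculus of finite-sum Dirichlet densities (`SpecQ.HasLowerDensity`)

* `HasLowerDensity.mono`, `.anti`, `.diff_finset`, `.union`, `hasLowerDensity_biUnion`
* `hasLowerDensity_of_forall_lt`, `hasLowerDensity_of_bound` (from the `O(1)`-form)
* `hasLowerDensity_of_tsum` (from a `tsum` lower bound with weights)
* `HasLowerDensity.le_of_bound` : the client lemma (lower density `d` inside a set with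
  `∑_{p ∈ T} p^(-s) ≤ u log (1/(s-1)) + K` forces `d ≤ u`).
-/

set_option autoImplicit false

namespace Fermat.Agent.Lib.Cheb.SpecQ

/-- `log (1 / (s - 1))` is positive on `(1, 2)`. -/
theorem log_inv_sub_one_pos {s : ℝ} (h1 : 1 < s) (h2 : s < 2) : 0 < Real.log (1 / (s - 1)) := by
  apply Real.log_pos
  rw [lt_div_iff₀ (by linarith)]
  linarith

/-- `log (1 / (s - 1)) ≥ M` as soon as `s - 1 ≤ exp (-M)`. -/
theorem le_log_inv_sub_one {s M : ℝ} (h1 : 1 < s) (h2 : s - 1 ≤ Real.exp (-M)) :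
    M ≤ Real.log (1 / (s - 1)) := by
  have hpos : 0 < s - 1 := by linarith
  rw [one_div, Real.log_inv]
  have := Real.log_le_log hpos h2
  rw [Real.log_exp] at this
  linarith

theorem rpow_neg_le_one (p : ℕ) {s : ℝ} (hs : 0 < s) : (p : ℝ) ^ (-s) ≤ 1 := by
  rcases Nat.eq_zero_or_pos p with rfl | hp
  · rw [Nat.cast_zero, Real.zero_rpow (by linarith)]
    exact zero_le_one
  · apply Real.rpow_le_one_of_one_le_of_nonpos
    · exact_mod_cast hp
    · linarith

theorem rpow_neg_nonneg (p : ℕ) (s : ℝ) : 0 ≤ (p : ℝ) ^ (-s) :=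
  Real.rpow_nonneg (Nat.cast_nonneg p) _

theorem HasLowerDensity.mono {X Y : Set ℕ} {d : ℝ} (h : HasLowerDensity X d) (hXY : X ⊆ Y) :
    HasLowerDensity Y d := by
  intro ε hε
  obtain ⟨δ, hδ, H⟩ := h ε hε
  refine ⟨δ, hδ, fun s h1 h2 => ?_⟩
  obtain ⟨T, hT, hsum⟩ := H s h1 h2
  exact ⟨T, fun p hp => hXY (hT p hp), hsum⟩

theorem HasLowerDensity.anti {X : Set ℕ} {d d' : ℝ} (h : HasLowerDensity X d) (hd : d' ≤ d) :
    HasLowerDensity X d' := by
  intro ε hε
  obtain ⟨δ, hδ, H⟩ := h ε hε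
  refine ⟨min δ 1, lt_min hδ one_pos, fun s h1 h2 => ?_⟩
  have h3 : s < 1 + δ := lt_of_lt_of_le h2 (by linarith [min_le_left δ 1])
  have h4 : s < 2 := lt_of_lt_of_le h2 (by linarith [min_le_right δ 1])
  obtain ⟨T, hT, hsum⟩ := H s h1 h3
  refine ⟨T, hT, le_trans ?_ hsum⟩
  exact mul_le_mul_of_nonneg_right (by linarith) (log_inv_sub_one_pos h1 h4).le

theorem hasLowerDensity_of_forall_lt {X : Set ℕ} {d : ℝ}
    (h : ∀ d' : ℝ, d' < d → HasLowerDensity X d') : HasLowerDensity X d := by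
  intro ε hε
  obtain ⟨δ, hδ, H⟩ := h (d - ε / 2) (by linarith) (ε / 2) (by linarith)
  refine ⟨δ, hδ, fun s h1 h2 => ?_⟩
  obtain ⟨T, hT, hsum⟩ := H s h1 h2
  refine ⟨T, hT, ?_⟩
  have : d - ε / 2 - ε / 2 = d - ε := by ring
  rwa [this] at hsum

/-- From the `O(1)`-form on `(1, 2]`. -/
theorem hasLowerDensity_of_bound {X : Set ℕ} {d K : ℝ}
    (h : ∀ s : ℝ, 1 < s → s ≤ 2 → ∃ T : Finset ℕ, (∀ p ∈ T, p ∈ X) ∧
      d * Real.log (1 / (s - 1)) - K ≤ ∑ p ∈ T, (p : ℝ) ^ (-s)) :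
    HasLowerDensity X d := by
  intro ε hε
  refine ⟨min 1 (Real.exp (-(K / ε))), lt_min one_pos (Real.exp_pos _), fun s h1 h2 => ?_⟩
  have h3 : s < 2 := lt_of_lt_of_le h2 (by linarith [min_le_left 1 (Real.exp (-(K / ε)))])
  have h4 : s - 1 ≤ Real.exp (-(K / ε)) := by
    linarith [min_le_right 1 (Real.exp (-(K / ε)))]
  obtain ⟨T, hT, hsum⟩ := h s h1 h3.le
  refine ⟨T, hT, le_trans ?_ hsum⟩
  have h5 : K / ε ≤ Real.log (1 / (s - 1)) := le_log_inv_sub_one h1 h4
  have h6 : K ≤ ε * Real.log (1 / (s - 1)) := by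
    rw [div_le_iff₀ hε] at h5
    linarith
  linarith [sub_mul d ε (Real.log (1 / (s - 1)))]

theorem hasLowerDensity_empty_zero : HasLowerDensity (∅ : Set ℕ) 0 := by
  apply hasLowerDensity_of_bound (K := 0)
  intro s _ _
  exact ⟨∅, by simp, by simp⟩

theorem HasLowerDensity.diff_finset {X : Set ℕ} {d : ℝ} (h : HasLowerDensity X d)
    (S : Finset ℕ) : HasLowerDensity (X \ (S : Set ℕ)) d := by
  classical
  intro ε hε
  obtain ⟨δ, hδ, H⟩ := h (ε / 2) (by linarith)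
  set M : ℝ := (S.card : ℝ) / (ε / 2) with hM
  refine ⟨min δ (min 1 (Real.exp (-M))), lt_min hδ (lt_min one_pos (Real.exp_pos _)),
    fun s h1 h2 => ?_⟩
  have h3 : s < 1 + δ := lt_of_lt_of_le h2 (by linarith [min_le_left δ (min 1 (Real.exp (-M)))])
  have h4' : min δ (min 1 (Real.exp (-M))) ≤ min 1 (Real.exp (-M)) := min_le_right _ _
  have h4 : s < 2 := by linarith [min_le_left 1 (Real.exp (-M))]
  have h5 : s - 1 ≤ Real.exp (-M) := by linarith [min_le_right 1 (Real.exp (-M))]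
  obtain ⟨T, hT, hsum⟩ := H s h1 h3
  refine ⟨T \ S, fun p hp => ?_, ?_⟩
  · rw [Finset.mem_sdiff] at hp
    exact ⟨hT p hp.1, fun hpS => hp.2 (by exact_mod_cast hpS)⟩
  · have hsplit : ∑ p ∈ T, (p : ℝ) ^ (-s) =
        ∑ p ∈ T \ S, (p : ℝ) ^ (-s) + ∑ p ∈ T ∩ S, (p : ℝ) ^ (-s) := by
      rw [← Finset.sum_union (Finset.disjoint_sdiff_inter T S), Finset.sdiff_union_inter]
    have hS : ∑ p ∈ T ∩ S, (p : ℝ) ^ (-s) ≤ (S.card : ℝ) := by
      calc ∑ p ∈ T ∩ S, (p : ℝ) ^ (-s) ≤ ∑ _p ∈ T ∩ S, (1 : ℝ) :=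
            Finset.sum_le_sum fun p _ => rpow_neg_le_one p (by linarith)
        _ = ((T ∩ S).card : ℝ) := by simp
        _ ≤ (S.card : ℝ) := by
            exact_mod_cast Finset.card_le_card Finset.inter_subset_right
    have h6 : M ≤ Real.log (1 / (s - 1)) := le_log_inv_sub_one h1 h5
    have h7 : (S.card : ℝ) ≤ ε / 2 * Real.log (1 / (s - 1)) := by
      rw [hM, div_le_iff₀ (by linarith)] at h6
      linarith
    have h8 : (d - ε) * Real.log (1 / (s - 1)) =
        (d - ε / 2) * Real.log (1 / (s - 1)) - ε / 2 * Real.log (1 / (s - 1)) := by ring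
    linarith

theorem HasLowerDensity.union {X Y : Set ℕ} {d e : ℝ} (hX : HasLowerDensity X d)
    (hY : HasLowerDensity Y e) (hdisj : Disjoint X Y) : HasLowerDensity (X ∪ Y) (d + e) := by
  classical
  intro ε hε
  obtain ⟨δ₁, hδ₁, H₁⟩ := hX (ε / 2) (by linarith)
  obtain ⟨δ₂, hδ₂, H₂⟩ := hY (ε / 2) (by linarith)
  refine ⟨min δ₁ δ₂, lt_min hδ₁ hδ₂, fun s h1 h2 => ?_⟩
  obtain ⟨T₁, hT₁, hs₁⟩ := H₁ s h1 (lt_of_lt_of_le h2 (by linarith [min_le_left δ₁ δ₂]))
  obtain ⟨T₂, hT₂, hs₂⟩ := H₂ s h1 (lt_of_lt_of_le h2 (by linarith [min_le_right δ₁ δ₂]))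
  have hd : Disjoint T₁ T₂ := by
    rw [Finset.disjoint_left]
    intro p hp1 hp2
    exact (Set.disjoint_left.mp hdisj) (hT₁ p hp1) (hT₂ p hp2)
  refine ⟨T₁ ∪ T₂, fun p hp => ?_, ?_⟩
  · rcases Finset.mem_union.mp hp with h | h
    · exact Or.inl (hT₁ p h)
    · exact Or.inr (hT₂ p h)
  · rw [Finset.sum_union hd]
    have : (d + e - ε) * Real.log (1 / (s - 1)) =
        (d - ε / 2) * Real.log (1 / (s - 1)) + (e - ε / 2) * Real.log (1 / (s - 1)) := by ring
    linarith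

theorem hasLowerDensity_biUnion {ι : Type*} (I : Finset ι) (X : ι → Set ℕ) (d : ι → ℝ)
    (h : ∀ i ∈ I, HasLowerDensity (X i) (d i))
    (hdisj : ∀ i ∈ I, ∀ j ∈ I, i ≠ j → Disjoint (X i) (X j)) :
    HasLowerDensity (⋃ i ∈ I, X i) (∑ i ∈ I, d i) := by
  classical
  induction I using Finset.induction_on with
  | empty => simpa using hasLowerDensity_empty_zero
  | insert a I ha ih =>
    have h1 : HasLowerDensity (⋃ i ∈ I, X i) (∑ i ∈ I, d i) :=
      ih (fun i hi => h i (Finset.mem_insert_of_mem hi))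
        (fun i hi j hj hij => hdisj i (Finset.mem_insert_of_mem hi) j
          (Finset.mem_insert_of_mem hj) hij)
    have h2 : HasLowerDensity (X a) (d a) := h a (Finset.mem_insert_self a I)
    have h3 : Disjoint (X a) (⋃ i ∈ I, X i) := by
      rw [Set.disjoint_iUnion₂_right]
      intro i hi
      exact hdisj a (Finset.mem_insert_self a I) i (Finset.mem_insert_of_mem hi)
        (fun hai => ha (hai ▸ hi))
    have h4 := h2.union h1 h3
    rw [Finset.sum_insert ha]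
    have h5 : (⋃ i ∈ insert a I, X i) = X a ∪ ⋃ i ∈ I, X i := by
      ext p
      simp
    rw [h5]
    exact h4

/-- From a weighted `tsum` lower bound: if `0 ≤ f p ≤ w * p^(-s)` on primes, `f` vanishes off
`X`, and `∑' f ≥ d' log (1/(s-1)) - K`, then `X` has lower density at least `d' / w`. -/
theorem hasLowerDensity_of_tsum {X : Set ℕ} {d' w K : ℝ} (hw : 0 < w)
    (f : ℝ → Nat.Primes → ℝ)
    (hsum : ∀ s : ℝ, 1 < s → s ≤ 2 → Summable (f s))
    (hle : ∀ s : ℝ, 1 < s → s ≤ 2 → ∀ p : Nat.Primes, f s p ≤ w * ((p : ℕ) : ℝ) ^ (-s))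
    (hX : ∀ s : ℝ, 1 < s → s ≤ 2 → ∀ p : Nat.Primes, (p : ℕ) ∉ X → f s p ≤ 0)
    (hbound : ∀ s : ℝ, 1 < s → s ≤ 2 → d' * Real.log (1 / (s - 1)) - K ≤ ∑' p, f s p) :
    HasLowerDensity X (d' / w) := by
  classical
  apply hasLowerDensity_of_bound (K := (K + 1) / w)
  intro s h1 h2
  have hS := (hsum s h1 h2).hasSum
  -- a finite partial sum within `1` of the total
  have hev := hS.eventually (lt_mem_nhds (show ∑' p, f s p - 1 < ∑' p, f s p by linarith))
  obtain ⟨F, hF⟩ := hev.exists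
  -- keep only the primes in `X`
  set F' : Finset Nat.Primes := F.filter (fun p => (p : ℕ) ∈ X) with hF'
  have h3 : ∑ p ∈ F, f s p ≤ ∑ p ∈ F', f s p := by
    rw [hF', Finset.sum_filter]
    apply Finset.sum_le_sum
    intro p _
    split_ifs with hp
    · exact le_rfl
    · exact hX s h1 h2 p hp
  have h4 : ∑ p ∈ F', f s p ≤ w * ∑ p ∈ F', ((p : ℕ) : ℝ) ^ (-s) := by
    rw [Finset.mul_sum]
    exact Finset.sum_le_sum fun p _ => hle s h1 h2 p
  refine ⟨F'.image (fun p : Nat.Primes => (p : ℕ)), fun p hp => ?_, ?_⟩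
  · obtain ⟨q, hq, rfl⟩ := Finset.mem_image.mp hp
    rw [hF', Finset.mem_filter] at hq
    exact hq.2
  · have himg : ∑ p ∈ F'.image (fun p : Nat.Primes => (p : ℕ)), (p : ℝ) ^ (-s) =
        ∑ p ∈ F', ((p : ℕ) : ℝ) ^ (-s) :=
      Finset.sum_image (f := fun n : ℕ => (n : ℝ) ^ (-s)) (g := fun p : Nat.Primes => (p : ℕ))
        (fun a _ b _ hab => Nat.Primes.coe_nat_injective hab)
    rw [himg]
    have h5 := hbound s h1 h2
    have h6 : d' * Real.log (1 / (s - 1)) - (K + 1) ≤ w * ∑ p ∈ F', ((p : ℕ) : ℝ) ^ (-s) := by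
      linarith
    have h7 : d' / w * Real.log (1 / (s - 1)) - (K + 1) / w =
        (d' * Real.log (1 / (s - 1)) - (K + 1)) / w := by ring
    rw [h7, div_le_iff₀ hw]
    linarith

/-- **Client lemma**: a set of lower density `≥ d` all of whose finite subsets satisfy
`∑ p^(-s) ≤ u log (1/(s-1)) + K` on `(1, 2]` has `d ≤ u`. -/
theorem HasLowerDensity.le_of_bound {X : Set ℕ} {d u K : ℝ} (h : HasLowerDensity X d)
    (hb : ∀ s : ℝ, 1 < s → s ≤ 2 → ∀ T : Finset ℕ, (∀ p ∈ T, p ∈ X) →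
      ∑ p ∈ T, (p : ℝ) ^ (-s) ≤ u * Real.log (1 / (s - 1)) + K) : d ≤ u := by
  by_contra hlt
  rw [not_le] at hlt
  set ε : ℝ := (d - u) / 2 with hε
  have hεpos : 0 < ε := by rw [hε]; linarith
  obtain ⟨δ, hδ, H⟩ := h ε hεpos
  set M : ℝ := K / ε + 1 with hM
  set t : ℝ := min (δ / 2) (min 1 (Real.exp (-M))) with ht
  have htpos : 0 < t := lt_min (by linarith) (lt_min one_pos (Real.exp_pos _))
  have ht1 : t ≤ δ / 2 := min_le_left _ _
  have ht2 : t ≤ 1 := le_trans (min_le_right _ _) (min_le_left _ _)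
  have ht3 : t ≤ Real.exp (-M) := le_trans (min_le_right _ _) (min_le_right _ _)
  have h1 : (1 : ℝ) < 1 + t := by linarith
  obtain ⟨T, hT, hsum⟩ := H (1 + t) h1 (by linarith)
  have hub := hb (1 + t) h1 (by linarith) T hT
  have hlog : M ≤ Real.log (1 / (1 + t - 1)) := le_log_inv_sub_one h1 (by linarith)
  have h2 : (d - ε - u) * Real.log (1 / (1 + t - 1)) ≤ K := by
    have := sub_mul (d - ε) u (Real.log (1 / (1 + t - 1)))
    linarith
  have h3 : d - ε - u = ε := by rw [hε]; ring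
  rw [h3] at h2
  have h4 : ε * M ≤ K := le_trans (mul_le_mul_of_nonneg_left hlog hεpos.le) h2
  have h5 : ε * M = K + ε := by
    rw [hM]
    field_simp
  linarith

theorem HasLowerDensity.le_of_hasUpperDensity {X Y : Set ℕ} {d u : ℝ}
    (hX : HasLowerDensity X d) (hY : HasUpperDensity Y u) (hXY : X ⊆ Y) : d ≤ u := by
  by_contra hlt
  rw [not_le] at hlt
  set ε : ℝ := (d - u) / 3 with hε
  have hεpos : 0 < ε := by rw [hε]; linarith
  obtain ⟨δ₁, hδ₁, H₁⟩ := hX ε hεpos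
  obtain ⟨δ₂, hδ₂, H₂⟩ := hY ε hεpos
  set t : ℝ := min (min δ₁ δ₂ / 2) (1 / 2) with ht
  have htpos : 0 < t := lt_min (by have := lt_min hδ₁ hδ₂; linarith) (by norm_num)
  have ht1 : t ≤ min δ₁ δ₂ / 2 := min_le_left _ _
  have ht2 : t ≤ 1 / 2 := min_le_right _ _
  have hmin1 : min δ₁ δ₂ ≤ δ₁ := min_le_left _ _
  have hmin2 : min δ₁ δ₂ ≤ δ₂ := min_le_right _ _
  have hmpos : 0 < min δ₁ δ₂ := lt_min hδ₁ hδ₂
  have h1 : (1 : ℝ) < 1 + t := by linarith
  obtain ⟨T, hT, hsum⟩ := H₁ (1 + t) h1 (by linarith)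
  have hub := H₂ (1 + t) h1 (by linarith) T (fun p hp => hXY (hT p hp))
  have hlog : 0 < Real.log (1 / (1 + t - 1)) := log_inv_sub_one_pos h1 (by linarith)
  have h2 : (d - ε) * Real.log (1 / (1 + t - 1)) ≤ (u + ε) * Real.log (1 / (1 + t - 1)) :=
    le_trans hsum hub
  have h3 : d - ε ≤ u + ε := le_of_mul_le_mul_right h2 hlog
  rw [hε] at h3
  linarith

end Fermat.Agent.Lib.Cheb.SpecQ

end
-- ===== PACK-END Lib/Cheb/DensityBasic.lean

-- ===== PACK-BEGIN Lib/Cheb/H993/QCyc.lean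
section




/-!
# CHEB-Q piece Q-CYC (glue): `CycSumStatement → CycCountStatement → CycDensityStatement`

In the cyclotomic situation (`ζ_m ∈ L`, `⟨g⟩` faithful on `ζ_m`), with `a = autToPow g`,
`c(p) = primeCount (L^⟨g⟩) p`:  `∑_{p ≡ a} c(p) p^(-s) ≥ (1/ord g) log (1/(s-1)) - C` (Q-SUM) and
`c(p) ≤ |G| / (ord g · |C_g|)`, `c(p) ≠ 0 ⇒ p ∈ frobPrimes L g` (Q-ALG) give lower density
`≥ |C_g| / |G|` for `frobPrimes L g`.
-/

set_option autoImplicit false

open NumberField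

namespace Fermat.Agent.Lib.Cheb.H993

open Fermat.Agent.Lib.Cheb.Spec Fermat.Agent.Lib.Cheb.SpecQ

theorem summable_of_finset_support_h993 {f : Nat.Primes → ℝ} (B : Finset ℕ)
    (h : ∀ p : Nat.Primes, (p : ℕ) ∉ B → f p = 0) : Summable f := by
  apply summable_of_hasFiniteSupport
  have hfin : {p : Nat.Primes | (p : ℕ) ∈ B}.Finite :=
    Set.Finite.preimage (Nat.Primes.coe_nat_injective.injOn) B.finite_toSet
  refine hfin.subset ?_
  intro p hp
  by_contra hpB
  exact hp (h p hpB)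

/-- **Q-CYC** -/
theorem cycDensityGlue : CycDensityGlueStatement := by
  classical
  intro hSum hCount L _ _ _ m ζ hm hζ g hfaith
  have : NeZero m := ⟨hm.ne'⟩
  obtain ⟨C, hC⟩ := hSum L m ζ hζ g hfaith
  obtain ⟨B, hB⟩ := hCount L m ζ hζ g hfaith
  set a : ZMod m := ((hζ.autToPow ℚ g : (ZMod m)ˣ) : ZMod m) with ha
  set c : ℕ → ℕ := fun p =>
    primeCount (IntermediateField.fixedField (Subgroup.zpowers g)) p with hc
  set n : ℕ := orderOf g with hn
  set cg : ℕ := Nat.card (conjugatesOf g) with hcg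
  set G : ℕ := Nat.card (L ≃ₐ[ℚ] L) with hG
  have hnpos : 0 < n := orderOf_pos g
  have hcgpos : 0 < cg := by
    have : Nonempty (conjugatesOf g) := ⟨⟨g, mem_conjugatesOf_self⟩⟩
    exact Nat.card_pos
  have hGpos : 0 < G := Nat.card_pos
  have hnR : (0 : ℝ) < n := by exact_mod_cast hnpos
  have hcgR : (0 : ℝ) < cg := by exact_mod_cast hcgpos
  have hGR : (0 : ℝ) < G := by exact_mod_cast hGpos
  -- the weight
  set w : ℝ := (G : ℝ) / ((n : ℝ) * (cg : ℝ)) with hw
  have hwpos : 0 < w := div_pos hGR (mul_pos hnR hcgR)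
  -- the truncated series
  set f : ℝ → Nat.Primes → ℝ := fun s p =>
    if ((p : ℕ) : ZMod m) = a ∧ (p : ℕ) ∉ B then (c p : ℝ) * ((p : ℕ) : ℝ) ^ (-s) else 0 with hf
  set g₀ : ℝ → Nat.Primes → ℝ := fun s p =>
    if ((p : ℕ) : ZMod m) = a then (c p : ℝ) * ((p : ℕ) : ℝ) ^ (-s) else 0 with hg₀
  set h₀ : Nat.Primes → ℝ := fun p => if (p : ℕ) ∈ B then (c p : ℝ) else 0 with hh₀
  have hterm_nonneg : ∀ (s : ℝ) (p : Nat.Primes), 0 ≤ (c p : ℝ) * ((p : ℕ) : ℝ) ^ (-s) :=
    fun s p => mul_nonneg (Nat.cast_nonneg _) (rpow_neg_nonneg _ _)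
  have hh₀sum : Summable h₀ := by
    apply summable_of_finset_support_h993 B
    intro p hp
    simp only [hh₀, if_neg hp]
  have hfsum : ∀ s : ℝ, 1 < s → s ≤ 2 → Summable (f s) := by
    intro s h1 h2
    refine Summable.of_nonneg_of_le (fun p => ?_) (fun p => ?_) (hC s h1 h2).1
    · simp only [hf]
      split_ifs
      · exact hterm_nonneg s p
      · exact le_rfl
    · simp only [hf]
      split_ifs
      · exact le_rfl
      · exact hterm_nonneg s p
  have hg₀sum : ∀ s : ℝ, 1 < s → s ≤ 2 → Summable (g₀ s) := by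
    intro s h1 h2
    refine Summable.of_nonneg_of_le (fun p => ?_) (fun p => ?_) (hC s h1 h2).1
    · simp only [hg₀]
      split_ifs
      · exact hterm_nonneg s p
      · exact le_rfl
    · simp only [hg₀]
      split_ifs
      · exact le_rfl
      · exact hterm_nonneg s p
  have hdens : (n : ℝ)⁻¹ / w = classDensity L g := by
    rw [hw, classDensity, ← hcg, ← hG]
    field_simp
  rw [← hdens]
  refine hasLowerDensity_of_tsum (X := frobPrimes L g) (d' := (n : ℝ)⁻¹) (w := w)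
    (K := C + ∑' p, h₀ p) hwpos f hfsum ?_ ?_ ?_
  · -- `f s p ≤ w * p^(-s)`
    intro s h1 h2 p
    simp only [hf]
    split_ifs with hcond
    · by_cases hcp : c p = 0
      · rw [hcp, Nat.cast_zero, zero_mul]
        exact mul_nonneg hwpos.le (rpow_neg_nonneg _ _)
      · have h3 := (hB p p.2 hcond.2 hcond.1 hcp).2
        have h4 : (c p : ℝ) * (n : ℝ) * (cg : ℝ) ≤ (G : ℝ) := by exact_mod_cast h3
        have h5 : (c p : ℝ) ≤ w := by
          rw [hw, le_div_iff₀ (mul_pos hnR hcgR)]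
          linarith
        exact mul_le_mul_of_nonneg_right h5 (rpow_neg_nonneg _ _)
    · exact mul_nonneg hwpos.le (rpow_neg_nonneg _ _)
  · -- `f` vanishes off `frobPrimes`
    intro s h1 h2 p hp
    simp only [hf]
    split_ifs with hcond
    · by_cases hcp : c p = 0
      · rw [hcp, Nat.cast_zero, zero_mul]
      · exact absurd (hB p p.2 hcond.2 hcond.1 hcp).1 hp
    · exact le_rfl
  · -- the lower bound
    intro s h1 h2
    have h3 := (hC s h1 h2).2
    have hspos : 0 < s := by linarith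
    have h4 : ∀ p : Nat.Primes, g₀ s p ≤ f s p + h₀ p := by
      intro p
      simp only [hg₀, hf, hh₀]
      by_cases hpa : ((p : ℕ) : ZMod m) = a
      · by_cases hpB : (p : ℕ) ∈ B
        · rw [if_pos hpa, if_neg (fun h => h.2 hpB), if_pos hpB, zero_add]
          calc (c p : ℝ) * ((p : ℕ) : ℝ) ^ (-s) ≤ (c p : ℝ) * 1 :=
                mul_le_mul_of_nonneg_left (rpow_neg_le_one _ hspos) (Nat.cast_nonneg _)
            _ = (c p : ℝ) := mul_one _
        · rw [if_pos hpa, if_pos ⟨hpa, hpB⟩, if_neg hpB, add_zero]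
      · rw [if_neg hpa, if_neg (fun h => hpa h.1)]
        split_ifs
        · simp
        · simp
    have h5 : ∑' p, g₀ s p ≤ ∑' p, (f s p + h₀ p) :=
      (hg₀sum s h1 h2).tsum_le_tsum h4 ((hfsum s h1 h2).add hh₀sum)
    rw [(hfsum s h1 h2).tsum_add hh₀sum] at h5
    have h6 : ∑' p, g₀ s p = ∑' p : Nat.Primes,
        if ((p : ℕ) : ZMod m) = ((hζ.autToPow ℚ g : (ZMod m)ˣ) : ZMod m)
          then (primeCount (IntermediateField.fixedField (Subgroup.zpowers g)) p : ℝ) *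
            ((p : ℕ) : ℝ) ^ (-s)
          else 0 := rfl
    rw [h6] at h5
    linarith

end Fermat.Agent.Lib.Cheb.H993

end
-- ===== PACK-END Lib/Cheb/H993/QCyc.lean

-- ===== PACK-BEGIN Lib/Cheb/H993/QSet.lean
section




/-!
# CHEB-Q piece Q-SET (glue):
`FrobDisjointStatement → ChebDensityFiniteStatement → ChebDensitySetStatement`

Strong induction on the finite set `C ⊆ Gal(L/ℚ)`: split off the conjugacy class of one element;
the Frobenius sets of different classes are disjoint, lower densities add up.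
-/

set_option autoImplicit false

open NumberField

namespace Fermat.Agent.Lib.Cheb.H993

open Fermat.Agent.Lib.Cheb.Spec Fermat.Agent.Lib.Cheb.SpecQ

theorem chebDensity_finset_h993 (hDisj : FrobDisjointStatement)
    (hFin : ChebDensityFiniteStatement)
    (L : Type) [Field L] [NumberField L] [IsGalois ℚ L] :
    ∀ (n : ℕ) (C : Finset (L ≃ₐ[ℚ] L)), C.card = n →
      HasLowerDensity {p | ∃ g ∈ C, p ∈ frobPrimes L g}
        ((C.card : ℝ) / (Nat.card (L ≃ₐ[ℚ] L) : ℝ)) := by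
  classical
  intro n
  induction n using Nat.strong_induction_on with
  | _ n ih =>
    intro C hCn
    rcases Finset.eq_empty_or_nonempty C with rfl | ⟨g, hg⟩
    · have h0 : {p | ∃ g ∈ (∅ : Finset (L ≃ₐ[ℚ] L)), p ∈ frobPrimes L g} = (∅ : Set ℕ) := by
        ext p
        simp
      rw [h0]
      simpa using hasLowerDensity_empty_zero
    · set C' : Finset (L ≃ₐ[ℚ] L) := C.filter (fun h => ¬ IsConj g h) with hC'
      set K : Finset (L ≃ₐ[ℚ] L) := C.filter (fun h => IsConj g h) with hK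
      have hsplit : K.card + C'.card = C.card :=
        Finset.card_filter_add_card_filter_not (s := C) (fun h => IsConj g h)
      have hgK : g ∈ K := Finset.mem_filter.mpr ⟨hg, IsConj.refl g⟩
      have hKpos : 0 < K.card := Finset.card_pos.mpr ⟨g, hgK⟩
      have hlt : C'.card < n := by omega
      have h1 := ih C'.card hlt C' rfl
      have h2 : HasLowerDensity (frobPrimes L g) (classDensity L g) := hFin L g
      have hdisj : Disjoint (frobPrimes L g) {p | ∃ h ∈ C', p ∈ frobPrimes L h} := by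
        rw [Set.disjoint_left]
        rintro p hp ⟨h, hh, hph⟩
        exact (Finset.mem_filter.mp hh).2 (hDisj L g h p hp hph)
      have h3 := h2.union h1 hdisj
      have hsub : frobPrimes L g ∪ {p | ∃ h ∈ C', p ∈ frobPrimes L h} ⊆
          {p | ∃ h ∈ C, p ∈ frobPrimes L h} := by
        rintro p (hp | ⟨h, hh, hph⟩)
        · exact ⟨g, hg, hp⟩
        · exact ⟨h, (Finset.mem_filter.mp hh).1, hph⟩
      refine (h3.mono hsub).anti ?_
      -- `|C| ≤ |conjugacy class of g| + |C'|`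
      have hKle : K.card ≤ Nat.card (conjugatesOf g) := by
        have hfin : (conjugatesOf g).Finite := Set.toFinite _
        have h4 : (K : Set (L ≃ₐ[ℚ] L)) ⊆ conjugatesOf g := by
          intro h hh
          exact (Finset.mem_filter.mp (Finset.mem_coe.mp hh)).2
        have h5 := Set.ncard_le_ncard h4 hfin
        rw [Set.ncard_coe_finset] at h5
        rw [Nat.card_coe_set_eq]
        exact h5
      have hGpos : (0 : ℝ) < (Nat.card (L ≃ₐ[ℚ] L) : ℝ) := by
        exact_mod_cast (Nat.card_pos : 0 < Nat.card (L ≃ₐ[ℚ] L))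
      rw [classDensity, ← add_div]
      apply div_le_div_of_nonneg_right _ hGpos.le
      have h6 : (C.card : ℝ) = (K.card : ℝ) + (C'.card : ℝ) := by
        exact_mod_cast hsplit.symm
      have h7 : (K.card : ℝ) ≤ (Nat.card (conjugatesOf g) : ℝ) := by exact_mod_cast hKle
      linarith

/-- **Q-SET (glue)** -/
theorem chebDensitySetGlue : ChebDensitySetGlueStatement := by
  classical
  intro hDisj hFin L _ _ _ C
  have hfin : C.Finite := Set.toFinite C
  have h := chebDensity_finset_h993 hDisj hFin L hfin.toFinset.card hfin.toFinset rfl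
  have h1 : {p | ∃ g ∈ hfin.toFinset, p ∈ frobPrimes L g} = {p | ∃ g ∈ C, p ∈ frobPrimes L g} := by
    ext p
    constructor
    · rintro ⟨g, hg, hp⟩
      exact ⟨g, (Set.Finite.mem_toFinset hfin).mp hg, hp⟩
    · rintro ⟨g, hg, hp⟩
      exact ⟨g, (Set.Finite.mem_toFinset hfin).mpr hg, hp⟩
  have h2 : (hfin.toFinset.card : ℝ) = (Nat.card ↥C : ℝ) := by
    rw [Nat.card_coe_set_eq, Set.ncard_eq_toFinset_card C hfin]
  rw [h1, h2] at h
  exact h

end Fermat.Agent.Lib.Cheb.H993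

end
-- ===== PACK-END Lib/Cheb/H993/QSet.lean

-- ===== PACK-BEGIN Lib/Cheb/H993/QDisj.lean
section



/-!
# CHEB-Q piece Q-DISJ: a rational prime has at most one Frobenius class

`theorem frobDisjoint : SpecQ.FrobDisjointStatement`.
If `P, P'` are primes of `𝓞 L` over `p` with trivial inertia and arithmetic Frobenius `g`, `h`,
then `P' = τ • P` for some `τ ∈ Gal(L/ℚ)`, `τ g τ⁻¹` is a Frobenius at `P'`, hence equals `h`.
-/

set_option autoImplicit false

open NumberField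
open scoped Pointwise

namespace Fermat.Agent.Lib.Cheb.H993

open Fermat.Agent.Lib.Cheb.Spec Fermat.Agent.Lib.Cheb.SpecQ

theorem under_eq_span_of_natCast_mem_h993 {L : Type} [Field L] [NumberField L]
    {p : ℕ} (hp : p.Prime) (P : Ideal (𝓞 L)) [P.IsPrime] (hpP : (p : 𝓞 L) ∈ P) :
    P.under ℤ = Ideal.span {(p : ℤ)} := by
  have hmax : (Ideal.span {(p : ℤ)}).IsMaximal :=
    (Ideal.span_singleton_prime (by exact_mod_cast hp.ne_zero)).mpr
      (Nat.prime_iff_prime_int.mp hp) |>.isMaximal (by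
        simpa using (show (p : ℤ) ≠ 0 by exact_mod_cast hp.ne_zero))
  have hle : Ideal.span {(p : ℤ)} ≤ P.under ℤ := by
    rw [Ideal.span_singleton_le_iff_mem, Ideal.under_def, Ideal.mem_comap]
    simpa using hpP
  have hne : P.under ℤ ≠ ⊤ := by
    have : (P.under ℤ).IsPrime := inferInstance
    exact this.ne_top
  exact (hmax.eq_of_le hne hle).symm

/-- **Q-DISJ** -/
theorem frobDisjoint : FrobDisjointStatement := by
  intro L _ _ _ g h p hg hh
  obtain ⟨hp, P, hP, hpP, -, hgP⟩ := hg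
  obtain ⟨-, P', hP', hpP', hI', hhP'⟩ := hh
  have hGG : IsGaloisGroup (L ≃ₐ[ℚ] L) ℤ (𝓞 L) :=
    IsGaloisGroup.of_isFractionRing (L ≃ₐ[ℚ] L) ℤ (𝓞 L) ℚ L
  haveI : Algebra.IsInvariant ℤ (𝓞 L) (L ≃ₐ[ℚ] L) := hGG.isInvariant
  haveI : SMulCommClass (L ≃ₐ[ℚ] L) ℤ (𝓞 L) := hGG.commutes
  have hunder : P.under ℤ = P'.under ℤ := by
    rw [under_eq_span_of_natCast_mem_h993 hp P hpP, under_eq_span_of_natCast_mem_h993 hp P' hpP']
  obtain ⟨τ, hτ⟩ := Algebra.IsInvariant.exists_smul_of_under_eq ℤ (𝓞 L) (L ≃ₐ[ℚ] L) P P' hunder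
  have hconj : IsArithFrobAt ℤ (τ * g * τ⁻¹) P' := by
    rw [hτ]
    exact hgP.conj τ
  have hin := hconj.mul_inv_mem_inertia hhP'
  have h1 : τ * g * τ⁻¹ * h⁻¹ = 1 := by
    apply hI'
    intro x
    exact hin x
  rw [isConj_iff]
  refine ⟨τ, ?_⟩
  exact mul_inv_eq_one.mp h1

end Fermat.Agent.Lib.Cheb.H993

end
-- ===== PACK-END Lib/Cheb/H993/QDisj.lean

-- ===== PACK-BEGIN Lib/Cheb/H116/Bridge.lean
section





/-!
# CHEB, piece F6 / BR2: the bridge from Galois number fields to `Gal(ℚ̄/ℚ)`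

* `bridgeDivision : Spec.BridgeDivisionStatement` (Tier 1),
* `bridge : Spec.BridgeStatement` (Tier 2).

Both follow from `bridge_core`: a prime `P` of a Galois number field `L ⊆ ℚ̄` with trivial inertia
group and arithmetic Frobenius `τ` lies under a valuation subring `A` of `ℚ̄`, every Frobenius
element at `A` restricts to `τ`, and the inertia group at `A` acts trivially on `L`.
-/

set_option autoImplicit false

open NumberField
open scoped Pointwise

namespace Fermat.Agent.Lib.Cheb.H116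

open Fermat.Agent.Lib.Cheb.Spec (Qb GQ)
open Fermat.Agent.S54 (primeBelow mem_primeBelow)

/-- An automorphism of `ℚ̄` which fixes the prime of `ℤ̄` below a valuation subring `A` and
induces the `ℓ`-th power map modulo this prime is a Frobenius element at `A`. -/
theorem isFrobeniusAt_of_primeBelow (A : ValuationSubring Qb) (ℓ : ℕ) (hℓ : ℓ.Prime)
    (hA : A.LiesOverPrime ℓ) (σ : GQ)
    (hσQ' : σ • primeBelow A = primeBelow A)
    (hσF : ∀ x : integralClosure ℤ Qb, σ • x - x ^ ℓ ∈ primeBelow A) :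
    A.IsFrobeniusAt σ ℓ := by
  have : Algebra.IsAlgebraic ℚ Qb := AlgebraicClosure.isAlgebraic ℚ
  have hσQ : ∀ x, σ • x ∈ primeBelow A ↔ x ∈ primeBelow A := by
    intro x
    conv_lhs => rw [← hσQ']
    exact Ideal.smul_mem_pointwise_smul_iff
  have key : ∀ τ : GQ,
      (∀ x, τ • x ∈ primeBelow A ↔ x ∈ primeBelow A) → ∀ x ∈ A, τ x ∈ A := by
    intro τ hτ x hx
    obtain ⟨b, s, hb, hs, hsA, hxs⟩ :=
      (Fermat.Agent.S54.mem_valuationSubring_iff A ℓ hℓ hA x).mp hx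
    refine (Fermat.Agent.S54.mem_valuationSubring_iff A ℓ hℓ hA (τ x)).mpr
      ⟨τ b, τ s, hb.map τ, hs.map τ, ?_, ?_⟩
    · exact (hτ ⟨s, hs⟩).not.mpr hsA
    · rw [← map_mul, hxs]
  have hσA : σ ∈ A.decompositionSubgroup ℚ := by
    rw [MulAction.mem_stabilizer_iff]
    ext x
    rw [ValuationSubring.mem_smul_pointwise_iff_exists]
    constructor
    · rintro ⟨s, hs, rfl⟩
      exact key σ hσQ s hs
    · intro hx
      refine ⟨σ⁻¹ • x, key σ⁻¹ ?_ x hx, by simp⟩
      intro y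
      rw [← hσQ (σ⁻¹ • y)]
      simp
  refine ⟨hσA, ?_⟩
  intro x
  obtain ⟨a, rfl⟩ := IsLocalRing.residue_surjective x
  obtain ⟨b, s, hb, hs, hsA, hxs⟩ :=
    (Fermat.Agent.S54.mem_valuationSubring_iff A ℓ hℓ hA a).mp a.2
  have hbA : b ∈ A := Fermat.Agent.S54.isIntegral_mem_valuationSubring A hb
  have hsA' : s ∈ A := Fermat.Agent.S54.isIntegral_mem_valuationSubring A hs
  have hint : ∀ (y : Qb) (hy : IsIntegral ℤ y),
      (⟨σ, hσA⟩ : A.decompositionSubgroup ℚ) •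
        IsLocalRing.residue A ⟨y, Fermat.Agent.S54.isIntegral_mem_valuationSubring A hy⟩ =
      (IsLocalRing.residue A ⟨y, Fermat.Agent.S54.isIntegral_mem_valuationSubring A hy⟩) ^ ℓ := by
    intro y hy
    rw [← IsLocalRing.ResidueField.residue_smul, ← map_pow, ← sub_eq_zero, ← map_sub,
      IsLocalRing.residue_eq_zero_iff, ← ValuationSubring.coe_mem_nonunits_iff]
    exact hσF ⟨y, hy⟩
  have h1 : IsLocalRing.residue A a * IsLocalRing.residue A ⟨s, hsA'⟩ =
      IsLocalRing.residue A ⟨b, hbA⟩ := by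
    rw [← map_mul]
    congr 1
    exact Subtype.ext hxs
  have h2 : IsLocalRing.residue A ⟨s, hsA'⟩ ≠ 0 := by
    rw [Ne, IsLocalRing.residue_eq_zero_iff, ← ValuationSubring.coe_mem_nonunits_iff]
    exact hsA
  have h3 := congrArg (fun z => (⟨σ, hσA⟩ : A.decompositionSubgroup ℚ) • z) h1
  simp only [smul_mul'] at h3
  rw [hint s hs, hint b hb, ← h1, mul_pow] at h3
  exact mul_right_cancel₀ (pow_ne_zero _ h2) h3

/-- Every valuation subring of `ℚ̄` over a prime number `ℓ` has a Frobenius element, which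
moreover is congruent to the `ℓ`-th power map on all algebraic integers. -/
theorem exists_isFrobeniusAt (A : ValuationSubring Qb) (ℓ : ℕ) (hℓ : ℓ.Prime)
    (hA : A.LiesOverPrime ℓ) :
    ∃ φ : GQ, A.IsFrobeniusAt φ ℓ ∧ ∀ x : Qb, IsIntegral ℤ x → φ x - x ^ ℓ ∈ A.nonunits := by
  have := Fermat.Agent.S54.primeBelow_isPrime A
  have hℓQ : (ℓ : integralClosure ℤ Qb) ∈ primeBelow A := by
    rw [mem_primeBelow]
    exact hA
  obtain ⟨σ, hσQ', hσF⟩ := Fermat.Agent.S54.exists_frob_integralClosure ℓ hℓ (primeBelow A) hℓQ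
  refine ⟨σ, isFrobeniusAt_of_primeBelow A ℓ hℓ hA σ hσQ' hσF, fun x hx => ?_⟩
  exact hσF ⟨x, hx⟩

/-- The algebraic integers of a subfield of `ℚ̄` are algebraic integers of `ℚ̄`. -/
theorem isIntegral_coe_ringOfIntegers (L : IntermediateField ℚ Qb) (x : 𝓞 L) :
    IsIntegral ℤ ((x : L) : Qb) :=
  (NumberField.RingOfIntegers.isIntegral_coe x).map (IsScalarTower.toAlgHom ℤ L Qb)

/-- Every maximal ideal of the ring of integers of a subfield of `ℚ̄` is the contraction of the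
maximal ideal of a valuation subring of `ℚ̄`. -/
theorem exists_valuationSubring_over (L : IntermediateField ℚ Qb)
    (P : Ideal (𝓞 L)) (hP : P.IsMaximal) :
    ∃ A : ValuationSubring Qb, ∀ x : 𝓞 L, x ∈ P ↔ ((x : L) : Qb) ∈ A.nonunits := by
  let f : 𝓞 L →+* Qb := (algebraMap L Qb).comp (algebraMap (𝓞 L) L)
  have hf : Function.Injective f :=
    (algebraMap L Qb).injective.comp NumberField.RingOfIntegers.coe_injective
  have hfx : ∀ x : 𝓞 L, f x = ((x : L) : Qb) := fun x => rfl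
  let g : 𝓞 L →+* f.range := f.rangeRestrict
  have hI : P.map g ≠ ⊤ := by
    intro h
    have h1 : (1 : f.range) ∈ P.map g := by rw [h]; trivial
    obtain ⟨x, hx, hx1⟩ := (Ideal.mem_map_iff_of_surjective g f.rangeRestrict_surjective).mp h1
    have h2 : f x = f 1 := by
      have := congrArg Subtype.val hx1
      simpa [g] using this
    rw [hf h2] at hx
    exact hP.ne_top ((Ideal.eq_top_iff_one P).mpr hx)
  obtain ⟨B, -, hB⟩ := Ideal.image_subset_nonunits_valuationSubring _ hI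
  refine ⟨B, fun x => ⟨fun hx => ?_, fun hx => ?_⟩⟩
  · exact hB ⟨g x, Ideal.mem_map_of_mem g hx, rfl⟩
  · by_contra hxP
    obtain ⟨y, i, hi, hyx⟩ := hP.exists_inv hxP
    have h1 : f y * f x + f i = 1 := by rw [← map_mul, ← map_add, hyx, map_one]
    have h2 : f y * f x ∈ B.nonunits := by
      have hyB : f y ∈ B :=
        Fermat.Agent.S54.isIntegral_mem_valuationSubring B (isIntegral_coe_ringOfIntegers L y)
      have := ValuationSubring.mem_nonunits_iff_exists_mem_maximalIdeal.mp hx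
      obtain ⟨hx1, hx2⟩ := this
      have := Ideal.mul_mem_left _ (⟨f y, hyB⟩ : B) hx2
      exact ValuationSubring.mem_nonunits_iff_exists_mem_maximalIdeal.mpr ⟨_, this⟩
    have h3 : f i ∈ B.nonunits := hB ⟨g i, Ideal.mem_map_of_mem g hi, rfl⟩
    have h4 : (1 : Qb) ∈ B.nonunits := by
      rw [← h1]
      exact B.nonunits.add_mem h2 h3
    rw [ValuationSubring.mem_nonunits_iff] at h4
    simp at h4

/-- Elements of the inertia group at `A` are congruent to the identity on `A`. -/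
theorem inertia_sub_mem_nonunits (A : ValuationSubring Qb) (ι : GQ)
    (hι : ι ∈ A.inertiaSubgroupIn ℚ) (x : Qb) (hx : x ∈ A) : ι x - x ∈ A.nonunits := by
  obtain ⟨ι', hι', rfl⟩ := Subgroup.mem_map.mp hι
  have h1 : MulSemiringAction.toRingAut (A.decompositionSubgroup ℚ)
      (IsLocalRing.ResidueField A) ι' = 1 := MonoidHom.mem_ker.mp hι'
  have h2 : ι' • IsLocalRing.residue A ⟨x, hx⟩ = IsLocalRing.residue A ⟨x, hx⟩ := by
    have := congrArg (fun e : RingAut (IsLocalRing.ResidueField A) =>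
      e (IsLocalRing.residue A ⟨x, hx⟩)) h1
    simpa using this
  rw [← IsLocalRing.ResidueField.residue_smul, ← sub_eq_zero, ← map_sub,
    IsLocalRing.residue_eq_zero_iff, ← ValuationSubring.coe_mem_nonunits_iff] at h2
  exact h2

theorem coe_smul_ringOfIntegers (L : IntermediateField ℚ Qb) (ι : L ≃ₐ[ℚ] L) (x : 𝓞 L) :
    ((ι • x : 𝓞 L) : L) = ι (x : L) := rfl

theorem coe_restrictNormalHom (L : IntermediateField ℚ Qb) [Normal ℚ L] (ι : GQ) (x : L) :
    ((AlgEquiv.restrictNormalHom L ι x : L) : Qb) = ι (x : Qb) :=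
  AlgEquiv.restrictNormal_commutes ι L x

theorem coe_restrict_smul (L : IntermediateField ℚ Qb) [Normal ℚ L] (ι : GQ) (x : 𝓞 L) :
    (((AlgEquiv.restrictNormalHom L ι • x : 𝓞 L) : L) : Qb) = ι ((x : L) : Qb) := by
  rw [coe_smul_ringOfIntegers]
  exact coe_restrictNormalHom L ι (x : L)

theorem card_quotient_under (L : IntermediateField ℚ Qb)
    (p : ℕ) (hp : p.Prime) (P : Ideal (𝓞 L)) (hP : P.IsPrime) (hpP : (p : 𝓞 L) ∈ P) :
    Nat.card (ℤ ⧸ P.under ℤ) = p := by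
  have : Fact p.Prime := ⟨hp⟩
  have h1 : Ideal.span {(p : ℤ)} ≤ P.under ℤ := by
    rw [Ideal.span_singleton_le_iff_mem, Ideal.mem_comap]
    simpa using hpP
  have h2 : Ideal.span {(p : ℤ)} = P.under ℤ :=
    (Int.ideal_span_isMaximal_of_prime p).eq_of_le (Ideal.IsPrime.under ℤ P).ne_top h1
  rw [← h2]
  exact Int.card_ideal_quot p

theorem bridge_core (L : IntermediateField ℚ Qb) [NumberField L] [IsGalois ℚ L]
    (p : ℕ) (hp : p.Prime) (P : Ideal (𝓞 L)) (hP : P.IsPrime) (hpP : (p : 𝓞 L) ∈ P)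
    (hI : Spec.InertiaTrivial L P) (τ : L ≃ₐ[ℚ] L) (hτ : IsArithFrobAt ℤ τ P) :
    ∃ (A : ValuationSubring Qb) (φ : GQ), A.LiesOverPrime p ∧ A.IsFrobeniusAt φ p ∧
      (∀ ι ∈ A.inertiaSubgroupIn ℚ, AlgEquiv.restrictNormalHom L ι = 1) ∧
      AlgEquiv.restrictNormalHom L φ = τ := by
  have hP0 : P ≠ ⊥ := by
    intro h
    rw [h, Ideal.mem_bot] at hpP
    exact hp.ne_zero (by exact_mod_cast hpP)
  have hPmax : P.IsMaximal := hP.isMaximal hP0
  obtain ⟨A, hA⟩ := exists_valuationSubring_over L P hPmax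
  have hAp : A.LiesOverPrime p := by
    have h1 := (hA (p : 𝓞 L)).mp hpP
    have h2 : (p : Qb) ∈ A.nonunits := by simpa using h1
    exact h2
  obtain ⟨φ, hφ, hφF⟩ := exists_isFrobeniusAt A p hp hAp
  have hN : Nat.card (ℤ ⧸ P.under ℤ) = p := card_quotient_under L p hp P hP hpP
  have key : ∀ ι : GQ, (∀ x : 𝓞 L, ι ((x : L) : Qb) - ((x : L) : Qb) ∈ A.nonunits) →
      AlgEquiv.restrictNormalHom L ι = 1 := by
    intro ι h
    apply hI
    intro x
    rw [hA]
    have := h x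
    rw [← coe_restrict_smul] at this
    simpa using this
  have hτF : ∀ x : 𝓞 L, ((τ (x : L) : L) : Qb) - ((x : L) : Qb) ^ p ∈ A.nonunits := by
    intro x
    have h1 : τ • x - x ^ p ∈ P := by
      have := hτ x
      rwa [hN] at this
    rw [hA] at h1
    have e : (((τ • x - x ^ p : 𝓞 L) : L) : Qb) = ((τ (x : L) : L) : Qb) - ((x : L) : Qb) ^ p := by
      simp [coe_smul_ringOfIntegers]
    rwa [e] at h1
  have hφτ : ∀ x : 𝓞 L, φ ((x : L) : Qb) - ((τ (x : L) : L) : Qb) ∈ A.nonunits := by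
    intro x
    have h1 := hφF _ (isIntegral_coe_ringOfIntegers L x)
    have h2 := hτF x
    have := A.nonunits.sub_mem h1 h2
    simpa using this
  refine ⟨A, φ, hAp, hφ, ?_, ?_⟩
  · intro ι hι
    exact key ι (fun y => inertia_sub_mem_nonunits A ι hι _
      (Fermat.Agent.S54.isIntegral_mem_valuationSubring A (isIntegral_coe_ringOfIntegers L y)))
  · have h1 : AlgEquiv.restrictNormalHom L φ * τ⁻¹ = 1 := by
      apply hI
      intro x
      rw [hA]
      have h2 := hφτ (τ⁻¹ • x)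
      rw [← coe_restrict_smul] at h2
      have e : (((((AlgEquiv.restrictNormalHom L φ * τ⁻¹) • x - x : 𝓞 L)) : L) : Qb) =
          (((AlgEquiv.restrictNormalHom L φ • (τ⁻¹ • x) : 𝓞 L) : L) : Qb) -
            ((τ ((τ⁻¹ • x : 𝓞 L) : L) : L) : Qb) := by
        simp [mul_smul, coe_smul_ringOfIntegers]
      rwa [e]
    rw [mul_inv_eq_one] at h1
    exact h1


/-- Application of a restriction which is trivial. -/
theorem apply_eq_of_restrict_eq_one (L : IntermediateField ℚ Qb) [Normal ℚ L] (ι : GQ)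
    (h : AlgEquiv.restrictNormalHom L ι = 1) (x : Qb) (hx : x ∈ L) : ι x = x := by
  have h2 := coe_restrictNormalHom L ι ⟨x, hx⟩
  rw [h] at h2
  simpa using h2.symm

theorem apply_eq_of_restrict_eq (L : IntermediateField ℚ Qb) [Normal ℚ L] (ι κ : GQ)
    (h : AlgEquiv.restrictNormalHom L ι = AlgEquiv.restrictNormalHom L κ) (x : Qb) (hx : x ∈ L) :
    ι x = κ x := by
  rw [← coe_restrictNormalHom L ι ⟨x, hx⟩, ← coe_restrictNormalHom L κ ⟨x, hx⟩, h]

/-- The Galois closure in `ℚ̄` of a finite extension of `ℚ`, as a Galois number field. -/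
theorem exists_galois_numberField (E : IntermediateField ℚ Qb) (hE : FiniteDimensional ℚ E) :
    ∃ (L : IntermediateField ℚ Qb) (_ : NumberField L) (_ : IsGalois ℚ L), E ≤ L := by
  have : Algebra.IsAlgebraic ℚ Qb := AlgebraicClosure.isAlgebraic ℚ
  have : IsAlgClosure ℚ Qb := ⟨inferInstance, inferInstance⟩
  have : Normal ℚ Qb := IsAlgClosure.normal ℚ Qb
  refine ⟨IntermediateField.normalClosure ℚ E Qb, ?_, ?_, IntermediateField.le_normalClosure E⟩
  · have h : FiniteDimensional ℚ (IntermediateField.normalClosure ℚ E Qb) :=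
      normalClosure.is_finiteDimensional ℚ E Qb
    exact { to_charZero := inferInstance, to_finiteDimensional := h }
  · have h : Normal ℚ (IntermediateField.normalClosure ℚ E Qb) :=
      normalClosure.normal ℚ E Qb
    have h' : Algebra.IsSeparable ℚ (IntermediateField.normalClosure ℚ E Qb) :=
      inferInstance
    exact isGalois_iff.mpr ⟨h', h⟩

/-- **F6 / W5**: the bridge for the Frobenius density theorem. -/
theorem bridgeDivision : Spec.BridgeDivisionStatement := by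
  intro hM E hE σ S
  obtain ⟨L, hL1, hL2, hEL⟩ := exists_galois_numberField E hE
  obtain ⟨p, P, τ, hp, hpS, hP, hpP, hI, hτ, hz⟩ := hM L (AlgEquiv.restrictNormalHom L σ) S
  obtain ⟨A, φ, hA, hφ, hin, hφτ⟩ := bridge_core L p hp P hP hpP hI τ hτ
  have hfin : Finite (L ≃ₐ[ℚ] L) := inferInstance
  obtain ⟨k, hk⟩ : ∃ k : ℕ, (AlgEquiv.restrictNormalHom L σ) ^ k = τ := by
    have h1 : τ ∈ Subgroup.zpowers (AlgEquiv.restrictNormalHom L σ) := by
      rw [← hz]; exact Subgroup.mem_zpowers τ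
    exact (Submonoid.mem_powers_iff _ _).mp (mem_powers_iff_mem_zpowers.mpr h1)
  obtain ⟨j, hj⟩ : ∃ j : ℕ, τ ^ j = AlgEquiv.restrictNormalHom L σ := by
    have h1 : AlgEquiv.restrictNormalHom L σ ∈ Subgroup.zpowers τ := by
      rw [hz]; exact Subgroup.mem_zpowers _
    exact (Submonoid.mem_powers_iff _ _).mp (mem_powers_iff_mem_zpowers.mpr h1)
  refine ⟨p, A, φ, k, j, hp, hpS, hA, hφ, ?_, ?_, ?_⟩
  · intro ι hι x hx
    exact apply_eq_of_restrict_eq_one L ι (hin ι hι) x (hEL hx)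
  · intro x hx
    refine apply_eq_of_restrict_eq L φ (σ ^ k) ?_ x (hEL hx)
    rw [hφτ, map_pow, hk]
  · intro x hx
    refine apply_eq_of_restrict_eq L (φ ^ j) σ ?_ x (hEL hx)
    rw [map_pow, hφτ, hj]

/-- **BR2**: the bridge for the exact qualitative Chebotarev theorem. -/
theorem bridge : Spec.BridgeStatement := by
  intro hM E hE σ S
  obtain ⟨L, hL1, hL2, hEL⟩ := exists_galois_numberField E hE
  obtain ⟨p, P, hp, hpS, hP, hpP, hI, hτ⟩ := hM L (AlgEquiv.restrictNormalHom L σ) S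
  obtain ⟨A, φ, hA, hφ, hin, hφτ⟩ :=
    bridge_core L p hp P hP hpP hI (AlgEquiv.restrictNormalHom L σ) hτ
  refine ⟨p, A, φ, hp, hpS, hA, hφ, ?_, ?_⟩
  · intro ι hι x hx
    exact apply_eq_of_restrict_eq_one L ι (hin ι hι) x (hEL hx)
  · intro x hx
    exact apply_eq_of_restrict_eq L φ σ hφτ x (hEL hx)

end Fermat.Agent.Lib.Cheb.H116

end
-- ===== PACK-END Lib/Cheb/H116/Bridge.lean

-- ===== PACK-BEGIN Lib/Cheb/H116/QBridge.lean
section





/-!
# CHEB-Q, piece Q-BR: the bridge for the Chebotarev density theorem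

`bridgeDensitySet : SpecQ.BridgeDensitySetStatement`, i.e.
`SpecQ.ChebDensitySetStatement → SpecQ.ChebDensityStatement`: from subsets of the Galois group of
a Galois number field to homomorphisms on `Gal(ℚ̄/ℚ)` which factor through a finite extension.
-/

set_option autoImplicit false

open NumberField
open scoped Pointwise

namespace Fermat.Agent.Lib.Cheb.H116

open Fermat.Agent.Lib.Cheb.Spec (Qb GQ)
open Fermat.Agent.Lib.Cheb

/-- The preimage of a set under a group homomorphism is in bijection with the product of the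
part of the set inside the range and the kernel. -/
theorem card_preimage_eq {Γ G : Type*} [Group Γ] [Group G] (f : Γ →* G) (C : Set G) :
    Nat.card ↥(f ⁻¹' C) = Nat.card ↥(C ∩ Set.range f) * Nat.card f.ker := by
  classical
  rw [← Nat.card_prod]
  have hs : ∀ y : ↥(C ∩ Set.range f), ∃ g : Γ, f g = y := fun y => y.2.2
  choose s hs using hs
  refine Nat.card_congr
    { toFun := fun g => (⟨f g, g.2, ⟨g, rfl⟩⟩, ⟨(s ⟨f g, g.2, ⟨g, rfl⟩⟩)⁻¹ * g, ?_⟩)
      invFun := fun yk => ⟨s yk.1 * yk.2, ?_⟩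
      left_inv := ?_
      right_inv := ?_ }
  · rw [MonoidHom.mem_ker, map_mul, map_inv, hs]
    exact inv_mul_cancel _
  · rw [Set.mem_preimage, map_mul, hs, MonoidHom.mem_ker.mp yk.2.2, mul_one]
    exact yk.1.2.1
  · intro g
    apply Subtype.ext
    simp
  · rintro ⟨y, k⟩
    have hy : f (s y * k) = y := by rw [map_mul, hs, MonoidHom.mem_ker.mp k.2, mul_one]
    have hy' : (⟨f (s y * (k : Γ)), by rw [hy]; exact y.2⟩ : ↥(C ∩ Set.range f)) = y :=
      Subtype.ext hy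
    apply Prod.ext
    · exact hy'
    · apply Subtype.ext
      simp only
      rw [hy']
      simp

/-- Density of a preimage: `|f⁻¹ C| / |Γ| = |C ∩ im f| / |im f|` for a finite group `Γ`. -/
theorem card_preimage_div {Γ G : Type*} [Group Γ] [Finite Γ] [Group G] (f : Γ →* G)
    (C : Set G) :
    (Nat.card ↥(f ⁻¹' C) : ℝ) / (Nat.card Γ : ℝ) =
      (Nat.card ↥(C ∩ Set.range f) : ℝ) / (Nat.card ↥(Set.range f) : ℝ) := by
  have h1 := card_preimage_eq f C
  have h2 := card_preimage_eq f Set.univ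
  have h3 : Nat.card ↥(f ⁻¹' Set.univ) = Nat.card Γ := by
    rw [Set.preimage_univ]
    exact Nat.card_congr (Equiv.Set.univ Γ)
  have h4 : Nat.card ↥(Set.univ ∩ Set.range f) = Nat.card ↥(Set.range f) := by
    rw [Set.univ_inter]
  rw [h3, h4] at h2
  have hk : (Nat.card f.ker : ℝ) ≠ 0 := by
    have : Nat.card f.ker ≠ 0 := Nat.card_pos.ne'
    exact_mod_cast this
  rw [h1, h2]
  push_cast
  rw [mul_div_mul_right _ _ hk]

/-- **Q-BR**: the bridge for the Chebotarev density theorem. -/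
theorem bridgeDensitySet : SpecQ.BridgeDensitySetStatement := by
  intro hSet G _ ρ E hE hρ C S
  obtain ⟨L, hL1, hL2, hEL⟩ := exists_galois_numberField E hE
  have : Algebra.IsAlgebraic ℚ Qb := AlgebraicClosure.isAlgebraic ℚ
  have : IsAlgClosure ℚ Qb := ⟨inferInstance, inferInstance⟩
  have : Normal ℚ Qb := IsAlgClosure.normal ℚ Qb
  have hres : Function.Surjective (AlgEquiv.restrictNormalHom (F := ℚ) (K₁ := Qb) L) :=
    AlgEquiv.restrictNormalHom_surjective Qb
  have hker : ∀ σ : GQ, AlgEquiv.restrictNormalHom L σ = 1 → ρ σ = 1 := fun σ h =>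
    hρ σ (fun x hx => apply_eq_of_restrict_eq_one L σ h x (hEL hx))
  -- the induced homomorphism on `Gal(L/ℚ)`
  let f : (L ≃ₐ[ℚ] L) →* G :=
    MonoidHom.liftOfRightInverse (AlgEquiv.restrictNormalHom L) (Function.surjInv hres)
      (Function.rightInverse_surjInv hres)
      ⟨ρ, fun σ hσ => MonoidHom.mem_ker.mpr (hker σ (MonoidHom.mem_ker.mp hσ))⟩
  have hf : ∀ σ : GQ, f (AlgEquiv.restrictNormalHom L σ) = ρ σ := fun σ =>
    MonoidHom.liftOfRightInverse_comp_apply _ _ _ _ σ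
  have hrange : Set.range f = Set.range ρ := by
    ext y
    constructor
    · rintro ⟨g, rfl⟩
      obtain ⟨σ, rfl⟩ := hres g
      exact ⟨σ, (hf σ).symm⟩
    · rintro ⟨σ, rfl⟩
      exact ⟨_, hf σ⟩
  have hdens := hSet L (f ⁻¹' C)
  rw [card_preimage_div f C, hrange] at hdens
  refine (hdens.diff_finset S).mono ?_
  rintro p ⟨⟨g, hgC, hp, P, hP, hpP, hI, hF⟩, hpS⟩
  obtain ⟨A, φ, hA, hφ, hin, hφg⟩ := bridge_core L p hp P hP hpP hI g hF
  refine ⟨hp, hpS, A, φ, hA, hφ, fun ι hι => hker ι (hin ι hι), ?_⟩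
  rw [← hf φ, hφg]
  exact hgC

end Fermat.Agent.Lib.Cheb.H116

end
-- ===== PACK-END Lib/Cheb/H116/QBridge.lean

-- ===== PACK-BEGIN Lib/Cheb/H221/QAbs.lean
section




/-!
# CHEB-Q, piece Q-ABS: the quantitative abstract Dirichlet lemma (helper221)
-/

set_option autoImplicit false

open Filter Topology

namespace Fermat.Agent.Lib.Cheb.H221

set_option linter.unusedSectionVars false

/-- `log (1 / (s - 1))` is antitone on `(1, ∞)`. -/
lemma log_one_div_sub_le {u s : ℝ} (hu : 1 < u) (hus : u ≤ s) :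
    Real.log (1 / (s - 1)) ≤ Real.log (1 / (u - 1)) := by
  apply Real.log_le_log (by apply div_pos one_pos; linarith)
  apply one_div_le_one_div_of_le (by linarith) (by linarith)

theorem abstractDirichletQ : SpecQ.AbstractDirichletQStatement := by
  intro m _ c hc hsum A hsupp htot hone hχ a ha
  classical
  obtain ⟨B, hB⟩ := hsupp
  obtain ⟨C0, hC0⟩ := htot
  obtain ⟨C1, hC1⟩ := hone
  have hF : ∀ᶠ s in 𝓝[>] (1 : ℝ), 1 < s ∧ s ≤ 2 := by
    have : Set.Ioc (1 : ℝ) 2 ∈ 𝓝[>] (1 : ℝ) := Ioc_mem_nhdsGT (by norm_num)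
    filter_upwards [this] with s hs using hs
  have hsw : ∀ s : ℝ, 1 < s → s ≤ 2 → Summable (wt c s) := hsum
  set Tr := Finset.univ.filter (fun χ : DirichletCharacter ℂ m => TrivOn A χ) with hTrdef
  set Nt := Finset.univ.filter (fun χ : DirichletCharacter ℂ m => ¬ TrivOn A χ) with hNtdef
  have hk := card_trivOn_mul A
  have hkR : (Tr.card : ℝ) * (Nat.card A : ℝ) = (m.totient : ℝ) := by exact_mod_cast hk
  have hApos : (0 : ℝ) < Nat.card A := by exact_mod_cast Nat.card_pos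
  have hφpos : (0 : ℝ) < m.totient := by exact_mod_cast Nat.totient_pos.mpr (NeZero.pos m)
  have hk0 : (0 : ℝ) ≤ Tr.card := Nat.cast_nonneg _
  have hkpos : (0 : ℝ) < Tr.card := by
    rcases hk0.eq_or_lt with h | h
    · rw [← h, zero_mul] at hkR
      linarith
    · exact h
  have hdata : ∀ χ : DirichletCharacter ℂ m, ¬ TrivOn A χ →
      ∃ (Λ : ℝ → ℂ) (ℓ : ℂ) (C : ℝ), ContinuousOn Λ (Set.Ioi 1) ∧
        Tendsto (fun s => Complex.exp (Λ s)) (𝓝[>] (1 : ℝ)) (𝓝 ℓ) ∧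
        ∀ s : ℝ, 1 < s → s ≤ 2 → ‖Λ s - Tsum c χ s‖ ≤ C := by
    intro χ hχn
    apply hχ χ
    unfold TrivOn at hχn
    push Not at hχn
    exact hχn
  choose! Λ ℓ C hΛc hΛt hΛb using hdata
  have hNt : ∀ χ ∈ Nt, ¬ TrivOn A χ := fun χ h => (Finset.mem_filter.mp h).2
  set CB := ∑ p ∈ primesIn B, 2 * c p with hCBdef
  have hTr : ∀ χ ∈ Tr, ∀ s : ℝ, 1 < s → s ≤ 2 →
      ‖Tsum c χ s - ((∑' p, wt c s p : ℝ) : ℂ)‖ ≤ CB := fun χ hχ s h1 h2 =>
    norm_Tsum_sub_le c hc A hB (Finset.mem_filter.mp hχ).2 (by linarith) (hsw s h1 h2)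
  have hsplit : ∀ f : DirichletCharacter ℂ m → ℂ,
      ∑ χ, f χ = ∑ χ ∈ Tr, f χ + ∑ χ ∈ Nt, f χ := fun f =>
    (Finset.sum_filter_add_sum_filter_not _ _ _).symm
  have hlgnn : ∀ s : ℝ, 1 < s → s ≤ 2 → 0 ≤ Real.log (1 / (s - 1)) := by
    intro s h1 h2
    apply Real.log_nonneg
    rw [le_div_iff₀ (by linarith)]
    linarith
  have hTrre : ∀ χ ∈ Tr, ∀ s : ℝ, 1 < s → s ≤ 2 →
      |(Tsum c χ s).re - ∑' p, wt c s p| ≤ CB := by
    intro χ hχ s h1 h2
    have h3 := (Complex.abs_re_le_norm _).trans (hTr χ hχ s h1 h2)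
    simpa using h3
  -- Step 1: lower bound for the nontrivial characters
  have hlow : ∀ s : ℝ, 1 < s → s ≤ 2 →
      -((m.totient : ℝ) * C1 + Tr.card * (C0 + CB)) ≤ ∑ χ ∈ Nt, (Tsum c χ s).re := by
    intro s h1 h2
    have hS := sum_Tsum (m := m) c hc (hsw s h1 h2)
    rw [hsplit] at hS
    have hre := congrArg Complex.re hS
    simp only [Complex.add_re, Complex.re_sum, Complex.mul_re, Complex.natCast_re,
      Complex.natCast_im, Complex.ofReal_re, Complex.ofReal_im, zero_mul, sub_zero] at hre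
    have hD1 : (Nat.card A : ℝ)⁻¹ * Real.log (1 / (s - 1)) - C1 ≤ Dsum c (1 : ZMod m) s :=
      hC1 s h1 h2
    have hW : |(∑' p, wt c s p) - Real.log (1 / (s - 1))| ≤ C0 := hC0 s h1 h2
    rw [abs_le] at hW
    have hsumTr : ∑ χ ∈ Tr, (Tsum c χ s).re ≤ Tr.card * ((∑' p, wt c s p) + CB) := by
      calc ∑ χ ∈ Tr, (Tsum c χ s).re ≤ ∑ χ ∈ Tr, ((∑' p, wt c s p) + CB) :=
            Finset.sum_le_sum fun χ hχ => by
              have := hTrre χ hχ s h1 h2
              rw [abs_le] at this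
              linarith [this.2]
        _ = _ := by rw [Finset.sum_const, nsmul_eq_mul]
    have hlg := hlgnn s h1 h2
    have e1 : (m.totient : ℝ) * ((Nat.card A : ℝ)⁻¹ * Real.log (1 / (s - 1))) =
        Tr.card * Real.log (1 / (s - 1)) := by
      rw [← hkR]
      field_simp
    have e2 : (m.totient : ℝ) * ((Nat.card A : ℝ)⁻¹ * Real.log (1 / (s - 1)) - C1) ≤
        (m.totient : ℝ) * Dsum c (1 : ZMod m) s :=
      mul_le_mul_of_nonneg_left hD1 hφpos.le
    have e3 : (Tr.card : ℝ) * ((∑' p, wt c s p) + CB) ≤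
        Tr.card * (Real.log (1 / (s - 1)) + C0 + CB) :=
      mul_le_mul_of_nonneg_left (by linarith [hW.2]) hk0
    linarith
  -- Step 2: nonvanishing of the limits
  set K2 := (m.totient : ℝ) * C1 + Tr.card * (C0 + CB) + ∑ χ ∈ Nt, C χ with hK2
  have hexp : ∀ s : ℝ, 1 < s → s ≤ 2 →
      Real.exp (-K2) ≤ ∏ χ ∈ Nt, ‖Complex.exp (Λ χ s)‖ := by
    intro s h1 h2
    simp only [Complex.norm_exp]
    rw [← Real.exp_sum]
    apply Real.exp_le_exp.mpr
    have h3 : ∑ χ ∈ Nt, ((Tsum c χ s).re - C χ) ≤ ∑ χ ∈ Nt, (Λ χ s).re := by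
      refine Finset.sum_le_sum fun χ hχ => ?_
      have h4 := (Complex.abs_re_le_norm _).trans (hΛb χ (hNt χ hχ) s h1 h2)
      rw [Complex.sub_re, abs_le] at h4
      linarith [h4.1]
    rw [Finset.sum_sub_distrib] at h3
    linarith [hlow s h1 h2]
  have hlim : Tendsto (fun s => ∏ χ ∈ Nt, ‖Complex.exp (Λ χ s)‖) (𝓝[>] (1 : ℝ))
      (𝓝 (∏ χ ∈ Nt, ‖ℓ χ‖)) :=
    tendsto_finsetProd _ fun χ hχ => (hΛt χ (hNt χ hχ)).norm
  have hprod : Real.exp (-K2) ≤ ∏ χ ∈ Nt, ‖ℓ χ‖ :=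
    ge_of_tendsto hlim (hF.mono fun s hs => hexp s hs.1 hs.2)
  have hℓ : ∀ χ ∈ Nt, ℓ χ ≠ 0 := by
    intro χ hχ h0
    have : ∏ χ ∈ Nt, ‖ℓ χ‖ = 0 := Finset.prod_eq_zero hχ (by simp [h0])
    linarith [Real.exp_pos (-K2)]
  -- Step 3: the logarithms are bounded
  have hbd : ∀ χ ∈ Nt, ∃ Bχ : ℝ, ∀ᶠ s in 𝓝[>] (1 : ℝ), ‖Λ χ s‖ ≤ Bχ := fun χ hχ =>
    exists_bound_of_exp_tendsto (hΛc χ (hNt χ hχ)) (hℓ χ hχ) (hΛt χ (hNt χ hχ))
  choose! Bd hBd using hbd
  have hev : ∀ᶠ s in 𝓝[>] (1 : ℝ), ∀ χ ∈ Nt, ‖Λ χ s‖ ≤ Bd χ :=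
    (Filter.eventually_all_finset Nt).mpr hBd
  -- Step 4: the class of `a`
  set a' : ZMod m := ((a : (ZMod m)ˣ) : ZMod m) with ha'
  have hau : IsUnit a' := a.isUnit
  have hainv : a'⁻¹ = (((a⁻¹ : (ZMod m)ˣ) : (ZMod m)ˣ) : ZMod m) := by
    rw [ha', ZMod.inv_coe_unit]
  set K4 := Tr.card * (C0 + CB) + ∑ χ ∈ Nt, (Bd χ + C χ) with hK4
  have hfinal : ∀ᶠ s in 𝓝[>] (1 : ℝ),
      (Tr.card : ℝ) * Real.log (1 / (s - 1)) - K4 ≤ (m.totient : ℝ) * Dsum c a' s := by
    filter_upwards [hF, hev] with s hs hsev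
    obtain ⟨h1, h2⟩ := hs
    have hS := sum_inv_Tsum (m := m) c hc (hsw s h1 h2) hau
    rw [hsplit] at hS
    have hre := congrArg Complex.re hS
    simp only [Complex.add_re, Complex.re_sum] at hre
    rw [Complex.mul_re] at hre
    simp only [Complex.natCast_re, Complex.natCast_im, Complex.ofReal_re, Complex.ofReal_im,
      zero_mul, sub_zero] at hre
    have hW : |(∑' p, wt c s p) - Real.log (1 / (s - 1))| ≤ C0 := hC0 s h1 h2
    rw [abs_le] at hW
    -- trivial characters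
    have hT1 : (Tr.card : ℝ) * (Real.log (1 / (s - 1)) - C0 - CB) ≤
        ∑ χ ∈ Tr, (χ a'⁻¹ * Tsum c χ s).re := by
      calc (Tr.card : ℝ) * (Real.log (1 / (s - 1)) - C0 - CB)
          = ∑ χ ∈ Tr, (Real.log (1 / (s - 1)) - C0 - CB) := by
            rw [Finset.sum_const, nsmul_eq_mul]
        _ ≤ _ := Finset.sum_le_sum fun χ hχ => by
            have hχ1 : χ a'⁻¹ = 1 := by
              rw [hainv]
              exact (Finset.mem_filter.mp hχ).2 _ (Subgroup.inv_mem A ha)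
            rw [hχ1, one_mul]
            have := hTrre χ hχ s h1 h2
            rw [abs_le] at this
            linarith [this.1, hW.1]
    -- nontrivial characters
    have hT2 : -∑ χ ∈ Nt, (Bd χ + C χ) ≤ ∑ χ ∈ Nt, (χ a'⁻¹ * Tsum c χ s).re := by
      rw [← Finset.sum_neg_distrib]
      refine Finset.sum_le_sum fun χ hχ => ?_
      have h3 : ‖χ a'⁻¹ * Tsum c χ s‖ ≤ Bd χ + C χ := by
        rw [norm_mul]
        have h4 : ‖Tsum c χ s‖ ≤ Bd χ + C χ := by
          have h5 := hΛb χ (hNt χ hχ) s h1 h2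
          have h6 := hsev χ hχ
          calc ‖Tsum c χ s‖ = ‖Λ χ s - (Λ χ s - Tsum c χ s)‖ := by rw [sub_sub_cancel]
            _ ≤ ‖Λ χ s‖ + ‖Λ χ s - Tsum c χ s‖ := norm_sub_le _ _
            _ ≤ _ := by linarith
        calc ‖χ a'⁻¹‖ * ‖Tsum c χ s‖ ≤ 1 * ‖Tsum c χ s‖ :=
              mul_le_mul_of_nonneg_right (DirichletCharacter.norm_le_one χ _) (norm_nonneg _)
          _ ≤ _ := by rw [one_mul]; exact h4
      have h7 := (Complex.abs_re_le_norm _).trans h3
      rw [abs_le] at h7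
      linarith [h7.1]
    have e4 : (Tr.card : ℝ) * (Real.log (1 / (s - 1)) - C0 - CB) =
        Tr.card * Real.log (1 / (s - 1)) - Tr.card * (C0 + CB) := by ring
    linarith
  -- Step 5: from "eventually" to all of `(1, 2]`
  obtain ⟨u, hu1, hu⟩ := mem_nhdsGT_iff_exists_Ioo_subset.mp hfinal
  have hu1' : (1 : ℝ) < u := hu1
  have hDnn : ∀ s : ℝ, 0 ≤ Dsum c a' s := by
    intro s
    unfold Dsum
    refine tsum_nonneg fun p => ?_
    split_ifs
    · exact wt_nonneg c hc s p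
    · exact le_rfl
  have hcoef : (Tr.card : ℝ) / (m.totient : ℝ) = (Nat.card A : ℝ)⁻¹ := by
    rw [← hkR]
    field_simp
  refine ⟨max (K4 / (m.totient : ℝ)) ((Nat.card A : ℝ)⁻¹ * Real.log (1 / (u - 1))),
    fun s h1 h2 => ?_⟩
  change _ ≤ Dsum c a' s
  rcases lt_or_ge s u with hsu | hsu
  · have h3 := hu ⟨h1, hsu⟩
    simp only [Set.mem_ofPred_eq] at h3
    have h4 : ((Tr.card : ℝ) * Real.log (1 / (s - 1)) - K4) / (m.totient : ℝ) ≤ Dsum c a' s := by
      rw [div_le_iff₀ hφpos]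
      linarith
    have h5 : ((Tr.card : ℝ) * Real.log (1 / (s - 1)) - K4) / (m.totient : ℝ) =
        (Nat.card A : ℝ)⁻¹ * Real.log (1 / (s - 1)) - K4 / (m.totient : ℝ) := by
      rw [← hcoef]
      ring
    rw [h5] at h4
    have := le_max_left (K4 / (m.totient : ℝ)) ((Nat.card A : ℝ)⁻¹ * Real.log (1 / (u - 1)))
    linarith
  · have h3 := log_one_div_sub_le hu1' hsu
    have h4 : (Nat.card A : ℝ)⁻¹ * Real.log (1 / (s - 1)) ≤
        (Nat.card A : ℝ)⁻¹ * Real.log (1 / (u - 1)) :=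
      mul_le_mul_of_nonneg_left h3 (inv_nonneg.mpr hApos.le)
    have := le_max_right (K4 / (m.totient : ℝ)) ((Nat.card A : ℝ)⁻¹ * Real.log (1 / (u - 1)))
    linarith [hDnn s]

end Fermat.Agent.Lib.Cheb.H221

end
-- ===== PACK-END Lib/Cheb/H221/QAbs.lean

-- ===== PACK-BEGIN S48/H128/EisChar.lean
section





/-!
# S48 / P1 (helper128): the weight 3 Eisenstein series with character

For a Dirichlet character `χ` mod `N`, `eisChar χ z = ∑_{(c,d) ∈ ℤ²} χ(c) (c z + d)^{-3}`.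

* `eisChar_slash` : `eisChar χ ∣[3] γ = χ(d_γ) • eisChar χ` for `γ ∈ Γ₀(N)`;
* `eisChar_mdiff`, `eisChar_slash_isBoundedAtImInfty`;
* `eisChar_eq_tsum`, `qExpansion_eisChar_coeff` : for odd `χ`,
  `eisChar χ = (-2πi)³ ∑_{n ≥ 1} (∑_{d c = n} χ(d) c²) qⁿ`.
-/

set_option autoImplicit false

open UpperHalfPlane EisensteinSeries ModularForm Filter Topology Complex CongruenceSubgroup
open scoped Matrix MatrixGroups Manifold Real

noncomputable section

namespace Fermat.Agent.S48.H128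

open Fermat.Agent.S29

variable {N : ℕ} (χ : DirichletCharacter ℂ N)

/-- The weight `v ↦ χ(v₀)`. -/
def chiWeight (v : Fin 2 → ℤ) : ℂ := χ ((v 0 : ℤ) : ZMod N)

theorem norm_chiWeight_le (v : Fin 2 → ℤ) : ‖chiWeight χ v‖ ≤ 1 :=
  DirichletCharacter.norm_le_one χ _

/-- The weight 3 Eisenstein series `∑ χ(c) (c z + d)^{-3}`. -/
def eisChar : ℍ → ℂ := H332.wEis (chiWeight χ) 3

theorem eisChar_mdiff : MDiff (eisChar χ) :=
  H332.wEis_mdifferentiable (norm_chiWeight_le χ) le_rfl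

theorem eisChar_slash_isBoundedAtImInfty (g : SL(2, ℤ)) :
    IsBoundedAtImInfty (eisChar χ ∣[(3 : ℤ)] g) :=
  H332.wEis_slash_isBoundedAtImInfty (norm_chiWeight_le χ) le_rfl g

theorem chiWeight_vecMul_inv (γ : SL(2, ℤ)) (hγ : γ ∈ Gamma0 N) (v : Fin 2 → ℤ) :
    chiWeight χ (v ᵥ* (γ⁻¹).1) = χ ((γ 1 1 : ℤ) : ZMod N) * chiWeight χ v := by
  have h10 : ((γ 1 0 : ℤ) : ZMod N) = 0 := Gamma0_mem.mp hγ
  have hinv : (γ⁻¹).1 = !![γ 1 1, -γ 0 1; -γ 1 0, γ 0 0] := by
    rw [Matrix.SpecialLinearGroup.coe_inv, Matrix.adjugate_fin_two]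
  have h0 : (v ᵥ* (γ⁻¹).1) 0 = v 0 * γ 1 1 + v 1 * (-γ 1 0) := by
    rw [hinv]
    simp [Matrix.vecMul, dotProduct, Fin.sum_univ_two]
  unfold chiWeight
  rw [h0, ← map_mul]
  congr 1
  push_cast
  rw [h10]
  ring

theorem eisChar_slash (γ : SL(2, ℤ)) (hγ : γ ∈ Gamma0 N) :
    eisChar χ ∣[(3 : ℤ)] γ = χ ((γ 1 1 : ℤ) : ZMod N) • eisChar χ := by
  unfold eisChar
  rw [H332.wEis_slash]
  ext z
  simp only [H332.wEis, Pi.smul_apply, smul_eq_mul]
  rw [← tsum_mul_left]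
  refine tsum_congr fun v => ?_
  rw [chiWeight_vecMul_inv χ γ hγ, mul_assoc]

/-! ## The `q`-expansion -/

/-- The character as a weight on `ℕ`. -/
def chiNat (d : ℕ) : ℂ := χ ((d : ℕ) : ZMod N)

theorem norm_chiNat_le (d : ℕ) : ‖chiNat χ d‖ ≤ 1 := DirichletCharacter.norm_le_one χ _

/-- The twisted divisor sum `∑_{d c = n} χ(d) c²`. -/
def sigmaChi (n : ℕ) : ℂ := sigmaW (chiNat χ) 2 n

theorem sigmaChi_zero : sigmaChi χ 0 = 0 := sigmaW_zero _ _

theorem sigmaChi_one : sigmaChi χ 1 = 1 := by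
  rw [sigmaChi, sigmaW_one, chiNat]
  simp

theorem summable_chi_prod (z : ℍ) :
    Summable fun x : ℤ × ℤ ↦ chiWeight χ ![x.1, x.2] * eisSummand 3 ![x.1, x.2] z := by
  have h := H332.summable_wEis (norm_chiWeight_le χ) (k := 3) le_rfl z
  refine (finTwoArrowEquiv ℤ).summable_iff.mp (h.congr fun v => ?_)
  simp [show ![v 0, v 1] = v from List.ofFn_inj.mp rfl]

theorem chi_zero_of_odd (hodd : χ (-1) = -1) : χ (0 : ZMod N) = 0 := by
  apply χ.map_nonunit
  intro h0
  have hN : N = 1 := by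
    by_contra hN
    rcases Nat.eq_zero_or_pos N with rfl | hpos
    · simp at h0
    · have : Fact (1 < N) := ⟨by omega⟩
      exact not_isUnit_zero h0
  subst hN
  have h1 : (-1 : ZMod 1) = 1 := Subsingleton.elim _ _
  rw [h1, map_one] at hodd
  norm_num at hodd

theorem eisChar_eq_tsum (hodd : χ (-1) = -1) (z : ℍ) :
    eisChar χ z = (-2 * π * Complex.I) ^ 3 *
      ∑' n : ℕ+, sigmaChi χ n * cexp (2 * π * Complex.I * z) ^ (n : ℕ) := by
  have hsum := summable_chi_prod χ z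
  unfold eisChar H332.wEis
  rw [← (finTwoArrowEquiv ℤ).symm.tsum_eq]
  simp only [finTwoArrowEquiv_symm_apply]
  rw [hsum.tsum_prod, tsum_int_eq_zero_add_two_mul_tsum_pnat (fun n ↦ ?h₁)
      (by simpa using hsum.prod)]
  case h₁ =>
    nth_rewrite 1 [← tsum_comp_neg]
    refine tsum_congr fun y => ?_
    have hc : chiWeight χ ![-n, -y] = - chiWeight χ ![n, y] := by
      simp only [chiWeight, Matrix.cons_val_zero]
      rw [Int.cast_neg, ← neg_one_mul, map_mul, hodd, neg_one_mul]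
    have he : eisSummand 3 ![-n, -y] z = - eisSummand 3 ![n, y] z := by
      simp only [eisSummand, Matrix.cons_val_zero, Matrix.cons_val_one, Int.cast_neg]
      rw [show (-(n : ℂ) * (z : ℂ) + -(y : ℂ)) = -((n : ℂ) * z + y) by ring]
      rw [Odd.neg_zpow (by decide : Odd (-3 : ℤ))]
    rw [hc, he, neg_mul_neg]
  have h0 : ∑' d : ℤ, chiWeight χ ![0, d] * eisSummand 3 ![0, d] z = 0 := by
    have : ∀ d : ℤ, chiWeight χ ![0, d] * eisSummand 3 ![0, d] z = 0 := fun d => by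
      simp [chiWeight, chi_zero_of_odd χ hodd]
    simp [this]
  rw [h0, zero_add]
  have H (b : ℕ+) := qExpansion_identity_pnat (k := 2) (by norm_num)
    ⟨b * z, by simpa using z.2⟩
  have hterm : ∀ b : ℕ+, ∑' d : ℤ, chiWeight χ ![(b : ℤ), d] * eisSummand 3 ![(b : ℤ), d] z =
      ((-2 * π * Complex.I) ^ 3 / 2) * ∑' c : ℕ+, chiNat χ b * (c : ℂ) ^ 2 *
        cexp (2 * π * Complex.I * z) ^ (b * c : ℕ) := by
    intro b
    have hb := H b
    simp only at hb
    have h1 : ∀ d : ℤ, chiWeight χ ![(b : ℤ), d] * eisSummand 3 ![(b : ℤ), d] z =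
        chiNat χ b * (1 / ((b : ℂ) * z + d) ^ (2 + 1)) := by
      intro d
      simp only [chiWeight, chiNat, eisSummand, Matrix.cons_val_zero, Matrix.cons_val_one]
      congr 1
      · simp
      · rw [show (-(3 : ℤ)) = -((3 : ℕ) : ℤ) by norm_num, zpow_neg, zpow_natCast]
        simp
    simp_rw [h1]
    rw [tsum_mul_left, hb, Nat.factorial_two]
    rw [← tsum_mul_left, ← tsum_mul_left, ← tsum_mul_left]
    refine tsum_congr fun c => ?_
    rw [← Complex.exp_nat_mul, ← Complex.exp_nat_mul]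
    push_cast
    ring_nf
  simp_rw [hterm]
  simp only [sigmaChi]
  rw [tsum_mul_left, ← tsum_prod_weight_eq (chiNat χ) (norm_chiNat_le χ) 2
    (norm_exp_two_pi_I_lt_one z), nsmul_eq_mul]
  push_cast
  ring

theorem norm_sigmaChi_le (n : ℕ) : ‖sigmaChi χ n‖ ≤ (n : ℝ) ^ 3 := by
  unfold sigmaChi sigmaW
  refine (norm_sum_le _ _).trans ?_
  have h1 : ∀ x ∈ n.divisorsAntidiagonal, ‖chiNat χ x.1 * (x.2 : ℂ) ^ 2‖ ≤ (n : ℝ) ^ 2 := by
    intro x hx
    rw [norm_mul, norm_pow, Complex.norm_natCast]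
    have hx' := Nat.mem_divisorsAntidiagonal.mp hx
    have hle : x.2 ≤ n := Nat.le_of_dvd (Nat.pos_of_ne_zero hx'.2) ⟨x.1, by rw [← hx'.1, mul_comm]⟩
    have hle' : (x.2 : ℝ) ≤ n := by exact_mod_cast hle
    calc ‖chiNat χ x.1‖ * (x.2 : ℝ) ^ 2 ≤ 1 * (n : ℝ) ^ 2 := by
          gcongr
          exact norm_chiNat_le χ _
      _ = (n : ℝ) ^ 2 := one_mul _
  refine (Finset.sum_le_card_nsmul _ _ _ h1).trans ?_
  rw [nsmul_eq_mul]
  have hcard : (n.divisorsAntidiagonal.card : ℝ) ≤ n := by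
    rw [← Nat.map_div_right_divisors, Finset.card_map]
    exact_mod_cast Nat.card_divisors_le_self n
  calc (n.divisorsAntidiagonal.card : ℝ) * (n : ℝ) ^ 2 ≤ n * (n : ℝ) ^ 2 := by gcongr
    _ = (n : ℝ) ^ 3 := by ring

theorem summable_sigmaChi_mul_pow (z : ℍ) :
    Summable fun n : ℕ ↦ sigmaChi χ n * cexp (2 * π * Complex.I * z) ^ n := by
  apply Summable.of_norm_bounded
    (summable_norm_pow_mul_geometric_of_norm_lt_one 3 (norm_exp_two_pi_I_lt_one z))
  intro n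
  simp only [norm_mul, norm_pow, Complex.norm_natCast]
  gcongr
  exact norm_sigmaChi_le χ n

local notation "𝕢" => Function.Periodic.qParam

theorem hasSum_eisChar (hodd : χ (-1) = -1) (z : ℍ) :
    HasSum (fun n : ℕ => ((-2 * π * Complex.I) ^ 3 * sigmaChi χ n) • 𝕢 1 z ^ n) (eisChar χ z) := by
  have hS := summable_sigmaChi_mul_pow χ z
  have h1 : ∑' n : ℕ+, sigmaChi χ n * cexp (2 * π * Complex.I * z) ^ (n : ℕ) =
      ∑' n : ℕ, sigmaChi χ n * cexp (2 * π * Complex.I * z) ^ n := by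
    rw [← tsum_zero_pnat_eq_tsum_nat hS]
    simp [sigmaChi_zero]
  rw [eisChar_eq_tsum χ hodd z, h1]
  have h2 := (hS.mul_left ((-2 * π * Complex.I) ^ 3)).hasSum
  rw [tsum_mul_left] at h2
  convert! h2 using 1
  funext n
  simp only [smul_eq_mul, Function.Periodic.qParam, Complex.ofReal_one, div_one]
  ring

/-- The `q`-expansion of `eisChar χ`, `χ` odd. -/
theorem qExpansion_eisChar_coeff (hodd : χ (-1) = -1) (n : ℕ) :
    (qExpansion 1 (eisChar χ)).coeff n = (-2 * π * Complex.I) ^ 3 * sigmaChi χ n :=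
  Fermat.Agent.S22T.qExpansion_coeff_of_hasSum one_pos (hasSum_eisChar χ hodd) (eisChar_mdiff χ) n

theorem analyticAt_cuspFunction_eisChar (hodd : χ (-1) = -1) :
    AnalyticAt ℂ (cuspFunction 1 (eisChar χ)) 0 :=
  Fermat.Agent.S22T.mem_analyticSubring_of_hasSum one_pos (hasSum_eisChar χ hodd)
    (eisChar_mdiff χ)

end Fermat.Agent.S48.H128

end
end
-- ===== PACK-END S48/H128/EisChar.lean

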