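import Fermat.Prelude.Def_EllipticCurve_FrobeniusTrace
import Mathlib
import Fermat.Prelude.Def_ModularCurve_ReductionModL
import Mathlib.NumberTheory.SumPrimeReciprocals
import Mathlib.Analysis.SpecialFunctions.Log.Basic
import Mathlib.Analysis.SpecialFunctions.Pow.Real
import Fermat.Prelude.Thm_UpperHalfPlane_qCoeff_heckeT
import Fermat.Prelude.Thm_UpperHalfPlane_qCoeff_heckeU
import Fermat.Prelude.Thm_UpperHalfPlane_eq_of_forall_qCoeff_eq
import Fermat.Prelude.Thm_ModularForm_periodic_heckeT_comp_ofComplex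
import Fermat.Prelude.Thm_ModularForm_periodic_heckeU_comp_ofComplex
import Fermat.Prelude.Thm_ModularForm_isBoundedAtImInfty_heckeT
import Fermat.Prelude.Thm_ModularForm_isBoundedAtImInfty_heckeU
import Fermat.Prelude.Thm_ModularForm_eq_zero_of_lt_order_qExpansion_of_isArithmetic
import Fermat.Prelude.Thm_UpperHalfPlane_qExpansion_coeff_nat_mul
import Fermat.Agent.Pack.S44C.G0E6L2
import Fermat.Agent.Pack.L1B.E0L0
import Fermat.Agent.Pack.S44C.G0E0L1
import Fermat.Agent.Pack.S44C.G0E11L0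
import Fermat.Agent.Pack.S44C.G0E2L0
import Fermat.Agent.Pack.L1.E2L1
import Fermat.Agent.Pack.L1B.E0L3
import Fermat.Agent.Pack.L1B.E0L2
import Fermat.Agent.Pack.S44C.G0E0L3
import Fermat.Agent.Pack.L1B.E0L1
import Fermat.Agent.Pack.L1.E10L0

-- ===== PACK-BEGIN Lib/Cheb/Bridge956A.lean
section



/-!
# Chebotarev bridge, part A: Frobenius elements at a given valuation subring

For a valuation subring `A` of `ℚ̄` over a prime number `ℓ` there is a Frobenius element at `A`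
(in the Prelude's sense `ValuationSubring.IsFrobeniusAt`) which moreover satisfies the Frobenius
congruence on the ring of all algebraic integers modulo the prime below `A`.
-/

set_option autoImplicit false

namespace Fermat.Agent.Lib.Cheb

open scoped Pointwise
open Fermat.Agent.S54

/-- An automorphism stabilising the prime below `A` (elementwise) maps `A` into itself. -/
theorem map_mem_of_primeBelow_stable956 (ℓ : ℕ) (hℓ : ℓ.Prime)
    (A : ValuationSubring (AlgebraicClosure ℚ)) (hA : A.LiesOverPrime ℓ)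
    (τ : AlgebraicClosure ℚ ≃ₐ[ℚ] AlgebraicClosure ℚ)
    (hτ : ∀ x, τ • x ∈ primeBelow A ↔ x ∈ primeBelow A) :
    ∀ x ∈ A, τ x ∈ A := by
  have : Algebra.IsAlgebraic ℚ (AlgebraicClosure ℚ) := AlgebraicClosure.isAlgebraic ℚ
  intro x hx
  obtain ⟨b, s, hb, hs, hsA, hxs⟩ := (mem_valuationSubring_iff A ℓ hℓ hA x).mp hx
  refine (mem_valuationSubring_iff A ℓ hℓ hA (τ x)).mpr
    ⟨τ b, τ s, hb.map τ, hs.map τ, ?_, ?_⟩
  · exact (hτ ⟨s, hs⟩).not.mpr hsA
  · rw [← map_mul, hxs]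

/-- An automorphism stabilising the prime below `A` (elementwise) lies in the decomposition
group of `A`. -/
theorem mem_decompositionSubgroup_of_primeBelow_stable956 (ℓ : ℕ) (hℓ : ℓ.Prime)
    (A : ValuationSubring (AlgebraicClosure ℚ)) (hA : A.LiesOverPrime ℓ)
    (σ : AlgebraicClosure ℚ ≃ₐ[ℚ] AlgebraicClosure ℚ)
    (hσQ : ∀ x, σ • x ∈ primeBelow A ↔ x ∈ primeBelow A) :
    σ ∈ A.decompositionSubgroup ℚ := by
  rw [MulAction.mem_stabilizer_iff]
  ext x
  rw [ValuationSubring.mem_smul_pointwise_iff_exists]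
  constructor
  · rintro ⟨s, hs, rfl⟩
    exact map_mem_of_primeBelow_stable956 ℓ hℓ A hA σ hσQ s hs
  · intro hx
    refine ⟨σ⁻¹ • x, map_mem_of_primeBelow_stable956 ℓ hℓ A hA σ⁻¹ ?_ x hx, by simp⟩
    intro y
    rw [← hσQ (σ⁻¹ • y)]
    simp

/-- If `σ` stabilises the prime `Q` below `A` and satisfies the Frobenius congruence
`σ x ≡ x ^ ℓ mod Q` on all algebraic integers, then `σ` is a Frobenius element at `A`. -/
theorem isFrobeniusAt_of_primeBelow956 (ℓ : ℕ) (hℓ : ℓ.Prime)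
    (A : ValuationSubring (AlgebraicClosure ℚ)) (hA : A.LiesOverPrime ℓ)
    (σ : AlgebraicClosure ℚ ≃ₐ[ℚ] AlgebraicClosure ℚ)
    (hσQ : ∀ x, σ • x ∈ primeBelow A ↔ x ∈ primeBelow A)
    (hσF : ∀ x : integralClosure ℤ (AlgebraicClosure ℚ), σ • x - x ^ ℓ ∈ primeBelow A) :
    A.IsFrobeniusAt σ ℓ := by
  have : Algebra.IsAlgebraic ℚ (AlgebraicClosure ℚ) := AlgebraicClosure.isAlgebraic ℚ
  have hσA : σ ∈ A.decompositionSubgroup ℚ :=
    mem_decompositionSubgroup_of_primeBelow_stable956 ℓ hℓ A hA σ hσQ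
  refine ⟨hσA, ?_⟩
  intro x
  obtain ⟨a, rfl⟩ := IsLocalRing.residue_surjective x
  obtain ⟨b, s, hb, hs, hsA, hxs⟩ := (mem_valuationSubring_iff A ℓ hℓ hA a).mp a.2
  have hbA : b ∈ A := isIntegral_mem_valuationSubring A hb
  have hsA' : s ∈ A := isIntegral_mem_valuationSubring A hs
  have hint : ∀ (y : AlgebraicClosure ℚ) (hy : IsIntegral ℤ y),
      (⟨σ, hσA⟩ : A.decompositionSubgroup ℚ) •
        IsLocalRing.residue A ⟨y, isIntegral_mem_valuationSubring A hy⟩ =
      (IsLocalRing.residue A ⟨y, isIntegral_mem_valuationSubring A hy⟩) ^ ℓ := by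
    intro y hy
    rw [← IsLocalRing.ResidueField.residue_smul, ← map_pow, ← sub_eq_zero, ← map_sub,
      IsLocalRing.residue_eq_zero_iff, ← ValuationSubring.coe_mem_nonunits_iff]
    exact hσF ⟨y, hy⟩
  have h1 : IsLocalRing.residue A a * IsLocalRing.residue A ⟨s, hsA'⟩ =
      IsLocalRing.residue A ⟨b, hbA⟩ := by
    rw [← map_mul]
    congr 1
    exact Subtype.ext hxs
  have h2 : IsLocalRing.residue A ⟨s, hsA'⟩ ≠ 0 := by
    rw [Ne, IsLocalRing.residue_eq_zero_iff, ← ValuationSubring.coe_mem_nonunits_iff]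
    exact hsA
  have h3 := congrArg (fun z => (⟨σ, hσA⟩ : A.decompositionSubgroup ℚ) • z) h1
  simp only [smul_mul'] at h3
  rw [hint s hs, hint b hb, ← h1, mul_pow] at h3
  exact mul_right_cancel₀ (pow_ne_zero _ h2) h3

/-- For every valuation subring `A` of `ℚ̄` over the prime number `ℓ` there is a Frobenius
element at `A` satisfying the Frobenius congruence on all algebraic integers. -/
theorem exists_frobeniusAt956 (ℓ : ℕ) (hℓ : ℓ.Prime)
    (A : ValuationSubring (AlgebraicClosure ℚ)) (hA : A.LiesOverPrime ℓ) :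
    ∃ φ : AlgebraicClosure ℚ ≃ₐ[ℚ] AlgebraicClosure ℚ,
      A.IsFrobeniusAt φ ℓ ∧
      ∀ x : AlgebraicClosure ℚ, IsIntegral ℤ x → φ x - x ^ ℓ ∈ A.nonunits := by
  have := primeBelow_isPrime A
  have hℓQ : (ℓ : integralClosure ℤ (AlgebraicClosure ℚ)) ∈ primeBelow A := by
    rw [mem_primeBelow]
    exact hA
  obtain ⟨σ, hσQ', hσF⟩ := exists_frob_integralClosure ℓ hℓ (primeBelow A) hℓQ
  have hσQ : ∀ x, σ • x ∈ primeBelow A ↔ x ∈ primeBelow A := by
    intro x
    conv_lhs => rw [← hσQ']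
    exact Ideal.smul_mem_pointwise_smul_iff
  refine ⟨σ, isFrobeniusAt_of_primeBelow956 ℓ hℓ A hA σ hσQ hσF, ?_⟩
  intro x hx
  exact hσF ⟨x, hx⟩

end Fermat.Agent.Lib.Cheb

end
-- ===== PACK-END Lib/Cheb/Bridge956A.lean

-- ===== PACK-BEGIN Lib/Cheb/Bridge956C.lean
section



/-!
# Chebotarev bridge, part C: lifting Frobenius elements from a number field to `ℚ̄`

Let `K ⊆ ℚ̄` be a finite normal extension of `ℚ`.  For a prime `P` of `𝓞 K` over the prime
number `p` we construct a valuation subring `A` of `ℚ̄` over `P`, and show that the restriction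
to `K` of a Frobenius element at `A` is a Frobenius element at `P`.  Away from the finitely many
bad primes of `K`, every Frobenius element at `P` therefore lifts to a Frobenius element (in the
Prelude's sense) of the absolute Galois group of `ℚ`.
-/

set_option autoImplicit false

namespace Fermat.Agent.Lib.Cheb

open NumberField
open Fermat.Agent.S54

/-- Products of elements of a valuation subring with nonunits are nonunits. -/
theorem mul_mem_nonunits956 {F : Type*} [Field F] (A : ValuationSubring F) {a b : F}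
    (ha : a ∈ A) (hb : b ∈ A.nonunits) : a * b ∈ A.nonunits := by
  rw [ValuationSubring.mem_nonunits_iff] at hb ⊢
  rw [map_mul]
  have h1 : A.valuation a ≤ 1 := (A.valuation_le_one_iff a).mpr ha
  calc A.valuation a * A.valuation b ≤ 1 * A.valuation b := by gcongr
    _ = A.valuation b := one_mul _
    _ < 1 := hb

/-- A finite-dimensional intermediate field of `ℚ̄/ℚ` is a number field. -/
theorem numberField_intermediateField956 (K : IntermediateField ℚ (AlgebraicClosure ℚ))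
    [FiniteDimensional ℚ K] : NumberField K := ⟨⟩

/-- Algebraic integers of `K ⊆ ℚ̄` are algebraic integers of `ℚ̄`. -/
theorem isIntegral_coe956 (K : IntermediateField ℚ (AlgebraicClosure ℚ)) (x : 𝓞 K) :
    IsIntegral ℤ (((x : K) : AlgebraicClosure ℚ)) := by
  have h : IsIntegral ℤ (x : K) := x.2
  exact h.map (IsScalarTower.toAlgHom ℤ K (AlgebraicClosure ℚ))

/-- Every valuation subring of `ℚ̄` contains the algebraic integers of `K`. -/
theorem coe_mem_valuationSubring956 (K : IntermediateField ℚ (AlgebraicClosure ℚ))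
    (A : ValuationSubring (AlgebraicClosure ℚ)) (x : 𝓞 K) :
    ((x : K) : AlgebraicClosure ℚ) ∈ A :=
  isIntegral_mem_valuationSubring A (isIntegral_coe956 K x)

/-- Above every prime `P` of `𝓞 K` containing the prime number `p` there is a valuation
subring `A` of `ℚ̄` over `p` whose maximal ideal cuts out exactly `P` on `𝓞 K`. -/
theorem exists_valuationSubring_over956 (K : IntermediateField ℚ (AlgebraicClosure ℚ))
    [NumberField K] {p : ℕ} (hp : p.Prime) (P : Ideal (𝓞 K)) (hP : P.IsPrime)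
    (hpP : (p : 𝓞 K) ∈ P) :
    ∃ A : ValuationSubring (AlgebraicClosure ℚ), A.LiesOverPrime p ∧
      ∀ x : 𝓞 K, ((x : K) : AlgebraicClosure ℚ) ∈ A.nonunits ↔ x ∈ P := by
  let ι : 𝓞 K →+* AlgebraicClosure ℚ :=
    (algebraMap K (AlgebraicClosure ℚ)).comp (algebraMap (𝓞 K) K)
  have hι : ∀ x : 𝓞 K, ι x = ((x : K) : AlgebraicClosure ℚ) := fun x => rfl
  have hιinj : Function.Injective ι :=
    (algebraMap K (AlgebraicClosure ℚ)).injective.comp RingOfIntegers.coe_injective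
  let A₀ : Subring (AlgebraicClosure ℚ) := ι.range
  let ι' : 𝓞 K →+* A₀ := ι.rangeRestrict
  have hι'surj : Function.Surjective ι' := ι.rangeRestrict_surjective
  let I : Ideal A₀ := P.map ι'
  have hI : I ≠ ⊤ := by
    intro h
    have h1 : (1 : A₀) ∈ I := by rw [h]; trivial
    obtain ⟨x, hx, hx1⟩ := (Ideal.mem_map_iff_of_surjective ι' hι'surj).mp h1
    have h2 : ι x = 1 := congrArg Subtype.val hx1
    have h3 : x = 1 := hιinj (by rw [h2, map_one])
    exact hP.ne_top ((Ideal.eq_top_iff_one P).mpr (h3 ▸ hx))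
  obtain ⟨A, -, hA⟩ := Ideal.image_subset_nonunits_valuationSubring I hI
  have hPA : ∀ y ∈ P, ((y : K) : AlgebraicClosure ℚ) ∈ A.nonunits := by
    intro y hy
    exact hA ⟨ι' y, Ideal.mem_map_of_mem _ hy, rfl⟩
  have hPne : P ≠ ⊥ := by
    intro h
    rw [h, Ideal.mem_bot] at hpP
    have : (p : 𝓞 K) ≠ 0 := by exact_mod_cast hp.ne_zero
    exact this hpP
  have hPmax : P.IsMaximal := hP.isMaximal hPne
  refine ⟨A, ?_, fun x => ⟨fun hx => ?_, hPA x⟩⟩
  · have := hPA _ hpP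
    show ((p : ℕ) : AlgebraicClosure ℚ) ∈ A.nonunits
    have h2 : (((p : 𝓞 K) : K) : AlgebraicClosure ℚ) = (p : AlgebraicClosure ℚ) := by
      simp
    rw [← h2]
    exact this
  · by_contra hxP
    obtain ⟨y, z, hz, hyz⟩ := hPmax.exists_inv hxP
    have h1 : ι (y * x + z) = 1 := by rw [hyz, map_one]
    rw [map_add, map_mul] at h1
    have h2 : (1 : AlgebraicClosure ℚ) ∈ A.nonunits := by
      rw [← h1]
      exact A.nonunits.add_mem
        (mul_mem_nonunits956 A (coe_mem_valuationSubring956 K A y) hx) (hPA z hz)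
    rw [ValuationSubring.mem_nonunits_iff] at h2
    simp at h2

/-- The restriction to a normal subfield `K` of an automorphism of `ℚ̄` satisfying the
Frobenius congruence at `A` is a Frobenius element at the prime of `𝓞 K` below `A`. -/
theorem isFrobAt956_restrictNormal (K : IntermediateField ℚ (AlgebraicClosure ℚ))
    [NumberField K] [Normal ℚ K] {p : ℕ} (P : Ideal (𝓞 K))
    (A : ValuationSubring (AlgebraicClosure ℚ))
    (hAP : ∀ x : 𝓞 K, ((x : K) : AlgebraicClosure ℚ) ∈ A.nonunits ↔ x ∈ P)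
    (φ : AlgebraicClosure ℚ ≃ₐ[ℚ] AlgebraicClosure ℚ)
    (hφ : ∀ x : AlgebraicClosure ℚ, IsIntegral ℤ x → φ x - x ^ p ∈ A.nonunits) :
    IsFrobAt956 (φ.restrictNormal K) p P := by
  intro x
  rw [← hAP]
  have h1 : (((φ.restrictNormal K • x - x ^ p : 𝓞 K) : K) : AlgebraicClosure ℚ) =
      φ ((x : K) : AlgebraicClosure ℚ) - ((x : K) : AlgebraicClosure ℚ) ^ p := by
    have h2 : (((φ.restrictNormal K • x : 𝓞 K) : K) : AlgebraicClosure ℚ) =
        φ ((x : K) : AlgebraicClosure ℚ) :=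
      AlgEquiv.restrictNormal_commutes φ K (x : K)
    rw [← h2]
    simp
  rw [h1]
  exact hφ _ (isIntegral_coe956 K x)

/-- **Lifting Frobenius elements.**  Let `K ⊆ ℚ̄` be a finite normal extension of `ℚ`, `p` a
prime number outside the finite set `badPrimes956 K`, `P` a prime of `𝓞 K` over `p` and `τ` a
Frobenius element at `P`.  Then there are a valuation subring `A` of `ℚ̄` over `p` and a
Frobenius element `φ` at `A` (in the Prelude's sense) whose restriction to `K` is `τ`. -/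
theorem exists_frobenius_lift956 (K : IntermediateField ℚ (AlgebraicClosure ℚ))
    [NumberField K] [Normal ℚ K] {p : ℕ} (hp : p.Prime) (hpB : p ∉ badPrimes956 K)
    (P : Ideal (𝓞 K)) (hP : P.IsPrime) (hpP : (p : 𝓞 K) ∈ P)
    (τ : K ≃ₐ[ℚ] K) (hτ : IsFrobAt956 τ p P) :
    ∃ (A : ValuationSubring (AlgebraicClosure ℚ))
      (φ : AlgebraicClosure ℚ ≃ₐ[ℚ] AlgebraicClosure ℚ),
      A.LiesOverPrime p ∧ A.IsFrobeniusAt φ p ∧ φ.restrictNormal K = τ ∧
      ∀ x : K, φ (x : AlgebraicClosure ℚ) = ((τ x : K) : AlgebraicClosure ℚ) := by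
  obtain ⟨A, hA, hAP⟩ := exists_valuationSubring_over956 K hp P hP hpP
  obtain ⟨φ, hφA, hφ⟩ := exists_frobeniusAt956 p hp A hA
  have h1 : IsFrobAt956 (φ.restrictNormal K) p P := isFrobAt956_restrictNormal K P A hAP φ hφ
  have h2 : φ.restrictNormal K = τ := h1.unique hp hpB hP hpP hτ
  refine ⟨A, φ, hA, hφA, h2, fun x => ?_⟩
  rw [← h2]
  exact (AlgEquiv.restrictNormal_commutes φ K x).symm

end Fermat.Agent.Lib.Cheb

end
-- ===== PACK-END Lib/Cheb/Bridge956C.lean

-- ===== PACK-BEGIN S18/H516/GaussRing.lean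
section





/-!
# S18 / MOD (helper516): the Gauss valuation ring (G6), generic form

`A` a valuation subring of `L ⊇ ℚ`, `π : A →+* k` a ring hom to a field, `F_L` the function
field of level `N` over `L`.

`gaussSet A π N` := elements `f ∈ F_L` of the form `U₁ / U₂` with `U₁, U₂ ∈ A((q))`, images in
`F_L`, `π(U₂) ≠ 0`.  It is a subring (`gaussRing`); given `CoreData N k` it is a valuation ring
of `F_L` (`gaussSet_total`), with `gaussSet ∩ L = A` when `ker π = 𝔪_A`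
(`C_inv_not_mem_gaussSet`), and it has the normal form `f = c · U₁/U₂`, `c ∈ A`
(`exists_normal_form`).
-/

set_option autoImplicit false
set_option linter.unusedSectionVars false

noncomputable section

namespace Fermat.Agent.S18.H516

open ModularCurve IntermediateField Polynomial Fermat.Agent.S28

section G6

variable {L : Type*} [Field L] [Algebra ℚ L] (A : ValuationSubring L)
variable {k : Type} [Field k] (π : A →+* k) (N : ℕ) [NeZero N]

/-- Gauss-integral series: coefficients in `A`, image in `F_L`. -/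
def IsGI (U : LaurentSeries A) : Prop :=
  coeffMap A.subtype U ∈ laurentBaseChange L (modularFunctionFieldFull N)

variable {A N} in
theorem IsGI.add {U W : LaurentSeries A} (hU : IsGI A N U) (hW : IsGI A N W) :
    IsGI A N (U + W) := by
  unfold IsGI at *; rw [map_add]; exact add_mem hU hW

variable {A N} in
theorem IsGI.mul {U W : LaurentSeries A} (hU : IsGI A N U) (hW : IsGI A N W) :
    IsGI A N (U * W) := by
  unfold IsGI at *; rw [map_mul]; exact mul_mem hU hW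

variable {A N} in
theorem IsGI.neg {U : LaurentSeries A} (hU : IsGI A N U) : IsGI A N (-U) := by
  unfold IsGI at *; rw [map_neg]; exact neg_mem hU

theorem isGI_zero : IsGI A N 0 := by
  unfold IsGI; rw [map_zero]; exact zero_mem _

theorem isGI_one : IsGI A N 1 := by
  unfold IsGI; rw [map_one]; exact one_mem _

theorem isGI_C (a : A) : IsGI A N (HahnSeries.C a) := by
  unfold IsGI; rw [coeffMap_C]; exact C_mem_baseChange N _

variable {A π N} in
theorem IsIntSeries.isGI {U : LaurentSeries A} (hU : IsIntSeries A π N U) : IsGI A N U := hU.1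

/-- The Gauss valuation ring, as a set of Laurent series over `L`. -/
def gaussSet : Set (LaurentSeries L) :=
  {f | f ∈ laurentBaseChange L (modularFunctionFieldFull N) ∧
    ∃ U₁ U₂ : LaurentSeries A, IsGI A N U₁ ∧ IsGI A N U₂ ∧ coeffMap π U₂ ≠ 0 ∧
      f * coeffMap A.subtype U₂ = coeffMap A.subtype U₁}

variable {A π N}

theorem incl_mem_gaussSet {U : LaurentSeries A} (hU : IsGI A N U) :
    coeffMap A.subtype U ∈ gaussSet A π N :=
  ⟨hU, U, 1, hU, isGI_one A N, by rw [map_one]; exact one_ne_zero, by rw [map_one, mul_one]⟩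

theorem zero_mem_gaussSet : (0 : LaurentSeries L) ∈ gaussSet A π N := by
  have := incl_mem_gaussSet (π := π) (isGI_zero A N)
  rwa [map_zero] at this

theorem one_mem_gaussSet : (1 : LaurentSeries L) ∈ gaussSet A π N := by
  have := incl_mem_gaussSet (π := π) (isGI_one A N)
  rwa [map_one] at this

theorem C_mem_gaussSet (a : A) : HahnSeries.C (Γ := ℤ) (a : L) ∈ gaussSet A π N := by
  have := incl_mem_gaussSet (π := π) (isGI_C A N a)
  rwa [coeffMap_C] at this

theorem add_mem_gaussSet {f g : LaurentSeries L} (hf : f ∈ gaussSet A π N)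
    (hg : g ∈ gaussSet A π N) : f + g ∈ gaussSet A π N := by
  obtain ⟨hfF, U₁, U₂, hU₁, hU₂, hU₂k, hfU⟩ := hf
  obtain ⟨hgF, W₁, W₂, hW₁, hW₂, hW₂k, hgW⟩ := hg
  refine ⟨add_mem hfF hgF, U₁ * W₂ + W₁ * U₂, U₂ * W₂, (hU₁.mul hW₂).add (hW₁.mul hU₂),
    hU₂.mul hW₂, by rw [map_mul]; exact mul_ne_zero hU₂k hW₂k, ?_⟩
  rw [map_add, map_mul, map_mul, map_mul, ← hfU, ← hgW]
  ring

theorem neg_mem_gaussSet {f : LaurentSeries L} (hf : f ∈ gaussSet A π N) :
    -f ∈ gaussSet A π N := by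
  obtain ⟨hfF, U₁, U₂, hU₁, hU₂, hU₂k, hfU⟩ := hf
  exact ⟨neg_mem hfF, -U₁, U₂, hU₁.neg, hU₂, hU₂k, by rw [map_neg, ← hfU]; ring⟩

theorem mul_mem_gaussSet {f g : LaurentSeries L} (hf : f ∈ gaussSet A π N)
    (hg : g ∈ gaussSet A π N) : f * g ∈ gaussSet A π N := by
  obtain ⟨hfF, U₁, U₂, hU₁, hU₂, hU₂k, hfU⟩ := hf
  obtain ⟨hgF, W₁, W₂, hW₁, hW₂, hW₂k, hgW⟩ := hg
  refine ⟨mul_mem hfF hgF, U₁ * W₁, U₂ * W₂, hU₁.mul hW₁, hU₂.mul hW₂,
    by rw [map_mul]; exact mul_ne_zero hU₂k hW₂k, ?_⟩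
  rw [map_mul, map_mul, ← hfU, ← hgW]
  ring

variable (A π N) in
/-- The Gauss valuation ring as a subring of `L((q))`. -/
def gaussRing : Subring (LaurentSeries L) where
  carrier := gaussSet A π N
  mul_mem' := mul_mem_gaussSet
  one_mem' := one_mem_gaussSet
  add_mem' := add_mem_gaussSet
  zero_mem' := zero_mem_gaussSet
  neg_mem' := neg_mem_gaussSet

theorem mem_gaussRing {f : LaurentSeries L} : f ∈ gaussRing A π N ↔ f ∈ gaussSet A π N := Iff.rfl

theorem gaussSet_subset {f : LaurentSeries L} (hf : f ∈ gaussSet A π N) :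
    f ∈ laurentBaseChange L (modularFunctionFieldFull N) := hf.1

/-- Quotients of integral series with nonzero reduction are units of the Gauss ring. -/
theorem div_mem_gaussSet {U₁ U₂ : LaurentSeries A} (h₁ : IsGI A N U₁) (h₂ : IsGI A N U₂)
    (h₂k : coeffMap π U₂ ≠ 0) :
    coeffMap A.subtype U₁ * (coeffMap A.subtype U₂)⁻¹ ∈ gaussSet A π N := by
  have h0 : coeffMap A.subtype U₂ ≠ 0 := by
    intro h
    have : U₂ = 0 := incl_injective A (by rw [h, map_zero])
    exact h₂k (by rw [this, map_zero])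
  exact ⟨mul_mem h₁ (inv_mem h₂), U₁, U₂, h₁, h₂, h₂k, by
    rw [mul_assoc, inv_mul_cancel₀ h0, mul_one]⟩

/-- **Normal form.** Given the S28 core data, every nonzero `f ∈ F_L` is `c · U₁/U₂` with
integral `U₁, U₂` of nonzero reduction. -/
theorem exists_normal_form (core : CoreData N k) {f : LaurentSeries L}
    (hf : f ∈ laurentBaseChange L (modularFunctionFieldFull N)) (hf0 : f ≠ 0) :
    ∃ (c : L) (u : LaurentSeries L), c ≠ 0 ∧ f = HahnSeries.C c * u ∧
      u ∈ gaussSet A π N ∧ u⁻¹ ∈ gaussSet A π N := by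
  obtain ⟨c, U₁, U₂, hc, h₁, h₂, heq⟩ := exists_gauss_decomp A π N core hf hf0
  have h20 : coeffMap A.subtype U₂ ≠ 0 := by
    intro h
    have : U₂ = 0 := incl_injective A (by rw [h, map_zero])
    exact h₂.2.2 (by rw [this, map_zero])
  refine ⟨c, coeffMap A.subtype U₁ * (coeffMap A.subtype U₂)⁻¹, hc, ?_,
    div_mem_gaussSet h₁.1 h₂.1 h₂.2.2, ?_⟩
  · rw [← mul_assoc, ← heq, mul_assoc, mul_inv_cancel₀ h20, mul_one]
  · rw [mul_inv, inv_inv, mul_comm]
    exact div_mem_gaussSet h₂.1 h₁.1 h₁.2.2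

/-- **Valuation ring.** -/
theorem gaussSet_total (core : CoreData N k) {f : LaurentSeries L}
    (hf : f ∈ laurentBaseChange L (modularFunctionFieldFull N)) :
    f ∈ gaussSet A π N ∨ f⁻¹ ∈ gaussSet A π N := by
  by_cases hf0 : f = 0
  · left; rw [hf0]; exact zero_mem_gaussSet
  obtain ⟨c, u, hc, rfl, hu, hu'⟩ := exists_normal_form (A := A) (π := π) core hf hf0
  rcases A.mem_or_inv_mem c with hcA | hcA
  · left
    exact mul_mem_gaussSet (C_mem_gaussSet ⟨c, hcA⟩) hu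
  · right
    rw [mul_inv, ← map_inv₀]
    exact mul_mem_gaussSet (C_mem_gaussSet ⟨c⁻¹, hcA⟩) hu'

/-- Reduction of the defining relation: if `f = U₁/U₂ = W₁/W₂` then `Ū₁ W̄₂ = W̄₁ Ū₂`. -/
theorem red_cross {U₁ U₂ W₁ W₂ : LaurentSeries A} {f : LaurentSeries L}
    (hU : f * coeffMap A.subtype U₂ = coeffMap A.subtype U₁)
    (hW : f * coeffMap A.subtype W₂ = coeffMap A.subtype W₁) :
    coeffMap π U₁ * coeffMap π W₂ = coeffMap π W₁ * coeffMap π U₂ := by
  have h : U₁ * W₂ = W₁ * U₂ := by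
    apply incl_injective A
    rw [map_mul, map_mul, ← hU, ← hW]
    ring
  have := congrArg (coeffMap π) h
  rwa [map_mul, map_mul] at this

/-- A constant `a ∈ A` killed by `π` is not a unit of the Gauss ring. -/
theorem C_inv_not_mem_gaussSet {a : L} (haA : a ∈ A) (ha0 : a ≠ 0) (hπ : π ⟨a, haA⟩ = 0) :
    (HahnSeries.C (Γ := ℤ) a)⁻¹ ∉ gaussSet A π N := by
  rintro ⟨-, U₁, U₂, -, -, hU₂k, hU⟩
  have hC : HahnSeries.C (Γ := ℤ) a ≠ 0 := by
    intro h
    exact ha0 (HahnSeries.C_injective (by rw [h, map_zero]))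
  have h : U₂ = HahnSeries.C ⟨a, haA⟩ * U₁ := by
    apply incl_injective A
    rw [map_mul, coeffMap_C, ← hU]
    show _ = HahnSeries.C a * _
    rw [← mul_assoc, mul_inv_cancel₀ hC, one_mul]
  apply hU₂k
  rw [h, map_mul, coeffMap_C, hπ, map_zero, zero_mul]

/-- **`V_gen`, generic form.** If `f ∈ V` and `f⁻¹ ∉ V` then `f = c · u` with `c ∈ A` a
non-unit and `u` a unit of `V`. -/
theorem exists_nonunit_factor (core : CoreData N k) {f : LaurentSeries L}
    (hf : f ∈ gaussSet A π N) (hf' : f⁻¹ ∉ gaussSet A π N) :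
    ∃ (c : L) (u : LaurentSeries L), c ∈ A ∧ c⁻¹ ∉ A ∧ f = HahnSeries.C c * u ∧
      u ∈ gaussSet A π N ∧ u⁻¹ ∈ gaussSet A π N := by
  have hf0 : f ≠ 0 := by
    rintro rfl
    rw [inv_zero] at hf'
    exact hf' zero_mem_gaussSet
  obtain ⟨c, u, hc, rfl, hu, hu'⟩ := exists_normal_form (A := A) (π := π) core hf.1 hf0
  have hcA : c⁻¹ ∉ A := by
    intro h
    apply hf'
    rw [mul_inv, ← map_inv₀]
    exact mul_mem_gaussSet (C_mem_gaussSet ⟨c⁻¹, h⟩) hu'
  exact ⟨c, u, (A.mem_or_inv_mem c).resolve_right hcA, hcA, rfl, hu, hu'⟩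

end G6

section Coordinate

variable {L : Type*} [Field L] [Algebra ℚ L] (A : ValuationSubring L)
variable {k : Type} [Field k] (π : A →+* k) (N : ℕ) [NeZero N]

/-- Order of a series with lowest term `q⁻¹`. -/
theorem order_of_coeff_neg_one {D : Type*} [CommRing D] [Nontrivial D] {X : LaurentSeries D}
    (h1 : X.coeff (-1) = 1) (h2 : ∀ n : ℤ, n < -1 → X.coeff n = 0) : X.order = -1 := by
  have hne : X ≠ 0 := by
    rintro rfl
    simp at h1
  apply le_antisymm
  · exact HahnSeries.order_le_of_coeff_ne_zero (by rw [h1]; exact one_ne_zero)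
  · by_contra hlt
    push Not at hlt
    exact hne (HahnSeries.coeff_order_eq_zero.mp (h2 _ hlt))

variable {A π N} in
/-- **`gauss`, generic form.** `X ∈ A((q))` Gauss-integral whose reduction has nonzero order
(e.g. `X = q⁻¹ + …`), `P ∈ A[T]` with `P̄ ≠ 0`: then `P(X)` is a unit of the Gauss ring. -/
theorem inv_eval_mem_gaussSet {X : LaurentSeries A} (hX : IsGI A N X)
    (hXk : (coeffMap π X).order ≠ 0) (P : A[X]) (hP : P.map π ≠ 0) :
    (coeffMap A.subtype (P.eval₂ (HahnSeries.C (Γ := ℤ)) X))⁻¹ ∈ gaussSet A π N := by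
  have hGI : IsGI A N (P.eval₂ (HahnSeries.C (Γ := ℤ)) X) := by
    rw [Polynomial.eval₂_eq_sum_range]
    unfold IsGI
    rw [map_sum]
    refine sum_mem fun i _ => ?_
    rw [map_mul, map_pow, coeffMap_C]
    exact mul_mem (C_mem_baseChange N _) (pow_mem hX _)
  have hk : coeffMap π (P.eval₂ (HahnSeries.C (Γ := ℤ)) X) ≠ 0 := by
    intro h
    apply hP
    apply Fermat.Agent.S28.H806.eq_zero_of_eval₂_C_eq_zero (coeffMap π X) hXk
    rw [Polynomial.eval₂_map]
    rw [Polynomial.hom_eval₂] at h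
    convert h using 2
    ext a : 1
    exact (coeffMap_C π a).symm
  have := div_mem_gaussSet (π := π) (isGI_one A N) hGI hk
  rwa [map_one, one_mul] at this

end Coordinate

end Fermat.Agent.S18.H516

end
end
-- ===== PACK-END S18/H516/GaussRing.lean

-- ===== PACK-BEGIN S48/H76/GenQX.lean
section




/-!
# S48 / Tower A1, piece GEN-QX (helper76): `q`-expansion of level-`M` Eisenstein series

For a weight `w : ZMod M → ZMod M → ℂ` (periodic modulo `M` in both variables) and `k ≥ 3` the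
weighted Eisenstein series of `S29/H332`

  `G_w(z) = ∑_{(c,d) ∈ ℤ²} w(c,d) (c z + d)^{-k}`

has the expansion in `X = e^{2πiz/M}`

  `G_w(z) = ∑_d w(0,d) d^{-k} + ((-2πi)^k / ((k-1)! M^k)) ∑_{n ≥ 1} A_w(n) X^n`,
  `A_w(n) = ∑_{c m = n} m^{k-1} ∑_{b mod M} (w(c,b) + (-1)^k w(-c,-b)) ζ^{b m}`,  `ζ = e^{2πi/M}`.
-/

set_option autoImplicit false

open UpperHalfPlane EisensteinSeries ModularForm Filter Topology Complex
open scoped Matrix MatrixGroups Manifold Real

noncomputable section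

namespace Fermat.Agent.S48.H76

open Fermat.Agent.S29

local notation "𝕢" => Function.Periodic.qParam

/-- `ζ_M^a = e^{2πi a/M}` for an integer `a`. -/
def zetaPow (M : ℕ) (a : ℤ) : ℂ := cexp (2 * π * Complex.I * a / M)

theorem zetaPow_add (M : ℕ) (a b : ℤ) : zetaPow M (a + b) = zetaPow M a * zetaPow M b := by
  unfold zetaPow
  rw [← Complex.exp_add]
  congr 1
  push_cast
  ring

theorem zetaPow_zero (M : ℕ) : zetaPow M 0 = 1 := by
  simp [zetaPow]

theorem norm_zetaPow (M : ℕ) (a : ℤ) : ‖zetaPow M a‖ = 1 := by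
  unfold zetaPow
  rw [Complex.norm_exp]
  have : (2 * (π : ℂ) * Complex.I * a / M).re = 0 := by
    have h : (2 * (π : ℂ) * Complex.I * a / M) = ((2 * π * a / M : ℝ) : ℂ) * Complex.I := by
      push_cast
      ring
    rw [h]
    simp
  rw [this, Real.exp_zero]

theorem zetaPow_mul_self (M : ℕ) [NeZero M] (a : ℤ) : zetaPow M (a * M) = 1 := by
  unfold zetaPow
  have hM : (M : ℂ) ≠ 0 := Nat.cast_ne_zero.mpr (NeZero.ne M)
  have : 2 * (π : ℂ) * Complex.I * ((a * M : ℤ) : ℂ) / M = a * (2 * π * Complex.I) := by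
    push_cast
    field_simp
  rw [this]
  exact Complex.exp_int_mul_two_pi_mul_I a

theorem zetaPow_add_mul (M : ℕ) [NeZero M] (a t : ℤ) : zetaPow M (a + t * M) = zetaPow M a := by
  rw [zetaPow_add, zetaPow_mul_self, mul_one]

/-- **Lipschitz formula on an arithmetic progression.** -/
theorem lipschitz_shift (M : ℕ) [NeZero M] {k : ℕ} (hk : 1 ≤ k) (z : ℍ) (b : ℤ) :
    ∑' t : ℤ, 1 / ((z : ℂ) + b + t * M) ^ (k + 1) =
      ((-2 * π * Complex.I) ^ (k + 1) / (k.factorial * (M : ℂ) ^ (k + 1))) *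
        ∑' m : ℕ+, (m : ℂ) ^ k * (zetaPow M (b * m) * cexp (2 * π * Complex.I * z / M) ^ (m : ℕ)) := by
  have hM : (M : ℂ) ≠ 0 := Nat.cast_ne_zero.mpr (NeZero.ne M)
  have hMpos : (0 : ℝ) < M := Nat.cast_pos.mpr (Nat.pos_of_ne_zero (NeZero.ne M))
  have him : 0 < (((z : ℂ) + b) / M).im := by
    have h1 : (((z : ℂ) + b) / M) = (((z : ℂ) + b)) * (((M : ℝ)⁻¹ : ℝ) : ℂ) := by
      push_cast
      rw [div_eq_mul_inv]
    rw [h1, Complex.mul_im]
    simp only [Complex.add_im, Complex.intCast_im, add_zero, Complex.ofReal_re,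
      Complex.ofReal_im, mul_zero]
    rw [zero_add]
    exact mul_pos z.2 (inv_pos.mpr hMpos)
  have H := qExpansion_identity_pnat hk ⟨((z : ℂ) + b) / M, him⟩
  simp only at H
  have hL : ∀ t : ℤ, 1 / ((z : ℂ) + b + t * M) ^ (k + 1) =
      (1 / (M : ℂ) ^ (k + 1)) * (1 / (((z : ℂ) + b) / M + t) ^ (k + 1)) := by
    intro t
    have : ((z : ℂ) + b) / M + t = ((z : ℂ) + b + t * M) / M := by
      field_simp
    rw [this, div_pow]
    field_simp
  simp_rw [hL]
  rw [tsum_mul_left, H]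
  have hR : ∀ m : ℕ+, (m : ℂ) ^ k * cexp (2 * π * Complex.I * (((z : ℂ) + b) / M)) ^ (m : ℕ) =
      (m : ℂ) ^ k * (zetaPow M (b * m) * cexp (2 * π * Complex.I * z / M) ^ (m : ℕ)) := by
    intro m
    congr 1
    unfold zetaPow
    rw [← Complex.exp_nat_mul, ← Complex.exp_nat_mul, ← Complex.exp_add]
    congr 1
    push_cast
    field_simp
    ring
  simp_rw [hR]
  field_simp

/-- Summation over `ℤ` by residue classes modulo `M`. -/
theorem tsum_int_eq_sum_residue (M : ℕ) [NeZero M] {F : ℤ → ℂ} (hF : Summable F) :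
    ∑' d : ℤ, F d = ∑ b ∈ Finset.range M, ∑' t : ℤ, F (t * M + b) := by
  have e := (Int.divModEquiv M).symm
  have hS : Summable fun p : ℤ × Fin M => F ((Int.divModEquiv M).symm p) :=
    (Int.divModEquiv M).symm.summable_iff.mpr hF
  rw [← (Int.divModEquiv M).symm.tsum_eq F, hS.tsum_prod]
  simp only [Int.divModEquiv_symm_apply, tsum_fintype]
  rw [Summable.tsum_finsetSum]
  · rw [Fin.sum_univ_eq_sum_range (fun b : ℕ => ∑' t : ℤ, F (t * M + b)) M]
  · intro b _
    have hinj : Function.Injective (fun t : ℤ => ((t, b) : ℤ × Fin M)) :=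
      fun t t' h => (Prod.mk.inj h).1
    have h1 := hS.comp_injective hinj
    simpa [Function.comp_def, Int.divModEquiv_symm_apply] using h1

/-- The finite Fourier transform `ĝ(m) = ∑_{b mod M} g(b) ζ^{b m}`. -/
def hatG (M : ℕ) (g : ZMod M → ℂ) (m : ℤ) : ℂ :=
  ∑ b ∈ Finset.range M, g (b : ZMod M) * zetaPow M ((b : ℤ) * m)

theorem norm_hatG_le (M : ℕ) (g : ZMod M → ℂ) (m : ℤ) :
    ‖hatG M g m‖ ≤ ∑ b ∈ Finset.range M, ‖g (b : ZMod M)‖ := by
  unfold hatG
  refine (norm_sum_le _ _).trans (Finset.sum_le_sum fun b _ => ?_)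
  rw [norm_mul, norm_zetaPow, mul_one]

theorem norm_qM_lt_one (M : ℕ) [NeZero M] (z : ℍ) :
    ‖cexp (2 * π * Complex.I * z / M)‖ < 1 := by
  have hMpos : (0 : ℝ) < M := Nat.cast_pos.mpr (Nat.pos_of_ne_zero (NeZero.ne M))
  rw [Complex.norm_exp]
  have : (2 * (π : ℂ) * Complex.I * z / M).re = -(2 * π * z.im / M) := by
    have h : (2 * (π : ℂ) * Complex.I * z / M) =
        (((2 * π / M : ℝ) : ℂ) * Complex.I) * (z : ℂ) := by
      push_cast
      ring
    rw [h, Complex.mul_re]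
    simp
    ring
  rw [this]
  have hz := z.2
  have h2 : 0 < 2 * π * z.im / M := by positivity
  calc rexp (-(2 * π * z.im / M)) < rexp 0 := Real.exp_lt_exp.mpr (by linarith)
    _ = 1 := Real.exp_zero

/-- The constant `(-2πi)^{k+1} / (k! M^{k+1})`. -/
def lipConst (M k : ℕ) : ℂ :=
  (-2 * π * Complex.I) ^ (k + 1) / (k.factorial * (M : ℂ) ^ (k + 1))

theorem summable_row (M : ℕ) [NeZero M] {k : ℕ} (hk : 1 ≤ k) (g : ZMod M → ℂ) (z : ℂ) :
    Summable fun d : ℤ => g (d : ZMod M) * (1 / (z + d) ^ (k + 1)) := by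
  have h1 : Summable fun d : ℤ => (((1 : ℤ) * z + d) ^ ((k + 1 : ℕ) : ℤ))⁻¹ :=
    linear_right_summable z 1 (by omega)
  have h2 : Summable fun d : ℤ => ‖(((1 : ℤ) * z + d) ^ ((k + 1 : ℕ) : ℤ))⁻¹‖ := h1.norm
  obtain ⟨B, hB⟩ : ∃ B : ℝ, ∀ x : ZMod M, ‖g x‖ ≤ B := by
    exact ⟨∑ x : ZMod M, ‖g x‖, fun x =>
      Finset.single_le_sum (f := fun x => ‖g x‖) (fun _ _ => norm_nonneg _) (Finset.mem_univ x)⟩
  refine Summable.of_norm_bounded (h2.mul_left B) fun d => ?_
  rw [norm_mul]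
  have e : (1 / (z + d) ^ (k + 1)) = (((1 : ℤ) * z + d) ^ ((k + 1 : ℕ) : ℤ))⁻¹ := by
    rw [zpow_natCast]
    simp
  rw [e]
  exact mul_le_mul_of_nonneg_right (hB _) (norm_nonneg _)

theorem summable_qterm {k : ℕ} {r : ℂ} (hr : ‖r‖ < 1) (a : ℕ+ → ℂ) (B : ℝ)
    (ha : ∀ m, ‖a m‖ ≤ B) :
    Summable fun m : ℕ+ => (m : ℂ) ^ k * (a m * r ^ (m : ℕ)) := by
  have h := summable_norm_pow_mul_geometric_of_norm_lt_one k hr
  have h' : Summable fun m : ℕ+ => ‖((m : ℕ) : ℂ) ^ k * r ^ (m : ℕ)‖ :=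
    h.subtype _
  refine Summable.of_norm_bounded (h'.mul_left B) fun m => ?_
  rw [norm_mul, norm_mul, norm_mul]
  calc ‖(m : ℂ) ^ k‖ * (‖a m‖ * ‖r ^ (m : ℕ)‖)
      = ‖a m‖ * (‖(m : ℂ) ^ k‖ * ‖r ^ (m : ℕ)‖) := by ring
    _ ≤ B * (‖(m : ℂ) ^ k‖ * ‖r ^ (m : ℕ)‖) :=
        mul_le_mul_of_nonneg_right (ha m) (by positivity)

/-- **Row sum.** `∑_d g(d) (z+d)^{-(k+1)} = c ∑_m m^k ĝ(m) X^m`, `X = e^{2πiz/M}`. -/
theorem row_sum (M : ℕ) [NeZero M] {k : ℕ} (hk : 1 ≤ k) (g : ZMod M → ℂ) (z : ℍ) :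
    ∑' d : ℤ, g (d : ZMod M) * (1 / ((z : ℂ) + d) ^ (k + 1)) =
      lipConst M k * ∑' m : ℕ+, (m : ℂ) ^ k *
        (hatG M g m * cexp (2 * π * Complex.I * z / M) ^ (m : ℕ)) := by
  rw [tsum_int_eq_sum_residue M (summable_row M hk g z)]
  have hb : ∀ b ∈ Finset.range M,
      ∑' t : ℤ, g (((t * M + b : ℤ)) : ZMod M) * (1 / ((z : ℂ) + ((t * M + b : ℤ))) ^ (k + 1)) =
        ∑' m : ℕ+, lipConst M k * ((m : ℂ) ^ k * (g (b : ZMod M) * zetaPow M ((b : ℤ) * m) *
          cexp (2 * π * Complex.I * z / M) ^ (m : ℕ))) := by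
    intro b _
    have h1 : ∀ t : ℤ, g (((t * M + b : ℤ)) : ZMod M) *
        (1 / ((z : ℂ) + ((t * M + b : ℤ))) ^ (k + 1)) =
        g (b : ZMod M) * (1 / ((z : ℂ) + (b : ℤ) + t * M) ^ (k + 1)) := by
      intro t
      congr 2
      · push_cast
        simp
      · push_cast
        ring
    simp_rw [h1]
    rw [tsum_mul_left, lipschitz_shift M hk z b, tsum_mul_left, ← mul_assoc,
      mul_comm (g (b : ZMod M)), mul_assoc, ← tsum_mul_left]
    congr 1
    refine tsum_congr fun m => ?_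
    ring
  rw [Finset.sum_congr rfl hb]
  rw [← Summable.tsum_finsetSum]
  · rw [← tsum_mul_left]
    refine tsum_congr fun m => ?_
    unfold hatG
    rw [Finset.sum_mul, Finset.mul_sum, Finset.mul_sum]
  · intro b _
    refine Summable.mul_left _ ?_
    refine summable_qterm (norm_qM_lt_one M z) (fun m => g (b : ZMod M) * zetaPow M ((b : ℤ) * m))
      ‖g (b : ZMod M)‖ (fun m => ?_) |>.congr fun m => by ring
    rw [norm_mul, norm_zetaPow, mul_one]

/-! ### Rearrangement of the double series -/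

/-- The divisor sum `∑_{c m = n} m^k a(c,m)`. -/
def sigma2 (a : ℕ → ℕ → ℂ) (k n : ℕ) : ℂ :=
  ∑ x ∈ n.divisorsAntidiagonal, (x.2 : ℂ) ^ k * a x.1 x.2

theorem sigma2_zero (a : ℕ → ℕ → ℂ) (k : ℕ) : sigma2 a k 0 = 0 := by
  simp [sigma2]

theorem summable_prod_weight2 (a : ℕ → ℕ → ℂ) (B : ℝ) (ha : ∀ c m, ‖a c m‖ ≤ B) (k : ℕ)
    {r : ℂ} (hr : ‖r‖ < 1) :
    Summable fun c : (ℕ+ × ℕ+) ↦ (c.2 : ℂ) ^ k * (a c.1 c.2 * r ^ (c.1 * c.2 : ℕ)) := by
  have h := (summable_prod_mul_pow (𝕜 := ℂ) k hr).norm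
  refine Summable.of_norm_bounded (h.mul_left B) fun c => ?_
  rw [norm_mul, norm_mul, norm_mul]
  calc ‖((c.2 : ℕ) : ℂ) ^ k‖ * (‖a c.1 c.2‖ * ‖r ^ (c.1 * c.2 : ℕ)‖)
      = ‖a c.1 c.2‖ * (‖((c.2 : ℕ) : ℂ) ^ k‖ * ‖r ^ (c.1 * c.2 : ℕ)‖) := by ring
    _ ≤ B * (‖((c.2 : ℕ) : ℂ) ^ k‖ * ‖r ^ (c.1 * c.2 : ℕ)‖) :=
        mul_le_mul_of_nonneg_right (ha _ _) (by positivity)

theorem sigma2_term_eq (a : ℕ → ℕ → ℂ) (k : ℕ) (r : ℂ) (n : ℕ+) :
    ∑' x : Nat.divisorsAntidiagonal n,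
      (fun c : ℕ+ × ℕ+ => (c.2 : ℂ) ^ k * (a c.1 c.2 * r ^ (c.1 * c.2 : ℕ)))
        (sigmaAntidiagonalEquivProd ⟨n, x⟩) = sigma2 a k n * r ^ (n : ℕ) := by
  rw [tsum_fintype, sigma2, Finset.sum_mul, Finset.univ_eq_attach]
  rw [← (n : ℕ).divisorsAntidiagonal.sum_attach
    (fun x : ℕ × ℕ => (x.2 : ℂ) ^ k * a x.1 x.2 * r ^ (n : ℕ))]
  refine Finset.sum_congr rfl fun x _ => ?_
  have hx := Nat.mem_divisorsAntidiagonal.mp x.2
  simp only [sigmaAntidiagonalEquivProd, divisorsAntidiagonalFactors, Equiv.coe_fn_mk, PNat.mk_coe]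
  rw [hx.1]
  ring

theorem summable_sigma2_mul_pow (a : ℕ → ℕ → ℂ) (B : ℝ) (ha : ∀ c m, ‖a c m‖ ≤ B) (k : ℕ)
    {r : ℂ} (hr : ‖r‖ < 1) :
    Summable fun n : ℕ+ => sigma2 a k n * r ^ (n : ℕ) := by
  have hs := summable_prod_weight2 a B ha k hr
  have hs' : Summable fun x : (Σ n : ℕ+, Nat.divisorsAntidiagonal n) =>
      (fun c : ℕ+ × ℕ+ => (c.2 : ℂ) ^ k * (a c.1 c.2 * r ^ (c.1 * c.2 : ℕ)))
        (sigmaAntidiagonalEquivProd x) :=
    sigmaAntidiagonalEquivProd.summable_iff.mpr hs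
  exact hs'.sigma.congr fun n => sigma2_term_eq a k r n

theorem tsum_prod_weight2_eq (a : ℕ → ℕ → ℂ) (B : ℝ) (ha : ∀ c m, ‖a c m‖ ≤ B) (k : ℕ)
    {r : ℂ} (hr : ‖r‖ < 1) :
    ∑' c : ℕ+, ∑' m : ℕ+, (m : ℂ) ^ k * (a c m * r ^ (c * m : ℕ)) =
      ∑' n : ℕ+, sigma2 a k n * r ^ (n : ℕ) := by
  have hs := summable_prod_weight2 a B ha k hr
  rw [← hs.tsum_prod (f := fun c : ℕ+ × ℕ+ =>
    (c.2 : ℂ) ^ k * (a c.1 c.2 * r ^ (c.1 * c.2 : ℕ)))]
  rw [← sigmaAntidiagonalEquivProd.tsum_eq]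
  have hs' : Summable fun x : (Σ n : ℕ+, Nat.divisorsAntidiagonal n) =>
      (fun c : ℕ+ × ℕ+ => (c.2 : ℂ) ^ k * (a c.1 c.2 * r ^ (c.1 * c.2 : ℕ)))
        (sigmaAntidiagonalEquivProd x) :=
    sigmaAntidiagonalEquivProd.summable_iff.mpr hs
  rw [hs'.tsum_sigma]
  exact tsum_congr fun n => sigma2_term_eq a k r n

/-! ### The periodic weights -/

/-- The weight on `ℤ²` attached to `w : ZMod M → ZMod M → ℂ`. -/
def perWeight (M : ℕ) (w : ZMod M → ZMod M → ℂ) (v : Fin 2 → ℤ) : ℂ :=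
  w ((v 0 : ℤ) : ZMod M) ((v 1 : ℤ) : ZMod M)

/-- A bound for `w`. -/
def wBound (M : ℕ) [NeZero M] (w : ZMod M → ZMod M → ℂ) : ℝ := ∑ x : ZMod M, ∑ y : ZMod M, ‖w x y‖

theorem norm_le_wBound (M : ℕ) [NeZero M] (w : ZMod M → ZMod M → ℂ) (x y : ZMod M) :
    ‖w x y‖ ≤ wBound M w := by
  unfold wBound
  calc ‖w x y‖ ≤ ∑ y' : ZMod M, ‖w x y'‖ :=
        Finset.single_le_sum (f := fun y' => ‖w x y'‖) (fun _ _ => norm_nonneg _)
          (Finset.mem_univ y)
    _ ≤ ∑ x' : ZMod M, ∑ y' : ZMod M, ‖w x' y'‖ :=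
        Finset.single_le_sum (f := fun x' => ∑ y' : ZMod M, ‖w x' y'‖)
          (fun _ _ => Finset.sum_nonneg fun _ _ => norm_nonneg _) (Finset.mem_univ x)

theorem wBound_nonneg (M : ℕ) [NeZero M] (w : ZMod M → ZMod M → ℂ) : 0 ≤ wBound M w :=
  Finset.sum_nonneg fun _ _ => Finset.sum_nonneg fun _ _ => norm_nonneg _

theorem norm_perWeight_le (M : ℕ) [NeZero M] (w : ZMod M → ZMod M → ℂ) (v : Fin 2 → ℤ) :
    ‖perWeight M w v‖ ≤ wBound M w :=
  norm_le_wBound M w _ _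

theorem summable_perWeight (M : ℕ) [NeZero M] (w : ZMod M → ZMod M → ℂ) {k : ℤ} (hk : 3 ≤ k)
    (z : ℍ) : Summable fun v : Fin 2 → ℤ => perWeight M w v * eisSummand k v z := by
  refine Summable.of_norm_bounded ((summable_norm_eisSummand hk z).mul_left (wBound M w))
    fun v => ?_
  rw [norm_mul]
  exact mul_le_mul_of_nonneg_right (norm_perWeight_le M w v) (norm_nonneg _)

/-- The symmetrised row weight `b ↦ w(c,b) + (-1)^{k+1} w(-c,-b)`. -/
def symW (M : ℕ) (w : ZMod M → ZMod M → ℂ) (k c : ℕ) (b : ZMod M) : ℂ :=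
  w (c : ZMod M) b + (-1) ^ (k + 1) * w (-(c : ZMod M)) (-b)

/-- The coefficient `A_w(n) = ∑_{c m = n} m^k ∑_b (w(c,b) + (-1)^{k+1} w(-c,-b)) ζ^{bm}`. -/
def coefA (M : ℕ) (w : ZMod M → ZMod M → ℂ) (k n : ℕ) : ℂ :=
  sigma2 (fun c m => hatG M (symW M w k c) m) k n

theorem hatG_add_smul (M : ℕ) (g h : ZMod M → ℂ) (a : ℂ) (m : ℤ) :
    hatG M (fun b => g b + a * h b) m = hatG M g m + a * hatG M h m := by
  unfold hatG
  rw [Finset.mul_sum, ← Finset.sum_add_distrib]
  refine Finset.sum_congr rfl fun b _ => ?_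
  ring

theorem qM_pow_mul (M : ℕ) (z : ℍ) (c : ℕ+) (hc : 0 < (((c : ℕ) : ℂ) * (z : ℂ)).im) (m : ℕ) :
    cexp (2 * π * Complex.I * ((⟨((c : ℕ) : ℂ) * z, hc⟩ : ℍ) : ℂ) / M) ^ m =
      cexp (2 * π * Complex.I * z / M) ^ ((c : ℕ) * m) := by
  rw [← Complex.exp_nat_mul, ← Complex.exp_nat_mul]
  congr 1
  push_cast
  show _ * (2 * π * Complex.I * (((c : ℕ) : ℂ) * (z : ℂ)) / M) = _
  ring

theorem row_pos (M : ℕ) [NeZero M] {k : ℕ} (hk : 1 ≤ k) (w : ZMod M → ZMod M → ℂ) (z : ℍ)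
    (c : ℕ+) :
    ∑' d : ℤ, perWeight M w ![((c : ℕ) : ℤ), d] * eisSummand ((k + 1 : ℕ) : ℤ) ![((c : ℕ) : ℤ), d] z
      = lipConst M k * ∑' m : ℕ+, (m : ℂ) ^ k *
          (hatG M (w (c : ℕ)) m * cexp (2 * π * Complex.I * z / M) ^ ((c : ℕ) * (m : ℕ))) := by
  have hc : 0 < (((c : ℕ) : ℂ) * (z : ℂ)).im := by
    rw [Complex.mul_im]
    simp only [Complex.natCast_re, Complex.natCast_im, zero_mul, add_zero]
    exact mul_pos (Nat.cast_pos.mpr c.pos) z.2
  have H := row_sum M hk (w (c : ℕ)) ⟨((c : ℕ) : ℂ) * z, hc⟩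
  simp_rw [qM_pow_mul M z c hc] at H
  rw [← H]
  refine tsum_congr fun d => ?_
  simp only [perWeight, eisSummand, Matrix.cons_val_zero, Matrix.cons_val_one]
  congr 1
  · simp
  · rw [zpow_neg, zpow_natCast]
    simp

theorem row_neg (M : ℕ) [NeZero M] {k : ℕ} (hk : 1 ≤ k) (w : ZMod M → ZMod M → ℂ) (z : ℍ)
    (c : ℕ+) :
    ∑' d : ℤ, perWeight M w ![-((c : ℕ) : ℤ), d] *
        eisSummand ((k + 1 : ℕ) : ℤ) ![-((c : ℕ) : ℤ), d] z
      = lipConst M k * ∑' m : ℕ+, (m : ℂ) ^ k *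
          (((-1) ^ (k + 1) * hatG M (fun b => w (-((c : ℕ) : ZMod M)) (-b)) m) *
            cexp (2 * π * Complex.I * z / M) ^ ((c : ℕ) * (m : ℕ))) := by
  have hc : 0 < (((c : ℕ) : ℂ) * (z : ℂ)).im := by
    rw [Complex.mul_im]
    simp only [Complex.natCast_re, Complex.natCast_im, zero_mul, add_zero]
    exact mul_pos (Nat.cast_pos.mpr c.pos) z.2
  have H := row_sum M hk (fun b => w (-((c : ℕ) : ZMod M)) (-b)) ⟨((c : ℕ) : ℂ) * z, hc⟩
  simp_rw [qM_pow_mul M z c hc] at H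
  have H' : lipConst M k * ∑' m : ℕ+, (m : ℂ) ^ k *
          (((-1) ^ (k + 1) * hatG M (fun b => w (-((c : ℕ) : ZMod M)) (-b)) m) *
            cexp (2 * π * Complex.I * z / M) ^ ((c : ℕ) * (m : ℕ))) =
      (-1) ^ (k + 1) * (lipConst M k * ∑' m : ℕ+, (m : ℂ) ^ k *
          (hatG M (fun b => w (-((c : ℕ) : ZMod M)) (-b)) m *
            cexp (2 * π * Complex.I * z / M) ^ ((c : ℕ) * (m : ℕ)))) := by
    have e : ∀ m : ℕ+, (m : ℂ) ^ k *
          (((-1) ^ (k + 1) * hatG M (fun b => w (-((c : ℕ) : ZMod M)) (-b)) m) *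
            cexp (2 * π * Complex.I * z / M) ^ ((c : ℕ) * (m : ℕ))) =
        (-1) ^ (k + 1) * ((m : ℂ) ^ k *
          (hatG M (fun b => w (-((c : ℕ) : ZMod M)) (-b)) m *
            cexp (2 * π * Complex.I * z / M) ^ ((c : ℕ) * (m : ℕ)))) := fun m => by ring
    simp_rw [e]
    rw [tsum_mul_left]
    ring
  rw [H', ← H, ← tsum_mul_left]
  rw [← tsum_comp_neg (fun d : ℤ => perWeight M w ![-((c : ℕ) : ℤ), d] *
        eisSummand ((k + 1 : ℕ) : ℤ) ![-((c : ℕ) : ℤ), d] z)]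
  refine tsum_congr fun d => ?_
  simp only [perWeight, eisSummand, Matrix.cons_val_zero, Matrix.cons_val_one]
  have e1 : ((-((c : ℕ) : ℤ) : ℤ) : ℂ) * (z : ℂ) + ((-d : ℤ) : ℂ) =
      -((((c : ℕ) : ℂ) * (z : ℂ)) + (d : ℂ)) := by
    push_cast
    ring
  rw [e1, zpow_neg, zpow_natCast, neg_pow]
  have e2 : (((-((c : ℕ) : ℤ) : ℤ)) : ZMod M) = -((c : ℕ) : ZMod M) := by
    push_cast
    rfl
  rw [e2]
  have e3 : (((-d : ℤ)) : ZMod M) = -((d : ℤ) : ZMod M) := by
    push_cast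
    rfl
  rw [e3]
  have hne : ((-1 : ℂ)) ^ (k + 1) ≠ 0 := pow_ne_zero _ (by norm_num)
  have hsq : ((-1 : ℂ)) ^ (k + 1) * (-1) ^ (k + 1) = 1 := by
    rw [← mul_pow]
    norm_num
  show _ * ((-1 : ℂ) ^ (k + 1) * (((c : ℕ) : ℂ) * (z : ℂ) + (d : ℂ)) ^ (k + 1))⁻¹ =
    (-1) ^ (k + 1) * (_ * (1 / (((c : ℕ) : ℂ) * (z : ℂ) + (d : ℂ)) ^ (k + 1)))
  rw [mul_inv, one_div]
  have : ((-1 : ℂ) ^ (k + 1))⁻¹ = (-1) ^ (k + 1) := by
    rw [← inv_pow]
    norm_num
  rw [this]
  ring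

theorem norm_hatG_symW_le (M : ℕ) [NeZero M] (w : ZMod M → ZMod M → ℂ) (k c : ℕ) (m : ℤ) :
    ‖hatG M (symW M w k c) m‖ ≤ M * (2 * wBound M w) := by
  refine (norm_hatG_le M _ m).trans ?_
  have h1 : ∀ b ∈ Finset.range M, ‖symW M w k c (b : ZMod M)‖ ≤ 2 * wBound M w := by
    intro b _
    unfold symW
    refine (norm_add_le _ _).trans ?_
    rw [norm_mul, norm_pow, norm_neg, norm_one, one_pow, one_mul, two_mul]
    exact add_le_add (norm_le_wBound M w _ _) (norm_le_wBound M w _ _)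
  calc ∑ b ∈ Finset.range M, ‖symW M w k c (b : ZMod M)‖
      ≤ ∑ _b ∈ Finset.range M, 2 * wBound M w := Finset.sum_le_sum h1
    _ = M * (2 * wBound M w) := by
        rw [Finset.sum_const, Finset.card_range, nsmul_eq_mul]

/-- **The expansion of a level-`M` Eisenstein series** (weight `k + 1 ≥ 3`), `tsum` form. -/
theorem wEis_periodic_eq_tsum (M : ℕ) [NeZero M] {k : ℕ} (hk : 2 ≤ k)
    (w : ZMod M → ZMod M → ℂ) (z : ℍ) :
    H332.wEis (perWeight M w) ((k + 1 : ℕ) : ℤ) z =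
      (∑' d : ℤ, perWeight M w ![0, d] * eisSummand ((k + 1 : ℕ) : ℤ) ![0, d] z) +
      lipConst M k *
        ∑' n : ℕ+, coefA M w k n * cexp (2 * π * Complex.I * z / M) ^ (n : ℕ) := by
  have hk3 : (3 : ℤ) ≤ ((k + 1 : ℕ) : ℤ) := by
    push_cast
    omega
  have hk1 : 1 ≤ k := by omega
  have hsum0 := summable_perWeight M w hk3 z
  have hsum : Summable fun p : ℤ × ℤ =>
      perWeight M w ![p.1, p.2] * eisSummand ((k + 1 : ℕ) : ℤ) ![p.1, p.2] z := by
    have := (finTwoArrowEquiv ℤ).symm.summable_iff.mpr hsum0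
    simpa [Function.comp_def, finTwoArrowEquiv_symm_apply] using this
  unfold H332.wEis
  rw [← (finTwoArrowEquiv ℤ).symm.tsum_eq]
  simp only [finTwoArrowEquiv_symm_apply]
  rw [hsum.tsum_prod, tsum_int_eq_zero_add_tsum_pnat hsum.prod]
  have hS1 : Summable fun c : ℕ+ => ∑' d : ℤ,
      perWeight M w ![((c : ℕ) : ℤ), d] * eisSummand ((k + 1 : ℕ) : ℤ) ![((c : ℕ) : ℤ), d] z := by
    have hinj : Function.Injective (fun c : ℕ+ => (((c : ℕ) : ℤ))) := fun a b h => by
      have h' : ((a : ℕ) : ℤ) = ((b : ℕ) : ℤ) := h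
      exact PNat.eq (by exact_mod_cast h')
    exact hsum.prod.comp_injective hinj
  have hS2 : Summable fun c : ℕ+ => ∑' d : ℤ,
      perWeight M w ![-((c : ℕ) : ℤ), d] *
        eisSummand ((k + 1 : ℕ) : ℤ) ![-((c : ℕ) : ℤ), d] z := by
    have hinj : Function.Injective (fun c : ℕ+ => (-((c : ℕ) : ℤ))) := fun a b h => by
      have h' : ((a : ℕ) : ℤ) = ((b : ℕ) : ℤ) := neg_injective h
      exact PNat.eq (by exact_mod_cast h')
    exact hsum.prod.comp_injective hinj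
  rw [add_assoc, ← hS1.tsum_add hS2]
  congr 1
  have hterm : ∀ c : ℕ+,
      (∑' d : ℤ, perWeight M w ![((c : ℕ) : ℤ), d] *
          eisSummand ((k + 1 : ℕ) : ℤ) ![((c : ℕ) : ℤ), d] z) +
      (∑' d : ℤ, perWeight M w ![-((c : ℕ) : ℤ), d] *
          eisSummand ((k + 1 : ℕ) : ℤ) ![-((c : ℕ) : ℤ), d] z) =
      lipConst M k * ∑' m : ℕ+, (m : ℂ) ^ k *
        (hatG M (symW M w k c) m * cexp (2 * π * Complex.I * z / M) ^ ((c : ℕ) * (m : ℕ))) := by
    intro c
    rw [row_pos M hk1 w z c, row_neg M hk1 w z c, ← mul_add]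
    congr 1
    have hr := norm_qM_lt_one M z
    have hs1 : Summable fun m : ℕ+ => (m : ℂ) ^ k *
        (hatG M (w (c : ℕ)) m * cexp (2 * π * Complex.I * z / M) ^ ((c : ℕ) * (m : ℕ))) := by
      have := summable_prod_weight2 (fun c m => hatG M (w (c : ℕ)) m) (M * wBound M w)
        (fun c m => (norm_hatG_le M _ _).trans (by
          calc ∑ b ∈ Finset.range M, ‖w (c : ℕ) (b : ZMod M)‖
              ≤ ∑ _b ∈ Finset.range M, wBound M w :=
                Finset.sum_le_sum fun b _ => norm_le_wBound M w _ _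
            _ = M * wBound M w := by rw [Finset.sum_const, Finset.card_range, nsmul_eq_mul])) k hr
      exact this.prod_factor c
    have hs2 : Summable fun m : ℕ+ => (m : ℂ) ^ k *
        (((-1) ^ (k + 1) * hatG M (fun b => w (-((c : ℕ) : ZMod M)) (-b)) m) *
          cexp (2 * π * Complex.I * z / M) ^ ((c : ℕ) * (m : ℕ))) := by
      have := summable_prod_weight2
        (fun c m => (-1) ^ (k + 1) * hatG M (fun b => w (-((c : ℕ) : ZMod M)) (-b)) m)
        (M * wBound M w)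
        (fun c m => by
          rw [norm_mul, norm_pow, norm_neg, norm_one, one_pow, one_mul]
          exact (norm_hatG_le M _ _).trans (by
            calc ∑ b ∈ Finset.range M, ‖w (-((c : ℕ) : ZMod M)) (-(b : ZMod M))‖
                ≤ ∑ _b ∈ Finset.range M, wBound M w :=
                  Finset.sum_le_sum fun b _ => norm_le_wBound M w _ _
              _ = M * wBound M w := by
                  rw [Finset.sum_const, Finset.card_range, nsmul_eq_mul])) k hr
      exact this.prod_factor c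
    rw [← hs1.tsum_add hs2]
    refine tsum_congr fun m => ?_
    unfold symW
    rw [hatG_add_smul]
    ring
  simp_rw [hterm]
  rw [tsum_mul_left]
  congr 1
  exact tsum_prod_weight2_eq (fun c m => hatG M (symW M w k c) m) (M * (2 * wBound M w))
    (fun c m => norm_hatG_symW_le M w k c m) k (norm_qM_lt_one M z)

/-- The constant term `∑_{d ≠ 0} w(0,d) d^{-(k+1)}`. -/
def constTerm (M : ℕ) (w : ZMod M → ZMod M → ℂ) (k : ℕ) : ℂ :=
  ∑' d : ℤ, w 0 ((d : ℤ) : ZMod M) * ((d : ℂ) ^ (k + 1))⁻¹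

/-- The coefficients of the expansion in `X = e^{2πiz/M}`. -/
def coefX (M : ℕ) (w : ZMod M → ZMod M → ℂ) (k n : ℕ) : ℂ :=
  if n = 0 then constTerm M w k else lipConst M k * coefA M w k n

theorem coefA_zero (M : ℕ) (w : ZMod M → ZMod M → ℂ) (k : ℕ) : coefA M w k 0 = 0 :=
  sigma2_zero _ _

theorem qParam_M (M : ℕ) (z : ℍ) :
    𝕢 (M : ℝ) (z : ℂ) = cexp (2 * π * Complex.I * z / M) := by
  simp [Function.Periodic.qParam]

theorem summable_coefA (M : ℕ) [NeZero M] (w : ZMod M → ZMod M → ℂ) (k : ℕ) (z : ℍ) :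
    Summable fun n : ℕ => coefA M w k n * cexp (2 * π * Complex.I * z / M) ^ n := by
  have h := summable_sigma2_mul_pow (fun c m => hatG M (symW M w k c) m) (M * (2 * wBound M w))
    (fun c m => norm_hatG_symW_le M w k c m) k (norm_qM_lt_one M z)
  have h' : Summable fun n : ℕ+ =>
      (fun n : ℕ => coefA M w k n * cexp (2 * π * Complex.I * z / M) ^ n) n := h
  exact (summable_pnat_iff_summable_nat (f := fun n : ℕ =>
    coefA M w k n * cexp (2 * π * Complex.I * z / M) ^ n)).mp h'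

/-- **The expansion of a level-`M` Eisenstein series** (weight `k + 1 ≥ 3`), `HasSum` form. -/
theorem hasSum_wEis_periodic (M : ℕ) [NeZero M] {k : ℕ} (hk : 2 ≤ k)
    (w : ZMod M → ZMod M → ℂ) (z : ℍ) :
    HasSum (fun n : ℕ => coefX M w k n • 𝕢 (M : ℝ) (z : ℂ) ^ n)
      (H332.wEis (perWeight M w) ((k + 1 : ℕ) : ℤ) z) := by
  have hS := summable_coefA M w k z
  have h1 : ∑' n : ℕ+, coefA M w k n * cexp (2 * π * Complex.I * z / M) ^ (n : ℕ) =
      ∑' n : ℕ, coefA M w k n * cexp (2 * π * Complex.I * z / M) ^ n := by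
    rw [← tsum_zero_pnat_eq_tsum_nat hS]
    simp [coefA_zero]
  have h0 : (∑' d : ℤ, perWeight M w ![0, d] * eisSummand ((k + 1 : ℕ) : ℤ) ![0, d] z) =
      constTerm M w k := by
    unfold constTerm
    refine tsum_congr fun d => ?_
    simp only [perWeight, eisSummand, Matrix.cons_val_zero, Matrix.cons_val_one]
    congr 1
    · simp
    · rw [zpow_neg, zpow_natCast]
      simp
  rw [wEis_periodic_eq_tsum M hk w z, h0, h1, qParam_M]
  have h2 := (hS.mul_left (lipConst M k)).hasSum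
  rw [tsum_mul_left] at h2
  have h3 : HasSum (fun n : ℕ => if n = 0 then constTerm M w k else 0) (constTerm M w k) := by
    convert hasSum_ite_eq (0 : ℕ) (constTerm M w k) using 2
  convert h3.add h2 using 1
  funext n
  by_cases hn : n = 0
  · subst hn
    simp [coefX, coefA_zero]
  · simp [coefX, hn]
    ring

/-! ### Holomorphy, slash action, boundedness, `q`-expansion coefficients -/

theorem wEis_const_mul (a : ℂ) (c : (Fin 2 → ℤ) → ℂ) (k : ℤ) :
    H332.wEis (fun v => a * c v) k = fun z => a * H332.wEis c k z := by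
  funext z
  unfold H332.wEis
  simp_rw [mul_assoc]
  rw [tsum_mul_left]

/-- Normalisation of a periodic weight: `w = B * w'` with `‖w'‖ ≤ 1`. -/
theorem perWeight_normalise (M : ℕ) [NeZero M] (w : ZMod M → ZMod M → ℂ) :
    ∃ (B : ℂ) (c : (Fin 2 → ℤ) → ℂ), (∀ v, ‖c v‖ ≤ 1) ∧ perWeight M w = fun v => B * c v := by
  have hpos : (0 : ℝ) < wBound M w + 1 := by
    have := wBound_nonneg M w
    linarith
  have hne : ((wBound M w + 1 : ℝ) : ℂ) ≠ 0 := by
    exact_mod_cast hpos.ne'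
  refine ⟨((wBound M w + 1 : ℝ) : ℂ), fun v => ((wBound M w + 1 : ℝ) : ℂ)⁻¹ * perWeight M w v,
    fun v => ?_, ?_⟩
  · rw [norm_mul, norm_inv, Complex.norm_real, Real.norm_of_nonneg hpos.le,
      inv_mul_le_iff₀ hpos, mul_one]
    have := norm_perWeight_le M w v
    linarith
  · funext v
    rw [← mul_assoc, mul_inv_cancel₀ hne, one_mul]

theorem perWeight_mdiff (M : ℕ) [NeZero M] (w : ZMod M → ZMod M → ℂ) {k : ℤ} (hk : 3 ≤ k) :
    MDiff (H332.wEis (perWeight M w) k) := by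
  obtain ⟨B, c, hc, hw⟩ := perWeight_normalise M w
  rw [hw, wEis_const_mul]
  exact (mdifferentiable_const (c := B)).mul (H332.wEis_mdifferentiable hc hk)

theorem perWeight_slash_isBoundedAtImInfty (M : ℕ) [NeZero M] (w : ZMod M → ZMod M → ℂ)
    {k : ℤ} (hk : 3 ≤ k) (γ : SL(2, ℤ)) :
    IsBoundedAtImInfty (H332.wEis (perWeight M w) k ∣[k] γ) := by
  obtain ⟨B, c, hc, hw⟩ := perWeight_normalise M w
  rw [hw, wEis_const_mul]
  have h1 : (fun z => B * H332.wEis c k z) = B • H332.wEis c k := by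
    funext z
    simp
  rw [h1, ModularForm.SL_smul_slash]
  exact (H332.wEis_slash_isBoundedAtImInfty hc hk γ).const_smul_left B

/-- The action of `γ` on periodic weights: `(γ · w)(v) = w(v γ⁻¹)`. -/
def actW (M : ℕ) (γ : SL(2, ℤ)) (w : ZMod M → ZMod M → ℂ) : ZMod M → ZMod M → ℂ :=
  fun x y =>
    w (x * (((γ⁻¹ : SL(2, ℤ)) 0 0 : ℤ) : ZMod M) + y * (((γ⁻¹ : SL(2, ℤ)) 1 0 : ℤ) : ZMod M))
      (x * (((γ⁻¹ : SL(2, ℤ)) 0 1 : ℤ) : ZMod M) + y * (((γ⁻¹ : SL(2, ℤ)) 1 1 : ℤ) : ZMod M))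

theorem perWeight_vecMul (M : ℕ) (γ : SL(2, ℤ)) (w : ZMod M → ZMod M → ℂ) (v : Fin 2 → ℤ) :
    perWeight M w (v ᵥ* (γ⁻¹).1) = perWeight M (actW M γ w) v := by
  simp only [perWeight, actW, Matrix.vecMul, dotProduct, Fin.sum_univ_two]
  push_cast
  rfl

/-- **Slash action** on level-`M` Eisenstein series. -/
theorem perWeight_slash (M : ℕ) (w : ZMod M → ZMod M → ℂ) (k : ℤ) (γ : SL(2, ℤ)) :
    H332.wEis (perWeight M w) k ∣[k] γ = H332.wEis (perWeight M (actW M γ w)) k := by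
  rw [H332.wEis_slash]
  congr 1
  funext v
  exact perWeight_vecMul M γ w v

/-- **`q`-expansion coefficients** (period `M`) of a level-`M` Eisenstein series. -/
theorem qExpansion_wEis_periodic (M : ℕ) [NeZero M] {k : ℕ} (hk : 2 ≤ k)
    (w : ZMod M → ZMod M → ℂ) (n : ℕ) :
    (qExpansion (M : ℝ) (H332.wEis (perWeight M w) ((k + 1 : ℕ) : ℤ))).coeff n =
      coefX M w k n := by
  have hMpos : (0 : ℝ) < M := Nat.cast_pos.mpr (Nat.pos_of_ne_zero (NeZero.ne M))
  have hk3 : (3 : ℤ) ≤ ((k + 1 : ℕ) : ℤ) := by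
    push_cast
    omega
  exact Fermat.Agent.S22T.qExpansion_coeff_of_hasSum hMpos (hasSum_wEis_periodic M hk w)
    (perWeight_mdiff M w hk3) n

/-- The level-`M` Eisenstein series of a `Γ`-invariant weight, as a modular form on `Γ`. -/
def perMF (M : ℕ) [NeZero M] (w : ZMod M → ZMod M → ℂ) {k : ℤ} (hk : 3 ≤ k)
    (Γ : Subgroup SL(2, ℤ)) [Γ.FiniteIndex] (hΓ : ∀ γ ∈ Γ, actW M γ w = w) :
    ModularForm (Γ : Subgroup (GL (Fin 2) ℝ)) k where
  toFun := H332.wEis (perWeight M w) k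
  slash_action_eq' A hA := by
    obtain ⟨A, hA, rfl⟩ := hA
    show H332.wEis (perWeight M w) k ∣[k] A = _
    rw [perWeight_slash, hΓ A hA]
  holo' := perWeight_mdiff M w hk
  bdd_at_cusps' {c} hc := by
    rw [Subgroup.IsArithmetic.isCusp_iff_isCusp_SL2Z] at hc
    rw [OnePoint.isBoundedAt_iff_forall_SL2Z hc]
    intro γ _
    exact perWeight_slash_isBoundedAtImInfty M w hk γ

@[simp] theorem perMF_apply (M : ℕ) [NeZero M] (w : ZMod M → ZMod M → ℂ) {k : ℤ} (hk : 3 ≤ k)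
    (Γ : Subgroup SL(2, ℤ)) [Γ.FiniteIndex] (hΓ : ∀ γ ∈ Γ, actW M γ w = w) (z : ℍ) :
    perMF M w hk Γ hΓ z = H332.wEis (perWeight M w) k z := rfl

end Fermat.Agent.S48.H76

end
end
-- ===== PACK-END S48/H76/GenQX.lean

-- ===== PACK-BEGIN S48/H76/GenQX2.lean
section


/-!
# S48 / Tower A1, piece GEN-QX, part 2 (helper76): Eisenstein series on `Γ₁(M)` with expansion in `q`

For `g : ZMod M → ℂ` the weight `w(c,d) = [c ≡ 0] g(d)` is `Γ₁(M)`-invariant and

  `G_g(z) = ∑_{M ∣ c, d} g(d) (c z + d)^{-(k+1)}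
          = ∑_d g(d) d^{-(k+1)} + ((-2πi)^{k+1} / (k! M^{k+1})) ∑_{n ≥ 1} (∑_{c m = n} m^k ĝs(m)) qⁿ`,

`q = e^{2πiz}`, `ĝs(m) = ∑_b (g(b) + (-1)^{k+1} g(-b)) ζ^{bm}`.
-/

set_option autoImplicit false

open UpperHalfPlane EisensteinSeries ModularForm Filter Topology Complex CongruenceSubgroup
open scoped Matrix MatrixGroups Manifold Real

noncomputable section

namespace Fermat.Agent.S48.H76

open Fermat.Agent.S29

local notation "𝕢" => Function.Periodic.qParam

/-- The weight `w(c,d) = [c = 0] g(d)`. -/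
def typeII (M : ℕ) (g : ZMod M → ℂ) : ZMod M → ZMod M → ℂ :=
  fun x y => if x = 0 then g y else 0

/-- `γ ∈ Γ₀(M)` acts on the weights of type II through its upper left entry. -/
theorem actW_typeII_Gamma0 (M : ℕ) (g : ZMod M → ℂ) (γ : SL(2, ℤ)) (hγ : γ ∈ Gamma0 M) :
    actW M γ (typeII M g) = typeII M (fun y => g (y * ((γ 0 0 : ℤ) : ZMod M))) := by
  have hinv : γ⁻¹ ∈ Gamma0 M := (Gamma0 M).inv_mem hγ
  have h10 : (((γ⁻¹ : SL(2, ℤ)) 1 0 : ℤ) : ZMod M) = 0 := Gamma0_mem.mp hinv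
  have h11 : ((γ⁻¹ : SL(2, ℤ)) 1 1 : ℤ) = γ 0 0 := by
    rw [Matrix.SpecialLinearGroup.SL2_inv_expl]
    rfl
  have h00 : ((γ⁻¹ : SL(2, ℤ)) 0 0 : ℤ) = γ 1 1 := by
    rw [Matrix.SpecialLinearGroup.SL2_inv_expl]
    rfl
  have hdet : ((γ 0 0 : ℤ) : ZMod M) * ((γ 1 1 : ℤ) : ZMod M) = 1 := by
    have h := Matrix.SpecialLinearGroup.det_coe γ
    rw [Matrix.det_fin_two] at h
    have h2 : ((γ 1 0 : ℤ) : ZMod M) = 0 := Gamma0_mem.mp hγ
    have h3 := congrArg (fun t : ℤ => (t : ZMod M)) h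
    simp only [Int.cast_sub, Int.cast_mul, Int.cast_one] at h3
    rw [h2, mul_zero, sub_zero] at h3
    exact h3
  funext x y
  simp only [actW, typeII, h10, h11, h00, mul_zero, add_zero]
  by_cases hx : x = 0
  · subst hx
    simp
  · have hx' : x * ((γ 1 1 : ℤ) : ZMod M) ≠ 0 := by
      intro h0
      apply hx
      have := congrArg (fun t => t * ((γ 0 0 : ℤ) : ZMod M)) h0
      simp only [zero_mul] at this
      rw [mul_assoc, mul_comm ((γ 1 1 : ℤ) : ZMod M), hdet, mul_one] at this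
      exact this
    rw [if_neg hx', if_neg hx]

theorem actW_typeII_Gamma1 (M : ℕ) (g : ZMod M → ℂ) (γ : SL(2, ℤ)) (hγ : γ ∈ Gamma1 M) :
    actW M γ (typeII M g) = typeII M g := by
  have h0 : γ ∈ Gamma0 M := by
    rw [Gamma0_mem]
    exact ((Gamma1_mem M γ).mp hγ).2.2
  rw [actW_typeII_Gamma0 M g γ h0]
  have h00 : ((γ 0 0 : ℤ) : ZMod M) = 1 := ((Gamma1_mem M γ).mp hγ).1
  simp only [h00, mul_one]

/-- The Eisenstein series of type II as a modular form on `Γ₁(M)`. -/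
def typeIIMF (M : ℕ) [NeZero M] (g : ZMod M → ℂ) {k : ℤ} (hk : 3 ≤ k) :
    ModularForm ((Gamma1 M : Subgroup SL(2, ℤ)) : Subgroup (GL (Fin 2) ℝ)) k :=
  perMF M (typeII M g) hk (Gamma1 M) (fun γ hγ => actW_typeII_Gamma1 M g γ hγ)

@[simp] theorem typeIIMF_apply (M : ℕ) [NeZero M] (g : ZMod M → ℂ) {k : ℤ} (hk : 3 ≤ k) (z : ℍ) :
    typeIIMF M g hk z = H332.wEis (perWeight M (typeII M g)) k z := rfl

/-- Nebentypus-type transformation under `Γ₀(M)`. -/
theorem typeII_slash_Gamma0 (M : ℕ) (g : ZMod M → ℂ) (k : ℤ) (γ : SL(2, ℤ)) (hγ : γ ∈ Gamma0 M) :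
    H332.wEis (perWeight M (typeII M g)) k ∣[k] γ =
      H332.wEis (perWeight M (typeII M (fun y => g (y * ((γ 0 0 : ℤ) : ZMod M))))) k := by
  rw [perWeight_slash, actW_typeII_Gamma0 M g γ hγ]

/-! ### The coefficients -/

/-- The symmetrisation `b ↦ g(b) + (-1)^{k+1} g(-b)`. -/
def symG (M : ℕ) (g : ZMod M → ℂ) (k : ℕ) (b : ZMod M) : ℂ := g b + (-1) ^ (k + 1) * g (-b)

theorem symW_typeII (M : ℕ) (g : ZMod M → ℂ) (k c : ℕ) :
    symW M (typeII M g) k c = fun b => if (c : ZMod M) = 0 then symG M g k b else 0 := by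
  funext b
  unfold symW typeII symG
  by_cases hc : (c : ZMod M) = 0
  · simp [hc]
  · have hc' : -(c : ZMod M) ≠ 0 := neg_ne_zero.mpr hc
    simp [hc, hc']

theorem hatG_zero (M : ℕ) (m : ℤ) : hatG M (fun _ => (0 : ℂ)) m = 0 := by
  simp [hatG]

theorem hatG_symW_typeII (M : ℕ) (g : ZMod M → ℂ) (k c : ℕ) (m : ℤ) :
    hatG M (symW M (typeII M g) k c) m =
      if (c : ZMod M) = 0 then hatG M (symG M g k) m else 0 := by
  rw [symW_typeII]
  by_cases hc : (c : ZMod M) = 0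
  · simp [hc]
  · simp only [hc, if_false]
    exact hatG_zero M m

/-- The divisor sum `∑_{c m = n} m^k ĝs(m)`. -/
def sigmaII (M : ℕ) (g : ZMod M → ℂ) (k n : ℕ) : ℂ :=
  ∑ x ∈ n.divisorsAntidiagonal, (x.2 : ℂ) ^ k * hatG M (symG M g k) x.2

theorem sigmaII_zero (M : ℕ) (g : ZMod M → ℂ) (k : ℕ) : sigmaII M g k 0 = 0 := by
  simp [sigmaII]

theorem coefA_typeII_of_not_dvd (M : ℕ) (g : ZMod M → ℂ) (k : ℕ) {n : ℕ} (hn : ¬ M ∣ n) :
    coefA M (typeII M g) k n = 0 := by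
  unfold coefA sigma2
  refine Finset.sum_eq_zero fun x hx => ?_
  have hx' := Nat.mem_divisorsAntidiagonal.mp hx
  have hc : ¬ ((x.1 : ℕ) : ZMod M) = 0 := by
    intro h0
    rw [ZMod.natCast_eq_zero_iff] at h0
    exact hn (h0.trans ⟨x.2, hx'.1.symm⟩)
  beta_reduce
  rw [hatG_symW_typeII, if_neg hc, mul_zero]

theorem coefA_typeII_mul (M : ℕ) [NeZero M] (g : ZMod M → ℂ) (k n : ℕ) :
    coefA M (typeII M g) k (M * n) = sigmaII M g k n := by
  have hM : M ≠ 0 := NeZero.ne M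
  unfold coefA sigma2 sigmaII
  by_cases hn : n = 0
  · subst hn
    simp
  symm
  refine Finset.sum_bij_ne_zero (fun x _ _ => (M * x.1, x.2)) ?_ ?_ ?_ ?_
  · intro x hx _
    have hx' := Nat.mem_divisorsAntidiagonal.mp hx
    rw [Nat.mem_divisorsAntidiagonal]
    refine ⟨?_, Nat.mul_ne_zero hM hn⟩
    show M * x.1 * x.2 = M * n
    rw [mul_assoc, hx'.1]
  · intro x hx _ y hy _ hxy
    have h1 : M * x.1 = M * y.1 := (Prod.mk.inj hxy).1
    have h2 : x.2 = y.2 := (Prod.mk.inj hxy).2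
    exact Prod.ext (Nat.eq_of_mul_eq_mul_left (Nat.pos_of_ne_zero hM) h1) h2
  · intro y hy hne
    have hy' := Nat.mem_divisorsAntidiagonal.mp hy
    have hc : ((y.1 : ℕ) : ZMod M) = 0 := by
      by_contra hc
      apply hne
      beta_reduce
      rw [hatG_symW_typeII, if_neg hc, mul_zero]
    rw [ZMod.natCast_eq_zero_iff] at hc
    obtain ⟨c', hc'⟩ := hc
    refine ⟨(c', y.2), ?_, ?_, ?_⟩
    · rw [Nat.mem_divisorsAntidiagonal]
      refine ⟨?_, hn⟩
      have h1 : M * (c' * y.2) = M * n := by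
        rw [← mul_assoc, ← hc', hy'.1]
      exact Nat.eq_of_mul_eq_mul_left (Nat.pos_of_ne_zero hM) h1
    · intro h0
      apply hne
      beta_reduce
      rw [hatG_symW_typeII, if_pos (by rw [ZMod.natCast_eq_zero_iff]; exact ⟨c', hc'⟩)]
      exact h0
    · exact Prod.ext hc'.symm rfl
  · intro x hx _
    have hc : (((M * x.1 : ℕ)) : ZMod M) = 0 := by
      rw [ZMod.natCast_eq_zero_iff]
      exact ⟨x.1, rfl⟩
    show (x.2 : ℂ) ^ k * hatG M (symG M g k) x.2 =
      (x.2 : ℂ) ^ k * hatG M (symW M (typeII M g) k (M * x.1)) x.2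
    rw [hatG_symW_typeII, if_pos hc]

/-- The coefficients of the expansion in `q = e^{2πiz}`. -/
def coefQ (M : ℕ) (g : ZMod M → ℂ) (k n : ℕ) : ℂ :=
  if n = 0 then constTerm M (typeII M g) k else lipConst M k * sigmaII M g k n

theorem coefX_typeII_mul (M : ℕ) [NeZero M] (g : ZMod M → ℂ) (k n : ℕ) :
    coefX M (typeII M g) k (M * n) = coefQ M g k n := by
  unfold coefX coefQ
  by_cases hn : n = 0
  · subst hn
    simp
  · rw [if_neg (Nat.mul_ne_zero (NeZero.ne M) hn), if_neg hn, coefA_typeII_mul]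

theorem coefX_typeII_of_not_dvd (M : ℕ) [NeZero M] (g : ZMod M → ℂ) (k : ℕ) {n : ℕ}
    (hn : ¬ M ∣ n) : coefX M (typeII M g) k n = 0 := by
  unfold coefX
  have h0 : n ≠ 0 := fun h => hn (h ▸ dvd_zero M)
  rw [if_neg h0, coefA_typeII_of_not_dvd M g k hn, mul_zero]

theorem qParam_M_pow (M : ℕ) [NeZero M] (z : ℂ) (n : ℕ) :
    𝕢 (M : ℝ) z ^ (M * n) = 𝕢 1 z ^ n := by
  have hM : (M : ℂ) ≠ 0 := Nat.cast_ne_zero.mpr (NeZero.ne M)
  simp only [Function.Periodic.qParam]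
  rw [← Complex.exp_nat_mul, ← Complex.exp_nat_mul]
  congr 1
  push_cast
  field_simp

/-- **Expansion in `q`** of the Eisenstein series of type II on `Γ₁(M)`. -/
theorem hasSum_typeII (M : ℕ) [NeZero M] {k : ℕ} (hk : 2 ≤ k) (g : ZMod M → ℂ) (z : ℍ) :
    HasSum (fun n : ℕ => coefQ M g k n • 𝕢 1 (z : ℂ) ^ n)
      (H332.wEis (perWeight M (typeII M g)) ((k + 1 : ℕ) : ℤ) z) := by
  have H := hasSum_wEis_periodic M hk (typeII M g) z
  have hinj : Function.Injective (fun n : ℕ => M * n) := fun a b hab =>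
    Nat.eq_of_mul_eq_mul_left (Nat.pos_of_ne_zero (NeZero.ne M)) hab
  rw [← hinj.hasSum_iff] at H
  · convert H using 1
    funext n
    simp only [Function.comp_apply]
    rw [coefX_typeII_mul, qParam_M_pow]
  · intro n hn
    have hnd : ¬ M ∣ n := by
      rintro ⟨m, rfl⟩
      exact hn ⟨m, rfl⟩
    rw [coefX_typeII_of_not_dvd M g k hnd, zero_smul]

/-- **`q`-expansion coefficients** of the Eisenstein series of type II on `Γ₁(M)`. -/
theorem qExpansion_typeII (M : ℕ) [NeZero M] {k : ℕ} (hk : 2 ≤ k) (g : ZMod M → ℂ) (n : ℕ) :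
    (qExpansion 1 (H332.wEis (perWeight M (typeII M g)) ((k + 1 : ℕ) : ℤ))).coeff n =
      coefQ M g k n := by
  have hk3 : (3 : ℤ) ≤ ((k + 1 : ℕ) : ℤ) := by
    push_cast
    omega
  exact Fermat.Agent.S22T.qExpansion_coeff_of_hasSum one_pos (hasSum_typeII M hk g)
    (perWeight_mdiff M (typeII M g) hk3) n

end Fermat.Agent.S48.H76

end
end
-- ===== PACK-END S48/H76/GenQX2.lean

-- ===== PACK-BEGIN Lib/ChebQ/H968/Density.lean
section


/-!
# CHEB-Q: calculus of lower / upper Dirichlet densities (helper968)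

Elementary properties of `Spec.HasLowerDensity` and `Spec.HasUpperDensity` (finite-set forms):
monotonicity, removal of finitely many primes, superadditivity over finitely many pairwise
disjoint sets, and `lower ≤ upper` for nested sets.
-/

set_option autoImplicit false

namespace Fermat.Agent.Lib.ChebQ.H968

open Fermat.Agent.Lib.ChebQ.Spec

/-- `log (1 / (s - 1)) ≥ 0` on `(1, 2]`. -/
theorem logTerm_nonneg {s : ℝ} (h1 : 1 < s) (h2 : s ≤ 2) : 0 ≤ Real.log (1 / (s - 1)) := by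
  apply Real.log_nonneg
  rw [le_div_iff₀ (by linarith)]
  linarith

/-- `p ^ (-s) ≤ 1` for a natural number `p` and `s > 0`. -/
theorem natCast_rpow_neg_le_one (p : ℕ) {s : ℝ} (hs : 0 < s) : (p : ℝ) ^ (-s) ≤ 1 := by
  rcases Nat.eq_zero_or_pos p with h | h
  · subst h
    rw [Nat.cast_zero, Real.zero_rpow (by linarith)]
    exact zero_le_one
  · have h1 : (1 : ℝ) ≤ p := by exact_mod_cast h
    exact Real.rpow_le_one_of_one_le_of_nonpos h1 (by linarith)

theorem natCast_rpow_neg_nonneg (p : ℕ) (s : ℝ) : 0 ≤ (p : ℝ) ^ (-s) :=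
  Real.rpow_nonneg (Nat.cast_nonneg p) _

theorem HasLowerDensity.mono_set {X Y : Set ℕ} {d : ℝ} (h : HasLowerDensity X d) (hXY : X ⊆ Y) :
    HasLowerDensity Y d := by
  obtain ⟨K, hK⟩ := h
  refine ⟨K, fun s h1 h2 => ?_⟩
  obtain ⟨T, hT, hsum⟩ := hK s h1 h2
  exact ⟨T, hT.trans hXY, hsum⟩

theorem HasLowerDensity.mono_const {X : Set ℕ} {d d' : ℝ} (h : HasLowerDensity X d)
    (hd : d' ≤ d) : HasLowerDensity X d' := by
  obtain ⟨K, hK⟩ := h
  refine ⟨K, fun s h1 h2 => ?_⟩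
  obtain ⟨T, hT, hsum⟩ := hK s h1 h2
  refine ⟨T, hT, le_trans ?_ hsum⟩
  have := mul_le_mul_of_nonneg_right hd (logTerm_nonneg h1 h2)
  linarith

/-- Removing finitely many primes does not change the lower density. -/
theorem HasLowerDensity.diff_finset {X : Set ℕ} {d : ℝ} (h : HasLowerDensity X d)
    (B : Finset ℕ) : HasLowerDensity (X \ ↑B) d := by
  classical
  obtain ⟨K, hK⟩ := h
  refine ⟨K + B.card, fun s h1 h2 => ?_⟩
  obtain ⟨T, hT, hsum⟩ := hK s h1 h2
  refine ⟨T \ B, ?_, ?_⟩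
  · intro p hp
    rw [Finset.coe_sdiff] at hp
    exact ⟨hT hp.1, hp.2⟩
  · have hsplit : ∑ p ∈ T, (p : ℝ) ^ (-s) =
        ∑ p ∈ T \ B, (p : ℝ) ^ (-s) + ∑ p ∈ T ∩ B, (p : ℝ) ^ (-s) := by
      rw [← Finset.sum_union (Finset.disjoint_sdiff_inter T B), Finset.sdiff_union_inter]
    have hB : ∑ p ∈ T ∩ B, (p : ℝ) ^ (-s) ≤ B.card := by
      calc ∑ p ∈ T ∩ B, (p : ℝ) ^ (-s) ≤ ∑ _p ∈ T ∩ B, (1 : ℝ) :=
            Finset.sum_le_sum (fun p _ => natCast_rpow_neg_le_one p (by linarith))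
        _ = ((T ∩ B).card : ℝ) := by simp
        _ ≤ B.card := by exact_mod_cast Finset.card_le_card Finset.inter_subset_right
    linarith

/-- Superadditivity of the lower density over finitely many pairwise disjoint sets. -/
theorem hasLowerDensity_biUnion {ι : Type*} (I : Finset ι) (X : ι → Set ℕ) (d : ι → ℝ)
    (hdisj : ∀ i ∈ I, ∀ j ∈ I, i ≠ j → Disjoint (X i) (X j))
    (h : ∀ i ∈ I, HasLowerDensity (X i) (d i)) :
    HasLowerDensity (⋃ i ∈ I, X i) (∑ i ∈ I, d i) := by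
  classical
  have h' : ∀ i : ι, ∃ K : ℝ, i ∈ I → ∀ s : ℝ, 1 < s → s ≤ 2 → ∃ T : Finset ℕ, (↑T ⊆ X i) ∧
      d i * Real.log (1 / (s - 1)) - K ≤ ∑ p ∈ T, (p : ℝ) ^ (-s) := by
    intro i
    by_cases hi : i ∈ I
    · obtain ⟨K, hK⟩ := h i hi
      exact ⟨K, fun _ => hK⟩
    · exact ⟨0, fun hi' => absurd hi' hi⟩
  choose K hK using h'
  refine ⟨∑ i ∈ I, K i, fun s h1 h2 => ?_⟩
  have h'' : ∀ i : ι, ∃ T : Finset ℕ, i ∈ I → (↑T ⊆ X i) ∧
      d i * Real.log (1 / (s - 1)) - K i ≤ ∑ p ∈ T, (p : ℝ) ^ (-s) := by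
    intro i
    by_cases hi : i ∈ I
    · obtain ⟨T, hT⟩ := hK i hi s h1 h2
      exact ⟨T, fun _ => hT⟩
    · exact ⟨∅, fun hi' => absurd hi' hi⟩
  choose T hT using h''
  refine ⟨I.biUnion T, ?_, ?_⟩
  · intro p hp
    rw [Finset.coe_biUnion] at hp
    simp only [Set.mem_iUnion] at hp ⊢
    obtain ⟨i, hi, hpi⟩ := hp
    exact ⟨i, hi, (hT i hi).1 hpi⟩
  · have hdisjT : Set.PairwiseDisjoint (↑I : Set ι) T := by
      intro i hi j hj hij
      rw [Function.onFun, Finset.disjoint_left]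
      intro p hpi hpj
      have := hdisj i hi j hj hij
      exact Set.disjoint_left.mp this ((hT i hi).1 hpi) ((hT j hj).1 hpj)
    rw [Finset.sum_biUnion hdisjT, Finset.sum_mul, ← Finset.sum_sub_distrib]
    exact Finset.sum_le_sum (fun i hi => (hT i hi).2)

/-- A set of upper density `≤ η` cannot contain a set of lower density `≥ d > η`. -/
theorem le_of_hasLowerDensity_of_hasUpperDensity {X Y : Set ℕ} {d η : ℝ}
    (hY : HasLowerDensity Y d) (hX : HasUpperDensity X η) (hYX : Y ⊆ X) : d ≤ η := by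
  obtain ⟨K, hK⟩ := hY
  obtain ⟨K', hK'⟩ := hX
  by_contra hcon
  have hlt : η < d := not_le.mp hcon
  -- choose `s = 1 + exp (-M)` with `M` large
  set M : ℝ := max 0 ((K + K') / (d - η) + 1) with hM
  have hM0 : 0 ≤ M := le_max_left _ _
  have hM1 : (K + K') / (d - η) + 1 ≤ M := le_max_right _ _
  set s : ℝ := 1 + Real.exp (-M) with hs
  have h1 : 1 < s := by
    have := Real.exp_pos (-M)
    linarith
  have h2 : s ≤ 2 := by
    have : Real.exp (-M) ≤ 1 := Real.exp_le_one_iff.mpr (by linarith)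
    linarith
  have hlog : Real.log (1 / (s - 1)) = M := by
    have : s - 1 = Real.exp (-M) := by rw [hs]; ring
    rw [this, one_div, ← Real.exp_neg, neg_neg, Real.log_exp]
  obtain ⟨T, hT, hsum⟩ := hK s h1 h2
  have hup := hK' s h1 h2 T (hT.trans hYX)
  rw [hlog] at hsum hup
  have h3 : (d - η) * M ≤ K + K' := by linarith
  have hpos : 0 < d - η := by linarith
  have h4 : (K + K') / (d - η) < M := by linarith
  rw [div_lt_iff₀ hpos] at h4
  linarith

end Fermat.Agent.Lib.ChebQ.H968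

end
-- ===== PACK-END Lib/ChebQ/H968/Density.lean

-- ===== PACK-BEGIN Lib/Cheb/H583/Abstract.lean
section





/-!
# Frobenius density theorem: abstract form of the induction step (helper583)

`G` a finite group, `w x p ≥ 0` bounded weights (`x : G`, `p` prime).  Assume that for every `h`
there is a bounded `a h : ℕ → ℝ` with

* (B) `∑ x ∈ ⟨h⟩, w x p = |⟨h⟩| * a h p` for all but finitely many primes `p`;
* (A) `∑' p, a h p * p ^ (-s) = log (1 / (s - 1)) + O(1)` as `s → 1⁺`.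

Then for every `g` there are infinitely many primes `p` such that `w x p ≠ 0` for some
generator `x` of `⟨g⟩`.
-/

set_option autoImplicit false

open Finset Filter Topology

namespace Fermat.Agent.Lib.Cheb.H583

/-- The prime Dirichlet sum `∑_p a(p) p^{-s}`. -/
noncomputable def pSum (a : ℕ → ℝ) (s : ℝ) : ℝ :=
  ∑' p : Nat.Primes, a p * ((p : ℕ) : ℝ) ^ (-s)

theorem summable_pSum_of_bdd {a : ℕ → ℝ} {C : ℝ} (ha : ∀ p : ℕ, p.Prime → |a p| ≤ C) {s : ℝ}
    (hs : 1 < s) : Summable (fun p : Nat.Primes => a p * ((p : ℕ) : ℝ) ^ (-s)) := by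
  have h1 : Summable (fun p : Nat.Primes => ((p : ℕ) : ℝ) ^ (-s)) :=
    Nat.Primes.summable_rpow.2 (by linarith)
  refine Summable.of_norm_bounded (h1.mul_left C) fun p => ?_
  rw [Real.norm_eq_abs, abs_mul]
  have h2 : 0 ≤ ((p : ℕ) : ℝ) ^ (-s) := Real.rpow_nonneg (Nat.cast_nonneg _) _
  rw [abs_of_nonneg h2]
  exact mul_le_mul_of_nonneg_right (ha p p.2) h2

theorem rpow_neg_le_one (p : Nat.Primes) {s : ℝ} (hs : 0 ≤ s) : ((p : ℕ) : ℝ) ^ (-s) ≤ 1 := by
  apply Real.rpow_le_one_of_one_le_of_nonpos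
  · exact_mod_cast p.2.one_lt.le
  · linarith

/-- A prime sum whose coefficients vanish outside a finite set is bounded. -/
theorem abs_pSum_le_of_finite_support {a : ℕ → ℝ} {C : ℝ}
    (ha : ∀ p : ℕ, p.Prime → |a p| ≤ C) (T : Finset ℕ)
    (hT : ∀ p : ℕ, p.Prime → p ∉ T → a p = 0) {s : ℝ} (hs : 0 ≤ s) :
    |pSum a s| ≤ T.card * C := by
  classical
  have hC : 0 ≤ C := (abs_nonneg _).trans (ha 2 Nat.prime_two)
  unfold pSum
  have h1 : ∑' p : Nat.Primes, a p * ((p : ℕ) : ℝ) ^ (-s) =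
      ∑ p ∈ T.subtype Nat.Prime, a p * (((p : Nat.Primes) : ℕ) : ℝ) ^ (-s) := by
    apply tsum_eq_sum
    intro p hp
    have : (p : ℕ) ∉ T := fun h => hp (Finset.mem_subtype.2 h)
    rw [hT p p.2 this, zero_mul]
  rw [h1]
  refine (Finset.abs_sum_le_sum_abs _ _).trans ?_
  have h2 : ∀ p ∈ T.subtype Nat.Prime,
      |a p * (((p : Nat.Primes) : ℕ) : ℝ) ^ (-s)| ≤ C := by
    intro p _
    have h3 : 0 ≤ (((p : Nat.Primes) : ℕ) : ℝ) ^ (-s) := Real.rpow_nonneg (Nat.cast_nonneg _) _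
    rw [abs_mul, abs_of_nonneg h3]
    calc |a p| * (((p : Nat.Primes) : ℕ) : ℝ) ^ (-s) ≤ C * 1 :=
          mul_le_mul (ha p p.2) (rpow_neg_le_one p hs) h3 hC
      _ = C := mul_one C
  refine (Finset.sum_le_sum h2).trans ?_
  rw [Finset.sum_const, nsmul_eq_mul]
  refine mul_le_mul_of_nonneg_right ?_ hC
  have : (T.subtype Nat.Prime).card ≤ T.card := by
    rw [Finset.card_subtype]
    exact Finset.card_filter_le _ _
  exact_mod_cast this

theorem tendsto_log_one_div_sub_one :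
    Tendsto (fun s : ℝ => Real.log (1 / (s - 1))) (𝓝[>] (1 : ℝ)) atTop := by
  have h1 : Tendsto (fun s : ℝ => s - 1) (𝓝[>] (1 : ℝ)) (𝓝[>] (0 : ℝ)) := by
    rw [tendsto_nhdsWithin_iff]
    constructor
    · have : Tendsto (fun s : ℝ => s - 1) (𝓝 (1 : ℝ)) (𝓝 (0 : ℝ)) := by
        have hc : Continuous fun s : ℝ => s - 1 := by fun_prop
        have := hc.tendsto 1
        simpa using this
      exact this.mono_left nhdsWithin_le_nhds
    · filter_upwards [self_mem_nhdsWithin] with s hs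
      simpa using hs
  have h2 : Tendsto (fun s : ℝ => (s - 1)⁻¹) (𝓝[>] (1 : ℝ)) atTop :=
    tendsto_inv_nhdsGT_zero.comp h1
  have h3 := Real.tendsto_log_atTop.comp h2
  refine h3.congr fun s => ?_
  simp [one_div]

end Fermat.Agent.Lib.Cheb.H583

namespace Fermat.Agent.Lib.Cheb.H583

open Classical

variable {G : Type*} [Group G] [Fintype G]

theorem eventually_one_lt : ∀ᶠ s : ℝ in 𝓝[>] (1 : ℝ), 1 < s := by
  filter_upwards [self_mem_nhdsWithin] with s hs
  exact hs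

/-- Step 1: (A) + (B) for the cyclic subgroup generated by `h`. -/
theorem bddDiff_sum_zpFinset_pSum
    (w : G → ℕ → ℝ) (C : ℝ) (hw0 : ∀ x p, 0 ≤ w x p) (hwC : ∀ x p, w x p ≤ C)
    (a : G → ℕ → ℝ) (C' : ℝ) (haC : ∀ h (p : ℕ), p.Prime → |a h p| ≤ C')
    (hB : ∀ h : G, {p : ℕ | p.Prime ∧
      ∑ x ∈ zpFinset h, w x p ≠ (Nat.card (Subgroup.zpowers h) : ℝ) * a h p}.Finite)
    (hA : ∀ h : G, BddDiff (𝓝[>] 1) (pSum (a h)) (fun s => Real.log (1 / (s - 1))))
    (h : G) :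
    BddDiff (𝓝[>] 1) (fun s => ∑ x ∈ zpFinset h, pSum (w x) s)
      (fun s => (Nat.card (Subgroup.zpowers h) : ℝ) * Real.log (1 / (s - 1))) := by
  set n : ℝ := (Nat.card (Subgroup.zpowers h) : ℝ) with hn
  set d : ℕ → ℝ := fun p => ∑ x ∈ zpFinset h, w x p - n * a h p with hd
  have hwabs : ∀ x p, |w x p| ≤ C := fun x p => by
    rw [abs_of_nonneg (hw0 x p)]; exact hwC x p
  have hC0 : 0 ≤ C := (hw0 1 0).trans (hwC 1 0)
  have hn0 : 0 ≤ n := Nat.cast_nonneg _
  -- bound for `d`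
  have hdC : ∀ p : ℕ, p.Prime → |d p| ≤ (zpFinset h).card * C + n * C' := by
    intro p hp
    refine (abs_sub _ _).trans (add_le_add ?_ ?_)
    · refine (Finset.abs_sum_le_sum_abs _ _).trans ?_
      refine (Finset.sum_le_sum fun x _ => hwabs x p).trans ?_
      rw [Finset.sum_const, nsmul_eq_mul]
    · rw [abs_mul, abs_of_nonneg hn0]
      exact mul_le_mul_of_nonneg_left (haC h p hp) hn0
  have hdT : ∀ p : ℕ, p.Prime → p ∉ (hB h).toFinset → d p = 0 := by
    intro p hp hpT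
    rw [Set.Finite.mem_toFinset] at hpT
    have : ¬ (∑ x ∈ zpFinset h, w x p ≠ n * a h p) := fun hne => hpT ⟨hp, hne⟩
    rw [not_not] at this
    rw [hd]
    simp only
    rw [this, sub_self]
  -- the error term is bounded
  have hdb : BddDiff (𝓝[>] 1) (pSum d) (fun _ => 0) := by
    refine ⟨(hB h).toFinset.card * ((zpFinset h).card * C + n * C'), ?_⟩
    filter_upwards [eventually_one_lt] with s hs
    rw [sub_zero]
    exact abs_pSum_le_of_finite_support hdC _ hdT (by linarith)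
  have hmain := ((hA h).const_mul n).add hdb
  refine hmain.congr' ?_ (Eventually.of_forall fun s => by ring)
  filter_upwards [eventually_one_lt] with s hs
  -- `n * pSum (a h) s + pSum d s = ∑ x, pSum (w x) s`
  have hsa := summable_pSum_of_bdd (haC h) hs
  have hsd := summable_pSum_of_bdd hdC hs
  have hsw : ∀ x ∈ zpFinset h, Summable (fun p : Nat.Primes => w x p * ((p : ℕ) : ℝ) ^ (-s)) :=
    fun x _ => summable_pSum_of_bdd (fun p _ => hwabs x p) hs
  unfold pSum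
  rw [← tsum_mul_left, ← (hsa.mul_left n).tsum_add hsd, ← Summable.tsum_finsetSum hsw]
  congr 1
  funext p
  rw [← Finset.sum_mul]
  rw [hd]
  ring

/-- **Abstract qualitative Frobenius density theorem.** -/
theorem infinite_primes_of_density
    (w : G → ℕ → ℝ) (C : ℝ) (hw0 : ∀ x p, 0 ≤ w x p) (hwC : ∀ x p, w x p ≤ C)
    (a : G → ℕ → ℝ) (C' : ℝ) (haC : ∀ h (p : ℕ), p.Prime → |a h p| ≤ C')
    (hB : ∀ h : G, {p : ℕ | p.Prime ∧
      ∑ x ∈ zpFinset h, w x p ≠ (Nat.card (Subgroup.zpowers h) : ℝ) * a h p}.Finite)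
    (hA : ∀ h : G, BddDiff (𝓝[>] 1) (pSum (a h)) (fun s => Real.log (1 / (s - 1))))
    (g : G) :
    {p : ℕ | p.Prime ∧ ∃ x : G, Subgroup.zpowers x = Subgroup.zpowers g ∧ w x p ≠ 0}.Infinite := by
  intro hfin
  have hC0 : 0 ≤ C := (hw0 1 0).trans (hwC 1 0)
  have hwabs : ∀ x p, |w x p| ≤ C := fun x p => by
    rw [abs_of_nonneg (hw0 x p)]; exact hwC x p
  have hstep := bddDiff_sum_zpFinset_pSum w C hw0 hwC a C' haC hB hA
  refine not_eventually_le_sum_genFinset (l := 𝓝[>] (1 : ℝ)) (fun x s => pSum (w x) s)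
    (fun s => Real.log (1 / (s - 1))) hstep tendsto_log_one_div_sub_one g
    ((genFinset g).card * (hfin.toFinset.card * C)) ?_
  filter_upwards [eventually_one_lt] with s hs
  have h1 : ∀ x ∈ genFinset g, pSum (w x) s ≤ hfin.toFinset.card * C := by
    intro x hx
    refine (le_abs_self _).trans ?_
    refine abs_pSum_le_of_finite_support (fun p _ => hwabs x p) _ ?_ (by linarith)
    intro p hp hpT
    rw [Set.Finite.mem_toFinset] at hpT
    by_contra hne
    exact hpT ⟨hp, x, mem_genFinset.1 hx, hne⟩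
  refine (Finset.sum_le_sum h1).trans ?_
  rw [Finset.sum_const, nsmul_eq_mul]

end Fermat.Agent.Lib.Cheb.H583

end
-- ===== PACK-END Lib/Cheb/H583/Abstract.lean

-- ===== PACK-BEGIN Lib/Cheb/H583/Comb.lean
section


/-!
# Frobenius density theorem: the weights attached to a finite family of cyclic subgroups
(helper583)

`G` a finite group, `T` a finite family with a subgroup `D P ≤ G` for every `P ∈ T`.
`cycWeight T D x = (∑_{P ∈ T, D P = ⟨x⟩} |D P|) / #{generators of ⟨x⟩}`.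
If all `D P` are cyclic then `∑_{x ∈ ⟨h⟩} cycWeight T D x = ∑_{P ∈ T, D P ≤ ⟨h⟩} |D P|`.
-/

set_option autoImplicit false

open Finset

namespace Fermat.Agent.Lib.Cheb.H583

open Classical

variable {G : Type*} [Group G] [Fintype G] {ι : Type*}

/-- The weight of `x`: the total size of the groups `D P` generated by `x`, divided by the
number of generators of `⟨x⟩`. -/
noncomputable def cycWeight (T : Finset ι) (D : ι → Subgroup G) (x : G) : ℝ :=
  (∑ P ∈ T.filter (fun P => D P = Subgroup.zpowers x), (Nat.card (D P) : ℝ)) /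
    ((genFinset x).card : ℝ)

theorem cycWeight_nonneg (T : Finset ι) (D : ι → Subgroup G) (x : G) :
    0 ≤ cycWeight T D x := by
  unfold cycWeight
  apply div_nonneg
  · exact Finset.sum_nonneg fun P _ => Nat.cast_nonneg _
  · exact Nat.cast_nonneg _

theorem cycWeight_le (T : Finset ι) (D : ι → Subgroup G) (x : G) :
    cycWeight T D x ≤ ∑ P ∈ T, (Nat.card (D P) : ℝ) := by
  unfold cycWeight
  have h1 : (1 : ℝ) ≤ ((genFinset x).card : ℝ) := by
    exact_mod_cast genFinset_card_pos x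
  have h2 : ∑ P ∈ T.filter (fun P => D P = Subgroup.zpowers x), (Nat.card (D P) : ℝ) ≤
      ∑ P ∈ T, (Nat.card (D P) : ℝ) :=
    Finset.sum_le_sum_of_subset_of_nonneg (Finset.filter_subset _ _)
      fun P _ _ => Nat.cast_nonneg _
  have h3 : 0 ≤ ∑ P ∈ T.filter (fun P => D P = Subgroup.zpowers x), (Nat.card (D P) : ℝ) :=
    Finset.sum_nonneg fun P _ => Nat.cast_nonneg _
  calc (∑ P ∈ T.filter (fun P => D P = Subgroup.zpowers x), (Nat.card (D P) : ℝ)) /
        ((genFinset x).card : ℝ)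
      ≤ (∑ P ∈ T.filter (fun P => D P = Subgroup.zpowers x), (Nat.card (D P) : ℝ)) / 1 :=
        div_le_div_of_nonneg_left h3 one_pos h1
    _ = ∑ P ∈ T.filter (fun P => D P = Subgroup.zpowers x), (Nat.card (D P) : ℝ) := div_one _
    _ ≤ _ := h2

theorem exists_of_cycWeight_ne_zero {T : Finset ι} {D : ι → Subgroup G} {x : G}
    (h : cycWeight T D x ≠ 0) : ∃ P ∈ T, D P = Subgroup.zpowers x := by
  by_contra hcon
  apply h
  have : T.filter (fun P => D P = Subgroup.zpowers x) = ∅ := by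
    rw [Finset.filter_eq_empty_iff]
    intro P hP hPx
    exact hcon ⟨P, hP, hPx⟩
  unfold cycWeight
  rw [this, Finset.sum_empty, zero_div]

/-- The contribution of one cyclic group `⟨τ⟩` to the sum over `⟨h⟩`. -/
theorem sum_zpFinset_ite (τ h : G) (c : ℝ) :
    ∑ x ∈ zpFinset h, (if Subgroup.zpowers τ = Subgroup.zpowers x then
        c / ((genFinset x).card : ℝ) else 0) =
      if Subgroup.zpowers τ ≤ Subgroup.zpowers h then c else 0 := by
  by_cases hle : Subgroup.zpowers τ ≤ Subgroup.zpowers h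
  · rw [if_pos hle, ← Finset.sum_filter]
    have hfil : (zpFinset h).filter (fun x => Subgroup.zpowers τ = Subgroup.zpowers x) =
        genFinset τ := by
      ext x
      rw [Finset.mem_filter, mem_zpFinset, mem_genFinset]
      constructor
      · rintro ⟨_, h2⟩
        exact h2.symm
      · intro h2
        refine ⟨?_, h2.symm⟩
        apply hle
        rw [← h2]
        exact Subgroup.mem_zpowers x
    rw [hfil]
    have hcongr : ∀ x ∈ genFinset τ, c / ((genFinset x).card : ℝ) =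
        c / ((genFinset τ).card : ℝ) := by
      intro x hx
      rw [genFinset_eq_of_mem hx]
    rw [Finset.sum_congr rfl hcongr, Finset.sum_const, nsmul_eq_mul]
    have hne : ((genFinset τ).card : ℝ) ≠ 0 := by
      exact_mod_cast (genFinset_card_pos τ).ne'
    field_simp
  · rw [if_neg hle]
    apply Finset.sum_eq_zero
    intro x hx
    rw [if_neg]
    intro hτx
    apply hle
    rw [hτx]
    exact mem_zpowers_iff_le.1 (mem_zpFinset.1 hx)

/-- Summing the weights over a cyclic subgroup `⟨h⟩` counts the `P` with `D P ≤ ⟨h⟩`. -/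
theorem sum_zpFinset_cycWeight (T : Finset ι) (D : ι → Subgroup G)
    (hD : ∀ P ∈ T, ∃ τ : G, D P = Subgroup.zpowers τ) (h : G) :
    ∑ x ∈ zpFinset h, cycWeight T D x =
      ∑ P ∈ T.filter (fun P => D P ≤ Subgroup.zpowers h), (Nat.card (D P) : ℝ) := by
  unfold cycWeight
  have h1 : ∀ x ∈ zpFinset h,
      (∑ P ∈ T.filter (fun P => D P = Subgroup.zpowers x), (Nat.card (D P) : ℝ)) /
        ((genFinset x).card : ℝ) =
      ∑ P ∈ T, (if D P = Subgroup.zpowers x then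
        (Nat.card (D P) : ℝ) / ((genFinset x).card : ℝ) else 0) := by
    intro x _
    rw [Finset.sum_div, Finset.sum_filter]
  rw [Finset.sum_congr rfl h1, Finset.sum_comm, Finset.sum_filter]
  refine Finset.sum_congr rfl fun P hP => ?_
  obtain ⟨τ, hτ⟩ := hD P hP
  rw [hτ]
  exact sum_zpFinset_ite τ h _

end Fermat.Agent.Lib.Cheb.H583

end
-- ===== PACK-END Lib/Cheb/H583/Comb.lean

-- ===== PACK-BEGIN Lib/Cheb/H583/FrobFinite.lean
section




/-!
# CHEB piece M: `Spec.FrobFiniteStatement` from (Z), (B0), (A), (D)  (helper583)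

Finite-level Frobenius density theorem (qualitative): in a Galois number field `L/ℚ`, for every
`σ ∈ Gal(L/ℚ)` and every finite set `S` of primes there are a prime `p ∉ S`, a prime `P ∣ p` of
`𝓞 L` with trivial inertia, and an arithmetic Frobenius `τ` at `P` with `⟨τ⟩ = ⟨σ⟩`.

Proof: with `w x p = (∑_{P ∣ p, D_P = ⟨x⟩} |D_P|) / #{generators of ⟨x⟩}` for good `p`, (D) and (A)
give `∑_{x ∈ ⟨h⟩} w x p = |⟨h⟩| · c_{L^⟨h⟩}(p)`, and (Z) gives
`∑_p c_{L^⟨h⟩}(p) p^{-s} = log (1/(s-1)) + O(1)`.  The induction over cyclic subgroups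
(`infinite_primes_of_density`) yields infinitely many `p` with `w x p ≠ 0` for a generator `x` of
`⟨σ⟩`.
-/

set_option autoImplicit false

open NumberField Finset Filter Topology
open scoped Pointwise

namespace Fermat.Agent.Lib.Cheb.H583

open Classical

section Primes

variable (L : Type) [Field L] [NumberField L]

/-- The primes of `𝓞 L` containing the rational integer `p`. -/
def primesAbove (p : ℕ) : Set (Ideal (𝓞 L)) := {P | P.IsPrime ∧ (p : 𝓞 L) ∈ P}

theorem primesAbove_finite {p : ℕ} (hp : p ≠ 0) : (primesAbove L p).Finite := by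
  have hp' : ((p : ℕ) : 𝓞 L) ≠ 0 := by exact_mod_cast hp
  have hI : Ideal.span {((p : ℕ) : 𝓞 L)} ≠ 0 := by
    rw [Ne, Ideal.zero_eq_bot, Ideal.span_singleton_eq_bot]
    exact hp'
  have hfin := (Ideal.finite_factors hI).image
    (fun v : IsDedekindDomain.HeightOneSpectrum (𝓞 L) => v.asIdeal)
  refine hfin.subset ?_
  rintro P ⟨hP, hpP⟩
  have hne : P ≠ ⊥ := by
    rintro rfl
    exact hp' (by simpa using hpP)
  refine ⟨⟨P, hP, hne⟩, ?_, rfl⟩
  show P ∣ Ideal.span {((p : ℕ) : 𝓞 L)}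
  rw [Ideal.dvd_iff_le, Ideal.span_le]
  intro x hx
  rw [Set.mem_singleton_iff] at hx
  rw [hx]
  exact hpP

/-- The primes of `𝓞 L` above `p`, as a finset (empty for `p = 0`). -/
noncomputable def primesFinset (p : ℕ) : Finset (Ideal (𝓞 L)) :=
  if hp : p ≠ 0 then (primesAbove_finite L hp).toFinset else ∅

variable {L}

theorem mem_primesFinset {p : ℕ} (hp : p ≠ 0) {P : Ideal (𝓞 L)} :
    P ∈ primesFinset L p ↔ P.IsPrime ∧ (p : 𝓞 L) ∈ P := by
  unfold primesFinset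
  rw [dif_pos hp, Set.Finite.mem_toFinset]
  rfl

/-- `decompWeight` as a finset sum. -/
theorem decompWeight_eq_sum (H : Subgroup (L ≃ₐ[ℚ] L)) {p : ℕ} (hp : p ≠ 0) :
    (Spec.decompWeight L H p : ℝ) =
      ∑ P ∈ (primesFinset L p).filter (fun P => Spec.decomp L P ≤ H),
        (Nat.card (Spec.decomp L P) : ℝ) := by
  unfold Spec.decompWeight
  have hset : Spec.primesLe L H p =
      ((primesFinset L p).filter (fun P => Spec.decomp L P ≤ H) : Set (Ideal (𝓞 L))) := by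
    ext P
    rw [Finset.mem_coe, Finset.mem_filter, mem_primesFinset hp]
    constructor
    · rintro ⟨h1, h2, h3⟩
      exact ⟨⟨h1, h2⟩, h3⟩
    · rintro ⟨⟨h1, h2⟩, h3⟩
      exact ⟨h1, h2, h3⟩
  rw [finsum_set_coe_eq_finsum_mem (f := fun P : Ideal (𝓞 L) => Nat.card (Spec.decomp L P))
    (Spec.primesLe L H p), hset, finsum_mem_coe_finset, Nat.cast_sum]

end Primes

/-- (M): the finite-level qualitative Frobenius density theorem, from (Z), (B0), (A), (D). -/
theorem frobFinite (hZ : Spec.PrimeSumStatement) (hB0 : Spec.PrimeCountBoundStatement)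
    (hA : Spec.CountStatement) (hD : Spec.FrobStatement) : Spec.FrobFiniteStatement := by
  intro L _ _ _ σ S
  obtain ⟨Bfrob, hBfrob⟩ := hD L
  choose BH hBH using hA L
  -- the bad primes
  set Bad : Finset ℕ := S ∪ Bfrob ∪ BH ⊤ with hBad
  -- cyclicity of the decomposition groups at good primes
  have hcyc : ∀ p : ℕ, p.Prime → p ∉ Bad → ∀ P ∈ primesFinset L p,
      ∃ τ : L ≃ₐ[ℚ] L, Spec.decomp L P = Subgroup.zpowers τ := by
    intro p hp hpB P hP
    rw [mem_primesFinset hp.ne_zero] at hP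
    have hpf : p ∉ Bfrob := fun h => hpB (by simp [hBad, h])
    obtain ⟨_, τ, _, hτ⟩ := hBfrob p hp hpf P hP.1 hP.2
    exact ⟨τ, hτ⟩
  -- the weights
  have key := infinite_primes_of_density (G := L ≃ₐ[ℚ] L)
    (fun x p => if p.Prime ∧ p ∉ Bad then cycWeight (primesFinset L p) (Spec.decomp L) x else 0)
    ((Module.finrank ℚ (IntermediateField.fixedField (⊤ : Subgroup (L ≃ₐ[ℚ] L))) : ℝ) *
      (Nat.card (⊤ : Subgroup (L ≃ₐ[ℚ] L)) : ℝ))
    ?_ ?_
    (fun h p => (Spec.primeCount (IntermediateField.fixedField (Subgroup.zpowers h)) p : ℝ))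
    (∑ h : L ≃ₐ[ℚ] L,
      (Module.finrank ℚ (IntermediateField.fixedField (Subgroup.zpowers h)) : ℝ))
    ?_ ?_ ?_ σ
  · -- conclusion
    obtain ⟨p, hp, x, hx, hw⟩ := key.nonempty
    have hgood : p.Prime ∧ p ∉ Bad := by
      by_contra hcon
      exact hw (if_neg hcon)
    rw [if_pos hgood] at hw
    obtain ⟨P, hP, hPx⟩ := exists_of_cycWeight_ne_zero hw
    rw [mem_primesFinset hp.ne_zero] at hP
    have hpf : p ∉ Bfrob := fun h => hgood.2 (by simp [hBad, h])
    have hpS : p ∉ S := fun h => hgood.2 (by simp [hBad, h])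
    obtain ⟨hin, τ, hτ1, hτ2⟩ := hBfrob p hp hpf P hP.1 hP.2
    refine ⟨p, P, τ, hp, hpS, hP.1, hP.2, hin, hτ1, ?_⟩
    rw [← hτ2, hPx, hx]
  · -- nonnegativity
    intro x p
    show 0 ≤ (if p.Prime ∧ p ∉ Bad then cycWeight (primesFinset L p) (Spec.decomp L) x else 0)
    split_ifs
    · exact cycWeight_nonneg _ _ _
    · exact le_rfl
  · -- upper bound
    intro x p
    show (if p.Prime ∧ p ∉ Bad then cycWeight (primesFinset L p) (Spec.decomp L) x else 0) ≤ _
    split_ifs with hgood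
    · have hpT : p ∉ BH ⊤ := fun h => hgood.2 (by simp [hBad, h])
      have h1 := hBH ⊤ p hgood.1 hpT
      have h2 := decompWeight_eq_sum (L := L) ⊤ hgood.1.ne_zero
      have h3 : (primesFinset L p).filter (fun P => Spec.decomp L P ≤ ⊤) = primesFinset L p :=
        Finset.filter_true_of_mem fun P _ => le_top
      rw [h3, ← h1] at h2
      have h4 := hB0 (IntermediateField.fixedField (⊤ : Subgroup (L ≃ₐ[ℚ] L))) p
      calc cycWeight (primesFinset L p) (Spec.decomp L) x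
          ≤ ∑ P ∈ primesFinset L p, (Nat.card (Spec.decomp L P) : ℝ) := cycWeight_le _ _ _
        _ = _ := h2.symm
        _ ≤ _ := by
          push_cast
          exact mul_le_mul_of_nonneg_right (by exact_mod_cast h4) (Nat.cast_nonneg _)
    · exact mul_nonneg (Nat.cast_nonneg _) (Nat.cast_nonneg _)
  · -- bound for the prime counts
    intro h p _
    show |(Spec.primeCount (IntermediateField.fixedField (Subgroup.zpowers h)) p : ℝ)| ≤ _
    rw [abs_of_nonneg (Nat.cast_nonneg _)]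
    have h4 := hB0 (IntermediateField.fixedField (Subgroup.zpowers h)) p
    calc (Spec.primeCount (IntermediateField.fixedField (Subgroup.zpowers h)) p : ℝ)
        ≤ (Module.finrank ℚ (IntermediateField.fixedField (Subgroup.zpowers h)) : ℝ) := by
          exact_mod_cast h4
      _ ≤ _ := Finset.single_le_sum
          (f := fun h : L ≃ₐ[ℚ] L =>
            (Module.finrank ℚ (IntermediateField.fixedField (Subgroup.zpowers h)) : ℝ))
          (fun _ _ => Nat.cast_nonneg _) (Finset.mem_univ h)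
  · -- (B)
    intro h
    refine ((Bad ∪ BH (Subgroup.zpowers h)).finite_toSet).subset ?_
    rintro p ⟨hp, hne⟩
    by_contra hcon
    apply hne
    rw [Finset.mem_coe, Finset.mem_union, not_or] at hcon
    have hgood : p.Prime ∧ p ∉ Bad := ⟨hp, hcon.1⟩
    have h1 : ∀ x ∈ zpFinset h,
        (if p.Prime ∧ p ∉ Bad then cycWeight (primesFinset L p) (Spec.decomp L) x else 0) =
          cycWeight (primesFinset L p) (Spec.decomp L) x := fun x _ => if_pos hgood
    rw [Finset.sum_congr rfl h1, sum_zpFinset_cycWeight _ _ (hcyc p hp hcon.1),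
      ← decompWeight_eq_sum _ hp.ne_zero, ← hBH (Subgroup.zpowers h) p hp hcon.2]
    push_cast
    ring
  · -- (A)
    intro h
    obtain ⟨C, hC⟩ := hZ (IntermediateField.fixedField (Subgroup.zpowers h))
    refine ⟨C, ?_⟩
    filter_upwards [Ioc_mem_nhdsGT (show (1 : ℝ) < 2 by norm_num)] with s hs
    exact hC s hs.1 hs.2

end Fermat.Agent.Lib.Cheb.H583

end
-- ===== PACK-END Lib/Cheb/H583/FrobFinite.lean

-- ===== PACK-BEGIN S48/H848/QExp.lean
section
/-
S48 piece P0 (helper848): q-expansion calculus for `1`-periodic holomorphic functions bounded at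
`i∞` (predicate `Nice`), in particular the q-expansion of `f ∣ diag(q, 1)`.
-/









set_option autoImplicit false

noncomputable section

namespace Fermat.Agent.S48.H848

open Matrix.SpecialLinearGroup UpperHalfPlane CongruenceSubgroup ModularForm
open scoped MatrixGroups ModularForm OnePoint Manifold

/-- `1`-periodic, holomorphic, bounded at `i∞`. -/
structure Nice (F : ℍ → ℂ) : Prop where
  per : Function.Periodic (F ∘ UpperHalfPlane.ofComplex) 1
  hol : MDiff F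
  bdd : IsBoundedAtImInfty F

namespace Nice

variable {F G : ℍ → ℂ}

theorem analytic (h : Nice F) : AnalyticAt ℂ (cuspFunction 1 F) 0 :=
  analyticAt_cuspFunction_zero one_pos h.per h.hol h.bdd

theorem add (hF : Nice F) (hG : Nice G) : Nice (F + G) where
  per := hF.per.add hG.per
  hol := hF.hol.add hG.hol
  bdd := hF.bdd.add hG.bdd

theorem neg (hF : Nice F) : Nice (-F) where
  per := fun z ↦ by
    have := hF.per z
    simp only [Function.comp_apply, Pi.neg_apply] at this ⊢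
    rw [this]
  hol := hF.hol.neg
  bdd := hF.bdd.neg

theorem sub (hF : Nice F) (hG : Nice G) : Nice (F - G) := by
  rw [sub_eq_add_neg]
  exact hF.add hG.neg

theorem smul (hF : Nice F) (c : ℂ) : Nice (c • F) where
  per := fun z ↦ by
    have := hF.per z
    simp only [Function.comp_apply, Pi.smul_apply] at this ⊢
    rw [this]
  hol := hF.hol.const_smul c
  bdd := hF.bdd.const_smul_left c

theorem heckeU (hF : Nice F) (k : ℤ) (p : ℕ) : Nice (_root_.ModularForm.heckeU k p F) where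
  per := periodic_heckeU_comp_ofComplex hF.per k p
  hol := mdifferentiable_heckeU hF.hol k p
  bdd := isBoundedAtImInfty_heckeU hF.bdd k p

theorem heckeT (hF : Nice F) (k : ℤ) (p : ℕ) : Nice (_root_.ModularForm.heckeT k p F) where
  per := periodic_heckeT_comp_ofComplex hF.per k p
  hol := mdifferentiable_heckeT hF.hol k p
  bdd := isBoundedAtImInfty_heckeT hF.bdd k p

theorem slash_diag_eq (F : ℍ → ℂ) (k : ℤ) (q : ℕ) :
    F ∣[k] heckeDiagMatrix q = ModularForm.heckeT k q F - ModularForm.heckeU k q F := by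
  rw [heckeT_eq_heckeU_add]
  abel

theorem slash_diag (hF : Nice F) (k : ℤ) (q : ℕ) : Nice (F ∣[k] heckeDiagMatrix q) := by
  rw [slash_diag_eq]
  exact (hF.heckeT k q).sub (hF.heckeU k q)

theorem one_mem_strictPeriods_Gamma1_848 (N : ℕ) :
    (1 : ℝ) ∈ (Gamma1 N : Subgroup (GL (Fin 2) ℝ)).strictPeriods := by
  rw [strictPeriods_Gamma1]
  exact AddSubgroup.mem_zmultiples 1

theorem of_cusp {N : ℕ} [NeZero N] {k : ℤ} (f : CuspForm (Gamma1 N) k) : Nice ⇑f where
  per := SlashInvariantFormClass.periodic_comp_ofComplex f (one_mem_strictPeriods_Gamma1_848 N)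
  hol := CuspFormClass.holo f
  bdd := by
    haveI : Fact (IsCusp OnePoint.infty (Gamma1 N : Subgroup (GL (Fin 2) ℝ))) :=
      ⟨Subgroup.isCusp_of_mem_strictPeriods one_pos (one_mem_strictPeriods_Gamma1_848 N)⟩
    exact ModularFormClass.bdd_at_infty f

open ModularFormClass in
theorem qCoeff_add (hF : Nice F) (hG : Nice G) (n : ℕ) :
    qCoeff (F + G) n = qCoeff F n + qCoeff G n := by
  simp only [qCoeff, qExpansion_add hF.analytic hG.analytic, map_add]

open ModularFormClass in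
theorem qCoeff_sub (hF : Nice F) (hG : Nice G) (n : ℕ) :
    qCoeff (F - G) n = qCoeff F n - qCoeff G n := by
  simp only [qCoeff, qExpansion_sub hF.analytic hG.analytic, map_sub]

open ModularFormClass in
theorem qCoeff_smul (hF : Nice F) (c : ℂ) (n : ℕ) :
    qCoeff (c • F) n = c * qCoeff F n := by
  simp only [qCoeff, qExpansion_smul hF.analytic, PowerSeries.coeff_smul, smul_eq_mul]

open ModularFormClass in
theorem qCoeff_heckeU (hF : Nice F) (k : ℤ) {p : ℕ} (hp : p ≠ 0) (n : ℕ) :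
    qCoeff (ModularForm.heckeU k p F) n = qCoeff F (n * p) := by
  rw [UpperHalfPlane.qCoeff_heckeU hF.per hF.hol hF.bdd k hp n, coeffHeckeU_apply]

open ModularFormClass in
/-- The q-expansion of `F ∣ diag(q, 1)`, i.e. of `q^(k-1) F(q τ)`. -/
theorem qCoeff_slash_diag (hF : Nice F) (k : ℤ) {q : ℕ} (hq : q ≠ 0) (n : ℕ) :
    qCoeff (F ∣[k] heckeDiagMatrix q) n =
      if q ∣ n then (q : ℂ) ^ (k - 1) * qCoeff F (n / q) else 0 := by
  rw [slash_diag_eq, qCoeff_sub (hF.heckeT k q) (hF.heckeU k q),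
    UpperHalfPlane.qCoeff_heckeT hF.per hF.hol hF.bdd k hq n,
    UpperHalfPlane.qCoeff_heckeU hF.per hF.hol hF.bdd k hq n, coeffHeckeT_eq_coeffHeckeU_add]
  ring

theorem ext (hF : Nice F) (hG : Nice G)
    (h : ∀ n : ℕ, ModularFormClass.qCoeff F n = ModularFormClass.qCoeff G n) : F = G :=
  UpperHalfPlane.eq_of_forall_qCoeff_eq hF.per hF.hol hF.bdd hG.per hG.hol hG.bdd h

end Nice

end Fermat.Agent.S48.H848

end
end
-- ===== PACK-END S48/H848/QExp.lean

-- ===== PACK-BEGIN S48/H848/Tower.lean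
section
/-
S48 piece P0 (helper848): `V_p`-injectivity on `S_k(Γ₁(N))`, `p ∤ N`:
if `g` and `g ∣ diag(p, 1)` are both cusp forms on `Γ₁(N)` then `g = 0`.
Proof: iterating `T_p` shows that `(⟨p⟩^{m-1} g) ∣ diag(p^m, 1)` is a cusp form on `Γ₁(N)` for
all `m`; its q-expansion has order `≥ p^m`, which contradicts the Sturm-type bound of the Prelude.
-/




set_option autoImplicit false

noncomputable section

namespace Fermat.Agent.S48.H848

open Matrix.SpecialLinearGroup UpperHalfPlane CongruenceSubgroup ModularForm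
open scoped MatrixGroups ModularForm OnePoint Manifold Pointwise

variable {N : ℕ} {k : ℤ}

theorem SI1.add {F G : ℍ → ℂ} (hF : SI1 N k F) (hG : SI1 N k G) : SI1 N k (F + G) := by
  intro g hg
  rw [SlashAction.add_slash, hF g hg, hG g hg]

theorem SI1.neg {F : ℍ → ℂ} (hF : SI1 N k F) : SI1 N k (-F) := by
  intro g hg
  rw [SlashAction.neg_slash, hF g hg]

theorem SI1.sub {F G : ℍ → ℂ} (hF : SI1 N k F) (hG : SI1 N k G) : SI1 N k (F - G) := by
  rw [sub_eq_add_neg]
  exact hF.add hG.neg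

theorem SI1.smul {F : ℍ → ℂ} (hF : SI1 N k F) (c : ℂ) : SI1 N k (c • F) := by
  intro g hg
  have h := ModularForm.SL_smul_slash k g F c
  rw [show (c • F) ∣[k] mapGL ℝ g = c • (F ∣[k] mapGL ℝ g) from h, hF g hg]

/-- Existence of `σ ∈ Γ₀(N)` with lower right entry `≡ p` and lower left entry divisible by
`p ^ i`. -/
theorem exists_sigma {p : ℕ} (hp : p.Prime) (hpN : ¬ p ∣ N) (i : ℕ) :
    ∃ σ : SL(2, ℤ), σ ∈ Gamma0 N ∧ ((σ 1 1 : ℤ) : ZMod N) = (p : ZMod N) ∧
      σ 1 0 = (p ^ i : ℕ) * (N : ℤ) := by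
  have hcop : IsCoprime (p : ℤ) (N : ℤ) :=
    Nat.isCoprime_iff_coprime.mpr ((Nat.Prime.coprime_iff_not_dvd hp).mpr hpN)
  have h1 : IsCoprime ((p : ℤ) + N) (N : ℤ) := by
    simpa using hcop.add_mul_left_left 1
  have h2 : IsCoprime ((p : ℤ) + N) (p : ℤ) := by
    have := hcop.symm.add_mul_left_left 1
    rwa [mul_one, add_comm] at this
  have h3 : IsCoprime ((p : ℤ) + N) (((p ^ i : ℕ) : ℤ) * (N : ℤ)) := by
    push_cast
    exact (h2.pow_right).mul_right h1
  obtain ⟨a, b, hab⟩ := h3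
  obtain ⟨σ, h00, h01, h10, h11⟩ := exists_SL2_848 a (-b) ((p ^ i : ℕ) * (N : ℤ)) ((p : ℤ) + N)
    (by linear_combination hab)
  refine ⟨σ, ?_, ?_, h10⟩
  · rw [Gamma0_mem, h10]
    push_cast
    simp
  · rw [h11]
    push_cast
    simp


/-- Commutation of the diamond operator with `∣ diag(p^i, 1)` on forms `h` such that both `h`
and `h ∣ diag(p^i, 1)` are `Γ₁(N)`-invariant. -/
theorem slash_diag_comm {p : ℕ} (hp : p.Prime) (hpN : ¬ p ∣ N) (i : ℕ) {h : ℍ → ℂ}
    (hh : SI1 N k h) (hV : SI1 N k (h ∣[k] heckeDiagMatrix (p ^ i))) {σ : SL(2, ℤ)}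
    (hσ : σ ∈ Gamma0 N) (hσp : ((σ 1 1 : ℤ) : ZMod N) = (p : ZMod N)) :
    (h ∣[k] mapGL ℝ σ) ∣[k] heckeDiagMatrix (p ^ i) =
      (h ∣[k] heckeDiagMatrix (p ^ i)) ∣[k] mapGL ℝ σ := by
  obtain ⟨τ, hτ, hτp, hτ10⟩ := exists_sigma (N := N) hp hpN i
  have hpi : p ^ i ≠ 0 := pow_ne_zero _ hp.ne_zero
  obtain ⟨g', hg'10, hg'11, hmul⟩ := heckeDiagMatrix_mul_track' hpi τ (N : ℤ) hτ10
  have hg' : g' ∈ Gamma0 N := by
    rw [Gamma0_mem, hg'10]
    simp
  have e1 : (h ∣[k] heckeDiagMatrix (p ^ i)) ∣[k] mapGL ℝ σ =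
      (h ∣[k] heckeDiagMatrix (p ^ i)) ∣[k] mapGL ℝ τ :=
    slash_eq_of_entry_eq hV hσ hτ (hσp.trans hτp.symm)
  have e2 : h ∣[k] mapGL ℝ σ = h ∣[k] mapGL ℝ g' :=
    slash_eq_of_entry_eq hh hσ hg' (by rw [hσp, hg'11, hτp])
  rw [e1, e2, ← SlashAction.slash_mul, ← SlashAction.slash_mul, hmul]

/-- `U_p ∘ V_{p^{i+1}} = p^{k-1} V_{p^i}` on `1`-periodic functions. -/
theorem heckeU_slash_diag {p : ℕ} (hp : p ≠ 0) (i : ℕ) {h : ℍ → ℂ} (hh : Nice h) :
    heckeU k p (h ∣[k] heckeDiagMatrix (p ^ (i + 1))) =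
      ((p : ℂ) ^ (k - 1)) • (h ∣[k] heckeDiagMatrix (p ^ i)) := by
  have hpi : p ^ i ≠ 0 := pow_ne_zero _ hp
  have hpi1 : p ^ (i + 1) ≠ 0 := pow_ne_zero _ hp
  refine Nice.ext ((hh.slash_diag k _).heckeU k p) ((hh.slash_diag k _).smul _) fun n ↦ ?_
  rw [Nice.qCoeff_heckeU (hh.slash_diag k _) k hp, Nice.qCoeff_smul (hh.slash_diag k _),
    Nice.qCoeff_slash_diag hh k hpi1, Nice.qCoeff_slash_diag hh k hpi]
  have h1 : p ^ (i + 1) ∣ n * p ↔ p ^ i ∣ n := by
    rw [pow_succ]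
    exact Nat.mul_dvd_mul_iff_right (Nat.pos_of_ne_zero hp)
  have h2 : n * p / p ^ (i + 1) = n / p ^ i := by
    rw [pow_succ]
    exact Nat.mul_div_mul_right _ _ (Nat.pos_of_ne_zero hp)
  by_cases hd : p ^ i ∣ n
  · rw [if_pos (h1.mpr hd), if_pos hd, h2]
    push_cast
    rw [pow_succ, mul_zpow]
    ring
  · rw [if_neg (fun h ↦ hd (h1.mp h)), if_neg hd, mul_zero]

theorem heckeDiagMatrix_mul848 (a b : ℕ) (ha : a ≠ 0) (hb : b ≠ 0) :
    heckeDiagMatrix a * heckeDiagMatrix b = heckeDiagMatrix (a * b) := by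
  ext i j
  fin_cases i <;> fin_cases j <;>
    simp [val_heckeDiagMatrix ha, val_heckeDiagMatrix hb, val_heckeDiagMatrix (mul_ne_zero ha hb),
      Matrix.mul_apply, Fin.sum_univ_two]

theorem slash_diag_one {h : ℍ → ℂ} (hh : Nice h) : h ∣[k] heckeDiagMatrix 1 = h := by
  refine Nice.ext (hh.slash_diag k _) hh fun n ↦ ?_
  rw [Nice.qCoeff_slash_diag hh k one_ne_zero]
  simp


/-- The tower condition: `h ∣ diag(p^i, 1)` is `Γ₁(N)`-invariant for all `i ≤ m`. -/
def Tow (N : ℕ) (k : ℤ) (p m : ℕ) (h : ℍ → ℂ) : Prop :=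
  ∀ i, i ≤ m → SI1 N k (h ∣[k] heckeDiagMatrix (p ^ i))

section step

variable [NeZero N]

/-- Induction step: from a tower of height `m ≥ 1` for `h` to a tower of height `m + 1` for
`⟨p⟩ h`. -/
theorem tow_step {p : ℕ} [Fact p.Prime] (hpN : ¬ p ∣ N) {σ : SL(2, ℤ)} (hσ : σ ∈ Gamma0 N)
    (hσp : ((σ 1 1 : ℤ) : ZMod N) = (p : ZMod N)) (h : CuspForm (Gamma1 N) k) {m : ℕ}
    (hm : 1 ≤ m) (hT : Tow N k p m ⇑h) : Tow N k p (m + 1) (⇑h ∣[k] mapGL ℝ σ) := by
  have hp : p.Prime := Fact.out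
  intro i hi
  rcases Nat.lt_or_ge i (m + 1) with hlt | hge
  · have him : i ≤ m := Nat.lt_succ_iff.mp hlt
    rw [slash_diag_comm hp hpN i (SI1_coe h) (hT i him) hσ hσp]
    exact SI1_slash (hT i him) hσ
  · have hi' : i = m + 1 := le_antisymm hi hge
    subst hi'
    obtain ⟨m', rfl⟩ : ∃ m', m = m' + 1 := ⟨m - 1, by omega⟩
    -- the bundled form `F = h ∣ diag(p^m, 1)`
    set F : CuspForm (Gamma1 N) k := diagCF (p ^ (m' + 1)) h (hT (m' + 1) le_rfl) with hF
    have hTF := SI1_coe (heckeT1CF hpN σ hσ hσp F)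
    rw [coe_heckeT1CF, heckeT1, hF, coe_diagCF] at hTF
    have e1 : heckeU k p (⇑h ∣[k] heckeDiagMatrix (p ^ (m' + 1))) =
        ((p : ℂ) ^ (k - 1)) • (⇑h ∣[k] heckeDiagMatrix (p ^ m')) :=
      heckeU_slash_diag hp.ne_zero m' (Nice.of_cusp h)
    have e2 : ((⇑h ∣[k] heckeDiagMatrix (p ^ (m' + 1))) ∣[k] mapGL ℝ σ) ∣[k] heckeDiagMatrix p =
        (⇑h ∣[k] mapGL ℝ σ) ∣[k] heckeDiagMatrix (p ^ (m' + 1 + 1)) := by
      rw [← slash_diag_comm hp hpN (m' + 1) (SI1_coe h) (hT (m' + 1) le_rfl) hσ hσp,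
        ← SlashAction.slash_mul, heckeDiagMatrix_mul848 _ _ (pow_ne_zero _ hp.ne_zero) hp.ne_zero,
        ← pow_succ]
    rw [e1, e2] at hTF
    have h3 : SI1 N k (((p : ℂ) ^ (k - 1)) • (⇑h ∣[k] heckeDiagMatrix (p ^ m'))) :=
      (hT m' (by omega)).smul _
    have := hTF.sub h3
    rwa [add_sub_cancel_left] at this

end step

section sturm

theorem Gamma_le_Gamma1_848 (N : ℕ) : Gamma N ≤ Gamma1 N := by
  intro g hg
  rw [Gamma_mem] at hg
  rw [Gamma1_mem]
  exact ⟨hg.1, hg.2.2.2, hg.2.2.1⟩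

theorem map_Gamma_le_conj_Gamma1 (N : ℕ) (γ : SL(2, ℤ)) :
    (Gamma N : Subgroup (GL (Fin 2) ℝ)) ≤
      ConjAct.toConjAct (mapGL ℝ γ) • (Gamma1 N : Subgroup (GL (Fin 2) ℝ)) := by
  rintro x ⟨δ, hδ, rfl⟩
  rw [Subgroup.mem_pointwise_smul_iff_inv_smul_mem, ← ConjAct.toConjAct_inv,
    ConjAct.toConjAct_smul]
  rw [inv_inv, ← map_inv, ← map_mul, ← map_mul]
  refine Subgroup.mem_map_of_mem _ (Gamma_le_Gamma1_848 N ?_)
  have := (Gamma_normal N).conj_mem δ hδ γ⁻¹
  simpa using this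

theorem natCast_mem_strictPeriods_conj (N : ℕ) (γ : SL(2, ℤ)) :
    (N : ℝ) ∈ (ConjAct.toConjAct (mapGL ℝ γ) •
      (Gamma1 N : Subgroup (GL (Fin 2) ℝ))).strictPeriods := by
  have h1 : (N : ℝ) ∈ (Gamma N : Subgroup (GL (Fin 2) ℝ)).strictPeriods := by
    rw [strictPeriods_Gamma]
    exact AddSubgroup.mem_zmultiples _
  rw [Subgroup.mem_strictPeriods_iff] at h1 ⊢
  exact map_Gamma_le_conj_Gamma1 N γ h1

/-- The Sturm-type bound for `Γ₁(N)` in weight `k`. -/
def sturmB (N : ℕ) (k : ℤ) : ℕ :=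
  (k * ((Gamma1 N : Subgroup (GL (Fin 2) ℝ)).relIndex 𝒮ℒ)).toNat / 12

variable [NeZero N]

/-- A cusp form on `Γ₁(N)` whose first `sturmB N k + 1` coefficients vanish is zero. -/
theorem eq_zero_of_qCoeff_eq_zero (F : CuspForm (Gamma1 N) k)
    (h : ∀ n ≤ sturmB N k, ModularFormClass.qCoeff F n = 0) : F = 0 := by
  have hN : 0 < N := Nat.pos_of_ne_zero (NeZero.ne N)
  have hF := Nice.of_cusp F
  have hG : CuspForm.toModularFormₗ F = 0 := by
    refine ModularForm.eq_zero_of_lt_order_qExpansion_of_isArithmetic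
      (CuspForm.toModularFormₗ F) hN (natCast_mem_strictPeriods_conj N) ?_
    have key : ∀ i < N * sturmB N k + 1,
        PowerSeries.coeff i (qExpansion (N : ℝ) ⇑(CuspForm.toModularFormₗ F)) = 0 := by
      intro i hi
      have e := UpperHalfPlane.qExpansion_coeff_nat_mul one_pos hF.per hF.hol hF.bdd hN i
      rw [mul_one] at e
      rw [show (⇑(CuspForm.toModularFormₗ F) : ℍ → ℂ) = ⇑F from rfl, e]
      split_ifs with hd
      · refine h (i / N) ?_
        rw [Nat.div_le_iff_le_mul_add_pred hN]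
        omega
      · rfl
    have := PowerSeries.nat_le_order _ _ key
    refine lt_of_lt_of_le ?_ this
    change ((N * sturmB N k : ℕ) : ℕ∞) < _
    exact_mod_cast Nat.lt_succ_self _
  exact CuspForm.toModularFormₗ_injective (by rw [hG, map_zero])

theorem eq_zero_of_slash_eq_zero {h : ℍ → ℂ} (A : GL (Fin 2) ℝ) (hA : h ∣[k] A = 0) : h = 0 := by
  have := congrArg (fun F ↦ F ∣[k] A⁻¹) hA
  simpa [← SlashAction.slash_mul] using this

theorem eq_zero_of_slash_diag_pow (h : CuspForm (Gamma1 N) k) {p m : ℕ} (hp : p ≠ 0)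
    (hV : SI1 N k (⇑h ∣[k] heckeDiagMatrix (p ^ m))) (hB : sturmB N k < p ^ m) : h = 0 := by
  have hpm : p ^ m ≠ 0 := pow_ne_zero _ hp
  have hF : diagCF (p ^ m) h hV = 0 := by
    refine eq_zero_of_qCoeff_eq_zero _ fun n hn ↦ ?_
    rw [coe_diagCF, Nice.qCoeff_slash_diag (Nice.of_cusp h) k hpm]
    split_ifs with hd
    · have hn0 : n = 0 := Nat.eq_zero_of_dvd_of_lt hd (lt_of_le_of_lt hn hB)
      subst hn0
      have h0 : ModularFormClass.qCoeff (⇑h) 0 = 0 :=
        CuspFormClass.qExpansion_coeff_zero h one_pos (Nice.one_mem_strictPeriods_Gamma1_848 N)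
      rw [Nat.zero_div, h0, mul_zero]
    · rfl
  have h0 : (⇑h ∣[k] heckeDiagMatrix (p ^ m)) = 0 := by
    have := congrArg (fun F : CuspForm (Gamma1 N) k ↦ (⇑F : ℍ → ℂ)) hF
    simpa using this
  exact DFunLike.coe_injective (eq_zero_of_slash_eq_zero _ h0)

/-- **`V_p`-injectivity**: if `g` and `g ∣ diag(p, 1)` are both cusp forms on `Γ₁(N)`, `p ∤ N`,
then `g = 0`. -/
theorem eq_zero_of_slash_diag_SI1 {p : ℕ} [Fact p.Prime] (hpN : ¬ p ∣ N)
    (g : CuspForm (Gamma1 N) k) (hV : SI1 N k (⇑g ∣[k] heckeDiagMatrix p)) : g = 0 := by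
  have hp : p.Prime := Fact.out
  obtain ⟨σ, hσ, hσp, -⟩ := exists_sigma (N := N) hp hpN 0
  have key : ∀ m : ℕ, ∃ h : CuspForm (Gamma1 N) k, (h = 0 → g = 0) ∧ Tow N k p (m + 1) ⇑h := by
    intro m
    induction m with
    | zero =>
      refine ⟨g, id, fun i hi ↦ ?_⟩
      interval_cases i
      · rw [pow_zero, slash_diag_one (Nice.of_cusp g)]
        exact SI1_coe g
      · rwa [pow_one]
    | succ m ih =>
      obtain ⟨h, hh0, hT⟩ := ih
      refine ⟨diamondCF σ hσ h, fun h0 ↦ hh0 ?_, ?_⟩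
      · have h1 : (⇑h ∣[k] mapGL ℝ σ) = 0 := by
          have := congrArg (fun F : CuspForm (Gamma1 N) k ↦ (⇑F : ℍ → ℂ)) h0
          simpa using this
        exact DFunLike.coe_injective (eq_zero_of_slash_eq_zero _ h1)
      · rw [coe_diamondCF]
        exact tow_step hpN hσ hσp h (Nat.succ_le_succ (Nat.zero_le m)) hT
  obtain ⟨h, hh0, hT⟩ := key (sturmB N k)
  refine hh0 (eq_zero_of_slash_diag_pow h hp.ne_zero (hT _ le_rfl) ?_)
  exact lt_trans (Nat.lt_succ_self _) (Nat.lt_pow_self hp.one_lt)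

end sturm

end Fermat.Agent.S48.H848

end
end
-- ===== PACK-END S48/H848/Tower.lean

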