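import Mathlib
import Fermat.Agent.Pack.L1B.E0L3
import Fermat.Agent.Pack.L1B.E0L2
import Fermat.Agent.Pack.S44C.G0E13L0
import Fermat.Agent.Pack.S44C.G0E2L3
import Fermat.Agent.Pack.L1B.E0L0
import Fermat.Agent.Pack.S44C.G0E7L0
import Fermat.Agent.Pack.L1B.E0L1
import Fermat.Agent.Pack.S44C.G0E7L2
import Fermat.Agent.Pack.S44C.G0E7L3
import Fermat.Agent.Pack.S44C.G0E5L1
import Fermat.Agent.Pack.L1.E10L0

-- ===== PACK-BEGIN S48/H588/Step.lean
section



/-!
# Tower A1 (S48 / RES): ONE STEP of the tower of good models (helper588)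

`ι : Ω →+* Ω'`, `Ω = Fc·Lc` carrying a `Fermat.Agent.S18.Alg.GoodModel`, `Ω' = Fc'·ι(Lc)` with
`Fc' ⊇ ι(Fc)` a finite extension admitting a finite group `G` of automorphisms with
`(Fc')^G ⊆ ι(Fc)` (e.g. a Galois step of the tower `F₀(M') ⊂ … ⊂ F_H`).

`StepData` lists what has to be known about the step:

* field theory: `compositum`, `E_closed` (no new constants), `finite`;
* the Gauss valuation ring `V'` of `Fc'`: a valuation ring of `Fc'` containing `ι(V)` with
  uniformiser `ι w` (i.e. the Gauss valuation of `Fc` is UNRAMIFIED in `Fc'`), stable under `G`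
  (automatic when `V'` is the unique extension of `V`, i.e. when `V` is INERT), with residue
  field separable over `κ(x̄)`;
* `unram`: every place of `Ω'` over `Lc` has a uniformiser coming from `Ω`
  (`Ω'/Ω` is unramified at every place).

`goodModel_step`: then the transported tuple is again a `GoodModel`.  In particular the
`q`-expansion principle `qep_fin`, `qep_inf` climbs the step (by Galois descent, no Krull domains).
So `AlgMainStatement` (the hub of S18) applies to `Fc'`.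
-/

set_option autoImplicit false

namespace Fermat.Agent.S48.H588

open Fermat.Agent.S18.Alg Polynomial

variable {Ω Ω' : Type*} [Field Ω] [Field Ω']

/-- The hypotheses on one step `Fc ⊆ Fc'` of the tower (see the module docstring). -/
structure StepData (ι : Ω →+* Ω') (Lc Ec Fc : Subfield Ω) (R V : Subring Ω) (w x : Ω)
    (Fc' : Subfield Ω') (V' : Subring Ω') (G : Subgroup (Ω' ≃+* Ω')) : Prop where
  F_le : Fc.map ι ≤ Fc'
  compositum : Subfield.closure ((Fc' : Set Ω') ∪ ((Lc.map ι : Subfield Ω') : Set Ω')) = ⊤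
  E_closed : ∀ f ∈ Fc', IsAlgebraic (Ec.map ι) f → f ∈ Ec.map ι
  finite : ∃ s : Finset Ω', (s : Set Ω') ⊆ Fc' ∧
    ∀ f ∈ Fc', f ∈ Submodule.span (Fc.map ι) (s : Set Ω')
  V_le : (V' : Set Ω') ⊆ Fc'
  V_total : ∀ f ∈ Fc', f ∈ V' ∨ f⁻¹ ∈ V'
  V_le_V' : V.map ι ≤ V'
  w_inv_not_mem : (ι w)⁻¹ ∉ V'
  V_gen : ∀ f ∈ V', f⁻¹ ∉ V' → f * (ι w)⁻¹ ∈ V'
  separable : ∀ f ∈ V', ∃ P : Polynomial Ω', (∀ i, P.coeff i ∈ polyRing (R.map ι) (ι x)) ∧
    P.eval f * (ι w)⁻¹ ∈ V' ∧ (Polynomial.derivative P).eval f ≠ 0 ∧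
    ((Polynomial.derivative P).eval f)⁻¹ ∈ V'
  G_finite : Finite G
  G_fix : ∀ g ∈ G, ∀ a ∈ Fc.map ι, (g : Ω' ≃+* Ω') a = a
  G_F : ∀ g ∈ G, ∀ f ∈ Fc', (g : Ω' ≃+* Ω') f ∈ Fc'
  G_V : ∀ g ∈ G, ∀ f ∈ V', (g : Ω' ≃+* Ω') f ∈ V'
  G_inv : ∀ f ∈ Fc', (∀ g ∈ G, (g : Ω' ≃+* Ω') f = f) → f ∈ Fc.map ι
  unram : ∀ O : ValuationSubring Ω', (∀ a ∈ Lc.map ι, a ∈ O) → ∀ t ∈ O, t⁻¹ ∉ O →
    ∃ s : Ω, ι s ∈ O ∧ (ι s)⁻¹ ∉ O ∧ t * (ι s)⁻¹ ∈ O

section Transport

variable (ι : Ω →+* Ω')

theorem mem_subring_map_iff {T : Subring Ω} {a : Ω} : ι a ∈ T.map ι ↔ a ∈ T := by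
  constructor
  · rintro ⟨b, hb, h⟩
    rwa [← ι.injective h]
  · intro h
    exact ⟨a, h, rfl⟩

theorem mem_subfield_map_iff {T : Subfield Ω} {a : Ω} : ι a ∈ T.map ι ↔ a ∈ T := by
  constructor
  · rintro ⟨b, hb, h⟩
    rwa [← ι.injective h]
  · intro h
    exact ⟨a, h, rfl⟩

/-- The canonical ring isomorphism `T ≃ ι(T)` for a subfield `T`. -/
noncomputable def subfieldMapEquiv (T : Subfield Ω) : T ≃+* T.map ι :=
  RingEquiv.ofBijective
    ({ toFun := fun a => ⟨ι a, Subfield.mem_map.mpr ⟨a, a.2, rfl⟩⟩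
       map_one' := by ext; simp
       map_mul' := fun a b => by ext; simp
       map_zero' := by ext; simp
       map_add' := fun a b => by ext; simp } : T →+* T.map ι)
    ⟨fun a b hab => Subtype.ext (ι.injective (congrArg Subtype.val hab)),
      fun c => by
        obtain ⟨a, ha, h⟩ := Subfield.mem_map.mp c.2
        exact ⟨⟨a, ha⟩, Subtype.ext h⟩⟩

@[simp] theorem coe_subfieldMapEquiv (T : Subfield Ω) (a : T) :
    ((subfieldMapEquiv ι T a : T.map ι) : Ω') = ι a := rfl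

theorem algebraMap_comp_subfieldMapEquiv (T : Subfield Ω) :
    (algebraMap (T.map ι) Ω').comp (subfieldMapEquiv ι T : T →+* T.map ι)
      = ι.comp (algebraMap T Ω) := by
  ext a; rfl

theorem isAlgebraic_map {T : Subfield Ω} {a : Ω} (ha : IsAlgebraic T a) :
    IsAlgebraic (T.map ι) (ι a) := by
  obtain ⟨p, hp0, hp⟩ := ha
  refine ⟨p.map (subfieldMapEquiv ι T : T →+* T.map ι), ?_, ?_⟩
  · exact (Polynomial.map_ne_zero_iff (subfieldMapEquiv ι T).injective).mpr hp0
  · rw [aeval_def, eval₂_map, algebraMap_comp_subfieldMapEquiv, ← hom_eval₂]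
    rw [aeval_def] at hp
    rw [hp, map_zero]

theorem isAlgebraic_of_map {T : Subfield Ω} {a : Ω} (ha : IsAlgebraic (T.map ι) (ι a)) :
    IsAlgebraic T a := by
  obtain ⟨p, hp0, hp⟩ := ha
  refine ⟨p.map ((subfieldMapEquiv ι T).symm : T.map ι →+* T), ?_, ?_⟩
  · exact (Polynomial.map_ne_zero_iff (subfieldMapEquiv ι T).symm.injective).mpr hp0
  · apply ι.injective
    rw [map_zero, aeval_def, hom_eval₂, eval₂_map]
    rw [aeval_def] at hp
    have : (ι.comp (algebraMap T Ω)).comp ((subfieldMapEquiv ι T).symm : T.map ι →+* T)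
        = algebraMap (T.map ι) Ω' := by
      rw [← algebraMap_comp_subfieldMapEquiv, RingHom.comp_assoc]
      ext c
      simp
    rw [this, hp]

theorem isAlgClosed_map {T : Subfield Ω} (hT : IsAlgClosed T) : IsAlgClosed (T.map ι) := by
  refine IsAlgClosed.of_exists_root _ (fun p hp hirr => ?_)
  set e := subfieldMapEquiv ι T
  set q : T[X] := p.map (e.symm : T.map ι →+* T) with hq
  have hdeg : q.degree ≠ 0 := by
    rw [hq, degree_map_eq_of_injective e.symm.injective]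
    exact degree_ne_of_natDegree_ne hirr.natDegree_pos.ne' 
  obtain ⟨a, ha⟩ := IsAlgClosed.exists_root q hdeg
  refine ⟨e a, ?_⟩
  have hp' : p = q.map (e : T →+* T.map ι) := by
    rw [hq, Polynomial.map_map]
    have : (e : T →+* T.map ι).comp (e.symm : T.map ι →+* T) = RingHom.id _ := by
      ext c; simp
    rw [this, Polynomial.map_id]
  rw [hp', eval_map]
  have h2 := Polynomial.hom_eval₂ q (RingHom.id T) (e : T →+* T.map ι) a
  rw [RingHom.comp_id] at h2
  rw [eval₂_id, show eval a q = 0 from ha, map_zero] at h2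
  exact h2.symm

end Transport

section Step

variable {ι : Ω →+* Ω'} {Lc Ec Fc : Subfield Ω} {R V : Subring Ω} {w x : Ω} {S : Finset Ω}
  {Fc' : Subfield Ω'} {V' : Subring Ω'} {G : Subgroup (Ω' ≃+* Ω')}

theorem goodModel_R_le_F (h : GoodModel Lc Ec Fc R V w x S) : ∀ r ∈ R, r ∈ Fc :=
  fun _ hr => h.E_le_F (h.R_le hr)

theorem goodModel_w_mem_V (h : GoodModel Lc Ec Fc R V w x S) : w ∈ V := h.R_le_V h.w_mem

/-- `V' ∩ ι(Fc) = ι(V)`. -/
theorem StepData.mem_V_of_map_mem (hs : StepData ι Lc Ec Fc R V w x Fc' V' G)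
    (h : GoodModel Lc Ec Fc R V w x S) {a : Ω} (haF : a ∈ Fc) (ha : ι a ∈ V') : a ∈ V := by
  rcases h.V_total a haF with h1 | h1
  · exact h1
  · by_contra hV
    have h2 : (a⁻¹)⁻¹ ∉ V := by rwa [inv_inv]
    have h3 := h.V_gen a⁻¹ h1 h2
    have ha0 : a ≠ 0 := fun h0 => hV (by rw [h0]; exact V.zero_mem)
    have h4 : ι (a⁻¹ * w⁻¹) ∈ V' := hs.V_le_V' ⟨_, h3, rfl⟩
    have h5 : ι a * ι (a⁻¹ * w⁻¹) ∈ V' := V'.mul_mem ha h4
    have h6 : ι a * ι (a⁻¹ * w⁻¹) = (ι w)⁻¹ := by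
      rw [← map_mul, ← mul_assoc, mul_inv_cancel₀ ha0, one_mul, map_inv₀]
    rw [h6] at h5
    exact hs.w_inv_not_mem h5

theorem polyRing_le_of_mem (h : GoodModel Lc Ec Fc R V w x S) {x₀ : Ω} (hx₀ : x₀ ∈ Fc) :
    polyRing R x₀ ≤ Fc.toSubring := by
  unfold polyRing
  rw [Subring.closure_le]
  rintro z (hz | hz)
  · exact (goodModel_R_le_F h) z hz
  · rw [Set.mem_singleton_iff] at hz
    rw [hz]; exact hx₀

/-- Iterating the `q`-expansion principle of the base. -/
theorem mem_chart_of_mul_pow_mem (h : GoodModel Lc Ec Fc R V w x S) {x₀ : Ω}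
    (hqep : ∀ b ∈ chart Fc R x₀, b * w⁻¹ ∈ V → b * w⁻¹ ∈ chart Fc R x₀)
    {a : Ω} (haV : a ∈ V) : ∀ j : ℕ, a * w ^ j ∈ chart Fc R x₀ → a ∈ chart Fc R x₀ := by
  intro j
  induction j with
  | zero => intro hj; simpa using hj
  | succ j ih =>
    intro hj
    apply ih
    have h1 : a * w ^ (j + 1) * w⁻¹ = a * w ^ j := by
      rw [pow_succ, mul_assoc, mul_assoc, mul_inv_cancel₀ h.w_ne_zero, mul_one]
    have h2 : a * w ^ (j + 1) * w⁻¹ ∈ V := by
      rw [h1]; exact V.mul_mem haV (V.pow_mem (goodModel_w_mem_V h) j)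
    have := hqep _ hj h2
    rwa [h1] at this

/-- **The `q`-expansion principle climbs the step** (for any coordinate `x₀ ∈ Fc`). -/
theorem StepData.qep (hs : StepData ι Lc Ec Fc R V w x Fc' V' G)
    (h : GoodModel Lc Ec Fc R V w x S) {x₀ : Ω} (hx₀ : x₀ ∈ Fc)
    (hqep : ∀ b ∈ chart Fc R x₀, b * w⁻¹ ∈ V → b * w⁻¹ ∈ chart Fc R x₀) :
    ∀ b ∈ chart Fc' (R.map ι) (ι x₀), b * (ι w)⁻¹ ∈ V' →
      b * (ι w)⁻¹ ∈ chart Fc' (R.map ι) (ι x₀) := by
  intro b hb hbV
  have hwF' : ι w ∈ Fc' := hs.F_le ⟨w, (goodModel_R_le_F h) w h.w_mem, rfl⟩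
  refine ⟨Fc'.mul_mem hb.1 (Fc'.inv_mem hwF'), ?_⟩
  have _hfin := hs.G_finite
  have hP : polyRing (R.map ι) (ι x₀) ≤ (Fc.map ι).toSubring := by
    rw [← polyRing_map]
    intro z hz
    obtain ⟨a, ha, rfl⟩ := hz
    exact ⟨a, polyRing_le_of_mem h hx₀ ha, rfl⟩
  refine qep_of_galois (polyRing (R.map ι) (ι x₀)) (Fc.map ι) Fc' V' (ι w)
    ((map_ne_zero ι).mpr h.w_ne_zero) hwF' G
    (fun g hg a ha => hs.G_fix g hg a (hP ha))
    (fun g hg => hs.G_fix g hg _ ⟨w, (goodModel_R_le_F h) w h.w_mem, rfl⟩)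
    hs.G_F hs.G_V hs.G_inv ?_ hb.1 hb.2 hbV
  rintro c ⟨a, haF, rfl⟩ hcV ⟨j, hj⟩
  have haV : a ∈ V := hs.mem_V_of_map_mem h haF hcV
  have h1 : a * w ^ j ∈ chart Fc R x₀ := by
    refine mem_chart_of_map ι (Fc.mul_mem haF (Fc.pow_mem ((goodModel_R_le_F h) w h.w_mem) j)) ?_
    rwa [map_mul, map_pow]
  have h2 := mem_chart_of_mul_pow_mem h hqep haV j h1
  rw [← polyRing_map]
  exact isIntegral_map_of_isIntegral ι h2.2

/-- The Gauss property climbs the step. -/
theorem StepData.gauss (hs : StepData ι Lc Ec Fc R V w x Fc' V' G)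
    (h : GoodModel Lc Ec Fc R V w x S) :
    ∀ P : Polynomial Ω', (∀ i, P.coeff i ∈ R.map ι) →
      (∃ i, P.coeff i ≠ 0 ∧ (P.coeff i)⁻¹ ∈ R.map ι) → (P.eval (ι x))⁻¹ ∈ V' := by
  intro P hP ⟨i, hi0, hi⟩
  have hlift : P ∈ Polynomial.lifts ι := by
    rw [Polynomial.lifts_iff_coeff_lifts]
    intro n
    obtain ⟨a, _, ha⟩ := hP n
    exact ⟨a, ha⟩
  obtain ⟨Q, rfl⟩ := (Polynomial.mem_lifts _).mp hlift
  have hQ : ∀ n, Q.coeff n ∈ R := by
    intro n
    have := hP n
    rw [coeff_map] at this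
    exact (mem_subring_map_iff ι).mp this
  have hQi : Q.coeff i ≠ 0 ∧ (Q.coeff i)⁻¹ ∈ R := by
    rw [coeff_map] at hi0 hi
    refine ⟨fun h0 => hi0 (by rw [h0, map_zero]), ?_⟩
    rw [← map_inv₀] at hi
    exact (mem_subring_map_iff ι).mp hi
  have h1 := h.gauss Q hQ ⟨i, hQi⟩
  have h2 : eval₂ ι (ι x) Q = ι (eval x Q) := by
    have := Polynomial.hom_eval₂ Q (RingHom.id Ω) ι x
    rw [RingHom.comp_id, eval₂_id] at this
    exact this.symm
  rw [eval_map, h2, ← map_inv₀]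
  exact hs.V_le_V' ⟨_, h1, rfl⟩

/-- Finiteness climbs the step. -/
theorem StepData.finite' (hs : StepData ι Lc Ec Fc R V w x Fc' V' G)
    (h : GoodModel Lc Ec Fc R V w x S) :
    ∃ s : Finset Ω', (s : Set Ω') ⊆ Fc' ∧
      ∀ f ∈ Fc', f ∈ Submodule.span (ratField (Ec.map ι) (ι x)) (s : Set Ω') := by
  classical
  obtain ⟨s₀, hs₀F, hs₀⟩ := h.finite
  obtain ⟨s₁, hs₁F, hs₁⟩ := hs.finite
  refine ⟨(s₀.image ι ×ˢ s₁).image (fun ab => ab.1 * ab.2), ?_, ?_⟩
  · intro z hz
    simp only [Finset.coe_image, Set.mem_image, Finset.mem_coe, Finset.mem_product,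
      Finset.mem_image, Prod.exists] at hz
    obtain ⟨a, b, ⟨⟨a₀, ha₀, rfl⟩, hb⟩, rfl⟩ := hz
    exact Fc'.mul_mem (hs.F_le ⟨a₀, hs₀F ha₀, rfl⟩) (hs₁F hb)
  · intro f hf
    set K' := ratField (Ec.map ι) (ι x) with hK'
    set T : Submodule K' Ω' :=
      Submodule.span K' (((s₀.image ι ×ˢ s₁).image (fun ab => ab.1 * ab.2) : Finset Ω') : Set Ω')
      with hT
    -- step 1: `ι a * b ∈ T` for `a ∈ Fc`, `b ∈ s₁`
    have step1 : ∀ a ∈ Fc, ∀ b ∈ s₁, ι a * b ∈ T := by
      intro a ha b hb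
      have ha' := hs₀ a ha
      -- induct on the span membership of `a`
      refine Submodule.span_induction (p := fun a _ => ι a * b ∈ T) ?_ ?_ ?_ ?_ ha'
      · intro a₀ ha₀
        refine Submodule.subset_span ?_
        simp only [Finset.coe_image, Set.mem_image, Finset.mem_coe, Finset.mem_product,
          Finset.mem_image, Prod.exists]
        exact ⟨ι a₀, b, ⟨⟨a₀, ha₀, rfl⟩, hb⟩, rfl⟩
      · simp
      · intro y z _ _ hy hz
        rw [map_add, add_mul]
        exact T.add_mem hy hz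
      · intro c y _ hy
        have hc : ι (c : Ω) ∈ K' := by
          rw [hK', ← ratField_map]
          exact ⟨c, c.2, rfl⟩
        have : ι (c • y) * b = (⟨ι (c : Ω), hc⟩ : K') • (ι y * b) := by
          rw [Subfield.smul_def, Subfield.smul_def, smul_eq_mul, smul_eq_mul, map_mul, mul_assoc]
        rw [this]
        exact T.smul_mem _ hy
    -- `T` is stable under multiplication by `ι(Fc)`
    have stab : ∀ a ∈ Fc, ∀ t ∈ T, ι a * t ∈ T := by
      intro a ha t ht
      refine Submodule.span_induction (p := fun t _ => ι a * t ∈ T) ?_ ?_ ?_ ?_ ht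
      · intro z hz
        simp only [Finset.coe_image, Set.mem_image, Finset.mem_coe, Finset.mem_product,
          Finset.mem_image, Prod.exists] at hz
        obtain ⟨_, b, ⟨⟨a₀, ha₀, rfl⟩, hb⟩, rfl⟩ := hz
        have := step1 (a * a₀) (Fc.mul_mem ha (hs₀F ha₀)) b hb
        rwa [map_mul, mul_assoc] at this
      · simp
      · intro y z _ _ hy hz
        rw [mul_add]
        exact T.add_mem hy hz
      · intro c y _ hy
        have : ι a * c • y = c • (ι a * y) := by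
          rw [Subfield.smul_def, Subfield.smul_def, smul_eq_mul, smul_eq_mul]; ring
        rw [this]
        exact T.smul_mem _ hy
    -- step 2: `f ∈ span_{ι Fc} s₁`
    have hf' := hs₁ f hf
    refine Submodule.span_induction (p := fun f _ => f ∈ T) ?_ ?_ ?_ ?_ hf'
    · intro b hb
      have := step1 1 Fc.one_mem b hb
      simpa using this
    · exact T.zero_mem
    · intro y z _ _ hy hz
      exact T.add_mem hy hz
    · intro c y _ hy
      obtain ⟨a, ha, hac⟩ := Subfield.mem_map.mp c.2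
      have : c • y = ι a * y := by
        rw [Subfield.smul_def, smul_eq_mul, hac]
      rw [this]
      exact stab a ha y hy

/-- Unramifiedness outside the branch values climbs the step. -/
theorem StepData.unramified (hs : StepData ι Lc Ec Fc R V w x Fc' V' G)
    (h : GoodModel Lc Ec Fc R V w x S) :
    ∀ O : ValuationSubring Ω', (∀ a ∈ Lc.map ι, a ∈ O) → ∀ c ∈ Lc.map ι,
      c ∉ S.map ⟨ι, ι.injective⟩ → ι x - c ∈ O → (ι x - c)⁻¹ ∉ O →
      ∀ t ∈ O, t⁻¹ ∉ O → t * (ι x - c)⁻¹ ∈ O := by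
  intro O hO c hc hcS hxc hxc' t ht ht'
  obtain ⟨c₀, hc₀, rfl⟩ := hc
  have hc₀S : c₀ ∉ S := fun hmem => hcS (Finset.mem_map.mpr ⟨c₀, hmem, rfl⟩)
  set O₀ : ValuationSubring Ω := O.comap ι with hO₀
  have hmem : ∀ a : Ω, a ∈ O₀ ↔ ι a ∈ O := fun a => Iff.rfl
  have hL : ∀ a ∈ Lc, a ∈ O₀ := fun a ha => (hmem a).mpr (hO _ ⟨a, ha, rfl⟩)
  have h1 : x - c₀ ∈ O₀ := by rw [hmem, map_sub]; exact hxc
  have h2 : (x - c₀)⁻¹ ∉ O₀ := by rw [hmem, map_inv₀, map_sub]; exact hxc'
  obtain ⟨s, hsO, hsO', hts⟩ := hs.unram O hO t ht ht'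
  have h3 : s ∈ O₀ := (hmem s).mpr hsO
  have h4 : s⁻¹ ∉ O₀ := by rw [hmem, map_inv₀]; exact hsO'
  have h5 := h.unramified O₀ hL c₀ hc₀ hc₀S h1 h2 s h3 h4
  rw [hmem, map_mul, map_inv₀, map_sub] at h5
  have hs0 : ι s ≠ 0 := by
    intro h0
    apply hsO'
    rw [h0, inv_zero]
    exact O.zero_mem
  have : t * (ι x - ι c₀)⁻¹ = (t * (ι s)⁻¹) * (ι s * (ι x - ι c₀)⁻¹) := by
    field_simp
  rw [this]
  exact O.mul_mem _ _ hts h5

theorem StepData.x_transcendental (_hs : StepData ι Lc Ec Fc R V w x Fc' V' G)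
    (h : GoodModel Lc Ec Fc R V w x S) : Transcendental (Lc.map ι) (ι x) := by
  intro halg
  exact h.x_transcendental (isAlgebraic_of_map ι halg)

/-- **ONE STEP of the tower of good models.** -/
theorem goodModel_step (h : GoodModel Lc Ec Fc R V w x S)
    (hs : StepData ι Lc Ec Fc R V w x Fc' V' G) :
    GoodModel (Lc.map ι) (Ec.map ι) Fc' (R.map ι) V' (ι w) (ι x) (S.map ⟨ι, ι.injective⟩) where
  charZero := by
    have _h0 : CharZero Ω := h.charZero
    exact charZero_of_injective_ringHom ι.injective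
  R_le := by
    rintro _ ⟨r, hr, rfl⟩
    exact ⟨r, h.R_le hr, rfl⟩
  R_total := by
    rintro _ ⟨e, he, rfl⟩
    rcases h.R_total e he with h1 | h1
    · exact Or.inl ⟨e, h1, rfl⟩
    · exact Or.inr ⟨e⁻¹, h1, map_inv₀ ι e⟩
  w_mem := ⟨w, h.w_mem, rfl⟩
  w_ne_zero := (map_ne_zero ι).mpr h.w_ne_zero
  w_inv_not_mem := by
    rw [← map_inv₀, mem_subring_map_iff]
    exact h.w_inv_not_mem
  w_gen := by
    rintro _ ⟨r, hr, rfl⟩ hr'
    rw [← map_inv₀, mem_subring_map_iff] at hr'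
    rw [← map_inv₀, ← map_mul, mem_subring_map_iff]
    exact h.w_gen r hr hr'
  w_discrete := by
    rintro _ ⟨r, hr, rfl⟩ hr0
    have hr0' : r ≠ 0 := fun h0 => hr0 (by rw [h0, map_zero])
    obtain ⟨n, hn1, hn2⟩ := h.w_discrete r hr hr0'
    refine ⟨n, ?_, ?_⟩
    · rw [← map_inv₀, ← map_pow, ← map_mul, mem_subring_map_iff]
      exact hn1
    · rw [← map_inv₀, ← map_pow, ← map_mul, ← map_inv₀, mem_subring_map_iff]
      exact hn2
  residue_perfect := by
    obtain ⟨p, hp, hp1, hp2⟩ := h.residue_perfect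
    refine ⟨p, hp, ?_, ?_⟩
    · rw [← map_natCast ι p, ← map_inv₀, ← map_mul, mem_subring_map_iff]
      exact hp1
    · rintro _ ⟨r, hr, rfl⟩
      obtain ⟨s, hs1, hs2⟩ := hp2 r hr
      refine ⟨ι s, ⟨s, hs1, rfl⟩, ?_⟩
      rw [← map_pow, ← map_sub, ← map_inv₀, ← map_mul, mem_subring_map_iff]
      exact hs2
  E_le_L := by
    rintro _ ⟨e, he, rfl⟩
    exact ⟨e, h.E_le_L he, rfl⟩
  E_le_F := by
    rintro _ ⟨e, he, rfl⟩
    exact hs.F_le ⟨e, h.E_le_F he, rfl⟩
  L_algebraic := by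
    rintro _ ⟨a, ha, rfl⟩
    exact isAlgebraic_map ι (h.L_algebraic a ha)
  L_algClosed := isAlgClosed_map ι h.L_algClosed
  E_closed_in_F := hs.E_closed
  compositum := hs.compositum
  x_mem := hs.F_le ⟨x, h.x_mem, rfl⟩
  x_transcendental := hs.x_transcendental h
  finite := hs.finite' h
  V_le := hs.V_le
  V_total := hs.V_total
  R_le_V := by
    rintro _ ⟨r, hr, rfl⟩
    exact hs.V_le_V' ⟨r, h.R_le_V hr, rfl⟩
  w_inv_not_mem_V := hs.w_inv_not_mem
  V_gen := hs.V_gen
  x_mem_V := hs.V_le_V' ⟨x, h.x_mem_V, rfl⟩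
  gauss := hs.gauss h
  qep_fin := hs.qep h h.x_mem h.qep_fin
  qep_inf := by
    have := hs.qep h (Fc.inv_mem h.x_mem) h.qep_inf
    rwa [map_inv₀] at this
  separable := hs.separable
  S_mem := by
    intro s hs'
    obtain ⟨s₀, hs₀, rfl⟩ := Finset.mem_map.mp hs'
    exact ⟨s₀, h.S_mem s₀ hs₀, rfl⟩
  S_distinct := by
    intro s hs' t ht' hst
    obtain ⟨s₀, hs₀, rfl⟩ := Finset.mem_map.mp hs'
    obtain ⟨t₀, ht₀, rfl⟩ := Finset.mem_map.mp ht'
    have hne : s₀ ≠ t₀ := fun he => hst (by rw [he])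
    exact ⟨(s₀ - t₀)⁻¹, h.S_distinct s₀ hs₀ t₀ ht₀ hne, by
      simp [map_inv₀, map_sub]⟩
  S_unit := by
    intro s hs' hs0
    obtain ⟨s₀, hs₀, rfl⟩ := Finset.mem_map.mp hs'
    have hne : s₀ ≠ 0 := fun he => hs0 (by simp [he])
    exact ⟨s₀⁻¹, h.S_unit s₀ hs₀ hne, by simp [map_inv₀]⟩
  unramified := hs.unramified h

end Step

end Fermat.Agent.S48.H588

end
-- ===== PACK-END S48/H588/Step.lean

-- ===== PACK-BEGIN S48/H648/BrAlg.lean
section



/-!
# S48 / Tower A1 / A1-BR (helper648), part 1: abstract algebra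

Setting: a field `L`, constants `φ : E →+* L`, a coordinate `j : L`, a point `c : E`.
A valuation subring `O` of `L` is *centred at `j = c`* (`CentredAt φ j c O`) if it contains the
constants and `j - φ c` is a non-unit of `O`.

* `CentredAt.valuation_eval₂` : for `P ≠ 0`, `v (P(j)) = v (j - c) ^ (rootMultiplicity c P)`.
* `CentredAt.mem_iff` : membership of a rational function `P(j)/Q(j)` in `O` only depends on the
  root multiplicities of `P`, `Q` at `c`; hence (`CentredAt.mem_iff_mem`) all valuation subrings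
  centred at `j = c` have the same trace on `E(j)`.
* `OrdLe y k O` : `ord_O y ≤ k · ord_O t` for every non-unit `t` of `O`, in the division-free form
  `t ^ k * y⁻¹ ∈ O` (`k = 1`: `y` generates the maximal ideal = the conclusion of
  `S18.Alg.GoodModel.unramified`).
* `ordLe_of_conj` : if a finite group `G` acts on `L` with fixed field inside `E(j)`, then `OrdLe`
  for ONE valuation subring centred at `j = c` implies `OrdLe` for ALL of them
  (they are conjugate: `Lib.ValConj`).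
* `ordLe_comap` : descent of `OrdLe` along a field embedding `Ω →+* L` (for subfields such as the
  `Γ₁(M)`-field inside the full-level field).
-/

set_option autoImplicit false

open Polynomial
open scoped Pointwise

namespace Fermat.Agent.S48.H648

variable {L E : Type*} [Field L] [Field E]

/-- `O` contains the constants and `j - φ c` is a non-unit of `O`. -/
structure CentredAt (φ : E →+* L) (j : L) (c : E) (O : ValuationSubring L) : Prop where
  const_mem : ∀ a : E, φ a ∈ O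
  sub_mem : j - φ c ∈ O
  inv_notMem : (j - φ c)⁻¹ ∉ O

/-- `ord_O y ≤ k · ord_O t` for every non-unit `t` of `O`. -/
def OrdLe (y : L) (k : ℕ) (O : ValuationSubring L) : Prop :=
  ∀ t ∈ O, t⁻¹ ∉ O → t ^ k * y⁻¹ ∈ O

namespace CentredAt

variable {φ : E →+* L} {j : L} {c : E} {O : ValuationSubring L}

theorem j_mem (h : CentredAt φ j c O) : j ∈ O := by
  have := add_mem h.sub_mem (h.const_mem c)
  rwa [sub_add_cancel] at this

theorem eval₂_mem (h : CentredAt φ j c O) (P : E[X]) : P.eval₂ φ j ∈ O := by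
  rw [Polynomial.eval₂_eq_sum_range]
  exact sum_mem fun i _ => mul_mem (h.const_mem _) (pow_mem h.j_mem i)

theorem sub_ne_zero (h : CentredAt φ j c O) : j - φ c ≠ 0 := by
  intro h0
  apply h.inv_notMem
  rw [h0, inv_zero]
  exact O.zero_mem

theorem valuation_sub_lt_one (h : CentredAt φ j c O) : O.valuation (j - φ c) < 1 := by
  have h1 : O.valuation (j - φ c) ≤ 1 := (O.valuation_le_one_iff _).2 h.sub_mem
  rcases h1.lt_or_eq with h2 | h2
  · exact h2
  · exfalso
    apply h.inv_notMem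
    rw [← O.valuation_le_one_iff, map_inv₀, h2, inv_one]

theorem valuation_sub_pos (h : CentredAt φ j c O) : 0 < O.valuation (j - φ c) :=
  zero_lt_iff.2 ((Valuation.ne_zero_iff _).2 h.sub_ne_zero)

theorem valuation_const (h : CentredAt φ j c O) {a : E} (ha : a ≠ 0) :
    O.valuation (φ a) = 1 := by
  have h1 : O.valuation (φ a) ≤ 1 := (O.valuation_le_one_iff _).2 (h.const_mem a)
  have h2 : O.valuation (φ a⁻¹) ≤ 1 := (O.valuation_le_one_iff _).2 (h.const_mem a⁻¹)
  rw [map_inv₀, map_inv₀] at h2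
  have h0 : φ a ≠ 0 := (map_ne_zero φ).2 ha
  have hpos : 0 < O.valuation (φ a) := zero_lt_iff.2 ((Valuation.ne_zero_iff _).2 h0)
  exact le_antisymm h1 ((inv_le_one₀ hpos).1 h2)

/-- A polynomial in `j` not vanishing at `c` is a unit of `O`. -/
theorem valuation_eval₂_eq_one (h : CentredAt φ j c O) {P : E[X]} (hP : P.eval c ≠ 0) :
    O.valuation (P.eval₂ φ j) = 1 := by
  obtain ⟨R, hR⟩ := X_sub_C_dvd_sub_C_eval (a := c) (p := P)
  have e : P = C (P.eval c) + (X - C c) * R := by rw [← hR]; ring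
  have e2 : P.eval₂ φ j = φ (P.eval c) + (j - φ c) * R.eval₂ φ j := by
    conv_lhs => rw [e]
    simp [eval₂_add, eval₂_mul, eval₂_sub]
  rw [e2]
  have h1 := h.valuation_const hP
  have h2 : O.valuation ((j - φ c) * R.eval₂ φ j) < 1 := by
    rw [map_mul]
    calc O.valuation (j - φ c) * O.valuation (R.eval₂ φ j)
        ≤ O.valuation (j - φ c) * 1 :=
          mul_le_mul' le_rfl ((O.valuation_le_one_iff _).2 (h.eval₂_mem R))
      _ = O.valuation (j - φ c) := mul_one _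
      _ < 1 := h.valuation_sub_lt_one
  rw [Valuation.map_add_eq_of_lt_left _ (by rw [h1]; exact h2), h1]

/-- `v (P(j)) = v (j - c) ^ (multiplicity of c in P)`. -/
theorem valuation_eval₂ (h : CentredAt φ j c O) {P : E[X]} (hP : P ≠ 0) :
    O.valuation (P.eval₂ φ j) = O.valuation (j - φ c) ^ P.rootMultiplicity c := by
  have e := pow_mul_divByMonic_rootMultiplicity_eq P c
  have hne := eval_divByMonic_pow_rootMultiplicity_ne_zero c hP
  set P₁ := P /ₘ (X - C c) ^ P.rootMultiplicity c with hP₁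
  have e2 : P.eval₂ φ j = (j - φ c) ^ P.rootMultiplicity c * P₁.eval₂ φ j := by
    conv_lhs => rw [← e]
    simp [eval₂_mul, eval₂_pow, eval₂_sub]
  rw [e2, map_mul, map_pow, h.valuation_eval₂_eq_one hne, mul_one]

theorem eval₂_ne_zero (h : CentredAt φ j c O) {P : E[X]} (hP : P ≠ 0) : P.eval₂ φ j ≠ 0 := by
  intro h0
  have := h.valuation_eval₂ hP
  rw [h0, map_zero] at this
  exact (pow_ne_zero _ h.valuation_sub_pos.ne') this.symm

/-- Membership of a rational function of `j` in `O` is decided by root multiplicities at `c`. -/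
theorem mem_iff (h : CentredAt φ j c O) {P Q : E[X]} (hQ : Q.eval₂ φ j ≠ 0) :
    P.eval₂ φ j / Q.eval₂ φ j ∈ O ↔ P = 0 ∨ Q.rootMultiplicity c ≤ P.rootMultiplicity c := by
  have hQ0 : Q ≠ 0 := by
    rintro rfl
    exact hQ (by simp)
  by_cases hP : P = 0
  · subst hP
    simp only [eval₂_zero, zero_div, true_or, iff_true]
    exact O.zero_mem
  simp only [hP, false_or]
  rw [← O.valuation_le_one_iff, map_div₀, h.valuation_eval₂ hP, h.valuation_eval₂ hQ0]
  set g := O.valuation (j - φ c) with hg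
  have hg0 : 0 < g := h.valuation_sub_pos
  have hg1 : g < 1 := h.valuation_sub_lt_one
  have hgQ : 0 < g ^ Q.rootMultiplicity c := pow_pos hg0 _
  rw [div_le_one₀ hgQ]
  constructor
  · intro hle
    by_contra hlt
    have := pow_lt_pow_right_of_lt_one₀ hg0 hg1 (not_le.1 hlt)
    exact absurd hle (not_le.2 this)
  · intro hle
    exact pow_le_pow_of_le_one hg0.le hg1.le hle

/-- Two valuation subrings centred at `j = c` have the same trace on `E(j)`. -/
theorem mem_iff_mem {O' : ValuationSubring L} (h : CentredAt φ j c O) (h' : CentredAt φ j c O')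
    {P Q : E[X]} (hQ : Q.eval₂ φ j ≠ 0) :
    P.eval₂ φ j / Q.eval₂ φ j ∈ O ↔ P.eval₂ φ j / Q.eval₂ φ j ∈ O' := by
  rw [h.mem_iff hQ, h'.mem_iff hQ]

end CentredAt

section Conj

variable {G : Type*} [Group G] [MulSemiringAction G L] [Finite G]

/-- **Transfer by conjugacy.**  If the `G`-fixed elements are rational functions of `j` over `E`,
then all valuation subrings centred at `j = c` are `G`-conjugate; consequently a bound
`ord (j - c) ≤ k · ord t` known for ONE of them holds for ALL of them. -/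
theorem ordLe_of_conj (φ : E →+* L) (j : L) (c : E)
    (hfixφ : ∀ (g : G) (a : E), g • φ a = φ a) (hfixj : ∀ g : G, g • j = j)
    (hfix : ∀ x : L, (∀ g : G, g • x = x) →
      ∃ P Q : E[X], Q.eval₂ φ j ≠ 0 ∧ x = P.eval₂ φ j / Q.eval₂ φ j)
    {O₀ O : ValuationSubring L} (h₀ : CentredAt φ j c O₀) (h : CentredAt φ j c O)
    {k : ℕ} (hk : OrdLe (j - φ c) k O₀) : OrdLe (j - φ c) k O := by
  obtain ⟨g, hg⟩ := Fermat.Agent.Lib.ValConj.exists_smul_eq_of_fixed_mem_iff (G := G) O₀ O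
    (fun x hx => by
      obtain ⟨P, Q, hQ, rfl⟩ := hfix x hx
      exact h₀.mem_iff_mem h hQ)
  have hmem : ∀ x : L, x ∈ O ↔ g⁻¹ • x ∈ O₀ := by
    intro x
    rw [← hg]
    exact ValuationSubring.mem_pointwise_smul_iff_inv_smul_mem
  have hy : g⁻¹ • (j - φ c) = j - φ c := by
    rw [smul_sub, hfixj, hfixφ]
  intro t ht htinv
  rw [hmem, smul_mul', smul_pow', smul_inv'', hy]
  apply hk
  · exact (hmem t).1 ht
  · intro hcon
    apply htinv
    rw [hmem, smul_inv'']
    exact hcon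

end Conj

section Descent

variable {Ω : Type*} [Field Ω]

/-- Every valuation subring of `Ω` is the trace of a valuation subring of an extension `L`. -/
theorem exists_valuationSubring_comap (ψ : Ω →+* L) (O' : ValuationSubring Ω) :
    ∃ O : ValuationSubring L, ∀ x : Ω, ψ x ∈ O ↔ x ∈ O' := by
  obtain ⟨A, hA, hloc⟩ :=
    IsLocalRing.exists_factor_valuationRing (ψ.comp O'.subtype : O' →+* L)
  have hmem : ∀ x : Ω, x ∈ O' → ψ x ∈ A := fun x hx => hA ⟨x, hx⟩
  refine ⟨A, fun x => ⟨fun hx => ?_, hmem x⟩⟩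
  by_contra hxO
  have hx0 : x ≠ 0 := fun h0 => hxO (h0 ▸ O'.zero_mem)
  have hinv : x⁻¹ ∈ O' := (O'.mem_or_inv_mem x).resolve_left hxO
  -- the image of `x⁻¹` is a unit of `A`, so `x⁻¹` is a unit of `O'`
  have hu : IsUnit ((ψ.comp O'.subtype).codRestrict A.toSubring hA ⟨x⁻¹, hinv⟩) := by
    refine ⟨⟨⟨ψ x⁻¹, hmem _ hinv⟩, ⟨ψ x, hx⟩, ?_, ?_⟩, rfl⟩
    · apply Subtype.ext
      show ψ x⁻¹ * ψ x = 1
      rw [← map_mul, inv_mul_cancel₀ hx0, map_one]
    · apply Subtype.ext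
      show ψ x * ψ x⁻¹ = 1
      rw [← map_mul, mul_inv_cancel₀ hx0, map_one]
  have hu' : IsUnit (⟨x⁻¹, hinv⟩ : O') := hloc.map_nonunit _ hu
  obtain ⟨⟨a, b, hab, hba⟩, ha⟩ := hu'
  apply hxO
  have hb : (b : Ω) = x := by
    have h1 : (a : Ω) = x⁻¹ := congrArg Subtype.val ha
    have h2 : (a : Ω) * (b : Ω) = 1 := congrArg Subtype.val hab
    rw [h1] at h2
    field_simp at h2
    exact h2
  rw [← hb]
  exact b.2

/-- **Descent of `OrdLe`** along a field embedding. -/
theorem ordLe_comap (ψ : Ω →+* L) {O' : ValuationSubring Ω} {O : ValuationSubring L}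
    (hO : ∀ x : Ω, ψ x ∈ O ↔ x ∈ O') {y : Ω} {k : ℕ} (hk : OrdLe (ψ y) k O) : OrdLe y k O' := by
  intro t ht htinv
  rw [← hO, map_mul, map_pow, map_inv₀]
  apply hk
  · exact (hO t).2 ht
  · rw [← map_inv₀, hO]
    exact htinv

end Descent

end Fermat.Agent.S48.H648

end
-- ===== PACK-END S48/H648/BrAlg.lean

-- ===== PACK-BEGIN S48/H588/QepBase.lean
section





/-!
# Tower A1 (S48 / RES), node I-QEP: unique Gauss valuation ⟹ `q`-expansion principle

In the language of the frozen `S18/Alg/Spec.lean` (`polyRing`, `ratField`, `chart`).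

* `mem_polyRing_of_gauss` (QEP for the rational function field `Ec(x)`): `R` a DVR with
  uniformiser `w`, `x` transcendental over `R`, `V ⊇ R[x]` a subring in which every primitive
  polynomial in `x` is a unit and `w` is not: `c ∈ Frac(R)(x) ∩ V`, `c w^j` integral over `R[x]`
  ⟹ `c ∈ R[x]`.
* `qep_of_unique_gauss` : let `Ffull ⊇ Ec(x)` admit a finite group `G` of automorphisms fixing
  `Ec(x)` with `Ffull^G ⊆ Ec(x)` (i.e. `Ffull/Ec(x)` Galois) and let `V` be a `G`-STABLE subring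
  with the Gauss property (in the application: the Gauss valuation ring of `Ffull`, which is
  `G`-stable as soon as it is the UNIQUE extension of the Gauss valuation of `Ec(x)` — Igusa).
  Then for EVERY intermediate field `Fc ≤ Ffull` (e.g. the `Γ₁(M)`-field inside the full level
  `M` field) the fields `qep_fin` (coordinate `x`) of `GoodModel` hold.  Apply it to `x⁻¹` for
  `qep_inf`.
-/

set_option autoImplicit false

namespace Fermat.Agent.S48.H588

open Fermat.Agent.S18.Alg Polynomial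

variable {Ω : Type*} [Field Ω]

/-- Integrality over a subring, in terms of polynomials over the ambient field. -/
theorem isIntegral_subring_iff (T : Subring Ω) (b : Ω) :
    IsIntegral T b ↔ ∃ p : Polynomial Ω, p.Monic ∧ (∀ i, p.coeff i ∈ T) ∧ p.eval b = 0 := by
  constructor
  · rintro ⟨q, hq, hqb⟩
    refine ⟨q.map T.subtype, hq.map _, fun i => ?_, ?_⟩
    · rw [coeff_map]; exact (q.coeff i).2
    · rw [eval_map]; exact hqb
  · rintro ⟨p, hp, hc, hpb⟩
    have hsub : (↑p.coeffs : Set Ω) ⊆ T := by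
      intro c hc'
      obtain ⟨i, _, rfl⟩ := Polynomial.mem_coeffs_iff.mp (by exact_mod_cast hc')
      exact hc i
    refine ⟨p.toSubring T hsub, (p.monic_toSubring _ _).mpr hp, ?_⟩
    have : eval₂ (algebraMap T Ω) b (p.toSubring T hsub)
        = ((p.toSubring T hsub).map T.subtype).eval b := by
      rw [eval_map]; rfl
    rw [this, p.map_toSubring T hsub, hpb]

theorem isIntegral_of_subring_eq {T T' : Subring Ω} (h : ∀ a, a ∈ T → a ∈ T') {b : Ω}
    (hb : IsIntegral T b) : IsIntegral T' b := by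
  rw [isIntegral_subring_iff] at hb ⊢
  obtain ⟨p, hp, hc, hpb⟩ := hb
  exact ⟨p, hp, fun i => h _ (hc i), hpb⟩

/-- Elements of the base field integral over an integrally closed subalgebra with that
fraction field lie in the subalgebra (copy of `S18.H138.mem_of_isIntegral_of_mem`, which lives in
a heavier module). -/
theorem mem_of_isIntegral_of_mem588 {R₀ : Type*} [CommRing R₀] [Algebra R₀ Ω]
    (A : Subalgebra R₀ Ω) [IsIntegrallyClosed A] (K : Subfield Ω)
    (hAK : ∀ a ∈ A, a ∈ K) (hfrac : ∀ z ∈ K, ∃ a ∈ A, ∃ b ∈ A, z = a / b)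
    {z : Ω} (hzK : z ∈ K) (hz : IsIntegral A z) : z ∈ A := by
  have h := Fermat.Agent.S18.H138.minpoly_coeff_mem A K hAK hfrac hz 0
  have h2 : minpoly K z = X - C (⟨z, hzK⟩ : K) :=
    minpoly.eq_X_sub_C_of_algebraMap_inj (⟨z, hzK⟩ : K) (algebraMap K Ω).injective
  rw [h2] at h
  simp only [coeff_sub, coeff_X_zero, coeff_C_zero, zero_sub] at h
  have : -(-z) ∈ A := A.neg_mem h
  simpa using this

section Base

variable (R V : Subring Ω) {w x : Ω}

theorem polyRing_eq_adjoin (x : Ω) :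
    polyRing R x = (Algebra.adjoin R ({x} : Set Ω)).toSubring := by
  rw [Algebra.adjoin_eq_ring_closure]
  unfold polyRing
  congr 2
  ext z
  constructor
  · intro hz
    exact ⟨⟨z, hz⟩, rfl⟩
  · rintro ⟨a, rfl⟩
    exact a.2

theorem mem_polyRing_iff_aeval {x c : Ω} :
    c ∈ polyRing R x ↔ ∃ Q : Polynomial R, aeval x Q = c := by
  rw [polyRing_eq_adjoin]
  exact Fermat.Agent.S18.H138.mem_adjoin_singleton_iff

variable (hwA : w ∈ R) (hw0 : w ≠ 0) (hwinv : w⁻¹ ∉ R)
  (hdisc : ∀ r ∈ R, r ≠ 0 → ∃ n : ℕ, r * (w⁻¹) ^ n ∈ R ∧ (r * (w⁻¹) ^ n)⁻¹ ∈ R)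

include hwA hw0 hdisc in
/-- In a DVR: `r ∈ R`, `r / w ∉ R` ⟹ `r` is a unit. -/
theorem inv_mem_of_div_not_mem {r : Ω} (hr : r ∈ R) (hrw : r * w⁻¹ ∉ R) :
    r ≠ 0 ∧ r⁻¹ ∈ R := by
  have hr0 : r ≠ 0 := fun h => hrw (by rw [h, zero_mul]; exact R.zero_mem)
  refine ⟨hr0, ?_⟩
  obtain ⟨n, hn1, hn2⟩ := hdisc r hr hr0
  rcases Nat.eq_zero_or_pos n with hn | hn
  · rw [hn, pow_zero, mul_one] at hn2
    exact hn2
  · exfalso
    apply hrw
    obtain ⟨k, rfl⟩ : ∃ k, n = k + 1 := ⟨n - 1, by omega⟩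
    have : r * w⁻¹ = (r * (w⁻¹) ^ (k + 1)) * w ^ k := by
      rw [pow_succ, inv_pow]
      field_simp
    rw [this]
    exact R.mul_mem hn1 (R.pow_mem hwA k)

include hwA hw0 hdisc in
/-- Dividing a polynomial in `x` by `w` inside `V`. -/
theorem exists_aeval_eq_mul_inv_pow (hx : Transcendental R x) (hRV : R ≤ V) (hwV : w⁻¹ ∉ V)
    (hgauss : ∀ P : Polynomial Ω, (∀ i, P.coeff i ∈ R) →
      (∃ i, P.coeff i ≠ 0 ∧ (P.coeff i)⁻¹ ∈ R) → (P.eval x)⁻¹ ∈ V) :
    ∀ (j : ℕ) (Q : Polynomial R), aeval x Q * (w⁻¹) ^ j ∈ V →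
      ∃ Q' : Polynomial R, aeval x Q' = aeval x Q * (w⁻¹) ^ j := by
  intro j
  induction j with
  | zero => intro Q _; exact ⟨Q, by simp⟩
  | succ j ih =>
    intro Q hQ
    have hwV' : w ∈ V := hRV hwA
    -- `Q(x) / w ∈ V`
    have h1 : aeval x Q * w⁻¹ ∈ V := by
      have : aeval x Q * w⁻¹ = (aeval x Q * (w⁻¹) ^ (j + 1)) * w ^ j := by
        rw [pow_succ, inv_pow]; field_simp
      rw [this]
      exact V.mul_mem hQ (V.pow_mem hwV' j)
    -- all coefficients of `Q` are divisible by `w`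
    have hdiv : ∀ i, ((Q.coeff i : R) : Ω) * w⁻¹ ∈ R := by
      by_contra hne
      push Not at hne
      obtain ⟨i, hi⟩ := hne
      have hu := inv_mem_of_div_not_mem R hwA hw0 hdisc (Q.coeff i).2 hi
      have hg := hgauss (Q.map R.subtype) (fun n => by rw [coeff_map]; exact (Q.coeff n).2)
        ⟨i, by rw [coeff_map]; exact hu⟩
      have hev : (Q.map R.subtype).eval x = aeval x Q := by
        rw [eval_map]; rfl
      rw [hev] at hg
      have hne0 : aeval x Q ≠ 0 := by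
        intro h0
        have := (transcendental_iff.1 hx) Q h0
        apply hu.1
        rw [this]; simp
      apply hwV
      have : w⁻¹ = (aeval x Q * w⁻¹) * (aeval x Q)⁻¹ := by field_simp
      rw [this]
      exact V.mul_mem h1 hg
    -- the quotient polynomial
    let Q₁ : Polynomial R := ∑ i ∈ Q.support, monomial i (⟨(Q.coeff i : Ω) * w⁻¹, hdiv i⟩ : R)
    have hQ₁ : aeval x Q₁ = aeval x Q * w⁻¹ := by
      conv_rhs => rw [Q.as_sum_support]
      simp only [Q₁, map_sum, aeval_monomial, Finset.sum_mul]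
      refine Finset.sum_congr rfl (fun i _ => ?_)
      show (Q.coeff i : Ω) * w⁻¹ * x ^ i = (Q.coeff i : Ω) * x ^ i * w⁻¹
      ring
    have h2 : aeval x Q₁ * (w⁻¹) ^ j ∈ V := by
      rw [hQ₁]
      have : aeval x Q * w⁻¹ * (w⁻¹) ^ j = aeval x Q * (w⁻¹) ^ (j + 1) := by
        rw [pow_succ]; ring
      rw [this]; exact hQ
    obtain ⟨Q', hQ'⟩ := ih Q₁ h2
    refine ⟨Q', ?_⟩
    rw [hQ', hQ₁, pow_succ]; ring

include hwA hw0 hwinv hdisc in
/-- **QEP for the rational function field.** -/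
theorem mem_polyRing_of_gauss (hx : Transcendental R x) (hRV : R ≤ V) (hwV : w⁻¹ ∉ V)
    (hgauss : ∀ P : Polynomial Ω, (∀ i, P.coeff i ∈ R) →
      (∃ i, P.coeff i ≠ 0 ∧ (P.coeff i)⁻¹ ∈ R) → (P.eval x)⁻¹ ∈ V)
    {c : Ω} (hcK : c ∈ Subfield.closure ((R : Set Ω) ∪ {x})) (hcV : c ∈ V)
    (hint : ∃ j : ℕ, IsIntegral (polyRing R x) (c * w ^ j)) : c ∈ polyRing R x := by
  obtain ⟨j, hj⟩ := hint
  have _i1 : IsDiscreteValuationRing R :=
    Fermat.Agent.S18.H94.isDiscreteValuationRing_of_disc94 R hwA hw0 hwinv hdisc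
  have _i2 : IsIntegrallyClosed (Polynomial R) := UniqueFactorizationMonoid.instIsIntegrallyClosed
  have _i3 := Fermat.Agent.S18.H138.isIntegrallyClosed_adjoin_singleton (R := R) hx
  -- `g = c w^j ∈ R[x]`
  have hgK : c * w ^ j ∈ Fermat.Agent.S18.H138.baseField R x := by
    have hb : Fermat.Agent.S18.H138.baseField R x = Subfield.closure ((R : Set Ω) ∪ {x}) := by
      unfold Fermat.Agent.S18.H138.baseField
      congr 2
      ext z
      constructor
      · rintro ⟨a, rfl⟩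
        exact a.2
      · intro hz
        exact ⟨⟨z, hz⟩, rfl⟩
    rw [hb]
    have hwK : w ∈ Subfield.closure ((R : Set Ω) ∪ {x}) :=
      Subfield.subset_closure (Or.inl hwA)
    exact mul_mem hcK (pow_mem hwK j)
  have hgint : IsIntegral (Algebra.adjoin R ({x} : Set Ω)) (c * w ^ j) := by
    have h1 : IsIntegral (Algebra.adjoin R ({x} : Set Ω)).toSubring (c * w ^ j) :=
      isIntegral_of_subring_eq (fun a ha => by rw [polyRing_eq_adjoin] at ha; exact ha) hj
    exact h1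
  have hg : c * w ^ j ∈ Algebra.adjoin R ({x} : Set Ω) :=
    mem_of_isIntegral_of_mem588 _ (Fermat.Agent.S18.H138.baseField R x)
      (fun a ha => Fermat.Agent.S18.H138.adjoin_le_baseField x ha)
      (fun z hz => Fermat.Agent.S18.H138.exists_div_of_mem_baseField x hz) hgK hgint
  obtain ⟨Q, hQ⟩ := Fermat.Agent.S18.H138.mem_adjoin_singleton_iff.1 hg
  have hc : aeval x Q * (w⁻¹) ^ j = c := by
    rw [hQ, inv_pow, mul_assoc, mul_inv_cancel₀ (pow_ne_zero _ hw0), mul_one]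
  obtain ⟨Q', hQ'⟩ := exists_aeval_eq_mul_inv_pow R V hwA hw0 hdisc hx hRV hwV hgauss j Q
    (by rw [hc]; exact hcV)
  rw [mem_polyRing_iff_aeval]
  exact ⟨Q', by rw [hQ', hc]⟩

end Base

section Unique

theorem isIntegral_of_mem_subring {T : Subring Ω} {c : Ω} (hc : c ∈ T) : IsIntegral T c := by
  rw [isIntegral_subring_iff]
  refine ⟨X - C c, monic_X_sub_C c, fun i => ?_, by simp⟩
  rw [coeff_sub, coeff_X, coeff_C]
  split_ifs
  · exact T.sub_mem T.one_mem hc
  · exact T.sub_mem T.one_mem T.zero_mem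
  · exact T.sub_mem T.zero_mem hc
  · exact T.sub_mem T.zero_mem T.zero_mem

/-- **Node I-QEP: unique (Galois-stable) Gauss valuation ⟹ `q`-expansion principle**, for every
intermediate field `Fc ≤ Ffull`.  See the module docstring. -/
theorem qep_of_unique_gauss (Ec Fc Ffull : Subfield Ω) (R V : Subring Ω) {w x : Ω}
    (hRE : ∀ r ∈ R, r ∈ Ec) (hRtot : ∀ e ∈ Ec, e ∈ R ∨ e⁻¹ ∈ R)
    (hwA : w ∈ R) (hw0 : w ≠ 0) (hwinv : w⁻¹ ∉ R)
    (hdisc : ∀ r ∈ R, r ≠ 0 → ∃ n : ℕ, r * (w⁻¹) ^ n ∈ R ∧ (r * (w⁻¹) ^ n)⁻¹ ∈ R)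
    (hx : Transcendental R x)
    (hFc : Fc ≤ Ffull) (hwFc : w ∈ Fc)
    (hRV : R ≤ V) (hwV : w⁻¹ ∉ V)
    (hgauss : ∀ P : Polynomial Ω, (∀ i, P.coeff i ∈ R) →
      (∃ i, P.coeff i ≠ 0 ∧ (P.coeff i)⁻¹ ∈ R) → (P.eval x)⁻¹ ∈ V)
    (G : Subgroup (Ω ≃+* Ω)) [Finite G]
    (hGE : ∀ g ∈ G, ∀ a ∈ Ec, (g : Ω ≃+* Ω) a = a) (hGx : ∀ g ∈ G, (g : Ω ≃+* Ω) x = x)
    (hGF : ∀ g ∈ G, ∀ f ∈ Ffull, (g : Ω ≃+* Ω) f ∈ Ffull)
    (hGV : ∀ g ∈ G, ∀ f ∈ V, (g : Ω ≃+* Ω) f ∈ V)
    (hinv : ∀ f ∈ Ffull, (∀ g ∈ G, (g : Ω ≃+* Ω) f = f) → f ∈ ratField Ec x) :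
    ∀ b ∈ chart Fc R x, b * w⁻¹ ∈ V → b * w⁻¹ ∈ chart Fc R x := by
  intro b hb hbV
  refine ⟨Fc.mul_mem hb.1 (Fc.inv_mem hwFc), ?_⟩
  have hGP : ∀ g ∈ G, ∀ a ∈ polyRing R x, (g : Ω ≃+* Ω) a = a := by
    intro g hg a ha
    unfold polyRing at ha
    induction ha using Subring.closure_induction with
    | mem z hz =>
      rcases hz with hz | hz
      · exact hGE g hg z (hRE z hz)
      · rw [Set.mem_singleton_iff] at hz
        rw [hz]; exact hGx g hg
    | zero => simp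
    | one => simp
    | add y z _ _ hy hz => rw [map_add, hy, hz]
    | neg y _ hy => rw [map_neg, hy]
    | mul y z _ _ hy hz => rw [map_mul, hy, hz]
  have hK : ratField Ec x ≤ Subfield.closure ((R : Set Ω) ∪ {x}) := by
    unfold ratField
    rw [Subfield.closure_le]
    rintro z (hz | hz)
    · rcases hRtot z hz with h1 | h1
      · exact Subfield.subset_closure (Or.inl h1)
      · have : z⁻¹ ∈ Subfield.closure ((R : Set Ω) ∪ {x}) :=
          Subfield.subset_closure (Or.inl h1)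
        have h2 := (Subfield.closure ((R : Set Ω) ∪ {x})).inv_mem this
        rwa [inv_inv] at h2
    · exact Subfield.subset_closure (Or.inr hz)
  refine qep_of_galois (polyRing R x) (ratField Ec x) Ffull V w hw0 (hFc hwFc) G hGP
    (fun g hg => hGE g hg w (hRE w hwA)) hGF hGV hinv ?_ (hFc hb.1) hb.2 hbV
  intro c hcK hcV hint
  exact isIntegral_of_mem_subring
    (mem_polyRing_of_gauss R V hwA hw0 hwinv hdisc hx hRV hwV hgauss (hK hcK) hcV hint)

end Unique

end Fermat.Agent.S48.H588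

end
-- ===== PACK-END S48/H588/QepBase.lean

-- ===== PACK-BEGIN S48/H856/IgusaS18.lean
section




/-!
# S48 / RES (Tower A1) / node IGUSA1 — the node theorem in the language of `S18/Alg/Spec`

`IgusaData` lists the CONCRETE obligations of node IGUSA1 (sub-objects of one field `Ω`, exactly
as in `Fermat.Agent.S18.Alg.GoodModel`):

* `Ffull`  the full-level field `E(X(M))` inside `Ω` (`X`-expansions, `X = q^{1/M}`),
* `F0`     the `Γ₀(M)`-field `E(j_d : d ∣ M)`, for which the `q`-expansion principle `qep0` is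
           known (Igusa for `X₀(M)` = landed S28, via S18 `node_mod`),
* `V`      the Gauss valuation ring, `w` the uniformiser of `R = A ∩ E`, `x = j`,
* `G`      a finite group of automorphisms of `Ω` preserving `Ffull` with `Ffull^G ⊆ E(x)`
           (image of `SL₂(ℤ)`), `B ≤ G` (image of `Γ₀(M)`, `Ffull^B ⊆ F0`), `t ∈ B` (image of
           `T`, acting by `X ↦ ζ X`, hence preserving `V`), whose `G`-conjugates generate `G`.

Results: `IgusaData.stable` (`V ∩ Ffull` is `G`-stable: the Gauss valuation extends uniquely) and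
`IgusaData.qep_fin` (the field `qep_fin` of `GoodModel` for EVERY intermediate field `Fc ≤ Ffull`,
e.g. the `Γ₁(M)`-field).  For `qep_inf` apply `H588.qep_of_unique_gauss` with `x⁻¹` and `stable`.
-/

set_option autoImplicit false

namespace Fermat.Agent.S48.H856

open Fermat.Agent.S18.Alg Polynomial

variable {Ω : Type*} [Field Ω]

/-- The concrete obligations of node IGUSA1 (see the module docstring). -/
structure IgusaData (Ec F0 Ffull : Subfield Ω) (R V : Subring Ω) (w x : Ω)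
    (G B : Subgroup (Ω ≃+* Ω)) (t : Ω ≃+* Ω) : Prop where
  -- `R` is a discrete valuation ring of `Ec` with uniformiser `w`
  R_le : ∀ r ∈ R, r ∈ Ec
  R_total : ∀ e ∈ Ec, e ∈ R ∨ e⁻¹ ∈ R
  w_mem : w ∈ R
  w_ne_zero : w ≠ 0
  w_inv_not_mem : w⁻¹ ∉ R
  w_discrete : ∀ r ∈ R, r ≠ 0 → ∃ n : ℕ, r * (w⁻¹) ^ n ∈ R ∧ (r * (w⁻¹) ^ n)⁻¹ ∈ R
  -- the fields
  E_le : Ec ≤ Ffull
  x_mem : x ∈ Ffull
  x_transcendental : Transcendental R x
  -- the Gauss valuation ring
  R_le_V : R ≤ V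
  x_mem_V : x ∈ V
  V_total : ∀ f ∈ Ffull, f ∈ V ∨ f⁻¹ ∈ V
  w_inv_not_mem_V : w⁻¹ ∉ V
  V_discrete : ∀ f ∈ Ffull, f ≠ 0 → ∃ n : ℤ, f * w ^ n ∈ V ∧ (f * w ^ n)⁻¹ ∈ V
  gauss : ∀ P : Polynomial Ω, (∀ i, P.coeff i ∈ R) → (∃ i, P.coeff i ≠ 0 ∧ (P.coeff i)⁻¹ ∈ R) →
    (P.eval x)⁻¹ ∈ V
  -- the group
  G_finite : Finite G
  G_fix_E : ∀ g ∈ G, ∀ a ∈ Ec, g a = a
  G_fix_x : ∀ g ∈ G, g x = x
  G_stable : ∀ g ∈ G, ∀ f ∈ Ffull, g f ∈ Ffull
  G_inv : ∀ f ∈ Ffull, (∀ g ∈ G, g f = f) → f ∈ ratField Ec x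
  -- the unipotent element and the Borel subgroup
  B_le : B ≤ G
  t_mem : t ∈ B
  t_normal : ∀ b ∈ B, b * t * b⁻¹ ∈ Subgroup.zpowers t
  t_gen : G ≤ Subgroup.closure {s | ∃ g ∈ G, s = g * t * g⁻¹}
  t_V : ∀ f ∈ Ffull, t f ∈ V ↔ f ∈ V
  -- level `Γ₀`: Igusa's theorem for `X₀(M)`
  B_inv : ∀ f ∈ Ffull, (∀ b ∈ B, b f = f) → f ∈ F0
  qep0 : ∀ b ∈ chart F0 R x, b * w⁻¹ ∈ V → b * w⁻¹ ∈ chart F0 R x

namespace IgusaData

variable {Ec F0 Ffull : Subfield Ω} {R V : Subring Ω} {w x : Ω}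
  {G B : Subgroup (Ω ≃+* Ω)} {t : Ω ≃+* Ω}

theorem fix_polyRing (h : IgusaData Ec F0 Ffull R V w x G B t) :
    ∀ g ∈ G, ∀ a ∈ polyRing R x, g a = a := by
  intro g hg a ha
  unfold polyRing at ha
  induction ha using Subring.closure_induction with
  | mem z hz =>
    rcases hz with hz | hz
    · exact h.G_fix_E g hg z (h.R_le z hz)
    · rw [Set.mem_singleton_iff] at hz
      rw [hz]; exact h.G_fix_x g hg
  | zero => simp
  | one => simp
  | add y z _ _ hy hz => rw [map_add, hy, hz]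
  | neg y _ hy => rw [map_neg, hy]
  | mul y z _ _ hy hz => rw [map_mul, hy, hz]

theorem polyRing_le_full (h : IgusaData Ec F0 Ffull R V w x G B t) :
    polyRing R x ≤ Ffull.toSubring := by
  unfold polyRing
  rw [Subring.closure_le]
  rintro z (hz | hz)
  · exact h.E_le (h.R_le z hz)
  · rw [Set.mem_singleton_iff] at hz
    rw [hz]; exact h.x_mem

theorem polyRing_le_V (h : IgusaData Ec F0 Ffull R V w x G B t) : polyRing R x ≤ V := by
  unfold polyRing
  rw [Subring.closure_le]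
  rintro z (hz | hz)
  · exact h.R_le_V hz
  · rw [Set.mem_singleton_iff] at hz
    rw [hz]; exact h.x_mem_V

/-- integrality over the pulled-back subring of the subfield `Ffull` -/
theorem isIntegral_comap_iff (Ffull : Subfield Ω) (T : Subring Ω) (hT : T ≤ Ffull.toSubring)
    (y : Ffull) :
    IsIntegral (T.comap Ffull.subtype) y ↔ IsIntegral T (y : Ω) := by
  rw [H588.isIntegral_subring_iff, H588.isIntegral_subring_iff]
  constructor
  · rintro ⟨p, hp, hc, hpy⟩
    refine ⟨p.map Ffull.subtype, hp.map _, fun i => ?_, ?_⟩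
    · rw [coeff_map]; exact hc i
    · have := congrArg Ffull.subtype hpy
      rwa [map_zero, ← eval₂_at_apply, ← eval_map] at this
  · rintro ⟨p, hp, hc, hpy⟩
    have hsub : (↑p.coeffs : Set Ω) ⊆ Ffull.toSubring := by
      intro c hc'
      obtain ⟨i, _, rfl⟩ := Polynomial.mem_coeffs_iff.mp (by exact_mod_cast hc')
      exact hT (hc i)
    refine ⟨p.toSubring Ffull.toSubring hsub, (p.monic_toSubring _ _).mpr hp, fun i => ?_, ?_⟩
    · show ((p.toSubring Ffull.toSubring hsub).coeff i : Ω) ∈ T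
      rw [Polynomial.coeff_toSubring]
      exact hc i
    · apply Subtype.ext
      have h1 : ((p.toSubring Ffull.toSubring hsub).map Ffull.toSubring.subtype).eval (y : Ω)
          = 0 := by
        rw [p.map_toSubring Ffull.toSubring hsub]; exact hpy
      rw [eval_map] at h1
      have h2 := Polynomial.eval₂_at_apply (p := p.toSubring Ffull.toSubring hsub)
        Ffull.subtype y
      exact h2.symm.trans h1


theorem ratField_le_closure (h : IgusaData Ec F0 Ffull R V w x G B t) :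
    ratField Ec x ≤ Subfield.closure ((R : Set Ω) ∪ {x}) := by
  unfold ratField
  rw [Subfield.closure_le]
  rintro z (hz | hz)
  · rcases h.R_total z hz with h1 | h1
    · exact Subfield.subset_closure (Or.inl h1)
    · have : z⁻¹ ∈ Subfield.closure ((R : Set Ω) ∪ {x}) :=
        Subfield.subset_closure (Or.inl h1)
      have h2 := (Subfield.closure ((R : Set Ω) ∪ {x})).inv_mem this
      rwa [inv_inv] at h2
  · exact Subfield.subset_closure (Or.inr hz)

/-- **Unique extension of the Gauss valuation to the full-level field**: `V ∩ Ffull` is stable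
under `G`. -/
theorem stable (h : IgusaData Ec F0 Ffull R V w x G B t) :
    ∀ g ∈ G, ∀ f ∈ Ffull, f ∈ V → g f ∈ V := by
  classical
  have := h.G_finite
  let act : MulSemiringAction G Ffull :=
    { smul := fun g f => ⟨(g : Ω ≃+* Ω) f, h.G_stable g g.2 f f.2⟩
      one_smul := fun f => Subtype.ext rfl
      mul_smul := fun g g' f => Subtype.ext rfl
      smul_zero := fun g => Subtype.ext (map_zero _)
      smul_add := fun g a b => Subtype.ext (map_add _ _ _)
      smul_one := fun g => Subtype.ext (map_one _)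
      smul_mul := fun g a b => Subtype.ext (map_mul _ _ _) }
  have hsmul : ∀ (g : G) (f : Ffull), ((g • f : Ffull) : Ω) = (g : Ω ≃+* Ω) f := fun _ _ => rfl
  let 𝒱 : ValuationSubring Ffull :=
    { V.comap Ffull.subtype with
      mem_or_inv_mem' := fun f => by
        rcases h.V_total f f.2 with h1 | h1
        · exact Or.inl h1
        · exact Or.inr h1 }
  have hmem𝒱 : ∀ f : Ffull, f ∈ 𝒱 ↔ (f : Ω) ∈ V := fun f => Iff.rfl
  let A₀ : Subring Ffull := (polyRing R x).comap Ffull.subtype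
  have hmemA : ∀ f : Ffull, f ∈ A₀ ↔ (f : Ω) ∈ polyRing R x := fun f => Iff.rfl
  let w' : Ffull := ⟨w, h.E_le (h.R_le w h.w_mem)⟩
  let t' : G := ⟨t, h.B_le h.t_mem⟩
  let B' : Subgroup G := B.subgroupOf G
  have hw'0 : w' ≠ 0 := fun h0 => h.w_ne_zero (congrArg Subtype.val h0)
  -- (1) discreteness
  have hV : IsDiscrete 𝒱 w' := by
    refine ⟨(valuation_lt_one_iff_inv_notMem hw'0).mpr ?_, hw'0, ?_⟩
    · intro hmem
      exact h.w_inv_not_mem_V ((hmem𝒱 _).mp hmem)
    · intro y hy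
      have hy0 : (y : Ω) ≠ 0 := fun h0 => hy (Subtype.ext h0)
      obtain ⟨n, hn1, hn2⟩ := h.V_discrete y y.2 hy0
      have hcoe : ((y * w' ^ n : Ffull) : Ω) = (y : Ω) * w ^ n := by
        have : ((w' ^ n : Ffull) : Ω) = w ^ n := map_zpow₀ Ffull.subtype w' n
        rw [Subfield.coe_mul, this]
      have h1 : y * w' ^ n ∈ 𝒱 := by rw [hmem𝒱, hcoe]; exact hn1
      have h2 : (y * w' ^ n)⁻¹ ∈ 𝒱 := by
        rw [hmem𝒱, Subfield.coe_inv, hcoe]; exact hn2
      have h3 : 𝒱.valuation (y * w' ^ n) ≤ 1 := (𝒱.valuation_le_one_iff _).mpr h1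
      have h4 : 𝒱.valuation (y * w' ^ n)⁻¹ ≤ 1 := (𝒱.valuation_le_one_iff _).mpr h2
      have hne : y * w' ^ n ≠ 0 := mul_ne_zero hy (zpow_ne_zero _ hw'0)
      have hpos : 0 < 𝒱.valuation (y * w' ^ n) :=
        zero_lt_iff.mpr ((Valuation.ne_zero_iff _).mpr hne)
      rw [map_inv₀] at h4
      have h5 : 1 ≤ 𝒱.valuation (y * w' ^ n) := (inv_le_one₀ hpos).mp h4
      have h6 : 𝒱.valuation (y * w' ^ n) = 1 := le_antisymm h3 h5
      rw [map_mul, map_zpow₀] at h6
      refine ⟨-n, ?_⟩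
      rw [zpow_neg]
      exact eq_inv_of_mul_eq_one_left h6
  -- (2) the base ring
  have hA_fix : ∀ a ∈ A₀, ∀ g : G, g • a = a := fun a ha g =>
    Subtype.ext (h.fix_polyRing g g.2 a ha)
  have hA_frac : ∀ y : Ffull, (∀ g : G, g • y = y) →
      ∃ a ∈ A₀, ∃ s ∈ A₀, s ≠ 0 ∧ y * s = a := by
    intro y hy
    have hy' : (y : Ω) ∈ ratField Ec x :=
      h.G_inv y y.2 (fun g hg => congrArg Subtype.val (hy ⟨g, hg⟩))
    obtain ⟨a, ha, b, hb, hab⟩ := Subfield.mem_closure_iff.1 (h.ratField_le_closure hy')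
    have haF : a ∈ Ffull := h.polyRing_le_full ha
    have hbF : b ∈ Ffull := h.polyRing_le_full hb
    by_cases hb0 : b = 0
    · refine ⟨0, A₀.zero_mem, 1, A₀.one_mem, one_ne_zero, ?_⟩
      apply Subtype.ext
      rw [hb0, div_zero] at hab
      simp [← hab]
    · refine ⟨⟨a, haF⟩, ha, ⟨b, hbF⟩, hb, fun h0 => hb0 (congrArg Subtype.val h0), ?_⟩
      apply Subtype.ext
      show (y : Ω) * b = a
      rw [← hab, div_mul_cancel₀ _ hb0]
  have hA_le : A₀ ≤ 𝒱.toSubring := fun a ha => h.polyRing_le_V ha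
  have hw_mem : w' ∈ A₀ := Subring.subset_closure (Or.inl h.w_mem)
  -- (3) the group
  have htn : ∀ b ∈ B', b * t' * b⁻¹ ∈ Subgroup.zpowers t' := by
    intro b hb
    have hb' : (b : Ω ≃+* Ω) ∈ B := Subgroup.mem_subgroupOf.mp hb
    obtain ⟨k, hk⟩ := Subgroup.mem_zpowers_iff.mp (h.t_normal b hb')
    refine Subgroup.mem_zpowers_iff.mpr ⟨k, ?_⟩
    apply Subtype.ext
    rw [Subgroup.coe_zpow]
    exact hk
  have hgen : Subgroup.normalClosure ({t'} : Set G) = ⊤ := by
    rw [eq_top_iff]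
    intro g _
    have hg := h.t_gen g.2
    have hP : ∀ s (hs : s ∈ Subgroup.closure {s | ∃ g ∈ G, s = g * t * g⁻¹}),
        ∃ hsG : s ∈ G, (⟨s, hsG⟩ : G) ∈ Subgroup.normalClosure ({t'} : Set G) := by
      intro s hs
      induction hs using Subgroup.closure_induction with
      | mem z hz =>
        obtain ⟨g₁, hg₁, rfl⟩ := hz
        refine ⟨G.mul_mem (G.mul_mem hg₁ (h.B_le h.t_mem)) (G.inv_mem hg₁), ?_⟩
        have hn : (Subgroup.normalClosure ({t'} : Set G)).Normal :=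
          Subgroup.normalClosure_normal
        have := hn.conj_mem t' (Subgroup.subset_normalClosure (Set.mem_singleton t'))
          ⟨g₁, hg₁⟩
        exact this
      | one => exact ⟨G.one_mem, Subgroup.one_mem _⟩
      | mul y z _ _ hy hz =>
        obtain ⟨hy1, hy2⟩ := hy
        obtain ⟨hz1, hz2⟩ := hz
        exact ⟨G.mul_mem hy1 hz1, Subgroup.mul_mem _ hy2 hz2⟩
      | inv y _ hy =>
        obtain ⟨hy1, hy2⟩ := hy
        exact ⟨G.inv_mem hy1, Subgroup.inv_mem _ hy2⟩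
    obtain ⟨_, h2⟩ := hP g hg
    exact h2
  have htV : ∀ y : Ffull, t' • y ∈ 𝒱 ↔ y ∈ 𝒱 := fun y => h.t_V y y.2
  -- (4) Igusa for `X₀(M)`
  have hq0 : ∀ b : Ffull, (∀ β ∈ B', β • b = b) → IsIntegral A₀ b → b * w'⁻¹ ∈ 𝒱 →
      IsIntegral A₀ (b * w'⁻¹) := by
    intro b hbB hbint hbV
    have hbF0 : (b : Ω) ∈ F0 := h.B_inv b b.2 (fun β hβ =>
      congrArg Subtype.val (hbB ⟨β, h.B_le hβ⟩ (Subgroup.mem_subgroupOf.mpr hβ)))
    have hbint' : IsIntegral (polyRing R x) (b : Ω) :=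
      (isIntegral_comap_iff Ffull _ h.polyRing_le_full b).mp hbint
    have hbV' : (b : Ω) * w⁻¹ ∈ V := hbV
    have h1 := h.qep0 (b : Ω) ⟨hbF0, hbint'⟩ hbV'
    exact (isIntegral_comap_iff Ffull _ h.polyRing_le_full (b * w'⁻¹)).mpr h1.2
  have key := stable_of_unipotent 𝒱 w' A₀ B' t' hV hA_fix hA_frac hA_le hw_mem htn hgen htV hq0
  intro g hg f hf hfV
  exact (key ⟨g, hg⟩ ⟨f, hf⟩).mpr hfV

/-- **Node IGUSA1.**  The `q`-expansion principle (`GoodModel.qep_fin`) for every intermediate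
field `Fc ≤ Ffull`, in particular for the `Γ₁(M)`-field. -/
theorem qep_fin (h : IgusaData Ec F0 Ffull R V w x G B t) (Fc : Subfield Ω) (hFc : Fc ≤ Ffull)
    (hwFc : w ∈ Fc) :
    ∀ b ∈ chart Fc R x, b * w⁻¹ ∈ V → b * w⁻¹ ∈ chart Fc R x := by
  have := h.G_finite
  intro b hb hbV
  have hbF : b * w⁻¹ ∈ Ffull := Ffull.mul_mem (hFc hb.1) (Ffull.inv_mem (hFc hwFc))
  have hRF : R ≤ Ffull.toSubring := fun r hr => h.E_le (h.R_le r hr)
  refine H588.qep_of_unique_gauss Ec Fc Ffull R (V ⊓ Ffull.toSubring) h.R_le h.R_total h.w_mem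
    h.w_ne_zero h.w_inv_not_mem h.w_discrete h.x_transcendental hFc hwFc
    (le_inf h.R_le_V hRF) (fun hmem => h.w_inv_not_mem_V hmem.1) ?_ G h.G_fix_E h.G_fix_x
    h.G_stable ?_ h.G_inv b hb ⟨hbV, hbF⟩
  · intro P hP hP'
    refine ⟨h.gauss P hP hP', Ffull.inv_mem ?_⟩
    rw [Polynomial.eval_eq_sum_range]
    exact Ffull.sum_mem fun i _ => Ffull.mul_mem (hRF (hP i)) (Ffull.pow_mem h.x_mem i)
  · intro g hg f hf
    exact ⟨h.stable g hg f hf.2 hf.1, h.G_stable g hg f hf.2⟩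

end IgusaData

end Fermat.Agent.S48.H856

end
-- ===== PACK-END S48/H856/IgusaS18.lean

-- ===== PACK-BEGIN S48/H128/SepGen.lean
section




/-!
# S48 / RES (Tower A1) / A1-RED, leaf SEP1 (helper128): the field `separable`, GENERIC

Setting of `S48/H248/IVBasic.lean` (helper248): `K` a field (`Q̄`), `A` a valuation subring of
`K`, `E` a subfield of `K`, `Ω` a field with a ring hom `ι : Ω →+* K((X))`, `F` a subfield of
`Ω`, `cst : K →+* Ω` the constants, `V = H248.VRing A E ι F` the Gauss valuation ring of `F`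
(same shape as `S18.Mod.VcSet`).

Main results (namespace `Fermat.Agent.S48.H128`):

* `sepRel A E ι F`               : the reduction relation (`(g, ḡ)`, `g = U₁/U₂`, `ḡ = Ū₁/Ū₂`);
* `exists_reduced_relation`      : **Gauss normalisation**: a nontrivial `K`-linear relation between
                                   elements having reductions yields a nontrivial `κ`-linear relation
                                   between the reductions;
* `isAlgebraic_red_of_biRel`     : `f` algebraic over `K(x)` ⟹ `f̄` algebraic over `𝔽_ℓ(x̄)`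
                                   (NO `CoreData`, no degree count);
* `separable_VRing`              : the field `separable` of `S18.Alg.GoodModel` /
                                   `S48.H588.StepCore` for `V = VRing A E ι F`, any coordinate `x`
                                   which is an integral series with `ℓ ∤ ord (x̄)`;
* `partSep_VRing`, `partSep_VRing_of_finite` : the same as `S18.Mod.H216.PartSep`.
-/

set_option autoImplicit false

noncomputable section

namespace Fermat.Agent.S48.H128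

open HahnSeries ModularCurve Polynomial
open Fermat.Agent.S48.H248

section Rel

variable {K : Type*} [Field K] (A : ValuationSubring K) (E : Subfield K)
variable {Ω : Type*} [Field Ω] (ι : Ω →+* LaurentSeries K) (F : Subfield Ω)

/-- The reduction relation on the Gauss valuation ring `H248.VRing A E ι F`:
`(g, ḡ) ∈ sepRel` iff `g = U₁/U₂` and `ḡ = Ū₁/Ū₂` for integral series `U₁, U₂` (in the sense of
`H248.IsInt`) with `Ū₂ ≠ 0`. -/
def sepRel : Subring (Ω × LaurentSeries (IsLocalRing.ResidueField A)) where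
  carrier := {z | z.1 ∈ F ∧ ∃ U₁ U₂ : LaurentSeries A, IsInt A E ι F U₁ ∧ IsInt A E ι F U₂ ∧
    ivRed A U₂ ≠ 0 ∧ ι z.1 * ivInc A U₂ = ivInc A U₁ ∧ z.2 * ivRed A U₂ = ivRed A U₁}
  zero_mem' := by
    refine ⟨zero_mem _, 0, 1, isInt_zero, isInt_one, ?_, ?_, ?_⟩
    · rw [map_one]; exact one_ne_zero
    · simp
    · simp
  one_mem' := by
    refine ⟨one_mem _, 1, 1, isInt_one, isInt_one, ?_, ?_, ?_⟩
    · rw [map_one]; exact one_ne_zero
    · simp
    · simp
  add_mem' := by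
    rintro ⟨f, a⟩ ⟨g, b⟩ ⟨hf, U₁, U₂, h₁, h₂, hne, heq, hred⟩ ⟨hg, W₁, W₂, k₁, k₂, kne, keq, kred⟩
    refine ⟨add_mem hf hg, U₁ * W₂ + W₁ * U₂, U₂ * W₂, IsInt.add (IsInt.mul h₁ k₂) (IsInt.mul k₁ h₂),
      IsInt.mul h₂ k₂, ?_, ?_, ?_⟩
    · rw [map_mul]; exact mul_ne_zero hne kne
    · simp only [Prod.fst_add] at heq keq ⊢
      rw [map_add, map_add, map_mul, map_mul, map_mul, ← heq, ← keq]
      ring
    · simp only [Prod.snd_add] at hred kred ⊢
      rw [map_add, map_mul, map_mul, map_mul, ← hred, ← kred]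
      ring
  neg_mem' := by
    rintro ⟨f, a⟩ ⟨hf, U₁, U₂, h₁, h₂, hne, heq, hred⟩
    refine ⟨neg_mem hf, -U₁, U₂, IsInt.neg h₁, h₂, hne, ?_, ?_⟩
    · simp only [Prod.fst_neg] at heq ⊢
      rw [map_neg, map_neg, ← heq]
      ring
    · simp only [Prod.snd_neg] at hred ⊢
      rw [map_neg, ← hred]
      ring
  mul_mem' := by
    rintro ⟨f, a⟩ ⟨g, b⟩ ⟨hf, U₁, U₂, h₁, h₂, hne, heq, hred⟩ ⟨hg, W₁, W₂, k₁, k₂, kne, keq, kred⟩
    refine ⟨mul_mem hf hg, U₁ * W₁, U₂ * W₂, IsInt.mul h₁ k₁, IsInt.mul h₂ k₂, ?_, ?_, ?_⟩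
    · rw [map_mul]; exact mul_ne_zero hne kne
    · simp only [Prod.fst_mul] at heq keq ⊢
      rw [map_mul, map_mul, map_mul, ← heq, ← keq]
      ring
    · simp only [Prod.snd_mul] at hred kred ⊢
      rw [map_mul, map_mul, ← hred, ← kred]
      ring

variable {A E ι F}

theorem mem_sepRel {g : Ω} {a : LaurentSeries (IsLocalRing.ResidueField A)} :
    (g, a) ∈ sepRel A E ι F ↔ g ∈ F ∧ ∃ U₁ U₂ : LaurentSeries A, IsInt A E ι F U₁ ∧
      IsInt A E ι F U₂ ∧ ivRed A U₂ ≠ 0 ∧ ι g * ivInc A U₂ = ivInc A U₁ ∧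
      a * ivRed A U₂ = ivRed A U₁ := Iff.rfl

/-- every element of the Gauss valuation ring has a reduction. -/
theorem exists_sepRel_of_mem_VRing {f : Ω} (hf : f ∈ VRing A E ι F) :
    ∃ a, (f, a) ∈ sepRel A E ι F := by
  obtain ⟨hfF, U₁, U₂, h₁, h₂, hne, heq⟩ := hf
  refine ⟨ivRed A U₁ * (ivRed A U₂)⁻¹, hfF, U₁, U₂, h₁, h₂, hne, heq, ?_⟩
  rw [mul_assoc, inv_mul_cancel₀ hne, mul_one]

theorem mem_VRing_of_sepRel {g : Ω} {a : LaurentSeries (IsLocalRing.ResidueField A)}
    (h : (g, a) ∈ sepRel A E ι F) : g ∈ VRing A E ι F := by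
  obtain ⟨hgF, U₁, U₂, h₁, h₂, hne, heq, -⟩ := h
  exact ⟨hgF, U₁, U₂, h₁, h₂, hne, heq⟩

/-- the reduction of `0` is `0`. -/
theorem sepRel_zero_left {b : LaurentSeries (IsLocalRing.ResidueField A)}
    (h : ((0 : Ω), b) ∈ sepRel A E ι F) : b = 0 := by
  obtain ⟨-, U₁, U₂, -, -, hne, heq, hred⟩ := h
  have h0 : ivInc A U₁ = 0 := by
    rw [← heq]
    simp
  have hU : U₁ = 0 := ivInc_injective (by rw [h0, map_zero])
  rw [hU, map_zero] at hred
  rcases mul_eq_zero.mp hred with h | h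
  · exact h
  · exact absurd h hne

/-- an element with nonzero reduction is a unit of the Gauss valuation ring. -/
theorem sepRel_unit {g : Ω} {a : LaurentSeries (IsLocalRing.ResidueField A)}
    (h : (g, a) ∈ sepRel A E ι F) (ha : a ≠ 0) : g ≠ 0 ∧ g⁻¹ ∈ VRing A E ι F := by
  obtain ⟨hgF, U₁, U₂, h₁, h₂, hne, heq, hred⟩ := h
  have hne₁ : ivRed A U₁ ≠ 0 := by
    rw [← hred]
    exact mul_ne_zero ha hne
  have hg0 : g ≠ 0 := by
    rintro rfl
    apply hne₁
    have h0 : ivInc A U₁ = 0 := by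
      rw [← heq]
      simp
    have hU : U₁ = 0 := ivInc_injective (by rw [h0, map_zero])
    rw [hU, map_zero]
  refine ⟨hg0, inv_mem hgF, U₂, U₁, h₂, h₁, hne₁, ?_⟩
  have hg0' : ι g ≠ 0 := fun h => hg0 (ι.injective (by rw [h, map_zero]))
  rw [map_inv₀, ← heq, ← mul_assoc, inv_mul_cancel₀ hg0', one_mul]

/-- the relation is monotone in `E` and `F`. -/
theorem sepRel_mono {E' : Subfield K} {F' : Subfield Ω} (hE : E ≤ E') (hF : F ≤ F') :
    sepRel A E ι F ≤ sepRel A E' ι F' := by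
  rintro ⟨g, a⟩ ⟨hgF, U₁, U₂, h₁, h₂, hne, heq, hred⟩
  have key : ∀ U : LaurentSeries A, IsInt A E ι F U → IsInt A E' ι F' U := by
    rintro U ⟨h1, f, hf, hfU⟩
    exact ⟨fun n => hE (h1 n), f, hF hf, hfU⟩
  exact ⟨hF hgF, U₁, U₂, key _ h₁, key _ h₂, hne, heq, hred⟩

/-- an integral series is related to its reduction. -/
theorem sepRel_of_isInt {x : Ω} {X₀ : LaurentSeries A} (hX₀ : IsInt A E ι F X₀)
    (hx : ι x = ivInc A X₀) : (x, ivRed A X₀) ∈ sepRel A E ι F := by
  obtain ⟨f, hf, hfU⟩ := hX₀.2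
  have hxf : x = f := ι.injective (by rw [hx, hfU])
  refine ⟨hxf ▸ hf, X₀, 1, hX₀, isInt_one, ?_, ?_, ?_⟩
  · rw [map_one]; exact one_ne_zero
  · rw [map_one, mul_one, hx]
  · rw [map_one, mul_one]

section Constants

variable (cst : K →+* Ω) (hcst : ∀ c : K, ι (cst c) = HahnSeries.C c)

include hcst

/-- constants of `A ∩ E` are related to their residue classes. -/
theorem sepRel_cst (hEF : ∀ c ∈ E, cst c ∈ F) (c : A) (hc : (c : K) ∈ E) :
    (cst (c : K), HahnSeries.C (IsLocalRing.residue A c)) ∈ sepRel A E ι F := by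
  have h := sepRel_of_isInt (x := cst (c : K)) (isInt_C cst hcst hEF hc)
    (by rw [hcst, ivInc_C])
  rwa [ivRed_C] at h

/-- an element with zero reduction is divisible by the uniformiser (hypothesis in the weak
form `gen`, implied by `H248.IsUnifG.gen`). -/
theorem sepRel_ker (hEF : ∀ c ∈ E, cst c ∈ F) {w₀ : K} (hwE : w₀ ∈ E)
    (hw0 : w₀ ≠ 0) (hgen : ∀ c : K, c ∈ A → c ∈ E → c⁻¹ ∉ A → c * w₀⁻¹ ∈ A) {g : Ω}
    (h : (g, (0 : LaurentSeries (IsLocalRing.ResidueField A))) ∈ sepRel A E ι F) :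
    g * (cst w₀)⁻¹ ∈ VRing A E ι F := by
  obtain ⟨hgF, U₁, U₂, h₁, h₂, hne, heq, hred⟩ := h
  rw [zero_mul] at hred
  have hcoef : ∀ n, (HahnSeries.C (w₀⁻¹) * ivInc A U₁).coeff n ∈ A := by
    intro n
    rw [HahnSeries.C_mul_eq_smul, HahnSeries.coeff_smul, ivInc_coeff, smul_eq_mul, mul_comm]
    have hm := (ivRed_eq_zero_iff U₁).mp hred.symm n
    rcases (iv_mem_maximalIdeal_iff _).mp hm with h0 | hni
    · rw [h0, zero_mul]; exact A.zero_mem
    · exact hgen _ (U₁.coeff n).2 (h₁.1 n) hni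
  obtain ⟨U', hU'⟩ := exists_ivInc_eq hcoef
  obtain ⟨f, hf, hfU⟩ := h₁.2
  have hCw : (HahnSeries.C w₀ : LaurentSeries K) ≠ 0 := by
    rw [← hcst]
    exact fun h => hw0 (cst.injective (ι.injective (by rw [h, map_zero, map_zero])))
  have hU'int : IsInt A E ι F U' := by
    refine ⟨fun n => ?_, (cst w₀)⁻¹ * f, mul_mem (inv_mem (hEF _ hwE)) hf, ?_⟩
    · rw [← ivInc_coeff, hU', HahnSeries.C_mul_eq_smul, HahnSeries.coeff_smul, smul_eq_mul]
      exact E.mul_mem (E.inv_mem hwE) (h₁.coeff_mem n)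
    · rw [map_mul, map_inv₀, hcst, hfU, hU', ← map_inv₀]
  refine ⟨mul_mem hgF (inv_mem (hEF _ hwE)), U', U₂, hU'int, h₂, hne, ?_⟩
  rw [map_mul, map_inv₀, hcst, hU', ← heq, map_inv₀]
  ring

end Constants

end Rel

/-! ### Gauss normalisation -/

section Normalise

variable {K : Type*} [Field K] {A : ValuationSubring K}
variable {Ω : Type*} [Field Ω] {ι : Ω →+* LaurentSeries K}
variable (cst : K →+* Ω) (hcst : ∀ c : K, ι (cst c) = HahnSeries.C c)

include hcst

/-- **Gauss normalisation.**  A nontrivial `K`-linear relation between elements `g m` having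
reductions `gb m` gives a nontrivial `κ`-linear relation between the reductions (divide by the
coefficient of largest absolute value; all quotients lie in the valuation ring `A`). -/
theorem exists_reduced_relation {σ : Type*} (s : Finset σ) (c : σ → K) (g : σ → Ω)
    (gb : σ → LaurentSeries (IsLocalRing.ResidueField A))
    (hg : ∀ m ∈ s, (g m, gb m) ∈ sepRel A ⊤ ι ⊤)
    (hc : ∃ m ∈ s, c m ≠ 0) (hsum : ∑ m ∈ s, cst (c m) * g m = 0) :
    ∃ d : σ → IsLocalRing.ResidueField A, (∃ m ∈ s, d m = 1) ∧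
      ∑ m ∈ s, HahnSeries.C (d m) * gb m = 0 := by
  classical
  obtain ⟨m₀, hm₀s, hm₀⟩ := hc
  have hne : (s.filter (fun m => c m ≠ 0)).Nonempty :=
    ⟨m₀, Finset.mem_filter.mpr ⟨hm₀s, hm₀⟩⟩
  obtain ⟨m₁, hm₁, hmax⟩ := Finset.exists_max_image _ (fun m => A.valuation (c m)) hne
  obtain ⟨hm₁s, hc₁⟩ := Finset.mem_filter.mp hm₁
  have hv₁ : A.valuation (c m₁) ≠ 0 := (Valuation.ne_zero_iff _).mpr hc₁
  have hle : ∀ m ∈ s, c m / c m₁ ∈ A := by
    intro m hm
    rw [← A.valuation_le_one_iff, map_div₀]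
    by_cases h0 : c m = 0
    · rw [h0, map_zero, zero_div]
      exact zero_le_one
    · exact (div_le_one₀ (zero_lt_iff.mpr hv₁)).mpr (hmax m (Finset.mem_filter.mpr ⟨hm, h0⟩))
  let e : σ → A := fun m => if h : c m / c m₁ ∈ A then ⟨c m / c m₁, h⟩ else 0
  have he : ∀ m ∈ s, ((e m : A) : K) = c m / c m₁ := by
    intro m hm
    simp only [e, dif_pos (hle m hm)]
  refine ⟨fun m => IsLocalRing.residue A (e m), ⟨m₁, hm₁s, ?_⟩, ?_⟩
  · have h1 : e m₁ = 1 := Subtype.ext (by rw [he m₁ hm₁s, div_self hc₁]; rfl)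
    show IsLocalRing.residue A (e m₁) = 1
    rw [h1, map_one]
  · have hmem : ∑ m ∈ s, ((cst ((e m : A) : K), HahnSeries.C (IsLocalRing.residue A (e m))) :
        Ω × LaurentSeries (IsLocalRing.ResidueField A)) * (g m, gb m) ∈ sepRel A ⊤ ι ⊤ :=
      sum_mem fun m hm => mul_mem
        (sepRel_cst cst hcst (fun _ _ => Subfield.mem_top _) (e m) (Subfield.mem_top _)) (hg m hm)
    have h1 : (∑ m ∈ s, ((cst ((e m : A) : K), HahnSeries.C (IsLocalRing.residue A (e m))) :
        Ω × LaurentSeries (IsLocalRing.ResidueField A)) * (g m, gb m)) =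
        (0, ∑ m ∈ s, HahnSeries.C (IsLocalRing.residue A (e m)) * gb m) := by
      apply Prod.ext
      · rw [Prod.fst_sum]
        simp only [Prod.mk_mul_mk]
        have h2 : ∀ m ∈ s, cst ((e m : A) : K) * g m = (cst (c m₁))⁻¹ * (cst (c m) * g m) := by
          intro m hm
          rw [he m hm, map_div₀]
          ring
        rw [Finset.sum_congr rfl h2, ← Finset.mul_sum, hsum, mul_zero]
      · rw [Prod.snd_sum]
        simp only [Prod.mk_mul_mk]
    rw [h1] at hmem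
    exact sepRel_zero_left hmem

/-- The bivariate form: a nonzero `P ∈ K[X][Y]` with `P(x, f) = 0` gives a nontrivial relation
`∑ d(i,k) x̄^k f̄^i = 0` over the residue field. -/
theorem exists_reduced_biRel {x f : Ω} {xb a : LaurentSeries (IsLocalRing.ResidueField A)}
    (hx : (x, xb) ∈ sepRel A ⊤ ι ⊤) (hf : (f, a) ∈ sepRel A ⊤ ι ⊤)
    (P : Polynomial (Polynomial K)) (hP : P ≠ 0)
    (hPf : P.eval₂ (Polynomial.eval₂RingHom cst x) f = 0) :
    ∃ (N₁ N₂ : ℕ) (d : ℕ × ℕ → IsLocalRing.ResidueField A),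
      (∃ m ∈ Finset.range N₁ ×ˢ Finset.range N₂, d m = 1) ∧
      ∑ m ∈ Finset.range N₁ ×ˢ Finset.range N₂, HahnSeries.C (d m) * (xb ^ m.2 * a ^ m.1) = 0 := by
  classical
  set N₁ := P.natDegree + 1 with hN₁
  set N₂ := (Finset.range N₁).sup (fun i => (P.coeff i).natDegree) + 1 with hN₂
  have hdeg : ∀ i ∈ Finset.range N₁, (P.coeff i).natDegree < N₂ := by
    intro i hi
    rw [hN₂, Nat.lt_succ_iff]
    exact Finset.le_sup (f := fun i => (P.coeff i).natDegree) hi
  have hg : ∀ m ∈ Finset.range N₁ ×ˢ Finset.range N₂,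
      (x ^ m.2 * f ^ m.1, xb ^ m.2 * a ^ m.1) ∈ sepRel A ⊤ ι ⊤ := by
    intro m _
    have h1 : ((x, xb) : Ω × LaurentSeries (IsLocalRing.ResidueField A)) ^ m.2 * (f, a) ^ m.1 ∈
        sepRel A ⊤ ι ⊤ := mul_mem (pow_mem hx _) (pow_mem hf _)
    have h2 : ((x, xb) : Ω × LaurentSeries (IsLocalRing.ResidueField A)) ^ m.2 * (f, a) ^ m.1 =
        (x ^ m.2 * f ^ m.1, xb ^ m.2 * a ^ m.1) := by
      rw [Prod.pow_mk, Prod.pow_mk, Prod.mk_mul_mk]
    rwa [h2] at h1
  have hc : ∃ m ∈ Finset.range N₁ ×ˢ Finset.range N₂, (P.coeff m.1).coeff m.2 ≠ 0 := by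
    have hlc : P.coeff P.natDegree ≠ 0 := by
      rw [Polynomial.coeff_natDegree]
      exact Polynomial.leadingCoeff_ne_zero.mpr hP
    have hlc' : (P.coeff P.natDegree).coeff (P.coeff P.natDegree).natDegree ≠ 0 := by
      rw [Polynomial.coeff_natDegree]
      exact Polynomial.leadingCoeff_ne_zero.mpr hlc
    have hi : P.natDegree ∈ Finset.range N₁ := Finset.mem_range.mpr (Nat.lt_succ_self _)
    exact ⟨(P.natDegree, (P.coeff P.natDegree).natDegree),
      Finset.mem_product.mpr ⟨hi, Finset.mem_range.mpr (hdeg _ hi)⟩, hlc'⟩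
  have hsum : ∑ m ∈ Finset.range N₁ ×ˢ Finset.range N₂,
      cst ((P.coeff m.1).coeff m.2) * (x ^ m.2 * f ^ m.1) = 0 := by
    rw [Finset.sum_product]
    rw [Polynomial.eval₂_eq_sum_range] at hPf
    rw [← hPf]
    refine Finset.sum_congr rfl fun i hi => ?_
    rw [Polynomial.coe_eval₂RingHom, Polynomial.eval₂_eq_sum_range' cst (hdeg i hi),
      Finset.sum_mul]
    refine Finset.sum_congr rfl fun k _ => ?_
    ring
  obtain ⟨d, hd1, hd2⟩ := exists_reduced_relation (A := A) (ι := ι) cst hcst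
    (Finset.range N₁ ×ˢ Finset.range N₂) (fun m : ℕ × ℕ => (P.coeff m.1).coeff m.2)
    (fun m : ℕ × ℕ => x ^ m.2 * f ^ m.1) (fun m : ℕ × ℕ => xb ^ m.2 * a ^ m.1) hg hc hsum
  exact ⟨N₁, N₂, d, hd1, hd2⟩

end Normalise

/-! ### Algebraicity of the reduction -/

section Alg

variable {κ : Type*} [Field κ]

/-- A Laurent series of nonzero order is transcendental over the coefficient field
(polynomial form). -/
theorem sum_C_mul_pow_ne_zero (xb : LaurentSeries κ) (hord : xb.order ≠ 0) (N : ℕ) (d : ℕ → κ)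
    (hd : ∃ k < N, d k ≠ 0) : ∑ k ∈ Finset.range N, HahnSeries.C (d k) * xb ^ k ≠ 0 := by
  classical
  have hxb : xb ≠ 0 := by
    rintro rfl
    exact hord HahnSeries.order_zero
  set v := HahnSeries.addVal ℤ κ with hv
  have hvx : v xb = ((xb.order : ℤ) : WithTop ℤ) := HahnSeries.addVal_apply_of_ne hxb
  have hvC : ∀ c : κ, c ≠ 0 → v (HahnSeries.C c) = ((0 : ℤ) : WithTop ℤ) := by
    intro c hc
    have h1 : (HahnSeries.C c : LaurentSeries κ) ≠ 0 := by
      rw [HahnSeries.C_apply]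
      exact HahnSeries.single_ne_zero hc
    rw [hv, HahnSeries.addVal_apply_of_ne h1, HahnSeries.C_apply, HahnSeries.order_single hc]
  have hvt : ∀ k, d k ≠ 0 → v (HahnSeries.C (d k) * xb ^ k) = (((k : ℤ) * xb.order : ℤ) : WithTop ℤ) := by
    intro k hk
    rw [AddValuation.map_mul, AddValuation.map_pow, hvC _ hk, hvx, ← WithTop.coe_nsmul,
      ← WithTop.coe_add, zero_add, nsmul_eq_mul]
  have hsplit : ∑ k ∈ Finset.range N, HahnSeries.C (d k) * xb ^ k =
      ∑ k ∈ (Finset.range N).filter (fun k => d k ≠ 0), HahnSeries.C (d k) * xb ^ k := by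
    rw [Finset.sum_filter]
    refine Finset.sum_congr rfl fun k _ => ?_
    by_cases hk : d k = 0
    · simp [hk]
    · simp [hk]
  rw [hsplit]
  obtain ⟨k₀, hk₀N, hk₀⟩ := hd
  refine Fermat.Agent.S18.H264.sum_ne_zero_of_val_injOn v _ _
    ⟨k₀, Finset.mem_filter.mpr ⟨Finset.mem_range.mpr hk₀N, hk₀⟩⟩ ?_ ?_
  · intro k hk
    have hk' := (Finset.mem_filter.mp hk).2
    refine mul_ne_zero ?_ (pow_ne_zero _ hxb)
    rw [HahnSeries.C_apply]
    exact HahnSeries.single_ne_zero hk'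
  · intro i hi j hj hij
    rw [hvt i (Finset.mem_filter.mp hi).2, hvt j (Finset.mem_filter.mp hj).2] at hij
    have h1 : (i : ℤ) * xb.order = (j : ℤ) * xb.order := WithTop.coe_injective hij
    exact Nat.cast_injective (mul_right_cancel₀ hord h1)

variable (ℓ : ℕ) [hℓ : Fact ℓ.Prime] [Algebra (ZMod ℓ) κ] [Algebra.IsAlgebraic (ZMod ℓ) κ]

/-- A nontrivial relation `∑ d(i,k) x̄^k ā^i = 0` with coefficients in `κ` (algebraic over
`𝔽_ℓ`) and `ord x̄ ≠ 0` makes `ā` algebraic over `𝔽_ℓ(x̄)`. -/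
theorem isAlgebraic_of_biRel (xb a : LaurentSeries κ) (hord : xb.order ≠ 0) (N₁ N₂ : ℕ)
    (d : ℕ × ℕ → κ) (hd : ∃ m ∈ Finset.range N₁ ×ˢ Finset.range N₂, d m = 1)
    (hsum : ∑ m ∈ Finset.range N₁ ×ˢ Finset.range N₂,
      HahnSeries.C (d m) * (xb ^ m.2 * a ^ m.1) = 0) :
    IsAlgebraic (IntermediateField.adjoin (ZMod ℓ) {xb}) a := by
  classical
  set J := IntermediateField.adjoin (ZMod ℓ) {xb} with hJ
  set Ja := algebraicClosure J (LaurentSeries κ) with hJa
  -- constants and `x̄` lie in `Ja`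
  have hC : ∀ c : κ, (HahnSeries.C c : LaurentSeries κ) ∈ Ja := by
    intro c
    rw [hJa, mem_algebraicClosure_iff]
    obtain ⟨p, hp0, hpc⟩ := (Algebra.IsAlgebraic.isAlgebraic c : IsAlgebraic (ZMod ℓ) c)
    refine ⟨p.map (algebraMap (ZMod ℓ) J),
      (Polynomial.map_ne_zero_iff (algebraMap (ZMod ℓ) J).injective).mpr hp0, ?_⟩
    rw [aeval_def, Polynomial.eval₂_map]
    have hc : (algebraMap J (LaurentSeries κ)).comp (algebraMap (ZMod ℓ) J) =
        (HahnSeries.C : κ →+* LaurentSeries κ).comp (algebraMap (ZMod ℓ) κ) :=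
      RingHom.ext_zmod _ _
    rw [hc, ← Polynomial.hom_eval₂, ← aeval_def, hpc, map_zero]
  have hxJa : xb ∈ Ja := by
    rw [hJa, mem_algebraicClosure_iff]
    exact isAlgebraic_algebraMap (⟨xb, IntermediateField.mem_adjoin_simple_self _ _⟩ : J)
  -- the coefficients `q i = ∑_k d(i,k) x̄^k`
  set q : ℕ → LaurentSeries κ := fun i => ∑ k ∈ Finset.range N₂, HahnSeries.C (d (i, k)) * xb ^ k
    with hq
  have hqJa : ∀ i, q i ∈ Ja := fun i =>
    sum_mem fun k _ => mul_mem (hC _) (pow_mem hxJa k)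
  have hrel : ∑ i ∈ Finset.range N₁, q i * a ^ i = 0 := by
    rw [← hsum, Finset.sum_product]
    refine Finset.sum_congr rfl fun i _ => ?_
    rw [hq, Finset.sum_mul]
    refine Finset.sum_congr rfl fun k _ => ?_
    ring
  obtain ⟨m₁, hm₁, hdm₁⟩ := hd
  obtain ⟨hi₁, hk₁⟩ := Finset.mem_product.mp hm₁
  have hq₁ : q m₁.1 ≠ 0 := by
    apply sum_C_mul_pow_ne_zero xb hord N₂ (fun k => d (m₁.1, k))
    exact ⟨m₁.2, Finset.mem_range.mp hk₁, by rw [Prod.mk.eta, hdm₁]; exact one_ne_zero⟩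
  -- the polynomial over `Ja`
  set Q : Polynomial Ja := ∑ i ∈ Finset.range N₁, Polynomial.C (⟨q i, hqJa i⟩ : Ja) * Polynomial.X ^ i
    with hQ
  have hQcoeff : Q.coeff m₁.1 = ⟨q m₁.1, hqJa m₁.1⟩ := by
    rw [hQ, Polynomial.finsetSum_coeff]
    simp only [Polynomial.coeff_C_mul, Polynomial.coeff_X_pow]
    rw [Finset.sum_eq_single m₁.1]
    · simp
    · intro i _ hi
      rw [if_neg (fun h => hi h.symm), mul_zero]
    · intro h
      exact absurd hi₁ h
  have hQ0 : Q ≠ 0 := by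
    intro h
    apply hq₁
    have := hQcoeff
    rw [h, Polynomial.coeff_zero] at this
    exact (congrArg Subtype.val this).symm
  have hQa : Polynomial.aeval a Q = 0 := by
    rw [hQ, map_sum, ← hrel]
    refine Finset.sum_congr rfl fun i _ => ?_
    rw [map_mul, Polynomial.aeval_C, map_pow, Polynomial.aeval_X]
    rfl
  have h1 : IsAlgebraic Ja a := ⟨Q, hQ0, hQa⟩
  exact IsAlgebraic.restrictScalars J h1

end Alg

/-! ### Clearing denominators -/

section Clear

variable {K : Type*} [Field K] {Ω : Type*} [Field Ω]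

/-- An element algebraic over the subfield generated by constants and `x` satisfies a nontrivial
bivariate polynomial relation `P(x, f) = 0`, `P ∈ K[X][Y]`. -/
theorem exists_biPoly_of_isAlgebraic (cst : K →+* Ω) (Ec : Subfield Ω)
    (hEc : ∀ e ∈ Ec, ∃ c : K, cst c = e) (x f : Ω)
    (hf : IsAlgebraic (Subfield.closure ((Ec : Set Ω) ∪ {x})) f) :
    ∃ P : Polynomial (Polynomial K), P ≠ 0 ∧
      P.eval₂ (Polynomial.eval₂RingHom cst x) f = 0 := by
  classical
  set φ : Polynomial K →+* Ω := Polynomial.eval₂RingHom cst x with hφ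
  have hB : ∀ y : Ω, ∃ u v : Polynomial K, y ∈ Subfield.closure ((Ec : Set Ω) ∪ {x}) →
      φ v ≠ 0 ∧ y * φ v = φ u := by
    intro y
    by_cases hy : y ∈ Subfield.closure ((Ec : Set Ω) ∪ {x})
    · have hsub : Subring.closure ((Ec : Set Ω) ∪ {x}) ≤ φ.range := by
        rw [Subring.closure_le]
        rintro z (hz | hz)
        · obtain ⟨c, rfl⟩ := hEc z hz
          exact ⟨Polynomial.C c, by rw [hφ, Polynomial.coe_eval₂RingHom, Polynomial.eval₂_C]⟩
        · rw [Set.mem_singleton_iff] at hz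
          subst hz
          exact ⟨Polynomial.X, by rw [hφ, Polynomial.coe_eval₂RingHom, Polynomial.eval₂_X]⟩
      obtain ⟨u', hu', v', hv', rfl⟩ := Subfield.mem_closure_iff.mp hy
      obtain ⟨u, rfl⟩ := hsub hu'
      obtain ⟨v, rfl⟩ := hsub hv'
      by_cases hv0 : φ v = 0
      · refine ⟨0, 1, fun _ => ⟨?_, ?_⟩⟩
        · rw [map_one]; exact one_ne_zero
        · rw [hv0, div_zero, zero_mul, map_zero]
      · exact ⟨u, v, fun _ => ⟨hv0, div_mul_cancel₀ _ hv0⟩⟩
    · exact ⟨0, 1, fun h => absurd h hy⟩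
  choose u v huv using hB
  obtain ⟨p, hp0, hpf⟩ := hf
  set n := p.natDegree + 1 with hn
  have hmem : ∀ i, ((p.coeff i : Subfield.closure ((Ec : Set Ω) ∪ {x})) : Ω) ∈
      Subfield.closure ((Ec : Set Ω) ∪ {x}) := fun i => (p.coeff i).2
  set D : Polynomial K := ∏ j ∈ Finset.range n, v (p.coeff j : Ω) with hD
  have hD0 : φ D ≠ 0 := by
    rw [hD, map_prod]
    exact Finset.prod_ne_zero_iff.mpr fun j _ => (huv _ (hmem j)).1
  set Q : ℕ → Polynomial K := fun i =>
    u (p.coeff i : Ω) * ∏ j ∈ (Finset.range n).erase i, v (p.coeff j : Ω) with hQ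
  have hQφ : ∀ i ∈ Finset.range n, φ (Q i) = (p.coeff i : Ω) * φ D := by
    intro i hi
    rw [hQ, hD, map_mul, ← (huv _ (hmem i)).2, mul_assoc, ← map_mul,
      Finset.mul_prod_erase (Finset.range n) (fun j => v (p.coeff j : Ω)) hi]
  set P : Polynomial (Polynomial K) :=
    ∑ i ∈ Finset.range n, Polynomial.C (Q i) * Polynomial.X ^ i with hP
  have hPcoeff : P.coeff p.natDegree = Q p.natDegree := by
    rw [hP, Polynomial.finsetSum_coeff]
    simp only [Polynomial.coeff_C_mul, Polynomial.coeff_X_pow]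
    rw [Finset.sum_eq_single p.natDegree]
    · simp
    · intro i _ hi
      rw [if_neg (fun h => hi h.symm), mul_zero]
    · intro h
      exact absurd (Finset.mem_range.mpr (Nat.lt_succ_self _)) h
  refine ⟨P, ?_, ?_⟩
  · intro h
    have h1 : Q p.natDegree = 0 := by rw [← hPcoeff, h, Polynomial.coeff_zero]
    have h2 := hQφ p.natDegree (Finset.mem_range.mpr (Nat.lt_succ_self _))
    rw [h1, map_zero] at h2
    rcases mul_eq_zero.mp h2.symm with h3 | h3
    · apply hp0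
      rw [← Polynomial.leadingCoeff_eq_zero, Polynomial.leadingCoeff]
      exact Subtype.ext h3
    · exact hD0 h3
  · rw [hP, Polynomial.eval₂_finsetSum]
    have h1 : ∀ i ∈ Finset.range n,
        (Polynomial.C (Q i) * Polynomial.X ^ i).eval₂ φ f = φ D * ((p.coeff i : Ω) * f ^ i) := by
      intro i hi
      rw [Polynomial.eval₂_mul, Polynomial.eval₂_C, Polynomial.eval₂_pow, Polynomial.eval₂_X,
        hQφ i hi]
      ring
    rw [Finset.sum_congr rfl h1, ← Finset.mul_sum]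
    have h2 : ∑ i ∈ Finset.range n, (p.coeff i : Ω) * f ^ i = Polynomial.aeval f p := by
      rw [Polynomial.aeval_def, Polynomial.eval₂_eq_sum_range]
      rfl
    rw [h2, hpf, mul_zero]

/-- A subfield `F` which is a finitely generated module over a subfield `k₀ ≤ F` is algebraic
over `k₀`. -/
theorem isAlgebraic_of_span_finite (k₀ F : Subfield Ω) (hk : k₀ ≤ F)
    (hfin : ∃ s : Finset Ω, (s : Set Ω) ⊆ F ∧ ∀ f ∈ F, f ∈ Submodule.span k₀ (s : Set Ω))
    {f : Ω} (hf : f ∈ F) : IsAlgebraic k₀ f := by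
  obtain ⟨s, hsF, hspan⟩ := hfin
  let S : Subalgebra k₀ Ω :=
    { F.toSubring.toSubsemiring with
      algebraMap_mem' := fun r => hk r.2 }
  have hS : ∀ y, y ∈ S ↔ y ∈ F := fun y => Iff.rfl
  have hFG : S.toSubmodule.FG := by
    refine ⟨s, le_antisymm ?_ ?_⟩
    · rw [Submodule.span_le]
      intro y hy
      exact (hS y).mpr (hsF hy)
    · intro y hy
      exact hspan y ((hS y).mp hy)
  exact (IsIntegral.of_mem_of_fg S hFG f ((hS f).mpr hf)).isAlgebraic

end Clear

/-! ### The residue field of a valuation ring of an algebraic extension of `ℚ` -/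

section ResAlg

variable {K : Type*} [Field K] [Algebra ℚ K] [Algebra.IsAlgebraic ℚ K] (A : ValuationSubring K)
  (ℓ : ℕ) [hℓ : Fact ℓ.Prime] [Algebra (ZMod ℓ) (IsLocalRing.ResidueField A)]

/-- The residue field of a valuation ring of an algebraic extension of `ℚ`, of residue
characteristic `ℓ`, is algebraic over `𝔽_ℓ` (generic form of `S18.H264.isAlgebraic_residue_zmod`). -/
theorem residue_isAlgebraic_zmod : Algebra.IsAlgebraic (ZMod ℓ) (IsLocalRing.ResidueField A) := by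
  refine ⟨fun c => ?_⟩
  obtain ⟨a, rfl⟩ := IsLocalRing.residue_surjective c
  have halgQ : IsAlgebraic ℚ (a : K) := Algebra.IsAlgebraic.isAlgebraic _
  have hchar0 : CharZero K := algebraRat.charZero K
  have halgZ : IsAlgebraic ℤ (a : K) := (IsFractionRing.isAlgebraic_iff ℤ ℚ K).mpr halgQ
  obtain ⟨p, hp0, hpa⟩ := halgZ
  have hq0 : p.primPart ≠ 0 := primPart_ne_zero p
  have hqa : aeval (a : K) p.primPart = 0 := aeval_primPart_eq_zero hp0 hpa
  have hqA : Polynomial.eval₂ (Int.castRingHom A) a p.primPart = 0 := by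
    apply Subtype.ext
    have h := Polynomial.hom_eval₂ p.primPart (Int.castRingHom A) A.subtype a
    rw [ZeroMemClass.coe_zero, ← hqa, aeval_def]
    have hc : (A.subtype).comp (Int.castRingHom A) = algebraMap ℤ K := RingHom.ext_int _ _
    rw [← hc]
    exact h
  refine ⟨p.primPart.map (Int.castRingHom (ZMod ℓ)), ?_, ?_⟩
  · intro h0
    have hdvd : Polynomial.C (ℓ : ℤ) ∣ p.primPart := by
      rw [C_dvd_iff_dvd_coeff]
      intro i
      have := congrArg (fun r => r.coeff i) h0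
      simp only [Polynomial.coeff_map, Polynomial.coeff_zero, eq_intCast] at this
      exact (ZMod.intCast_zmod_eq_zero_iff_dvd _ _).mp this
    have hu := (isPrimitive_iff_isUnit_of_C_dvd.mp (isPrimitive_primPart p)) _ hdvd
    have := Int.isUnit_iff.mp hu
    have h2 := hℓ.out.two_le
    omega
  · rw [aeval_def, Polynomial.eval₂_map]
    have hc : (algebraMap (ZMod ℓ) (IsLocalRing.ResidueField A)).comp
        (Int.castRingHom (ZMod ℓ)) = (IsLocalRing.residue A).comp (Int.castRingHom A) :=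
      RingHom.ext_int _ _
    rw [hc, ← Polynomial.hom_eval₂, hqA, map_zero]

end ResAlg

/-! ### The field `separable` -/

section Main

open Fermat.Agent.S18.Alg Fermat.Agent.S18.Mod.H216

variable {K : Type*} [Field K] {A : ValuationSubring K} {E : Subfield K}
variable {Ω : Type*} [Field Ω] {ι : Ω →+* LaurentSeries K} {F : Subfield Ω}
variable (cst : K →+* Ω) (hcst : ∀ c : K, ι (cst c) = HahnSeries.C c)
  (hEF : ∀ c ∈ E, cst c ∈ F)

section WithAlg

variable (ℓ : ℕ) [hℓ : Fact ℓ.Prime] [Algebra (ZMod ℓ) (IsLocalRing.ResidueField A)]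
  [Algebra.IsAlgebraic (ZMod ℓ) (IsLocalRing.ResidueField A)]

include hcst in
/-- **Algebraicity of reductions.**  If `f` satisfies a nontrivial relation `P(x, f) = 0`,
`P ∈ K[X][Y]`, then every reduction `f̄` of `f` is algebraic over `𝔽_ℓ(x̄)`, as soon as
`ord x̄ ≠ 0`.  (Gauss normalisation; no `CoreData`, no degree count.) -/
theorem isAlgebraic_red_of_biRel {x f : Ω} {xb a : LaurentSeries (IsLocalRing.ResidueField A)}
    (hx : (x, xb) ∈ sepRel A E ι F) (hf : (f, a) ∈ sepRel A E ι F) (hord : xb.order ≠ 0)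
    (P : Polynomial (Polynomial K)) (hP : P ≠ 0)
    (hPf : P.eval₂ (Polynomial.eval₂RingHom cst x) f = 0) :
    IsAlgebraic (IntermediateField.adjoin (ZMod ℓ) {xb}) a := by
  obtain ⟨N₁, N₂, d, hd, hsum⟩ := exists_reduced_biRel cst hcst
    (sepRel_mono le_top le_top hx) (sepRel_mono le_top le_top hf) P hP hPf
  exact isAlgebraic_of_biRel ℓ xb a hord N₁ N₂ d hd hsum

include hcst hEF in
/-- **The field `separable` of `Alg.GoodModel` for the Gauss valuation ring `VRing A E ι F`.**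
`w₀ ∈ E` generates the maximal ideal of `A ∩ E` (`hgen`, e.g. `H248.IsUnifG.gen`), the coordinate
`x` is an integral series `X₀` with `ℓ ∤ ord (X̄₀)`, and every element of `F` satisfies a
nontrivial bivariate relation over `K(x)`.  The polynomial has coefficients in `ℤ[x]`, so `R` is
an arbitrary subring. -/
theorem separable_VRing {w₀ : K} (hwE : w₀ ∈ E) (hw0 : w₀ ≠ 0)
    (hgen : ∀ c : K, c ∈ A → c ∈ E → c⁻¹ ∉ A → c * w₀⁻¹ ∈ A)
    {x : Ω} {X₀ : LaurentSeries A} (hX₀ : IsInt A E ι F X₀) (hx : ι x = ivInc A X₀)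
    (hn : ¬ (ℓ : ℤ) ∣ (ivRed A X₀).order)
    (halg : ∀ f ∈ F, ∃ P : Polynomial (Polynomial K), P ≠ 0 ∧
      P.eval₂ (Polynomial.eval₂RingHom cst x) f = 0)
    (R : Subring Ω) :
    ∀ f ∈ VRing A E ι F, ∃ P : Polynomial Ω,
      (∀ i, P.coeff i ∈ Subring.closure ((R : Set Ω) ∪ {x})) ∧
      P.eval f * (cst w₀)⁻¹ ∈ VRing A E ι F ∧ (derivative P).eval f ≠ 0 ∧
      ((derivative P).eval f)⁻¹ ∈ VRing A E ι F := by
  intro f hf
  obtain ⟨a, ha⟩ := exists_sepRel_of_mem_VRing hf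
  obtain ⟨P, hP, hPf⟩ := halg f (VRing_le A E ι F hf)
  have hord : (ivRed A X₀).order ≠ 0 := fun h => hn (by rw [h]; exact dvd_zero _)
  have hxb0 : ivRed A X₀ ≠ 0 := by
    intro h
    exact hord (by rw [h]; exact HahnSeries.order_zero)
  have hxrel := sepRel_of_isInt hX₀ hx
  have halg' := isAlgebraic_red_of_biRel cst hcst ℓ hxrel ha hord P hP hPf
  have hv : HahnSeries.addVal ℤ (IsLocalRing.ResidueField A) (ivRed A X₀) =
      (((ivRed A X₀).order : ℤ) : WithTop ℤ) := HahnSeries.addVal_apply_of_ne hxb0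
  exact Fermat.Agent.S18.H264.exists_poly_of_graph_sep ℓ (HahnSeries.addVal ℤ _)
    (sepRel A E ι F) (VRing A E ι F) R (cst w₀) x f (ivRed A X₀) a hxrel ha
    (fun g hg => sepRel_ker cst hcst hEF hwE hw0 hgen hg)
    (fun g b hg hb => sepRel_unit hg hb) _ hv hn halg'

include hcst hEF in
/-- The same with the uniformiser given as an element `w` of `RcG A E cst` satisfying the
fields `w_ne_zero`, `w_gen` of `S18.Mod.H216.PartR`. -/
theorem separable_VRing_of_mem_RcG {w : Ω} (hw : w ∈ RcG A E cst) (hw0 : w ≠ 0)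
    (hgen : ∀ r ∈ RcG A E cst, r⁻¹ ∉ RcG A E cst → r * w⁻¹ ∈ RcG A E cst)
    {x : Ω} {X₀ : LaurentSeries A} (hX₀ : IsInt A E ι F X₀) (hx : ι x = ivInc A X₀)
    (hn : ¬ (ℓ : ℤ) ∣ (ivRed A X₀).order)
    (halg : ∀ f ∈ F, ∃ P : Polynomial (Polynomial K), P ≠ 0 ∧
      P.eval₂ (Polynomial.eval₂RingHom cst x) f = 0)
    (R : Subring Ω) :
    ∀ f ∈ VRing A E ι F, ∃ P : Polynomial Ω,
      (∀ i, P.coeff i ∈ Subring.closure ((R : Set Ω) ∪ {x})) ∧
      P.eval f * w⁻¹ ∈ VRing A E ι F ∧ (derivative P).eval f ≠ 0 ∧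
      ((derivative P).eval f)⁻¹ ∈ VRing A E ι F := by
  obtain ⟨w₀, hw₀A, hw₀E, rfl⟩ := (mem_RcG_iff cst).mp hw
  have hw₀0 : w₀ ≠ 0 := by
    rintro rfl
    exact hw0 (map_zero _)
  have hgen' : ∀ c : K, c ∈ A → c ∈ E → c⁻¹ ∉ A → c * w₀⁻¹ ∈ A := by
    intro c hcA hcE hinv
    have h1 : cst c ∈ RcG A E cst := (mem_RcG_iff cst).mpr ⟨c, hcA, hcE, rfl⟩
    have h2 : (cst c)⁻¹ ∉ RcG A E cst := by
      intro h
      obtain ⟨b, hbA, -, hb⟩ := (mem_RcG_iff cst).mp h
      apply hinv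
      have : b = c⁻¹ := cst.injective (by rw [hb, map_inv₀])
      rw [← this]
      exact hbA
    obtain ⟨b, hbA, -, hb⟩ := (mem_RcG_iff cst).mp (hgen _ h1 h2)
    have : b = c * w₀⁻¹ := cst.injective (by rw [hb, map_mul, map_inv₀])
    rw [← this]
    exact hbA
  exact separable_VRing cst hcst hEF ℓ hw₀E hw₀0 hgen' hX₀ hx hn halg R

end WithAlg

include hcst hEF in
/-- **G-SEP for the Gauss valuation ring `VRing A E ι F`, in the shape of
`S18.Mod.H216.PartSep`**, from the fields `w_mem w_ne_zero w_gen` of `PartR` and the field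
`finite` of `PartFld`.  `K` is algebraic over `ℚ` (`K = Q̄`), the residue field of `A` has
characteristic `ℓ`, the coordinate `x` is an integral series with `ℓ ∤ ord (x̄)`
(`x = j`: order `-1` in `q`, order `-M` in `X = q^{1/M}`, `ℓ ∤ M`). -/
theorem partSep_VRing_of_finite [Algebra ℚ K] [Algebra.IsAlgebraic ℚ K] (ℓ : ℕ)
    [hℓ : Fact ℓ.Prime] [CharP (IsLocalRing.ResidueField A) ℓ]
    {w : Ω} (hw : w ∈ RcG A E cst) (hw0 : w ≠ 0)
    (hgen : ∀ r ∈ RcG A E cst, r⁻¹ ∉ RcG A E cst → r * w⁻¹ ∈ RcG A E cst)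
    {x : Ω} {X₀ : LaurentSeries A} (hX₀ : IsInt A E ι F X₀) (hx : ι x = ivInc A X₀)
    (hn : ¬ (ℓ : ℤ) ∣ (ivRed A X₀).order)
    (hfin : ∃ s : Finset Ω, (s : Set Ω) ⊆ F ∧
      ∀ f ∈ F, f ∈ Submodule.span (ratField (EcG E cst) x) (s : Set Ω)) :
    PartSep (RcG A E cst) (VRing A E ι F) w x := by
  let _ : Algebra (ZMod ℓ) (IsLocalRing.ResidueField A) := ZMod.algebra _ ℓ
  have := residue_isAlgebraic_zmod A ℓ
  have hxF : x ∈ F := by
    obtain ⟨f, hf, hfU⟩ := hX₀.2
    have hxf : x = f := ι.injective (by rw [hx, hfU])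
    exact hxf ▸ hf
  have hk : ratField (EcG E cst) x ≤ F := by
    unfold ratField
    rw [Subfield.closure_le]
    rintro z (hz | hz)
    · obtain ⟨c, hc, rfl⟩ := (mem_EcG_iff cst).mp hz
      exact hEF c hc
    · rw [Set.mem_singleton_iff] at hz
      rw [hz]
      exact hxF
  have halg : ∀ f ∈ F, ∃ P : Polynomial (Polynomial K), P ≠ 0 ∧
      P.eval₂ (Polynomial.eval₂RingHom cst x) f = 0 := by
    intro f hf
    have h1 : IsAlgebraic (ratField (EcG E cst) x) f :=
      isAlgebraic_of_span_finite _ F hk hfin hf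
    exact exists_biPoly_of_isAlgebraic cst (EcG E cst)
      (fun e he => by
        obtain ⟨c, -, hc⟩ := (mem_EcG_iff cst).mp he
        exact ⟨c, hc⟩) x f h1
  exact ⟨separable_VRing_of_mem_RcG cst hcst hEF ℓ hw hw0 hgen hX₀ hx hn halg _⟩

end Main

end Fermat.Agent.S48.H128

end
end
-- ===== PACK-END S48/H128/SepGen.lean

-- ===== PACK-BEGIN S48/H68/GaussNormal.lean
section
/-
S48 / Tower A1 (helper68) — leaf PGI1 / VAL1 in FUNCTION form, GENERIC part.

`F₀ = ℚ(S) ⊆ ℚ((q))` generated by series with INTEGRAL coefficients, `A ⊆ ℚ̄` a valuation subring over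
a prime.  Every nonzero `f ∈ ℚ̄ · F₀` is `c · U₁ / U₂` with `c ∈ ℚ̄ˣ` and `U₁, U₂ ∈ A((q))` lying in
`ℚ̄ · F₀`, with NONZERO reduction modulo the maximal ideal of `A` (Gauss normalisation).

Route: descent of `f` to a number field `E` (`S18.H602.exists_finite_descent`), `A ∩ E` is a discrete
valuation ring (`S18.H602.isDiscreteValuationRing_RE`), bounded denominators on the field generated
by integral series and division by the coefficient of minimal valuation
(`S48.H856.GaussHyp.exists_prim_quot`).  No reduction field, no CoreData, no degree argument.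
-/



set_option autoImplicit false
set_option linter.style.haveILetI false

noncomputable section

namespace Fermat.Agent.S48.H68

open ModularCurve AlgebraicCurve HahnSeries IsLocalRing
open Fermat.Agent.S18.H602 (RE toA)
open Fermat.Agent.S48.H856 (IsInt IsPrim IsBd HasBd GaussHyp IsDiscrete)

local notation "Q̄" => AlgebraicClosure ℚ

/-! ### A discrete valuation subring has a uniformiser in the sense of `H856.IsDiscrete` -/

theorem exists_isDiscrete_of_dvr {K : Type*} [Field K] (V : ValuationSubring K)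
    [IsDiscreteValuationRing V] : ∃ w₀ : K, IsDiscrete V w₀ := by
  obtain ⟨ϖ, hϖ⟩ := IsDiscreteValuationRing.exists_irreducible V
  refine ⟨(ϖ : K), ?_, ?_, ?_⟩
  · have h1 : ϖ ∈ IsLocalRing.maximalIdeal V := by
      rw [IsLocalRing.mem_maximalIdeal, mem_nonunits_iff]
      exact hϖ.not_isUnit
    exact (ValuationSubring.valuation_lt_one_iff V ϖ).mp h1
  · intro h0
    exact hϖ.ne_zero (Subtype.ext h0)
  · intro y hy
    obtain ⟨n, u, hu⟩ :=
      IsDiscreteValuationRing.exists_units_eq_smul_zpow_of_irreducible (K := K) hϖ hy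
    refine ⟨n, ?_⟩
    rw [hu, Units.smul_def, Algebra.smul_def, map_mul, map_zpow₀]
    have h1 : V.valuation (algebraMap V K (u : V)) = 1 := V.valuation_unit u
    rw [h1, one_mul]
    rfl

/-! ### Bounded denominators on `E · F₀` -/

section Bd

variable {E : Type*} [Field E] [Algebra ℚ E] (𝒪 : ValuationSubring E) (w₀ : E)
  (F₀ : IntermediateField ℚ (LaurentSeries ℚ))

/-- The expansion map of the field `E · F₀`: the inclusion into `E((q))`. -/
abbrev exL : ↥(laurentBaseChange E F₀) →+* LaurentSeries E :=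
  (laurentBaseChange E F₀).val.toRingHom

/-- The constant `w₀` as an element of `E · F₀`. -/
abbrev wL : ↥(laurentBaseChange E F₀) := algebraMap E ↥(laurentBaseChange E F₀) w₀

omit [Algebra ℚ E] in
theorem algebraMap_eq_C (a : E) :
    algebraMap E (LaurentSeries E) a = (HahnSeries.C a : LaurentSeries E) := by
  rw [algebraMap_laurentSeries_eq_single]
  rfl

theorem gaussHyp_exL (hd : IsDiscrete 𝒪 w₀) : GaussHyp 𝒪 (exL F₀) w₀ (wL w₀ F₀) :=
  ⟨hd, _root_.Fermat.Agent.S48.H68.algebraMap_eq_C w₀⟩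

variable {𝒪 w₀ F₀}

theorem hasBd_const (a : E) :
    HasBd 𝒪 (exL F₀) (wL w₀ F₀) (algebraMap E ↥(laurentBaseChange E F₀) a) := by
  have key : ∀ b : E, b ∈ 𝒪 →
      HasBd 𝒪 (exL F₀) (wL w₀ F₀) (algebraMap E ↥(laurentBaseChange E F₀) b) := by
    intro b hb
    refine Fermat.Agent.S48.H856.hasBd_of_isBd (Fermat.Agent.S48.H856.isBd_of_isInt ?_)
    show IsInt 𝒪 (algebraMap E (LaurentSeries E) b)
    rw [_root_.Fermat.Agent.S48.H68.algebraMap_eq_C]
    exact Fermat.Agent.S48.H856.isInt_C hb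
  rcases 𝒪.mem_or_inv_mem a with ha | ha
  · exact key a ha
  · have h := (key a⁻¹ ha).inv
    rwa [← map_inv₀, inv_inv] at h

variable (𝒪 w₀ F₀)

/-- The elements of `E · F₀` which are quotients of elements with bounded denominators, as a
subfield of `E((q))`. -/
def bdSubfield (hd : IsDiscrete 𝒪 w₀) : Subfield (LaurentSeries E) where
  carrier := {x | ∃ a : ↥(laurentBaseChange E F₀),
    HasBd 𝒪 (exL F₀) (wL w₀ F₀) a ∧ (a : LaurentSeries E) = x}
  mul_mem' := by
    rintro _ _ ⟨a, ha, rfl⟩ ⟨b, hb, rfl⟩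
    exact ⟨a * b, ha.mul hb, IntermediateField.coe_mul _ a b⟩
  one_mem' := ⟨1, Fermat.Agent.S48.H856.hasBd_of_isBd Fermat.Agent.S48.H856.isBd_one,
    IntermediateField.coe_one _⟩
  add_mem' := by
    rintro _ _ ⟨a, ha, rfl⟩ ⟨b, hb, rfl⟩
    exact ⟨a + b, ha.add (gaussHyp_exL 𝒪 w₀ F₀ hd) hb, IntermediateField.coe_add _ a b⟩
  zero_mem' := ⟨0, Fermat.Agent.S48.H856.hasBd_of_isBd Fermat.Agent.S48.H856.isBd_zero,
    IntermediateField.coe_zero _⟩
  neg_mem' := by
    rintro _ ⟨a, ha, rfl⟩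
    exact ⟨-a, ha.neg, IntermediateField.coe_neg _ a⟩
  inv_mem' := by
    rintro _ ⟨a, ha, rfl⟩
    exact ⟨a⁻¹, ha.inv, IntermediateField.coe_inv _ a⟩

variable {𝒪 w₀ F₀}

theorem mem_bdSubfield (hd : IsDiscrete 𝒪 w₀) {x : LaurentSeries E} :
    x ∈ bdSubfield 𝒪 w₀ F₀ hd ↔
      ∃ a : ↥(laurentBaseChange E F₀),
        HasBd 𝒪 (exL F₀) (wL w₀ F₀) a ∧ (a : LaurentSeries E) = x := Iff.rfl

theorem algebraMap_mem_bdSubfield (hd : IsDiscrete 𝒪 w₀) (a : E) :
    algebraMap E (LaurentSeries E) a ∈ bdSubfield 𝒪 w₀ F₀ hd :=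
  ⟨algebraMap E ↥(laurentBaseChange E F₀) a, hasBd_const a, rfl⟩

/-- The image of an integral series lies in `bdSubfield`. -/
theorem coeffMap_int_mem_bdSubfield (hd : IsDiscrete 𝒪 w₀) (X : LaurentSeries ℤ)
    (hX : coeffMap (Int.castRingHom E) X ∈ laurentBaseChange E F₀) :
    coeffMap (Int.castRingHom E) X ∈ bdSubfield 𝒪 w₀ F₀ hd := by
  refine ⟨⟨_, hX⟩, Fermat.Agent.S48.H856.hasBd_of_isBd
    (Fermat.Agent.S48.H856.isBd_of_isInt ?_), rfl⟩
  intro k
  show (coeffMap (Int.castRingHom E) X).coeff k ∈ 𝒪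
  rw [coeffMap_coeff]
  exact intCast_mem 𝒪 _

end Bd

/-! ### Fields generated by integral series -/

section Gens

variable {E : Type*} [Field E] [Algebra ℚ E] {𝒪 : ValuationSubring E} {w₀ : E}

/-- `S` consists of (images of) Laurent series with integral coefficients. -/
def IntegralGens (S : Set (LaurentSeries ℚ)) : Prop :=
  ∀ s ∈ S, ∃ X : LaurentSeries ℤ, s = coeffMap (Int.castRingHom ℚ) X

theorem coeffEmb_intCast (X : LaurentSeries ℤ) :
    coeffEmb E (coeffMap (Int.castRingHom ℚ) X) = coeffMap (Int.castRingHom E) X := by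
  rw [coeffEmb, coeffMap_coeffMap]
  exact coeffMap_congr (RingHom.ext_int _ _) X

omit [Algebra ℚ E] in
theorem coeffMap_C' {E' : Type*} [Field E'] (φ : E →+* E') (a : E) :
    coeffMap φ (HahnSeries.C a : LaurentSeries E) = HahnSeries.C (φ a) := by
  show coeffMap φ (HahnSeries.single 0 a) = HahnSeries.single 0 (φ a)
  rw [coeffMap_single]

/-- Every element of `E · ℚ(S)` is a quotient of elements with bounded denominators. -/
theorem le_bdSubfield (hd : IsDiscrete 𝒪 w₀) {S : Set (LaurentSeries ℚ)} (hS : IntegralGens S) :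
    (laurentBaseChange E (IntermediateField.adjoin ℚ S)).toSubfield
      ≤ bdSubfield 𝒪 w₀ (IntermediateField.adjoin ℚ S) hd := by
  intro x hx
  have hx' : x ∈ Subfield.closure (Set.range (algebraMap E (LaurentSeries E)) ∪
      (⇑(coeffEmb E) '' ((IntermediateField.adjoin ℚ S : IntermediateField ℚ (LaurentSeries ℚ)) :
        Set (LaurentSeries ℚ)))) := mem_laurentBaseChange_iff.1 hx
  refine Subfield.closure_le.2 ?_ hx'
  rintro y (⟨a, rfl⟩ | ⟨z, hz, rfl⟩)
  · exact algebraMap_mem_bdSubfield hd a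
  · have hz' : z ∈ Subfield.closure (Set.range (algebraMap ℚ (LaurentSeries ℚ)) ∪ S) := hz
    have hle : Subfield.closure (Set.range (algebraMap ℚ (LaurentSeries ℚ)) ∪ S)
        ≤ (bdSubfield 𝒪 w₀ (IntermediateField.adjoin ℚ S) hd).comap (coeffEmb E) := by
      refine Subfield.closure_le.2 ?_
      rintro t (⟨r, rfl⟩ | ht)
      · show coeffEmb E (algebraMap ℚ (LaurentSeries ℚ) r)
          ∈ bdSubfield 𝒪 w₀ (IntermediateField.adjoin ℚ S) hd
        rw [coeffEmb, Fermat.Agent.S18.H602.coeffMap_algebraMap']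
        exact algebraMap_mem_bdSubfield hd _
      · obtain ⟨X, rfl⟩ := hS t ht
        show coeffEmb E (coeffMap (Int.castRingHom ℚ) X)
          ∈ bdSubfield 𝒪 w₀ (IntermediateField.adjoin ℚ S) hd
        have hmem := coeffEmb_mem_laurentBaseChange E
          (IntermediateField.subset_adjoin ℚ S ht)
        rw [coeffEmb_intCast] at hmem ⊢
        exact coeffMap_int_mem_bdSubfield hd X hmem
    exact hle hz'

/-- **Gauss normalisation over a discrete valuation ring**: every nonzero element of `E · ℚ(S)` is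
`w₀ ^ (-n)` times a quotient of two primitive series of `E · ℚ(S)`. -/
theorem exists_prim_quot_lbc (hd : IsDiscrete 𝒪 w₀) {S : Set (LaurentSeries ℚ)}
    (hS : IntegralGens S) {y : LaurentSeries E}
    (hy : y ∈ laurentBaseChange E (IntermediateField.adjoin ℚ S)) (hy0 : y ≠ 0) :
    ∃ (n : ℤ) (P₁ P₂ : LaurentSeries E),
      P₁ ∈ laurentBaseChange E (IntermediateField.adjoin ℚ S) ∧
      P₂ ∈ laurentBaseChange E (IntermediateField.adjoin ℚ S) ∧
      IsPrim 𝒪 P₁ ∧ IsPrim 𝒪 P₂ ∧ y * (HahnSeries.C w₀ : LaurentSeries E) ^ n * P₂ = P₁ := by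
  obtain ⟨a, ha, rfl⟩ := le_bdSubfield hd hS hy
  have ha0 : a ≠ 0 := by
    rintro rfl
    exact hy0 rfl
  obtain ⟨n, P₁, P₂, h1, h2, h3⟩ :=
    (gaussHyp_exL 𝒪 w₀ (IntermediateField.adjoin ℚ S) hd).exists_prim_quot ha ha0
  refine ⟨n, P₁, P₂, P₁.2, P₂.2, h1, h2, ?_⟩
  have h4 := congrArg (exL (IntermediateField.adjoin ℚ S)) h3
  rw [map_mul, map_mul, map_zpow₀] at h4
  have h5 : exL (IntermediateField.adjoin ℚ S) (wL w₀ (IntermediateField.adjoin ℚ S))
      = (HahnSeries.C w₀ : LaurentSeries E) := _root_.Fermat.Agent.S48.H68.algebraMap_eq_C w₀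
  rw [h5] at h4
  exact h4

end Gens

/-! ### Transport to `A ⊆ ℚ̄` -/

section Transport

variable (A : ValuationSubring Q̄) (E : IntermediateField ℚ Q̄)

/-- A primitive series over `A ∩ E` gives a series over `A` with nonzero reduction. -/
theorem exists_lift_of_isPrim {P : LaurentSeries E} (hP : IsPrim (RE A E) P) :
    ∃ U : LaurentSeries A, coeffMap A.subtype U = coeffMap (algebraMap E Q̄) P ∧
      coeffMap (residue A) U ≠ 0 := by
  have hc : ∀ n, (coeffMap (algebraMap E Q̄) P).coeff n ∈ Set.range A.subtype := fun n =>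
    ⟨⟨algebraMap E Q̄ (P.coeff n), hP.1 n⟩, rfl⟩
  obtain ⟨U, hU⟩ := Fermat.Agent.S18.H602.exists_coeffMap_eq A.subtype Subtype.val_injective _ hc
  refine ⟨U, hU, ?_⟩
  obtain ⟨k, hk⟩ := hP.2
  intro h0
  have h1 : residue A (U.coeff k) = 0 := by
    have h2 := congrArg (fun z => z.coeff k) h0
    simpa using h2
  have hUk : ((U.coeff k : A) : Q̄) = algebraMap E Q̄ (P.coeff k) := by
    have h2 := congrArg (fun z => z.coeff k) hU
    simpa using h2
  have hne : P.coeff k ≠ 0 := by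
    intro h
    rw [h, map_zero] at hk
    exact zero_ne_one hk
  have hinv : (P.coeff k)⁻¹ ∈ RE A E := by
    rw [← ValuationSubring.valuation_le_one_iff, map_inv₀, hk, inv_one]
  have hunit : IsUnit (U.coeff k) := by
    refine isUnit_iff_exists_inv.2 ⟨⟨algebraMap E Q̄ (P.coeff k)⁻¹, hinv⟩, Subtype.ext ?_⟩
    show ((U.coeff k : A) : Q̄) * algebraMap E Q̄ (P.coeff k)⁻¹ = 1
    rw [hUk, ← map_mul, mul_inv_cancel₀ hne, map_one]
  have h3 : U.coeff k ∈ IsLocalRing.maximalIdeal A := (IsLocalRing.residue_eq_zero_iff _).1 h1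
  exact (IsLocalRing.mem_maximalIdeal _).1 h3 hunit

end Transport

/-! ### The main theorem -/

/-- **Gauss normalisation (function form of PGI, no reduction field).**  Let `F₀ = ℚ(S)` be
generated by series with integral coefficients and let `A ⊆ ℚ̄` be a valuation subring over a
prime `ℓ`.  Every nonzero `f ∈ ℚ̄ · F₀` satisfies `f · U₂ = c · U₁` with `c ∈ ℚ̄ˣ` and
`U₁, U₂ ∈ A((q))` lying in `ℚ̄ · F₀` with nonzero reduction. -/
theorem exists_gauss_normal {S : Set (LaurentSeries ℚ)} (hS : IntegralGens S)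
    (A : ValuationSubring Q̄) {ℓ : ℕ} (hℓ : ℓ ≠ 0) (hA : (ℓ : Q̄) ∈ A.nonunits)
    {f : LaurentSeries Q̄} (hf : f ∈ laurentBaseChange Q̄ (IntermediateField.adjoin ℚ S))
    (hf0 : f ≠ 0) :
    ∃ (c : Q̄) (U₁ U₂ : LaurentSeries A), c ≠ 0 ∧
      coeffMap A.subtype U₁ ∈ laurentBaseChange Q̄ (IntermediateField.adjoin ℚ S) ∧
      coeffMap (residue A) U₁ ≠ 0 ∧
      coeffMap A.subtype U₂ ∈ laurentBaseChange Q̄ (IntermediateField.adjoin ℚ S) ∧
      coeffMap (residue A) U₂ ≠ 0 ∧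
      f * coeffMap A.subtype U₂ = (HahnSeries.C c : LaurentSeries Q̄) * coeffMap A.subtype U₁ := by
  obtain ⟨E, hE, y, hy, rfl⟩ := Fermat.Agent.S18.H602.exists_finite_descent hf
  haveI := hE
  haveI : IsDiscreteValuationRing ↥(RE A E) :=
    Fermat.Agent.S18.H602.isDiscreteValuationRing_RE A E hℓ hA
  obtain ⟨w₀, hd⟩ := exists_isDiscrete_of_dvr (RE A E)
  have hy0 : y ≠ 0 := by
    rintro rfl
    exact hf0 (map_zero _)
  obtain ⟨n, P₁, P₂, hP₁, hP₂, hp₁, hp₂, hrel⟩ := exists_prim_quot_lbc hd hS hy hy0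
  obtain ⟨U₁, hU₁, hr₁⟩ := exists_lift_of_isPrim A E hp₁
  obtain ⟨U₂, hU₂, hr₂⟩ := exists_lift_of_isPrim A E hp₂
  have hw : algebraMap E Q̄ w₀ ≠ 0 := by
    rw [Ne, map_eq_zero]
    exact hd.w_ne
  have hCw : (HahnSeries.C (algebraMap E Q̄ w₀) : LaurentSeries Q̄) ≠ 0 := by
    rw [Ne, map_eq_zero]
    exact hw
  refine ⟨(algebraMap E Q̄ w₀) ^ (-n), U₁, U₂, zpow_ne_zero _ hw, ?_, hr₁, ?_, hr₂, ?_⟩
  · rw [hU₁]
    exact Fermat.Agent.S18.H602.coeffMap_mem_laurentBaseChange _ _ hP₁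
  · rw [hU₂]
    exact Fermat.Agent.S18.H602.coeffMap_mem_laurentBaseChange _ _ hP₂
  · have h1 := congrArg (coeffMap (algebraMap E Q̄)) hrel
    rw [map_mul, map_mul, map_zpow₀, coeffMap_C'] at h1
    rw [hU₁, hU₂, ← h1, map_zpow₀, zpow_neg]
    field_simp

end Fermat.Agent.S48.H68

end
end
-- ===== PACK-END S48/H68/GaussNormal.lean

-- ===== PACK-BEGIN S48/H496/DivDistinct.lean
section


/-!
# S48 / Tower A1 / A1-FF (helper496): the division values `P_a` are distinct up to sign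

`F1.divGenC K M a = F1.divGenC K M b → a = b ∨ a = -b` over any commutative ring `K` of
characteristic zero (pure arithmetic on the coefficients `F1.divCoeff M a 12 n`: the order of the
series `∑ c_a(n) qⁿ` is the least `m ≥ 1` with `m ≡ ± a` mod `M`).
-/

set_option autoImplicit false

noncomputable section

open PowerSeries HahnSeries ModularCurve

namespace Fermat.Agent.S48.H496

open Fermat.Agent.S48.F1

/-- the residues `± a`, as a predicate on positive integers. -/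
def DivHit (M : ℕ) (a : ZMod M) (m : ℕ) : Prop :=
  0 < m ∧ (((m : ℕ) : ZMod M) = a ∨ ((m : ℕ) : ZMod M) = -a)

theorem divHit_exists (M : ℕ) [NeZero M] (a : ZMod M) : ∃ m, DivHit M a m := by
  refine ⟨a.val + M, ?_, Or.inl ?_⟩
  · have := Nat.pos_of_ne_zero (NeZero.ne M)
    omega
  · simp

theorem divCoeff_nonneg (M : ℕ) (a : ZMod M) (n : ℕ) : 0 ≤ divCoeff M a 12 n := by
  unfold divCoeff
  refine Finset.sum_nonneg fun m _ => add_nonneg ?_ ?_
  · split_ifs
    · positivity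
    · exact le_rfl
  · split_ifs
    · norm_num
      positivity
    · exact le_rfl

/-- a non-vanishing coefficient forces a divisor in the class `± a`. -/
theorem divHit_of_divCoeff_ne_zero (M : ℕ) (a : ZMod M) (n : ℕ) (h : divCoeff M a 12 n ≠ 0) :
    ∃ m, m ∣ n ∧ DivHit M a m := by
  by_contra hcon
  apply h
  unfold divCoeff
  refine Finset.sum_eq_zero fun m hm => ?_
  have hmn : m ∣ n := Nat.dvd_of_mem_divisors hm
  have hm0 : 0 < m := Nat.pos_of_mem_divisors hm
  have h1 : ¬ ((m : ℕ) : ZMod M) = a := fun e => hcon ⟨m, hmn, hm0, Or.inl e⟩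
  have h2 : ¬ ((m : ℕ) : ZMod M) = -a := fun e => hcon ⟨m, hmn, hm0, Or.inr e⟩
  rw [if_neg h1, if_neg h2, add_zero]

/-- the coefficient at a hit is positive. -/
theorem divCoeff_pos_of_divHit (M : ℕ) (a : ZMod M) (n : ℕ) (h : DivHit M a n) :
    0 < divCoeff M a 12 n := by
  obtain ⟨hn, hcl⟩ := h
  unfold divCoeff
  have hmem : n ∈ n.divisors := Nat.mem_divisors_self n hn.ne'
  have hnn : ∀ m ∈ n.divisors, (0 : ℤ) ≤
      ((if ((m : ℕ) : ZMod M) = a then ((n / m : ℕ) : ℤ) ^ (12 - 1) else 0) +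
        (if ((m : ℕ) : ZMod M) = -a then (-1) ^ 12 * ((n / m : ℕ) : ℤ) ^ (12 - 1) else 0)) := by
    intro m _
    refine add_nonneg ?_ ?_
    · split_ifs
      · positivity
      · exact le_rfl
    · split_ifs
      · norm_num
        positivity
      · exact le_rfl
  refine lt_of_lt_of_le ?_ (Finset.single_le_sum hnn hmem)
  rw [Nat.div_self hn]
  rcases hcl with e | e
  · rw [if_pos e]
    have : (0 : ℤ) ≤ (if ((n : ℕ) : ZMod M) = -a then (-1) ^ 12 * (((1 : ℕ) : ℤ)) ^ (12 - 1)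
        else 0) := by
      split_ifs <;> norm_num
    have h1 : (0 : ℤ) < (((1 : ℕ) : ℤ)) ^ (12 - 1) := by norm_num
    linarith
  · rw [if_pos e]
    have : (0 : ℤ) ≤ (if ((n : ℕ) : ZMod M) = a then (((1 : ℕ) : ℤ)) ^ (12 - 1) else 0) := by
      split_ifs <;> norm_num
    have h1 : (0 : ℤ) < (-1) ^ 12 * (((1 : ℕ) : ℤ)) ^ (12 - 1) := by norm_num
    linarith

/-- **Distinctness of the coefficient sequences.** -/
theorem eq_or_eq_neg_of_divCoeff_eq (M : ℕ) [NeZero M] (a b : ZMod M)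
    (h : ∀ n, divCoeff M a 12 n = divCoeff M b 12 n) : a = b ∨ a = -b := by
  classical
  have ha := divHit_exists M a
  have hb := divHit_exists M b
  -- least hits
  set na := Nat.find ha with hna
  set nb := Nat.find hb with hnb
  have hna_hit : DivHit M a na := Nat.find_spec ha
  have hnb_hit : DivHit M b nb := Nat.find_spec hb
  -- the coefficient of `b` at `na` is nonzero, so some divisor of `na` hits `b`
  have h1 : divCoeff M b 12 na ≠ 0 := by
    rw [← h na]
    exact (divCoeff_pos_of_divHit M a na hna_hit).ne'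
  obtain ⟨m, hm, hmb⟩ := divHit_of_divCoeff_ne_zero M b na h1
  have h2 : divCoeff M a 12 nb ≠ 0 := by
    rw [h nb]
    exact (divCoeff_pos_of_divHit M b nb hnb_hit).ne'
  obtain ⟨m', hm', hma⟩ := divHit_of_divCoeff_ne_zero M a nb h2
  have e1 : nb ≤ m := Nat.find_min' hb hmb
  have e2 : m ≤ na := Nat.le_of_dvd hna_hit.1 hm
  have e3 : na ≤ m' := Nat.find_min' ha hma
  have e4 : m' ≤ nb := Nat.le_of_dvd hnb_hit.1 hm'
  have e5 : m = na := le_antisymm e2 (by omega)
  rw [e5] at hmb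
  rcases hna_hit.2 with p | p <;> rcases hmb.2 with q | q
  · exact Or.inl (p.symm.trans q)
  · exact Or.inr (p.symm.trans q)
  · right
    rw [← q, p, neg_neg]
  · left
    have := p.symm.trans q
    exact neg_injective this

theorem divSeries_injective (M : ℕ) [NeZero M] (a b : ZMod M)
    (h : divSeries M a 12 = divSeries M b 12) : a = b ∨ a = -b := by
  refine eq_or_eq_neg_of_divCoeff_eq M a b fun n => ?_
  rw [← coeff_divSeries, ← coeff_divSeries, h]

theorem divNum_injective (M : ℕ) [NeZero M] (a b : ZMod M) (h : divNum M a = divNum M b) :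
    a = b ∨ a = -b := by
  apply divSeries_injective
  have h1 := congrArg (fun x => x * dedekindEtaUnit) h
  simp only [divNum, mul_assoc] at h1
  rw [mul_comm dedekindEtaUnitInv, dedekindEtaUnit_mul_inv, mul_one, mul_one] at h1
  exact h1

/-- **Distinctness of the division values** `P_a` over a ring of characteristic zero. -/
theorem divGenC_injective (K : Type*) [CommRing K] [CharZero K] (M : ℕ) [NeZero M]
    (a b : ZMod M) (h : divGenC K M a = divGenC K M b) : a = b ∨ a = -b := by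
  apply divNum_injective
  have h1 := congrArg (fun x => HahnSeries.single (1 : ℤ) (1 : K) * x) h
  simp only [divGenC, ← mul_assoc, HahnSeries.single_mul_single] at h1
  norm_num at h1
  have h3 := HahnSeries.ofPowerSeries_injective h1
  exact PowerSeries.map_injective (Int.castRingHom K) Int.cast_injective h3

end Fermat.Agent.S48.H496

end
end
-- ===== PACK-END S48/H496/DivDistinct.lean

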