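import Mathlib
import Mathlib.NumberTheory.LSeries.PrimesInAP
import Fermat.Prelude.Def_GaloisRep_CompletionBridge
import Fermat.Agent.Pack.L1B.E1L3
import Fermat.Agent.Pack.L1B.E0L1
import Fermat.Agent.Pack.L1B.E1L0
import Fermat.Agent.Pack.L1B.E1L1
import Fermat.Agent.Pack.L1B.E0L2
import Fermat.Agent.Pack.S44C.G0E18L3
import Fermat.Agent.Pack.S44C.G0E8L3
import Fermat.Agent.Pack.L1B.E0L3
import Fermat.Agent.Pack.L1B.E1L2
import Fermat.Agent.Pack.S44C.G0E6L2
import Fermat.Agent.Pack.S44C.G0E1L1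
import Fermat.Agent.Pack.S43GC.G0E3L0
import Fermat.Agent.Pack.S43GC.G0E10L2
import Fermat.Agent.Pack.S43GC.G0E8L2
import Fermat.Agent.Pack.S43GC.G0E11L0
import Fermat.Agent.Pack.S43GC.G0E11L2
import Fermat.Agent.Pack.L1.E10L0

-- ===== PACK-BEGIN S48/H856/IgusaBuild.lean
section



/-!
# S48 / RES / IGUSA1 — constructor of `IgusaData` from an expansion map (helper856)

`L` = a field carrying the action and the expansion (so `Ω = L`), with
* constants `const : K →+* L` (`K = E` a number field, `𝒪 = A ∩ E` discrete with uniformiser `w₀`),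
* an expansion map `ex : L →+* K((X))`, `ex (const c) = C c`, and a subfield `Ffull` of `L` all of
  whose elements are quotients of elements with bounded denominators (`HasBd`),
* a coordinate `x` (`= j`) whose expansion is integral with a pole with unit leading coefficient,
* a finite group `G ≤ Aut L` fixing constants and `x`, with `L^G ⊆ K(x)`; `B ≤ G`; `t ∈ B`
  acting on expansions by `X ↦ ζ X` (`ζ` a unit of `𝒪`), `B` normalising `⟨t⟩`, the
  `G`-conjugates of `t` generating `G`,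
* `F0 ⊇ L^B` satisfying the `q`-expansion principle `qep0` (Igusa for `X₀(M)`, landed S28).

`igusaData_of_expansion` produces the `IgusaData`, hence (`IgusaData.qep_fin`) the `q`-expansion
principle for every subfield of `L`.
-/

set_option autoImplicit false

open HahnSeries Polynomial

namespace Fermat.Agent.S48.H856

open Fermat.Agent.S18.Alg

variable {K : Type*} [Field K] {𝒪 : ValuationSubring K} {L : Type*} [Field L]
  {ex : L →+* LaurentSeries K}

/-- the expansion of a polynomial in `x` over the constants -/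
theorem ex_eval_eq (const : K →+* L) (hconst : ∀ c, ex (const c) = HahnSeries.C c) (x : L)
    (c₀ : ℕ → K) (N : ℕ) :
    ex (∑ i ∈ Finset.range (N + 1), const (c₀ i) * x ^ i)
      = ∑ i ∈ Finset.range (N + 1), HahnSeries.C (c₀ i) * ex x ^ i := by
  rw [map_sum]
  exact Finset.sum_congr rfl fun i _ => by rw [map_mul, map_pow, hconst]

/-- a coordinate with a pole is transcendental over the constants -/
theorem sum_ne_zero_of_pole {x : L} {m : ℕ} (hm : 0 < m) (hord : (ex x).order = -(m : ℤ))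
    (hx0 : ex x ≠ 0) (const : K →+* L) (hconst : ∀ c, ex (const c) = HahnSeries.C c)
    (c₀ : ℕ → K) (N : ℕ) (hN : c₀ N ≠ 0) :
    ∑ i ∈ Finset.range (N + 1), const (c₀ i) * x ^ i ≠ 0 := by
  classical
  intro h0
  have h1 := congrArg ex h0
  rw [ex_eval_eq const hconst, map_zero] at h1
  have h2 := congrArg (fun s => s.coeff (-((m : ℤ) * N))) h1
  simp only [HahnSeries.coeff_sum, HahnSeries.coeff_zero] at h2
  have hordi : ∀ i : ℕ, (ex x ^ i).order = -((m : ℤ) * i) := fun i => by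
    rw [HahnSeries.order_pow, hord]
    simp
    ring
  have hmem : N ∈ Finset.range (N + 1) := Finset.mem_range.mpr (by omega)
  rw [← Finset.add_sum_erase _ _ hmem] at h2
  have hrest : ∑ i ∈ (Finset.range (N + 1)).erase N,
      (HahnSeries.C (c₀ i) * ex x ^ i).coeff (-((m : ℤ) * N)) = 0 := by
    apply Finset.sum_eq_zero
    intro i hi
    rw [Finset.mem_erase, Finset.mem_range] at hi
    rw [coeff_C_mul_eq]
    have : (ex x ^ i).coeff (-((m : ℤ) * N)) = 0 := by
      apply HahnSeries.coeff_eq_zero_of_lt_order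
      rw [hordi]
      have h3 : (i : ℤ) < N := by
        have : i < N := lt_of_le_of_ne (by omega) hi.1
        exact_mod_cast this
      have h4 : (0 : ℤ) < m := by exact_mod_cast hm
      nlinarith
    rw [this, mul_zero]
  rw [hrest, add_zero, coeff_C_mul_eq] at h2
  have h5 : (ex x ^ N).coeff (-((m : ℤ) * N)) = (ex x ^ N).leadingCoeff := by
    rw [HahnSeries.leadingCoeff_eq, hordi]
  rw [h5, leadingCoeff_pow'] at h2
  have h6 : (ex x).leadingCoeff ≠ 0 := HahnSeries.leadingCoeff_ne_zero.mpr hx0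
  exact mul_ne_zero hN (pow_ne_zero _ h6) h2

/-- an element of the image of `𝒪` is `const c` with `c ∈ 𝒪` -/
theorem exists_of_mem_map (const : K →+* L) {r : L} (hr : r ∈ 𝒪.toSubring.map const) :
    ∃ c ∈ 𝒪, const c = r := by
  obtain ⟨c, hc, rfl⟩ := hr
  exact ⟨c, hc, rfl⟩

theorem mem_map_of_mem (const : K →+* L) {c : K} (hc : c ∈ 𝒪) :
    const c ∈ 𝒪.toSubring.map const := ⟨c, hc, rfl⟩

/-- a nonzero element of `𝒪` is a unit times a NATURAL power of the uniformiser -/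
theorem exists_nat_pow_of_mem {w₀ : K} (hd : IsDiscrete 𝒪 w₀) {c : K} (hc : c ∈ 𝒪)
    (hc0 : c ≠ 0) : ∃ n : ℕ, 𝒪.valuation (c * (w₀⁻¹) ^ n) = 1 := by
  obtain ⟨n, hn⟩ := hd.disc c hc0
  have hw0 : 𝒪.valuation w₀ ≠ 0 := (Valuation.ne_zero_iff _).mpr hd.w_ne
  have hn0 : 0 ≤ n := by
    by_contra hneg
    rw [not_le] at hneg
    have h1 : 𝒪.valuation c ≤ 1 := (𝒪.valuation_le_one_iff _).mpr hc
    have h2 : 1 < 𝒪.valuation w₀ ^ n := by
      obtain ⟨k, hk⟩ : ∃ k : ℕ, n = -((k : ℤ) + 1) := ⟨(-n - 1).toNat, by omega⟩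
      rw [hk, zpow_neg, ← inv_zpow]
      have h3 : 1 < (𝒪.valuation w₀)⁻¹ := by
        rw [one_lt_inv₀ (zero_lt_iff.mpr hw0)]
        exact hd.w_lt
      have h4 : ((𝒪.valuation w₀)⁻¹) ^ ((k : ℤ) + 1) = ((𝒪.valuation w₀)⁻¹) ^ (k + 1) := by
        exact_mod_cast zpow_natCast ((𝒪.valuation w₀)⁻¹) (k + 1)
      rw [h4]
      exact one_lt_pow₀ h3 (by omega)
    rw [← hn] at h2
    exact absurd h1 (not_le.mpr h2)
  refine ⟨n.toNat, ?_⟩
  rw [map_mul, map_pow, map_inv₀, hn]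
  have h5 : 𝒪.valuation w₀ ^ n = 𝒪.valuation w₀ ^ n.toNat := by
    conv_lhs => rw [← Int.toNat_of_nonneg hn0]
    exact zpow_natCast _ _
  rw [h5, inv_pow, mul_inv_cancel₀ (pow_ne_zero _ hw0)]

theorem mem_and_inv_mem_of_valuation_eq_one {c : K} (h : 𝒪.valuation c = 1) :
    c ∈ 𝒪 ∧ c⁻¹ ∈ 𝒪 := by
  constructor
  · exact (𝒪.valuation_le_one_iff _).mp h.le
  · apply (𝒪.valuation_le_one_iff _).mp
    rw [map_inv₀, h, inv_one]

/-- **Constructor of `IgusaData` from an expansion map.**  `Ffull` is any subfield of `L` all of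
whose elements are quotients of elements with bounded denominators. -/
theorem igusaData_of_expansion
    (const : K →+* L) (hconst : ∀ c, ex (const c) = HahnSeries.C c)
    {w₀ : K} (hG : GaussHyp 𝒪 ex w₀ (const w₀))
    (Ffull : Subfield L) (hbd : ∀ f ∈ Ffull, HasBd 𝒪 ex (const w₀) f)
    (hconstF : ∀ c, const c ∈ Ffull)
    {x : L} (hxF : x ∈ Ffull) (hx : IsInt 𝒪 (ex x)) {m : ℕ} (hm : 0 < m)
    (hord : (ex x).order = -(m : ℤ)) (hlead : 𝒪.valuation (ex x).leadingCoeff = 1)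
    (F0 : Subfield L) (G B : Subgroup (L ≃+* L)) (t : L ≃+* L)
    (hGfin : Finite G)
    (hGE : ∀ g ∈ G, ∀ c : K, g (const c) = const c)
    (hGx : ∀ g ∈ G, g x = x)
    (hGF : ∀ g ∈ G, ∀ f ∈ Ffull, g f ∈ Ffull)
    (hGinv : ∀ f ∈ Ffull, (∀ g ∈ G, g f = f) → f ∈ ratField const.fieldRange x)
    (hBG : B ≤ G) (htB : t ∈ B)
    (htn : ∀ b ∈ B, b * t * b⁻¹ ∈ Subgroup.zpowers t)
    (htgen : G ≤ Subgroup.closure {s | ∃ g ∈ G, s = g * t * g⁻¹})
    {ζ : K} (hζ : 𝒪.valuation ζ = 1)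
    (htw : ∀ (f : L) (k : ℤ), (ex (t f)).coeff k = ζ ^ k * (ex f).coeff k)
    (hBinv : ∀ f ∈ Ffull, (∀ b ∈ B, b f = f) → f ∈ F0)
    (hqep0 : ∀ b ∈ chart F0 (𝒪.toSubring.map const) x,
      b * (const w₀)⁻¹ ∈ gaussRing 𝒪 ex → b * (const w₀)⁻¹ ∈ chart F0 (𝒪.toSubring.map const) x) :
    IgusaData const.fieldRange F0 Ffull (𝒪.toSubring.map const) (gaussRing 𝒪 ex) (const w₀) x
      G B t := by
  classical
  have hx0 : ex x ≠ 0 := by
    intro h0
    rw [h0, HahnSeries.order_zero] at hord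
    have : (0 : ℤ) < m := by exact_mod_cast hm
    omega
  have hw₀mem : w₀ ∈ 𝒪 := (𝒪.valuation_le_one_iff _).mp hG.disc.w_lt.le
  have hRV : 𝒪.toSubring.map const ≤ gaussRing 𝒪 ex := by
    intro r hr
    obtain ⟨c, hc, rfl⟩ := exists_of_mem_map const hr
    exact mem_gaussRing_of_isInt (by rw [hconst]; exact isInt_C hc)
  refine
    { R_le := ?_, R_total := ?_, w_mem := mem_map_of_mem const hw₀mem,
      w_ne_zero := hG.w_ne_zero, w_inv_not_mem := fun h => hG.w_inv_notMem (hRV h),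
      w_discrete := ?_, E_le := ?_, x_mem := hxF,
      x_transcendental := ?_, R_le_V := hRV, x_mem_V := mem_gaussRing_of_isInt hx,
      V_total := fun f hf => hG.total (hbd f hf), w_inv_not_mem_V := hG.w_inv_notMem,
      V_discrete := fun f hf hf0 => hG.discrete (hbd f hf) hf0, gauss := ?_, G_finite := hGfin,
      G_fix_E := ?_, G_fix_x := hGx, G_stable := hGF,
      G_inv := hGinv, B_le := hBG, t_mem := htB, t_normal := htn,
      t_gen := htgen, t_V := fun f _ => smul_mem_gaussRing_iff t hζ htw f,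
      B_inv := hBinv, qep0 := hqep0 }
  · -- R_le
    intro r hr
    obtain ⟨c, _, rfl⟩ := exists_of_mem_map const hr
    exact ⟨c, rfl⟩
  · -- R_total
    rintro e ⟨c, rfl⟩
    rcases 𝒪.mem_or_inv_mem c with h | h
    · exact Or.inl (mem_map_of_mem const h)
    · right
      rw [← map_inv₀]
      exact mem_map_of_mem const h
  · -- w_discrete
    intro r hr hr0
    obtain ⟨c, hc, rfl⟩ := exists_of_mem_map const hr
    have hc0 : c ≠ 0 := fun h => hr0 (by rw [h, map_zero])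
    obtain ⟨n, hn⟩ := exists_nat_pow_of_mem hG.disc hc hc0
    obtain ⟨h1, h2⟩ := mem_and_inv_mem_of_valuation_eq_one hn
    refine ⟨n, ?_, ?_⟩
    · have : const c * (const w₀)⁻¹ ^ n = const (c * (w₀⁻¹) ^ n) := by
        rw [map_mul, map_pow, map_inv₀]
      rw [this]; exact mem_map_of_mem const h1
    · have : (const c * (const w₀)⁻¹ ^ n)⁻¹ = const ((c * (w₀⁻¹) ^ n)⁻¹) := by
        rw [map_inv₀, map_mul, map_pow, map_inv₀]
      rw [this]; exact mem_map_of_mem const h2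
  · -- E_le
    rintro e ⟨c, rfl⟩
    exact hconstF c
  · -- x_transcendental
    rw [transcendental_iff]
    intro P hP
    by_contra hP0
    have hcoeff : ∀ i, ∃ c ∈ 𝒪, const c = (P.coeff i : L) := fun i =>
      exists_of_mem_map const (P.coeff i).2
    choose c₀ hc₀ hc₀' using hcoeff
    have hsum : Polynomial.aeval x P
        = ∑ i ∈ Finset.range (P.natDegree + 1), const (c₀ i) * x ^ i := by
      rw [Polynomial.aeval_eq_sum_range]
      refine Finset.sum_congr rfl fun i _ => ?_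
      rw [hc₀' i, Algebra.smul_def]
      rfl
    have hN : c₀ P.natDegree ≠ 0 := by
      intro h0
      have h1 : (P.coeff P.natDegree : L) = 0 := by rw [← hc₀', h0, map_zero]
      have h2 : P.coeff P.natDegree = 0 := Subtype.ext h1
      exact hP0 (Polynomial.leadingCoeff_eq_zero.mp h2)
    exact sum_ne_zero_of_pole hm hord hx0 const hconst c₀ P.natDegree hN (hsum ▸ hP)
  · -- gauss
    intro P hPc hPu
    have hcoeff : ∀ i, ∃ c ∈ 𝒪, const c = P.coeff i := fun i =>
      exists_of_mem_map const (hPc i)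
    choose c₀ hc₀ hc₀' using hcoeff
    have hsum : P.eval x = ∑ i ∈ Finset.range (P.natDegree + 1), const (c₀ i) * x ^ i := by
      rw [Polynomial.eval_eq_sum_range]
      exact Finset.sum_congr rfl fun i _ => by rw [hc₀' i]
    rw [hsum]
    apply inv_mem_gaussRing_of_isPrim
    obtain ⟨i₀, hi₀, hi₀'⟩ := hPu
    apply isPrim_sum_of_pole hx hm hord hlead (fun i => const (c₀ i)) c₀ (fun i => hconst _) hc₀
    refine ⟨i₀, Polynomial.le_natDegree_of_ne_zero hi₀, ?_⟩
    obtain ⟨d, hd, hd'⟩ := exists_of_mem_map const hi₀'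
    have h1 : d = (c₀ i₀)⁻¹ := by
      apply const.injective
      rw [hd', map_inv₀, hc₀']
    have h2 : 𝒪.valuation (c₀ i₀) ≤ 1 := (𝒪.valuation_le_one_iff _).mpr (hc₀ i₀)
    have h3 : 𝒪.valuation (c₀ i₀)⁻¹ ≤ 1 := (𝒪.valuation_le_one_iff _).mpr (h1 ▸ hd)
    have hc0 : c₀ i₀ ≠ 0 := fun h => hi₀ (by rw [← hc₀', h, map_zero])
    have hv0 : 𝒪.valuation (c₀ i₀) ≠ 0 := (Valuation.ne_zero_iff _).mpr hc0
    rw [map_inv₀] at h3
    have h4 : 1 ≤ 𝒪.valuation (c₀ i₀) := by
      rwa [inv_le_one₀ (zero_lt_iff.mpr hv0)] at h3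
    exact le_antisymm h2 h4
  · -- G_fix_E
    rintro g hg a ⟨c, rfl⟩
    exact hGE g hg c

/-- **IGUSA1, expansion form**: the `q`-expansion principle for every subfield `Fc ≤ Ffull`
containing the uniformiser. -/
theorem qep_fin_of_expansion
    (const : K →+* L) (hconst : ∀ c, ex (const c) = HahnSeries.C c)
    {w₀ : K} (hG : GaussHyp 𝒪 ex w₀ (const w₀))
    (Ffull : Subfield L) (hbd : ∀ f ∈ Ffull, HasBd 𝒪 ex (const w₀) f)
    (hconstF : ∀ c, const c ∈ Ffull)
    {x : L} (hxF : x ∈ Ffull) (hx : IsInt 𝒪 (ex x)) {m : ℕ} (hm : 0 < m)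
    (hord : (ex x).order = -(m : ℤ)) (hlead : 𝒪.valuation (ex x).leadingCoeff = 1)
    (F0 : Subfield L) (G B : Subgroup (L ≃+* L)) (t : L ≃+* L)
    (hGfin : Finite G)
    (hGE : ∀ g ∈ G, ∀ c : K, g (const c) = const c)
    (hGx : ∀ g ∈ G, g x = x)
    (hGF : ∀ g ∈ G, ∀ f ∈ Ffull, g f ∈ Ffull)
    (hGinv : ∀ f ∈ Ffull, (∀ g ∈ G, g f = f) → f ∈ ratField const.fieldRange x)
    (hBG : B ≤ G) (htB : t ∈ B)
    (htn : ∀ b ∈ B, b * t * b⁻¹ ∈ Subgroup.zpowers t)
    (htgen : G ≤ Subgroup.closure {s | ∃ g ∈ G, s = g * t * g⁻¹})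
    {ζ : K} (hζ : 𝒪.valuation ζ = 1)
    (htw : ∀ (f : L) (k : ℤ), (ex (t f)).coeff k = ζ ^ k * (ex f).coeff k)
    (hBinv : ∀ f ∈ Ffull, (∀ b ∈ B, b f = f) → f ∈ F0)
    (hqep0 : ∀ b ∈ chart F0 (𝒪.toSubring.map const) x,
      b * (const w₀)⁻¹ ∈ gaussRing 𝒪 ex → b * (const w₀)⁻¹ ∈ chart F0 (𝒪.toSubring.map const) x)
    (Fc : Subfield L) (hFc : Fc ≤ Ffull) (hwFc : const w₀ ∈ Fc) :
    ∀ b ∈ chart Fc (𝒪.toSubring.map const) x,
      b * (const w₀)⁻¹ ∈ gaussRing 𝒪 ex → b * (const w₀)⁻¹ ∈ chart Fc (𝒪.toSubring.map const) x :=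
  (igusaData_of_expansion const hconst hG Ffull hbd hconstF hxF hx hm hord hlead F0 G B t hGfin
    hGE hGx hGF hGinv hBG htB htn htgen hζ htw hBinv hqep0).qep_fin Fc hFc hwFc

end Fermat.Agent.S48.H856

end
-- ===== PACK-END S48/H856/IgusaBuild.lean

-- ===== PACK-BEGIN S48/H948/ExactAway.lean
section



/-!
# S48 glue piece EXA (helper948): `ComplexLiftStatement ⟹ ExactAwayStatement`

Deligne–Serre §8, second half.  The complex lifts `ρ_ℓ` have image of order `≤ A`, so the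
traces and determinants of Frobenius elements lie in the finite set
`Y = {(α + β, α β) : α^(A!) = β^(A!) = 1}`.  A congruence modulo a place above a large prime
between two algebraic integers whose difference lies in a fixed finite set is an equality
(Z-lemma).  First `(a_p, ε(p)) ∈ Y` for every `p` (with `ℓ` large depending on `p`), then
`(tr, det) ρ_ℓ(Frob_p) = (a_p, ε(p))` for all `p ∤ Nℓ`, `ℓ` large.
-/

set_option autoImplicit false

open CongruenceSubgroup
open scoped MatrixGroups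

namespace Fermat.Agent.S48.H948

open Fermat.Agent.Lib.Cheb.Spec Fermat.Agent.Lib.Cheb.SpecQ Fermat.Agent.S48.Top

/-- Elements of a finite subgroup of order `≤ A` are killed by `A!`. -/
theorem pow_factorial_eq_one_of_card_range_le {G H : Type*} [Group G] [Group H] (ρ : G →* H)
    (hfin : Finite ρ.range) {A : ℕ} (hA : Nat.card ρ.range ≤ A) (σ : G) :
    (ρ σ) ^ A.factorial = 1 := by
  have hpos : 0 < Nat.card ρ.range := Nat.card_pos
  have h1 : orderOf (⟨ρ σ, σ, rfl⟩ : ρ.range) ∣ Nat.card ρ.range := orderOf_dvd_natCard _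
  have h2 : Nat.card ρ.range ∣ A.factorial := Nat.dvd_factorial hpos hA
  have h3 := orderOf_dvd_iff_pow_eq_one.mp (h1.trans h2)
  have h4 := congrArg (fun x : ρ.range => (x : H)) h3
  simpa using h4

/-- (EXA) -/
theorem exactAwayPiece : ExactAwayPiece := by
  intro hCL N _ ε f hyp
  obtain ⟨A₀, B₀, h⟩ := hCL N ε f hyp
  set m := A₀.factorial with hm
  have hmpos : 0 < m := Nat.factorial_pos _
  -- traces and determinants of Frobenius elements lie in `unitPairs m`
  have hY : ∀ (ρ : GQ →* GL (Fin 2) ℂ), Finite ρ.range → Nat.card ρ.range ≤ A₀ → ∀ σ : GQ,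
      (((ρ σ : GL (Fin 2) ℂ) : Matrix (Fin 2) (Fin 2) ℂ).trace,
        ((ρ σ : GL (Fin 2) ℂ) : Matrix (Fin 2) (Fin 2) ℂ).det) ∈ unitPairs m := by
    intro ρ hfin hcard σ
    exact trace_det_mem_unitPairs (ρ σ) hmpos
      (pow_factorial_eq_one_of_card_range_le ρ hfin hcard σ)
  -- Step 1: `(a_p, ε p) ∈ unitPairs m` as soon as there is a Frobenius element at `p`
  have claim : ∀ p : ℕ, p.Prime → ¬ p ∣ N →
      (∃ (A : ValuationSubring Qb) (σ : GQ), A.LiesOverPrime p ∧ A.IsFrobeniusAt σ p) →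
      (ModularFormClass.qCoeff f p, ε (p : ZMod N)) ∈ unitPairs m := by
    intro p hp hpN ⟨A, σ, hA, hσ⟩
    set D : Finset ℂ :=
      (unitPairs m).image (fun y => ModularFormClass.qCoeff f p - y.1) ∪
        (unitPairs m).image (fun y => ε (p : ZMod N) - y.2) with hD
    obtain ⟨ℓ, hℓge, hℓ⟩ := Nat.exists_infinite_primes (max B₀ (max p (killProd D)) + 1)
    have hℓB : B₀ < ℓ := by have := le_max_left B₀ (max p (killProd D)); omega
    have hℓp : p < ℓ := by
      have := le_max_left p (killProd D)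
      have := le_max_right B₀ (max p (killProd D)); omega
    have hℓD : killProd D < ℓ := by
      have := le_max_right p (killProd D)
      have := le_max_right B₀ (max p (killProd D)); omega
    obtain ⟨k, _, _, φ, ρ, -, hC, hfin, hcard⟩ := h ℓ hℓ hℓB
    have hnd : ¬ p ∣ N * ℓ := by
      intro hdvd
      rcases (Nat.Prime.dvd_mul hp).mp hdvd with h1 | h1
      · exact hpN h1
      · have := (Nat.prime_dvd_prime_iff_eq hp hℓ).mp h1
        omega
    obtain ⟨a, e, t, d, ha, he, ht, hd, hta, hde⟩ := (hC p hp hnd A hA).2 σ hσ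
    have hmem := hY ρ hfin hcard σ
    rw [← ht, ← hd] at hmem
    have h1 : a = t := by
      refine eq_of_map_eq_of_lt_char D hℓD φ a t ?_ hta.symm
      rw [hD, Finset.mem_union]
      left
      rw [Finset.mem_image]
      exact ⟨_, hmem, by rw [ha]⟩
    have h2 : e = d := by
      refine eq_of_map_eq_of_lt_char D hℓD φ e d ?_ hde.symm
      rw [hD, Finset.mem_union]
      right
      rw [Finset.mem_image]
      exact ⟨_, hmem, by rw [he]⟩
    rw [← ha, ← he, h1, h2]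
    exact hmem
  -- Step 2: exact equality for large `ℓ`
  set D : Finset ℂ :=
    (unitPairs m ×ˢ unitPairs m).image (fun yy => yy.1.1 - yy.2.1) ∪
      (unitPairs m ×ˢ unitPairs m).image (fun yy => yy.1.2 - yy.2.2) with hD
  refine ⟨max B₀ (killProd D), ?_⟩
  intro ℓ hℓ hℓB
  have hℓB₀ : B₀ < ℓ := lt_of_le_of_lt (le_max_left _ _) hℓB
  have hℓD : killProd D < ℓ := lt_of_le_of_lt (le_max_right _ _) hℓB
  obtain ⟨k, _, _, φ, ρ, hFL, hC, hfin, hcard⟩ := h ℓ hℓ hℓB₀
  refine ⟨ρ, hFL, ?_⟩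
  intro p hp hnd A hA
  obtain ⟨hin, hF⟩ := hC p hp hnd A hA
  refine ⟨hin, ?_⟩
  intro σ hσ
  obtain ⟨a, e, t, d, ha, he, ht, hd, hta, hde⟩ := hF σ hσ
  have hpN : ¬ p ∣ N := fun h1 => hnd (Dvd.dvd.mul_right h1 ℓ)
  have hmem1 := claim p hp hpN ⟨A, σ, hA, hσ⟩
  have hmem2 := hY ρ hfin hcard σ
  rw [← ht, ← hd] at hmem2
  have h1 : a = t := by
    refine eq_of_map_eq_of_lt_char D hℓD φ a t ?_ hta.symm
    rw [hD, Finset.mem_union]
    left
    rw [Finset.mem_image]
    exact ⟨(_, _), Finset.mem_product.mpr ⟨hmem1, hmem2⟩, by rw [ha]⟩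
  have h2 : e = d := by
    refine eq_of_map_eq_of_lt_char D hℓD φ e d ?_ hde.symm
    rw [hD, Finset.mem_union]
    right
    rw [Finset.mem_image]
    exact ⟨(_, _), Finset.mem_product.mpr ⟨hmem1, hmem2⟩, by rw [he]⟩
  exact ⟨by rw [← ht, ← ha, h1], by rw [← hd, ← he, h2]⟩

end Fermat.Agent.S48.H948

end
-- ===== PACK-END S48/H948/ExactAway.lean

-- ===== PACK-BEGIN S48/H948/Two.lean
section



/-!
# S48 glue piece TWO (helper948): `ExactAwayStatement + ChebDensityStatement ⟹ ExactStatement`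

Take two primes `ℓ₁ ≠ ℓ₂` and the representations `ρ₁`, `ρ₂` attached away from `Nℓ₁`, `Nℓ₂`.
By Chebotarev every element of the image of `ρ₁ × ρ₂` is the image of a Frobenius element at a
prime `p ∤ Nℓ₁ℓ₂`, where both traces are `a_p` and both determinants are `ε(p)`.  Hence
`(tr, det) ∘ ρ₁ = (tr, det) ∘ ρ₂`; an element of finite order with trace `2` and determinant `1`
is the identity, so `ker ρ₂ ⊆ ker ρ₁`, and `ρ₁` is unramified at `ℓ₁` with the right Frobenius.
-/

set_option autoImplicit false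

open CongruenceSubgroup
open scoped MatrixGroups

namespace Fermat.Agent.S48.H948

open Fermat.Agent.Lib.Cheb.Spec Fermat.Agent.Lib.Cheb.SpecQ Fermat.Agent.S48.Top

/-- The product of two homomorphisms of finite level has finite level. -/
theorem finiteLevel_prod {M₁ M₂ : Type} [Group M₁] [Group M₂] (ρ₁ : GQ →* M₁) (ρ₂ : GQ →* M₂)
    (h₁ : GaloisFactorsThroughFiniteLevel ρ₁) (h₂ : GaloisFactorsThroughFiniteLevel ρ₂) :
    ∃ E : IntermediateField ℚ Qb, FiniteDimensional ℚ E ∧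
      ∀ σ : GQ, (∀ x ∈ E, σ x = x) → (ρ₁.prod ρ₂) σ = 1 := by
  obtain ⟨E₁, hE₁, hρ₁⟩ := h₁
  obtain ⟨E₂, hE₂, hρ₂⟩ := h₂
  have : FiniteDimensional ℚ E₁ := hE₁
  have : FiniteDimensional ℚ E₂ := hE₂
  refine ⟨E₁ ⊔ E₂, inferInstance, ?_⟩
  intro σ hσ
  have e1 : ρ₁ σ = 1 := hρ₁ σ fun x hx => hσ x ((le_sup_left : E₁ ≤ E₁ ⊔ E₂) hx)
  have e2 : ρ₂ σ = 1 := hρ₂ σ fun x hx => hσ x ((le_sup_right : E₂ ≤ E₁ ⊔ E₂) hx)
  rw [MonoidHom.prod_apply, e1, e2]
  rfl

/-- Chebotarev, qualitative client form extracted from the density statement: every value of a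
homomorphism of finite level is the value at a Frobenius element at an unramified prime
outside `S`. -/
theorem exists_frobenius_of_chebDensity (hCheb : ChebDensityStatement) {G : Type} [Group G]
    (ρ : GQ →* G) (E : IntermediateField ℚ Qb) (hE : FiniteDimensional ℚ E)
    (hρ : ∀ σ : GQ, (∀ x ∈ E, σ x = x) → ρ σ = 1) (S : Finset ℕ) (σ : GQ) :
    ∃ (p : ℕ) (A : ValuationSubring Qb) (τ : GQ), p.Prime ∧ p ∉ S ∧ A.LiesOverPrime p ∧
      A.IsFrobeniusAt τ p ∧ ρ τ = ρ σ := by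
  have hfin : Finite ρ.range := finite_range_of_finiteLevel ρ ⟨E, hE, hρ⟩
  have hfin' : Finite ↥(Set.range ρ) := hfin
  have hdens := hCheb G ρ E hE hρ {ρ σ} S
  have hinter : ({ρ σ} ∩ Set.range ρ : Set G) = {ρ σ} := by
    rw [Set.inter_eq_left, Set.singleton_subset_iff]
    exact Set.mem_range_self σ
  have hpos : (0 : ℝ) <
      (Nat.card ↥({ρ σ} ∩ Set.range ρ : Set G) : ℝ) / (Nat.card ↥(Set.range ρ) : ℝ) := by
    rw [hinter, Nat.card_unique, Nat.cast_one]
    have : Nonempty ↥(Set.range ρ) := ⟨⟨ρ σ, Set.mem_range_self σ⟩⟩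
    have h0 : 0 < Nat.card ↥(Set.range ρ) := Nat.card_pos
    positivity
  obtain ⟨p, hp⟩ := nonempty_of_hasLowerDensity hdens hpos
  obtain ⟨hpp, hpS, A, τ, hA, hτ, -, hτσ⟩ := hp
  exact ⟨p, A, τ, hpp, hpS, hA, hτ, hτσ⟩

/-- (TWO) -/
theorem exactPiece : ExactPiece := by
  intro hEA hCheb N _ ε f hyp
  obtain ⟨B, h⟩ := hEA N ε f hyp
  obtain ⟨ℓ₁, hℓ₁B, hℓ₁⟩ := Nat.exists_infinite_primes (B + 1)
  obtain ⟨ℓ₂, hℓ₂ℓ₁, hℓ₂⟩ := Nat.exists_infinite_primes (ℓ₁ + 1)
  obtain ⟨ρ₁, hFL₁, hatt₁⟩ := h ℓ₁ hℓ₁ (by omega)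
  obtain ⟨ρ₂, hFL₂, hatt₂⟩ := h ℓ₂ hℓ₂ (by omega)
  have hN : N ≠ 0 := NeZero.ne N
  obtain ⟨E, hE, hE12⟩ := finiteLevel_prod ρ₁ ρ₂ hFL₁ hFL₂
  -- traces and determinants agree everywhere
  have hagree : ∀ σ : GQ,
      ((ρ₁ σ : GL (Fin 2) ℂ) : Matrix (Fin 2) (Fin 2) ℂ).trace =
        ((ρ₂ σ : GL (Fin 2) ℂ) : Matrix (Fin 2) (Fin 2) ℂ).trace ∧
      ((ρ₁ σ : GL (Fin 2) ℂ) : Matrix (Fin 2) (Fin 2) ℂ).det =
        ((ρ₂ σ : GL (Fin 2) ℂ) : Matrix (Fin 2) (Fin 2) ℂ).det := by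
    intro σ
    obtain ⟨p, A, τ, hp, hpS, hA, hτ, hτσ⟩ :=
      exists_frobenius_of_chebDensity hCheb (ρ₁.prod ρ₂) E hE hE12
        (N * ℓ₁ * ℓ₂).primeFactors σ
    have hne : N * ℓ₁ * ℓ₂ ≠ 0 :=
      mul_ne_zero (mul_ne_zero hN hℓ₁.ne_zero) hℓ₂.ne_zero
    have hnd : ¬ p ∣ N * ℓ₁ * ℓ₂ := fun hd =>
      hpS (Nat.mem_primeFactors.mpr ⟨hp, hd, hne⟩)
    have hnd₁ : ¬ p ∣ N * ℓ₁ := fun hd => hnd (Dvd.dvd.mul_right hd ℓ₂)
    have hnd₂ : ¬ p ∣ N * ℓ₂ := fun hd => hnd (by
      have : N * ℓ₁ * ℓ₂ = N * ℓ₂ * ℓ₁ := by ring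
      rw [this]
      exact Dvd.dvd.mul_right hd ℓ₁)
    have e1 : ρ₁ τ = ρ₁ σ := congrArg Prod.fst hτσ
    have e2 : ρ₂ τ = ρ₂ σ := congrArg Prod.snd hτσ
    obtain ⟨ht₁, hd₁⟩ := (hatt₁ p hp hnd₁ A hA).2 τ hτ
    obtain ⟨ht₂, hd₂⟩ := (hatt₂ p hp hnd₂ A hA).2 τ hτ
    rw [← e1, ← e2, ht₁, hd₁, ht₂, hd₂]
    exact ⟨rfl, rfl⟩
  -- kernel of `ρ₂` is contained in the kernel of `ρ₁`
  have hfin₁ : Finite ρ₁.range := finite_range_of_finiteLevel ρ₁ hFL₁
  have hker : ∀ σ : GQ, ρ₂ σ = 1 → ρ₁ σ = 1 := by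
    intro σ hσ
    obtain ⟨ht, hd⟩ := hagree σ
    rw [hσ] at ht hd
    have hpow : (ρ₁ σ) ^ (Nat.card ρ₁.range) = 1 := by
      have h3 : (⟨ρ₁ σ, σ, rfl⟩ : ρ₁.range) ^ (Nat.card ρ₁.range) = 1 := pow_card_eq_one'
      have h4 := congrArg (fun x : ρ₁.range => (x : GL (Fin 2) ℂ)) h3
      simpa using h4
    refine eq_one_of_pow_eq_one_of_trace_det (ρ₁ σ) Nat.card_pos hpow ?_ ?_
    · rw [ht]
      simp
    · rw [hd]
      simp
  refine ⟨ρ₁, hFL₁, ?_⟩
  intro p hp hpN A hA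
  by_cases hpℓ : p ∣ N * ℓ₁
  · -- `p = ℓ₁`: use `ρ₂`
    have hpeq : p = ℓ₁ := by
      rcases (Nat.Prime.dvd_mul hp).mp hpℓ with h1 | h1
      · exact absurd h1 hpN
      · exact (Nat.prime_dvd_prime_iff_eq hp hℓ₁).mp h1
    have hnd₂ : ¬ p ∣ N * ℓ₂ := by
      intro hd
      rcases (Nat.Prime.dvd_mul hp).mp hd with h1 | h1
      · exact hpN h1
      · have := (Nat.prime_dvd_prime_iff_eq hp hℓ₂).mp h1
        omega
    obtain ⟨hin, hF⟩ := hatt₂ p hp hnd₂ A hA
    refine ⟨fun σ hσ => hker σ (hin σ hσ), fun σ hσ => ?_⟩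
    obtain ⟨ht, hd⟩ := hF σ hσ
    obtain ⟨ht', hd'⟩ := hagree σ
    exact ⟨ht'.trans ht, hd'.trans hd⟩
  · exact hatt₁ p hp hpℓ A hA

end Fermat.Agent.S48.H948

end
-- ===== PACK-END S48/H948/Two.lean

-- ===== PACK-BEGIN S48/H128/Integrality.lean
section






/-!
# S48 / P1 (helper128): integrality of the Hecke eigenvalues of a weight one eigenform

For `f : CuspForm (Gamma1 N) 1` with the hypotheses `hf₁`, `hT` of the frozen statement S48 and
with nebentypus `ε` (`hneb`, the output of piece P0):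

* `exists_finite_subring` : there is a subring `R ⊆ ℂ`, finitely generated as a `ℤ`-module,
  containing all values of `ε` and all `a_n(f)` with `n` prime to `N` (in particular the `a_p`,
  `p ∤ N`).
* `isIntegral_qCoeff` : the `a_p`, `p ∤ N`, are algebraic integers.

Proof: `h` = weight 3 Eisenstein series with character `ε⁻¹` (integral `q`-expansion `q + …`
over `ℤ[ε]`); `f h ∈ S₄(Γ₀(N))`, which is spanned by forms with integral `q`-expansion (landed
S23, any weight); hence `f` is a `ℂ`-linear combination of power series with coefficients in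
`ℤ[ε]`, and the `ℤ[ε]`-module spanned by the coefficients of `f` is finitely generated; it contains
every monomial in the eigenvalues.
-/

set_option autoImplicit false

open UpperHalfPlane ModularForm CongruenceSubgroup MatrixGroups ModularFormClass Complex
open Fermat.Agent.S20 (MF SF)
open scoped Manifold Real

noncomputable section

namespace Fermat.Agent.S48.H128

/-! ## Power series with coefficients in a subring -/

section Series

variable (𝒪 : Subring ℂ)

/-- Power series over `ℂ` with coefficients in `𝒪`. -/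
def intS : Subring (PowerSeries ℂ) := (PowerSeries.map 𝒪.subtype).range

theorem mem_intS_iff {P : PowerSeries ℂ} : P ∈ intS 𝒪 ↔ ∀ n : ℕ, P.coeff n ∈ 𝒪 := by
  constructor
  · rintro ⟨Q, rfl⟩ n
    rw [PowerSeries.coeff_map]
    exact (Q.coeff n).2
  · intro h
    refine ⟨PowerSeries.mk fun n => ⟨P.coeff n, h n⟩, ?_⟩
    ext n
    simp

/-- Division by a series `d = q + …` in `𝒪⟦q⟧`. -/
theorem mem_intS_of_mul {g h : PowerSeries ℂ} (d : PowerSeries 𝒪) (hd0 : d.coeff 0 = 0)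
    (hd1 : d.coeff 1 = 1) (hg : g ∈ intS 𝒪) (h_eq : g = d.map 𝒪.subtype * h) :
    h ∈ intS 𝒪 := by
  obtain ⟨g₀, rfl⟩ := hg
  obtain ⟨u, hu⟩ : PowerSeries.X ∣ d := by
    rw [PowerSeries.X_dvd_iff, ← PowerSeries.coeff_zero_eq_constantCoeff_apply]
    exact hd0
  have hu1 : PowerSeries.constantCoeff u = 1 := by
    have := congrArg (PowerSeries.coeff 1) hu
    rw [hd1, show (1 : ℕ) = 0 + 1 from rfl, PowerSeries.coeff_succ_X_mul,
      PowerSeries.coeff_zero_eq_constantCoeff_apply] at this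
    exact this.symm
  have huu : IsUnit u := by
    rw [PowerSeries.isUnit_iff_constantCoeff, hu1]
    exact isUnit_one
  obtain ⟨v, hv⟩ := huu.exists_left_inv
  have hg0 : PowerSeries.constantCoeff g₀ = 0 := by
    have := congrArg PowerSeries.constantCoeff h_eq
    rw [map_mul, ← PowerSeries.coeff_zero_eq_constantCoeff_apply,
      ← PowerSeries.coeff_zero_eq_constantCoeff_apply, PowerSeries.coeff_map,
      PowerSeries.coeff_map, hd0, map_zero, zero_mul] at this
    rw [← PowerSeries.coeff_zero_eq_constantCoeff_apply]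
    exact Subtype.ext (by simpa using this)
  obtain ⟨g₁, hg1⟩ := PowerSeries.X_dvd_iff.mpr hg0
  rw [hg1, hu, map_mul, map_mul, PowerSeries.map_X, mul_assoc] at h_eq
  have h2 := PowerSeries.X_mul_cancel h_eq
  refine ⟨v * g₁, ?_⟩
  rw [map_mul, h2, ← mul_assoc, ← map_mul, hv, map_one, one_mul]

/-- Existence and integrality of the quotient `P / d` for `P` without constant term. -/
theorem exists_quotient_mem_intS (d : PowerSeries 𝒪) (hd0 : d.coeff 0 = 0)
    (hd1 : d.coeff 1 = 1) {P : PowerSeries ℂ} (hP : P ∈ intS 𝒪) (hP0 : P.coeff 0 = 0) :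
    ∃ E ∈ intS 𝒪, d.map 𝒪.subtype * E = P := by
  obtain ⟨P₀, rfl⟩ := hP
  obtain ⟨u, hu⟩ : PowerSeries.X ∣ d := by
    rw [PowerSeries.X_dvd_iff, ← PowerSeries.coeff_zero_eq_constantCoeff_apply]
    exact hd0
  have hu1 : PowerSeries.constantCoeff u = 1 := by
    have := congrArg (PowerSeries.coeff 1) hu
    rw [hd1, show (1 : ℕ) = 0 + 1 from rfl, PowerSeries.coeff_succ_X_mul,
      PowerSeries.coeff_zero_eq_constantCoeff_apply] at this
    exact this.symm
  have huu : IsUnit u := by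
    rw [PowerSeries.isUnit_iff_constantCoeff, hu1]
    exact isUnit_one
  obtain ⟨v, hv⟩ := huu.exists_right_inv
  have hP0' : PowerSeries.constantCoeff P₀ = 0 := by
    rw [← PowerSeries.coeff_zero_eq_constantCoeff_apply]
    rw [PowerSeries.coeff_map] at hP0
    exact Subtype.ext (by simpa using hP0)
  obtain ⟨P₁, hP1⟩ := PowerSeries.X_dvd_iff.mpr hP0'
  refine ⟨(v * P₁).map 𝒪.subtype, ⟨_, rfl⟩, ?_⟩
  rw [← map_mul, hu, hP1]
  congr 1
  rw [mul_assoc, ← mul_assoc u, hv, one_mul]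

end Series

/-! ## The nebentypus and the auxiliary Eisenstein series -/

section Main

variable {N : ℕ} [NeZero N] (ε : DirichletCharacter ℂ N) (f : CuspForm (Gamma1 N) 1)

/-- `f` has nebentypus `ε` (output of piece P0). -/
def HasNebentypus : Prop :=
  ∀ γ : SL(2, ℤ), γ ∈ Gamma0 N →
    (⇑f : ℍ → ℂ) ∣[(1 : ℤ)] γ = ε ((γ 1 1 : ℤ) : ZMod N) • (⇑f : ℍ → ℂ)

theorem slash_neg_one_of_odd (F : ℍ → ℂ) : F ∣[(1 : ℤ)] (-1 : SL(2, ℤ)) = -F := by
  ext z
  rw [SL_slash_apply]
  have hd : denom ((-1 : SL(2, ℤ)) : GL (Fin 2) ℝ) z = -1 := by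
    simp [denom]
  have hz : ((-1 : SL(2, ℤ)) • z) = z := by
    apply UpperHalfPlane.ext
    rw [UpperHalfPlane.specialLinearGroup_apply]
    simp
  rw [hd, hz]
  simp

theorem coe_ne_zero_of_qCoeff_one (hf₁ : ModularFormClass.qCoeff f 1 = 1) :
    (⇑f : ℍ → ℂ) ≠ 0 := by
  intro h
  unfold ModularFormClass.qCoeff at hf₁
  rw [h, qExpansion_zero] at hf₁
  simp at hf₁

/-- The nebentypus of a nonzero weight one form is odd. -/
theorem eps_neg_one (hf₁ : ModularFormClass.qCoeff f 1 = 1) (hneb : HasNebentypus ε f) :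
    ε (-1) = -1 := by
  have h := hneb (-1) (by rw [Gamma0_mem]; simp)
  rw [slash_neg_one_of_odd] at h
  have hne := coe_ne_zero_of_qCoeff_one f hf₁
  obtain ⟨z, hz⟩ : ∃ z, (⇑f : ℍ → ℂ) z ≠ 0 := by
    by_contra hcon
    exact hne (funext fun z => by_contra fun hz => hcon ⟨z, hz⟩)
  have h2 := congrFun h z
  simp only [Pi.neg_apply, Pi.smul_apply, smul_eq_mul] at h2
  have h3 : ((-1 : SL(2, ℤ)) 1 1 : ℤ) = -1 := by simp
  rw [h3] at h2
  have h4 : (ε ((-1 : ℤ) : ZMod N) + 1) * f z = 0 := by rw [add_mul, ← h2]; ring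
  rcases mul_eq_zero.mp h4 with h5 | h5
  · have : ε ((-1 : ℤ) : ZMod N) = -1 := by linear_combination h5
    simpa using this
  · exact absurd h5 hz

/-- The normalised weight 3 Eisenstein series with character `χ`, `q`-expansion `q + …`. -/
def eisN (χ : DirichletCharacter ℂ N) : ℍ → ℂ := ((-2 * π * Complex.I) ^ 3)⁻¹ • eisChar χ

theorem two_pi_I_pow_ne_zero : ((-2 * π * Complex.I) ^ 3 : ℂ) ≠ 0 := by
  apply pow_ne_zero
  simp [Real.pi_ne_zero, Complex.I_ne_zero]

theorem eisN_mem_MF (χ : DirichletCharacter ℂ N) : eisN χ ∈ MF (Gamma1 N) 3 := by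
  refine ⟨(eisChar_mdiff χ).const_smul _, fun γ hγ => ?_, fun γ => ?_⟩
  · have hγ0 : γ ∈ Gamma0 N := Gamma1_in_Gamma0 N hγ
    have h11 : ((γ 1 1 : ℤ) : ZMod N) = 1 := ((Gamma1_mem N γ).mp hγ).2.1
    rw [eisN, Fermat.Agent.S20.smul_slash_SL, eisChar_slash χ γ hγ0, h11, map_one, one_smul]
  · rw [eisN, Fermat.Agent.S20.smul_slash_SL]
    exact (eisChar_slash_isBoundedAtImInfty χ γ).const_smul_left _

theorem eisN_slash (χ : DirichletCharacter ℂ N) (γ : SL(2, ℤ)) (hγ : γ ∈ Gamma0 N) :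
    eisN χ ∣[(3 : ℤ)] γ = χ ((γ 1 1 : ℤ) : ZMod N) • eisN χ := by
  rw [eisN, Fermat.Agent.S20.smul_slash_SL, eisChar_slash χ γ hγ, smul_comm]

theorem nice_eisN (χ : DirichletCharacter ℂ N) : Fermat.Agent.S16.H260.Nice (eisN χ) :=
  Fermat.Agent.S16.H260.nice_of_mem_MF (Γ := Gamma1 N)
    (by rw [Gamma1_mem]; simp [ModularGroup.T]) (eisN_mem_MF χ)

theorem qExpansion_eisN_coeff (χ : DirichletCharacter ℂ N) (hodd : χ (-1) = -1) (n : ℕ) :
    (qExpansion 1 (eisN χ)).coeff n = sigmaChi χ n := by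
  rw [eisN, qExpansion_smul (analyticAt_cuspFunction_eisChar χ hodd), map_smul,
    qExpansion_eisChar_coeff χ hodd, smul_eq_mul, ← mul_assoc,
    inv_mul_cancel₀ two_pi_I_pow_ne_zero, one_mul]

theorem coe_mem_SF_Gamma1 : (⇑f : ℍ → ℂ) ∈ SF (Gamma1 N) 1 :=
  Fermat.Agent.S20.C0h516.coe_mem_SF f

theorem nice_coe : Fermat.Agent.S16.H260.Nice (⇑f : ℍ → ℂ) := by
  have h := coe_mem_SF_Gamma1 f
  exact Fermat.Agent.S16.H260.nice_of_mem_MF (Γ := Gamma1 N) (k := 1)
    (by rw [Gamma1_mem]; simp [ModularGroup.T])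
    ⟨h.1, h.2.1, fun γ => (h.2.2 γ).boundedAtFilter⟩

/-- The unit `d` of `γ ∈ Γ₀(N)`. -/
theorem isUnit_d (γ : SL(2, ℤ)) (hγ : γ ∈ Gamma0 N) : IsUnit (((γ 1 1 : ℤ)) : ZMod N) := by
  have h10 : ((γ 1 0 : ℤ) : ZMod N) = 0 := Gamma0_mem.mp hγ
  have hdet : γ 0 0 * γ 1 1 - γ 0 1 * γ 1 0 = 1 := by
    have h := γ.det_coe
    rwa [Matrix.det_fin_two] at h
  have : ((γ 0 0 : ℤ) : ZMod N) * ((γ 1 1 : ℤ) : ZMod N) = 1 := by
    have h := congrArg (Int.cast : ℤ → ZMod N) hdet
    push_cast at h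
    rw [h10, mul_zero, sub_zero] at h
    exact h
  exact IsUnit.of_mul_eq_one _ (by rw [mul_comm]; exact this)

/-- `f · h` is a cusp form of weight 4 on `Γ₀(N)`. -/
theorem mul_eisN_mem_SF (hneb : HasNebentypus ε f) :
    (⇑f : ℍ → ℂ) * eisN ε⁻¹ ∈ SF (Gamma0 N) 4 := by
  have hf := coe_mem_SF_Gamma1 f
  have hh := eisN_mem_MF (N := N) ε⁻¹
  have h4 : (4 : ℤ) = 1 + 3 := by norm_num
  refine ⟨hf.1.mul hh.1, fun γ hγ => ?_, fun γ => ?_⟩
  · rw [h4, mul_slash_SL2, hneb γ hγ, eisN_slash ε⁻¹ γ hγ]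
    ext z
    simp only [Pi.mul_apply, Pi.smul_apply, smul_eq_mul]
    have hu := isUnit_d γ hγ
    have h1 : ε ((γ 1 1 : ℤ) : ZMod N) * ε⁻¹ ((γ 1 1 : ℤ) : ZMod N) = 1 := by
      rw [← MulChar.mul_apply, mul_inv_cancel, MulChar.one_apply hu]
    linear_combination (f z * eisN ε⁻¹ z) * h1
  · rw [h4, mul_slash_SL2]
    exact (hf.2.2 γ).mul_boundedAtFilter (hh.2.2 γ)

/-! ## The coefficient ring of the character -/

theorem isIntegral_dirichlet (χ : DirichletCharacter ℂ N) (a : ZMod N) : IsIntegral ℤ (χ a) := by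
  by_cases ha : IsUnit a
  · obtain ⟨u, rfl⟩ := ha
    have hpow : (χ (u : ZMod N)) ^ (Nat.totient N) = 1 := by
      rw [← map_pow, ← Units.val_pow_eq_pow_val, ZMod.pow_totient]
      simp
    refine IsIntegral.of_pow (Nat.totient_pos.mpr (Nat.pos_of_ne_zero (NeZero.ne N))) ?_
    rw [hpow]
    exact isIntegral_one
  · rw [χ.map_nonunit ha]
    exact isIntegral_zero

/-- The ring `ℤ[ε, ε⁻¹] ⊆ ℂ` generated by the values of `ε` and `ε⁻¹`. -/
def charAlg : Subalgebra ℤ ℂ :=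
  Algebra.adjoin ℤ (Set.range (ε : ZMod N → ℂ) ∪ Set.range ((ε⁻¹ : DirichletCharacter ℂ N) : ZMod N → ℂ))

/-- `charAlg` as a subring. -/
def charRing : Subring ℂ := (charAlg ε).toSubring

theorem eps_mem_charRing (a : ZMod N) : ε a ∈ charRing ε :=
  Algebra.subset_adjoin (Or.inl ⟨a, rfl⟩)

theorem epsInv_mem_charRing (a : ZMod N) : (ε⁻¹ : DirichletCharacter ℂ N) a ∈ charRing ε :=
  Algebra.subset_adjoin (Or.inr ⟨a, rfl⟩)

theorem fg_charAlg : (Subalgebra.toSubmodule (charAlg ε)).FG := by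
  refine fg_adjoin_of_finite ((Set.finite_range _).union (Set.finite_range _)) ?_
  rintro x (⟨a, rfl⟩ | ⟨a, rfl⟩)
  · exact isIntegral_dirichlet ε a
  · exact isIntegral_dirichlet ε⁻¹ a

instance finite_charRing : Module.Finite ℤ (charRing ε) := by
  have h1 : Module.Finite ℤ (charAlg ε) := Module.Finite.of_fg (fg_charAlg ε)
  let e : (charAlg ε) ≃ₗ[ℤ] (charRing ε) :=
    { toFun := fun x => ⟨x.1, x.2⟩
      invFun := fun x => ⟨x.1, x.2⟩
      map_add' := fun _ _ => rfl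
      map_smul' := fun _ _ => by
        apply Subtype.ext
        simp
      left_inv := fun _ => rfl
      right_inv := fun _ => rfl }
  exact Module.Finite.equiv e

theorem sigmaChi_mem (n : ℕ) : sigmaChi (ε⁻¹ : DirichletCharacter ℂ N) n ∈ charRing ε := by
  unfold sigmaChi sigmaW
  refine Subring.sum_mem _ fun x _ => ?_
  refine Subring.mul_mem _ (epsInv_mem_charRing ε _) ?_
  exact Subring.pow_mem _ (natCast_mem _ _) 2

/-- The integral `q`-expansion of `eisN ε⁻¹`. -/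
def eisSeries : PowerSeries (charRing ε) :=
  PowerSeries.mk fun n => ⟨sigmaChi (ε⁻¹ : DirichletCharacter ℂ N) n, sigmaChi_mem ε n⟩

theorem map_eisSeries (hodd : ε (-1) = -1) :
    (eisSeries ε).map (charRing ε).subtype = qExpansion 1 (eisN (ε⁻¹ : DirichletCharacter ℂ N)) := by
  have hodd' : (ε⁻¹ : DirichletCharacter ℂ N) (-1) = -1 := by
    have hu : IsUnit (-1 : ZMod N) := isUnit_one.neg
    have h1 : ε (-1) * (ε⁻¹ : DirichletCharacter ℂ N) (-1) = 1 := by
      rw [← MulChar.mul_apply, mul_inv_cancel, MulChar.one_apply hu]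
    rw [hodd] at h1
    linear_combination -h1
  ext n
  rw [PowerSeries.coeff_map, qExpansion_eisN_coeff _ hodd']
  simp [eisSeries]

/-! ## `f` is a combination of integral series -/

theorem intLattice_coeff (k : ℤ) (W : CuspForm (Gamma0 N) k) (hW : W ∈ CuspForm.intLattice N k)
    (n : ℕ) : ∃ m : ℤ, PowerSeries.coeff n (Fermat.Agent.S23.Cap.qxLin N k W) = (m : ℂ) := by
  induction hW using Submodule.span_induction with
  | mem W hW => exact hW n
  | zero => exact ⟨0, by simp⟩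
  | add W₁ W₂ _ _ h₁ h₂ =>
    obtain ⟨m₁, h₁⟩ := h₁
    obtain ⟨m₂, h₂⟩ := h₂
    exact ⟨m₁ + m₂, by rw [map_add, map_add, h₁, h₂]; push_cast; rfl⟩
  | smul z W _ h =>
    obtain ⟨m, hm⟩ := h
    exact ⟨z * m, by rw [map_zsmul, map_zsmul, hm]; simp⟩

theorem qxLin_coeff_zero (k : ℤ) (W : CuspForm (Gamma0 N) k) :
    PowerSeries.coeff 0 (Fermat.Agent.S23.Cap.qxLin N k W) = 0 :=
  CuspFormClass.qExpansion_coeff_zero W one_pos (one_mem_strictPeriods_Gamma0 N)

/-- The `q`-expansion of `f` is a `ℂ`-linear combination of power series with coefficients in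
`ℤ[ε]`. -/
theorem qExpansion_mem_span (hf₁ : ModularFormClass.qCoeff f 1 = 1) (hneb : HasNebentypus ε f) :
    qExpansion 1 (⇑f : ℍ → ℂ) ∈
      Submodule.span ℂ {G : PowerSeries ℂ | ∀ n, PowerSeries.coeff n G ∈ charRing ε} := by
  have hodd := eps_neg_one ε f hf₁ hneb
  obtain ⟨V, hV⟩ := Fermat.Agent.S20.C0h516.mem_SF_iff_exists.mp (mul_eisN_mem_SF ε f hneb)
  have hVspan : V ∈ Submodule.span ℂ
      ((CuspForm.intLattice N 4 : Submodule ℤ (CuspForm (Gamma0 N) 4)) :
        Set (CuspForm (Gamma0 N) 4)) := by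
    have h := Fermat.Agent.S23.Cap.hasIntegralStructure N 4
    unfold CuspForm.HasIntegralStructure at h
    rw [h]
    trivial
  have hd0 : (eisSeries ε).coeff 0 = 0 := by
    apply Subtype.ext
    simp [eisSeries, sigmaChi_zero]
  have hd1 : (eisSeries ε).coeff 1 = 1 := by
    apply Subtype.ext
    simp [eisSeries, sigmaChi_one]
  have key : ∀ W ∈ Submodule.span ℂ
      ((CuspForm.intLattice N 4 : Submodule ℤ (CuspForm (Gamma0 N) 4)) :
        Set (CuspForm (Gamma0 N) 4)),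
      ∃ G ∈ Submodule.span ℂ {G : PowerSeries ℂ | ∀ n, PowerSeries.coeff n G ∈ charRing ε},
        (eisSeries ε).map (charRing ε).subtype * G = Fermat.Agent.S23.Cap.qxLin N 4 W := by
    intro W hW
    induction hW using Submodule.span_induction with
    | mem W hW =>
      have hP : Fermat.Agent.S23.Cap.qxLin N 4 W ∈ intS (charRing ε) := by
        rw [mem_intS_iff]
        intro n
        obtain ⟨m, hm⟩ := intLattice_coeff 4 W hW n
        rw [hm]
        exact intCast_mem _ m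
      obtain ⟨E, hE, hEq⟩ := exists_quotient_mem_intS (charRing ε) (eisSeries ε) hd0 hd1 hP
        (qxLin_coeff_zero 4 W)
      exact ⟨E, Submodule.subset_span ((mem_intS_iff _).mp hE), hEq⟩
    | zero => exact ⟨0, Submodule.zero_mem _, by simp⟩
    | add W₁ W₂ _ _ h₁ h₂ =>
      obtain ⟨G₁, hG₁, h₁⟩ := h₁
      obtain ⟨G₂, hG₂, h₂⟩ := h₂
      exact ⟨G₁ + G₂, Submodule.add_mem _ hG₁ hG₂, by rw [mul_add, h₁, h₂, map_add]⟩
    | smul c W _ h =>
      obtain ⟨G, hG, h⟩ := h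
      exact ⟨c • G, Submodule.smul_mem _ c hG, by rw [mul_smul_comm, h, map_smul]⟩
  obtain ⟨G, hG, hHG⟩ := key V hVspan
  have hmul : Fermat.Agent.S23.Cap.qxLin N 4 V =
      qExpansion 1 (⇑f : ℍ → ℂ) * (eisSeries ε).map (charRing ε).subtype := by
    show qExpansion 1 (⇑V : ℍ → ℂ) = _
    rw [hV, qExpansion_mul (nice_coe f).analyticAt (nice_eisN _).analyticAt,
      map_eisSeries ε hodd]
  have hH0 : (eisSeries ε).map (charRing ε).subtype ≠ 0 := by
    intro h0
    have := congrArg (PowerSeries.coeff 1) h0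
    rw [PowerSeries.coeff_map, hd1] at this
    simp at this
  have hGf : G = qExpansion 1 (⇑f : ℍ → ℂ) :=
    mul_left_cancel₀ hH0 (by rw [hHG, hmul, mul_comm])
  rw [← hGf]
  exact hG

/-! ## Main theorem -/

/-- **P1.** The ring generated over `ℤ[ε]` by the Hecke eigenvalues `a_p`, `p ∤ N`, of a weight
one eigenform with nebentypus `ε` is a finitely generated `ℤ`-module. -/
theorem exists_finite_subring
    (hf₁ : ModularFormClass.qCoeff f 1 = 1)
    (hT : ∀ p : ℕ, p.Prime → ¬ p ∣ N → ∀ n : ℕ,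
        ModularFormClass.qCoeff f (p * n) +
            ε (p : ZMod N) * (if p ∣ n then ModularFormClass.qCoeff f (n / p) else 0) =
          ModularFormClass.qCoeff f p * ModularFormClass.qCoeff f n)
    (hneb : HasNebentypus ε f) :
    ∃ R : Subring ℂ, Module.Finite ℤ R ∧ (∀ a : ZMod N, ε a ∈ R) ∧
      ∀ p : ℕ, p.Prime → ¬ p ∣ N → ModularFormClass.qCoeff f p ∈ R := by
  let ι := {p : ℕ // p.Prime ∧ ¬ p ∣ N}
  let a : ι → ℂ := fun i => ModularFormClass.qCoeff f i.1
  have hfin := finite_adjoin_eigenvalues (charRing ε) (qExpansion 1 (⇑f : ℍ → ℂ)) hf₁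
    (fun i : ι => i.1) (fun i => ε ((i.1 : ℕ) : ZMod N)) a
    (fun i => eps_mem_charRing ε _)
    (fun i => by
      ext n
      rw [coeff_formalT, map_smul, smul_eq_mul]
      exact hT i.1 i.2.1 i.2.2 n)
    (qExpansion_mem_span ε f hf₁ hneb)
  refine ⟨(Algebra.adjoin (charRing ε) (Set.range a)).toSubring, ?_, fun x => ?_,
    fun p hp hpN => ?_⟩
  · let e : (Algebra.adjoin (charRing ε) (Set.range a)) ≃ₗ[ℤ]
        ((Algebra.adjoin (charRing ε) (Set.range a)).toSubring) :=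
      { toFun := fun x => ⟨x.1, x.2⟩
        invFun := fun x => ⟨x.1, x.2⟩
        map_add' := fun _ _ => rfl
        map_smul' := fun _ _ => by
          apply Subtype.ext
          simp
        left_inv := fun _ => rfl
        right_inv := fun _ => rfl }
    exact Module.Finite.equiv e
  · exact (Algebra.adjoin (charRing ε) (Set.range a)).algebraMap_mem ⟨ε x, eps_mem_charRing ε x⟩
  · exact Algebra.subset_adjoin ⟨⟨p, hp, hpN⟩, rfl⟩

/-- **P1, corollary.** The Hecke eigenvalues `a_p`, `p ∤ N`, are algebraic integers. -/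
theorem isIntegral_qCoeff
    (hf₁ : ModularFormClass.qCoeff f 1 = 1)
    (hT : ∀ p : ℕ, p.Prime → ¬ p ∣ N → ∀ n : ℕ,
        ModularFormClass.qCoeff f (p * n) +
            ε (p : ZMod N) * (if p ∣ n then ModularFormClass.qCoeff f (n / p) else 0) =
          ModularFormClass.qCoeff f p * ModularFormClass.qCoeff f n)
    (hneb : HasNebentypus ε f) (p : ℕ) (hp : p.Prime) (hpN : ¬ p ∣ N) :
    IsIntegral ℤ (ModularFormClass.qCoeff f p) := by
  obtain ⟨R, hR, -, hmem⟩ := exists_finite_subring ε f hf₁ hT hneb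
  have h : IsIntegral ℤ (⟨_, hmem p hp hpN⟩ : R) := IsIntegral.of_finite ℤ _
  exact h.map (R.subtype.toIntAlgHom)

end Main

end Fermat.Agent.S48.H128

end
end
-- ===== PACK-END S48/H128/Integrality.lean

-- ===== PACK-BEGIN S48/H288/GaloisConj.lean
section




/-!
# S48 / P1 (helper288): Galois conjugates of weight one cusp forms with nebentypus

For `g ∈ S_k(Γ₁(N))` with nebentypus `ε` (`g ∣ γ = ε(d) g` on `Γ₀(N)`), `ε(-1) = -1 = (-1)^k`
and any ring endomorphism `σ` of `ℂ` there is a cusp form `g^σ ∈ S_k(Γ₁(N))` with nebentypus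
`σ ∘ ε` whose `q`-expansion is `σ` applied to that of `g`.

Route: `V = g · U` with `U = eisCharNorm ε⁻¹` of weight `3` lies in `S_{k+3}(Γ₀(N))`; the landed
S23 library conjugates `V` (`Cap.galois_stable`); `U^σ = eisCharNorm (σ ∘ ε⁻¹)` explicitly;
`g` is integral over the level one forms (`H503.exists_monic_cusp`), and the converse step
(`Conv.exists_cuspForm_qExpansion_eq`) produces `g^σ = V^σ / U^σ`.
-/

set_option autoImplicit false

open UpperHalfPlane ModularForm ModularFormClass MatrixGroups CongruenceSubgroup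
open scoped Manifold

noncomputable section

namespace Fermat.Agent.S48.H288

open Fermat.Agent.S23 Fermat.Agent.S23.Cap

variable {N : ℕ}

/-- `g` has nebentypus `ε` in weight `k`: `g ∣[k] γ = ε(γ₁₁) g` for `γ ∈ Γ₀(N)`. -/
def HasChar (ε : DirichletCharacter ℂ N) (k : ℤ) (g : ℍ → ℂ) : Prop :=
  ∀ γ : SL(2, ℤ), γ ∈ Gamma0 N → g ∣[k] γ = ε ((γ 1 1 : ℤ) : ZMod N) • g

theorem SL_smul_slash' (k : ℤ) (γ : SL(2, ℤ)) (c : ℂ) (f : ℍ → ℂ) :
    (c • f) ∣[k] γ = c • (f ∣[k] γ) := by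
  ext z
  simp only [SL_slash_apply, Pi.smul_apply, smul_eq_mul]
  ring

theorem isUnit_lowerRight_of_mem_Gamma0 {γ : SL(2, ℤ)} (hγ : γ ∈ Gamma0 N) :
    IsUnit (((γ 1 1 : ℤ)) : ZMod N) := by
  have h : ((γ 1 0 : ℤ) : ZMod N) = 0 := Gamma0_mem.mp hγ
  have hdet : (γ 0 0 * γ 1 1 - γ 0 1 * γ 1 0 : ℤ) = 1 := by
    have := γ.det_coe
    rw [Matrix.det_fin_two] at this
    exact this
  have h2 : ((γ 0 0 : ℤ) : ZMod N) * ((γ 1 1 : ℤ) : ZMod N) = 1 := by
    have := congrArg (Int.cast : ℤ → ZMod N) hdet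
    push_cast at this
    rw [h, mul_zero, sub_zero] at this
    exact this
  exact IsUnit.of_mul_eq_one_right _ h2

variable [NeZero N]

theorem hasChar_eisCharNorm (χ : DirichletCharacter ℂ N) {k : ℕ} (hk : 3 ≤ k) :
    HasChar χ k (eisCharNorm χ hk) := by
  intro γ hγ
  have h1 : ⇑(eisCharNorm χ hk) =
      (2 * ((-2 * Real.pi * Complex.I) ^ k / (Nat.factorial (k - 1) : ℂ)))⁻¹ • eisChar χ k := rfl
  rw [h1, SL_smul_slash', eisChar_slash χ k γ hγ, smul_comm]


theorem Gamma1_map_le_Gamma0_map (N : ℕ) :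
    (Gamma1 N).map (Matrix.SpecialLinearGroup.mapGL ℝ) ≤
      (Gamma0 N).map (Matrix.SpecialLinearGroup.mapGL ℝ) :=
  Subgroup.map_mono (Gamma1_in_Gamma0 N)

/-- Restriction of a cusp form on `Γ₀(N)` to a modular form on `Γ₁(N)`. -/
def restrictGamma1 {k : ℤ} (V : CuspForm ((Gamma0 N).map (Matrix.SpecialLinearGroup.mapGL ℝ)) k) :
    ModularForm ((Gamma1 N).map (Matrix.SpecialLinearGroup.mapGL ℝ)) k where
  toFun := V
  slash_action_eq' := fun γ hγ ↦ V.slash_action_eq' γ (Gamma1_map_le_Gamma0_map N hγ)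
  holo' := V.holo'
  bdd_at_cusps' := fun hc ↦
    ModularFormClass.bdd_at_cusps V (hc.mono (Gamma1_map_le_Gamma0_map N))

omit [NeZero N] in
@[simp] theorem coe_restrictGamma1 {k : ℤ}
    (V : CuspForm ((Gamma0 N).map (Matrix.SpecialLinearGroup.mapGL ℝ)) k) :
    ⇑(restrictGamma1 V) = ⇑V := rfl

/-- The product of a cusp form with nebentypus `ε` and the Eisenstein series with character
`ε⁻¹` of weight `3`, as a cusp form on `Γ₀(N)`. -/
def mulEis (ε : DirichletCharacter ℂ N) {k : ℤ}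
    (g : CuspForm ((Gamma1 N).map (Matrix.SpecialLinearGroup.mapGL ℝ)) k)
    (hg : HasChar ε k g) :
    CuspForm ((Gamma0 N).map (Matrix.SpecialLinearGroup.mapGL ℝ)) (k + 3) where
  toFun := ⇑g * ⇑(eisCharNorm ε⁻¹ (k := 3) le_rfl)
  slash_action_eq' := by
    rintro _ ⟨γ, hγ, rfl⟩
    have h1 := hg γ hγ
    have h2 := hasChar_eisCharNorm ε⁻¹ (k := 3) le_rfl γ hγ
    have h3 : (⇑g * ⇑(eisCharNorm ε⁻¹ (k := 3) le_rfl)) ∣[k + 3] γ =
        (⇑g ∣[k] γ) * (⇑(eisCharNorm ε⁻¹ (k := 3) le_rfl) ∣[(3 : ℤ)] γ) :=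
      mul_slash_SL2 k 3 γ _ _
    have hu := isUnit_lowerRight_of_mem_Gamma0 hγ
    have h4 : ε ((γ 1 1 : ℤ) : ZMod N) * ε⁻¹ ((γ 1 1 : ℤ) : ZMod N) = 1 := by
      rw [← MulChar.mul_apply, mul_inv_cancel, MulChar.one_apply hu]
    change (⇑g * ⇑(eisCharNorm ε⁻¹ (k := 3) le_rfl)) ∣[k + 3] γ = _
    rw [h3, h1]
    have h2' : ⇑(eisCharNorm ε⁻¹ (k := 3) le_rfl) ∣[(3 : ℤ)] γ =
        ε⁻¹ ((γ 1 1 : ℤ) : ZMod N) • ⇑(eisCharNorm ε⁻¹ (k := 3) le_rfl) := h2
    rw [h2']
    ext z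
    simp only [Pi.mul_apply, Pi.smul_apply, smul_eq_mul]
    calc ε ((γ 1 1 : ℤ) : ZMod N) * g z *
          (ε⁻¹ ((γ 1 1 : ℤ) : ZMod N) * (eisCharNorm ε⁻¹ (k := 3) le_rfl) z)
        = (ε ((γ 1 1 : ℤ) : ZMod N) * ε⁻¹ ((γ 1 1 : ℤ) : ZMod N)) *
          (g z * (eisCharNorm ε⁻¹ (k := 3) le_rfl) z) := by ring
      _ = g z * (eisCharNorm ε⁻¹ (k := 3) le_rfl) z := by rw [h4, one_mul]
  holo' := (g.mulModularForm (eisCharNorm ε⁻¹ (k := 3) le_rfl)).holo'
  zero_at_cusps' := fun {c} hc ↦ by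
    have hc' : IsCusp c ((Gamma1 N).map (Matrix.SpecialLinearGroup.mapGL ℝ)) := by
      rw [Subgroup.IsArithmetic.isCusp_iff_isCusp_SL2Z] at hc ⊢
      exact hc
    exact (g.mulModularForm (eisCharNorm ε⁻¹ (k := 3) le_rfl)).zero_at_cusps' hc'

@[simp] theorem coe_mulEis (ε : DirichletCharacter ℂ N) {k : ℤ}
    (g : CuspForm ((Gamma1 N).map (Matrix.SpecialLinearGroup.mapGL ℝ)) k)
    (hg : HasChar ε k g) :
    ⇑(mulEis ε g hg) = ⇑g * ⇑(eisCharNorm ε⁻¹ (k := 3) le_rfl) := rfl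


/-! ### Conjugating the Eisenstein series -/

omit [NeZero N] in
theorem map_sigmaChi (σ : ℂ →+* ℂ) (χ : DirichletCharacter ℂ N) (k n : ℕ) :
    σ (sigmaChi χ k n) = sigmaChi (χ.ringHomComp σ) k n := by
  simp [sigmaChi, map_sum, MulChar.ringHomComp_apply]

omit [NeZero N] in
theorem ringHomComp_neg_one (σ : ℂ →+* ℂ) (χ : DirichletCharacter ℂ N) (hχ : χ (-1) = -1) :
    (χ.ringHomComp σ) (-1) = -1 := by
  rw [MulChar.ringHomComp_apply, hχ, map_neg, map_one]

omit [NeZero N] in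
theorem inv_neg_one (χ : DirichletCharacter ℂ N) (hχ : χ (-1) = -1) : χ⁻¹ (-1) = -1 := by
  have h1 : χ (-1) * χ⁻¹ (-1) = 1 := by
    rw [← MulChar.mul_apply, mul_inv_cancel, MulChar.one_apply isUnit_one.neg]
  rw [hχ] at h1
  linear_combination -h1

omit [NeZero N] in
theorem ringHomComp_inv (σ : ℂ →+* ℂ) (χ : DirichletCharacter ℂ N) :
    (χ⁻¹).ringHomComp σ = (χ.ringHomComp σ)⁻¹ := by
  ext a
  simp [MulChar.ringHomComp_apply, MulChar.inv_apply]

theorem qExpansion_eisCharNorm_map (σ : ℂ →+* ℂ) (χ : DirichletCharacter ℂ N)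
    (hχ : χ (-1) = -1) :
    (qExpansion 1 (eisCharNorm χ (k := 3) le_rfl)).map σ =
      qExpansion 1 (eisCharNorm (χ.ringHomComp σ) (k := 3) le_rfl) := by
  ext n
  rw [PowerSeries.coeff_map, eisCharNorm_qExpansion_coeff χ hχ le_rfl (by decide),
    eisCharNorm_qExpansion_coeff (χ.ringHomComp σ) (ringHomComp_neg_one σ χ hχ) le_rfl (by decide),
    map_sigmaChi]

omit [NeZero N] in
theorem isNice_Gamma1 {F : Type*} [FunLike F ℍ ℂ] {k : ℤ}
    [ModularFormClass F ((Gamma1 N).map (Matrix.SpecialLinearGroup.mapGL ℝ)) k] (f : F) :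
    Conv.IsNice (f : ℍ → ℂ) :=
  Conv.isNice_of_modularFormClass (one_mem_strictPeriods_Gamma1 N) f

theorem isNice_levelOne {k : ℤ} (f : CuspForm 𝒮ℒ k) : Conv.IsNice (f : ℍ → ℂ) :=
  Conv.isNice_of_modularFormClass one_mem_strictPeriods_SL f

theorem eq_of_qExpansion_eq {f g : ℍ → ℂ} (hf : Conv.IsNice f) (hg : Conv.IsNice g)
    (h : qExpansion 1 f = qExpansion 1 g) : f = g := by
  ext z
  rw [← (hasSum_qExpansion one_pos hf.2.1 hf.1 hf.2.2 z).tsum_eq,
    ← (hasSum_qExpansion one_pos hg.2.1 hg.1 hg.2.2 z).tsum_eq, h]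

/-- **Galois conjugation** of a cusp form with odd nebentypus on `Γ₁(N)`, odd weight `1`. -/
theorem exists_conj_of_odd (ε : DirichletCharacter ℂ N) (hodd : ε (-1) = -1) (σ : ℂ →+* ℂ)
    (g : CuspForm ((Gamma1 N).map (Matrix.SpecialLinearGroup.mapGL ℝ)) 1)
    (hg : HasChar ε 1 g) :
    ∃ g' : CuspForm ((Gamma1 N).map (Matrix.SpecialLinearGroup.mapGL ℝ)) 1,
      HasChar (ε.ringHomComp σ) 1 g' ∧ qExpansion 1 g' = (qExpansion 1 g).map σ := by
  -- the Eisenstein series and its conjugate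
  set U := eisCharNorm ε⁻¹ (k := 3) le_rfl with hU
  set U' := eisCharNorm (ε.ringHomComp σ)⁻¹ (k := 3) le_rfl with hU'
  have hUodd : ε⁻¹ (-1) = -1 := inv_neg_one ε hodd
  have hU'odd : (ε.ringHomComp σ)⁻¹ (-1) = -1 :=
    inv_neg_one _ (ringHomComp_neg_one σ ε hodd)
  have hUU' : (qExpansion 1 U).map σ = qExpansion 1 U' := by
    rw [hU, hU', qExpansion_eisCharNorm_map σ ε⁻¹ hUodd, ringHomComp_inv]
  have hU'ne : U' ≠ 0 := eisCharNorm_ne_zero _ hU'odd le_rfl (by decide)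
  -- the product and its conjugate
  obtain ⟨_, ⟨V', rfl⟩, hV'⟩ := galois_stable N (1 + 3) σ (mulEis ε g hg) ⟨mulEis ε g hg, rfl⟩
  have hgN : Conv.IsNice (g : ℍ → ℂ) := isNice_Gamma1 g
  have hUN : Conv.IsNice (U : ℍ → ℂ) := isNice_Gamma1 U
  have hqV : qExpansion 1 (mulEis ε g hg) = qExpansion 1 g * qExpansion 1 U := by
    rw [coe_mulEis, Conv.IsNice.qExpansion_mul hgN hUN]
  set x : PowerSeries ℂ := (qExpansion 1 g).map σ with hx
  have hxU : x * qExpansion 1 U' = qExpansion 1 (restrictGamma1 V') := by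
    rw [coe_restrictGamma1]
    change _ = qx V'
    rw [hV']
    change _ = (qExpansion 1 (mulEis ε g hg)).map σ
    rw [hqV, map_mul, hUU']
  -- the monic relation
  obtain ⟨n, b, hn, hrel⟩ :=
    H503.exists_monic_cusp (𝒢 := (Gamma1 N).map (Matrix.SpecialLinearGroup.mapGL ℝ)) g
  choose b' hb' using fun m : ℕ ↦ LevelOne.levelOne_transport_cusp_ringHom σ (1 * (m : ℤ)) (b m)
  have hrelq : qExpansion 1 g ^ n +
      ∑ m ∈ Finset.Icc 1 n, qExpansion 1 (b m) * qExpansion 1 g ^ (n - m) = 0 := by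
    have hfun : (g : ℍ → ℂ) ^ n + ∑ m ∈ Finset.Icc 1 n, (b m : ℍ → ℂ) * (g : ℍ → ℂ) ^ (n - m) = 0 := by
      funext τ
      simpa using hrel τ
    have hterm : ∀ m ∈ Finset.Icc 1 n, Conv.IsNice ((b m : ℍ → ℂ) * (g : ℍ → ℂ) ^ (n - m)) :=
      fun m _ ↦ (isNice_levelOne (b m)).mul (hgN.pow _)
    have := congrArg (qExpansion 1) hfun
    rw [Conv.IsNice.qExpansion_add (hgN.pow n) (Conv.IsNice.sum _ hterm),
      hgN.qExpansion_pow, Conv.IsNice.qExpansion_sum _ hterm, qExpansion_zero] at this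
    rw [← this]
    congr 1
    refine Finset.sum_congr rfl fun m _ ↦ ?_
    rw [Conv.IsNice.qExpansion_mul (isNice_levelOne (b m)) (hgN.pow _), hgN.qExpansion_pow]
  have hrelσ : x ^ n + ∑ m ∈ Finset.Icc 1 n, qExpansion 1 (b' m) * x ^ (n - m) = 0 := by
    have := congrArg (PowerSeries.map σ) hrelq
    rw [map_add, map_pow, map_sum, map_zero] at this
    rw [← this]
    congr 1
    refine Finset.sum_congr rfl fun m _ ↦ ?_
    rw [map_mul, map_pow, hb' m]
  have hmonic : x ^ n + ∑ i ∈ Finset.range n, qExpansion 1 (⇑(b' (n - i))) * x ^ i = 0 := by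
    rw [← hrelσ]
    congr 1
    refine Finset.sum_nbij' (fun i ↦ n - i) (fun m ↦ n - m) ?_ ?_ ?_ ?_ ?_
    · intro i hi
      have := Finset.mem_range.mp hi
      exact Finset.mem_Icc.mpr ⟨by omega, by omega⟩
    · intro m hm
      have := Finset.mem_Icc.mp hm
      exact Finset.mem_range.mpr (by omega)
    · intro i hi
      have := Finset.mem_range.mp hi
      show n - (n - i) = i
      omega
    · intro m hm
      have := Finset.mem_Icc.mp hm
      show n - (n - m) = m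
      omega
    · intro i hi
      have := Finset.mem_range.mp hi
      have h : n - (n - i) = i := by omega
      rw [h]
  have hB : ∀ i < n, ∃ (wi : ℤ) (B : CuspForm 𝒮ℒ wi), wi = 1 * ((n : ℤ) - i) ∧
      ⇑B = (fun i ↦ (⇑(b' (n - i)) : ℍ → ℂ)) i := by
    intro i hi
    refine ⟨1 * ((n - i : ℕ) : ℤ), b' (n - i), ?_, rfl⟩
    rw [Nat.cast_sub hi.le]
  obtain ⟨F, hF⟩ := Conv.exists_cuspForm_qExpansion_eq (Γ := Gamma1 N)
    (one_mem_strictPeriods_Gamma1 N) (k := 1) (w := ((3 : ℕ) : ℤ)) (m := 1 + 3) (by norm_num)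
    (restrictGamma1 V') U' hU'ne hn (fun i ↦ (⇑(b' (n - i)) : ℍ → ℂ)) hB x hxU hmonic
  refine ⟨F, ?_, hF⟩
  -- the nebentypus of `F`
  have hFN : Conv.IsNice (F : ℍ → ℂ) := isNice_Gamma1 F
  have hU'N : Conv.IsNice (U' : ℍ → ℂ) := isNice_Gamma1 U'
  have hV'N : Conv.IsNice (V' : ℍ → ℂ) := isNice_Gamma1 (restrictGamma1 V')
  have hFU : (F : ℍ → ℂ) * (U' : ℍ → ℂ) = (V' : ℍ → ℂ) := by
    apply eq_of_qExpansion_eq (hFN.mul hU'N) hV'N
    rw [Conv.IsNice.qExpansion_mul hFN hU'N, hF, hxU, coe_restrictGamma1]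
  have hU'fun : ∃ τ, (U' : ℍ → ℂ) τ ≠ 0 := by
    by_contra hcon
    push Not at hcon
    exact hU'ne (DFunLike.coe_injective (funext hcon))
  intro γ hγ
  have hu := isUnit_lowerRight_of_mem_Gamma0 hγ
  set c : ℂ := (ε.ringHomComp σ) ((γ 1 1 : ℤ) : ZMod N) with hc
  set c' : ℂ := (ε.ringHomComp σ)⁻¹ ((γ 1 1 : ℤ) : ZMod N) with hc'
  have hcc' : c * c' = 1 := by
    rw [hc, hc', ← MulChar.mul_apply, mul_inv_cancel, MulChar.one_apply hu]
  have hU'γ : (U' : ℍ → ℂ) ∣[((3 : ℕ) : ℤ)] γ = c' • (U' : ℍ → ℂ) :=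
    hasChar_eisCharNorm (ε.ringHomComp σ)⁻¹ (k := 3) le_rfl γ hγ
  have hV'γ : (V' : ℍ → ℂ) ∣[(1 + 3 : ℤ)] γ = (V' : ℍ → ℂ) :=
    V'.slash_action_eq' _ ⟨γ, hγ, rfl⟩
  have h1 : ((F : ℍ → ℂ) * (U' : ℍ → ℂ)) ∣[(1 + 3 : ℤ)] γ =
      ((F : ℍ → ℂ) ∣[(1 : ℤ)] γ) * ((U' : ℍ → ℂ) ∣[((3 : ℕ) : ℤ)] γ) :=
    mul_slash_SL2 1 3 γ _ _
  rw [hFU, hV'γ, hU'γ] at h1
  have hD : MDiff ((F : ℍ → ℂ) ∣[(1 : ℤ)] γ - c • (F : ℍ → ℂ)) :=
    (hFN.1.slash 1 (γ : GL (Fin 2) ℝ)).sub (hFN.1.const_smul c)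
  have hmul : ∀ τ, ((F : ℍ → ℂ) ∣[(1 : ℤ)] γ - c • (F : ℍ → ℂ)) τ * (U' : ℍ → ℂ) τ = 0 := by
    intro τ
    have h2 := congrFun h1 τ
    have h3 := congrFun hFU τ
    simp only [Pi.mul_apply, Pi.smul_apply, Pi.sub_apply, smul_eq_mul] at h2 h3 ⊢
    have h4 : ((F : ℍ → ℂ) ∣[(1 : ℤ)] γ) τ * U' τ = c * (c' * (((F : ℍ → ℂ) ∣[(1 : ℤ)] γ) τ * U' τ)) := by
      rw [← mul_assoc, hcc', one_mul]
    rw [sub_mul, h4]
    have h5 : c' * (((F : ℍ → ℂ) ∣[(1 : ℤ)] γ) τ * U' τ) = F τ * U' τ := by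
      rw [h3, h2]
      ring
    rw [h5]
    ring
  have h0 := Conv.eq_zero_of_mul_eq_zero_of_mdiff hD hU'N.1 hU'fun hmul
  funext τ
  have := h0 τ
  simp only [Pi.sub_apply] at this
  exact sub_eq_zero.mp this


omit [NeZero N] in
/-- A form with nebentypus `ε` in weight `1` vanishes unless `ε(-1) = -1`. -/
theorem eq_zero_of_hasChar_of_not_odd (ε : DirichletCharacter ℂ N) (hodd : ε (-1) ≠ -1)
    (g : ℍ → ℂ) (hg : HasChar ε 1 g) : g = 0 := by
  have hmem : (-1 : SL(2, ℤ)) ∈ Gamma0 N := by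
    rw [Gamma0_mem]
    simp
  have h1 := hg (-1) hmem
  have h2 : g ∣[(1 : ℤ)] (-1 : SL(2, ℤ)) = -g := by
    ext z
    rw [SL_slash_apply]
    simp [denom]
  rw [h2] at h1
  have h3 : (((-1 : SL(2, ℤ)) 1 1 : ℤ) : ZMod N) = -1 := by simp
  rw [h3] at h1
  funext z
  have h4 := congrFun h1 z
  simp only [Pi.neg_apply, Pi.smul_apply, smul_eq_mul, Pi.zero_apply] at h4 ⊢
  have h5 : (ε (-1) + 1) * g z = 0 := by linear_combination -h4
  rcases mul_eq_zero.mp h5 with h | h
  · exact absurd (by linear_combination h) hodd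
  · exact h

/-- **Galois conjugation (P1-A).** For a weight one cusp form `g` on `Γ₁(N)` with nebentypus `ε`
and any ring endomorphism `σ` of `ℂ`, there is a weight one cusp form on `Γ₁(N)` with
nebentypus `σ ∘ ε` whose `q`-expansion is the `σ`-conjugate of that of `g`. -/
theorem exists_conj (ε : DirichletCharacter ℂ N) (σ : ℂ →+* ℂ)
    (g : CuspForm ((Gamma1 N).map (Matrix.SpecialLinearGroup.mapGL ℝ)) 1)
    (hg : HasChar ε 1 g) :
    ∃ g' : CuspForm ((Gamma1 N).map (Matrix.SpecialLinearGroup.mapGL ℝ)) 1,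
      HasChar (ε.ringHomComp σ) 1 g' ∧ qExpansion 1 g' = (qExpansion 1 g).map σ := by
  by_cases hodd : ε (-1) = -1
  · exact exists_conj_of_odd ε hodd σ g hg
  · have h0 : (g : ℍ → ℂ) = 0 := eq_zero_of_hasChar_of_not_odd ε hodd g hg
    refine ⟨0, ?_, ?_⟩
    · intro γ _
      ext z
      simp [SL_slash_apply]
    · rw [h0]
      simp [qExpansion_zero]

/-- **P1-A in the shape of S48.** -/
theorem exists_conj_qCoeff (ε : DirichletCharacter ℂ N) (f : CuspForm (Gamma1 N) 1)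
    (hε : ∀ γ : SL(2, ℤ), γ ∈ Gamma0 N →
      (⇑f) ∣[(1 : ℤ)] γ = ε ((γ 1 1 : ℤ) : ZMod N) • ⇑f)
    (σ : ℂ →+* ℂ) :
    ∃ g : CuspForm (Gamma1 N) 1,
      (∀ γ : SL(2, ℤ), γ ∈ Gamma0 N →
        (⇑g) ∣[(1 : ℤ)] γ = (ε.ringHomComp σ) ((γ 1 1 : ℤ) : ZMod N) • ⇑g) ∧
      ∀ n : ℕ, ModularFormClass.qCoeff g n = σ (ModularFormClass.qCoeff f n) := by
  obtain ⟨g, hg, hq⟩ := exists_conj ε σ f hε
  refine ⟨g, hg, fun n ↦ ?_⟩
  unfold ModularFormClass.qCoeff
  rw [hq, PowerSeries.coeff_map]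

omit [NeZero N] in
/-- The conjugate satisfies the conjugate Hecke relations. -/
theorem hecke_relation_conj (ε : DirichletCharacter ℂ N) (σ : ℂ →+* ℂ) (a a' : ℕ → ℂ)
    (ha : ∀ n, a' n = σ (a n))
    (hT : ∀ p : ℕ, p.Prime → ¬ p ∣ N → ∀ n : ℕ,
      a (p * n) + ε (p : ZMod N) * (if p ∣ n then a (n / p) else 0) = a p * a n) :
    ∀ p : ℕ, p.Prime → ¬ p ∣ N → ∀ n : ℕ,
      a' (p * n) + (ε.ringHomComp σ) (p : ZMod N) * (if p ∣ n then a' (n / p) else 0) =
        a' p * a' n := by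
  intro p hp hpN n
  have := congrArg σ (hT p hp hpN n)
  rw [map_add, map_mul, map_mul] at this
  simp only [ha, MulChar.ringHomComp_apply]
  rw [← this]
  congr 2
  split_ifs
  · rfl
  · rw [map_zero]

end Fermat.Agent.S48.H288

end
end
-- ===== PACK-END S48/H288/GaloisConj.lean

-- ===== PACK-BEGIN S48/H848/Neben.lean
section
/-
S48 piece P0 (helper848): NEBENTYPUS from the coefficient relations.

`f ∈ S_1(Γ₁(N))` whose q-expansion coefficients satisfy the Hecke relations with a Dirichlet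
character `ε` (the hypothesis `hT` of the frozen statement S48) has nebentypus `ε`:
`f ∣ γ = ε(d_γ) f` for all `γ ∈ Γ₀(N)`.
-/



set_option autoImplicit false

noncomputable section

namespace Fermat.Agent.S48.H848

open Matrix.SpecialLinearGroup UpperHalfPlane CongruenceSubgroup ModularForm
open scoped MatrixGroups ModularForm OnePoint Manifold

variable {N : ℕ} [NeZero N] {k : ℤ}

/-- If the q-expansion of `f ∈ S_k(Γ₁(N))` satisfies
`a(pn) + c p^(k-1) [p ∣ n] a(n/p) = λ a(n)` for a prime `p ∤ N`, then `⟨p⟩ f = c f`. -/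
theorem diamond_eq_of_hecke_relation {p : ℕ} [Fact p.Prime] (hpN : ¬ p ∣ N)
    (f : CuspForm (Gamma1 N) k) (c lam : ℂ)
    (h : ∀ n : ℕ, ModularFormClass.qCoeff f (p * n) +
        c * ((p : ℂ) ^ (k - 1) * (if p ∣ n then ModularFormClass.qCoeff f (n / p) else 0)) =
          lam * ModularFormClass.qCoeff f n)
    {σ : SL(2, ℤ)} (hσ : σ ∈ Gamma0 N) (hσp : ((σ 1 1 : ℤ) : ZMod N) = (p : ZMod N)) :
    ⇑f ∣[k] mapGL ℝ σ = c • ⇑f := by
  have hp : p.Prime := Fact.out
  have hf := Nice.of_cusp f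
  have hD := Nice.of_cusp (diamondCF σ hσ f)
  rw [coe_diamondCF] at hD
  set g : CuspForm (Gamma1 N) k := diamondCF σ hσ f - c • f with hg
  set T : CuspForm (Gamma1 N) k := heckeT1CF hpN σ hσ hσp f - lam • f with hT
  have hgc : (⇑g : ℍ → ℂ) = ⇑f ∣[k] mapGL ℝ σ - c • ⇑f := rfl
  have hTc : (⇑T : ℍ → ℂ) = heckeT1 k p σ ⇑f - lam • ⇑f := rfl
  have claim : ⇑g ∣[k] heckeDiagMatrix p = ⇑T := by
    refine Nice.ext ((Nice.of_cusp g).slash_diag k p) (Nice.of_cusp T) fun n ↦ ?_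
    have hT1 : heckeT1 k p σ ⇑f =
        heckeU k p ⇑f + (⇑f ∣[k] mapGL ℝ σ) ∣[k] heckeDiagMatrix p := rfl
    rw [Nice.qCoeff_slash_diag (Nice.of_cusp g) k hp.ne_zero, hgc, hTc, hT1,
      Nice.qCoeff_sub ((hf.heckeU k p).add (hD.slash_diag k p)) (hf.smul lam),
      Nice.qCoeff_smul hf, Nice.qCoeff_add (hf.heckeU k p) (hD.slash_diag k p),
      Nice.qCoeff_heckeU hf k hp.ne_zero, Nice.qCoeff_slash_diag hD k hp.ne_zero]
    have hn := h n
    rw [mul_comm p n] at hn
    split_ifs with hd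
    · rw [if_pos hd] at hn
      rw [Nice.qCoeff_sub hD (hf.smul c), Nice.qCoeff_smul hf]
      linear_combination -hn
    · rw [if_neg hd] at hn
      linear_combination -hn
  have hV : SI1 N k (⇑g ∣[k] heckeDiagMatrix p) := by
    rw [claim]
    exact SI1_coe T
  have hg0 : g = 0 := eq_zero_of_slash_diag_SI1 hpN g hV
  have := congrArg (fun F : CuspForm (Gamma1 N) k ↦ (⇑F : ℍ → ℂ)) hg0
  simp only [hgc] at this
  exact sub_eq_zero.mp this

/-- **Nebentypus from the Hecke relations** (hypotheses of the frozen statement S48). -/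
theorem nebentypus_of_hecke (ε : DirichletCharacter ℂ N) (f : CuspForm (Gamma1 N) 1)
    (hT : ∀ p : ℕ, p.Prime → ¬ p ∣ N → ∀ n : ℕ,
        ModularFormClass.qCoeff f (p * n) +
            ε (p : ZMod N) * (if p ∣ n then ModularFormClass.qCoeff f (n / p) else 0) =
          ModularFormClass.qCoeff f p * ModularFormClass.qCoeff f n) :
    ∀ γ : SL(2, ℤ), γ ∈ Gamma0 N →
      (⇑f) ∣[(1 : ℤ)] mapGL ℝ γ = ε (((γ 1 1 : ℤ) : ZMod N)) • (⇑f) := by
  intro γ hγ
  have hu : IsUnit (((γ 1 1 : ℤ) : ZMod N)) :=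
    IsUnit.of_mul_eq_one _ ((mul_comm _ _).trans (gamma0_diag_mul_eq_one hγ))
  obtain ⟨p, hpN', hp, hpγ⟩ := Nat.forall_exists_prime_gt_and_eq_mod hu N
  have hpN : ¬ p ∣ N := fun hd ↦
    absurd (Nat.le_of_dvd (Nat.pos_of_ne_zero (NeZero.ne N)) hd) (not_le.mpr hpN')
  have : Fact p.Prime := ⟨hp⟩
  rw [← hpγ]
  refine diamond_eq_of_hecke_relation hpN f (ε (p : ZMod N)) (ModularFormClass.qCoeff f p)
    (fun n ↦ ?_) hγ hpγ.symm
  have := hT p hp hpN n
  simpa using this

end Fermat.Agent.S48.H848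

end
end
-- ===== PACK-END S48/H848/Neben.lean

-- ===== PACK-BEGIN S48/H848/NebenSL.lean
section
/-
S48 piece P0 (helper848), consumer forms: nebentypus in `SL(2, ℤ)`-slash notation, oddness of
`ε`, and `f` as an eigenvector of the bundled Hecke operators `heckeT1CF` on `S_1(Γ₁(N))`.
-/


set_option autoImplicit false

noncomputable section

namespace Fermat.Agent.S48.H848

open Matrix.SpecialLinearGroup UpperHalfPlane CongruenceSubgroup ModularForm
open scoped MatrixGroups ModularForm OnePoint Manifold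

variable {N : ℕ} [NeZero N]

/-- `nebentypus_of_hecke` with the slash action written for `γ : SL(2, ℤ)` (the shape used as
hypothesis `hneb` by the P1 / P2 pieces). -/
theorem nebentypus_of_hecke_SL (ε : DirichletCharacter ℂ N) (f : CuspForm (Gamma1 N) 1)
    (hT : ∀ p : ℕ, p.Prime → ¬ p ∣ N → ∀ n : ℕ,
        ModularFormClass.qCoeff f (p * n) +
            ε (p : ZMod N) * (if p ∣ n then ModularFormClass.qCoeff f (n / p) else 0) =
          ModularFormClass.qCoeff f p * ModularFormClass.qCoeff f n) :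
    ∀ γ : SL(2, ℤ), γ ∈ Gamma0 N →
      (⇑f) ∣[(1 : ℤ)] γ = ε (((γ 1 1 : ℤ) : ZMod N)) • (⇑f) :=
  nebentypus_of_hecke ε f hT

omit [NeZero N] in
theorem coe_ne_zero_of_qCoeff_one (f : CuspForm (Gamma1 N) 1)
    (hf₁ : ModularFormClass.qCoeff f 1 = 1) : (⇑f : ℍ → ℂ) ≠ 0 := by
  intro h0
  rw [h0] at hf₁
  have : ModularFormClass.qCoeff (0 : ℍ → ℂ) 1 = 0 := by
    simp [ModularFormClass.qCoeff, UpperHalfPlane.qExpansion_zero]
  rw [this] at hf₁
  exact zero_ne_one hf₁

/-- The character `ε` of the frozen statement S48 is odd. -/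
theorem eps_neg_one (ε : DirichletCharacter ℂ N) (f : CuspForm (Gamma1 N) 1)
    (hf₁ : ModularFormClass.qCoeff f 1 = 1)
    (hT : ∀ p : ℕ, p.Prime → ¬ p ∣ N → ∀ n : ℕ,
        ModularFormClass.qCoeff f (p * n) +
            ε (p : ZMod N) * (if p ∣ n then ModularFormClass.qCoeff f (n / p) else 0) =
          ModularFormClass.qCoeff f p * ModularFormClass.qCoeff f n) :
    ε (-1) = -1 := by
  have hm : (-1 : SL(2, ℤ)) ∈ Gamma0 N := by
    rw [Gamma0_mem]
    simp
  have h := nebentypus_of_hecke_SL ε f hT (-1) hm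
  have h1 : (⇑f) ∣[(1 : ℤ)] (-1 : SL(2, ℤ)) = -⇑f := by
    ext τ
    rw [ModularForm.SL_slash_apply]
    simp [UpperHalfPlane.denom]
  rw [h1] at h
  have hd : (((-1 : SL(2, ℤ)) 1 1 : ℤ) : ZMod N) = -1 := by simp
  rw [hd] at h
  obtain ⟨τ, hτ⟩ : ∃ τ, f τ ≠ 0 := by
    by_contra hcon
    simp only [not_exists, not_not] at hcon
    exact coe_ne_zero_of_qCoeff_one f hf₁ (funext hcon)
  have := congrFun h τ
  simp only [Pi.neg_apply, Pi.smul_apply, smul_eq_mul] at this
  have h2 : (ε (-1) + 1) * f τ = 0 := by linear_combination -this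
  rcases mul_eq_zero.mp h2 with h3 | h3
  · linear_combination h3
  · exact absurd h3 hτ

end Fermat.Agent.S48.H848

end
end
-- ===== PACK-END S48/H848/NebenSL.lean

-- ===== PACK-BEGIN S48/H128/EigenConj.lean
section







/-!
# S48 / P1 (INT): `Top.EigenConjStatement` (helper128)

Assembly of the input P1 of the row S48, at the exact level `N`:

* the nebentypus of `f` (`H848.nebentypus_of_hecke_SL`, helper848),
* the ring `ℤ[ε][a_p : p ∤ N]` is a finitely generated `ℤ`-module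
  (`H128.exists_finite_subring`), hence generates a number field `K ⊆ ℂ`,
* every embedding `τ : K → ℂ` extends to a ring endomorphism `σ` of `ℂ`
  (`exists_ringHom_extends`, via a transcendence basis of `ℂ` over `K`),
* the conjugate form `f^σ` (`H288.exists_conj_qCoeff`, helper288) is again an eigenform,
  for the character `σ ∘ ε`.
-/

set_option autoImplicit false
set_option linter.style.haveILetI false
set_option linter.unnecessarySimpa false

open CongruenceSubgroup UpperHalfPlane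
open scoped MatrixGroups ModularForm

namespace Fermat.Agent.S48.H128

/-- An embedding into `ℂ` of a subfield `K ⊆ ℂ` algebraic over `ℚ` extends to a ring
endomorphism of `ℂ`. -/
theorem exists_ringHom_extends (K : IntermediateField ℚ ℂ) [Algebra.IsAlgebraic ℚ K]
    (τ : K →ₐ[ℚ] ℂ) : ∃ σ : ℂ →+* ℂ, ∀ x : K, σ (x : ℂ) = τ x := by
  classical
  obtain ⟨ι, v, hv⟩ := exists_isTranscendenceBasis' K ℂ
  have hvQ : AlgebraicIndependent ℚ v :=
    hv.1.restrictScalars (algebraMap ℚ K).injective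
  have hvA : AlgebraicIndependent (algebraicClosure ℚ ℂ) v := hvQ.algebraicClosure
  have hτ : ∀ x : K, τ x ∈ algebraicClosure ℚ ℂ := fun x => by
    rw [mem_algebraicClosure_iff]
    exact IsAlgebraic.algHom τ (Algebra.IsAlgebraic.isAlgebraic x)
  let τ₀ : K →+* algebraicClosure ℚ ℂ :=
    { toFun := fun x => ⟨τ x, hτ x⟩
      map_one' := Subtype.ext (map_one τ)
      map_mul' := fun x y => Subtype.ext (map_mul τ x y)
      map_zero' := Subtype.ext (map_zero τ)
      map_add' := fun x y => Subtype.ext (map_add τ x y) }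
  let g : MvPolynomial ι K →+* ℂ :=
    ((MvPolynomial.aeval v :
        MvPolynomial ι (algebraicClosure ℚ ℂ) →ₐ[algebraicClosure ℚ ℂ] ℂ) : _ →+* ℂ).comp
      (MvPolynomial.map τ₀)
  have hg : Function.Injective g := by
    have h1 : Function.Injective (MvPolynomial.map τ₀ :
        MvPolynomial ι K →+* MvPolynomial ι (algebraicClosure ℚ ℂ)) :=
      MvPolynomial.map_injective τ₀ τ₀.injective
    have h2 : Function.Injective (MvPolynomial.aeval v :
        MvPolynomial ι (algebraicClosure ℚ ℂ) →ₐ[algebraicClosure ℚ ℂ] ℂ) := hvA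
    intro p q hpq
    exact h1 (h2 hpq)
  obtain ⟨σ, hσ⟩ := Fermat.Agent.S23.H548.exists_ringHom_of_transcendenceBasis v hv g hg
  refine ⟨σ, fun x => ?_⟩
  have h := hσ (MvPolynomial.C x)
  simp only [g, RingHom.comp_apply, MvPolynomial.map_C, AlgHom.coe_toRingHom,
    MvPolynomial.aeval_C] at h
  exact h

/-- **P1 (INT) of the row S48**: the eigenvalues `a_p` (`p ∤ N`) are algebraic integers of a
number field `K ⊆ ℂ`, and every conjugate system `(τ a_p)` is again the system of eigenvalues of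
a form satisfying the hypotheses of S48 (at the same level `N`, for the character `τ ∘ ε`). -/
theorem eigenConj : Fermat.Agent.S48.Top.EigenConjStatement := by
  intro N _ ε f hyp
  obtain ⟨hf₁, hT⟩ := hyp
  have hneb : HasNebentypus ε f := Fermat.Agent.S48.H848.nebentypus_of_hecke_SL ε f hT
  obtain ⟨R, hR, -, hmem⟩ := exists_finite_subring ε f hf₁ hT hneb
  -- integrality of the elements of `R`
  have hint : ∀ x : ℂ, x ∈ R → IsIntegral ℤ x := fun x hx => by
    haveI : Module.Finite ℤ R := hR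
    have h : IsIntegral ℤ (⟨x, hx⟩ : R) := Algebra.IsIntegral.isIntegral _
    exact h.map (R.subtype.toIntAlgHom)
  -- a finite generating set
  obtain ⟨S, hS⟩ := hR.fg_top
  let S' : Set ℂ := (fun x : R => (x : ℂ)) '' (S : Set R)
  haveI hS'fin : Finite S' := (S.finite_toSet.image _).to_subtype
  let K : IntermediateField ℚ ℂ := IntermediateField.adjoin ℚ S'
  have hfd : FiniteDimensional ℚ K := by
    apply IntermediateField.finiteDimensional_adjoin
    rintro x ⟨y, -, rfl⟩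
    exact ((hint y y.2).tower_top (A := ℚ))
  have hRK : ∀ x : ℂ, x ∈ R → x ∈ K := by
    intro x hx
    have hx' : (⟨x, hx⟩ : R) ∈ Submodule.span ℤ (S : Set R) := by
      rw [hS]
      exact Submodule.mem_top
    have key : ∀ y : R, y ∈ Submodule.span ℤ (S : Set R) → (y : ℂ) ∈ K := by
      intro y hy
      induction hy using Submodule.span_induction with
      | mem y hy => exact IntermediateField.subset_adjoin ℚ S' ⟨y, hy, rfl⟩
      | zero => exact K.zero_mem
      | add y z _ _ hy hz => exact K.add_mem hy hz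
      | smul n y _ hy =>
        have : ((n • y : R) : ℂ) = (n : ℂ) * (y : ℂ) := by
          rw [zsmul_eq_mul]
          push_cast
          rfl
        rw [this]
        exact K.mul_mem (by simpa using K.intCast_mem n) hy
    exact key ⟨x, hx⟩ hx'
  refine ⟨K, hfd, fun p hp hpN => ⟨hRK _ (hmem p hp hpN), hint _ (hmem p hp hpN)⟩, fun τ => ?_⟩
  haveI : Algebra.IsAlgebraic ℚ K := Algebra.IsAlgebraic.of_finite ℚ K
  obtain ⟨σ, hσ⟩ := exists_ringHom_extends K τ
  obtain ⟨g, -, hq⟩ := Fermat.Agent.S48.H288.exists_conj_qCoeff ε f hneb σ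
  refine ⟨ε.ringHomComp σ, g, ⟨?_, ?_⟩, ?_⟩
  · rw [hq, hf₁, map_one]
  · exact Fermat.Agent.S48.H288.hecke_relation_conj ε σ
      (fun n => ModularFormClass.qCoeff f n) (fun n => ModularFormClass.qCoeff g n) hq hT
  · intro p hp hpN x hx
    rw [hq, ← hx, hσ]

end Fermat.Agent.S48.H128

end
-- ===== PACK-END S48/H128/EigenConj.lean

-- ===== PACK-BEGIN S48/H228/DepleteStep.lean
section



/-!
# S48 / RES piece PACKET (helper228), part 2: removing the coefficients `a_n`, `p ∣ n`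

For `p ∣ N` and `f ∈ S_k(Γ₁(N))` the function
`f - p^(1-k) (U_p f) ∣ diag(p, 1) = ∑_{p ∤ n} a_n q^n` is a cusp form on `Γ₁(N p)`
(`deplete_step`).  No permutation of cosets is needed: every summand
`f ∣ [[p, j], [0, p]]` is separately `Γ₁(N p)`-invariant.
-/

set_option autoImplicit false

noncomputable section

open scoped MatrixGroups ModularForm Manifold
open Matrix Matrix.SpecialLinearGroup UpperHalfPlane ModularForm CongruenceSubgroup

namespace Fermat.Agent.S48.H228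

open Fermat.Agent.S48.H848

/-- The matrix `[[p, j], [0, p]]` (translation by `j / p`). -/
def translMatrix (p j : ℕ) : GL (Fin 2) ℝ := heckeMatrix p j * heckeDiagMatrix p

lemma isRatGL_translMatrix (p j : ℕ) : IsRatGL (translMatrix p j) :=
  (isRatGL_heckeMatrix p j).mul (isRatGL_heckeDiagMatrix p)

/-- Commutation of `[[p, j], [0, p]]` with `γ`, `p² ∣ c`, `p ∣ d - a`. -/
theorem translMatrix_mul_track {p : ℕ} (hp : p ≠ 0) (g : SL(2, ℤ)) (j : ℕ) (e₁ e₂ : ℤ)
    (h10 : g 1 0 = p * p * e₂) (hda : g 1 1 - g 0 0 = p * e₁) :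
    ∃ g' : SL(2, ℤ), g' 1 0 = g 1 0 ∧ g' 1 1 = g 1 1 - j * p * e₂ ∧
      translMatrix p j * mapGL ℝ g = mapGL ℝ g' * translMatrix p j := by
  have hdet := det_eq848 g
  obtain ⟨g', h00, h01, h10', h11⟩ := exists_SL2_848 (g 0 0 + j * p * e₂)
    (g 0 1 + j * e₁ - j * j * e₂) (g 1 0) (g 1 1 - j * p * e₂)
    (by linear_combination hdet + (j * p * e₂) * hda - (j * e₁ - j * j * e₂) * h10)
  refine ⟨g', h10', h11, ?_⟩
  have h10r : ((g 1 0 : ℤ) : ℝ) = p * p * e₂ := by exact_mod_cast h10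
  have hdar : ((g 1 1 : ℤ) : ℝ) - ((g 0 0 : ℤ) : ℝ) = p * e₁ := by exact_mod_cast hda
  ext i j
  fin_cases i <;> fin_cases j <;>
    simp [translMatrix, hp, Matrix.mul_apply, Fin.sum_univ_two, h00, h01, h10', h11]
  all_goals first
    | linear_combination (j : ℝ) * h10r
    | linear_combination (-(j : ℝ)) * h10r
    | linear_combination (p : ℝ) * (j : ℝ) * hdar
    | linear_combination (-(p : ℝ)) * (j : ℝ) * hdar
    | linear_combination (j : ℝ) * hdar
    | linear_combination (j : ℝ) * hdar + (j : ℝ) * (j : ℝ) * h10r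
    | ring1

variable {N : ℕ} {k : ℤ}

/-- The congruences satisfied by `γ ∈ Γ₁(N p)` when `p ∣ N`. -/
theorem exists_data_of_mem_Gamma1 {p : ℕ} (hpN : p ∣ N) {g : SL(2, ℤ)}
    (hg : g ∈ Gamma1 (N * p)) :
    ∃ e₁ e₂ : ℤ, g 1 0 = p * p * e₂ ∧ g 1 1 - g 0 0 = p * e₁ ∧ (N : ℤ) ∣ p * e₂ ∧
      (N : ℤ) ∣ g 1 1 - 1 := by
  obtain ⟨h00, h11, h10⟩ := (Gamma1_mem (N * p) g).mp hg
  have d10 : ((N * p : ℕ) : ℤ) ∣ g 1 0 := (ZMod.intCast_zmod_eq_zero_iff_dvd _ _).mp h10
  have d11 : ((N * p : ℕ) : ℤ) ∣ g 1 1 - 1 := by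
    apply (ZMod.intCast_zmod_eq_zero_iff_dvd _ _).mp
    push_cast
    rw [h11, sub_self]
  have d00 : ((N * p : ℕ) : ℤ) ∣ g 0 0 - 1 := by
    apply (ZMod.intCast_zmod_eq_zero_iff_dvd _ _).mp
    push_cast
    rw [h00, sub_self]
  obtain ⟨N', rfl⟩ := hpN
  obtain ⟨t, ht⟩ := d10
  obtain ⟨s, hs⟩ := d11
  obtain ⟨r, hr⟩ := d00
  push_cast at ht hs hr
  refine ⟨(p : ℤ) * N' * (s - r), N' * t, ?_, ?_, ?_, ?_⟩
  · rw [ht]; ring
  · have : g 1 1 - g 0 0 = (g 1 1 - 1) - (g 0 0 - 1) := by ring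
    rw [this, hs, hr]; ring
  · exact ⟨t, by push_cast; ring⟩
  · exact ⟨p * s, by rw [hs]; push_cast; ring⟩

/-- Every translate `f ∣ [[p, j], [0, p]]` of a `Γ₁(N)`-invariant function is
`Γ₁(N p)`-invariant, if `p ∣ N`. -/
theorem SI1_slash_translMatrix {p : ℕ} (hp : p ≠ 0) (hpN : p ∣ N) {f : ℍ → ℂ}
    (hf : SI1 N k f) (j : ℕ) : SI1 (N * p) k (f ∣[k] translMatrix p j) := by
  intro g hg
  obtain ⟨e₁, e₂, h10, hda, hN, hd⟩ := exists_data_of_mem_Gamma1 hpN hg
  obtain ⟨g', h10', h11', hcomm⟩ := translMatrix_mul_track hp g j e₁ e₂ h10 hda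
  have hNc : (N : ℤ) ∣ g 1 0 := by
    obtain ⟨u, hu⟩ := hN
    exact ⟨p * u, by rw [h10]; linear_combination (p : ℤ) * hu⟩
  have hg' : g' ∈ Gamma1 N := by
    refine mem_Gamma1_of_mem_Gamma0 (Gamma0_mem.mpr ?_) ?_
    · rw [h10']
      exact (ZMod.intCast_zmod_eq_zero_iff_dvd _ _).mpr hNc
    · have hdvd : (N : ℤ) ∣ g' 1 1 - 1 := by
        rw [h11']
        have : g 1 1 - j * p * e₂ - 1 = (g 1 1 - 1) - j * (p * e₂) := by ring
        rw [this]
        exact dvd_sub hd (Dvd.dvd.mul_left hN _)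
      have := (ZMod.intCast_zmod_eq_zero_iff_dvd _ _).mpr hdvd
      push_cast at this
      exact sub_eq_zero.mp this
  rw [← SlashAction.slash_mul, hcomm, SlashAction.slash_mul, hf g' hg']

/-- `Γ₁(M) ≤ Γ₁(N)` for `N ∣ M`, on invariant functions. -/
theorem SI1_of_dvd {M : ℕ} (hNM : N ∣ M) {f : ℍ → ℂ} (hf : SI1 N k f) : SI1 M k f := by
  intro g hg
  apply hf g
  obtain ⟨h00, h11, h10⟩ := (Gamma1_mem M g).mp hg
  rw [Gamma1_mem]
  have key : ∀ a : ℤ, ∀ b : ℤ, ((a : ℤ) : ZMod M) = b → ((a : ℤ) : ZMod N) = b := by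
    intro a b hab
    have h1 : ((M : ℕ) : ℤ) ∣ a - b := by
      apply (ZMod.intCast_zmod_eq_zero_iff_dvd _ _).mp
      push_cast
      rw [hab, sub_self]
    have h2 : ((N : ℕ) : ℤ) ∣ a - b := dvd_trans (Int.natCast_dvd_natCast.mpr hNM) h1
    have := (ZMod.intCast_zmod_eq_zero_iff_dvd _ _).mpr h2
    push_cast at this
    exact sub_eq_zero.mp this
  refine ⟨?_, ?_, ?_⟩
  · simpa using key (g 0 0) 1 (by simpa using h00)
  · simpa using key (g 1 1) 1 (by simpa using h11)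
  · simpa using key (g 1 0) 0 (by simpa using h10)

/-- The sum of the translates is `(U_p f) ∣ diag(p, 1)`. -/
theorem sum_translMatrix_eq (p : ℕ) (f : ℍ → ℂ) :
    ∑ j ∈ Finset.range p, f ∣[k] translMatrix p j =
      (heckeU k p f) ∣[k] heckeDiagMatrix p := by
  rw [heckeU_def, SlashAction.sum_slash]
  refine Finset.sum_congr rfl fun j _ => ?_
  rw [translMatrix, SlashAction.slash_mul]

section step

variable [NeZero N]

/-- **Depletion at `p ∣ N`.** -/
theorem deplete_step {p : ℕ} (hp : p ≠ 0) (hpN : p ∣ N) (f : CuspForm (Gamma1 N) k) :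
    ∃ h : CuspForm (Gamma1 (N * p)) k, ∀ n : ℕ,
      ModularFormClass.qCoeff h n = if p ∣ n then 0 else ModularFormClass.qCoeff f n := by
  have : NeZero (N * p) := ⟨Nat.mul_ne_zero (NeZero.ne N) hp⟩
  set W : ℍ → ℂ := ∑ j ∈ Finset.range p, (⇑f) ∣[k] translMatrix p j with hW
  set c : ℂ := ((p : ℂ) ^ (k - 1))⁻¹ with hc
  have hcne : ((p : ℂ) ^ (k - 1)) ≠ 0 := zpow_ne_zero _ (by exact_mod_cast hp)
  have hWeq : W = (heckeU k p ⇑f) ∣[k] heckeDiagMatrix p := sum_translMatrix_eq p ⇑f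
  have hNf : Nice (⇑f) := Nice.of_cusp f
  have hNW : Nice W := by rw [hWeq]; exact (hNf.heckeU k p).slash_diag k p
  have hSIW : SI1 (N * p) k W := by
    intro g hg
    rw [hW, SlashAction.sum_slash]
    exact Finset.sum_congr rfl fun j _ => SI1_slash_translMatrix hp hpN (SI1_coe f) j g hg
  have hSIf : SI1 (N * p) k ⇑f := SI1_of_dvd (Dvd.intro _ rfl) (SI1_coe f)
  have hSI : SI1 (N * p) k (⇑f - c • W) := hSIf.sub (hSIW.smul c)
  have hol : MDiff (⇑f - c • W) := hNf.hol.sub (hNW.hol.const_smul c)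
  have hz : ∀ {x : OnePoint ℝ}, IsCusp x (Gamma1 (N * p) : Subgroup (GL (Fin 2) ℝ)) →
      x.IsZeroAt (⇑f - c • W) k := by
    intro x hx
    have h1 : x.IsZeroAt (⇑f) k := by
      have := isZeroAt_slash_of_isRatGL (Γ' := (Gamma1 (N * p) : Subgroup (GL (Fin 2) ℝ)))
        f (g := 1) ⟨1, map_one _⟩ hx
      rwa [SlashAction.slash_one] at this
    have h2 : x.IsZeroAt W k :=
      isZeroAt_sum _ _ fun j _ => isZeroAt_slash_of_isRatGL f (isRatGL_translMatrix p j) hx
    have h3 : x.IsZeroAt ((-c) • W) k := isZeroAt_smul _ h2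
    have e : ⇑f - c • W = ⇑f + (-c) • W := by rw [_root_.neg_smul, sub_eq_add_neg]
    rw [e]
    exact h1.add h3
  refine ⟨mkCusp1 (⇑f - c • W) hSI hol hz, fun n => ?_⟩
  rw [coe_mkCusp1, Nice.qCoeff_sub hNf (hNW.smul c), Nice.qCoeff_smul hNW, hWeq,
    Nice.qCoeff_slash_diag (hNf.heckeU k p) k hp]
  by_cases hpn : p ∣ n
  · rw [if_pos hpn, if_pos hpn, Nice.qCoeff_heckeU hNf k hp, Nat.div_mul_cancel hpn, hc,
      inv_mul_cancel_left₀ hcne, sub_self]
  · rw [if_neg hpn, if_neg hpn, mul_zero, sub_zero]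

end step

end Fermat.Agent.S48.H228

end
end
-- ===== PACK-END S48/H228/DepleteStep.lean

-- ===== PACK-BEGIN S48/H228/Deplete.lean
section


/-!
# S48 / RES piece PACKET (helper228), part 3: the `N`-depletion of a cusp form on `Γ₁(N)`

`exists_depleted`: for `f ∈ S_k(Γ₁(N))` there are a level `M` with `N ∣ M`, with the same prime
divisors as `N`, and `h ∈ S_k(Γ₁(M))` with `a_n(h) = a_n(f)` for `gcd(n, N) = 1` and
`a_n(h) = 0` otherwise.
-/

set_option autoImplicit false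

noncomputable section

open scoped MatrixGroups ModularForm Manifold
open Matrix Matrix.SpecialLinearGroup UpperHalfPlane ModularForm CongruenceSubgroup

namespace Fermat.Agent.S48.H228

open Fermat.Agent.S48.H848

/-- Depletion at a list of divisors of `N`. -/
theorem exists_depleted_list (N : ℕ) [NeZero N] (k : ℤ) (f : CuspForm (Gamma1 N) k) :
    ∀ l : List ℕ, (∀ p ∈ l, p ≠ 0 ∧ p ∣ N) →
      ∃ (M : ℕ) (_ : NeZero M), N ∣ M ∧ (∀ q : ℕ, q.Prime → q ∣ M → q ∣ N) ∧
        ∃ h : CuspForm (Gamma1 M) k,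
          (∀ n : ℕ, (∃ p ∈ l, p ∣ n) → ModularFormClass.qCoeff h n = 0) ∧
          (∀ n : ℕ, (∀ p ∈ l, ¬ p ∣ n) →
            ModularFormClass.qCoeff h n = ModularFormClass.qCoeff f n) := by
  intro l
  induction l with
  | nil =>
    intro _
    refine ⟨N, inferInstance, dvd_rfl, fun q _ hq => hq, f, ?_, fun n _ => rfl⟩
    rintro n ⟨p, hp, -⟩
    simp at hp
  | cons p l ih =>
    intro hl
    obtain ⟨M, hM, hNM, hprimes, h, hzero, hcop⟩ :=
      ih fun q hq => hl q (List.mem_cons_of_mem p hq)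
    obtain ⟨hp0, hpN⟩ := hl p List.mem_cons_self
    obtain ⟨h', hh'⟩ := deplete_step (N := M) (k := k) hp0 (hpN.trans hNM) h
    refine ⟨M * p, ⟨Nat.mul_ne_zero (NeZero.ne M) hp0⟩, hNM.trans (Dvd.intro _ rfl), ?_, h', ?_, ?_⟩
    · intro q hq hqMp
      rcases (Nat.Prime.dvd_mul hq).mp hqMp with hqM | hqp
      · exact hprimes q hq hqM
      · exact hqp.trans hpN
    · rintro n ⟨q, hq, hqn⟩
      rw [hh' n]
      by_cases hpn : p ∣ n
      · rw [if_pos hpn]
      · rw [if_neg hpn]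
        rcases List.mem_cons.mp hq with rfl | hql
        · exact absurd hqn hpn
        · exact hzero n ⟨q, hql, hqn⟩
    · intro n hn
      rw [hh' n, if_neg (hn p List.mem_cons_self)]
      exact hcop n fun q hq => hn q (List.mem_cons_of_mem p hq)

/-- **The `N`-depletion.** -/
theorem exists_depleted (N : ℕ) [NeZero N] (k : ℤ) (f : CuspForm (Gamma1 N) k) :
    ∃ (M : ℕ) (_ : NeZero M), N ∣ M ∧ (∀ q : ℕ, q.Prime → q ∣ M → q ∣ N) ∧
      ∃ h : CuspForm (Gamma1 M) k,
        (∀ n : ℕ, ¬ n.Coprime N → ModularFormClass.qCoeff h n = 0) ∧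
        (∀ n : ℕ, n.Coprime N →
          ModularFormClass.qCoeff h n = ModularFormClass.qCoeff f n) := by
  obtain ⟨M, hM, hNM, hprimes, h, hzero, hcop⟩ :=
    exists_depleted_list N k f N.primeFactorsList fun p hp =>
      ⟨(Nat.prime_of_mem_primeFactorsList hp).ne_zero, Nat.dvd_of_mem_primeFactorsList hp⟩
  refine ⟨M, hM, hNM, hprimes, h, fun n hn => hzero n ?_, fun n hn => hcop n ?_⟩
  · obtain ⟨p, hp, hpd⟩ := Nat.exists_prime_and_dvd hn
    exact ⟨p, (Nat.mem_primeFactorsList (NeZero.ne N)).mpr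
      ⟨hp, hpd.trans (Nat.gcd_dvd_right n N)⟩, hpd.trans (Nat.gcd_dvd_left n N)⟩
  · intro p hp hpn
    have hpp := Nat.prime_of_mem_primeFactorsList hp
    have hpN := Nat.dvd_of_mem_primeFactorsList hp
    have : p ∣ Nat.gcd n N := Nat.dvd_gcd hpn hpN
    rw [Nat.Coprime] at hn
    rw [hn] at this
    exact hpp.one_lt.ne' (Nat.dvd_one.mp this)

end Fermat.Agent.S48.H228

end
end
-- ===== PACK-END S48/H228/Deplete.lean

-- ===== PACK-BEGIN S48/H228/Packet.lean
section





/-!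
# S48 / RES piece PACKET (helper228): an everywhere-integral eigen-packet element

The hypotheses `IsEigen N ε f` of S48 do not constrain the coefficients `a_n(f)` with
`gcd(n, N) > 1` (they can be transcendental).  `exists_integral_packet` replaces `f` by its
`N`-depletion `h = ∑_{gcd(n, N) = 1} a_n(f) q^n`, a cusp form of weight one on `Γ₁(M)` for some
`M` with `N ∣ M ∣ N^∞`, which

* still satisfies the hypotheses of S48 (for `ε` lifted to level `M`), with the same `a_p`,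
  `p ∤ N`;
* has ALL `q`-coefficients in a subring `R ⊆ ℂ` which is a finitely generated `ℤ`-module
  (so they are algebraic integers), and `a₁(h) = 1`.

So `h` is `λ`-integral with nonzero reduction at EVERY prime `λ` (no bound on `ℓ` is needed).
-/

set_option autoImplicit false

noncomputable section

open scoped MatrixGroups ModularForm Manifold
open Matrix Matrix.SpecialLinearGroup UpperHalfPlane ModularForm CongruenceSubgroup

namespace Fermat.Agent.S48.H228

open Fermat.Agent.S48.Top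

section Coprime

variable {N : ℕ} (ε : DirichletCharacter ℂ N) (a : ℕ → ℂ)

/-- From the formal Hecke relations: all `a_n`, `gcd(n, N) = 1`, `n ≥ 1`, lie in any subring
containing the values of `ε` and the `a_p`, `p ∤ N`. -/
theorem coeff_mem_of_coprime (R : Subring ℂ) (h1 : a 1 = 1)
    (hT : ∀ p : ℕ, p.Prime → ¬ p ∣ N → ∀ n : ℕ,
      a (p * n) + ε (p : ZMod N) * (if p ∣ n then a (n / p) else 0) = a p * a n)
    (hε : ∀ x : ZMod N, ε x ∈ R) (hp : ∀ p : ℕ, p.Prime → ¬ p ∣ N → a p ∈ R) :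
    ∀ n : ℕ, 0 < n → n.Coprime N → a n ∈ R := by
  intro n
  induction n using Nat.strong_induction_on with
  | _ n ih =>
    intro hn hcop
    rcases Nat.lt_or_ge 1 n with h1n | hn1
    · -- `n > 1`: split off the smallest prime factor
      have hpr : n.minFac.Prime := Nat.minFac_prime (by omega)
      obtain ⟨m, hm⟩ := Nat.minFac_dvd n
      set p := n.minFac with hp_def
      have hpN : ¬ p ∣ N := by
        intro hdvd
        have : p ∣ Nat.gcd n N := Nat.dvd_gcd (Nat.minFac_dvd n) hdvd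
        rw [Nat.Coprime] at hcop
        rw [hcop] at this
        exact hpr.one_lt.ne' (Nat.dvd_one.mp this)
      have hm0 : 0 < m := by
        rcases Nat.eq_zero_or_pos m with h0 | h0
        · rw [h0, mul_zero] at hm; omega
        · exact h0
      have hmn : m < n := by
        rw [hm]
        exact lt_mul_of_one_lt_left hm0 hpr.one_lt
      have hmcop : m.Coprime N := Nat.Coprime.coprime_dvd_left (Dvd.intro_left _ hm.symm) hcop
      have hrel := hT p hpr hpN m
      rw [← hm] at hrel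
      have ham : a m ∈ R := ih m hmn hm0 hmcop
      have hsec : (if p ∣ m then a (m / p) else 0) ∈ R := by
        split_ifs with hpm
        · have hq0 : 0 < m / p := Nat.div_pos (Nat.le_of_dvd hm0 hpm) hpr.pos
          have hqlt : m / p < n := lt_of_le_of_lt (Nat.div_le_self m p) hmn
          have hqcop : (m / p).Coprime N :=
            Nat.Coprime.coprime_dvd_left (Nat.div_dvd_of_dvd hpm) hmcop
          exact ih _ hqlt hq0 hqcop
        · exact R.zero_mem
      have : a n = a p * a m - ε (p : ZMod N) * (if p ∣ m then a (m / p) else 0) := by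
        rw [← hrel]; ring
      rw [this]
      exact R.sub_mem (R.mul_mem (hp p hpr hpN) ham) (R.mul_mem (hε _) hsec)
    · have : n = 1 := by omega
      rw [this, h1]
      exact R.one_mem

end Coprime

/-- **PACKET.**  An everywhere-integral element of the eigen-packet of `f`. -/
theorem exists_integral_packet (N : ℕ) [NeZero N] (ε : DirichletCharacter ℂ N)
    (f : CuspForm (Gamma1 N) 1) (hf : IsEigen N ε f) :
    ∃ (M : ℕ) (_ : NeZero M) (hNM : N ∣ M), (∀ q : ℕ, q.Prime → q ∣ M → q ∣ N) ∧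
      ∃ h : CuspForm (Gamma1 M) 1,
        IsEigen M (DirichletCharacter.changeLevel hNM ε) h ∧
        (∃ R : Subring ℂ, Module.Finite ℤ R ∧ (∀ x : ZMod N, ε x ∈ R) ∧
          ∀ n : ℕ, ModularFormClass.qCoeff h n ∈ R) ∧
        (∀ n : ℕ, n.Coprime N →
          ModularFormClass.qCoeff h n = ModularFormClass.qCoeff f n) ∧
        (∀ n : ℕ, ¬ n.Coprime N → ModularFormClass.qCoeff h n = 0) := by
  obtain ⟨hf₁, hT⟩ := hf
  have hneb : Fermat.Agent.S48.H128.HasNebentypus ε f :=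
    Fermat.Agent.S48.H848.nebentypus_of_hecke_SL ε f hT
  obtain ⟨R, hRfin, hRε, hRp⟩ := Fermat.Agent.S48.H128.exists_finite_subring ε f hf₁ hT hneb
  obtain ⟨M, hM, hNM, hprimes, h, hzero, hcop⟩ := exists_depleted N 1 f
  have hRn : ∀ n : ℕ, n.Coprime N → ModularFormClass.qCoeff f n ∈ R := by
    intro n hn
    rcases Nat.eq_zero_or_pos n with h0 | h0
    · subst h0
      have h00 : ModularFormClass.qCoeff (⇑f) 0 = 0 :=
        CuspFormClass.qExpansion_coeff_zero f one_pos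
          (Fermat.Agent.S48.H848.Nice.one_mem_strictPeriods_Gamma1_848 N)
      rw [h00]
      exact R.zero_mem
    · exact coeff_mem_of_coprime ε (fun n => ModularFormClass.qCoeff f n) R hf₁ hT hRε hRp n h0 hn
  refine ⟨M, hM, hNM, hprimes, h, ⟨?_, ?_⟩, ⟨R, hRfin, hRε, ?_⟩, hcop, hzero⟩
  · rw [hcop 1 (Nat.coprime_one_left N)]
    exact hf₁
  · intro p hp hpM n
    have hpN : ¬ p ∣ N := fun hdvd => hpM (hdvd.trans hNM)
    have hpcop : p.Coprime N := (Nat.Prime.coprime_iff_not_dvd hp).mpr hpN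
    have hεp : (DirichletCharacter.changeLevel hNM ε) (p : ZMod M) = ε (p : ZMod N) := by
      have hc : IsCoprime ((p : ℕ) : ℤ) ((M : ℕ) : ℤ) := by
        rw [Nat.isCoprime_iff_coprime]
        exact (Nat.Prime.coprime_iff_not_dvd hp).mpr hpM
      have := DirichletCharacter.changeLevel_eq_cast_of_dvd' ε hNM hc
      simpa using this
    rw [hεp]
    by_cases hn : n.Coprime N
    · have hpn : (p * n).Coprime N := Nat.Coprime.mul_left hpcop hn
      rw [hcop _ hpn, hcop _ hpcop, hcop _ hn]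
      have hrel := hT p hp hpN n
      by_cases hd : p ∣ n
      · rw [if_pos hd] at hrel ⊢
        rw [hcop _ (Nat.Coprime.coprime_dvd_left (Nat.div_dvd_of_dvd hd) hn)]
        exact hrel
      · rw [if_neg hd] at hrel ⊢
        exact hrel
    · have hpn : ¬ (p * n).Coprime N := fun hc =>
        hn (Nat.Coprime.coprime_dvd_left (Dvd.intro_left _ rfl) hc)
      rw [hzero _ hpn, hzero _ hn]
      by_cases hd : p ∣ n
      · rw [if_pos hd]
        have hq : ¬ (n / p).Coprime N := by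
          intro hc
          apply hn
          have : n = p * (n / p) := (Nat.mul_div_cancel' hd).symm
          rw [this]
          exact Nat.Coprime.mul_left hpcop hc
        rw [hzero _ hq]
        ring
      · rw [if_neg hd]
        ring
  · intro n
    by_cases hn : n.Coprime N
    · rw [hcop n hn]
      exact hRn n hn
    · rw [hzero n hn]
      exact R.zero_mem

/-- All `q`-coefficients of the packet element are algebraic integers. -/
theorem exists_integral_packet' (N : ℕ) [NeZero N] (ε : DirichletCharacter ℂ N)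
    (f : CuspForm (Gamma1 N) 1) (hf : IsEigen N ε f) :
    ∃ (M : ℕ) (_ : NeZero M) (hNM : N ∣ M), (∀ q : ℕ, q.Prime → q ∣ M → q ∣ N) ∧
      ∃ h : CuspForm (Gamma1 M) 1,
        IsEigen M (DirichletCharacter.changeLevel hNM ε) h ∧
        (∀ n : ℕ, IsIntegral ℤ (ModularFormClass.qCoeff h n)) ∧
        (∀ p : ℕ, p.Prime → ¬ p ∣ N →
          ModularFormClass.qCoeff h p = ModularFormClass.qCoeff f p) := by
  obtain ⟨M, hM, hNM, hprimes, h, hE, ⟨R, hRfin, -, hRn⟩, hcop, -⟩ :=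
    exists_integral_packet N ε f hf
  refine ⟨M, hM, hNM, hprimes, h, hE, fun n => ?_, fun p hp hpN =>
    hcop p ((Nat.Prime.coprime_iff_not_dvd hp).mpr hpN)⟩
  have hint : IsIntegral ℤ (⟨_, hRn n⟩ : R) := IsIntegral.of_finite ℤ _
  exact hint.map (R.subtype.toIntAlgHom)

end Fermat.Agent.S48.H228

end
end
-- ===== PACK-END S48/H228/Packet.lean

-- ===== PACK-BEGIN S55/G/Rec/WeakApproxPlaceH904.lean
section








/-!
# S55 / layer G / block REC, leaf G3 (weak approximation), part 1 : places and double cosets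

* `isClosed_of_isOpenQ` : an open subgroup (in the sense `IsOpenQ`) is closed.
* `exists_mem_doubleCoset` : if the places of `K = ℚ̄^U` induced by `ι_p ∘ g⁻¹` and `ι_p ∘ g'⁻¹`
  have the same prime of `𝓞_K`, then `g' ∈ U g D_p`.
-/

set_option autoImplicit false
set_option linter.style.haveILetI false

noncomputable section

open scoped Pointwise

namespace Fermat.Agent.S55.G.Rec.H904

local notation "Qb" => AlgebraicClosure ℚ
local notation "GQ" => (AlgebraicClosure ℚ ≃ₐ[ℚ] AlgebraicClosure ℚ)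

section Abstract

universe u

variable {B : Type*} [CommRing B]
variable {G : Type u} [Group G] [MulSemiringAction G B]
variable [TopologicalSpace G] [CompactSpace G] [TotallyDisconnectedSpace G]
variable [IsTopologicalGroup G] [TopologicalSpace B] [DiscreteTopology B] [ContinuousSMul G B]

/-- `G` profinite acting continuously on a discrete ring `B`, `N` a closed subgroup.  Two primes
of `B` with the same trace on the `N`-invariants are conjugate under `N`. -/
theorem exists_smul_eq_of_forall_fixed (N : Subgroup G) (hN : IsClosed (N : Set G))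
    (P Q : Ideal B) [hP : P.IsPrime] [hQ : Q.IsPrime]
    (h : ∀ x : B, (∀ n ∈ N, n • x = x) → (x ∈ P ↔ x ∈ Q)) :
    ∃ n ∈ N, Q = n • P := by
  have : CompactSpace N := isCompact_iff_compactSpace.mp hN.isCompact
  have := Fermat.Agent.S13.H175.isInvariant_fixedPoints (B := B) N
  have hunder : P.under (FixedPoints.subalgebra ℤ B N) =
      Q.under (FixedPoints.subalgebra ℤ B N) := by
    ext ⟨x, hx⟩
    have hx' : ∀ n ∈ N, n • x = x := fun n hn' => hx ⟨n, hn'⟩
    simp only [Ideal.mem_comap]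
    exact h x hx'
  obtain ⟨n, hn1⟩ := Algebra.IsInvariant.exists_smul_of_under_eq_of_profinite
    (A := FixedPoints.subalgebra ℤ B N) (G := N) P Q hunder
  exact ⟨n, n.2, hn1⟩

end Abstract

/-- An open subgroup (`IsOpenQ`) is open in the Krull topology. -/
theorem isOpen_of_isOpenQ {U : Subgroup GQ} (hU : IsOpenQ U) : IsOpen (U : Set GQ) := by
  obtain ⟨F, hF, hFU⟩ := hU
  haveI := hF
  exact Subgroup.isOpen_mono hFU F.fixingSubgroup_isOpen

/-- An open subgroup (`IsOpenQ`) is closed in the Krull topology. -/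
theorem isClosed_of_isOpenQ {U : Subgroup GQ} (hU : IsOpenQ U) : IsClosed (U : Set GQ) :=
  Subgroup.isClosed_of_isOpen U (isOpen_of_isOpenQ hU)

/-- The fixing subgroup of the fixed field of an open subgroup `U` is `U`. -/
theorem fixingSubgroup_fixedField_of_isOpenQ {U : Subgroup GQ} (hU : IsOpenQ U) :
    (IntermediateField.fixedField U).fixingSubgroup = U := by
  haveI := Fermat.Agent.S54.isGalois_algebraicClosure_rat
  exact InfiniteGalois.fixingSubgroup_fixedField ⟨U, isClosed_of_isOpenQ hU⟩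

/-- The fixed field of an open subgroup is a number field. -/
theorem finiteDimensional_fixedField_of_isOpenQ {U : Subgroup GQ} (hU : IsOpenQ U) :
    FiniteDimensional ℚ (IntermediateField.fixedField U) := by
  haveI := Fermat.Agent.S54.isGalois_algebraicClosure_rat
  obtain ⟨F, hF, hFU⟩ := hU
  haveI := hF
  have h1 : IntermediateField.fixedField U ≤ F := by
    have := IntermediateField.fixedField_antitone (F := ℚ) (E := Qb) hFU
    rwa [InfiniteGalois.fixedField_fixingSubgroup] at this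
  exact FiniteDimensional.of_injective (IntermediateField.inclusion h1).toLinearMap
    (IntermediateField.inclusion h1).injective

variable (p : ℕ) [Fact p.Prime]

/-- Nonunits of the `p`-adic place of `ℚ̄` are the elements of norm `< 1`. -/
theorem mem_nonunits_padicPlace_iff (x : Qb) :
    x ∈ (padicPlace p).nonunits ↔ ‖padicEmbedding p x‖ < 1 := by
  rw [ValuationSubring.mem_nonunits_iff_or]
  by_cases hx : x = 0
  · subst hx
    simp
  · have hne : padicEmbedding p x ≠ 0 := (map_ne_zero (padicEmbedding p)).mpr hx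
    have hpos : 0 < ‖padicEmbedding p x‖ := norm_pos_iff.mpr hne
    rw [Fermat.Agent.S55.H175.mem_padicPlace_iff_norm, map_inv₀, norm_inv]
    constructor
    · rintro (h | h)
      · exact absurd h hx
      · rw [not_le] at h
        exact (one_lt_inv₀ hpos).mp h
    · intro h
      right
      rw [not_le]
      exact (one_lt_inv₀ hpos).mpr h

/-- The prime of `ℤ̄` induced by `ι_p ∘ g⁻¹`. -/
theorem mem_smul_primeBelow_iff (g : GQ) (b : integralClosure ℤ Qb) :
    b ∈ g • Fermat.Agent.S54.primeBelow (padicPlace p) ↔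
      ‖padicEmbedding p (g⁻¹ (b : Qb))‖ < 1 := by
  rw [Ideal.mem_pointwise_smul_iff_inv_smul_mem, Fermat.Agent.S54.mem_primeBelow,
    mem_nonunits_padicPlace_iff]
  rfl

/-- **Places and double cosets.**  If the places of `K = ℚ̄^U` induced by `ι_p ∘ g⁻¹` and
`ι_p ∘ g'⁻¹` define the same prime of the ring of integers of `K`, then `g' ∈ U g D_p`. -/
theorem exists_mem_doubleCoset {U : Subgroup GQ} (hU : IsOpenQ U) (g g' : GQ)
    (h : ∀ x : Qb, IsIntegral ℤ x → (∀ u ∈ U, u x = x) →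
      (‖padicEmbedding p (g⁻¹ x)‖ < 1 ↔ ‖padicEmbedding p (g'⁻¹ x)‖ < 1)) :
    ∃ u ∈ U, ∃ d ∈ (localGaloisToGlobal p).range, g' = u * g * d := by
  classical
  have hgal := Fermat.Agent.S54.isGalois_algebraicClosure_rat
  letI : TopologicalSpace (integralClosure ℤ Qb) := ⊥
  haveI : DiscreteTopology (integralClosure ℤ Qb) := ⟨rfl⟩
  haveI := Fermat.Agent.S54.continuousSMul_integralClosure
  have hclosed := isClosed_of_isOpenQ hU
  haveI hQ0 := Fermat.Agent.S54.primeBelow_isPrime (padicPlace p)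
  obtain ⟨u, huU, hu⟩ := exists_smul_eq_of_forall_fixed (G := GQ) U hclosed
    (g • Fermat.Agent.S54.primeBelow (padicPlace p))
    (g' • Fermat.Agent.S54.primeBelow (padicPlace p)) (by
      intro x hx
      rw [mem_smul_primeBelow_iff, mem_smul_primeBelow_iff]
      exact h x x.2 (fun u hu => congrArg Subtype.val (hx u hu)))
  have hu' : g' • Fermat.Agent.S54.primeBelow (padicPlace p) =
      (u * g) • Fermat.Agent.S54.primeBelow (padicPlace p) := by
    rw [hu, mul_smul]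
  have hd : (g⁻¹ * u⁻¹ * g') • Fermat.Agent.S54.primeBelow (padicPlace p) =
      Fermat.Agent.S54.primeBelow (padicPlace p) := by
    rw [mul_smul, hu', ← mul_smul]
    have : g⁻¹ * u⁻¹ * (u * g) = 1 := by group
    rw [this, one_smul]
  refine ⟨u, huU, g⁻¹ * u⁻¹ * g', ?_, by group⟩
  rw [Fermat.Agent.S55.H175.range_localGaloisToGlobal, ValuationSubring.decompositionSubgroup,
    MulAction.mem_stabilizer_iff]
  apply Fermat.Agent.S55.Bridge.H175.smul_valuationSubring_eq (padicPlace p) p Fact.out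
    (Fermat.Agent.S55.Bridge.H175.padicPlace_liesOverPrime p)
  intro b hb
  have h1 : (g⁻¹ * u⁻¹ * g') • (⟨b, hb⟩ : integralClosure ℤ Qb) ∈
      (g⁻¹ * u⁻¹ * g') • Fermat.Agent.S54.primeBelow (padicPlace p) ↔
      (⟨b, hb⟩ : integralClosure ℤ Qb) ∈ Fermat.Agent.S54.primeBelow (padicPlace p) :=
    Ideal.smul_mem_pointwise_smul_iff
  rw [hd] at h1
  exact h1

end Fermat.Agent.S55.G.Rec.H904

end
end
-- ===== PACK-END S55/G/Rec/WeakApproxPlaceH904.lean

-- ===== PACK-BEGIN S55/G/Rec/WeakApproxAbsH904.lean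
section


/-!
# S55 / layer G / block REC, leaf G3 (weak approximation), part 2 : absolute values

* `exists_approx` : weak approximation (Mathlib `AbsoluteValue.denseRange_algebraMap_pi`) in
  `ε`-form with one `ε` per absolute value.
* `embAbs ℓ e` : the absolute value `x ↦ ‖ι_ℓ (e x)‖` of a field `K` attached to an embedding
  `e : K →ₐ[ℚ] ℚ̄`; nontriviality, inequivalence for different primes, ultrametric inequality.
-/

set_option autoImplicit false
set_option linter.style.haveILetI false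

noncomputable section

open scoped Pointwise

namespace Fermat.Agent.S55.G.Rec.H904

local notation "Qb" => AlgebraicClosure ℚ
local notation "GQ" => (AlgebraicClosure ℚ ≃ₐ[ℚ] AlgebraicClosure ℚ)

/-- Weak approximation, uniform `ε`. -/
theorem exists_approx_uniform {F : Type*} [Field F] {ι : Type*} [Finite ι]
    (v : ι → AbsoluteValue F ℝ)
    (h : ∀ i, (v i).IsNontrivial) (hv : Pairwise fun i j ↦ ¬(v i).IsEquiv (v j))
    (t : ι → F) (ε : ℝ) (hε : 0 < ε) : ∃ a : F, ∀ i, v i (a - t i) < ε := by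
  classical
  haveI := Fintype.ofFinite ι
  have hd := AbsoluteValue.denseRange_algebraMap_pi h hv
  rw [Metric.denseRange_iff] at hd
  obtain ⟨a, ha⟩ := hd (fun i => WithAbs.toAbs (v i) (t i)) ε hε
  refine ⟨a, fun i => ?_⟩
  rw [dist_pi_lt_iff hε] at ha
  have := ha i
  rw [dist_comm, dist_eq_norm] at this
  exact this

/-- Weak approximation, one `ε` per absolute value. -/
theorem exists_approx {F : Type*} [Field F] {ι : Type*} [Finite ι]
    (v : ι → AbsoluteValue F ℝ)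
    (h : ∀ i, (v i).IsNontrivial) (hv : Pairwise fun i j ↦ ¬(v i).IsEquiv (v j))
    (t : ι → F) (ε : ι → ℝ) (hε : ∀ i, 0 < ε i) : ∃ a : F, ∀ i, v i (a - t i) < ε i := by
  classical
  haveI := Fintype.ofFinite ι
  rcases isEmpty_or_nonempty ι with hι | hι
  · exact ⟨0, fun i => (hι.false i).elim⟩
  · have hne : (Finset.univ : Finset ι).Nonempty := Finset.univ_nonempty
    have h0 : 0 < Finset.univ.inf' hne ε := by
      rw [Finset.lt_inf'_iff]
      exact fun i _ => hε i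
    obtain ⟨a, ha⟩ := exists_approx_uniform v h hv t _ h0
    exact ⟨a, fun i => lt_of_lt_of_le (ha i) (Finset.inf'_le ε (Finset.mem_univ i))⟩

section EmbAbs

variable (ℓ : ℕ) [Fact ℓ.Prime] {K : Type*} [Field K] [Algebra ℚ K]

/-- The absolute value `x ↦ ‖ι_ℓ (e x)‖` on `K` attached to `e : K →ₐ[ℚ] ℚ̄`. -/
def embAbs (e : K →ₐ[ℚ] Qb) : AbsoluteValue K ℝ :=
  (NormedField.toAbsoluteValue (PadicAlgCl ℓ)).comp
    (f := (((padicEmbedding ℓ).comp e : K →ₐ[ℚ] PadicAlgCl ℓ) : K →+* PadicAlgCl ℓ))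
    (RingHom.injective _)

theorem embAbs_apply (e : K →ₐ[ℚ] Qb) (x : K) : embAbs ℓ e x = ‖padicEmbedding ℓ (e x)‖ := rfl

theorem embAbs_natCast_self (e : K →ₐ[ℚ] Qb) : embAbs ℓ e (ℓ : K) = (ℓ : ℝ)⁻¹ := by
  rw [embAbs_apply, map_natCast]
  exact Fermat.Agent.S55.H175.norm_padicEmbedding_natCast_self ℓ

theorem embAbs_natCast_of_not_dvd (e : K →ₐ[ℚ] Qb) (n : ℕ) (hn : ¬ ℓ ∣ n) :
    embAbs ℓ e (n : K) = 1 := by
  rw [embAbs_apply, map_natCast, map_natCast]
  have h1 : ((n : ℚ_[ℓ]) : PadicAlgCl ℓ) = (n : PadicAlgCl ℓ) := map_natCast _ n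
  rw [← h1, PadicAlgCl.norm_extends, Padic.norm_natCast_eq_one_iff]
  exact (Nat.Prime.coprime_iff_not_dvd (Fact.out : ℓ.Prime)).2 hn

theorem embAbs_isNontrivial (e : K →ₐ[ℚ] Qb) : (embAbs ℓ e).IsNontrivial := by
  have h1 : (1 : ℝ) < ℓ := by exact_mod_cast (Fact.out : ℓ.Prime).one_lt
  refine ⟨(ℓ : K), ?_, ?_⟩
  · intro h0
    have := embAbs_natCast_self ℓ e
    rw [h0, map_zero] at this
    have : (ℓ : ℝ)⁻¹ ≠ 0 := inv_ne_zero (by linarith)
    exact this (by linarith)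
  · rw [embAbs_natCast_self]
    intro h
    have h2 : (ℓ : ℝ)⁻¹ < 1 := inv_lt_one_of_one_lt₀ h1
    linarith

/-- Ultrametric inequality in the form used below. -/
theorem embAbs_eq_of_sub_lt (e : K →ₐ[ℚ] Qb) {a t : K} (h : embAbs ℓ e (a - t) < embAbs ℓ e t) :
    embAbs ℓ e a = embAbs ℓ e t := by
  simp only [embAbs_apply, map_sub] at h ⊢
  have h1 : padicEmbedding ℓ (e a) =
      padicEmbedding ℓ (e t) + (padicEmbedding ℓ (e a) - padicEmbedding ℓ (e t)) := by ring
  rw [h1]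
  exact IsUltrametricDist.norm_add_eq_max_of_norm_ne_norm (ne_of_gt h) ▸ max_eq_left h.le

end EmbAbs

/-- Absolute values attached to different primes are inequivalent. -/
theorem not_isEquiv_embAbs_of_ne {p r : ℕ} [Fact p.Prime] [Fact r.Prime] (hpr : p ≠ r)
    {K : Type*} [Field K] [Algebra ℚ K] (e e' : K →ₐ[ℚ] Qb) :
    ¬ (embAbs p e).IsEquiv (embAbs r e') := by
  intro h
  have h1 : embAbs p e (p : K) < 1 := by
    rw [embAbs_natCast_self]
    exact inv_lt_one_of_one_lt₀ (by exact_mod_cast (Fact.out : p.Prime).one_lt)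
  have h2 := h.lt_one_iff.mp h1
  rw [embAbs_natCast_of_not_dvd r e' p] at h2
  · exact lt_irrefl _ h2
  · intro hdvd
    exact hpr ((Nat.prime_dvd_prime_iff_eq (Fact.out : r.Prime) (Fact.out : p.Prime)).mp hdvd).symm

end Fermat.Agent.S55.G.Rec.H904

end
end
-- ===== PACK-END S55/G/Rec/WeakApproxAbsH904.lean

-- ===== PACK-BEGIN S55/G/Rec/WeakApproxLocalH904.lean
section




/-!
# S55 / layer G / block REC, leaf G3 (weak approximation), part 3 : local input

* `exists_isUniformizer` : the fixed field of a subgroup of finite index of `G_{ℚ_q}` has a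
  uniformizer (discreteness of the value group, from `VdegH707.exists_zpow`).
* `exists_global_norm_eq` : `K = ℚ̄^U` is dense in its completion `ℚ̄_p^{V}`, `V = locSub p g U`:
  every nonzero `y` fixed by `V` has the norm of some `ι_p (g⁻¹ x)`, `x ∈ K`.
-/

set_option autoImplicit false
set_option linter.style.haveILetI false

noncomputable section

open scoped Pointwise

namespace Fermat.Agent.S55.G.Rec.H904

local notation "Qb" => AlgebraicClosure ℚ
local notation "GQ" => (AlgebraicClosure ℚ ≃ₐ[ℚ] AlgebraicClosure ℚ)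

variable (q : ℕ) [Fact q.Prime]

local notation "Gq" => (PadicAlgCl q ≃ₐ[ℚ_[q]] PadicAlgCl q)

theorem norm_natCast_self_padicAlgCl : ‖(q : PadicAlgCl q)‖ = (q : ℝ)⁻¹ := by
  have h1 : ((q : ℚ_[q]) : PadicAlgCl q) = (q : PadicAlgCl q) := map_natCast _ q
  rw [← h1, PadicAlgCl.norm_extends, Padic.norm_p]

/-- The fixed field of a subgroup of finite index has a uniformizer. -/
theorem exists_isUniformizer (V : Subgroup Gq) (hV : V.index ≠ 0) :
    ∃ π : PadicAlgCl q, IsUniformizer q V π := by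
  classical
  have hq1 : (1 : ℝ) < q := by exact_mod_cast (Fact.out : q.Prime).one_lt
  have key : ∀ x : PadicAlgCl q, IsFixedBy q V x → x ≠ 0 → ‖x‖ < 1 →
      ∃ m : ℕ, 0 < m ∧ ‖x‖ ^ V.index = (q : ℝ) ^ (-(m : ℤ)) := by
    intro x hx hx0 hx1
    obtain ⟨k, hk⟩ := VdegH707.exists_zpow q V (Units.mk0 x hx0)
      (by intro τ hτ; apply Units.ext; exact hx τ hτ)
    have hk' : ‖x‖ ^ V.index = (q : ℝ) ^ k := hk
    have hlt : (q : ℝ) ^ k < 1 := by
      rw [← hk']
      exact pow_lt_one₀ (norm_nonneg _) hx1 hV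
    have hk0 : k < 0 := by
      by_contra hcon
      rw [not_lt] at hcon
      have : (1 : ℝ) ≤ (q : ℝ) ^ k := one_le_zpow₀ hq1.le hcon
      linarith
    refine ⟨k.natAbs, by omega, ?_⟩
    rw [hk']
    congr 1
    omega
  let P : ℕ → Prop := fun m => 0 < m ∧ ∃ x : PadicAlgCl q, IsFixedBy q V x ∧ x ≠ 0 ∧
    ‖x‖ ^ V.index = (q : ℝ) ^ (-(m : ℤ))
  have hP : ∃ m, P m := by
    have hqfix : IsFixedBy q V (q : PadicAlgCl q) := fun τ _ => map_natCast τ q
    have hq0 : (q : PadicAlgCl q) ≠ 0 := Nat.cast_ne_zero.mpr (Fact.out : q.Prime).ne_zero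
    have hqlt : ‖(q : PadicAlgCl q)‖ < 1 := by
      rw [norm_natCast_self_padicAlgCl]
      exact inv_lt_one_of_one_lt₀ hq1
    obtain ⟨m, hm, hmeq⟩ := key _ hqfix hq0 hqlt
    exact ⟨m, hm, _, hqfix, hq0, hmeq⟩
  obtain ⟨hm0, π, hπfix, hπ0, hπeq⟩ := Nat.find_spec hP
  refine ⟨π, hπfix, hπ0, ?_, ?_⟩
  · by_contra hcon
    rw [not_lt] at hcon
    have h1 : 1 ≤ ‖π‖ ^ V.index := one_le_pow₀ hcon
    rw [hπeq] at h1
    have h2 : (q : ℝ) ^ (-(Nat.find hP : ℤ)) < 1 := zpow_lt_one_of_neg₀ hq1 (by omega)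
    linarith
  · intro x hx hx1
    by_cases hx0 : x = 0
    · rw [hx0, norm_zero]
      exact norm_nonneg _
    obtain ⟨m, hm, hmeq⟩ := key x hx hx0 hx1
    have hle : Nat.find hP ≤ m := Nat.find_min' hP ⟨hm, x, hx, hx0, hmeq⟩
    have h3 : ‖x‖ ^ V.index ≤ ‖π‖ ^ V.index := by
      rw [hmeq, hπeq]
      exact zpow_le_zpow_right₀ hq1.le (by omega)
    exact le_of_pow_le_pow_left₀ hV (norm_nonneg _) h3

theorem isGalois_padicAlgCl904 : IsGalois ℚ_[q] (PadicAlgCl q) := by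
  haveI : IsAlgClosure ℚ_[q] (PadicAlgCl q) := ⟨inferInstance, inferInstance⟩
  haveI : Normal ℚ_[q] (PadicAlgCl q) := IsAlgClosure.normal _ _
  exact isGalois_iff.mpr ⟨inferInstance, inferInstance⟩

/-- The embedding `x ↦ ι_q (g⁻¹ x)` of the fixed field of `U` into `ℚ̄_q`. -/
def locEmb (U : Subgroup GQ) (g : GQ) :
    IntermediateField.fixedField U →+* PadicAlgCl q :=
  (((padicEmbedding q).comp ((g⁻¹ : GQ) : Qb →ₐ[ℚ] Qb)).comp
    (IntermediateField.fixedField U).val : IntermediateField.fixedField U →ₐ[ℚ] PadicAlgCl q)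

theorem locEmb_apply (U : Subgroup GQ) (g : GQ) (x : IntermediateField.fixedField U) :
    locEmb q U g x = padicEmbedding q (g⁻¹ (x : Qb)) := rfl

/-- `ℚ_q` lies in the closure of the image of `K`. -/
theorem algebraMap_mem_closure_range (U : Subgroup GQ) (g : GQ) (c : ℚ_[q]) :
    algebraMap ℚ_[q] (PadicAlgCl q) c ∈ (locEmb q U g).range.topologicalClosure := by
  have hc : c ∈ closure (Set.range ((↑) : ℚ → ℚ_[q])) := (Padic.denseRange_ratCast q) c
  have hcont : Continuous (algebraMap ℚ_[q] (PadicAlgCl q)) :=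
    continuous_algebraMap ℚ_[q] (PadicAlgCl q)
  refine map_mem_closure hcont hc ?_
  rintro _ ⟨r, rfl⟩
  refine ⟨(r : IntermediateField.fixedField U), ?_⟩
  rw [map_ratCast, map_ratCast]

/-- The closure of the image of `K`, as a `ℚ_q`-subalgebra. -/
def closureAlg (U : Subgroup GQ) (g : GQ) : Subalgebra ℚ_[q] (PadicAlgCl q) :=
  { (locEmb q U g).range.topologicalClosure with
    algebraMap_mem' := algebraMap_mem_closure_range q U g }

theorem mem_closureAlg_iff (U : Subgroup GQ) (g : GQ) (y : PadicAlgCl q) :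
    y ∈ closureAlg q U g ↔ y ∈ closure (Set.range (locEmb q U g)) := Iff.rfl

/-- Elements fixed by `locSub q g U` lie in the closure of the image of `K = ℚ̄^U`. -/
theorem mem_closure_of_isFixedBy {U : Subgroup GQ} (hU : IsOpenQ U) (g : GQ) (y : PadicAlgCl q)
    (hy : IsFixedBy q (locSub q g U) y) : y ∈ closure (Set.range (locEmb q U g)) := by
  haveI := isGalois_padicAlgCl904 q
  have h1 : (IntermediateField.adjoin ℚ_[q] (Set.range (locEmb q U g))).fixingSubgroup ≤
      locSub q g U := by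
    intro τ hτ
    rw [mem_locSub, ← fixingSubgroup_fixedField_of_isOpenQ hU,
      IntermediateField.mem_fixingSubgroup_iff]
    intro x hx
    have h2 : τ (locEmb q U g ⟨x, hx⟩) = locEmb q U g ⟨x, hx⟩ :=
      (IntermediateField.mem_fixingSubgroup_iff _ _).1 hτ _
        (IntermediateField.subset_adjoin _ _ ⟨_, rfl⟩)
    rw [locEmb_apply, ← padicEmbedding_localGaloisToGlobal] at h2
    have h3 : localGaloisToGlobal q τ ((g⁻¹ : GQ) x) = (g⁻¹ : GQ) x :=
      (padicEmbedding q).toRingHom.injective h2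
    show g (localGaloisToGlobal q τ ((g⁻¹ : GQ) x)) = x
    rw [h3]
    exact AlgEquiv.apply_symm_apply g x
  have h4 : y ∈ IntermediateField.adjoin ℚ_[q] (Set.range (locEmb q U g)) := by
    have : y ∈ IntermediateField.fixedField
        (IntermediateField.adjoin ℚ_[q] (Set.range (locEmb q U g))).fixingSubgroup := by
      rw [IntermediateField.mem_fixedField_iff]
      intro τ hτ
      exact hy τ (h1 hτ)
    rwa [InfiniteGalois.fixedField_fixingSubgroup] at this
  have h5 : (IntermediateField.adjoin ℚ_[q] (Set.range (locEmb q U g))).toSubalgebra ≤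
      closureAlg q U g := by
    rw [IntermediateField.adjoin_toSubalgebra]
    exact Algebra.adjoin_le (fun m hm => subset_closure hm)
  exact h5 h4

/-- Density in norm form: every nonzero element fixed by `locSub q g U` has the norm of the image
of some element of `K = ℚ̄^U`. -/
theorem exists_global_norm_eq {U : Subgroup GQ} (hU : IsOpenQ U) (g : GQ) (y : PadicAlgCl q)
    (hy : IsFixedBy q (locSub q g U) y) (hy0 : y ≠ 0) :
    ∃ x : IntermediateField.fixedField U, ‖padicEmbedding q (g⁻¹ (x : Qb))‖ = ‖y‖ := by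
  have hmem := mem_closure_of_isFixedBy q hU g y hy
  rw [Metric.mem_closure_iff] at hmem
  obtain ⟨_, ⟨x, rfl⟩, hx⟩ := hmem ‖y‖ (norm_pos_iff.mpr hy0)
  refine ⟨x, ?_⟩
  rw [dist_eq_norm, ← norm_neg, neg_sub] at hx
  have h1 : padicEmbedding q (g⁻¹ (x : Qb)) = y + (locEmb q U g x - y) := by
    rw [locEmb_apply]
    ring
  rw [h1]
  exact IsUltrametricDist.norm_add_eq_max_of_norm_ne_norm (ne_of_gt hx) ▸ max_eq_left hx.le

end Fermat.Agent.S55.G.Rec.H904

end
end
-- ===== PACK-END S55/G/Rec/WeakApproxLocalH904.lean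

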