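import Fermat.Prelude.Def_ModularCurve_PeriodMap
import Mathlib
import Fermat.Prelude.Def_ModularCurve_LaurentCoeff
import Fermat.Agent.Pack.L1B.E1L0
import Fermat.Agent.Pack.S43MC.G0E12L1
import Fermat.Agent.Pack.L1B.E0L2
import Fermat.Agent.Pack.S44C.G0E11L0
import Fermat.Agent.Pack.S44C.G0E10L2
import Fermat.Agent.Pack.S44C.G0E11L3
import Fermat.Agent.Pack.S43MC.G0E16L1
import Fermat.Agent.Pack.S43MC.G0E17L2
import Fermat.Agent.Pack.S44C.G0E10L0
import Fermat.Agent.Pack.S44C.G0E13L0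
import Fermat.Agent.Pack.S44C.G0E19L0
import Fermat.Agent.Pack.S44C.G0E19L1
import Fermat.Agent.Pack.S44C.G0E17L1
import Fermat.Agent.Pack.S44C.G0E16L3
import Fermat.Agent.Pack.S44C.G0E10L1
import Fermat.Agent.Pack.L1B.E1L1
import Fermat.Agent.Pack.L1.E10L0

-- ===== PACK-BEGIN S48/H948/Irr2.lean
section



/-!
# S48 glue piece IRR (helper948): `RankinStatement + ChebDensityStatement ⟹ IrreducibleStatement`

If `ρ` (finite image, attached to `(f, ε)`) stabilised a line, then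
`∑_{g ∈ Γ} ‖tr g‖² ≥ 2 |Γ|` (`Irr1`).  By Chebotarev the primes `p` with `‖a_p‖² = v` have lower
density at least `#{g : ‖tr g‖² = v} / |Γ|`, so `∑_p ‖a_p‖² p^{-s} ≥ (2 - 1/4) log (1/(s-1))`
along suitable finite sets of primes, contradicting the sharp Rankin bound
`≤ log (1/(s-1)) + C`.
-/

set_option autoImplicit false

open CongruenceSubgroup
open scoped MatrixGroups

namespace Fermat.Agent.S48.H948

open Fermat.Agent.Lib.Cheb.Spec Fermat.Agent.Lib.Cheb.SpecQ Fermat.Agent.S48.Top Matrix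

/-- A common `δ` for finitely many "for all `s` close to `1`" statements. -/
theorem exists_common_delta {ι : Type*} (V : Finset ι) (P : ι → ℝ → Prop)
    (h : ∀ v ∈ V, ∃ δ : ℝ, 0 < δ ∧ ∀ s : ℝ, 1 < s → s < 1 + δ → P v s) :
    ∃ δ : ℝ, 0 < δ ∧ ∀ v ∈ V, ∀ s : ℝ, 1 < s → s < 1 + δ → P v s := by
  classical
  induction V using Finset.induction_on with
  | empty => exact ⟨1, one_pos, fun v hv => absurd hv (Finset.notMem_empty v)⟩
  | insert a V ha ih =>
    obtain ⟨δ₁, hδ₁, h1⟩ := ih fun v hv => h v (Finset.mem_insert_of_mem hv)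
    obtain ⟨δ₂, hδ₂, h2⟩ := h a (Finset.mem_insert_self a V)
    refine ⟨min δ₁ δ₂, lt_min hδ₁ hδ₂, ?_⟩
    intro v hv s hs1 hs2
    rcases Finset.mem_insert.mp hv with rfl | hv'
    · exact h2 s hs1 (lt_of_lt_of_le hs2 (by linarith [min_le_right δ₁ δ₂]))
    · exact h1 v hv' s hs1 (lt_of_lt_of_le hs2 (by linarith [min_le_left δ₁ δ₂]))

/-- The core of IRR: a representation of finite level attached to `(f, ε)` has no stable line. -/
theorem no_stable_line (hRankin : RankinStatement) (hCheb : ChebDensityStatement)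
    (N : ℕ) [NeZero N] (ε : DirichletCharacter ℂ N) (f : CuspForm (Gamma1 N) 1)
    (hyp : IsEigen N ε f) (ρ : GQ →* GL (Fin 2) ℂ) (hFL : GaloisFactorsThroughFiniteLevel ρ)
    (hatt : IsAttachedC ε f N ρ) :
    ¬ ∃ v : Fin 2 → ℂ, v ≠ 0 ∧
      ∀ σ : GQ, ∃ c : ℂ, ((ρ σ : GL (Fin 2) ℂ) : Matrix (Fin 2) (Fin 2) ℂ) *ᵥ v = c • v := by
  classical
  rintro ⟨v, hv, hline⟩
  have hN : N ≠ 0 := NeZero.ne N
  obtain ⟨E, hE, hρE⟩ := hFL
  have hfin : Finite ρ.range := finite_range_of_finiteLevel ρ ⟨E, hE, hρE⟩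
  letI : Fintype ρ.range := Fintype.ofFinite _
  have hstab : ∀ g ∈ ρ.range, ∃ c : ℂ,
      ((g : GL (Fin 2) ℂ) : Matrix (Fin 2) (Fin 2) ℂ) *ᵥ v = c • v := by
    rintro g ⟨σ, rfl⟩
    exact hline σ
  have hsum := two_mul_card_le_sum_normSq_trace ρ.range v hv hstab
  -- the function `F g = ‖tr g‖²` and its values
  set F : ρ.range → ℝ :=
    fun g => ‖((g : GL (Fin 2) ℂ) : Matrix (Fin 2) (Fin 2) ℂ).trace‖ ^ 2 with hF
  set V : Finset ℝ := Finset.univ.image F with hV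
  have hVnonneg : ∀ v ∈ V, 0 ≤ v := by
    intro v hv
    obtain ⟨g, -, rfl⟩ := Finset.mem_image.mp hv
    exact sq_nonneg _
  -- the classes
  set C : ℝ → Set (GL (Fin 2) ℂ) :=
    fun v => {g | ‖((g : GL (Fin 2) ℂ) : Matrix (Fin 2) (Fin 2) ℂ).trace‖ ^ 2 = v} with hC
  set n : ℕ := Fintype.card ρ.range with hn
  have hnpos : 0 < n := Fintype.card_pos
  have hcardR : Nat.card ↥(Set.range ρ) = n := by
    rw [hn, ← Nat.card_eq_fintype_card]
    exact Nat.card_congr (Equiv.setCongr (MonoidHom.coe_range ρ).symm)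
  have hcardC : ∀ v : ℝ, Nat.card ↥(C v ∩ Set.range ρ) =
      (Finset.univ.filter fun g : ρ.range => F g = v).card := by
    intro v
    rw [← Fintype.card_subtype, ← Nat.card_eq_fintype_card]
    refine Nat.card_congr
      { toFun := fun x => ⟨⟨x.1, (MonoidHom.mem_range).mpr x.2.2⟩, x.2.1⟩
        invFun := fun y => ⟨y.1.1, y.2, (MonoidHom.mem_range).mp y.1.2⟩
        left_inv := fun x => rfl
        right_inv := fun y => rfl }
  -- weights
  set w : ℝ → ℝ := fun v =>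
    (Nat.card ↥(C v ∩ Set.range ρ) : ℝ) / (Nat.card ↥(Set.range ρ) : ℝ) with hw
  have hwsum : 2 ≤ ∑ v ∈ V, v * w v := by
    have h1 : ∑ g : ρ.range, F g =
        ∑ v ∈ V, ((Finset.univ.filter fun g : ρ.range => F g = v).card : ℝ) * v := by
      have := Finset.sum_comp (s := (Finset.univ : Finset ρ.range)) (fun x : ℝ => x) F
      simp only [nsmul_eq_mul] at this
      exact this
    have h2 : ∑ v ∈ V, v * w v = (∑ g : ρ.range, F g) / n := by
      rw [h1, Finset.sum_div]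
      refine Finset.sum_congr rfl fun v _ => ?_
      rw [hw]
      simp only
      rw [hcardC v, hcardR]
      ring
    rw [h2, le_div_iff₀ (by exact_mod_cast hnpos)]
    exact hsum
  -- lower densities
  set S : Finset ℕ := N.primeFactors with hS
  have hdens : ∀ v : ℝ, HasLowerDensity (frobPrimesHom ρ (C v) S) (w v) :=
    fun v => hCheb (GL (Fin 2) ℂ) ρ E hE hρE (C v) S
  have hmemX : ∀ v : ℝ, ∀ p ∈ frobPrimesHom ρ (C v) S,
      p.Prime ∧ ¬ p ∣ N ∧ ‖ModularFormClass.qCoeff f p‖ ^ 2 = v := by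
    rintro v p ⟨hp, hpS, A, τ, hA, hτ, -, hτC⟩
    have hpN : ¬ p ∣ N := fun hd => hpS (Nat.mem_primeFactors.mpr ⟨hp, hd, hN⟩)
    refine ⟨hp, hpN, ?_⟩
    rw [← ((hatt p hp hpN A hA).2 τ hτ).1]
    exact hτC
  -- Rankin
  obtain ⟨C₀, hR⟩ := hRankin N ε f hyp
  set M₀ : ℝ := ∑ v ∈ V, v with hM₀
  have hM₀nonneg : 0 ≤ M₀ := Finset.sum_nonneg hVnonneg
  set δ₀ : ℝ := 1 / (4 * (M₀ + 1)) with hδ₀
  have hδ₀pos : 0 < δ₀ := by rw [hδ₀]; positivity
  have hδ₀M : δ₀ * M₀ ≤ 1 / 4 := by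
    rw [hδ₀, div_mul_eq_mul_div, one_mul, div_le_iff₀ (by positivity)]
    linarith
  obtain ⟨δ, hδ, hall⟩ := exists_common_delta V
    (fun v s => ∃ T : Finset ℕ, (∀ p ∈ T, p ∈ frobPrimesHom ρ (C v) S) ∧
      (w v - δ₀) * Real.log (1 / (s - 1)) ≤ ∑ p ∈ T, (p : ℝ) ^ (-s))
    (fun v _ => hdens v δ₀ hδ₀pos)
  -- the choice of `s`
  set t : ℝ := min (min δ 1) (Real.exp (-(2 * |C₀| + 1))) / 2 with ht
  have hmin : 0 < min (min δ 1) (Real.exp (-(2 * |C₀| + 1))) :=
    lt_min (lt_min hδ one_pos) (Real.exp_pos _)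
  have htpos : 0 < t := by rw [ht]; linarith
  have htδ : t < δ := by
    have h1 : min (min δ 1) (Real.exp (-(2 * |C₀| + 1))) ≤ δ :=
      (min_le_left _ _).trans (min_le_left _ _)
    rw [ht]; linarith
  have ht1 : t ≤ 1 := by
    have h1 : min (min δ 1) (Real.exp (-(2 * |C₀| + 1))) ≤ 1 :=
      (min_le_left _ _).trans (min_le_right _ _)
    rw [ht]; linarith
  have htexp : t < Real.exp (-(2 * |C₀| + 1)) := by
    have h1 : min (min δ 1) (Real.exp (-(2 * |C₀| + 1))) ≤ Real.exp (-(2 * |C₀| + 1)) :=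
      min_le_right _ _
    rw [ht]; linarith
  set s : ℝ := 1 + t with hs
  have hs1 : 1 < s := by rw [hs]; linarith
  have hs2 : s ≤ 2 := by rw [hs]; linarith
  have hsδ : s < 1 + δ := by rw [hs]; linarith
  set L : ℝ := Real.log (1 / (s - 1)) with hL
  have hLbig : 2 * |C₀| + 1 < L := by
    have h1 : s - 1 = t := by rw [hs]; ring
    rw [hL, h1, one_div, Real.log_inv, lt_neg]
    have h2 : Real.log t < Real.log (Real.exp (-(2 * |C₀| + 1))) :=
      Real.log_lt_log htpos htexp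
    rw [Real.log_exp] at h2
    exact h2
  have hLpos : 0 < L := by
    have := abs_nonneg C₀
    linarith
  -- the finite sets of primes
  have hex : ∀ v : ℝ, ∃ T : Finset ℕ, v ∈ V → ((∀ p ∈ T, p ∈ frobPrimesHom ρ (C v) S) ∧
      (w v - δ₀) * L ≤ ∑ p ∈ T, (p : ℝ) ^ (-s)) := by
    intro v
    by_cases hv : v ∈ V
    · obtain ⟨T, hT1, hT2⟩ := hall v hv s hs1 hsδ
      exact ⟨T, fun _ => ⟨hT1, hT2⟩⟩
    · exact ⟨∅, fun h => absurd h hv⟩
  choose T hT using hex
  have hdisj : Set.PairwiseDisjoint (V : Set ℝ) T := by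
    intro v hv v' hv' hne
    rw [Function.onFun, Finset.disjoint_left]
    intro p hp hp'
    have h1 := (hmemX v p ((hT v hv).1 p hp)).2.2
    have h2 := (hmemX v' p ((hT v' hv').1 p hp')).2.2
    exact hne (h1.symm.trans h2)
  set TT : Finset ℕ := V.biUnion T with hTT
  have hTTprime : ∀ p ∈ TT, p.Prime ∧ ¬ p ∣ N := by
    intro p hp
    obtain ⟨v, hv, hpv⟩ := Finset.mem_biUnion.mp hp
    have := hmemX v p ((hT v hv).1 p hpv)
    exact ⟨this.1, this.2.1⟩
  have hRk := hR s hs1 hs2 TT hTTprime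
  have hlow : (∑ v ∈ V, v * (w v - δ₀)) * L ≤
      ∑ p ∈ TT, ‖ModularFormClass.qCoeff f p‖ ^ 2 * (p : ℝ) ^ (-s) := by
    rw [hTT, Finset.sum_biUnion hdisj, Finset.sum_mul]
    refine Finset.sum_le_sum fun v hv => ?_
    have h1 : ∑ p ∈ T v, ‖ModularFormClass.qCoeff f p‖ ^ 2 * (p : ℝ) ^ (-s) =
        v * ∑ p ∈ T v, (p : ℝ) ^ (-s) := by
      rw [Finset.mul_sum]
      refine Finset.sum_congr rfl fun p hp => ?_
      rw [(hmemX v p ((hT v hv).1 p hp)).2.2]
    rw [h1, mul_assoc]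
    exact mul_le_mul_of_nonneg_left (hT v hv).2 (hVnonneg v hv)
  have hcoef : 7 / 4 ≤ ∑ v ∈ V, v * (w v - δ₀) := by
    have h1 : ∑ v ∈ V, v * (w v - δ₀) = (∑ v ∈ V, v * w v) - δ₀ * M₀ := by
      rw [hM₀, Finset.mul_sum, ← Finset.sum_sub_distrib]
      refine Finset.sum_congr rfl fun v _ => ?_
      ring
    rw [h1]
    linarith
  have h1 : 7 / 4 * L ≤ L + C₀ :=
    (mul_le_mul_of_nonneg_right hcoef hLpos.le).trans (hlow.trans hRk)
  have h2 : C₀ ≤ |C₀| := le_abs_self C₀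
  have h3 := abs_nonneg C₀
  linarith

/-- (IRR) -/
theorem irreduciblePiece : IrreduciblePiece := by
  intro hRankin hCheb N _ ε f hyp ρ hFL hatt
  exact isIrreducible_of_no_stable_line ρ
    (no_stable_line hRankin hCheb N ε f hyp ρ hFL hatt)

end Fermat.Agent.S48.H948

end
-- ===== PACK-END S48/H948/Irr2.lean

-- ===== PACK-BEGIN S48/H548/Per1Transfer.lean
section


/-!
# S48 / RES, node M4a1 input PER1 (helper548): the Hecke operator `T_p` on `Hom(Γ₁(M), A)`

Coset representatives of `T_p` on `Γ₁(M)`: `heckeRep1 x = σ_x β_x`, with `β_x` the standard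
representatives (`(1 j; 0 p)`, `(p 0; 0 1)`), `σ_∞ = σ_p ∈ Γ₀(M)` (lower right entry `≡ p`),
`σ_j = 1`.  For `γ ∈ Γ₁(M)`: `heckeRep1 x * γ = t * heckeRep1 (γ • x)` with a unique
`t = trf1 γ x ∈ Γ₁(M)`, and `(heckeHom1 p φ) γ = ∑ x, φ (trf1 γ x)`.
(Port of S29/H201/Transfer to `Γ₁(M)`.)
-/

set_option autoImplicit false
set_option linter.unusedSectionVars false

noncomputable section

namespace Fermat.Agent.S48.H548

open CongruenceSubgroup Matrix.SpecialLinearGroup UpperHalfPlane ModularForm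
open scoped MatrixGroups OnePoint

variable {M : ℕ} [NeZero M] {p : ℕ} [Fact p.Prime]

/-- The twisting elements `σ_x`. -/
def sigTw (hpM : ¬ p ∣ M) (x : OnePoint (ZMod p)) : SL(2, ℤ) :=
  x.elim (sigmaP M p hpM) (fun _ ↦ 1)

@[simp] theorem sigTw_infty (hpM : ¬ p ∣ M) : sigTw hpM (∞ : OnePoint (ZMod p)) = sigmaP M p hpM :=
  rfl

@[simp] theorem sigTw_coe (hpM : ¬ p ∣ M) (j : ZMod p) :
    sigTw hpM (j : OnePoint (ZMod p)) = 1 := rfl

theorem sigTw_mem (hpM : ¬ p ∣ M) (x : OnePoint (ZMod p)) : sigTw hpM x ∈ Gamma0 M := by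
  induction x using OnePoint.rec with
  | infty => exact sigmaP_mem hpM
  | coe j => exact (Gamma0 M).one_mem

/-- `(σ_x)₁₁ w(x) = p`. -/
theorem sigTw_lower_mul_wt (hpM : ¬ p ∣ M) (x : OnePoint (ZMod p)) :
    (((sigTw hpM x) 1 1 : ℤ) : ZMod M) * wt M p x = (p : ZMod M) := by
  induction x using OnePoint.rec with
  | infty => rw [sigTw_infty, wt_infty, mul_one, sigmaP_lower]
  | coe j => simp

/-- The coset representatives of `T_p` for `Γ₁(M)`. -/
def heckeRep1 (hpM : ¬ p ∣ M) (x : OnePoint (ZMod p)) : GL (Fin 2) ℝ :=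
  mapGL ℝ (sigTw hpM x) * heckeRep p x

theorem wt_isUnit (hpM : ¬ p ∣ M) (x : OnePoint (ZMod p)) : IsUnit (wt M p x) := by
  have hpu : IsUnit ((p : ℕ) : ZMod M) :=
    (ZMod.isUnit_iff_coprime p M).mpr ((Nat.Prime.coprime_iff_not_dvd Fact.out).mpr hpM)
  induction x using OnePoint.rec with
  | infty => exact isUnit_one
  | coe j => exact hpu

theorem exists_trf1 (hpM : ¬ p ∣ M) (γ : Gamma1 M) (x : OnePoint (ZMod p)) :
    ∃ t : Gamma1 M, heckeRep1 hpM x * mapGL ℝ (γ : SL(2, ℤ))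
      = mapGL ℝ (t : SL(2, ℤ)) * heckeRep1 hpM (redMatrix p (γ : SL(2, ℤ)) • x) := by
  have hγ := (Gamma1_mem M (γ : SL(2, ℤ))).mp γ.2
  have hγN : (M : ℤ) ∣ (γ : SL(2, ℤ)) 1 0 := (ZMod.intCast_zmod_eq_zero_iff_dvd _ _).mp hγ.2.2
  obtain ⟨g', hg'N, hw, hmul⟩ := heckeRep_mul hpM (γ : SL(2, ℤ)) hγN x
  have hg'0 : g' ∈ Gamma0 M := Gamma0_mem.mpr ((ZMod.intCast_zmod_eq_zero_iff_dvd _ _).mpr hg'N)
  rw [hγ.2.1, one_mul] at hw
  set x' := redMatrix p (γ : SL(2, ℤ)) • x with hx'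
  have hmem0 : sigTw hpM x * g' * (sigTw hpM x')⁻¹ ∈ Gamma0 M :=
    (Gamma0 M).mul_mem ((Gamma0 M).mul_mem (sigTw_mem hpM x) hg'0)
      ((Gamma0 M).inv_mem (sigTw_mem hpM x'))
  have hmem : sigTw hpM x * g' * (sigTw hpM x')⁻¹ ∈ Gamma1 M := by
    refine mem_Gamma1_of_lower _ (Gamma0_mem.mp hmem0) ?_
    rw [lower_right_mul _ _ ((Gamma0 M).mul_mem (sigTw_mem hpM x) hg'0),
      lower_right_mul _ _ (sigTw_mem hpM x), lower_right_inv]
    -- `s(x) g' s(x')⁻¹ = 1`
    have h1 := sigTw_lower_mul_wt hpM x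
    have h2 := sigTw_lower_mul_wt hpM x'
    have h3 := lower_right_isUnit (sigTw hpM x') (sigTw_mem hpM x')
    have hu := wt_isUnit hpM x
    have hu' := wt_isUnit hpM x'
    -- multiply by the unit `s(x') w(x) w(x')`
    have h4 : (((sigTw hpM x) 1 1 : ℤ) : ZMod M) * ((g' 1 1 : ℤ) : ZMod M) =
        (((sigTw hpM x') 1 1 : ℤ) : ZMod M) := by
      apply (hu.mul hu').mul_left_injective
      show _ * (wt M p x * wt M p x') = _ * (wt M p x * wt M p x')
      calc (((sigTw hpM x) 1 1 : ℤ) : ZMod M) * ((g' 1 1 : ℤ) : ZMod M) *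
            (wt M p x * wt M p x')
          = ((((sigTw hpM x) 1 1 : ℤ) : ZMod M) * wt M p x) *
              (((g' 1 1 : ℤ) : ZMod M) * wt M p x') := by ring
        _ = (p : ZMod M) * wt M p x := by rw [h1, hw]
        _ = ((((sigTw hpM x') 1 1 : ℤ) : ZMod M) * wt M p x') * wt M p x := by rw [h2]
        _ = _ := by ring
    rw [h4, mul_comm]
    exact h3
  refine ⟨⟨_, hmem⟩, ?_⟩
  show mapGL ℝ (sigTw hpM x) * heckeRep p x * mapGL ℝ (γ : SL(2, ℤ)) =
    mapGL ℝ (sigTw hpM x * g' * (sigTw hpM x')⁻¹) * (mapGL ℝ (sigTw hpM x') * heckeRep p x')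
  rw [mul_assoc, hmul, map_mul, map_mul, map_inv]
  group

/-- The transfer element: `heckeRep1 x * γ = trf1 γ x * heckeRep1 (γ • x)`. -/
def trf1 (hpM : ¬ p ∣ M) (γ : Gamma1 M) (x : OnePoint (ZMod p)) : Gamma1 M :=
  (exists_trf1 hpM γ x).choose

theorem trf1_spec (hpM : ¬ p ∣ M) (γ : Gamma1 M) (x : OnePoint (ZMod p)) :
    heckeRep1 hpM x * mapGL ℝ (γ : SL(2, ℤ))
      = mapGL ℝ ((trf1 hpM γ x : Gamma1 M) : SL(2, ℤ))
        * heckeRep1 hpM (redMatrix p (γ : SL(2, ℤ)) • x) :=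
  (exists_trf1 hpM γ x).choose_spec

theorem trf1_unique (hpM : ¬ p ∣ M) (γ t : Gamma1 M) (x : OnePoint (ZMod p))
    (h : heckeRep1 hpM x * mapGL ℝ (γ : SL(2, ℤ))
      = mapGL ℝ (t : SL(2, ℤ)) * heckeRep1 hpM (redMatrix p (γ : SL(2, ℤ)) • x)) :
    t = trf1 hpM γ x := by
  have h2 := trf1_spec hpM γ x
  rw [h] at h2
  have h3 := mul_right_cancel h2
  exact Subtype.ext (mapGL_injective h3)

theorem redMatrix_mul548 (g g' : SL(2, ℤ)) :
    redMatrix p (g * g') = redMatrix p g' * redMatrix p g := by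
  apply Matrix.GeneralLinearGroup.ext
  intro i j
  rw [Matrix.GeneralLinearGroup.coe_mul]
  fin_cases i <;> fin_cases j <;>
    simp [redMatrix, Matrix.mul_apply, Fin.sum_univ_two] <;> ring

theorem redMatrix_one548 : redMatrix p (1 : SL(2, ℤ)) = 1 := by
  apply Matrix.GeneralLinearGroup.ext
  intro i j
  fin_cases i <;> fin_cases j <;> simp [redMatrix]

theorem trf1_one (hpM : ¬ p ∣ M) (x : OnePoint (ZMod p)) : trf1 hpM (1 : Gamma1 M) x = 1 := by
  symm
  apply trf1_unique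
  simp [redMatrix_one548]

theorem trf1_mul (hpM : ¬ p ∣ M) (γ γ' : Gamma1 M) (x : OnePoint (ZMod p)) :
    trf1 hpM (γ * γ') x
      = trf1 hpM γ x * trf1 hpM γ' (redMatrix p (γ : SL(2, ℤ)) • x) := by
  symm
  apply trf1_unique
  have h1 := trf1_spec hpM γ x
  have h2 := trf1_spec hpM γ' (redMatrix p (γ : SL(2, ℤ)) • x)
  calc heckeRep1 hpM x * mapGL ℝ ((γ * γ' : Gamma1 M) : SL(2, ℤ))
      = (heckeRep1 hpM x * mapGL ℝ (γ : SL(2, ℤ))) * mapGL ℝ (γ' : SL(2, ℤ)) := by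
        rw [Subgroup.coe_mul, map_mul, mul_assoc]
    _ = mapGL ℝ ((trf1 hpM γ x : Gamma1 M) : SL(2, ℤ)) *
          (heckeRep1 hpM (redMatrix p (γ : SL(2, ℤ)) • x) * mapGL ℝ (γ' : SL(2, ℤ))) := by
        rw [h1, mul_assoc]
    _ = mapGL ℝ ((trf1 hpM γ x : Gamma1 M) : SL(2, ℤ)) *
          (mapGL ℝ ((trf1 hpM γ' (redMatrix p (γ : SL(2, ℤ)) • x) : Gamma1 M) : SL(2, ℤ)) *
            heckeRep1 hpM (redMatrix p (γ' : SL(2, ℤ)) • redMatrix p (γ : SL(2, ℤ)) • x)) := by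
        rw [h2]
    _ = _ := by
        rw [Subgroup.coe_mul, map_mul, Subgroup.coe_mul, redMatrix_mul548, mul_smul, mul_assoc]

/-- The permutation of `ℙ¹(𝔽_p)` induced by `γ`. -/
def permOf1 (γ : Gamma1 M) : Equiv.Perm (OnePoint (ZMod p)) :=
  MulAction.toPerm (redMatrix p (γ : SL(2, ℤ)))

theorem permOf1_apply (γ : Gamma1 M) (x : OnePoint (ZMod p)) :
    permOf1 γ x = redMatrix p (γ : SL(2, ℤ)) • x := rfl

/-- The Hecke operator `T_p` on `Hom(Γ₁(M), A)` defined by the transfer formula. -/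
def heckeHom1 (p : ℕ) [Fact p.Prime] (hpM : ¬ p ∣ M) (A : Type*) [AddCommGroup A] :
    (Additive (Gamma1 M) →+ A) →+ (Additive (Gamma1 M) →+ A) where
  toFun φ :=
    { toFun := fun γ ↦ ∑ x : OnePoint (ZMod p), φ (Additive.ofMul (trf1 hpM (Additive.toMul γ) x))
      map_zero' := by
        show ∑ x : OnePoint (ZMod p), φ (Additive.ofMul (trf1 hpM (1 : Gamma1 M) x)) = 0
        simp [trf1_one]
      map_add' := fun γ γ' ↦ by
        show ∑ x : OnePoint (ZMod p),
            φ (Additive.ofMul (trf1 hpM (Additive.toMul γ * Additive.toMul γ') x)) = _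
        simp only [trf1_mul, ofMul_mul, map_add, Finset.sum_add_distrib]
        congr 1
        exact Equiv.sum_comp (permOf1 (Additive.toMul γ))
          (fun y ↦ φ (Additive.ofMul (trf1 hpM (Additive.toMul γ') y))) }
  map_zero' := by
    ext γ
    simp
  map_add' φ ψ := by
    ext γ
    simp [Finset.sum_add_distrib]

theorem heckeHom1_apply (hpM : ¬ p ∣ M) {A : Type*} [AddCommGroup A]
    (φ : Additive (Gamma1 M) →+ A) (γ : Gamma1 M) :
    heckeHom1 p hpM A φ (Additive.ofMul γ)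
      = ∑ x : OnePoint (ZMod p), φ (Additive.ofMul (trf1 hpM γ x)) := rfl

/-- Functoriality of `heckeHom1` in the coefficient group. -/
theorem heckeHom1_comp (hpM : ¬ p ∣ M) {A B : Type*} [AddCommGroup A] [AddCommGroup B]
    (u : A →+ B) (φ : Additive (Gamma1 M) →+ A) :
    heckeHom1 p hpM B (u.comp φ) = u.comp (heckeHom1 p hpM A φ) := by
  ext γ
  show ∑ x : OnePoint (ZMod p), u (φ _) = u (∑ x : OnePoint (ZMod p), φ _)
  rw [map_sum]

/-! ### The diamond operators on `Hom(Γ₁(M), A)` -/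

theorem conj_mem_Gamma1 (a : SL(2, ℤ)) (ha : a ∈ Gamma0 M) (γ : Gamma1 M) :
    a * (γ : SL(2, ℤ)) * a⁻¹ ∈ Gamma1 M := by
  have hγ0 : (γ : SL(2, ℤ)) ∈ Gamma0 M := Gamma1_le_Gamma0' M γ.2
  refine mem_Gamma1_of_lower _ (Gamma0_mem.mp ((Gamma0 M).mul_mem ((Gamma0 M).mul_mem ha hγ0)
    ((Gamma0 M).inv_mem ha))) ?_
  rw [lower_right_mul _ _ ((Gamma0 M).mul_mem ha hγ0), lower_right_mul _ _ ha, lower_right_inv,
    ((Gamma1_mem M (γ : SL(2, ℤ))).mp γ.2).2.1, mul_one, mul_comm]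
  exact lower_right_isUnit a ha

/-- Conjugation by `a ∈ Γ₀(M)` on `Γ₁(M)`. -/
def conj1 (a : SL(2, ℤ)) (ha : a ∈ Gamma0 M) : Gamma1 M →* Gamma1 M where
  toFun γ := ⟨a * (γ : SL(2, ℤ)) * a⁻¹, conj_mem_Gamma1 a ha γ⟩
  map_one' := by
    apply Subtype.ext
    simp
  map_mul' γ γ' := by
    apply Subtype.ext
    simp only [Subgroup.coe_mul]
    group

@[simp] theorem coe_conj1 (a : SL(2, ℤ)) (ha : a ∈ Gamma0 M) (γ : Gamma1 M) :
    ((conj1 a ha γ : Gamma1 M) : SL(2, ℤ)) = a * (γ : SL(2, ℤ)) * a⁻¹ := rfl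

/-- The diamond operator on `Hom(Γ₁(M), A)`: `(⟨a⟩ φ)(γ) = φ(a γ a⁻¹)`. -/
def diaHom1 (a : SL(2, ℤ)) (ha : a ∈ Gamma0 M) (A : Type*) [AddCommGroup A] :
    (Additive (Gamma1 M) →+ A) →+ (Additive (Gamma1 M) →+ A) where
  toFun φ := φ.comp (MonoidHom.toAdditive (conj1 a ha))
  map_zero' := rfl
  map_add' _ _ := rfl

theorem diaHom1_apply (a : SL(2, ℤ)) (ha : a ∈ Gamma0 M) {A : Type*} [AddCommGroup A]
    (φ : Additive (Gamma1 M) →+ A) (γ : Gamma1 M) :
    diaHom1 a ha A φ (Additive.ofMul γ) = φ (Additive.ofMul (conj1 a ha γ)) := rfl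

end Fermat.Agent.S48.H548

end
end
-- ===== PACK-END S48/H548/Per1Transfer.lean

-- ===== PACK-BEGIN S48/Res/PartsOcc.lean
section




/-!
# S48 / RES (Tower A1) — the inputs of `Occ1Statement true`, as `Prop`s (helper168)

  `Res.occ1_of_parts : Eigenclass1Statement → M4b1Statement → Occ1Statement true`

is PROVED in `Fermat/Agent/S48/Res/ChainOcc.lean` (sorry-free).

* `Eigenclass1Statement` = node M4a1 applied to `g₀ = h · E` (PACKET + P2-EIS + TEICH + CHI0 +
  `H548.exists_eigenclass_mul`): for every large `ℓ` a nonzero parabolic eigenclass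
  `cl : Γ₁(M) → F` for `T_p` (`H548.heckeHom1`, standard coset representatives) with eigenvalue
  `ψ(a_p)` and with `p · cl(σ γ σ⁻¹) = ψ(ε(p)) cl(γ)` (`σ = H548.sigmaP M p ∈ Γ₀(M)`, lower right
  entry `≡ p`).
* `M4b1Statement` = the Kummer map `κ : Hom_par(Γ₁(M), ℤ/ℓ) → J₁(M)[ℓ]` (port of S29 `M4b`):
  additive, injective, and (orientation: `coord/S48-F1.md` §3(d))
    `T_p (κ (c ∘ conj σ)) = κ (T_p c)`,   `⟨p⟩ (κ (c ∘ conj σ)) = κ c`,
  where `T_p = heckeT M ℓ p = α_* β^*` and `⟨p⟩ = diamondT M ℓ p` on the left hand sides.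
  Proof sketch: `U_c` Kummer function of `c` (`U_c(γ z) = ζ^{c γ} U_c(z)`, `κ c = [div(U_c^ℓ)/ℓ]`);
  `U_c ∘ σ` is a Kummer function of `c ∘ conj σ` and `(f ↦ f ∘ σ) = diamondAut p⁻¹`;
  `Nm_α (β U^ℓ) = ∏ U^ℓ ∘ (diag(p,1) γᵢ)`, and `Γ₁ diag(p,1) Γ₁ = σ⁻¹ · Γ₁ diag(1,p) Γ₁`.
-/

set_option autoImplicit false

noncomputable section

open CongruenceSubgroup ModularCurve AlgebraicCurve ModularCurve.Period
open scoped TensorProduct MatrixGroups

namespace Fermat.Agent.S48.Res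

open Fermat.Agent.S48.F1 Fermat.Agent.S48.Top Fermat.Agent.S48.H548

/-- Parabolic additive characters of `Γ₁(M)` vanishing on the elements of finite order. -/
def IsPar1 {M : ℕ} {A : Type*} [AddCommGroup A] (c : Additive (Gamma1 M) →+ A) : Prop :=
  IsParabolicHom (Gamma1 M) c ∧ ∀ γ : Gamma1 M, IsOfFinOrder γ → c (Additive.ofMul γ) = 0

/-- **EIGENCLASS1** (node M4a1 for `g₀ = h · E`, all inputs plugged in). -/
def Eigenclass1Statement : Prop :=
  ∀ (N : ℕ) [NeZero N] (ε : DirichletCharacter ℂ N) (f : CuspForm (Gamma1 N) 1),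
    IsEigen N ε f → ∃ B : ℕ, ∀ ℓ : ℕ, ℓ.Prime → B < ℓ →
      ∀ (F : Type) [Field F] [IsAlgClosed F] [CharP F ℓ] (ψ : Zbar →+* F),
        ∃ (M : ℕ) (_ : NeZero M) (a e : ℕ → Zbar),
          (∀ p : ℕ, p.Prime → p ∣ M → p ∣ N * ℓ) ∧
          (∀ p : ℕ, p.Prime → ¬ p ∣ N * ℓ →
            ((a p : Zbar) : ℂ) = ModularFormClass.qCoeff f p ∧
            ((e p : Zbar) : ℂ) = ε (p : ZMod N)) ∧
          ∃ cl : Additive (Gamma1 M) →+ F, cl ≠ 0 ∧ IsPar1 cl ∧
            ∀ (p : ℕ) [Fact p.Prime] (hpM : ¬ p ∣ M), ¬ p ∣ N * ℓ →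
              ∀ γ : Additive (Gamma1 M),
                heckeHom1 p hpM F cl γ = ψ (a p) * cl γ ∧
                (p : F) * diaHom1 (sigmaP M p hpM) (sigmaP_mem hpM) F cl γ = ψ (e p) * cl γ

/-- **M4b1** (the Kummer map for `Γ₁(M)`, with its Hecke and diamond equivariance). -/
def M4b1Statement : Prop :=
  ∀ (M ℓ : ℕ) [NeZero M], ℓ.Prime →
    ∃ κ : (Additive (Gamma1 M) →+ ZMod ℓ) → J1T M ℓ,
      (∀ c c', IsPar1 c → IsPar1 c' → κ (c + c') = κ c + κ c') ∧
      (∀ c, IsPar1 c → κ c = 0 → c = 0) ∧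
      ∀ (p : ℕ) [Fact p.Prime] (hpM : ¬ p ∣ M), p ≠ ℓ → ∀ c, IsPar1 c →
        heckeT M ℓ p (κ (diaHom1 (sigmaP M p hpM) (sigmaP_mem hpM) (ZMod ℓ) c))
            = κ (heckeHom1 p hpM (ZMod ℓ) c) ∧
          diamondT M ℓ (unitOf M p)
            (κ (diaHom1 (sigmaP M p hpM) (sigmaP_mem hpM) (ZMod ℓ) c)) = κ c

end Fermat.Agent.S48.Res

end
end
-- ===== PACK-END S48/Res/PartsOcc.lean

-- ===== PACK-BEGIN S48/H188/M4a1.lean
section




/-!
# S48 / Tower A1, node M4a1 (helper188): the parabolic eigenclass on `Γ₁(M)`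

`exists_eigenclass` : from the inputs PER1 + COMM (`PeriodInputs M`: an injective, parabolic,
linear period map on `S₂(Γ₁(M))` with transfer formulas for the generators of helper548's Hecke
algebra `heckeAlg1 M 2`, and commutativity of the generators) and ANY ring homomorphism
`χ : heckeAlg1 M 2 →+* F` (`F` a field of characteristic `ℓ > 0`) we get a nonzero parabolic
homomorphism `c : Γ₁(M) → F`, vanishing on elements of finite order, which is a `χ`-eigenclass:
`∑ᵢ c (wᵢ) = χ t * c γ` for every transfer formula `per (t g) γ = ∑ᵢ per g (wᵢ)`.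
-/

set_option autoImplicit false
set_option linter.style.haveILetI false

open CongruenceSubgroup Matrix.SpecialLinearGroup ModularCurve.Period
open scoped MatrixGroups

namespace Fermat.Agent.S48.H188

noncomputable section

open Fermat.Agent.S48.H548 (heckeGens heckeAlg1)

/-- `SL(2, ℤ)` is finitely generated (by `S` and `T`). -/
theorem fg_SL2Z : Group.FG SL(2, ℤ) := by
  rw [Group.fg_iff]
  exact ⟨{ModularGroup.S, ModularGroup.T}, SpecialLinearGroup.SL2Z_generators, by simp⟩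

/-- `Γ₁(M)` is finitely generated. -/
theorem fg_Gamma1 (M : ℕ) [NeZero M] : AddGroup.FG (Additive (Gamma1 M)) := by
  haveI := fg_SL2Z
  haveI : Group.FG (Gamma1 M) := inferInstance
  exact AddGroup.fg_iff_mul_fg.mpr ‹_›

/-- The inputs PER1 + COMM of node M4a1. -/
structure PeriodInputs (M : ℕ) [NeZero M] : Type where
  /-- the period map -/
  per : CuspForm (Gamma1 M) 2 →ₗ[ℂ] (Additive (Gamma1 M) →+ ℂ)
  inj : Function.Injective per
  par : ∀ g, IsParabolicHom (Gamma1 M) (per g)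
  comm : ∀ x ∈ heckeGens M 2, ∀ y ∈ heckeGens M 2, x * y = y * x
  transfer : ∀ t ∈ heckeGens M 2, ∀ γ : Additive (Gamma1 M),
    ∃ (ι : Type) (s : Finset ι) (w : ι → Additive (Gamma1 M)),
      ∀ g : CuspForm (Gamma1 M) 2, per (t g) γ = ∑ i ∈ s, per g (w i)

/-- An additive map to a `ℂ`-valued... (characteristic zero): periods vanish on elements of
finite order. -/
theorem per_eq_zero_of_isOfFinOrder {G : Type*} [Group G] (φ : Additive G →+ ℂ) (γ : G)
    (hγ : IsOfFinOrder γ) : φ (Additive.ofMul γ) = 0 := by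
  obtain ⟨n, hn, hγn⟩ := hγ.exists_pow_eq_one
  have h2 : φ (Additive.ofMul (γ ^ n)) = n • φ (Additive.ofMul γ) := by
    rw [ofMul_pow, map_nsmul]
  rw [hγn, ofMul_one, map_zero, nsmul_eq_mul] at h2
  rcases mul_eq_zero.mp h2.symm with h | h
  · exact absurd (by exact_mod_cast h) hn.ne'
  · exact h

/-- **Node M4a1**: the parabolic `χ`-eigenclass on `Γ₁(M)` with coefficients in `F`. -/
theorem exists_eigenclass {M : ℕ} [NeZero M] (D : PeriodInputs M)
    {F : Type*} [Field F] (ℓ : ℕ) [Fact ℓ.Prime] [CharP F ℓ] (χ : heckeAlg1 M 2 →+* F) :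
    ∃ c : Additive (Gamma1 M) →+ F, c ≠ 0 ∧ IsParabolicHom (Gamma1 M) c ∧
      (∀ γ : Gamma1 M, IsOfFinOrder γ → c (Additive.ofMul γ) = 0) ∧
      (∀ γ : Additive (Gamma1 M), (∀ g, D.per g γ = 0) → c γ = 0) ∧
      ∀ (t : heckeAlg1 M 2) (γ : Additive (Gamma1 M)) (ι : Type) (s : Finset ι)
        (w : ι → Additive (Gamma1 M)),
        (∀ g, D.per ((t : Module.End ℂ (CuspForm (Gamma1 M) 2)) g) γ = ∑ i ∈ s, D.per g (w i)) →
          ∑ i ∈ s, c (w i) = χ t * c γ := by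
  obtain ⟨c, hc0, hker, heig⟩ := exists_eigen_hom_of_per (fg_Gamma1 M) D.per D.inj
    (heckeGens M 2) D.comm D.transfer ℓ χ
  refine ⟨c, hc0, fun γ hγ => hker _ fun g => D.par g γ hγ,
    fun γ hγ => hker _ fun g => per_eq_zero_of_isOfFinOrder (D.per g) γ hγ, hker, heig⟩

/-! ### Coordinates over the prime field -/

/-- The values of an additive character of a finitely generated group lie in the span of the values
on a generating set. -/
theorem mem_span_of_closure {G : Type*} [Group G] {R V : Type*} [Ring R] [AddCommGroup V]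
    [Module R V] (c : Additive G →+ V) (S : Set G) (hS : Subgroup.closure S = ⊤) (γ : G) :
    c (Additive.ofMul γ) ∈ Submodule.span R ((fun x : G => c (Additive.ofMul x)) '' S) := by
  have hγ : γ ∈ Subgroup.closure S := hS ▸ Subgroup.mem_top γ
  induction hγ using Subgroup.closure_induction with
  | mem x hx => exact Submodule.subset_span ⟨x, hx, rfl⟩
  | one => rw [ofMul_one, map_zero]; exact Submodule.zero_mem _
  | mul x y _ _ hx hy => rw [ofMul_mul, map_add]; exact Submodule.add_mem _ hx hy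
  | inv x _ hx => rw [ofMul_inv, map_neg]; exact Submodule.neg_mem _ hx

/-- An `F`-valued additive character of a finitely generated group, in coordinates over a subfield
`k` (finitely many `k`-valued characters with `k`-linearly independent coefficients). -/
theorem exists_coords {G : Type*} [Group G] [Group.FG G] {k F : Type*} [Field k] [Field F]
    [Algebra k F] (c : Additive G →+ F) :
    ∃ (n : ℕ) (w : Fin n → F) (cc : Fin n → Additive G →+ k),
      LinearIndependent k w ∧ (∀ γ, c γ = ∑ j, w j * algebraMap k F (cc j γ)) ∧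
      (∀ γ, c γ = 0 → ∀ j, cc j γ = 0) := by
  obtain ⟨S, hS, hSfin⟩ := Group.fg_iff.mp (inferInstance : Group.FG G)
  set W : Submodule k F :=
    Submodule.span k ((fun x : G => c (Additive.ofMul x)) '' S) with hW
  have hmem : ∀ γ : Additive G, c γ ∈ W := fun γ => mem_span_of_closure c S hS (Additive.toMul γ)
  haveI : Module.Finite k W := Module.Finite.span_of_finite k (hSfin.image _)
  let b := Module.finBasis k W
  let X : Additive G →+ W :=
    { toFun := fun γ => ⟨c γ, hmem γ⟩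
      map_zero' := Subtype.ext (map_zero c)
      map_add' := fun γ γ' => Subtype.ext (map_add c γ γ') }
  refine ⟨Module.finrank k W, fun j => (b j : F),
    fun j => ((Finsupp.applyAddHom j).comp (b.repr : W →+ (Fin _ →₀ k))).comp X, ?_, ?_, ?_⟩
  · exact b.linearIndependent.map' W.subtype (Submodule.ker_subtype W)
  · intro γ
    have h1 := congrArg (fun x : W => (x : F)) (b.sum_repr (X γ))
    simp only [Submodule.coe_sum, Submodule.coe_smul] at h1
    rw [show c γ = ((X γ : W) : F) from rfl, ← h1]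
    refine Finset.sum_congr rfl fun j _ => ?_
    rw [Algebra.smul_def, mul_comm]
    rfl
  · intro γ hγ j
    have h1 : X γ = 0 := Subtype.ext hγ
    show b.repr (X γ) j = 0
    rw [h1, map_zero, Finsupp.zero_apply]

/-- **Node M4a1, coordinate form** (shape of S29 `M4aStatement`): the `χ`-eigenclass written as
`∑ⱼ wⱼ ⊗ cⱼ` with parabolic `cⱼ : Γ₁(M) → 𝔽_ℓ` and `𝔽_ℓ`-linearly independent `wⱼ ∈ F`. -/
theorem exists_eigenclass_coords {M : ℕ} [NeZero M] (D : PeriodInputs M)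
    {F : Type*} [Field F] (ℓ : ℕ) [Fact ℓ.Prime] [CharP F ℓ] [Algebra (ZMod ℓ) F]
    (χ : heckeAlg1 M 2 →+* F) :
    ∃ (n : ℕ) (w : Fin n → F) (c : Fin n → Additive (Gamma1 M) →+ ZMod ℓ),
      LinearIndependent (ZMod ℓ) w ∧ (∃ j, c j ≠ 0) ∧
      (∀ j, IsParabolicHom (Gamma1 M) (c j)) ∧
      (∀ j (γ : Gamma1 M), IsOfFinOrder γ → c j (Additive.ofMul γ) = 0) ∧
      (∀ j (γ : Additive (Gamma1 M)), (∀ g, D.per g γ = 0) → c j γ = 0) ∧
      ∀ (t : heckeAlg1 M 2) (γ : Additive (Gamma1 M)) (ι : Type) (s : Finset ι)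
        (v : ι → Additive (Gamma1 M)),
        (∀ g, D.per ((t : Module.End ℂ (CuspForm (Gamma1 M) 2)) g) γ = ∑ i ∈ s, D.per g (v i)) →
          ∑ j, w j * algebraMap (ZMod ℓ) F (∑ i ∈ s, c j (v i))
            = χ t * ∑ j, w j * algebraMap (ZMod ℓ) F (c j γ) := by
  obtain ⟨c, hc0, hpar, hfin, hker, heig⟩ := exists_eigenclass D ℓ χ
  haveI : Group.FG (Gamma1 M) := by
    haveI := fg_SL2Z
    infer_instance
  obtain ⟨n, w, cc, hw, hsum, hzero⟩ := exists_coords (k := ZMod ℓ) c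
  refine ⟨n, w, cc, hw, ?_, fun j γ hγ => hzero _ (hpar γ hγ) j,
    fun j γ hγ => hzero _ (hfin γ hγ) j, fun j γ hγ => hzero _ (hker γ hγ) j, ?_⟩
  · by_contra hcon
    rw [not_exists] at hcon
    apply hc0
    refine AddMonoidHom.ext fun γ => ?_
    rw [hsum γ]
    refine Finset.sum_eq_zero fun j _ => ?_
    rw [not_not.mp (hcon j)]
    simp
  · intro t γ ι s v hv
    rw [← hsum γ, ← heig t γ ι s v hv]
    simp only [map_sum, Finset.mul_sum]
    rw [Finset.sum_comm]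
    refine Finset.sum_congr rfl fun i _ => ?_
    exact (hsum (v i)).symm

end

end Fermat.Agent.S48.H188

end
-- ===== PACK-END S48/H188/M4a1.lean

-- ===== PACK-BEGIN S48/H548/HCoh1.lean
section




/-!
# S48 / RES, node HCoh1 (helper548): `T_p` and `⟨a⟩` preserve parabolic homs on `Γ₁(M)`

`heckeHom1 p hpM A` (transfer) and `diaHom1 a ha A` (conjugation) map
`IsParabolicHom (Gamma1 M)` into itself, and preserve vanishing on elements of finite order.
(Port of S29 piece `HCoh` to `Γ₁(M)`; the generic factor-system lemmas are those of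
`S29/H149/HCoh.lean`.)
-/

set_option autoImplicit false
set_option linter.unusedSectionVars false

noncomputable section

namespace Fermat.Agent.S48.H548

open CongruenceSubgroup Matrix.SpecialLinearGroup ModularCurve.Period
open scoped MatrixGroups OnePoint

variable {M : ℕ} [NeZero M] {p : ℕ} [Fact p.Prime]

/-- The factor system of `T_p` on `Γ₁(M)`. -/
def fac1 (hpM : ¬ p ∣ M) (γ : Gamma1 M) (x : OnePoint (ZMod p)) :
    OnePoint (ZMod p) × Gamma1 M :=
  (redMatrix p (γ : SL(2, ℤ)) • x, trf1 hpM γ x)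

theorem isFactorSystem_fac1 (hpM : ¬ p ∣ M) :
    Fermat.Agent.S29.H149.HCoh_IsFactorSystem (fac1 (M := M) hpM) where
  one := fun x ↦ by
    simp [fac1, redMatrix_one548, trf1_one]
  mul := fun γ δ x ↦ by
    simp only [fac1, trf1_mul, Subgroup.coe_mul, redMatrix_mul548, mul_smul]

/-- Conjugate elements of `SL₂(ℤ)` (conjugate inside `GL₂(ℝ)`) have the same trace. -/
theorem trace_eq_of_mapGL_conj (g t : SL(2, ℤ)) (B : GL (Fin 2) ℝ)
    (h : B * mapGL ℝ g = mapGL ℝ t * B) :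
    (g : Matrix (Fin 2) (Fin 2) ℤ).trace = (t : Matrix (Fin 2) (Fin 2) ℤ).trace := by
  have h1 : mapGL ℝ t = B * mapGL ℝ g * B⁻¹ := by
    rw [h]; group
  have h2 : ((mapGL ℝ t : GL (Fin 2) ℝ) : Matrix (Fin 2) (Fin 2) ℝ).trace
      = ((mapGL ℝ g : GL (Fin 2) ℝ) : Matrix (Fin 2) (Fin 2) ℝ).trace := by
    rw [h1, Matrix.GeneralLinearGroup.coe_mul, Matrix.GeneralLinearGroup.coe_mul,
      Matrix.trace_mul_comm, ← Matrix.mul_assoc, ← Matrix.GeneralLinearGroup.coe_mul,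
      inv_mul_cancel, Matrix.GeneralLinearGroup.coe_one, Matrix.one_mul]
  have h3 : ∀ s : SL(2, ℤ), ((mapGL ℝ s : GL (Fin 2) ℝ) : Matrix (Fin 2) (Fin 2) ℝ).trace
      = (((s : Matrix (Fin 2) (Fin 2) ℤ).trace : ℤ) : ℝ) := by
    intro s
    simp [Matrix.trace_fin_two]
  rw [h3, h3] at h2
  exact_mod_cast h2.symm

theorem trace_sq_iff548 (t : ℤ) : t ^ 2 = 4 ↔ (t = 2 ∨ t = -2) := by
  constructor
  · intro h
    have h1 : (t - 2) * (t + 2) = 0 := by ring_nf; linarith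
    rcases mul_eq_zero.mp h1 with h2 | h2
    · left; linarith
    · right; linarith
  · rintro (h | h) <;> rw [h] <;> norm_num

theorem coe_pow548 (γ : Gamma1 M) (r : ℕ) :
    (((γ ^ r : Gamma1 M) : SL(2, ℤ)) : Matrix (Fin 2) (Fin 2) ℤ)
      = ((γ : SL(2, ℤ)) : Matrix (Fin 2) (Fin 2) ℤ) ^ r := by
  rw [Subgroup.coe_pow, Matrix.SpecialLinearGroup.coe_pow]

/-- **HCoh1 (Hecke).** `T_p` preserves parabolic homs on `Γ₁(M)`. -/
theorem isParabolicHom_heckeHom1 (hpM : ¬ p ∣ M) {A : Type*} [AddCommGroup A]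
    (c : Additive (Gamma1 M) →+ A) (hc : IsParabolicHom (Gamma1 M) c) :
    IsParabolicHom (Gamma1 M) (heckeHom1 p hpM A c) := by
  intro γ hγ
  rw [heckeHom1_apply]
  have hf := isFactorSystem_fac1 (M := M) hpM
  refine Fermat.Agent.S29.H149.HCoh_transfer_eq_zero hf
    (c := fun γ : Gamma1 M ↦ c (Additive.ofMul γ)) (fun γ δ ↦ by simp)
    (fun γ : Gamma1 M ↦ ((γ : SL(2, ℤ)) : Matrix (Fin 2) (Fin 2) ℤ).trace ^ 2 = 4)
    (fun γ h ↦ hc γ h) ?_ γ hγ
  intro γ hγ r _ x hx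
  have h1 := trf1_spec hpM (γ ^ r) x
  have hx' : redMatrix p ((γ ^ r : Gamma1 M) : SL(2, ℤ)) • x = x := hx
  rw [hx'] at h1
  have h2 := trace_eq_of_mapGL_conj _ _ _ h1
  show (((trf1 hpM (γ ^ r) x : Gamma1 M) : SL(2, ℤ)) : Matrix (Fin 2) (Fin 2) ℤ).trace ^ 2 = 4
  rw [← h2, coe_pow548, trace_sq_iff548]
  exact Fermat.Agent.S29.H149.HCoh_trace_pow (γ : SL(2, ℤ)).2 ((trace_sq_iff548 _).mp hγ) r

/-- **HCoh1 (Hecke, finite order).** `T_p` preserves vanishing on elements of finite order. -/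
theorem heckeHom1_finOrder (hpM : ¬ p ∣ M) {A : Type*} [AddCommGroup A]
    (c : Additive (Gamma1 M) →+ A)
    (hc : ∀ γ : Gamma1 M, IsOfFinOrder γ → c (Additive.ofMul γ) = 0)
    (γ : Gamma1 M) (hγ : IsOfFinOrder γ) :
    heckeHom1 p hpM A c (Additive.ofMul γ) = 0 := by
  rw [heckeHom1_apply]
  have hf := isFactorSystem_fac1 (M := M) hpM
  refine Fermat.Agent.S29.H149.HCoh_transfer_eq_zero hf
    (c := fun γ : Gamma1 M ↦ c (Additive.ofMul γ)) (fun γ δ ↦ by simp)
    (fun γ : Gamma1 M ↦ IsOfFinOrder γ) hc ?_ γ hγ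
  intro γ hγ r _ x hx
  obtain ⟨n, hn, hγn⟩ := isOfFinOrder_iff_pow_eq_one.mp hγ
  exact isOfFinOrder_iff_pow_eq_one.mpr
    ⟨n, hn, Fermat.Agent.S29.H149.HCoh_finite_order_closed hf γ n hγn r x hx⟩

/-- **HCoh1 (diamond).** `⟨a⟩` preserves parabolic homs on `Γ₁(M)`. -/
theorem isParabolicHom_diaHom1 (a : SL(2, ℤ)) (ha : a ∈ Gamma0 M) {A : Type*} [AddCommGroup A]
    (c : Additive (Gamma1 M) →+ A) (hc : IsParabolicHom (Gamma1 M) c) :
    IsParabolicHom (Gamma1 M) (diaHom1 a ha A c) := by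
  intro γ hγ
  rw [diaHom1_apply]
  apply hc
  rw [coe_conj1]
  have h : (a * (γ : SL(2, ℤ)) * a⁻¹ : SL(2, ℤ)).1.trace
      = ((γ : SL(2, ℤ)) : Matrix (Fin 2) (Fin 2) ℤ).trace := by
    have h1 : ((a * (γ : SL(2, ℤ)) * a⁻¹ : SL(2, ℤ)) : Matrix (Fin 2) (Fin 2) ℤ)
        = (a : Matrix (Fin 2) (Fin 2) ℤ) * ((γ : SL(2, ℤ)) : Matrix (Fin 2) (Fin 2) ℤ)
          * ((a⁻¹ : SL(2, ℤ)) : Matrix (Fin 2) (Fin 2) ℤ) := by
      simp only [Matrix.SpecialLinearGroup.coe_mul]
    rw [h1, Matrix.trace_mul_comm, ← Matrix.mul_assoc, ← Matrix.SpecialLinearGroup.coe_mul,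
      inv_mul_cancel, Matrix.SpecialLinearGroup.coe_one, Matrix.one_mul]
  rw [h]
  exact hγ

/-- **HCoh1 (diamond, finite order).** -/
theorem diaHom1_finOrder (a : SL(2, ℤ)) (ha : a ∈ Gamma0 M) {A : Type*} [AddCommGroup A]
    (c : Additive (Gamma1 M) →+ A)
    (hc : ∀ γ : Gamma1 M, IsOfFinOrder γ → c (Additive.ofMul γ) = 0)
    (γ : Gamma1 M) (hγ : IsOfFinOrder γ) :
    diaHom1 a ha A c (Additive.ofMul γ) = 0 := by
  rw [diaHom1_apply]
  exact hc _ ((conj1 a ha).isOfFinOrder hγ)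

end Fermat.Agent.S48.H548

end
end
-- ===== PACK-END S48/H548/HCoh1.lean

-- ===== PACK-BEGIN S48/H548/Per1Basic.lean
section



/-!
# S48 / RES, node M4a1 input PER1 (helper548): periods of weight-2 cusp forms on `Γ₁(M)`

* `IsPrim f F` : `F` is a holomorphic primitive of `f` on `ℍ`;
* `per1 f : Additive (Gamma1 M) →+ ℂ` : the period homomorphism `γ ↦ F(γ z) - F(z)`;
* `per1L` : `per1` as a linear map; `per1_parabolic` : `per1 f` kills parabolic elements;
* `exists_cusp_limit` : a primitive has a limit at every cusp.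

Port of S21/H381 (level `Γ₀(N)`) to `Γ₁(M)`, reusing its generic lemmas.
-/

set_option autoImplicit false
set_option linter.unusedSectionVars false
set_option linter.deprecated false

noncomputable section

namespace Fermat.Agent.S48.H548

open CongruenceSubgroup ModularCurve ModularCurve.Period Filter Topology Function Complex
open UpperHalfPlane hiding I
open Matrix.SpecialLinearGroup
open scoped Manifold MatrixGroups ModularForm

/-- `F` is a primitive of `f` on the upper half plane. -/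
def IsPrim (f F : ℍ → ℂ) : Prop := ∀ τ : ℍ, HasDerivAt (F ∘ ofComplex) (f τ) ↑τ

theorem IsPrim.add {f g F G : ℍ → ℂ} (hF : IsPrim f F) (hG : IsPrim g G) :
    IsPrim (f + g) (F + G) := fun τ ↦ (hF τ).add (hG τ)

theorem IsPrim.smul {f F : ℍ → ℂ} (a : ℂ) (hF : IsPrim f F) : IsPrim (a • f) (a • F) :=
  fun τ ↦ (hF τ).const_smul a

theorem IsPrim.sub_const {f F G : ℍ → ℂ} (hF : IsPrim f F) (hG : IsPrim f G) (z w : ℍ) :
    F z - G z = F w - G w :=
  Fermat.Agent.S21.H381.sub_const_of_hasDerivAt hF hG z w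

theorem IsPrim.comp_smul {f F : ℍ → ℂ} (hF : IsPrim f F) (γ : SL(2, ℤ)) :
    IsPrim (f ∣[(2 : ℤ)] γ) (fun w : ℍ ↦ F (γ • w)) := fun τ ↦
  Fermat.Agent.S21.H381.hasDerivAt_comp_smul hF γ τ

variable {M : ℕ} [NeZero M]

theorem SL_slash_eq (f : ℍ → ℂ) (k : ℤ) (γ : SL(2, ℤ)) : f ∣[k] γ = f ∣[k] mapGL ℝ γ :=
  ModularForm.SL_slash f γ

/-- `f ∣[2] δ` as a cusp form on the conjugate group is holomorphic. -/
theorem mdiff_slash1 (f : CuspForm (Gamma1 M) 2) (δ : SL(2, ℤ)) :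
    MDiff ((f : ℍ → ℂ) ∣[(2 : ℤ)] δ) := by
  rw [SL_slash_eq]
  exact (ModularFormClass.holo f).slash 2 _

theorem isZeroAtImInfty_slash1 (f : CuspForm (Gamma1 M) 2) (δ : SL(2, ℤ)) :
    IsZeroAtImInfty ((f : ℍ → ℂ) ∣[(2 : ℤ)] δ) :=
  CuspFormClass.zero_at_infty_slash f δ

/-- There is a common positive integer period for all `f ∣[2] δ`. -/
theorem exists_period_slash1 (f : CuspForm (Gamma1 M) 2) :
    ∃ h : ℕ, 0 < h ∧
      ∀ δ : SL(2, ℤ), Periodic (((f : ℍ → ℂ) ∣[(2 : ℤ)] δ) ∘ ofComplex) (h : ℝ) := by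
  obtain ⟨h, hh, hper⟩ := Subgroup.IsArithmetic.exists_nat_mem_strictPeriods_conj
    ((Gamma1 M : Subgroup SL(2, ℤ)) : Subgroup (GL (Fin 2) ℝ))
  refine ⟨h, hh, fun δ ↦ ?_⟩
  have h1 := hper δ⁻¹
  rw [map_inv] at h1
  have h2 := SlashInvariantFormClass.periodic_comp_ofComplex
    (CuspForm.translate f (δ : GL (Fin 2) ℝ)) h1
  rw [CuspForm.coe_translate f δ] at h2
  exact_mod_cast h2

/-- Every slash translate of a weight-2 cusp form has a primitive tending to `0` at `i∞`. -/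
theorem exists_prim_slash (f : CuspForm (Gamma1 M) 2) (δ : SL(2, ℤ)) :
    ∃ G : ℍ → ℂ, IsPrim ((f : ℍ → ℂ) ∣[(2 : ℤ)] δ) G ∧ Tendsto G atImInfty (𝓝 0) := by
  obtain ⟨h, hh, hper⟩ := exists_period_slash1 f
  exact Fermat.Agent.S21.H381.exists_primitive_tendsto_zero (Nat.cast_pos.mpr hh) (hper δ)
    (mdiff_slash1 f δ) (isZeroAtImInfty_slash1 f δ)

theorem exists_isPrim (f : CuspForm (Gamma1 M) 2) : ∃ F : ℍ → ℂ, IsPrim (⇑f) F := by
  obtain ⟨G, hG, -⟩ := exists_prim_slash f 1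
  rw [SlashAction.slash_one] at hG
  exact ⟨G, hG⟩

/-- A primitive of a cusp form has a limit at every cusp. -/
theorem exists_cusp_limit (f : CuspForm (Gamma1 M) 2) {F : ℍ → ℂ} (hF : IsPrim (⇑f) F)
    (δ : SL(2, ℤ)) : ∃ L : ℂ, Tendsto (fun w : ℍ ↦ F (δ • w)) atImInfty (𝓝 L) := by
  obtain ⟨G, hGd, hG0⟩ := exists_prim_slash f δ
  have hδ := hF.comp_smul δ
  set c : ℂ := F (δ • UpperHalfPlane.I) - G UpperHalfPlane.I with hc
  refine ⟨c, ?_⟩
  have hEq : (fun w : ℍ ↦ F (δ • w)) = fun w ↦ G w + c := by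
    funext w
    have := hδ.sub_const hGd w UpperHalfPlane.I
    rw [hc, ← this]
    ring
  rw [hEq]
  simpa using hG0.add_const c

/-- A primitive of a cusp form on `Γ₁(M)` is equivariant. -/
theorem IsPrim.isEquivariant (f : CuspForm (Gamma1 M) 2) {F : ℍ → ℂ} (hF : IsPrim (⇑f) F) :
    IsEquivariantPrimitive (Gamma1 M) F := by
  intro γ
  refine ⟨F ((γ : SL(2, ℤ)) • UpperHalfPlane.I) - F UpperHalfPlane.I, fun z ↦ ?_⟩
  have hγ : IsPrim (⇑f) (fun w : ℍ ↦ F ((γ : SL(2, ℤ)) • w)) := by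
    have := hF.comp_smul (γ : SL(2, ℤ))
    rwa [SL_slash_eq, coe_inv1 f _ γ.2] at this
  exact hγ.sub_const hF z UpperHalfPlane.I

/-- The period homomorphism of a weight-2 cusp form on `Γ₁(M)`. -/
def per1 (f : CuspForm (Gamma1 M) 2) : Additive (Gamma1 M) →+ ℂ :=
  ((exists_isPrim f).choose_spec.isEquivariant f).periodHom

theorem per1_apply (f : CuspForm (Gamma1 M) 2) {F : ℍ → ℂ} (hF : IsPrim (⇑f) F)
    (γ : Gamma1 M) (z : ℍ) :
    per1 f (Additive.ofMul γ) = F ((γ : SL(2, ℤ)) • z) - F z := by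
  set F₀ := (exists_isPrim f).choose with hF₀def
  have hF₀ : IsPrim (⇑f) F₀ := (exists_isPrim f).choose_spec
  have h1 : per1 f (Additive.ofMul γ) = F₀ ((γ : SL(2, ℤ)) • z) - F₀ z := by
    show (hF₀.isEquivariant f).periodHom (Additive.ofMul γ) = _
    rw [IsEquivariantPrimitive.periodHom_apply, ← (hF₀.isEquivariant f).sub_eq_period γ z]
  rw [h1]
  have h2 := hF₀.sub_const hF ((γ : SL(2, ℤ)) • z) z
  linear_combination h2

theorem per1_add (f g : CuspForm (Gamma1 M) 2) : per1 (f + g) = per1 f + per1 g := by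
  obtain ⟨F, hF⟩ := exists_isPrim f
  obtain ⟨G, hG⟩ := exists_isPrim g
  refine AddMonoidHom.ext fun γ ↦ ?_
  obtain ⟨γ, rfl⟩ : ∃ γ' : Gamma1 M, Additive.ofMul γ' = γ := ⟨Additive.toMul γ, rfl⟩
  have hFG : IsPrim (⇑(f + g)) (F + G) := by
    rw [CuspForm.coe_add]
    exact hF.add hG
  rw [AddMonoidHom.add_apply, per1_apply (f + g) hFG γ UpperHalfPlane.I,
    per1_apply f hF γ UpperHalfPlane.I, per1_apply g hG γ UpperHalfPlane.I]
  simp only [Pi.add_apply]
  ring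

theorem per1_smul (a : ℂ) (f : CuspForm (Gamma1 M) 2) : per1 (a • f) = a • per1 f := by
  obtain ⟨F, hF⟩ := exists_isPrim f
  refine AddMonoidHom.ext fun γ ↦ ?_
  obtain ⟨γ, rfl⟩ : ∃ γ' : Gamma1 M, Additive.ofMul γ' = γ := ⟨Additive.toMul γ, rfl⟩
  have hFa : IsPrim (⇑(a • f)) (a • F) := by
    rw [CuspForm.IsGLPos.coe_smul]
    exact hF.smul a
  rw [AddMonoidHom.smul_apply, per1_apply (a • f) hFa γ UpperHalfPlane.I,
    per1_apply f hF γ UpperHalfPlane.I]
  simp only [Pi.smul_apply, smul_eq_mul]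
  ring

/-- The period map as a linear map. -/
def per1L (M : ℕ) [NeZero M] : CuspForm (Gamma1 M) 2 →ₗ[ℂ] (Additive (Gamma1 M) →+ ℂ) where
  toFun := per1
  map_add' := per1_add
  map_smul' := per1_smul

@[simp] theorem per1L_apply (f : CuspForm (Gamma1 M) 2) : per1L M f = per1 f := rfl

/-- Periods of cusp forms are parabolic homomorphisms. -/
theorem per1_parabolic (f : CuspForm (Gamma1 M) 2) : IsParabolicHom (Gamma1 M) (per1 f) := by
  intro γ hγ
  obtain ⟨F, hF⟩ := exists_isPrim f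
  obtain ⟨δ, n, hδ⟩ := Fermat.Agent.S21.H381.exists_conj_T_zpow (γ : SL(2, ℤ)) hγ
  obtain ⟨L, hL⟩ := exists_cusp_limit f hF δ
  have hconst : ∀ w : ℍ, per1 f (Additive.ofMul γ)
      = F (δ • (ModularGroup.T ^ n • w)) - F (δ • w) := by
    intro w
    rw [per1_apply f hF γ (δ • w), hδ w]
  have h1 : Tendsto (fun w : ℍ ↦ F (δ • (ModularGroup.T ^ n • w)) - F (δ • w)) atImInfty
      (𝓝 (L - L)) :=
    (hL.comp (Fermat.Agent.S21.H381.tendsto_T_zpow_smul_atImInfty n)).sub hL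
  have h2 : Tendsto (fun w : ℍ ↦ F (δ • (ModularGroup.T ^ n • w)) - F (δ • w)) atImInfty
      (𝓝 (per1 f (Additive.ofMul γ))) := by
    have : (fun w : ℍ ↦ F (δ • (ModularGroup.T ^ n • w)) - F (δ • w))
        = fun _ ↦ per1 f (Additive.ofMul γ) := funext fun w ↦ (hconst w).symm
    rw [this]
    exact tendsto_const_nhds
  have := tendsto_nhds_unique h2 h1
  rw [sub_self] at this
  exact this

end Fermat.Agent.S48.H548

end
end
-- ===== PACK-END S48/H548/Per1Basic.lean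

-- ===== PACK-BEGIN S48/H548/Per1Inj.lean
section


/-!
# S48 / RES, node M4a1 input PER1 (helper548): the period map on `S_2(Γ₁(M))` is injective

If all periods of `f` vanish, a primitive `F` of `f` is a modular form of weight `0` on `Γ₁(M)`,
hence constant (Mathlib `ModularForm.eq_const_of_weight_zero`), so `f = F' = 0`.
-/

set_option autoImplicit false
set_option linter.unusedSectionVars false
set_option linter.deprecated false

noncomputable section

namespace Fermat.Agent.S48.H548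

open CongruenceSubgroup ModularCurve ModularCurve.Period Filter Topology Function Complex
open UpperHalfPlane hiding I
open Matrix.SpecialLinearGroup
open scoped Manifold MatrixGroups ModularForm

variable {M : ℕ} [NeZero M]

theorem IsPrim.mdiff {f F : ℍ → ℂ} (hF : IsPrim f F) : MDiff F := fun τ ↦
  UpperHalfPlane.mdifferentiableAt_iff.mpr (hF τ).differentiableAt

theorem slash_zero_mapGL (F : ℍ → ℂ) (γ : SL(2, ℤ)) :
    F ∣[(0 : ℤ)] mapGL ℝ γ = fun w : ℍ ↦ F (γ • w) := by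
  funext w
  have h := ModularForm.SL_slash_apply (k := 0) F γ w
  rw [ModularForm.SL_slash, neg_zero, zpow_zero, mul_one] at h
  exact h

/-- A primitive with vanishing periods, as a modular form of weight `0`. -/
def primForm (f : CuspForm (Gamma1 M) 2) (F : ℍ → ℂ) (hF : IsPrim (⇑f) F)
    (hper : per1 f = 0) : ModularForm (Gamma1 M) 0 where
  toFun := F
  slash_action_eq' := by
    rintro _ ⟨γ, hγ, rfl⟩
    rw [slash_zero_mapGL]
    funext w
    have h := per1_apply f hF ⟨γ, hγ⟩ w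
    rw [hper, AddMonoidHom.zero_apply] at h
    exact (sub_eq_zero.mp h.symm)
  holo' := hF.mdiff
  bdd_at_cusps' := by
    intro c hc
    have hcSL : IsCusp c 𝒮ℒ := by
      rwa [Subgroup.IsArithmetic.isCusp_iff_isCusp_SL2Z] at hc
    obtain ⟨δ, hδ⟩ := isCusp_SL2Z_iff'.mp hcSL
    rw [OnePoint.isBoundedAt_iff hδ.symm, slash_zero_mapGL]
    obtain ⟨L, hL⟩ := exists_cusp_limit f hF δ
    exact hL.isBigO_one ℝ

/-- The period map is injective. -/
theorem eq_zero_of_per1_eq_zero (f : CuspForm (Gamma1 M) 2) (hper : per1 f = 0) : f = 0 := by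
  obtain ⟨F, hF⟩ := exists_isPrim f
  obtain ⟨c, hc⟩ := ModularForm.eq_const_of_weight_zero (primForm f F hF hper)
  have hFc : F = Function.const ℍ c := hc
  apply DFunLike.coe_injective
  funext τ
  have h1 := hF τ
  have h2 : F ∘ ofComplex = fun _ ↦ c := by
    funext z
    rw [Function.comp_apply, hFc]
    rfl
  rw [h2] at h1
  exact h1.unique (hasDerivAt_const _ _)

theorem per1L_injective : Function.Injective (per1L M) := by
  intro f g h
  have h1 : per1L M (f - g) = 0 := by rw [map_sub, h, sub_self]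
  exact sub_eq_zero.mp (eq_zero_of_per1_eq_zero (f - g) h1)

end Fermat.Agent.S48.H548

end
end
-- ===== PACK-END S48/H548/Per1Inj.lean

-- ===== PACK-BEGIN S48/H548/Per1Hecke.lean
section




/-!
# S48 / RES, node M4a1 input PER1 (helper548): Hecke equivariance of the period map on `Γ₁(M)`

* `per1_TpL` : `per1 (T_p f) = heckeHom1 p (per1 f)` for primes `p ∤ M`;
* `per1_diaL` : `per1 (⟨a⟩ f) = diaHom1 a (per1 f)` for `a ∈ Γ₀(M)`.
-/

set_option autoImplicit false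
set_option linter.unusedSectionVars false
set_option linter.deprecated false

noncomputable section

namespace Fermat.Agent.S48.H548

open CongruenceSubgroup ModularCurve ModularCurve.Period Filter Topology Function Complex
open UpperHalfPlane hiding I
open Matrix.SpecialLinearGroup ModularForm
open scoped Manifold MatrixGroups ModularForm OnePoint

variable {M : ℕ} [NeZero M] {p : ℕ} [Fact p.Prime]

/-- The Hecke transform of a primitive. -/
def heckePrim1 (hpM : ¬ p ∣ M) (F : ℍ → ℂ) : ℍ → ℂ :=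
  fun τ ↦ ∑ x : OnePoint (ZMod p), F (heckeRep1 hpM x • τ)

theorem det_heckeRep_pos548 (x : OnePoint (ZMod p)) :
    0 < ((heckeRep p x : GL (Fin 2) ℝ) : Matrix (Fin 2) (Fin 2) ℝ).det := by
  induction x using OnePoint.rec with
  | infty =>
    have := ModularForm.det_heckeDiagMatrix_pos p
    rwa [Matrix.GeneralLinearGroup.val_det_apply] at this
  | coe j =>
    have := ModularForm.det_heckeMatrix_pos p j.val
    rwa [Matrix.GeneralLinearGroup.val_det_apply] at this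

theorem det_heckeRep1_pos (hpM : ¬ p ∣ M) (x : OnePoint (ZMod p)) :
    0 < ((heckeRep1 hpM x : GL (Fin 2) ℝ) : Matrix (Fin 2) (Fin 2) ℝ).det := by
  unfold heckeRep1
  rw [Matrix.GeneralLinearGroup.coe_mul, Matrix.det_mul]
  have h1 : ((mapGL ℝ (sigTw hpM x) : GL (Fin 2) ℝ) : Matrix (Fin 2) (Fin 2) ℝ).det = 1 :=
    Fermat.Agent.S21.H381.det_coe_SL _
  rw [h1, one_mul]
  exact det_heckeRep_pos548 x

/-- `T_p f = ∑ₓ f ∣ heckeRep1 x`. -/
theorem coe_TpL_eq_sum (hpM : ¬ p ∣ M) (f : CuspForm (Gamma1 M) 2) :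
    (⇑(TpL p hpM f) : ℍ → ℂ) =
      ∑ x : OnePoint (ZMod p), (⇑f : ℍ → ℂ) ∣[(2 : ℤ)] heckeRep1 hpM x := by
  rw [coe_TpL hpM f _ (sigmaP_mem hpM) (sigmaP_lower hpM), heckeT1_eq_sum]
  refine Finset.sum_congr rfl fun x _ ↦ ?_
  unfold heckeRep1
  rw [SlashAction.slash_mul]
  congr 1
  induction x using OnePoint.rec with
  | infty => rfl
  | coe j =>
    simp only [OnePoint.elim_some, sigTw_coe, map_one, SlashAction.slash_one]

theorem isPrim_heckePrim1 (hpM : ¬ p ∣ M) (f : CuspForm (Gamma1 M) 2) {F : ℍ → ℂ}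
    (hF : IsPrim (⇑f) F) : IsPrim (⇑(TpL p hpM f)) (heckePrim1 hpM F) := by
  intro τ
  have hsum : (heckePrim1 hpM F ∘ ofComplex)
      = fun z ↦ ∑ x : OnePoint (ZMod p),
          ((fun w : ℍ ↦ F (heckeRep1 hpM x • w)) ∘ ofComplex) z := by
    funext z
    rfl
  rw [hsum, coe_TpL_eq_sum, Finset.sum_apply]
  exact HasDerivAt.fun_sum fun x _ ↦
    Fermat.Agent.S29.H201.hasDerivAt_comp_smul_GL hF (heckeRep1 hpM x) (det_heckeRep1_pos hpM x) τ

theorem SL_smul_eq_mapGL_smul548 (γ : SL(2, ℤ)) (τ : ℍ) : γ • τ = (mapGL ℝ γ) • τ := rfl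

theorem heckePrim1_smul_sub (hpM : ¬ p ∣ M) (f : CuspForm (Gamma1 M) 2) {F : ℍ → ℂ}
    (hF : IsPrim (⇑f) F) (γ : Gamma1 M) (τ : ℍ) :
    heckePrim1 hpM F ((γ : SL(2, ℤ)) • τ) - heckePrim1 hpM F τ
      = ∑ x : OnePoint (ZMod p), per1 f (Additive.ofMul (trf1 hpM γ x)) := by
  have key : ∀ x : OnePoint (ZMod p), F (heckeRep1 hpM x • ((γ : SL(2, ℤ)) • τ))
      = F (heckeRep1 hpM (permOf1 γ x) • τ) + per1 f (Additive.ofMul (trf1 hpM γ x)) := by
    intro x
    have h1 : heckeRep1 hpM x • ((γ : SL(2, ℤ)) • τ)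
        = ((trf1 hpM γ x : Gamma1 M) : SL(2, ℤ)) • (heckeRep1 hpM (permOf1 γ x) • τ) := by
      rw [SL_smul_eq_mapGL_smul548, SL_smul_eq_mapGL_smul548, ← mul_smul, ← mul_smul,
        trf1_spec hpM γ x]
      rfl
    rw [h1, per1_apply f hF (trf1 hpM γ x) (heckeRep1 hpM (permOf1 γ x) • τ)]
    ring
  unfold heckePrim1
  simp only [key, Finset.sum_add_distrib]
  rw [Equiv.sum_comp (permOf1 γ) (fun y ↦ F (heckeRep1 hpM y • τ))]
  ring

/-- **Hecke equivariance of the period map.** -/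
theorem per1_TpL (hpM : ¬ p ∣ M) (f : CuspForm (Gamma1 M) 2) :
    per1 (TpL p hpM f) = heckeHom1 p hpM ℂ (per1 f) := by
  obtain ⟨F, hF⟩ := exists_isPrim f
  refine AddMonoidHom.ext fun γ ↦ ?_
  obtain ⟨γ, rfl⟩ : ∃ γ' : Gamma1 M, Additive.ofMul γ' = γ := ⟨Additive.toMul γ, rfl⟩
  rw [per1_apply (TpL p hpM f) (isPrim_heckePrim1 hpM f hF) γ UpperHalfPlane.I,
    heckePrim1_smul_sub hpM f hF γ UpperHalfPlane.I, heckeHom1_apply]

/-- **Diamond equivariance of the period map.** -/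
theorem per1_diaL (a : SL(2, ℤ)) (ha : a ∈ Gamma0 M) (f : CuspForm (Gamma1 M) 2) :
    per1 (diaL a ha f) = diaHom1 a ha ℂ (per1 f) := by
  obtain ⟨F, hF⟩ := exists_isPrim f
  refine AddMonoidHom.ext fun γ ↦ ?_
  obtain ⟨γ, rfl⟩ : ∃ γ' : Gamma1 M, Additive.ofMul γ' = γ := ⟨Additive.toMul γ, rfl⟩
  have hFa : IsPrim (⇑(diaL a ha f)) (fun w : ℍ ↦ F (a • w)) := by
    rw [coe_diaL, ← SL_slash_eq]
    exact hF.comp_smul a
  rw [per1_apply (diaL a ha f) hFa γ UpperHalfPlane.I, diaHom1_apply,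
    per1_apply f hF (conj1 a ha γ) (a • UpperHalfPlane.I)]
  have h1 : ((conj1 a ha γ : Gamma1 M) : SL(2, ℤ)) • (a • UpperHalfPlane.I) =
      a • ((γ : SL(2, ℤ)) • UpperHalfPlane.I) := by
    rw [coe_conj1, ← mul_smul, ← mul_smul]
    congr 1
    group
  rw [h1]

end Fermat.Agent.S48.H548

end
end
-- ===== PACK-END S48/H548/Per1Hecke.lean

-- ===== PACK-BEGIN S48/H548/Chi0Main.lean
section


/-!
# S48 / RES piece CHI0 (helper548): the character `χ₀` from `h · E`

`h ∈ S_1(Γ₁(N))` with nebentypus `ε` and `R`-integral `q`-expansion whose reduction mod `φ` is a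
nonzero eigenvector of the formal Hecke operators (eigenvalues `α_p`, character `ε`);
`E ∈ M_1(Γ₁(L))` with nebentypus `ψ`, `R`-integral `q`-expansion, `E ≡ 1 mod φ`, and
`φ(ψ(p)) p = 1` (`ψ` = inverse Teichmüller character).  Then `g₀ = h E ∈ S_2(Γ₁(N L))` gives a
ring homomorphism `χ₀ : heckeAlg1 (N L) 2 → k` with `χ₀(T_p) = α_p`,
`χ₀(⟨a⟩) = φ(ε(a₁₁)) φ(ψ(a₁₁))`; in particular `χ₀(⟨p⟩) p = φ(ε(p))`.
-/

set_option autoImplicit false
set_option linter.unusedSectionVars false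
set_option linter.deprecated false

noncomputable section

namespace Fermat.Agent.S48.H548

open Matrix.SpecialLinearGroup UpperHalfPlane ModularForm CongruenceSubgroup ModularFormClass
open scoped MatrixGroups ModularForm OnePoint Manifold

variable {N L : ℕ} [NeZero N] [NeZero L]
variable {R : Type*} [CommRing R] {k : Type*} [Field k] {ι : R →+* ℂ} {φ : R →+* k}

/-- The product `h E` in weight `2`. -/
def mulCusp2 (h : CuspForm (Gamma1 N) 1) (E : ModularForm (Gamma1 L) 1) :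
    CuspForm (Gamma1 (N * L)) 2 :=
  mulCusp h E

@[simp] theorem coe_mulCusp2 (h : CuspForm (Gamma1 N) 1) (E : ModularForm (Gamma1 L) 1) :
    (⇑(mulCusp2 h E) : ℍ → ℂ) = ⇑h * ⇑E := rfl

/-- Reduction of the Cauchy product with a series `≡ 1`. -/
theorem map_sum_antidiagonal_eq (c e : ℕ → R) (he0 : φ (e 0) = 1)
    (he1 : ∀ n, 1 ≤ n → φ (e n) = 0) (n : ℕ) :
    φ (∑ x ∈ Finset.HasAntidiagonal.antidiagonal n, c x.1 * e x.2) = φ (c n) := by
  rw [map_sum, Finset.sum_eq_single (n, 0)]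
  · rw [map_mul, he0, mul_one]
  · rintro ⟨i, j⟩ hij hne
    rw [Finset.HasAntidiagonal.mem_antidiagonal] at hij
    have hj : 1 ≤ j := by
      rcases Nat.eq_zero_or_pos j with rfl | hj
      · exfalso
        apply hne
        simp only [add_zero] at hij
        rw [hij]
      · exact hj
    rw [map_mul, he1 j hj, mul_zero]
  · intro h
    exact absurd (Finset.HasAntidiagonal.mem_antidiagonal.mpr (add_zero n)) h

/-- **CHI0** for `g₀ = h E`. -/
theorem exists_chi0_mul (hι : Function.Injective ι)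
    (ε : ZMod N → ℂ) (εR : ZMod N → R) (hεR : ∀ x, ι (εR x) = ε x)
    (ψ : ZMod L → ℂ) (ψR : ZMod L → R) (hψR : ∀ x, ι (ψR x) = ψ x)
    (hteich : ∀ p : ℕ, p.Prime → ¬ p ∣ N * L → φ (ψR (p : ZMod L)) * (p : k) = 1)
    (α : ℕ → k)
    (h : CuspForm (Gamma1 N) 1) (hh : HasNeb ε (⇑h) 1)
    (c : ℕ → R) (hc : ∀ n, qCoeff (⇑h : ℍ → ℂ) n = ι (c n)) (hne : ∃ n, φ (c n) ≠ 0)
    (hrel : ∀ p : ℕ, p.Prime → ¬ p ∣ N * L → ∀ n : ℕ,
      φ (c (p * n)) + φ (εR (p : ZMod N)) * (if p ∣ n then φ (c (n / p)) else 0) =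
        α p * φ (c n))
    (E : ModularForm (Gamma1 L) 1) (hE : HasNeb ψ (⇑E) 1)
    (e : ℕ → R) (he : ∀ n, qCoeff (⇑E : ℍ → ℂ) n = ι (e n)) (he0 : φ (e 0) = 1)
    (he1 : ∀ n, 1 ≤ n → φ (e n) = 0) :
    ∃ χ : heckeAlg1 (N * L) 2 →+* k,
      (∀ (p : ℕ) [Fact p.Prime] (hpM : ¬ p ∣ N * L),
        χ ⟨TpL p hpM, TpL_mem_heckeAlg1 hpM⟩ = α p) ∧
      (∀ (a : SL(2, ℤ)) (ha : a ∈ Gamma0 (N * L)),
        χ ⟨diaL a ha, diaL_mem_heckeAlg1 a ha⟩ =
          φ (εR ((a 1 1 : ℤ) : ZMod N)) * φ (ψR ((a 1 1 : ℤ) : ZMod L))) ∧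
      (∀ (p : ℕ) [Fact p.Prime] (hpM : ¬ p ∣ N * L) (a : SL(2, ℤ)) (ha : a ∈ Gamma0 (N * L)),
        ((a 1 1 : ℤ) : ZMod (N * L)) = (p : ZMod (N * L)) →
        χ ⟨diaL a ha, diaL_mem_heckeAlg1 a ha⟩ * (p : k) = φ (εR (p : ZMod N))) := by
  set chR : ZMod (N * L) → R := fun x ↦
    εR (ZMod.castHom (dvd_mul_right N L) (ZMod N) x) *
      ψR (ZMod.castHom (dvd_mul_left L N) (ZMod L) x) with hchR
  have hchR' : ∀ x, ι (chR x) = mulChar ε ψ x := fun x ↦ by
    rw [hchR, map_mul, hεR, hψR]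
    rfl
  have hchR_int : ∀ a : ℤ, chR (a : ZMod (N * L)) = εR (a : ZMod N) * ψR (a : ZMod L) :=
    fun a ↦ by simp [hchR]
  have hchR_nat : ∀ a : ℕ, chR (a : ZMod (N * L)) = εR (a : ZMod N) * ψR (a : ZMod L) :=
    fun a ↦ by simp [hchR]
  set c' : ℕ → R := fun n ↦ ∑ x ∈ Finset.HasAntidiagonal.antidiagonal n, c x.1 * e x.2 with hc'
  have hφc' : ∀ n, φ (c' n) = φ (c n) := fun n ↦ map_sum_antidiagonal_eq c e he0 he1 n
  obtain ⟨χ, h1, h2, -⟩ := exists_chi0 (M := N * L) (φ := φ) hι (mulChar ε ψ) chR hchR' α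
    (mulCusp2 h E) (hasNeb_mulCusp h E hh hE) c'
    (fun n ↦ by
      show qCoeff (⇑(mulCusp h E) : ℍ → ℂ) n = _
      rw [qCoeff_mulCusp, hc', map_sum]
      refine Finset.sum_congr rfl fun x _ ↦ ?_
      rw [map_mul, hc, he])
    (by
      obtain ⟨n, hn⟩ := hne
      exact ⟨n, by rwa [hφc']⟩)
    (fun p hp hpM n ↦ by
      have h3 : φ (chR (p : ZMod (N * L))) * (p : k) = φ (εR (p : ZMod N)) := by
        rw [hchR_nat, map_mul, mul_assoc, hteich p hp hpM, mul_one]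
      rw [hφc', hφc', hφc', h3, mul_comm n p]
      exact hrel p hp hpM n)
  refine ⟨χ, h1, fun a ha ↦ ?_, fun p _ hpM a ha hap ↦ ?_⟩
  · rw [h2 a ha, hchR_int, map_mul]
  · rw [h2 a ha, hap, hchR_nat, map_mul, mul_assoc, hteich p Fact.out hpM, mul_one]

end Fermat.Agent.S48.H548

end
end
-- ===== PACK-END S48/H548/Chi0Main.lean

-- ===== PACK-BEGIN S48/H548/M4a1Inst.lean
section





/-!
# S48 / RES, node M4a1 CLOSED (helper548 + helper188): the parabolic eigenclass on `Γ₁(M)`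

* `periodInputs M : H188.PeriodInputs M` — the inputs PER1 + COMM of helper188's abstract
  Nakayama argument, from `H548/Per1*.lean` and `H548/Comm.lean`;
* `exists_eigenclass1` : for every ring homomorphism `χ : heckeAlg1 M 2 →+* F` (`F` a field of
  characteristic `ℓ > 0`) a nonzero parabolic `c : Γ₁(M) → F` with `T_p c = χ(T_p) c`,
  `⟨a⟩ c = χ(⟨a⟩) c` (`heckeHom1`, `diaHom1` of `H548/Per1Transfer.lean`);
* `exists_eigenclass_mul` : the same with `χ = χ₀` coming from the mod-`φ` eigenvector `h · E`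
  (`exists_chi0_mul`): eigenvalues `α_p`, `φ(ε(a)) φ(ψ(a))`.  NO characteristic-zero lift.
-/

set_option autoImplicit false
set_option linter.unusedSectionVars false
set_option linter.deprecated false

noncomputable section

namespace Fermat.Agent.S48.H548

open CongruenceSubgroup Matrix.SpecialLinearGroup ModularCurve.Period UpperHalfPlane
open ModularFormClass
open scoped MatrixGroups OnePoint

variable {M : ℕ} [NeZero M]

/-- The inputs PER1 + COMM of node M4a1. -/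
def periodInputs (M : ℕ) [NeZero M] : Fermat.Agent.S48.H188.PeriodInputs M where
  per := per1L M
  inj := per1L_injective
  par := per1_parabolic
  comm := fun x hx y hy ↦ heckeGens_comm x y hx hy
  transfer := by
    rintro t (⟨p, hp, hpM, rfl⟩ | ⟨a, ha, rfl⟩) γ
    · refine ⟨OnePoint (ZMod p), Finset.univ,
        fun x ↦ Additive.ofMul (trf1 hpM (Additive.toMul γ) x), fun g ↦ ?_⟩
      rw [per1L_apply, per1_TpL]
      rfl
    · refine ⟨Unit, Finset.univ, fun _ ↦ Additive.ofMul (conj1 a ha (Additive.toMul γ)),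
        fun g ↦ ?_⟩
      rw [per1L_apply, per1_diaL, Finset.sum_const, Finset.card_univ, Fintype.card_unit,
        one_smul]
      rfl

/-- **Node M4a1.** The parabolic `χ`-eigenclass on `Γ₁(M)`. -/
theorem exists_eigenclass1 {F : Type*} [Field F] (ℓ : ℕ) [Fact ℓ.Prime] [CharP F ℓ]
    (χ : heckeAlg1 M 2 →+* F) :
    ∃ c : Additive (Gamma1 M) →+ F, c ≠ 0 ∧ IsParabolicHom (Gamma1 M) c ∧
      (∀ γ : Gamma1 M, IsOfFinOrder γ → c (Additive.ofMul γ) = 0) ∧
      (∀ (p : ℕ) [Fact p.Prime] (hpM : ¬ p ∣ M) (γ : Additive (Gamma1 M)),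
        heckeHom1 p hpM F c γ = χ ⟨TpL p hpM, TpL_mem_heckeAlg1 hpM⟩ * c γ) ∧
      (∀ (a : SL(2, ℤ)) (ha : a ∈ Gamma0 M) (γ : Additive (Gamma1 M)),
        diaHom1 a ha F c γ = χ ⟨diaL a ha, diaL_mem_heckeAlg1 a ha⟩ * c γ) := by
  obtain ⟨c, hc0, hpar, hfin, -, heig⟩ :=
    Fermat.Agent.S48.H188.exists_eigenclass (periodInputs M) ℓ χ
  refine ⟨c, hc0, hpar, hfin, fun p _ hpM γ ↦ ?_, fun a ha γ ↦ ?_⟩
  · have h := heig ⟨TpL p hpM, TpL_mem_heckeAlg1 hpM⟩ γ (OnePoint (ZMod p)) Finset.univ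
      (fun x ↦ Additive.ofMul (trf1 hpM (Additive.toMul γ) x)) (fun g ↦ by
        show per1L M (TpL p hpM g) γ = _
        rw [per1L_apply, per1_TpL]
        rfl)
    rw [← h]
    rfl
  · have h := heig ⟨diaL a ha, diaL_mem_heckeAlg1 a ha⟩ γ Unit Finset.univ
      (fun _ ↦ Additive.ofMul (conj1 a ha (Additive.toMul γ))) (fun g ↦ by
        show per1L M (diaL a ha g) γ = _
        rw [per1L_apply, per1_diaL, Finset.sum_const, Finset.card_univ, Fintype.card_unit,
          one_smul]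
        rfl)
    rw [← h, Finset.sum_const, Finset.card_univ, Fintype.card_unit, one_smul]
    rfl

/-- **Node M4a1 for `g₀ = h E`**: the parabolic eigenclass with eigenvalues `α_p` and nebentypus
`φ(ε ψ)`; hypotheses as in `exists_chi0_mul`. -/
theorem exists_eigenclass_mul {N L : ℕ} [NeZero N] [NeZero L]
    {R : Type*} [CommRing R] {k : Type*} [Field k] (ℓ : ℕ) [Fact ℓ.Prime] [CharP k ℓ]
    {ι : R →+* ℂ} {φ : R →+* k} (hι : Function.Injective ι)
    (ε : ZMod N → ℂ) (εR : ZMod N → R) (hεR : ∀ x, ι (εR x) = ε x)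
    (ψ : ZMod L → ℂ) (ψR : ZMod L → R) (hψR : ∀ x, ι (ψR x) = ψ x)
    (hteich : ∀ p : ℕ, p.Prime → ¬ p ∣ N * L → φ (ψR (p : ZMod L)) * (p : k) = 1)
    (α : ℕ → k)
    (h : CuspForm (Gamma1 N) 1) (hh : HasNeb ε (⇑h) 1)
    (c : ℕ → R) (hc : ∀ n, qCoeff (⇑h : ℍ → ℂ) n = ι (c n)) (hne : ∃ n, φ (c n) ≠ 0)
    (hrel : ∀ p : ℕ, p.Prime → ¬ p ∣ N * L → ∀ n : ℕ,
      φ (c (p * n)) + φ (εR (p : ZMod N)) * (if p ∣ n then φ (c (n / p)) else 0) =
        α p * φ (c n))
    (E : ModularForm (Gamma1 L) 1) (hE : HasNeb ψ (⇑E) 1)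
    (e : ℕ → R) (he : ∀ n, qCoeff (⇑E : ℍ → ℂ) n = ι (e n)) (he0 : φ (e 0) = 1)
    (he1 : ∀ n, 1 ≤ n → φ (e n) = 0) :
    ∃ cl : Additive (Gamma1 (N * L)) →+ k, cl ≠ 0 ∧ IsParabolicHom (Gamma1 (N * L)) cl ∧
      (∀ γ : Gamma1 (N * L), IsOfFinOrder γ → cl (Additive.ofMul γ) = 0) ∧
      (∀ (p : ℕ) [Fact p.Prime] (hpM : ¬ p ∣ N * L) (γ : Additive (Gamma1 (N * L))),
        heckeHom1 p hpM k cl γ = α p * cl γ) ∧
      (∀ (a : SL(2, ℤ)) (ha : a ∈ Gamma0 (N * L)) (γ : Additive (Gamma1 (N * L))),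
        diaHom1 a ha k cl γ =
          φ (εR ((a 1 1 : ℤ) : ZMod N)) * φ (ψR ((a 1 1 : ℤ) : ZMod L)) * cl γ) ∧
      (∀ (p : ℕ) [Fact p.Prime] (_ : ¬ p ∣ N * L) (a : SL(2, ℤ)) (ha : a ∈ Gamma0 (N * L)),
        ((a 1 1 : ℤ) : ZMod (N * L)) = (p : ZMod (N * L)) → ∀ γ : Additive (Gamma1 (N * L)),
        (p : k) * diaHom1 a ha k cl γ = φ (εR (p : ZMod N)) * cl γ) := by
  obtain ⟨χ, h1, h2, h3⟩ := exists_chi0_mul (φ := φ) hι ε εR hεR ψ ψR hψR hteich α h hh c hc hne
    hrel E hE e he he0 he1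
  obtain ⟨cl, hc0, hpar, hfin, hT, hD⟩ := exists_eigenclass1 (M := N * L) ℓ χ
  refine ⟨cl, hc0, hpar, hfin, fun p _ hpM γ ↦ ?_, fun a ha γ ↦ ?_, fun p _ hpM a ha hap γ ↦ ?_⟩
  · rw [hT p hpM γ, h1 p hpM]
  · rw [hD a ha γ, h2 a ha]
  · rw [hD a ha γ, ← mul_assoc, mul_comm (p : k), h3 p hpM a ha hap]

end Fermat.Agent.S48.H548

end
end
-- ===== PACK-END S48/H548/M4a1Inst.lean

-- ===== PACK-BEGIN S48/H848/DiaGen.lean
section




/-!
# S48 / RES (Tower A1) — piece FF-DIA, generic part (helper848)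

* `exists_algEquiv_of_rel` : if a permutation `π` of a family of generators `g i` of a field
  extension `L(g) / L` preserves all polynomial relations (in both directions), there is an
  `L`-automorphism of `L(g)` with `g i ↦ g (π i)`.
* `rel_of_avatars` : the hypothesis from ANALYTIC AVATARS: `g i ∈ L((q))`, functions
  `A i : ℍ → ℂ` with convergent `q`-expansion `ι (g i)` (`ι : L → ℂ`), and a self-map `γ` of `ℍ`
  with `A i ∘ γ = A (π i)`.
* `exists_algEquiv_of_avatars` : the combination.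
-/

set_option autoImplicit false

noncomputable section

open ModularCurve HahnSeries UpperHalfPlane Fermat.Agent.S24 IntermediateField

namespace Fermat.Agent.S48.H848

/-! ### Algebra: automorphisms from permutations of generators -/

section Algebra

variable {L Ω : Type*} [Field L] [Field Ω] [Algebra L Ω] {I : Type*}

/-- The generator `g i` as an element of `L(g)`. -/
def genAdj (g : I → Ω) (i : I) : adjoin L (Set.range g) :=
  ⟨g i, subset_adjoin L _ ⟨i, rfl⟩⟩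

@[simp] theorem coe_genAdj (g : I → Ω) (i : I) :
    ((genAdj (L := L) g i : adjoin L (Set.range g)) : Ω) = g i := rfl

/-- Two ring homomorphisms out of `L(g)` into a division ring which agree on `L` and on the
generators are equal. -/
theorem adjoin_ringHom_ext {S : Set Ω} {R : Type*} [DivisionRing R]
    (f₁ f₂ : adjoin L S →+* R)
    (hL : ∀ a : L, f₁ (algebraMap L _ a) = f₂ (algebraMap L _ a))
    (hS : ∀ (x : Ω) (hx : x ∈ S), f₁ ⟨x, subset_adjoin L S hx⟩ = f₂ ⟨x, subset_adjoin L S hx⟩) :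
    f₁ = f₂ := by
  have key : ∀ (y : Ω) (hy : y ∈ adjoin L S), f₁ ⟨y, hy⟩ = f₂ ⟨y, hy⟩ := by
    intro y hy
    induction hy using IntermediateField.adjoin_induction with
    | mem x hx => exact hS x hx
    | algebraMap a => exact hL a
    | add x y hx hy ihx ihy =>
        have h1 : (⟨x + y, add_mem hx hy⟩ : adjoin L S) = ⟨x, hx⟩ + ⟨y, hy⟩ := rfl
        rw [h1, map_add, map_add, ihx, ihy]
    | inv x hx ihx =>
        have h1 : (⟨x⁻¹, inv_mem hx⟩ : adjoin L S) = (⟨x, hx⟩)⁻¹ := rfl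
        rw [h1, map_inv₀, map_inv₀, ihx]
    | mul x y hx hy ihx ihy =>
        have h1 : (⟨x * y, mul_mem hx hy⟩ : adjoin L S) = ⟨x, hx⟩ * ⟨y, hy⟩ := rfl
        rw [h1, map_mul, map_mul, ihx, ihy]
  ext ⟨y, hy⟩
  exact key y hy

/-- Two `L`-algebra homomorphisms out of `L(g)` which agree on the generators are equal. -/
theorem adjoin_algHom_ext (g : I → Ω) {R : Type*} [DivisionRing R] [Algebra L R]
    (f₁ f₂ : adjoin L (Set.range g) →ₐ[L] R)
    (h : ∀ i, f₁ (genAdj g i) = f₂ (genAdj g i)) : f₁ = f₂ := by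
  have h' : (f₁ : adjoin L (Set.range g) →+* R) = (f₂ : adjoin L (Set.range g) →+* R) := by
    refine adjoin_ringHom_ext _ _ (fun a => ?_) ?_
    · show f₁ (algebraMap L _ a) = f₂ (algebraMap L _ a)
      rw [f₁.commutes, f₂.commutes]
    · rintro x ⟨i, rfl⟩
      exact h i
  exact AlgHom.ext fun x => congrArg (fun f : adjoin L (Set.range g) →+* R => f x) h'

open scoped IntermediateField.algebraAdjoinAdjoin in
/-- One direction: a family `g'` in a field `Ω'` satisfying all the relations of `g`, and no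
others, gives an `L`-embedding `L(g) → Ω'` with `g i ↦ g' i`. -/
theorem exists_algHom_of_rel {Ω' : Type*} [Field Ω'] [Algebra L Ω'] (g : I → Ω) (g' : I → Ω')
    (hrel : ∀ P : MvPolynomial I L,
      MvPolynomial.aeval g P = 0 ↔ MvPolynomial.aeval g' P = 0) :
    ∃ τ : adjoin L (Set.range g) →ₐ[L] Ω', ∀ i, τ (genAdj g i) = g' i := by
  classical
  -- the evaluation maps
  let φ : MvPolynomial I L →ₐ[L] Ω := MvPolynomial.aeval g
  let ψ : MvPolynomial I L →ₐ[L] Ω' := MvPolynomial.aeval g'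
  have hA : Algebra.adjoin L (Set.range g) = φ.range :=
    Algebra.adjoin_range_eq_range_aeval L g
  -- the map on the subalgebra
  have hex : ∀ a : Algebra.adjoin L (Set.range g), ∃ P : MvPolynomial I L, φ P = (a : Ω) := by
    intro a
    have ha : (a : Ω) ∈ φ.range := hA ▸ a.2
    exact ha
  choose rep hrep using hex
  have hwd : ∀ (P Q : MvPolynomial I L), φ P = φ Q → ψ P = ψ Q := by
    intro P Q h
    have h0 : φ (P - Q) = 0 := by rw [map_sub, h, sub_self]
    have h1 : ψ (P - Q) = 0 := (hrel _).mp h0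
    rw [map_sub, sub_eq_zero] at h1
    exact h1
  have hinj' : ∀ (P Q : MvPolynomial I L), ψ P = ψ Q → φ P = φ Q := by
    intro P Q h
    have h0 : ψ (P - Q) = 0 := by rw [map_sub, h, sub_self]
    have h1 : φ (P - Q) = 0 := (hrel _).mpr h0
    rw [map_sub, sub_eq_zero] at h1
    exact h1
  let σ₀ : Algebra.adjoin L (Set.range g) →ₐ[L] Ω' :=
    { toFun := fun a => ψ (rep a)
      map_one' := by
        have : φ (rep 1) = φ 1 := by rw [hrep, map_one]; rfl
        rw [hwd _ _ this, map_one]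
      map_mul' := fun a b => by
        have : φ (rep (a * b)) = φ (rep a * rep b) := by
          rw [hrep, map_mul, hrep, hrep]; rfl
        rw [hwd _ _ this, map_mul]
      map_zero' := by
        have : φ (rep 0) = φ 0 := by rw [hrep, map_zero]; rfl
        rw [hwd _ _ this, map_zero]
      map_add' := fun a b => by
        have : φ (rep (a + b)) = φ (rep a + rep b) := by
          rw [hrep, map_add, hrep, hrep]; rfl
        rw [hwd _ _ this, map_add]
      commutes' := fun c => by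
        have : φ (rep (algebraMap L _ c)) = φ (MvPolynomial.C c) := by
          rw [hrep]
          show algebraMap L Ω c = MvPolynomial.aeval g (MvPolynomial.C c)
          rw [MvPolynomial.aeval_C]
        rw [hwd _ _ this]
        show MvPolynomial.aeval g' (MvPolynomial.C c) = _
        rw [MvPolynomial.aeval_C] }
  have hσ₀ : ∀ P : MvPolynomial I L, ∀ a : Algebra.adjoin L (Set.range g),
      (a : Ω) = φ P → σ₀ a = ψ P := by
    intro P a ha
    exact hwd _ _ ((hrep a).trans ha)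
  have hσ₀inj : Function.Injective σ₀ := by
    intro a b hab
    apply Subtype.ext
    rw [← hrep a, ← hrep b]
    exact hinj' _ _ hab
  -- extension to the fraction field
  let τ : adjoin L (Set.range g) →ₐ[L] Ω' :=
    IsFractionRing.liftAlgHom (K := adjoin L (Set.range g)) (g := σ₀) hσ₀inj
  refine ⟨τ, fun i => ?_⟩
  have h1 : genAdj g i = algebraMap (Algebra.adjoin L (Set.range g)) (adjoin L (Set.range g))
      ⟨g i, Algebra.subset_adjoin ⟨i, rfl⟩⟩ := rfl
  rw [h1]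
  show IsFractionRing.liftAlgHom (K := adjoin L (Set.range g)) (g := σ₀) hσ₀inj _ = _
  rw [IsFractionRing.liftAlgHom_apply, IsFractionRing.lift_algebraMap]
  have h2 := hσ₀ (MvPolynomial.X i) ⟨g i, Algebra.subset_adjoin ⟨i, rfl⟩⟩
    (by show g i = MvPolynomial.aeval g (MvPolynomial.X i); rw [MvPolynomial.aeval_X])
  have h3 : σ₀ ⟨g i, Algebra.subset_adjoin ⟨i, rfl⟩⟩ = g' i := by
    rw [h2]
    exact MvPolynomial.aeval_X g' i
  exact h3

/-- **Automorphisms from permutations of generators.**  If the permutation `π` of the generators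
preserves all polynomial relations over `L`, it extends to an `L`-automorphism of `L(g)`. -/
theorem exists_algEquiv_of_rel (g : I → Ω) (π : Equiv.Perm I)
    (hrel : ∀ P : MvPolynomial I L,
      MvPolynomial.aeval g P = 0 ↔ MvPolynomial.aeval (g ∘ π) P = 0) :
    ∃ σ : adjoin L (Set.range g) ≃ₐ[L] adjoin L (Set.range g),
      ∀ i, σ (genAdj g i) = genAdj g (π i) := by
  -- relations for `π⁻¹`
  have hrel' : ∀ P : MvPolynomial I L,
      MvPolynomial.aeval g P = 0 ↔ MvPolynomial.aeval (g ∘ π.symm) P = 0 := by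
    intro P
    have h := hrel (MvPolynomial.rename π.symm P)
    rw [MvPolynomial.aeval_rename, MvPolynomial.aeval_rename] at h
    have h2 : (g ∘ π) ∘ π.symm = g := by
      funext i
      simp
    rw [h2] at h
    exact h.symm
  -- the two families inside `L(g)`
  have hrelK : ∀ (ρ : Equiv.Perm I), (∀ P : MvPolynomial I L,
      MvPolynomial.aeval g P = 0 ↔ MvPolynomial.aeval (g ∘ ρ) P = 0) →
      ∀ P : MvPolynomial I L, MvPolynomial.aeval g P = 0 ↔
        MvPolynomial.aeval (fun i => genAdj (L := L) g (ρ i)) P = 0 := by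
    intro ρ hρ P
    rw [hρ P]
    have h1 : (adjoin L (Set.range g)).val.toRingHom.comp
        (MvPolynomial.aeval (fun i => genAdj (L := L) g (ρ i)) :
          MvPolynomial I L →ₐ[L] adjoin L (Set.range g)).toRingHom
        = (MvPolynomial.aeval (g ∘ ρ) : MvPolynomial I L →ₐ[L] Ω).toRingHom := by
      apply MvPolynomial.ringHom_ext
      · intro c
        simp
      · intro i
        simp
    have h2 : ((MvPolynomial.aeval (fun i => genAdj (L := L) g (ρ i)) P :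
        adjoin L (Set.range g)) : Ω) = MvPolynomial.aeval (g ∘ ρ) P :=
      congrArg (fun f : MvPolynomial I L →+* Ω => f P) h1
    rw [← h2]
    constructor
    · intro h
      exact Subtype.ext h
    · intro h
      rw [h]
      rfl
  obtain ⟨τ, hτ⟩ := exists_algHom_of_rel g (fun i => genAdj (L := L) g (π i)) (hrelK π hrel)
  obtain ⟨τ', hτ'⟩ := exists_algHom_of_rel g (fun i => genAdj (L := L) g (π.symm i))
    (hrelK π.symm hrel')
  have h1 : τ.comp τ' = AlgHom.id L _ := by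
    apply adjoin_algHom_ext g
    intro i
    rw [AlgHom.comp_apply, hτ', hτ]
    simp
  have h2 : τ'.comp τ = AlgHom.id L _ := by
    apply adjoin_algHom_ext g
    intro i
    rw [AlgHom.comp_apply, hτ, hτ']
    simp
  exact ⟨AlgEquiv.ofAlgHom τ τ' h1 h2, hτ⟩

end Algebra

/-! ### Analysis: relations from analytic avatars -/

section Avatars

variable {L : Type*} [Field L] {I : Type*}

/-- Evaluation of a polynomial over `L` at a family of functions on `ℍ`. -/
def evalFun (ι : L →+* ℂ) (A : I → ℍ → ℂ) : MvPolynomial I L →+* (ℍ → ℂ) :=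
  MvPolynomial.eval₂Hom ((algebraMap ℂ (ℍ → ℂ)).comp ι) A

theorem evalFun_C (ι : L →+* ℂ) (A : I → ℍ → ℂ) (c : L) (z : ℍ) :
    evalFun ι A (MvPolynomial.C c) z = ι c := by
  simp [evalFun]

theorem evalFun_X (ι : L →+* ℂ) (A : I → ℍ → ℂ) (i : I) :
    evalFun ι A (MvPolynomial.X i) = A i := by
  simp [evalFun]

/-- The `q`-expansion of a polynomial in the avatars is the polynomial in the series. -/
theorem infExp_evalFun (ι : L →+* ℂ) (g : I → LaurentSeries L) (A : I → ℍ → ℂ)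
    (hA : ∀ i, InfExp 1 (A i) (coeffMap ι (g i))) (P : MvPolynomial I L) :
    InfExp 1 (evalFun ι A P) (coeffMap ι (MvPolynomial.aeval g P)) := by
  induction P using MvPolynomial.induction_on with
  | C c =>
    have h1 : evalFun ι A (MvPolynomial.C c) = fun _ => ι c := by
      funext z
      exact evalFun_C ι A c z
    have h2 : coeffMap ι (MvPolynomial.aeval g (MvPolynomial.C c)) = HahnSeries.C (ι c) := by
      rw [MvPolynomial.aeval_C, algebraMap_laurentSeries_eq_single, coeffMap_single]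
      rfl
    rw [h1, h2]
    exact InfExp.const _
  | add P Q hP hQ =>
    rw [map_add, map_add, map_add]
    exact hP.add hQ
  | mul_X P i hP =>
    rw [map_mul, map_mul, map_mul, evalFun_X, MvPolynomial.aeval_X]
    exact hP.mul (hA i)

theorem evalFun_comp (ι : L →+* ℂ) (A : I → ℍ → ℂ) (π : I → I) (γ : ℍ → ℍ)
    (hγ : ∀ i z, A i (γ z) = A (π i) z) (P : MvPolynomial I L) (z : ℍ) :
    evalFun ι A P (γ z) = evalFun ι (A ∘ π) P z := by
  induction P using MvPolynomial.induction_on with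
  | C c => rw [evalFun_C, evalFun_C]
  | add P Q hP hQ =>
    rw [map_add, map_add, Pi.add_apply, Pi.add_apply, hP, hQ]
  | mul_X P i hP =>
    rw [map_mul, map_mul, Pi.mul_apply, Pi.mul_apply, hP, evalFun_X, evalFun_X, hγ]
    rfl

/-- **Relations from avatars.**  A self-map `γ` of `ℍ` permuting the avatars maps relations
between the series to relations. -/
theorem rel_of_avatars (ι : L →+* ℂ) (g : I → LaurentSeries L) (A : I → ℍ → ℂ)
    (hA : ∀ i, InfExp 1 (A i) (coeffMap ι (g i))) (π : I → I) (γ : ℍ → ℍ)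
    (hγ : ∀ i z, A i (γ z) = A (π i) z) (P : MvPolynomial I L)
    (hP : MvPolynomial.aeval g P = 0) : MvPolynomial.aeval (g ∘ π) P = 0 := by
  have h1 := infExp_evalFun ι g A hA P
  rw [hP, map_zero] at h1
  have h0 : evalFun ι A P = fun _ => 0 := h1.fun_unique InfExp.zero
  have h2 := infExp_evalFun ι (g ∘ π) (A ∘ π) (fun i => hA (π i)) P
  have h3 : evalFun ι (A ∘ π) P = fun _ => 0 := by
    funext z
    rw [← evalFun_comp ι A π γ hγ P z, h0]
  rw [h3] at h2
  have h4 : coeffMap ι (MvPolynomial.aeval (g ∘ π) P) = 0 := h2.eq_zero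
  exact inf_coeffMap_injective ι.injective (h4.trans (map_zero _).symm)

/-- **FF-DIA, generic form.**  Generators `g i ∈ L((q))` with analytic avatars `A i` on `ℍ`, a
permutation `π` of the generators and a bijection `γ` of `ℍ` with `A i ∘ γ = A (π i)`: there is
an `L`-automorphism of `L(g)` with `g i ↦ g (π i)`. -/
theorem exists_algEquiv_of_avatars (ι : L →+* ℂ) (g : I → LaurentSeries L) (A : I → ℍ → ℂ)
    (hA : ∀ i, InfExp 1 (A i) (coeffMap ι (g i))) (π : Equiv.Perm I) (γ : Equiv.Perm ℍ)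
    (hγ : ∀ i z, A i (γ z) = A (π i) z) :
    ∃ σ : adjoin L (Set.range g) ≃ₐ[L] adjoin L (Set.range g),
      ∀ i, σ (genAdj g i) = genAdj g (π i) := by
  refine exists_algEquiv_of_rel g π fun P => ⟨rel_of_avatars ι g A hA π γ hγ P, fun h => ?_⟩
  have hγ' : ∀ i z, (A ∘ π) i (γ.symm z) = (A ∘ π) (π.symm i) z := by
    intro i z
    simp only [Function.comp_apply, Equiv.apply_symm_apply]
    rw [← hγ i (γ.symm z), Equiv.apply_symm_apply]
  have h1 := rel_of_avatars ι (g ∘ π) (A ∘ π) (fun i => hA (π i)) π.symm γ.symm hγ' P h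
  have h2 : (g ∘ π) ∘ π.symm = g := by
    funext i
    simp
  rwa [h2] at h1

end Avatars

end Fermat.Agent.S48.H848

end
end
-- ===== PACK-END S48/H848/DiaGen.lean

-- ===== PACK-BEGIN S48/H882/GoodG.lean
section




/-!
# Tower A1 / A1-KUM (helper882): good functions and their `q`-expansions for ANY subgroup `Γ`

Generic version (any subgroup `Γ ≤ SL(2,ℤ)`) of the landed `Γ₀(N)` files `S24/Deg/H648Conj`,
`S24/Deg/H648D5` and `S29/H882/GoodQ`:

* `GoodG Γ f` : `f` is holomorphic on `ℍ`, `Γ`-invariant and all `SL(2,ℤ)`-translates have at most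
  exponential growth (`= S48.H332.IsGoodFor Γ f`, `= f ∈ S24.H648.goodRing N` for `Γ = Γ₀(N)`);
* `goodRingG Γ`, `goodQG Γ` (the algebra of `q`-expansions at `i∞`);
* `exists_monic_of_mem_goodQG` : for `Γ` of finite index, every element of `goodQG Γ` is a root of
  a monic polynomial of degree `[SL(2,ℤ) : Γ]` over `ℂ[j]`;
* `algDeg_of_mem_adjoin_goodQG` : hence every element of the FIELD generated by `goodQG Γ` is
  algebraic of degree `≤ [SL(2,ℤ) : Γ]` over `ℂ[j]`.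
-/

set_option autoImplicit false

noncomputable section

open UpperHalfPlane ModularGroup CongruenceSubgroup Polynomial ModularCurve
open scoped MatrixGroups Manifold Modular Real

namespace Fermat.Agent.S48.H882

open Fermat.Agent.S24 Fermat.Agent.S24.H648 Fermat.Agent.S24.H708 Fermat.Agent.S24.Deg457

variable (Γ : Subgroup SL(2, ℤ))

/-- `f` is a good function for `Γ`: holomorphic, `Γ`-invariant, all `SL(2,ℤ)`-translates of at
most exponential growth at `i∞`. -/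
def GoodG (f : ℍ → ℂ) : Prop :=
  MDifferentiable 𝓘(ℂ) 𝓘(ℂ) f ∧ (∀ γ ∈ Γ, ∀ τ : ℍ, f (γ • τ) = f τ) ∧
    ∀ g : SL(2, ℤ), ExpGrowth (fun τ => f (g • τ))

theorem goodG_Gamma0_iff {N : ℕ} {f : ℍ → ℂ} : GoodG (Gamma0 N) f ↔ f ∈ goodRing N := Iff.rfl

variable {Γ} in
theorem GoodG.mono {Γ' : Subgroup SL(2, ℤ)} {f : ℍ → ℂ} (h : GoodG Γ' f) (hle : Γ ≤ Γ') :
    GoodG Γ f :=
  ⟨h.1, fun γ hγ τ => h.2.1 γ (hle hγ) τ, h.2.2⟩

/-- A good function for `SL(2,ℤ) = Γ₀(1)` is good for every `Γ`. -/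
theorem goodG_of_mem_goodRing_one {f : ℍ → ℂ} (hf : f ∈ goodRing 1) : GoodG Γ f := by
  refine ⟨hf.1, fun γ _ τ => hf.2.1 γ ?_ τ, hf.2.2⟩
  rw [Gamma0_mem]
  exact Subsingleton.elim _ _

/-- The algebra of good functions for `Γ`. -/
def goodRingG : Subalgebra ℂ (ℍ → ℂ) where
  carrier := {f | GoodG Γ f}
  mul_mem' := by
    rintro f g ⟨h1, h2, h3⟩ ⟨h1', h2', h3'⟩
    refine ⟨h1.mul h1', fun γ hγ τ => ?_, fun g => ?_⟩
    · show f (γ • τ) * g (γ • τ) = f τ * g τ
      rw [h2 γ hγ τ, h2' γ hγ τ]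
    · exact (h3 g).mul (h3' g)
  add_mem' := by
    rintro f g ⟨h1, h2, h3⟩ ⟨h1', h2', h3'⟩
    refine ⟨h1.add h1', fun γ hγ τ => ?_, fun g => ?_⟩
    · show f (γ • τ) + g (γ • τ) = f τ + g τ
      rw [h2 γ hγ τ, h2' γ hγ τ]
    · exact (h3 g).add (h3' g)
  algebraMap_mem' := fun c =>
    ⟨mdifferentiable_const, fun _ _ _ => rfl, fun _ => expGrowth_const c⟩

variable {Γ}

theorem mem_goodRingG {f : ℍ → ℂ} : f ∈ goodRingG Γ ↔ GoodG Γ f := Iff.rfl

theorem GoodG.mul {f g : ℍ → ℂ} (hf : GoodG Γ f) (hg : GoodG Γ g) : GoodG Γ (f * g) :=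
  (goodRingG Γ).mul_mem hf hg

theorem GoodG.add {f g : ℍ → ℂ} (hf : GoodG Γ f) (hg : GoodG Γ g) : GoodG Γ (f + g) :=
  (goodRingG Γ).add_mem hf hg

theorem GoodG.pow {f : ℍ → ℂ} (hf : GoodG Γ f) (n : ℕ) : GoodG Γ (f ^ n) :=
  (goodRingG Γ).pow_mem hf n

theorem GoodG.const (c : ℂ) : GoodG Γ (fun _ => c) :=
  (goodRingG Γ).algebraMap_mem c

/-! ### Conjugates and the characteristic polynomial -/

variable (Γ) in
/-- The conjugate `f ∘ gₓ⁻¹` of `f` attached to the coset `x = gₓ Γ`. -/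
def conjG (f : ℍ → ℂ) (x : SL(2, ℤ) ⧸ Γ) : ℍ → ℂ :=
  fun τ => f ((Quotient.out x)⁻¹ • τ)

theorem conjG_mk {f : ℍ → ℂ} (hf : ∀ γ ∈ Γ, ∀ τ : ℍ, f (γ • τ) = f τ) (g : SL(2, ℤ))
    (τ : ℍ) : conjG Γ f (g : SL(2, ℤ) ⧸ Γ) τ = f (g⁻¹ • τ) := by
  obtain ⟨h, hh⟩ := QuotientGroup.mk_out_eq_mul Γ g
  unfold conjG
  rw [hh, mul_inv_rev, mul_smul]
  exact hf _ (inv_mem h.2) _

theorem conjG_smul {f : ℍ → ℂ} (hf : ∀ γ ∈ Γ, ∀ τ : ℍ, f (γ • τ) = f τ) (γ : SL(2, ℤ))
    (x : SL(2, ℤ) ⧸ Γ) (τ : ℍ) : conjG Γ f x (γ • τ) = conjG Γ f (γ⁻¹ • x) τ := by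
  induction x using QuotientGroup.induction_on with
  | H g =>
    rw [conjG_mk hf, MulAction.Quotient.smul_mk, conjG_mk hf, smul_eq_mul, mul_inv_rev, inv_inv,
      mul_smul]

theorem conjG_one_coset {f : ℍ → ℂ} (hf : ∀ γ ∈ Γ, ∀ τ : ℍ, f (γ • τ) = f τ) (τ : ℍ) :
    conjG Γ f ((1 : SL(2, ℤ)) : SL(2, ℤ) ⧸ Γ) τ = f τ := by
  rw [conjG_mk hf]; simp

theorem conjG_mem_niceRing {f : ℍ → ℂ} (hf : GoodG Γ f) (x : SL(2, ℤ) ⧸ Γ) :
    conjG Γ f x ∈ niceRing :=
  ⟨mdifferentiable_comp_smul hf.1 _, hf.2.2 _⟩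

variable (Γ) in
/-- The "characteristic polynomial" `∏ₓ (Y - f ∘ gₓ⁻¹)` evaluated at `τ`. -/
def charPolyAtG [Fintype (SL(2, ℤ) ⧸ Γ)] (f : ℍ → ℂ) (τ : ℍ) : ℂ[X] :=
  ∏ x : SL(2, ℤ) ⧸ Γ, (X - C (conjG Γ f x τ))

section charPoly

variable [Fintype (SL(2, ℤ) ⧸ Γ)]

theorem charPolyAtG_monic (f : ℍ → ℂ) (τ : ℍ) : (charPolyAtG Γ f τ).Monic :=
  Polynomial.monic_prod_of_monic _ _ fun _ _ => Polynomial.monic_X_sub_C _

theorem charPolyAtG_natDegree (f : ℍ → ℂ) (τ : ℍ) :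
    (charPolyAtG Γ f τ).natDegree = Fintype.card (SL(2, ℤ) ⧸ Γ) := by
  unfold charPolyAtG
  rw [Polynomial.natDegree_prod_of_monic _ _ fun _ _ => Polynomial.monic_X_sub_C _]
  simp

theorem charPolyAtG_smul {f : ℍ → ℂ} (hf : ∀ γ ∈ Γ, ∀ τ : ℍ, f (γ • τ) = f τ)
    (γ : SL(2, ℤ)) (τ : ℍ) : charPolyAtG Γ f (γ • τ) = charPolyAtG Γ f τ := by
  unfold charPolyAtG
  refine Fintype.prod_equiv (MulAction.toPerm γ⁻¹) _ _ fun x => ?_
  rw [conjG_smul hf]
  rfl

theorem charPolyAtG_eval_self {f : ℍ → ℂ} (hf : ∀ γ ∈ Γ, ∀ τ : ℍ, f (γ • τ) = f τ)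
    (τ : ℍ) : (charPolyAtG Γ f τ).eval (f τ) = 0 := by
  unfold charPolyAtG
  rw [Polynomial.eval_prod]
  refine Finset.prod_eq_zero (Finset.mem_univ ((1 : SL(2, ℤ)) : SL(2, ℤ) ⧸ Γ)) ?_
  rw [conjG_one_coset hf]
  simp

theorem coeff_charPolyAtG_mem_niceRing {f : ℍ → ℂ} (hf : GoodG Γ f) (k : ℕ) :
    (fun τ => (charPolyAtG Γ f τ).coeff k) ∈ niceRing :=
  coeff_prod_mem_niceRing (conjG Γ f) (conjG_mem_niceRing hf) Finset.univ k

/-- The conjugate product `∏ₓ (Y - f ∘ gₓ⁻¹)` of a good function `f` has coefficients in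
`ℂ[j]`. -/
theorem exists_charPolyG_jFun {f : ℍ → ℂ} (hf : GoodG Γ f) :
    ∃ P : (ℂ[X])[X], P.Monic ∧ P.natDegree = Fintype.card (SL(2, ℤ) ⧸ Γ) ∧
      ∀ τ : ℍ, P.map (Polynomial.evalRingHom (H648.jFun τ)) = charPolyAtG Γ f τ := by
  classical
  set n := Fintype.card (SL(2, ℤ) ⧸ Γ) with hn
  have key : ∀ k : ℕ, ∃ p : ℂ[X], ∀ τ, (charPolyAtG Γ f τ).coeff k = p.eval (H648.jFun τ) := by
    intro k
    have h := coeff_charPolyAtG_mem_niceRing hf k
    exact exists_polynomial_of_expGrowth _ h.1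
      (fun γ τ => by rw [charPolyAtG_smul hf.2.1]) h.2
  choose p hp using key
  set Q : (ℂ[X])[X] := ∑ i ∈ Finset.range n, C (p i) * X ^ i with hQ
  have hQdeg : Q.degree < n := by
    rw [Polynomial.degree_lt_iff_coeff_zero]
    intro m hm
    rw [hQ, Polynomial.finsetSum_coeff]
    refine Finset.sum_eq_zero fun i hi => ?_
    rw [Polynomial.coeff_C_mul_X_pow, if_neg]
    have := Finset.mem_range.mp hi
    omega
  refine ⟨X ^ n + Q, Polynomial.monic_X_pow_add hQdeg, ?_, fun τ => ?_⟩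
  · rw [Polynomial.natDegree_add_eq_left_of_degree_lt (by rwa [Polynomial.degree_X_pow]),
      Polynomial.natDegree_X_pow]
  · have h1 := (charPolyAtG_monic (Γ := Γ) f τ).as_sum
    rw [charPolyAtG_natDegree] at h1
    rw [h1, Polynomial.map_add, Polynomial.map_pow, Polynomial.map_X, hQ, Polynomial.map_sum]
    congr 1
    refine Finset.sum_congr rfl fun i _ => ?_
    rw [Polynomial.map_mul, Polynomial.map_pow, Polynomial.map_X, Polynomial.map_C,
      Polynomial.coe_evalRingHom, ← hp i τ]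

theorem exists_charPolyG_jFun_eval_eq_zero {f : ℍ → ℂ} (hf : GoodG Γ f) :
    ∃ P : (ℂ[X])[X], P.Monic ∧ P.natDegree = Fintype.card (SL(2, ℤ) ⧸ Γ) ∧
      ∀ τ : ℍ, (P.map (Polynomial.evalRingHom (H648.jFun τ))).eval (f τ) = 0 := by
  obtain ⟨P, h1, h2, h3⟩ := exists_charPolyG_jFun hf
  exact ⟨P, h1, h2, fun τ => by rw [h3, charPolyAtG_eval_self hf.2.1]⟩

end charPoly

/-! ### `q`-expansions at `i∞` (for `T ∈ Γ`) -/

/-- A `Γ`-invariant function is `1`-periodic if `T ∈ Γ`. -/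
theorem periodic_of_invariantG (hT : ModularGroup.T ∈ Γ) {f : ℍ → ℂ}
    (hf : ∀ γ ∈ Γ, ∀ τ : ℍ, f (γ • τ) = f τ) :
    Function.Periodic (f ∘ ofComplex) (1 : ℝ) := by
  intro w
  by_cases hw : 0 < Complex.im w
  · have hw' : 0 < Complex.im (w + ((1 : ℝ) : ℂ)) := by simpa using hw
    simp only [Function.comp_apply, ofComplex_apply_of_im_pos hw', ofComplex_apply_of_im_pos hw]
    have h := hf _ hT ⟨w, hw⟩
    rw [← h]
    congr 1
    apply UpperHalfPlane.ext
    rw [UpperHalfPlane.modular_T_smul, UpperHalfPlane.coe_vadd]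
    simp [add_comm]
  · have hw0 : Complex.im w ≤ 0 := not_lt.mp hw
    have hw' : Complex.im (w + ((1 : ℝ) : ℂ)) ≤ 0 := by simpa using hw0
    simp only [Function.comp_apply]
    rw [ofComplex_apply_of_im_nonpos hw', ofComplex_apply_of_im_nonpos hw0]

theorem isMerInf_of_goodG (hT : ModularGroup.T ∈ Γ) {f : ℍ → ℂ} (hf : GoodG Γ f) :
    IsMerInf 1 f := by
  obtain ⟨h1, h2, h3⟩ := hf
  refine ⟨h1, ?_, ?_⟩
  · have := periodic_of_invariantG hT h2
    simpa using this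
  · have h := h3 1
    simp only [one_smul] at h
    exact Fermat.Agent.S29.H882.isBounded_mul_qh_pow_of_expGrowth h

theorem hasQExp_of_goodG (hT : ModularGroup.T ∈ Γ) {f : ℍ → ℂ} (hf : GoodG Γ f) :
    HasQExp 1 f (qexpFun 1 f) :=
  HasQExp.of_isMerInf (isMerInf_of_goodG hT hf)

variable (Γ) in
/-- The algebra of `q`-expansions of good functions for `Γ`. -/
def goodQG : Subalgebra ℂ (LaurentSeries ℂ) where
  carrier := {b | ∃ f, GoodG Γ f ∧ HasQExp 1 f b}
  mul_mem' := by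
    rintro a b ⟨f, hf, hfa⟩ ⟨g, hg, hgb⟩
    exact ⟨f * g, hf.mul hg, hfa.mul hgb⟩
  add_mem' := by
    rintro a b ⟨f, hf, hfa⟩ ⟨g, hg, hgb⟩
    exact ⟨f + g, hf.add hg, hfa.add hgb⟩
  algebraMap_mem' := fun c => by
    refine ⟨fun _ => c, GoodG.const c, ?_⟩
    have : algebraMap ℂ (LaurentSeries ℂ) c = HahnSeries.C c := by
      rw [algebraMap_laurentSeries_eq_single]; rfl
    rw [this]
    exact HasQExp.const 1 c

theorem mem_goodQG {b : LaurentSeries ℂ} :
    b ∈ goodQG Γ ↔ ∃ f, GoodG Γ f ∧ HasQExp 1 f b := Iff.rfl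

theorem qexpFun_mem_goodQG (hT : ModularGroup.T ∈ Γ) {f : ℍ → ℂ} (hf : GoodG Γ f) :
    qexpFun 1 f ∈ goodQG Γ :=
  ⟨f, hf, hasQExp_of_goodG hT hf⟩

variable (Γ) in
/-- `j` is good for every `Γ`. -/
theorem JK_mem_goodQG : JK ℂ ∈ goodQG Γ := by
  obtain ⟨f, hf, hq⟩ := Fermat.Agent.S29.H882.JK_mem_goodQ 1
  exact ⟨f, goodG_of_mem_goodRing_one Γ hf, hq⟩

/-- Every `q`-expansion of a good function for `Γ` (of finite index) is a root of a monic
polynomial of degree `[SL(2,ℤ) : Γ]` over `ℂ[j]`. -/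
theorem exists_monic_of_mem_goodQG [Finite (SL(2, ℤ) ⧸ Γ)] {b : LaurentSeries ℂ}
    (hb : b ∈ goodQG Γ) :
    ∃ P : ℂ[X][X], P.Monic ∧ P.natDegree = Nat.card (SL(2, ℤ) ⧸ Γ) ∧
      P.eval₂ (evJ (JK ℂ)) b = 0 := by
  obtain ⟨f, hf, hfb⟩ := hb
  let _inst : Fintype (SL(2, ℤ) ⧸ Γ) := Fintype.ofFinite _
  obtain ⟨P, hPm, hPn, hP⟩ := exists_charPolyG_jFun_eval_eq_zero (Γ := Γ) hf
  refine ⟨P, hPm, ?_, ?_⟩
  · rw [hPn, Nat.card_eq_fintype_card]
  · have h1 := hasQExp_eval₂ P hfb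
    rw [h1.eq_zero_iff]
    funext τ
    exact hP τ

theorem algDeg_of_mem_goodQG [Finite (SL(2, ℤ) ⧸ Γ)] {b : LaurentSeries ℂ}
    (hb : b ∈ goodQG Γ) : AlgDeg ℂ (Nat.card (SL(2, ℤ) ⧸ Γ)) b := by
  obtain ⟨P, hPm, hPn, hP⟩ := exists_monic_of_mem_goodQG hb
  exact ⟨P, hPm.ne_zero, hPn.le, hP⟩

/-- Every element of the FIELD generated by the `q`-expansions of good functions is algebraic of
degree `≤ [SL(2,ℤ) : Γ]` over `ℂ[j]`. -/
theorem algDeg_of_mem_adjoin_goodQG [Finite (SL(2, ℤ) ⧸ Γ)] {x : LaurentSeries ℂ}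
    (hx : x ∈ IntermediateField.adjoin ℂ (goodQG Γ : Set (LaurentSeries ℂ))) :
    AlgDeg ℂ (Nat.card (SL(2, ℤ) ⧸ Γ)) x :=
  Fermat.Agent.S29.H882.algDeg_of_mem_adjoin (goodQG Γ) (JK_mem_goodQG Γ)
    (fun _ hb => algDeg_of_mem_goodQG hb) hx

end Fermat.Agent.S48.H882

end
end
-- ===== PACK-END S48/H882/GoodG.lean

-- ===== PACK-BEGIN S48/H882/GenField.lean
section


/-!
# Tower A1 / A1-KUM (helper882): function fields `K·F₀` generated by realised series — GEN + DEG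

Generic version (ANY subgroup `Γ ≤ SL(2,ℤ)`, ANY field `F₀ ⊆ ℚ((q))` generated by a set `S` of
series) of the landed `Γ₀(N)` files `S24/Deg/H457_Alg` (`gens`, `AK`, `laurentBaseChange_full_le`)
and `S29/M4b/K3/{Basic,Deg}` (`exists_div_AK`, `exists_div_goodQ`, `degStatement`).

* `gensG K S`, `AKG K S` : the generators over `K` and the `K`-algebra they generate;
* `GenData Γ F₀ S` : `F₀ = ℚ(S)` and every `s ∈ S` is the `q`-expansion at `i∞` of a good
  function for `Γ` (for `F₀ = F1 M`, `Γ = Γ₁(M)`: `S = {j(q^d)} ∪ {P_a}`, avatars `j(dτ)`,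
  `pFun M a`);
* `exists_div_AKG`, `GenData.exists_div_goodQG` : quotient presentations;
* `GenData.algDeg`, `GenData.degStatement` : **DEG** — every element of `ℂ·F₀` is integral of
  degree `≤ [SL(2,ℤ) : Γ]` over `ℂ(j)` (exactly the hypothesis `hdeg` of `S29.H152.desc_main`).
-/

set_option autoImplicit false

noncomputable section

open UpperHalfPlane ModularGroup CongruenceSubgroup Polynomial ModularCurve
open scoped MatrixGroups Manifold Modular Real

namespace Fermat.Agent.S48.H882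

open Fermat.Agent.S24 Fermat.Agent.S24.H648 Fermat.Agent.S24.H708 Fermat.Agent.S24.Deg457

section Alg

variable (K : Type*) [Field K] [Algebra ℚ K] (S : Set (LaurentSeries ℚ))

/-- The generators `S`, with coefficients in `K`. -/
def gensG : Set (LaurentSeries K) := ⇑(coeffEmb K) '' S

/-- The `K`-algebra generated by `S`. -/
def AKG : Subalgebra K (LaurentSeries K) := Algebra.adjoin K (gensG K S)

variable {K S}

theorem coeffEmb_mem_AKG {s : LaurentSeries ℚ} (hs : s ∈ S) : coeffEmb K s ∈ AKG K S :=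
  Algebra.subset_adjoin ⟨s, hs, rfl⟩

theorem coeffMap_mem_AKG {L : Type*} [Field L] [Algebra ℚ L] (ι : K →+* L)
    {a : LaurentSeries K} (ha : a ∈ AKG K S) : coeffMap ι a ∈ AKG L S := by
  unfold AKG at ha
  induction ha using Algebra.adjoin_induction with
  | mem x hx =>
    obtain ⟨y, hy, rfl⟩ := hx
    rw [coeffMap_coeffEmb']
    exact Algebra.subset_adjoin ⟨y, hy, rfl⟩
  | algebraMap r =>
    rw [coeffMap_algebraMap']
    exact Subalgebra.algebraMap_mem _ _
  | add x y _ _ hx hy =>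
    rw [map_add]; exact Subalgebra.add_mem _ hx hy
  | mul x y _ _ hx hy =>
    rw [map_mul]; exact Subalgebra.mul_mem _ hx hy

theorem coeffEmb_mem_adjoin_gensG {y : LaurentSeries ℚ}
    (hy : y ∈ IntermediateField.adjoin ℚ S) :
    coeffEmb K y ∈ IntermediateField.adjoin K (gensG K S) := by
  refine IntermediateField.adjoin_induction ℚ
    (p := fun y _ => coeffEmb K y ∈ IntermediateField.adjoin K (gensG K S)) ?_ ?_ ?_ ?_ ?_ hy
  · intro x hx
    exact IntermediateField.subset_adjoin K _ ⟨x, hx, rfl⟩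
  · intro c
    have : coeffEmb K (algebraMap ℚ (LaurentSeries ℚ) c)
        = algebraMap K (LaurentSeries K) (algebraMap ℚ K c) := by
      rw [coeffEmb, coeffMap_algebraMap']
    rw [this]
    exact IntermediateField.algebraMap_mem _ _
  · intro x y _ _ hx hy
    rw [map_add]; exact add_mem hx hy
  · intro x _ hx
    rw [map_inv₀]; exact inv_mem hx
  · intro x y _ _ hx hy
    rw [map_mul]; exact mul_mem hx hy

variable (K) in
/-- The base-changed field `K·F₀` is generated over `K` by `S` if `F₀ ⊆ ℚ(S)`. -/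
theorem laurentBaseChange_le_adjoin_gensG {F₀ : IntermediateField ℚ (LaurentSeries ℚ)}
    (hS : F₀ ≤ IntermediateField.adjoin ℚ S) :
    laurentBaseChange K F₀ ≤ IntermediateField.adjoin K (gensG K S) := by
  rw [laurentBaseChange, IntermediateField.adjoin_le_iff]
  rintro _ ⟨y, hy, rfl⟩
  exact coeffEmb_mem_adjoin_gensG (hS hy)

variable (K) in
/-- The polynomials in the generators lie in `K·F₀` if `S ⊆ F₀`. -/
theorem AKG_le_laurentBaseChange {F₀ : IntermediateField ℚ (LaurentSeries ℚ)}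
    (hS : S ⊆ F₀) : AKG K S ≤ (laurentBaseChange K F₀).toSubalgebra := by
  refine Algebra.adjoin_le ?_
  rintro _ ⟨y, hy, rfl⟩
  exact coeffEmb_mem_laurentBaseChange K (hS hy)

variable (K) in
/-- Every element of `K·F₀` is a quotient of two polynomials in the generators. -/
theorem exists_div_AKG {F₀ : IntermediateField ℚ (LaurentSeries ℚ)}
    (hS : F₀ ≤ IntermediateField.adjoin ℚ S) {x : LaurentSeries K}
    (hx : x ∈ laurentBaseChange K F₀) :
    ∃ r ∈ AKG K S, ∃ s ∈ AKG K S, s ≠ 0 ∧ x = r / s := by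
  have h := laurentBaseChange_le_adjoin_gensG K hS hx
  rw [IntermediateField.mem_adjoin_iff_div] at h
  obtain ⟨r, hr, s, hs, rfl⟩ := h
  by_cases hs0 : s = 0
  · refine ⟨0, zero_mem _, 1, one_mem _, one_ne_zero, ?_⟩
    rw [hs0, div_zero, zero_div]
  · exact ⟨r, hr, s, hs, hs0, rfl⟩

end Alg

/-! ### GEN: generators realised by good functions -/

/-- **GEN** for `(Γ, F₀)`: `F₀ = ℚ(S)` and every generator `s ∈ S` is the `q`-expansion at `i∞`
of a good function for `Γ`. -/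
structure GenData (Γ : Subgroup SL(2, ℤ)) (F₀ : IntermediateField ℚ (LaurentSeries ℚ))
    (S : Set (LaurentSeries ℚ)) : Prop where
  subset : S ⊆ F₀
  le_adjoin : F₀ ≤ IntermediateField.adjoin ℚ S
  real : ∀ s ∈ S, coeffEmb ℂ s ∈ goodQG Γ

/-- **MERO** for `(Γ, F₀)`: the `q`-expansion of every good function for `Γ` lies in `ℂ·F₀`. -/
def MeroG (Γ : Subgroup SL(2, ℤ)) (F₀ : IntermediateField ℚ (LaurentSeries ℚ)) : Prop :=
  ∀ G : ℍ → ℂ, GoodG Γ G → qexpFun 1 G ∈ laurentBaseChange ℂ F₀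

namespace GenData

variable {Γ : Subgroup SL(2, ℤ)} {F₀ : IntermediateField ℚ (LaurentSeries ℚ)}
  {S : Set (LaurentSeries ℚ)}

/-- GEN passes to subgroups. -/
theorem mono (h : GenData Γ F₀ S) {Γ' : Subgroup SL(2, ℤ)} (hle : Γ' ≤ Γ) : GenData Γ' F₀ S :=
  ⟨h.subset, h.le_adjoin, fun s hs => by
    obtain ⟨f, hf, hq⟩ := h.real s hs
    exact ⟨f, hf.mono hle, hq⟩⟩

theorem AKG_le_goodQG (h : GenData Γ F₀ S) : AKG ℂ S ≤ goodQG Γ := by
  refine Algebra.adjoin_le ?_
  rintro _ ⟨s, hs, rfl⟩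
  exact h.real s hs

/-- Polynomials in the generators over any `K ⊆ ℂ` are realised by good functions. -/
theorem coeffMap_mem_goodQG (h : GenData Γ F₀ S) {K : Type*} [Field K] [Algebra ℚ K]
    (ι : K →+* ℂ) {a : LaurentSeries K} (ha : a ∈ AKG K S) : coeffMap ι a ∈ goodQG Γ :=
  h.AKG_le_goodQG (coeffMap_mem_AKG ι ha)

/-- Every element of `ℂ·F₀` is a quotient of `q`-expansions of good functions. -/
theorem exists_div_goodQG (h : GenData Γ F₀ S) {x : LaurentSeries ℂ}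
    (hx : x ∈ laurentBaseChange ℂ F₀) :
    ∃ a ∈ goodQG Γ, ∃ b ∈ goodQG Γ, b ≠ 0 ∧ x = a / b := by
  obtain ⟨r, hr, s, hs, hs0, hrs⟩ := exists_div_AKG ℂ h.le_adjoin hx
  exact ⟨r, h.AKG_le_goodQG hr, s, h.AKG_le_goodQG hs, hs0, hrs⟩

theorem laurentBaseChange_le_adjoin_goodQG (h : GenData Γ F₀ S) :
    laurentBaseChange ℂ F₀ ≤ IntermediateField.adjoin ℂ (goodQG Γ : Set (LaurentSeries ℂ)) := by
  refine (laurentBaseChange_le_adjoin_gensG ℂ h.le_adjoin).trans ?_
  refine IntermediateField.adjoin.mono ℂ _ _ ?_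
  rintro _ ⟨s, hs, rfl⟩
  exact h.real s hs

/-- Every element of `ℂ·F₀` is a root of a nonzero polynomial of degree `≤ [SL(2,ℤ) : Γ]` over
`ℂ[j]`. -/
theorem algDeg (h : GenData Γ F₀ S) [Finite (SL(2, ℤ) ⧸ Γ)] {x : LaurentSeries ℂ}
    (hx : x ∈ laurentBaseChange ℂ F₀) : AlgDeg ℂ (Nat.card (SL(2, ℤ) ⧸ Γ)) x :=
  algDeg_of_mem_adjoin_goodQG (h.laurentBaseChange_le_adjoin_goodQG hx)

/-- **DEG**: `ℂ·F₀` has bounded degree over `ℂ(j)` (hypothesis `hdeg` of `H152.desc_main`). -/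
theorem degStatement (h : GenData Γ F₀ S) [Finite (SL(2, ℤ) ⧸ Γ)] :
    ∀ u ∈ laurentBaseChange ℂ F₀,
      IsIntegral (IntermediateField.adjoin ℂ {coeffEmb ℂ jq}) u ∧
        (minpoly (IntermediateField.adjoin ℂ {coeffEmb ℂ jq}) u).natDegree
          ≤ Nat.card (SL(2, ℤ) ⧸ Γ) := by
  intro u hu
  obtain ⟨Q, hQ0, hQn, hQ⟩ := h.algDeg hu
  have hj : ∀ t : ℂ[X], t ≠ 0 →
      aeval (IntermediateField.AdjoinSimple.gen ℂ (coeffEmb ℂ jq)) t ≠ 0 := by
    intro t ht h0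
    apply aeval_JK_ne_zero ℂ ht
    have h1 := congrArg (algebraMap ↥(IntermediateField.adjoin ℂ {coeffEmb ℂ jq})
      (LaurentSeries ℂ)) h0
    rw [← aeval_algebraMap_apply, map_zero, IntermediateField.AdjoinSimple.algebraMap_gen] at h1
    exact h1
  refine isIntegral_and_natDegree_le_of_relation (K := ℂ)
    (IntermediateField.AdjoinSimple.gen ℂ (coeffEmb ℂ jq)) hj u Q hQ0 _ hQn ?_
  rw [IntermediateField.AdjoinSimple.algebraMap_gen]
  exact hQ

end GenData

end Fermat.Agent.S48.H882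

end
end
-- ===== PACK-END S48/H882/GenField.lean

-- ===== PACK-BEGIN S24/Mod/H564HolBase.lean
section




/-!
# S24 / MOD — a concrete term of helper997's `HolBase N` (helper564)

`Hol` is the ring of holomorphic functions `f : ℍ → ℂ` such that every `f ∘ g`, `g ∈ SL(2,ℤ)`,
has a convergent Laurent expansion in `z = exp (2πiτ/N)` (helper384's `expRing N`).  The
expansion map is helper384's `expInf N`, and `J d τ = J (dτ)`.

Inputs: an abstract `J : ℍ → ℂ`, holomorphic, `SL(2,ℤ)`-invariant, with `q`-expansion the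
Prelude series `jq` — and at the end the concrete instance `J = E₄³/Δ` (helper264's `jFun`).
-/

set_option autoImplicit false

noncomputable section

open HahnSeries ModularCurve UpperHalfPlane Complex
open scoped Real MatrixGroups Manifold

namespace Fermat.Agent.S24.H564

open Fermat.Agent.S24.H997

/-! ### Holomorphy of the substitutions -/

theorem mdiff_compSL (g : SL(2, ℤ)) {f : ℍ → ℂ} (hf : MDiff f) : MDiff (compSL g f) :=
  hf.comp (UpperHalfPlane.mdifferentiable_smul (g := (g : GL (Fin 2) ℝ)) (by simp))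

theorem mdiff_comp_infAff {J : ℍ → ℂ} (hJ : MDiff J) {a d : ℕ} (ha : 0 < a) (hd : 0 < d)
    (b : ℤ) : MDiff (fun τ => J (infAff a b d τ)) := by
  rw [UpperHalfPlane.mdifferentiable_iff] at hJ ⊢
  have hmap : ∀ z ∈ {z : ℂ | 0 < z.im}, ((a : ℂ) * z + b) / d ∈ {z : ℂ | 0 < z.im} := by
    intro z hz
    exact (infAff a b d ⟨z, hz⟩).im_pos.trans_eq (by rw [← UpperHalfPlane.coe_im,
      infAff_coe ha hd])
  have hdiff : DifferentiableOn ℂ (fun z : ℂ => ((a : ℂ) * z + b) / d) {z : ℂ | 0 < z.im} := by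
    intro z _
    exact ((differentiableAt_id.const_mul _).add_const _).div_const _ |>.differentiableWithinAt
  have h2 : DifferentiableOn ℂ ((J ∘ ofComplex) ∘ fun z : ℂ => ((a : ℂ) * z + b) / d)
      {z : ℂ | 0 < z.im} := hJ.comp hdiff hmap
  refine h2.congr ?_
  intro z hz
  simp only [Function.comp_apply]
  congr 1
  apply UpperHalfPlane.ext
  rw [infAff_coe ha hd, ofComplex_apply_of_im_pos hz, ofComplex_apply_of_im_pos (hmap z hz)]

/-! ### The ring `Hol` -/

/-- Holomorphic functions on `ℍ` all of whose `SL(2,ℤ)`-translates have a convergent Laurent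
expansion in `exp (2πiτ/N)`. -/
def holSubring (N : ℕ) [NeZero N] : Subring (ℍ → ℂ) where
  carrier := {f | MDiff f ∧ ∀ g : SL(2, ℤ), compSL g f ∈ expRing N}
  mul_mem' := by
    rintro f h ⟨hf, hf'⟩ ⟨hh, hh'⟩
    exact ⟨hf.mul hh, fun g => (expRing N).mul_mem (hf' g) (hh' g)⟩
  one_mem' := ⟨mdifferentiable_const, fun _ => (expRing N).one_mem⟩
  add_mem' := by
    rintro f h ⟨hf, hf'⟩ ⟨hh, hh'⟩
    exact ⟨hf.add hh, fun g => (expRing N).add_mem (hf' g) (hh' g)⟩
  zero_mem' := ⟨mdifferentiable_const, fun _ => (expRing N).zero_mem⟩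
  neg_mem' := by
    rintro f ⟨hf, hf'⟩
    exact ⟨hf.neg, fun g => (expRing N).neg_mem (hf' g)⟩

variable {N : ℕ} [NeZero N]

theorem mem_holSubring {f : ℍ → ℂ} :
    f ∈ holSubring N ↔ MDiff f ∧ ∀ g : SL(2, ℤ), compSL g f ∈ expRing N := Iff.rfl

theorem mdiff_of_mem_holSubring {f : ℍ → ℂ} (hf : f ∈ holSubring N) : MDiff f := hf.1

theorem holSubring_le_expRing : holSubring N ≤ expRing N := by
  intro f hf
  have := hf.2 1
  rwa [compSL_one] at this

theorem const_mem_holSubring (c : ℂ) : (fun _ : ℍ => c) ∈ holSubring N :=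
  ⟨mdifferentiable_const, fun _ => (InfExp.const c).mem_expRing⟩

theorem compSL_mem_holSubring (g : SL(2, ℤ)) {f : ℍ → ℂ} (hf : f ∈ holSubring N) :
    compSL g f ∈ holSubring N :=
  ⟨mdiff_compSL g hf.1, fun g' => by rw [← compSL_mul]; exact hf.2 _⟩

/-- The inclusion `Hol → expRing N`. -/
def holToExp (N : ℕ) [NeZero N] : holSubring N →+* expRing N :=
  Subring.inclusion holSubring_le_expRing

theorem holToExp_injective : Function.Injective (_root_.Fermat.Agent.S24.H564.holToExp N) :=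
  Subring.inclusion_injective _

/-- The expansion at `i∞` in `z = exp (2πiτ/N)` on `Hol`. -/
def holQexp (N : ℕ) [NeZero N] : holSubring N →+* LaurentSeries ℂ :=
  (expInf N).comp (_root_.Fermat.Agent.S24.H564.holToExp N)

theorem holQexp_injective : Function.Injective (holQexp N) :=
  (expInf_injective (N := N)).comp _root_.Fermat.Agent.S24.H564.holToExp_injective

theorem holQexp_spec (f : holSubring N) : InfExp N (f : ℍ → ℂ) (holQexp N f) :=
  expInf_spec (_root_.Fermat.Agent.S24.H564.holToExp N f)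

theorem holQexp_eq {f : ℍ → ℂ} (hf : f ∈ holSubring N) {φ : LaurentSeries ℂ}
    (h : InfExp N f φ) : holQexp N ⟨f, hf⟩ = φ :=
  (holQexp_spec ⟨f, hf⟩).unique h

theorem holQexp_const (c : ℂ) :
    holQexp N ⟨_, const_mem_holSubring c⟩ = HahnSeries.C c :=
  holQexp_eq _ (InfExp.const c)

/-! ### The functions `J d` -/

section Abstract

variable {J : ℍ → ℂ}

/-- `Γ₀(N)`-invariance of `τ ↦ J(dτ)` for `d ∣ N`. -/
theorem J_dil_invariant (hinv : ∀ (γ : SL(2, ℤ)) (τ : ℍ), J (γ • τ) = J τ) {d : ℕ}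
    (hd : d ∣ N) {g : SL(2, ℤ)} (hg : g ∈ CongruenceSubgroup.Gamma0 N) (τ : ℍ) :
    J (infAff d 0 1 (g • τ)) = J (infAff d 0 1 τ) := by
  have hN : 0 < N := Nat.pos_of_ne_zero (NeZero.ne N)
  have hd0 : 0 < d := Nat.pos_of_dvd_of_pos hd hN
  rw [CongruenceSubgroup.Gamma0_mem, ZMod.intCast_zmod_eq_zero_iff_dvd] at hg
  obtain ⟨c, hc⟩ : (d : ℤ) ∣ g 1 0 := (Int.natCast_dvd_natCast.mpr hd).trans hg
  have hdet := inf_sl_det g
  let g' : SL(2, ℤ) := ⟨!![g 0 0, (d : ℤ) * g 0 1; c, g 1 1], by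
    rw [Matrix.det_fin_two_of]
    rw [hc] at hdet
    linear_combination hdet⟩
  have h := inf_aff_smul_eq (d := d) (a := d) (d' := 1) (b := 0) hd0 hd0 one_pos g g'
    (by simp [g']; ring) (by simp [g']) (by simp [g', hc]; ring) (by simp [g']) τ
  rw [h, hinv]

variable (N) in
/-- **A concrete `HolBase N`** from an abstract `J`. -/
def holBase (J : ℍ → ℂ) (hol : MDiff J)
    (hinv : ∀ (γ : SL(2, ℤ)) (τ : ℍ), J (γ • τ) = J τ) (hexp : InfExp 1 J infJq) :
    HolBase N where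
  Hol := holSubring N
  const_mem := const_mem_holSubring
  comp_mem g f hf := compSL_mem_holSubring g hf
  J d := fun τ => J (infAff d 0 1 τ)
  J_mem d hd :=
    ⟨mdiff_comp_infAff hol (Nat.pos_of_dvd_of_pos hd (Nat.pos_of_ne_zero (NeZero.ne N)))
        one_pos 0,
      fun g => inf_J_mul_smul_mem_expRing hinv hexp hd g⟩
  J_one_inv g τ := by
    simp only [infAff_one_zero_one]
    exact hinv g τ
  J_inv d hd g hg τ := J_dil_invariant hinv hd hg τ
  J_distinct g h := by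
    have := inf_distinct hinv hexp (N := N) g 1 (fun τ => by rw [one_smul]; exact h τ)
    simpa using this
  qexp := holQexp N
  qexp_injective := holQexp_injective
  qexp_const := holQexp_const
  qexp_J d hd k := by
    have hN : 0 < N := Nat.pos_of_ne_zero (NeZero.ne N)
    have hd0 : 0 < d := Nat.pos_of_dvd_of_pos hd hN
    have : NeZero (d * N) := ⟨(Nat.mul_pos hd0 hN).ne'⟩
    have hE := inf_J_mul_exp hexp hd0 hN
    rw [holQexp_eq _ hE]
    have hcast : ((N * d : ℕ) : ℤ) = ((d * N : ℕ) : ℤ) := by rw [Nat.mul_comm]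
    rw [hcast]
    split_ifs with hdvd
    · obtain ⟨m, rfl⟩ := hdvd
      rw [qExpand_coeff_mul, Int.mul_ediv_cancel_left _ (by exact_mod_cast NeZero.ne (d * N))]
      rfl
    · exact qExpand_coeff_of_not_dvd (d * N) _ hdvd

end Abstract

/-! ### The shift `τ ↦ τ + 1` at the cusp -/

/-- The primitive `N`-th root of unity `exp (2πi/N)`. -/
def zetaInf (N : ℕ) : ℂ := Complex.exp (2 * π * Complex.I / N)

theorem isPrimitiveRoot_zetaInf (N : ℕ) [NeZero N] : IsPrimitiveRoot (zetaInf N) N :=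
  Complex.isPrimitiveRoot_exp N (NeZero.ne N)

theorem T_smul_eq_infAff (τ : ℍ) : ModularGroup.T • τ = infAff 1 1 1 τ := by
  apply UpperHalfPlane.ext
  rw [UpperHalfPlane.modular_T_smul, infAff_coe one_pos one_pos, UpperHalfPlane.coe_vadd]
  push_cast
  ring

/-- Coefficientwise description of the expansion of `h ∘ T`. -/
theorem holQexp_compSL_T {f : ℍ → ℂ} (hf : f ∈ holSubring N) (n : ℤ) :
    (holQexp N ⟨compSL ModularGroup.T f, compSL_mem_holSubring _ hf⟩).coeff n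
      = zetaInf N ^ n * (holQexp N ⟨f, hf⟩).coeff n := by
  have h1 := (holQexp_spec (N := N) ⟨f, hf⟩).comp_translate 1
  have h2 : InfExp N (compSL ModularGroup.T f)
      (infTwist (infRoot 1 N) (holQexp N ⟨f, hf⟩)) := by
    refine h1.congr fun τ => ?_
    simp only [compSL_apply, _root_.Fermat.Agent.S24.H564.T_smul_eq_infAff]
  rw [holQexp_eq _ h2, infTwist_coeff, infRoot_zpow_coe, mul_comm, zetaInf]
  simp

/-- The `inf_shift` field of helper997's `AnalyticCore` for `holBase`. -/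
theorem holBase_inf_shift (J : ℍ → ℂ) (hol : MDiff J)
    (hinv : ∀ (γ : SL(2, ℤ)) (τ : ℍ), J (γ • τ) = J τ) (hexp : InfExp 1 J infJq)
    (h : (_root_.Fermat.Agent.S24.H564.holBase N J hol hinv hexp).Hol) (n : ℤ) :
    ((_root_.Fermat.Agent.S24.H564.holBase N J hol hinv hexp).qexp
        ((_root_.Fermat.Agent.S24.H564.holBase N J hol hinv hexp).compH ModularGroup.T h)).coeff n
      = zetaInf N ^ n * ((_root_.Fermat.Agent.S24.H564.holBase N J hol hinv hexp).qexp h).coeff n :=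
  holQexp_compSL_T h.2 n

/-! ### The concrete `J = E₄³/Δ` -/

theorem jqModC_complex_eq_infJq : ModularCurve.jqModC ℂ = infJq := by
  rw [← ModularCurve.map_jqModC (algebraMap ℚ ℂ), ModularCurve.jqModC_rat]
  rfl

/-- The `q`-expansion of `jFun = E₄³/Δ` is the Prelude series `jq` (helper264's bridge in
helper384's language). -/
theorem infExp_jFun : InfExp 1 JFun.jFun infJq := by
  intro τ
  have h := JFun.hasSum_jFun τ
  rw [jqModC_complex_eq_infJq] at h
  simpa [infZ] using h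

variable (N) in
/-- **The concrete `HolBase N`** for `J = E₄³/Δ`. -/
def holBaseJ : HolBase N :=
  _root_.Fermat.Agent.S24.H564.holBase N JFun.jFun JFun.jFun_mdifferentiable JFun.jFun_smul _root_.Fermat.Agent.S24.H564.infExp_jFun

theorem holBaseJ_Hol : (holBaseJ N).Hol = holSubring N := rfl

theorem holBaseJ_J (d : ℕ) (τ : ℍ) : (holBaseJ N).J d τ = JFun.jFun (infAff d 0 1 τ) := rfl

theorem holBaseJ_J_one (τ : ℍ) : (holBaseJ N).J 1 τ = JFun.jFun τ := by
  rw [holBaseJ_J, infAff_one_zero_one]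

theorem holBaseJ_qexp : (holBaseJ N).qexp = holQexp N := rfl

theorem holBaseJ_inf_shift (h : (holBaseJ N).Hol) (n : ℤ) :
    ((holBaseJ N).qexp ((holBaseJ N).compH ModularGroup.T h)).coeff n
      = zetaInf N ^ n * ((holBaseJ N).qexp h).coeff n :=
  holQexp_compSL_T h.2 n

end Fermat.Agent.S24.H564

end
end
-- ===== PACK-END S24/Mod/H564HolBase.lean

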