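import Mathlib
import Fermat.Prelude.Def_ModularCurve_ReductionModL
import Fermat.Agent.Pack.S44C.G0E0L1
import Fermat.Agent.Pack.L1B.E1L2
import Fermat.Agent.Pack.L1B.E1L0
import Fermat.Agent.Pack.S44C.G0E7L1
import Fermat.Agent.Pack.S44C.G0E10L2
import Fermat.Agent.Pack.S44C.G0E22L1
import Fermat.Agent.Pack.L1B.E0L1
import Fermat.Agent.Pack.S44C.G0E21L3
import Fermat.Agent.Pack.L1B.E1L3
import Fermat.Agent.Pack.S44C.G0E0L3
import Fermat.Agent.Pack.L1B.E0L3
import Fermat.Agent.Pack.L1B.E1L1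
import Fermat.Agent.Pack.S44C.G0E10L3
import Fermat.Agent.Pack.S44C.G0E6L2
import Fermat.Agent.Pack.S44C.G0E17L1
import Fermat.Agent.Pack.S44C.G0E7L3
import Fermat.Agent.Pack.S44C.G0E11L1
import Fermat.Agent.Pack.L1.E10L0

-- ===== PACK-BEGIN S18/H516/GaussRes.lean
section





/-!
# S18 / MOD (helper516): the residue homomorphism of the Gauss valuation ring

`gaussRes : gaussRing A π N →+* k((q))`, `U₁/U₂ ↦ Ū₁/Ū₂`.

* `gaussRes_eq` : value on any representation;  `gaussRes_incl`, `gaussRes_C`;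
* `gaussRes_mem` : values in `F_k` (needs `CoreData N k`);
* `inv_mem_of_gaussRes_ne_zero` : `gaussRes f ≠ 0 → f⁻¹ ∈ V`;
* `exists_factor_of_gaussRes_eq_zero` : `gaussRes f = 0 → f = C c · u`, `π c = 0`, `u ∈ V`.
-/

set_option autoImplicit false
set_option linter.unusedSectionVars false

noncomputable section

namespace Fermat.Agent.S18.H516

open ModularCurve IntermediateField Polynomial Fermat.Agent.S28

section Res

variable {L : Type*} [Field L] [Algebra ℚ L] (A : ValuationSubring L)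
variable {k : Type} [Field k] (π : A →+* k) (N : ℕ) [NeZero N]

/-- Numerator of a chosen representation. -/
def gNum (f : gaussRing A π N) : LaurentSeries A := f.2.2.choose

/-- Denominator of a chosen representation. -/
def gDen (f : gaussRing A π N) : LaurentSeries A := f.2.2.choose_spec.choose

variable {A π N}

theorem gDen_ne_zero (f : gaussRing A π N) : coeffMap π (gDen A π N f) ≠ 0 :=
  f.2.2.choose_spec.choose_spec.2.2.1

theorem gNum_gDen_spec (f : gaussRing A π N) :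
    (f : LaurentSeries L) * coeffMap A.subtype (gDen A π N f) =
      coeffMap A.subtype (gNum A π N f) :=
  f.2.2.choose_spec.choose_spec.2.2.2

variable (A π N) in
/-- The residue map as a function. -/
def gaussResFun (f : gaussRing A π N) : LaurentSeries k :=
  coeffMap π (gNum A π N f) * (coeffMap π (gDen A π N f))⁻¹

theorem gaussResFun_eq (f : gaussRing A π N) {U₁ U₂ : LaurentSeries A}
    (hk : coeffMap π U₂ ≠ 0)
    (heq : (f : LaurentSeries L) * coeffMap A.subtype U₂ = coeffMap A.subtype U₁) :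
    gaussResFun A π N f = coeffMap π U₁ * (coeffMap π U₂)⁻¹ := by
  have h := red_cross (π := π) (gNum_gDen_spec f) heq
  unfold gaussResFun
  have h' := (div_eq_div_iff (gDen_ne_zero f) hk).mpr h
  rwa [div_eq_mul_inv, div_eq_mul_inv] at h'

variable (A π N) in
/-- **The residue homomorphism** of the Gauss valuation ring. -/
def gaussRes : gaussRing A π N →+* LaurentSeries k where
  toFun := gaussResFun A π N
  map_one' := by
    rw [gaussResFun_eq (1 : gaussRing A π N) (U₁ := 1) (U₂ := 1)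
      (by rw [map_one]; exact one_ne_zero) (by simp)]
    simp
  map_zero' := by
    rw [gaussResFun_eq (0 : gaussRing A π N) (U₁ := 0) (U₂ := 1)
      (by rw [map_one]; exact one_ne_zero) (by simp)]
    simp
  map_mul' f g := by
    have hf := gNum_gDen_spec f
    have hg := gNum_gDen_spec g
    rw [gaussResFun_eq (f * g) (U₁ := gNum A π N f * gNum A π N g)
      (U₂ := gDen A π N f * gDen A π N g)
      (by rw [map_mul]; exact mul_ne_zero (gDen_ne_zero f) (gDen_ne_zero g))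
      (by
        show (f : LaurentSeries L) * (g : LaurentSeries L) * _ = _
        rw [map_mul, map_mul, ← hf, ← hg]; ring)]
    unfold gaussResFun
    rw [map_mul, map_mul, mul_inv]
    ring
  map_add' f g := by
    have hf := gNum_gDen_spec f
    have hg := gNum_gDen_spec g
    rw [gaussResFun_eq (f + g)
      (U₁ := gNum A π N f * gDen A π N g + gNum A π N g * gDen A π N f)
      (U₂ := gDen A π N f * gDen A π N g)
      (by rw [map_mul]; exact mul_ne_zero (gDen_ne_zero f) (gDen_ne_zero g))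
      (by
        show ((f : LaurentSeries L) + (g : LaurentSeries L)) * _ = _
        rw [map_add, map_mul, map_mul, map_mul, ← hf, ← hg]; ring)]
    unfold gaussResFun
    rw [map_add, map_mul, map_mul, map_mul]
    have h1 := gDen_ne_zero f
    have h2 := gDen_ne_zero g
    field_simp

theorem gaussRes_eq (f : gaussRing A π N) {U₁ U₂ : LaurentSeries A}
    (hk : coeffMap π U₂ ≠ 0)
    (heq : (f : LaurentSeries L) * coeffMap A.subtype U₂ = coeffMap A.subtype U₁) :
    gaussRes A π N f = coeffMap π U₁ * (coeffMap π U₂)⁻¹ :=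
  gaussResFun_eq f hk heq

/-- On Gauss-integral series the residue map is the coefficientwise reduction. -/
theorem gaussRes_incl {U : LaurentSeries A} (hU : IsGI A N U) :
    gaussRes A π N ⟨coeffMap A.subtype U, incl_mem_gaussSet hU⟩ = coeffMap π U := by
  rw [gaussRes_eq _ (U₁ := U) (U₂ := 1) (by rw [map_one]; exact one_ne_zero)
    (by simp)]
  simp

theorem gaussRes_C (a : A) :
    gaussRes A π N ⟨HahnSeries.C (Γ := ℤ) (a : L), C_mem_gaussSet a⟩ = HahnSeries.C (π a) := by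
  rw [gaussRes_eq _ (U₁ := HahnSeries.C a) (U₂ := 1) (by rw [map_one]; exact one_ne_zero)
    (by rw [map_one, mul_one, coeffMap_C]; rfl)]
  rw [map_one, inv_one, mul_one, coeffMap_C]

/-- The residue map takes values in `F_k`. -/
theorem gaussRes_mem (core : CoreData N k) (f : gaussRing A π N) :
    gaussRes A π N f ∈ modularFunctionFieldFullC k N := by
  obtain ⟨-, U₁, U₂, h₁, h₂, hk, heq⟩ := f.2
  rw [gaussRes_eq f hk heq]
  exact mul_mem (red_mem_of_incl_mem A π N core h₁) (inv_mem (red_mem_of_incl_mem A π N core h₂))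

/-- Elements with nonzero residue are units. -/
theorem inv_mem_of_gaussRes_ne_zero (f : gaussRing A π N) (hf : gaussRes A π N f ≠ 0) :
    (f : LaurentSeries L)⁻¹ ∈ gaussSet A π N := by
  obtain ⟨-, U₁, U₂, h₁, h₂, hk, heq⟩ := f.2
  rw [gaussRes_eq f hk heq] at hf
  have h1k : coeffMap π U₁ ≠ 0 := fun h => hf (by rw [h, zero_mul])
  have h20 : coeffMap A.subtype U₂ ≠ 0 := by
    intro h
    have : U₂ = 0 := incl_injective A (by rw [h, map_zero])
    exact hk (by rw [this, map_zero])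
  have hfe : (f : LaurentSeries L) = coeffMap A.subtype U₁ * (coeffMap A.subtype U₂)⁻¹ := by
    rw [← heq, mul_assoc, mul_inv_cancel₀ h20, mul_one]
  rw [hfe, mul_inv, inv_inv, mul_comm]
  exact div_mem_gaussSet h₂ h₁ h1k

/-- **Kernel.** An element of zero residue is `C c · u` with `π c = 0`. -/
theorem exists_factor_of_gaussRes_eq_zero (core : CoreData N k) (f : gaussRing A π N)
    (hf : gaussRes A π N f = 0) (hf0 : (f : LaurentSeries L) ≠ 0) :
    ∃ (c : A) (u : LaurentSeries L), π c = 0 ∧ (f : LaurentSeries L) = HahnSeries.C (c : L) * u ∧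
      u ∈ gaussSet A π N ∧ u⁻¹ ∈ gaussSet A π N := by
  obtain ⟨c, U₁, U₂, hc, h₁, h₂, heq⟩ := exists_gauss_decomp A π N core f.2.1 hf0
  have h20 : coeffMap A.subtype U₂ ≠ 0 := by
    intro h
    have : U₂ = 0 := incl_injective A (by rw [h, map_zero])
    exact h₂.2.2 (by rw [this, map_zero])
  have hu : coeffMap A.subtype U₁ * (coeffMap A.subtype U₂)⁻¹ ∈ gaussSet A π N :=
    div_mem_gaussSet h₁.1 h₂.1 h₂.2.2
  have hu' : (coeffMap A.subtype U₁ * (coeffMap A.subtype U₂)⁻¹)⁻¹ ∈ gaussSet A π N := by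
    rw [mul_inv, inv_inv, mul_comm]
    exact div_mem_gaussSet h₂.1 h₁.1 h₁.2.2
  have hfe : (f : LaurentSeries L) =
      HahnSeries.C c * (coeffMap A.subtype U₁ * (coeffMap A.subtype U₂)⁻¹) := by
    rw [← mul_assoc, ← heq, mul_assoc, mul_inv_cancel₀ h20, mul_one]
  have hcA : c ∈ A := by
    by_contra hcA
    have hcinv : c⁻¹ ∈ A := (A.mem_or_inv_mem c).resolve_left hcA
    -- then `f⁻¹ = C c⁻¹ · u⁻¹ ∈ V`, so `f` is a unit with zero residue
    have hfinv : (f : LaurentSeries L)⁻¹ ∈ gaussSet A π N := by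
      rw [hfe, mul_inv, ← map_inv₀]
      exact mul_mem_gaussSet (C_mem_gaussSet ⟨c⁻¹, hcinv⟩) hu'
    have h1 : gaussRes A π N f * gaussRes A π N ⟨_, hfinv⟩ = 1 := by
      rw [← map_mul]
      have : f * ⟨_, hfinv⟩ = 1 := Subtype.ext (mul_inv_cancel₀ hf0)
      rw [this, map_one]
    rw [hf, zero_mul] at h1
    exact zero_ne_one h1
  refine ⟨⟨c, hcA⟩, _, ?_, hfe, hu, hu'⟩
  -- residue of `f` is `π c · ū`, `ū ≠ 0`
  set fc : gaussRing A π N :=
    ⟨HahnSeries.C (Γ := ℤ) (((⟨c, hcA⟩ : A) : L)), C_mem_gaussSet (⟨c, hcA⟩ : A)⟩ with hfc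
  have hfe' : f = fc * ⟨_, hu⟩ := Subtype.ext hfe
  have hC : gaussRes A π N fc = HahnSeries.C (π ⟨c, hcA⟩) := gaussRes_C (⟨c, hcA⟩ : A)
  rw [hfe', map_mul, hC] at hf
  have hune : gaussRes A π N ⟨_, hu⟩ ≠ 0 := by
    rw [gaussRes_eq ⟨_, hu⟩ (U₁ := U₁) (U₂ := U₂) h₂.2.2
      (by
        show coeffMap A.subtype U₁ * (coeffMap A.subtype U₂)⁻¹ * coeffMap A.subtype U₂ = _
        rw [mul_assoc, inv_mul_cancel₀ h20, mul_one])]
    exact mul_ne_zero h₁.2.2 (inv_ne_zero h₂.2.2)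
  have := (mul_eq_zero.mp hf).resolve_right hune
  exact HahnSeries.C_injective (by rw [this, map_zero])

end Res

end Fermat.Agent.S18.H516

end
end
-- ===== PACK-END S18/H516/GaussRes.lean

-- ===== PACK-BEGIN S18/MOD/H516/GaussV.lean
section







/-!
# S18 / MOD piece G-V (helper516): the Gauss valuation ring `VcSet M A E` of `Fc M E`

Concrete objects of `Fermat/Agent/S18/Mod/Defs.lean` (row-lead helper18).  Input: the S28 output
`CoreData M k`, `k` the residue field of `A ⊆ Q̄`.  Output: the `V`-fields of `Alg.GoodModel`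
for `V = VcSet M A E` (subring, `V_le`, `V_total`, `R_le_V`, `w_inv_not_mem_V`, `V_gen`, `gauss`),
for EVERY intermediate field `E` of `Q̄/ℚ`.
-/

set_option autoImplicit false
set_option linter.unusedSectionVars false

noncomputable section

namespace Fermat.Agent.S18.H516

open ModularCurve IntermediateField Fermat.Agent.S28 Fermat.Agent.S18 Fermat.Agent.S18.Mod

section Transport

variable (M : ℕ) [NeZero M] (A : ValuationSubring Qb) (E : IntermediateField ℚ Qb)

/-- `A ∩ E` as a valuation subring of `E`. -/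
def AE : ValuationSubring ↥E := A.comap (algebraMap ↥E Qb)

/-- `A ∩ E → A`. -/
def iotaA : ↥(AE A E) →+* ↥A where
  toFun x := ⟨algebraMap ↥E Qb (x : ↥E), x.2⟩
  map_one' := rfl
  map_mul' _ _ := rfl
  map_zero' := rfl
  map_add' _ _ := rfl

/-- `A ∩ E → k`. -/
def piE : ↥(AE A E) →+* IsLocalRing.ResidueField A := (IsLocalRing.residue A).comp (iotaA A E)

/-- `E((q)) → Q̄((q))`. -/
abbrev PhiE : LaurentSeries ↥E →+* LaurentSeries Qb := coeffMap (algebraMap ↥E Qb)

theorem PhiE_injective : Function.Injective (PhiE E) := by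
  intro x y hxy
  ext m
  have := congrArg (fun z : LaurentSeries Qb => z.coeff m) hxy
  exact this

theorem subtype_comp_iotaA :
    (A.subtype).comp (iotaA A E) = (algebraMap ↥E Qb).comp (AE A E).subtype := rfl

theorem incl_coeffMap_iotaA (U : LaurentSeries ↥(AE A E)) :
    coeffMap A.subtype (coeffMap (iotaA A E) U) = PhiE E (coeffMap (AE A E).subtype U) := by
  rw [coeffMap_coeffMap, coeffMap_coeffMap, subtype_comp_iotaA]

theorem red_coeffMap_iotaA (U : LaurentSeries ↥(AE A E)) :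
    coeffMap (IsLocalRing.residue A) (coeffMap (iotaA A E) U) = coeffMap (piE A E) U := by
  rw [coeffMap_coeffMap]; rfl

/-- The function field over `E`. -/
abbrev FE : IntermediateField ↥E (LaurentSeries ↥E) :=
  laurentBaseChange ↥E (modularFunctionFieldFull M)

theorem coe_jd (d : ℕ) [NeZero d] (hd : d ∣ M) :
    ((jd M d hd : Om M) : LaurentSeries Qb) = qExpand Qb d (jqModC Qb) := by
  show coeffEmb Qb (qExpand ℚ d jq) = _
  rw [coeffEmb, coeffMap_qExpand, ← jqModC_rat, coeffMap_jqModC]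

theorem coe_algebraMap_Om (c : Qb) :
    ((algebraMap Qb (Om M) c : Om M) : LaurentSeries Qb) = HahnSeries.C (Γ := ℤ) c := by
  show algebraMap Qb (LaurentSeries Qb) c = _
  rw [algebraMap_laurentSeries_eq_single, HahnSeries.C_apply]

/-- `Φ` maps `F_E` into `Fc M E`. -/
theorem PhiE_mem_Fc {g : LaurentSeries ↥E} (hg : g ∈ FE M E) :
    ∃ h : PhiE E g ∈ modularFunctionFieldBar M, (⟨PhiE E g, h⟩ : Om M) ∈ Fc M E := by
  rw [FE, baseChange_eq_fullC] at hg
  unfold modularFunctionFieldFullC at hg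
  induction hg using IntermediateField.adjoin_induction with
  | mem x hx =>
    obtain ⟨d, hd, hdM, rfl⟩ := hx
    have h1 : PhiE E (qExpand ↥E d (jqModC ↥E)) = ((jd M d hdM : Om M) : LaurentSeries Qb) := by
      rw [coe_jd, PhiE, coeffMap_qExpand, coeffMap_jqModC]
    refine ⟨h1 ▸ (jd M d hdM).2, ?_⟩
    have h2 : (⟨PhiE E (qExpand ↥E d (jqModC ↥E)), h1 ▸ (jd M d hdM).2⟩ : Om M) = jd M d hdM :=
      Subtype.ext h1
    rw [h2]
    exact Subfield.subset_closure (Or.inr ⟨d, hd, hdM, rfl⟩)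
  | algebraMap e =>
    have h1 : PhiE E (algebraMap ↥E (LaurentSeries ↥E) e) =
        ((algebraMap Qb (Om M) (e : Qb) : Om M) : LaurentSeries Qb) := by
      rw [coe_algebraMap_Om, algebraMap_laurentSeries_eq_single, PhiE, coeffMap_single,
        HahnSeries.C_apply]
      rfl
    refine ⟨h1 ▸ (algebraMap Qb (Om M) (e : Qb)).2, ?_⟩
    have h2 : (⟨PhiE E (algebraMap ↥E (LaurentSeries ↥E) e),
        h1 ▸ (algebraMap Qb (Om M) (e : Qb)).2⟩ : Om M) = algebraMap Qb (Om M) (e : Qb) :=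
      Subtype.ext h1
    rw [h2]
    exact Subfield.subset_closure (Or.inl ⟨(e : Qb), e.2, rfl⟩)
  | add x y _ _ hx hy =>
    obtain ⟨hx1, hx2⟩ := hx
    obtain ⟨hy1, hy2⟩ := hy
    have h1 : PhiE E (x + y) = PhiE E x + PhiE E y := map_add _ _ _
    refine ⟨h1 ▸ add_mem hx1 hy1, ?_⟩
    have h2 : (⟨PhiE E (x + y), h1 ▸ add_mem hx1 hy1⟩ : Om M) =
        ⟨PhiE E x, hx1⟩ + ⟨PhiE E y, hy1⟩ := Subtype.ext h1
    rw [h2]
    exact add_mem hx2 hy2
  | inv x _ hx =>
    obtain ⟨hx1, hx2⟩ := hx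
    have h1 : PhiE E x⁻¹ = (PhiE E x)⁻¹ := map_inv₀ _ _
    refine ⟨h1 ▸ inv_mem hx1, ?_⟩
    have h2 : (⟨PhiE E x⁻¹, h1 ▸ inv_mem hx1⟩ : Om M) = (⟨PhiE E x, hx1⟩ : Om M)⁻¹ :=
      Subtype.ext h1
    rw [h2]
    exact inv_mem hx2
  | mul x y _ _ hx hy =>
    obtain ⟨hx1, hx2⟩ := hx
    obtain ⟨hy1, hy2⟩ := hy
    have h1 : PhiE E (x * y) = PhiE E x * PhiE E y := map_mul _ _ _
    refine ⟨h1 ▸ mul_mem hx1 hy1, ?_⟩
    have h2 : (⟨PhiE E (x * y), h1 ▸ mul_mem hx1 hy1⟩ : Om M) =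
        ⟨PhiE E x, hx1⟩ * ⟨PhiE E y, hy1⟩ := Subtype.ext h1
    rw [h2]
    exact mul_mem hx2 hy2

/-- Every element of `Fc M E` comes from `F_E`. -/
theorem exists_PhiE_eq {f : Om M} (hf : f ∈ Fc M E) :
    ∃ g ∈ FE M E, PhiE E g = (f : LaurentSeries Qb) := by
  unfold Fc at hf
  induction hf using Subfield.closure_induction with
  | mem x hx =>
    rcases hx with ⟨e, he, rfl⟩ | ⟨d, hd, hdM, rfl⟩
    · refine ⟨algebraMap ↥E (LaurentSeries ↥E) ⟨e, he⟩, (FE M E).algebraMap_mem _, ?_⟩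
      show PhiE E _ = ((algebraMap Qb (Om M) e : Om M) : LaurentSeries Qb)
      rw [coe_algebraMap_Om, algebraMap_laurentSeries_eq_single, PhiE, coeffMap_single,
        HahnSeries.C_apply]
      rfl
    · refine ⟨qExpand ↥E d (jqModC ↥E), ?_, ?_⟩
      · rw [FE, baseChange_eq_fullC]
        exact jqModCd_mem_full ↥E M hdM
      · rw [coe_jd, PhiE, coeffMap_qExpand, coeffMap_jqModC]
  | one => exact ⟨1, one_mem _, map_one _⟩
  | add x y _ _ hx hy =>
    obtain ⟨gx, hgx, hx⟩ := hx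
    obtain ⟨gy, hgy, hy⟩ := hy
    exact ⟨gx + gy, add_mem hgx hgy, by rw [map_add, hx, hy]; rfl⟩
  | neg x _ hx =>
    obtain ⟨gx, hgx, hx⟩ := hx
    exact ⟨-gx, neg_mem hgx, by rw [map_neg, hx]; rfl⟩
  | inv x _ hx =>
    obtain ⟨gx, hgx, hx⟩ := hx
    exact ⟨gx⁻¹, inv_mem hgx, by rw [map_inv₀, hx]; rfl⟩
  | mul x y _ _ hx hy =>
    obtain ⟨gx, hgx, hx⟩ := hx
    obtain ⟨gy, hgy, hy⟩ := hy
    exact ⟨gx * gy, mul_mem hgx hgy, by rw [map_mul, hx, hy]; rfl⟩

/-- Lift of an `E`-rational series over `A` to a series over `A ∩ E`. -/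
def liftE (U : LaurentSeries A) (h : ∀ n : ℤ, ((U.coeff n : A) : Qb) ∈ E) :
    LaurentSeries ↥(AE A E) where
  coeff n := ⟨⟨((U.coeff n : A) : Qb), h n⟩, (U.coeff n).2⟩
  isPWO_support' := U.isPWO_support.mono fun n hn => by
    simp only [Function.mem_support, ne_eq] at hn ⊢
    intro h0
    apply hn
    apply Subtype.ext
    apply Subtype.ext
    show ((U.coeff n : A) : Qb) = 0
    rw [h0]; rfl

theorem coeffMap_iotaA_liftE (U : LaurentSeries A) (h : ∀ n : ℤ, ((U.coeff n : A) : Qb) ∈ E) :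
    coeffMap (iotaA A E) (liftE A E U h) = U := by
  ext n
  rfl

theorem isIntE_coeffMap_iotaA {U : LaurentSeries ↥(AE A E)}
    (hU : IsGI (AE A E) M U) : IsIntE M A E (coeffMap (iotaA A E) U) := by
  refine ⟨fun n => ?_, ?_⟩
  · exact ((U.coeff n : ↥(AE A E)) : ↥E).2
  · obtain ⟨h, hF⟩ := PhiE_mem_Fc M E hU
    exact ⟨⟨_, h⟩, hF, (incl_coeffMap_iotaA A E U).symm⟩

theorem isGI_liftE {U : LaurentSeries A} (hU : IsIntE M A E U) :
    IsGI (AE A E) M (liftE A E U hU.1) := by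
  obtain ⟨hE, f', hf', hfU⟩ := hU
  obtain ⟨g', hg', hg'f⟩ := exists_PhiE_eq M E hf'
  have : coeffMap (AE A E).subtype (liftE A E U hE) = g' := by
    apply PhiE_injective E
    rw [hg'f, hfU, ← incl_coeffMap_iotaA, coeffMap_iotaA_liftE]
  unfold IsGI
  rw [this]
  exact hg'

/-- **Dictionary.** The concrete `VcSet M A E` is the image of the generic Gauss ring of
`(E, A ∩ E, A ∩ E → k)`. -/
theorem mem_VcSet_iff {f : Om M} :
    f ∈ VcSet M A E ↔
      ∃ g ∈ gaussSet (AE A E) (piE A E) M, PhiE E g = (f : LaurentSeries Qb) := by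
  constructor
  · rintro ⟨hfF, U₁, U₂, hU₁, hU₂, hU₂k, hfU⟩
    obtain ⟨g, hg, hgf⟩ := exists_PhiE_eq M E hfF
    refine ⟨g, ⟨hg, liftE A E U₁ hU₁.1, liftE A E U₂ hU₂.1, isGI_liftE M A E hU₁,
      isGI_liftE M A E hU₂, ?_, ?_⟩, hgf⟩
    · rw [← red_coeffMap_iotaA, coeffMap_iotaA_liftE]
      exact hU₂k
    · apply PhiE_injective E
      rw [map_mul, hgf, ← incl_coeffMap_iotaA, ← incl_coeffMap_iotaA, coeffMap_iotaA_liftE,
        coeffMap_iotaA_liftE]
      exact hfU
  · rintro ⟨g, ⟨hg, U₁, U₂, hU₁, hU₂, hU₂k, hgU⟩, hgf⟩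
    obtain ⟨h, hF⟩ := PhiE_mem_Fc M E hg
    have hfe : f = ⟨PhiE E g, h⟩ := Subtype.ext hgf.symm
    refine ⟨hfe ▸ hF, coeffMap (iotaA A E) U₁, coeffMap (iotaA A E) U₂,
      isIntE_coeffMap_iotaA M A E hU₁, isIntE_coeffMap_iotaA M A E hU₂, ?_, ?_⟩
    · rw [red_coeffMap_iotaA]
      exact hU₂k
    · rw [incl_coeffMap_iotaA, incl_coeffMap_iotaA, ← hgf, ← map_mul, hgU]

end Transport

section VFacts

variable (M : ℕ) [NeZero M] (A : ValuationSubring Qb) (E : IntermediateField ℚ Qb)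

theorem VcSet_subset_Fc : VcSet M A E ⊆ (Fc M E : Set (Om M)) := fun _ hf => hf.1

variable {M A E}

theorem zero_mem_VcSet : (0 : Om M) ∈ VcSet M A E :=
  (mem_VcSet_iff M A E).mpr ⟨0, zero_mem_gaussSet, map_zero _⟩

theorem one_mem_VcSet : (1 : Om M) ∈ VcSet M A E :=
  (mem_VcSet_iff M A E).mpr ⟨1, one_mem_gaussSet, map_one _⟩

theorem add_mem_VcSet {f g : Om M} (hf : f ∈ VcSet M A E) (hg : g ∈ VcSet M A E) :
    f + g ∈ VcSet M A E := by
  obtain ⟨a, ha, haf⟩ := (mem_VcSet_iff M A E).mp hf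
  obtain ⟨b, hb, hbg⟩ := (mem_VcSet_iff M A E).mp hg
  exact (mem_VcSet_iff M A E).mpr ⟨a + b, add_mem_gaussSet ha hb, by rw [map_add, haf, hbg]; rfl⟩

theorem neg_mem_VcSet {f : Om M} (hf : f ∈ VcSet M A E) : -f ∈ VcSet M A E := by
  obtain ⟨a, ha, haf⟩ := (mem_VcSet_iff M A E).mp hf
  exact (mem_VcSet_iff M A E).mpr ⟨-a, neg_mem_gaussSet ha, by rw [map_neg, haf]; rfl⟩

theorem mul_mem_VcSet {f g : Om M} (hf : f ∈ VcSet M A E) (hg : g ∈ VcSet M A E) :
    f * g ∈ VcSet M A E := by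
  obtain ⟨a, ha, haf⟩ := (mem_VcSet_iff M A E).mp hf
  obtain ⟨b, hb, hbg⟩ := (mem_VcSet_iff M A E).mp hg
  exact (mem_VcSet_iff M A E).mpr ⟨a * b, mul_mem_gaussSet ha hb, by rw [map_mul, haf, hbg]; rfl⟩

variable (M A E) in
/-- **G-V (subring).** The Gauss valuation ring of `Fc M E` as a subring of `Ω`. -/
def VcRing : Subring (Om M) where
  carrier := VcSet M A E
  mul_mem' := mul_mem_VcSet
  one_mem' := one_mem_VcSet
  add_mem' := add_mem_VcSet
  zero_mem' := zero_mem_VcSet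
  neg_mem' := neg_mem_VcSet

theorem coe_VcRing : (VcRing M A E : Set (Om M)) = VcSet M A E := rfl

theorem mem_VcRing {f : Om M} : f ∈ VcRing M A E ↔ f ∈ VcSet M A E := Iff.rfl

/-- **G-V (`V_le`).** -/
theorem VcRing_le_Fc : (VcRing M A E : Set (Om M)) ⊆ Fc M E := VcSet_subset_Fc M A E

/-- **G-V (`V_total`).** -/
theorem VcRing_total (core : CoreData M (IsLocalRing.ResidueField A)) :
    ∀ f ∈ Fc M E, f ∈ VcRing M A E ∨ f⁻¹ ∈ VcRing M A E := by
  intro f hf
  obtain ⟨g, hg, hgf⟩ := exists_PhiE_eq M E hf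
  rcases gaussSet_total (A := AE A E) (π := piE A E) core hg with h | h
  · exact Or.inl ((mem_VcSet_iff M A E).mpr ⟨g, h, hgf⟩)
  · exact Or.inr ((mem_VcSet_iff M A E).mpr ⟨g⁻¹, h, by rw [map_inv₀, hgf]; rfl⟩)

theorem exists_of_mem_Rc {r : Om M} (hr : r ∈ Rc M A E) :
    ∃ a : Qb, a ∈ A ∧ a ∈ E ∧ algebraMap Qb (Om M) a = r := by
  obtain ⟨a, ⟨haA, haE⟩, rfl⟩ := hr
  exact ⟨a, haA, haE, rfl⟩

theorem mem_Rc_of {a : Qb} (haA : a ∈ A) (haE : a ∈ E) : algebraMap Qb (Om M) a ∈ Rc M A E :=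
  ⟨a, ⟨haA, haE⟩, rfl⟩

theorem PhiE_C (e : ↥E) : PhiE E (HahnSeries.C (Γ := ℤ) e) = HahnSeries.C (Γ := ℤ) (e : Qb) :=
  coeffMap_C _ _

/-- **G-V (`R_le_V`).** -/
theorem Rc_le_VcRing : Rc M A E ≤ VcRing M A E := by
  intro r hr
  obtain ⟨a, haA, haE, rfl⟩ := exists_of_mem_Rc hr
  refine (mem_VcSet_iff M A E).mpr ⟨HahnSeries.C (Γ := ℤ) (⟨a, haE⟩ : ↥E), ?_, ?_⟩
  · exact C_mem_gaussSet (A := AE A E) (⟨⟨a, haE⟩, haA⟩ : ↥(AE A E))
  · rw [PhiE_C, coe_algebraMap_Om]

theorem algebraMap_Om_injective : Function.Injective (algebraMap Qb (Om M)) :=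
  (algebraMap Qb (Om M)).injective

/-- **G-V (`w_inv_not_mem_V`).** -/
theorem inv_not_mem_VcRing {w : Om M} (hw : w ∈ Rc M A E) (hw0 : w ≠ 0)
    (hwinv : w⁻¹ ∉ Rc M A E) : w⁻¹ ∉ VcRing M A E := by
  obtain ⟨a, haA, haE, rfl⟩ := exists_of_mem_Rc hw
  have ha0 : a ≠ 0 := by
    rintro rfl
    exact hw0 (map_zero _)
  have hainv : a⁻¹ ∉ A := by
    intro h
    apply hwinv
    rw [← map_inv₀]
    exact mem_Rc_of h (inv_mem haE)
  have hres : piE A E (⟨⟨a, haE⟩, haA⟩ : ↥(AE A E)) = 0 := by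
    show IsLocalRing.residue A ⟨a, haA⟩ = 0
    rw [IsLocalRing.residue_eq_zero_iff]
    rw [IsLocalRing.mem_maximalIdeal, mem_nonunits_iff]
    intro hu
    apply hainv
    obtain ⟨u, hu⟩ := hu
    have h2 : a * (((u⁻¹ : (↥A)ˣ) : ↥A) : Qb) = 1 := by
      have h3 : ((u : ↥A) : Qb) * (((u⁻¹ : (↥A)ˣ) : ↥A) : Qb) = 1 :=
        congrArg Subtype.val u.mul_inv
      rwa [hu] at h3
    rw [inv_eq_of_mul_eq_one_right h2]
    exact (((u⁻¹ : (↥A)ˣ) : ↥A)).2
  intro hV
  obtain ⟨g, hg, hgf⟩ := (mem_VcSet_iff M A E).mp hV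
  have hE0 : (⟨a, haE⟩ : ↥E) ≠ 0 := fun h => ha0 (congrArg Subtype.val h)
  have hg' : g = (HahnSeries.C (Γ := ℤ) (⟨a, haE⟩ : ↥E))⁻¹ := by
    apply PhiE_injective E
    rw [hgf, map_inv₀, PhiE_C]
    show ((algebraMap Qb (Om M) a)⁻¹ : Om M).1 = _
    rw [← map_inv₀, coe_algebraMap_Om, map_inv₀]
  rw [hg'] at hg
  exact C_inv_not_mem_gaussSet (A := AE A E) (π := piE A E) (N := M)
    (a := (⟨a, haE⟩ : ↥E)) haA hE0 hres hg

/-- **G-V (`V_gen`).** -/
theorem VcRing_gen (core : CoreData M (IsLocalRing.ResidueField A)) {w : Om M}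
    (hgen : ∀ r ∈ Rc M A E, r⁻¹ ∉ Rc M A E → r * w⁻¹ ∈ Rc M A E) :
    ∀ f ∈ VcRing M A E, f⁻¹ ∉ VcRing M A E → f * w⁻¹ ∈ VcRing M A E := by
  intro f hf hf'
  obtain ⟨g, hg, hgf⟩ := (mem_VcSet_iff M A E).mp hf
  have hg' : g⁻¹ ∉ gaussSet (AE A E) (piE A E) M := fun h =>
    hf' ((mem_VcSet_iff M A E).mpr ⟨g⁻¹, h, by rw [map_inv₀, hgf]; rfl⟩)
  obtain ⟨c, u, hcA, hcinv, rfl, hu, hu'⟩ :=
    exists_nonunit_factor (A := AE A E) (π := piE A E) core hg hg'
  have hr : algebraMap Qb (Om M) (c : Qb) ∈ Rc M A E := mem_Rc_of hcA c.2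
  have hrinv : (algebraMap Qb (Om M) (c : Qb))⁻¹ ∉ Rc M A E := by
    intro h
    obtain ⟨b, hbA, hbE, hb⟩ := exists_of_mem_Rc h
    have hbc : b = (c : Qb)⁻¹ := algebraMap_Om_injective (by rw [hb, map_inv₀])
    apply hcinv
    show algebraMap ↥E Qb (c⁻¹) ∈ A
    rw [map_inv₀]
    exact hbc ▸ hbA
  have h1 := hgen _ hr hrinv
  obtain ⟨hu1, hu2⟩ := PhiE_mem_Fc M E hu.1
  have hfu : (⟨PhiE E u, hu1⟩ : Om M) ∈ VcSet M A E :=
    (mem_VcSet_iff M A E).mpr ⟨u, hu, rfl⟩
  have hf_eq : f = algebraMap Qb (Om M) (c : Qb) * ⟨PhiE E u, hu1⟩ := by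
    apply Subtype.ext
    rw [← hgf, map_mul, PhiE_C]
    show _ = ((algebraMap Qb (Om M) (c : Qb) : Om M) : LaurentSeries Qb) * _
    rw [coe_algebraMap_Om]
  have : f * w⁻¹ = (algebraMap Qb (Om M) (c : Qb) * w⁻¹) * ⟨PhiE E u, hu1⟩ := by
    rw [hf_eq]; ring
  rw [this]
  exact mul_mem_VcSet (Rc_le_VcRing h1) hfu

variable (M) in
/-- A coordinate with an integral model `X = q⁻¹ + … ∈ ℤ((q))` (as in `Mod.IsCoordinate`). -/
def HasIntModel (x : Om M) : Prop :=
  ∃ X : LaurentSeries ℤ, X.coeff (-1) = 1 ∧ (∀ k : ℤ, k < -1 → X.coeff k = 0) ∧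
    (x : LaurentSeries Qb) = coeffMap (Int.castRingHom Qb) X ∧
    coeffMap (Int.castRingHom ℚ) X ∈ modularFunctionFieldFull M

theorem hasIntModel_jOm : HasIntModel M (jOm M) := by
  refine ⟨jqModC ℤ, coeff_jqModC_neg_one ℤ, fun k hk => coeff_jqModC_of_lt ℤ hk, ?_, ?_⟩
  · show ((jd M 1 (one_dvd M) : Om M) : LaurentSeries Qb) = _
    rw [coe_jd, coeffMap_jqModC, qExpand_one_apply]
  · rw [coeffMap_jqModC, jqModC_rat]
    exact modularFunctionField_le_full M (jq_mem M)

theorem IsCoordinate.hasIntModel {ℓ : ℕ} {x : Om M} {S : Finset (Om M)}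
    (h : IsCoordinate M ℓ x S) : HasIntModel M x := by
  rcases h with ⟨-, rfl, -⟩ | ⟨-, h⟩
  · exact hasIntModel_jOm
  · exact h

/-- **G-V (`x_mem_V`, v4).** -/
theorem mem_VcRing_of_hasIntModel {x : Om M} (hx : HasIntModel M x) : x ∈ VcRing M A E := by
  obtain ⟨X, -, -, hxX, hXF⟩ := hx
  have hGI : IsGI (AE A E) M (coeffMap (Int.castRingHom ↥(AE A E)) X) := by
    unfold IsGI
    rw [coeffMap_coeffMap,
      show ((AE A E).subtype.comp (Int.castRingHom ↥(AE A E))) = Int.castRingHom ↥E from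
        RingHom.ext_int _ _, coeffMap_intCast_eq_coeffEmb]
    exact coeffEmb_mem_laurentBaseChange ↥E hXF
  refine (mem_VcSet_iff M A E).mpr ⟨_, incl_mem_gaussSet (π := piE A E) hGI, ?_⟩
  rw [hxX, PhiE, coeffMap_coeffMap, coeffMap_coeffMap]
  exact coeffMap_congr (RingHom.ext_int _ _) X

/-- **G-V (`gauss`).** -/
theorem VcRing_gauss {x : Om M} (hx : HasIntModel M x) :
    ∀ P : Polynomial (Om M), (∀ i, P.coeff i ∈ Rc M A E) →
      (∃ i, P.coeff i ≠ 0 ∧ (P.coeff i)⁻¹ ∈ Rc M A E) → (P.eval x)⁻¹ ∈ VcRing M A E := by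
  classical
  intro P hP ⟨i0, hi0, hi0'⟩
  obtain ⟨X, hX1, hX2, hxX, hXF⟩ := hx
  choose a haA haE ha using fun i => exists_of_mem_Rc (hP i)
  set aE : ℕ → ↥(AE A E) := fun i => ⟨⟨a i, haE i⟩, haA i⟩ with haEdef
  set PE : Polynomial ↥(AE A E) := ∑ i ∈ P.support, Polynomial.C (aE i) * Polynomial.X ^ i
    with hPE
  set XE : LaurentSeries ↥(AE A E) := coeffMap (Int.castRingHom ↥(AE A E)) X with hXE
  have hXE_GI : IsGI (AE A E) M XE := by
    unfold IsGI
    rw [hXE, coeffMap_coeffMap,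
      show ((AE A E).subtype.comp (Int.castRingHom ↥(AE A E))) = Int.castRingHom ↥E from
        RingHom.ext_int _ _, coeffMap_intCast_eq_coeffEmb]
    exact coeffEmb_mem_laurentBaseChange ↥E hXF
  have hXk : (coeffMap (piE A E) XE).order ≠ 0 := by
    have h1 : coeffMap (piE A E) XE =
        coeffMap (Int.castRingHom (IsLocalRing.ResidueField A)) X := by
      rw [hXE, coeffMap_coeffMap]
      exact coeffMap_congr (RingHom.ext_int _ _) X
    rw [h1, order_of_coeff_neg_one (X := coeffMap (Int.castRingHom (IsLocalRing.ResidueField A)) X)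
      (by rw [coeffMap_coeff, hX1, map_one])
      (fun n hn => by rw [coeffMap_coeff, hX2 n hn, map_zero])]
    norm_num
  have hcoeff : PE.coeff i0 = aE i0 := by
    rw [hPE, Polynomial.finsetSum_coeff]
    rw [Finset.sum_eq_single i0]
    · rw [Polynomial.coeff_C_mul, Polynomial.coeff_X_pow, if_pos rfl, mul_one]
    · intro j _ hj
      rw [Polynomial.coeff_C_mul, Polynomial.coeff_X_pow, if_neg (Ne.symm hj), mul_zero]
    · intro h
      exact absurd (Polynomial.mem_support_iff.mpr hi0) h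
  have hPEk : PE.map (piE A E) ≠ 0 := by
    intro h
    have h1 := congrArg (fun Q : Polynomial (IsLocalRing.ResidueField A) => Q.coeff i0) h
    simp only [Polynomial.coeff_map, Polynomial.coeff_zero, hcoeff] at h1
    -- `a i0` is a unit of `A`
    obtain ⟨b, hbA, hbE, hb⟩ := exists_of_mem_Rc hi0'
    have hbinv : b = (a i0)⁻¹ := algebraMap_Om_injective (by rw [hb, ← ha i0, map_inv₀])
    have ha0 : a i0 ≠ 0 := by
      intro h0
      apply hi0
      rw [← ha i0, h0, map_zero]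
    have hunit : IsUnit (⟨a i0, haA i0⟩ : ↥A) := by
      refine isUnit_iff_exists_inv.mpr ⟨⟨b, hbA⟩, ?_⟩
      apply Subtype.ext
      show a i0 * b = 1
      rw [hbinv, mul_inv_cancel₀ ha0]
    have : IsLocalRing.residue A ⟨a i0, haA i0⟩ = 0 := h1
    rw [IsLocalRing.residue_eq_zero_iff, IsLocalRing.mem_maximalIdeal, mem_nonunits_iff] at this
    exact this hunit
  have key := inv_eval_mem_gaussSet (A := AE A E) (π := piE A E) (N := M) hXE_GI hXk PE hPEk
  refine (mem_VcSet_iff M A E).mpr ⟨_, key, ?_⟩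
  rw [map_inv₀]
  show _ = ((P.eval x)⁻¹ : Om M).1
  have hval : PhiE E (coeffMap (AE A E).subtype (PE.eval₂ (HahnSeries.C (Γ := ℤ)) XE)) =
      ((P.eval x : Om M) : LaurentSeries Qb) := by
    rw [Polynomial.eval_eq_sum, Polynomial.sum_def, hPE, Polynomial.eval₂_finsetSum]
    rw [map_sum, map_sum]
    have hcoe : ((∑ i ∈ P.support, P.coeff i * x ^ i : Om M) : LaurentSeries Qb) =
        ∑ i ∈ P.support, ((P.coeff i : Om M) : LaurentSeries Qb) * (x : LaurentSeries Qb) ^ i := by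
      show (modularFunctionFieldBar M).val (∑ i ∈ P.support, P.coeff i * x ^ i) = _
      rw [map_sum]
      refine Finset.sum_congr rfl fun i _ => ?_
      rw [map_mul, map_pow]
      rfl
    rw [hcoe]
    refine Finset.sum_congr rfl fun i _ => ?_
    rw [Polynomial.eval₂_mul, Polynomial.eval₂_C, Polynomial.eval₂_pow, Polynomial.eval₂_X,
      map_mul, map_mul, map_pow, map_pow, coeffMap_C, coeffMap_C, ← ha i, coe_algebraMap_Om,
      hxX, hXE, coeffMap_coeffMap, coeffMap_coeffMap]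
    congr 2
  rw [hval]
  rfl

end VFacts

end Fermat.Agent.S18.H516

end
end
-- ===== PACK-END S18/MOD/H516/GaussV.lean

-- ===== PACK-BEGIN S18/MOD/H516/GaussSep.lean
section










/-!
# S18 / MOD piece G-SEP (helper516): the field `separable` of `Alg.GoodModel`

The concrete reduction map `red : V → κ((q))`, `κ` the residue field of `A ∩ E`, and the
hypotheses of helper264's `H264.goodModel_separable_of_red`.

HAND-IN: `sep_field_of_isCoordinate`.
-/

set_option autoImplicit false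
set_option linter.unusedSectionVars false

noncomputable section

namespace Fermat.Agent.S18.H516

open ModularCurve IntermediateField Fermat.Agent.S28 Fermat.Agent.S18 Fermat.Agent.S18.Mod

section Congr

variable {L : Type*} [Field L] [Algebra ℚ L] (A : ValuationSubring L)
variable {k k' : Type} [Field k] [Field k'] (π : A →+* k) (π' : A →+* k') (N : ℕ) [NeZero N]

theorem coeffMap_ne_zero_iff {R S : Type*} [CommRing R] [CommRing S] (φ : R →+* S)
    (U : LaurentSeries R) : coeffMap φ U ≠ 0 ↔ ∃ n : ℤ, φ (U.coeff n) ≠ 0 := by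
  constructor
  · intro h
    by_contra hcon
    push Not at hcon
    apply h
    ext n
    exact hcon n
  · rintro ⟨n, hn⟩ h
    apply hn
    have := congrArg (fun z : LaurentSeries S => z.coeff n) h
    exact this

/-- The Gauss ring only depends on the kernel of the residue map. -/
theorem gaussSet_congr (h : ∀ a : A, π a = 0 ↔ π' a = 0) :
    gaussSet A π N = gaussSet A π' N := by
  ext f
  constructor
  · rintro ⟨hf, U₁, U₂, h₁, h₂, hk, heq⟩
    refine ⟨hf, U₁, U₂, h₁, h₂, ?_, heq⟩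
    rw [coeffMap_ne_zero_iff] at hk ⊢
    obtain ⟨n, hn⟩ := hk
    exact ⟨n, fun h0 => hn ((h _).mpr h0)⟩
  · rintro ⟨hf, U₁, U₂, h₁, h₂, hk, heq⟩
    refine ⟨hf, U₁, U₂, h₁, h₂, ?_, heq⟩
    rw [coeffMap_ne_zero_iff] at hk ⊢
    obtain ⟨n, hn⟩ := hk
    exact ⟨n, fun h0 => hn ((h _).mp h0)⟩

end Congr

section Kappa

variable (M : ℕ) [NeZero M] (A : ValuationSubring Qb) (E : IntermediateField ℚ Qb)

/-- The residue field of `A ∩ E`. -/
abbrev KapE : Type := IsLocalRing.ResidueField ↥(AE A E)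

/-- The residue map of `A ∩ E`. -/
abbrev resE : ↥(AE A E) →+* KapE A E := IsLocalRing.residue ↥(AE A E)

theorem isUnit_iotaA_iff (a : ↥(AE A E)) : IsUnit (iotaA A E a) ↔ IsUnit a := by
  constructor
  · rintro ⟨u, hu⟩
    have hval : ((u : ↥A) : Qb) = ((a : ↥E) : Qb) := congrArg Subtype.val hu
    have hinv : ((a : ↥E) : Qb) * (((u⁻¹ : (↥A)ˣ) : ↥A) : Qb) = 1 := by
      rw [← hval]
      exact congrArg Subtype.val u.mul_inv
    have hmem : (((a : ↥E)⁻¹ : ↥E) : Qb) ∈ A := by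
      have : (((a : ↥E)⁻¹ : ↥E) : Qb) = (((u⁻¹ : (↥A)ˣ) : ↥A) : Qb) := by
        rw [show (((a : ↥E)⁻¹ : ↥E) : Qb) = ((a : ↥E) : Qb)⁻¹ from rfl]
        exact inv_eq_of_mul_eq_one_right hinv
      rw [this]
      exact (((u⁻¹ : (↥A)ˣ) : ↥A)).2
    have ha0 : (a : ↥E) ≠ 0 := by
      intro h0
      rw [h0] at hinv
      simp at hinv
    refine IsUnit.of_mul_eq_one (⟨(a : ↥E)⁻¹, hmem⟩ : ↥(AE A E)) ?_
    apply Subtype.ext
    show (a : ↥E) * (a : ↥E)⁻¹ = 1
    exact mul_inv_cancel₀ ha0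
  · intro h
    exact h.map (iotaA A E)

theorem piE_eq_zero_iff (a : ↥(AE A E)) : piE A E a = 0 ↔ resE A E a = 0 := by
  show IsLocalRing.residue A (iotaA A E a) = 0 ↔ IsLocalRing.residue ↥(AE A E) a = 0
  rw [IsLocalRing.residue_eq_zero_iff, IsLocalRing.residue_eq_zero_iff,
    IsLocalRing.mem_maximalIdeal, IsLocalRing.mem_maximalIdeal, mem_nonunits_iff,
    mem_nonunits_iff, isUnit_iotaA_iff]

theorem gaussSet_piE_eq : gaussSet (AE A E) (piE A E) M = gaussSet (AE A E) (resE A E) M :=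
  gaussSet_congr (AE A E) (piE A E) (resE A E) M (piE_eq_zero_iff A E)

end Kappa

section Red

variable (M : ℕ) [NeZero M] (A : ValuationSubring Qb) (E : IntermediateField ℚ Qb)

/-- `A ∩ E → Rc`, `a ↦` the constant `a`. -/
def toRc : ↥(AE A E) →+* ↥(Rc M A E) where
  toFun a := ⟨algebraMap Qb (Om M) ((a : ↥E) : Qb), mem_Rc_of a.2 (a : ↥E).2⟩
  map_one' := Subtype.ext (map_one (algebraMap Qb (Om M)))
  map_mul' _ _ := Subtype.ext (map_mul (algebraMap Qb (Om M)) _ _)
  map_zero' := Subtype.ext (map_zero (algebraMap Qb (Om M)))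
  map_add' _ _ := Subtype.ext (map_add (algebraMap Qb (Om M)) _ _)

theorem toRc_bijective : Function.Bijective (toRc M A E) := by
  constructor
  · intro a b hab
    have h1 : algebraMap Qb (Om M) ((a : ↥E) : Qb) = algebraMap Qb (Om M) ((b : ↥E) : Qb) :=
      congrArg Subtype.val hab
    exact Subtype.ext (Subtype.ext (algebraMap_Om_injective h1))
  · rintro ⟨r, hr⟩
    obtain ⟨a, haA, haE, rfl⟩ := exists_of_mem_Rc hr
    exact ⟨⟨⟨a, haE⟩, haA⟩, rfl⟩

/-- `Rc ≃ A ∩ E`. -/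
def rcEquiv : ↥(AE A E) ≃+* ↥(Rc M A E) :=
  RingEquiv.ofBijective (toRc M A E) (toRc_bijective M A E)

/-- The residue map of `Rc`. -/
def rhoE : ↥(Rc M A E) →+* KapE A E :=
  (resE A E).comp (rcEquiv M A E).symm.toRingHom

theorem rhoE_toRc (a : ↥(AE A E)) : rhoE M A E (toRc M A E a) = resE A E a := by
  show resE A E ((rcEquiv M A E).symm (rcEquiv M A E a)) = _
  rw [RingEquiv.symm_apply_apply]

theorem rhoE_surjective : Function.Surjective (rhoE M A E) := by
  intro c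
  obtain ⟨a, rfl⟩ := IsLocalRing.residue_surjective c
  exact ⟨toRc M A E a, rhoE_toRc M A E a⟩

theorem PhiE_mem_VcRing (g : ↥(gaussRing (AE A E) (resE A E) M)) :
    ∃ h : PhiE E (g : LaurentSeries ↥E) ∈ modularFunctionFieldBar M,
      (⟨PhiE E (g : LaurentSeries ↥E), h⟩ : Om M) ∈ VcRing M A E := by
  obtain ⟨h, -⟩ := PhiE_mem_Fc M E g.2.1
  refine ⟨h, (mem_VcSet_iff M A E).mpr ⟨g.1, ?_, rfl⟩⟩
  rw [gaussSet_piE_eq]
  exact g.2

/-- The generic Gauss ring of `(E, A ∩ E)` maps isomorphically onto `VcRing M A E`. -/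
def ofGauss : ↥(gaussRing (AE A E) (resE A E) M) →+* ↥(VcRing M A E) where
  toFun g := ⟨⟨PhiE E (g : LaurentSeries ↥E), (PhiE_mem_VcRing M A E g).fst⟩,
    (PhiE_mem_VcRing M A E g).snd⟩
  map_one' := Subtype.ext (Subtype.ext (map_one (PhiE E)))
  map_mul' _ _ := Subtype.ext (Subtype.ext (map_mul (PhiE E) _ _))
  map_zero' := Subtype.ext (Subtype.ext (map_zero (PhiE E)))
  map_add' _ _ := Subtype.ext (Subtype.ext (map_add (PhiE E) _ _))

theorem coe_ofGauss (g : ↥(gaussRing (AE A E) (resE A E) M)) :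
    (((ofGauss M A E g : ↥(VcRing M A E)) : Om M) : LaurentSeries Qb) =
      PhiE E (g : LaurentSeries ↥E) := rfl

theorem ofGauss_bijective : Function.Bijective (ofGauss M A E) := by
  constructor
  · intro a b hab
    have h1 : PhiE E (a : LaurentSeries ↥E) = PhiE E (b : LaurentSeries ↥E) :=
      congrArg (fun z : ↥(VcRing M A E) => ((z : Om M) : LaurentSeries Qb)) hab
    exact Subtype.ext (PhiE_injective E h1)
  · rintro ⟨f, hf⟩
    obtain ⟨g, hg, hgf⟩ := (mem_VcSet_iff M A E).mp hf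
    rw [gaussSet_piE_eq] at hg
    exact ⟨⟨g, hg⟩, Subtype.ext (Subtype.ext hgf)⟩

/-- `gaussRing ≃ VcRing`. -/
def gaussEquiv : ↥(gaussRing (AE A E) (resE A E) M) ≃+* ↥(VcRing M A E) :=
  RingEquiv.ofBijective (ofGauss M A E) (ofGauss_bijective M A E)

/-- **The reduction map** `V → κ((q))`. -/
def redV : ↥(VcRing M A E) →+* LaurentSeries (KapE A E) :=
  (gaussRes (AE A E) (resE A E) M).comp (gaussEquiv M A E).symm.toRingHom

theorem redV_ofGauss (g : ↥(gaussRing (AE A E) (resE A E) M)) :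
    redV M A E (ofGauss M A E g) = gaussRes (AE A E) (resE A E) M g := by
  show gaussRes (AE A E) (resE A E) M ((gaussEquiv M A E).symm (gaussEquiv M A E g)) = _
  rw [RingEquiv.symm_apply_apply]

theorem exists_ofGauss_eq (f : ↥(VcRing M A E)) :
    ∃ g : ↥(gaussRing (AE A E) (resE A E) M), ofGauss M A E g = f :=
  (ofGauss_bijective M A E).2 f

/-- `red` on constants (`hcompat`). -/
theorem redV_compat (r : ↥(Rc M A E)) :
    redV M A E ⟨r, Rc_le_VcRing r.2⟩ =
      algebraMap (KapE A E) (LaurentSeries (KapE A E)) (rhoE M A E r) := by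
  obtain ⟨a, rfl⟩ := (toRc_bijective M A E).2 r
  rw [rhoE_toRc, algebraMap_eq_C]
  have h1 : (⟨(toRc M A E a : Om M), Rc_le_VcRing (toRc M A E a).2⟩ : ↥(VcRing M A E)) =
      ofGauss M A E ⟨HahnSeries.C (Γ := ℤ) ((a : ↥E)), C_mem_gaussSet a⟩ := by
    apply Subtype.ext
    apply Subtype.ext
    rw [coe_ofGauss]
    show ((algebraMap Qb (Om M) ((a : ↥E) : Qb) : Om M) : LaurentSeries Qb) = _
    rw [coe_algebraMap_Om, PhiE_C]
  rw [h1, redV_ofGauss, gaussRes_C]

/-- `hunit`. -/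
theorem redV_unit (f : ↥(VcRing M A E)) (hf : redV M A E f ≠ 0) :
    (f : Om M)⁻¹ ∈ VcRing M A E := by
  obtain ⟨g, rfl⟩ := exists_ofGauss_eq M A E f
  rw [redV_ofGauss] at hf
  have h := inv_mem_of_gaussRes_ne_zero g hf
  refine (mem_VcSet_iff M A E).mpr ⟨(g : LaurentSeries ↥E)⁻¹, ?_, ?_⟩
  · rw [gaussSet_piE_eq]
    exact h
  · rw [map_inv₀]
    rfl

/-- `hker`, from `V_gen`. -/
theorem redV_ker (core : CoreData M (IsLocalRing.ResidueField A)) {w : Om M}
    (hgen : ∀ r ∈ Rc M A E, r⁻¹ ∉ Rc M A E → r * w⁻¹ ∈ Rc M A E)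
    (f : ↥(VcRing M A E)) (hf : redV M A E f = 0) : (f : Om M) * w⁻¹ ∈ VcRing M A E := by
  by_cases hf0 : (f : Om M) = 0
  · rw [hf0, zero_mul]
    exact zero_mem _
  · refine VcRing_gen core hgen f f.2 ?_
    intro hinv
    have h1 : f * ⟨(f : Om M)⁻¹, hinv⟩ = 1 := Subtype.ext (mul_inv_cancel₀ hf0)
    have h2 := congrArg (redV M A E) h1
    rw [map_mul, hf, zero_mul, map_one] at h2
    exact zero_ne_one h2

/-- `red` of a coordinate with integral model `X`. -/
theorem redV_intModel {x : Om M} {X : LaurentSeries ℤ}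
    (hxX : (x : LaurentSeries Qb) = coeffMap (Int.castRingHom Qb) X)
    (hXF : coeffMap (Int.castRingHom ℚ) X ∈ modularFunctionFieldFull M)
    (hx : x ∈ VcRing M A E) :
    redV M A E ⟨x, hx⟩ = coeffMap (Int.castRingHom (KapE A E)) X := by
  have hGI : IsGI (AE A E) M (coeffMap (Int.castRingHom ↥(AE A E)) X) := by
    unfold IsGI
    rw [coeffMap_coeffMap,
      show ((AE A E).subtype.comp (Int.castRingHom ↥(AE A E))) = Int.castRingHom ↥E from
        RingHom.ext_int _ _, coeffMap_intCast_eq_coeffEmb]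
    exact coeffEmb_mem_laurentBaseChange ↥E hXF
  have h1 : (⟨x, hx⟩ : ↥(VcRing M A E)) =
      ofGauss M A E ⟨_, incl_mem_gaussSet (π := resE A E) hGI⟩ := by
    apply Subtype.ext
    apply Subtype.ext
    rw [coe_ofGauss]
    show (x : LaurentSeries Qb) = _
    rw [hxX, PhiE, coeffMap_coeffMap, coeffMap_coeffMap]
    exact coeffMap_congr (RingHom.ext_int _ _) X
  rw [h1, redV_ofGauss, gaussRes_incl hGI, coeffMap_coeffMap]
  exact coeffMap_congr (RingHom.ext_int _ _) X

theorem redV_jOm (hj : jOm M ∈ VcRing M A E) :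
    redV M A E ⟨jOm M, hj⟩ = jqModC (KapE A E) := by
  obtain ⟨X, h1, h2, hxX, hXF⟩ := hasIntModel_jOm (M := M)
  have hX : X = jqModC ℤ := by
    have h3 : coeffMap (Int.castRingHom Qb) X = coeffMap (Int.castRingHom Qb) (jqModC ℤ) := by
      rw [← hxX]
      show ((jd M 1 (one_dvd M) : Om M) : LaurentSeries Qb) = _
      rw [coe_jd, coeffMap_jqModC, qExpand_one_apply]
    ext n
    have h4 := congrArg (fun z : LaurentSeries Qb => z.coeff n) h3
    exact Int.cast_injective (α := Qb) h4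
  rw [redV_intModel M A E hxX hXF hj, hX, coeffMap_jqModC]

/-- `ord_q (red x) = -1`. -/
theorem order_redV {x : Om M} (hx : HasIntModel M x) (hxV : x ∈ VcRing M A E) :
    (redV M A E ⟨x, hxV⟩).order = -1 := by
  obtain ⟨X, h1, h2, hxX, hXF⟩ := hx
  rw [redV_intModel M A E hxX hXF hxV]
  apply order_of_coeff_neg_one
  · show Int.castRingHom (KapE A E) (X.coeff (-1)) = 1
    rw [h1, map_one]
  · intro n hn
    show Int.castRingHom (KapE A E) (X.coeff n) = 0
    rw [h2 n hn, map_zero]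

end Red

section Alg

/-- Algebraicity passes to a larger base field. -/
theorem isAlgebraic_of_le {F L : Type*} [Field F] [Field L] [Algebra F L]
    {K K' : IntermediateField F L} (h : K ≤ K') {y : L} (hy : IsAlgebraic K y) :
    IsAlgebraic K' y := by
  obtain ⟨p, hp0, hp⟩ := hy
  refine ⟨p.map (IntermediateField.inclusion h).toRingHom, ?_, ?_⟩
  · exact (Polynomial.map_ne_zero_iff (IntermediateField.inclusion h).toRingHom.injective).mpr hp0
  · rw [Polynomial.aeval_def, Polynomial.eval₂_map]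
    rw [Polynomial.aeval_def] at hp
    exact hp

variable (κ : Type) [Field κ] (N : ℕ) [NeZero N]

/-- Every element of `F_κ` is algebraic over `κ(j̄)`. -/
theorem isAlgebraic_jField_of_mem_fullC (core : CoreData N κ) {y : LaurentSeries κ}
    (hy : y ∈ modularFunctionFieldFullC κ N) : IsAlgebraic (jField κ) y := by
  have hint : ∀ z ∈ divisorExpansionsC κ N, IsIntegral (jField κ) z := by
    rintro z ⟨d, hd, hdN, rfl⟩
    exact H325.isIntegral_jField_of_monic κ d (core.integral d hdN)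
  have h1 : y ∈ IntermediateField.adjoin (jField κ) (divisorExpansionsC κ N) := by
    have h2 : modularFunctionFieldFullC κ N ≤
        (IntermediateField.adjoin (jField κ) (divisorExpansionsC κ N)).restrictScalars κ := by
      rw [modularFunctionFieldFullC, IntermediateField.adjoin_le_iff]
      intro z hz
      exact IntermediateField.subset_adjoin (jField κ) _ hz
    exact h2 hy
  have h3 : Algebra.IsAlgebraic (jField κ)
      (IntermediateField.adjoin (jField κ) (divisorExpansionsC κ N)) :=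
    IntermediateField.isAlgebraic_adjoin hint
  have h4 := h3.isAlgebraic ⟨y, h1⟩
  exact h4.algebraMap (A := LaurentSeries κ)

end Alg

section Main

variable {M : ℕ} [NeZero M] {A : ValuationSubring Qb} {E : IntermediateField ℚ Qb}

theorem liesOverPrime_AE {ℓ : ℕ} (hA : A.LiesOverPrime ℓ) : (AE A E).LiesOverPrime ℓ := by
  have h1 : (ℓ : Qb) ∈ A.nonunits := hA
  show (ℓ : ↥E) ∈ (AE A E).nonunits
  rw [ValuationSubring.mem_nonunits_iff_exists_mem_maximalIdeal] at h1 ⊢
  obtain ⟨hm, hmax⟩ := h1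
  have hm' : (ℓ : ↥E) ∈ AE A E := by
    show algebraMap ↥E Qb (ℓ : ↥E) ∈ A
    rw [map_natCast]
    exact hm
  refine ⟨hm', ?_⟩
  rw [IsLocalRing.mem_maximalIdeal, mem_nonunits_iff] at hmax ⊢
  intro hu
  apply hmax
  have h2 := (isUnit_iotaA_iff A E ⟨(ℓ : ↥E), hm'⟩).mpr hu
  have h3 : iotaA A E ⟨(ℓ : ↥E), hm'⟩ = ⟨(ℓ : Qb), hm⟩ :=
    Subtype.ext (map_natCast (algebraMap ↥E Qb) ℓ)
  rw [← h3]
  exact h2

/-- `j̄ ∈ κ(x̄)` for an admissible coordinate. -/
theorem jqModC_mem_adjoin_redV {ℓ : ℕ} {x : Om M} {S : Finset (Om M)}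
    (hx : IsCoordinate M ℓ x S) (hxV : x ∈ VcRing M A E) :
    jqModC (KapE A E) ∈ IntermediateField.adjoin (KapE A E) {redV M A E ⟨x, hxV⟩} := by
  have hjV : jOm M ∈ VcRing M A E := mem_VcRing_of_hasIntModel hasIntModel_jOm
  have hxbar : redV M A E ⟨x, hxV⟩ ∈
      IntermediateField.adjoin (KapE A E) {redV M A E ⟨x, hxV⟩} :=
    IntermediateField.mem_adjoin_simple_self _ _
  have hne : redV M A E ⟨x, hxV⟩ ≠ 0 := by
    intro h0
    have := order_redV M A E (Fermat.Agent.S18.H516.IsCoordinate.hasIntModel hx) hxV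
    rw [h0, HahnSeries.order_zero] at this
    omega
  rcases hx with ⟨-, rfl, -⟩ | ⟨h | h, -⟩
  · rw [← redV_jOm M A E hxV]
    exact hxbar
  · obtain ⟨-, hrel, -⟩ := h
    have h1 : (⟨jOm M, hjV⟩ : ↥(VcRing M A E)) * ⟨x, hxV⟩ ^ 2 = (⟨x, hxV⟩ + 256) ^ 3 :=
      Subtype.ext hrel
    have h2 := congrArg (redV M A E) h1
    rw [map_mul, map_pow, map_pow, map_add, redV_jOm, map_ofNat] at h2
    have h3 : jqModC (KapE A E) =
        (redV M A E ⟨x, hxV⟩ + 256) ^ 3 * ((redV M A E ⟨x, hxV⟩) ^ 2)⁻¹ := by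
      rw [← h2, mul_assoc, mul_inv_cancel₀ (pow_ne_zero _ hne), mul_one]
    rw [h3]
    exact mul_mem (pow_mem (add_mem hxbar (ofNat_mem _ 256)) _) (inv_mem (pow_mem hxbar _))
  · obtain ⟨-, hrel, -⟩ := h
    have h1 : (⟨jOm M, hjV⟩ : ↥(VcRing M A E)) * ⟨x, hxV⟩ ^ 3 =
        (⟨x, hxV⟩ + 27) * (⟨x, hxV⟩ + 243) ^ 3 :=
      Subtype.ext hrel
    have h2 := congrArg (redV M A E) h1
    rw [map_mul, map_pow, map_mul, map_pow, map_add, map_add, redV_jOm, map_ofNat,
      map_ofNat] at h2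
    have h3 : jqModC (KapE A E) =
        (redV M A E ⟨x, hxV⟩ + 27) * (redV M A E ⟨x, hxV⟩ + 243) ^ 3 *
          ((redV M A E ⟨x, hxV⟩) ^ 3)⁻¹ := by
      rw [← h2, mul_assoc, mul_inv_cancel₀ (pow_ne_zero _ hne), mul_one]
    rw [h3]
    exact mul_mem (mul_mem (add_mem hxbar (ofNat_mem _ 27))
      (pow_mem (add_mem hxbar (ofNat_mem _ 243)) _)) (inv_mem (pow_mem hxbar _))

/-- `halg`. -/
theorem redV_algebraic (core : CoreData M (KapE A E)) {ℓ : ℕ} {x : Om M} {S : Finset (Om M)}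
    (hx : IsCoordinate M ℓ x S) (hxV : x ∈ VcRing M A E) (f : ↥(VcRing M A E)) :
    IsAlgebraic (IntermediateField.adjoin (KapE A E) {redV M A E ⟨x, hxV⟩}) (redV M A E f) := by
  have h1 : redV M A E f ∈ modularFunctionFieldFullC (KapE A E) M :=
    gaussRes_mem core _
  have h2 := isAlgebraic_jField_of_mem_fullC (KapE A E) M core h1
  refine isAlgebraic_of_le ?_ h2
  rw [jField, IntermediateField.adjoin_le_iff]
  rintro y rfl
  exact jqModC_mem_adjoin_redV hx hxV

/-- **G-SEP for `VcRing`.** -/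
theorem sep_field_VcRing {ℓ : ℕ} (hℓ : ℓ.Prime) (hℓM : ¬ ℓ ∣ M) (hA : A.LiesOverPrime ℓ)
    [FiniteDimensional ℚ E] {w : Om M}
    (hgen : ∀ r ∈ Rc M A E, r⁻¹ ∉ Rc M A E → r * w⁻¹ ∈ Rc M A E)
    {x : Om M} {S : Finset (Om M)} (hx : IsCoordinate M ℓ x S) :
    ∀ f ∈ VcRing M A E, ∃ P : Polynomial (Om M),
      (∀ i, P.coeff i ∈ Alg.polyRing (Rc M A E) x) ∧
      P.eval f * w⁻¹ ∈ VcRing M A E ∧ (Polynomial.derivative P).eval f ≠ 0 ∧
      ((Polynomial.derivative P).eval f)⁻¹ ∈ VcRing M A E := by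
  have : Fact ℓ.Prime := ⟨hℓ⟩
  have : NumberField ↥E := H602.numberField_of_finiteDimensional E
  have : Finite (KapE A E) := H456.finite_residueField A E hℓ.ne_zero hA
  have : CharP (KapE A E) ℓ := charP_residue (AE A E) (liesOverPrime_AE hA)
  have : PerfectField (KapE A E) := PerfectField.ofFinite
  have coreA : CoreData M (IsLocalRing.ResidueField A) := coreData_residue M hℓM A hA
  have coreκ : CoreData M (KapE A E) := coreData_of_charP M ℓ hℓM _
  have hxV : x ∈ VcRing M A E :=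
    mem_VcRing_of_hasIntModel (Fermat.Agent.S18.H516.IsCoordinate.hasIntModel hx)
  refine H264.goodModel_separable_of_red ℓ (Rc M A E) (VcRing M A E) x w Rc_le_VcRing hxV
    (rhoE M A E) (rhoE_surjective M A E) (redV M A E) (redV_compat M A E)
    (redV_ker M A E coreA hgen) (redV_unit M A E) ?_ (redV_algebraic coreκ hx hxV)
  rw [order_redV M A E (Fermat.Agent.S18.H516.IsCoordinate.hasIntModel hx) hxV]
  exact H264.not_prime_dvd_neg_one ℓ hℓ

/-- **G-SEP hand-in**: the field `separable` of `Alg.GoodModel` for every subring `V` with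
underlying set `VcSet M A E` (`E/ℚ` finite), every `w` with `w_gen`, every admissible
coordinate `x`. -/
theorem sep_field_of_isCoordinate {ℓ : ℕ} (hℓ : ℓ.Prime) (hℓM : ¬ ℓ ∣ M)
    (hA : A.LiesOverPrime ℓ) [FiniteDimensional ℚ E]
    (V : Subring (Om M)) (hV : (V : Set (Om M)) = VcSet M A E) {w : Om M}
    (hgen : ∀ r ∈ Rc M A E, r⁻¹ ∉ Rc M A E → r * w⁻¹ ∈ Rc M A E)
    {x : Om M} {S : Finset (Om M)} (hx : IsCoordinate M ℓ x S) :
    ∀ f ∈ V, ∃ P : Polynomial (Om M),
      (∀ i, P.coeff i ∈ Alg.polyRing (Rc M A E) x) ∧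
      P.eval f * w⁻¹ ∈ V ∧ (Polynomial.derivative P).eval f ≠ 0 ∧
      ((Polynomial.derivative P).eval f)⁻¹ ∈ V := by
  have hVeq : V = VcRing M A E := SetLike.coe_injective (by rw [hV, coe_VcRing])
  subst hVeq
  exact sep_field_VcRing hℓ hℓM hA hgen hx

end Main

end Fermat.Agent.S18.H516

end
end
-- ===== PACK-END S18/MOD/H516/GaussSep.lean

-- ===== PACK-BEGIN S48/H648/BrCoord.lean
section


/-!
# S48 / Tower A1 / A1-BR (helper648), part 4: the coordinates `t₂`, `t₃`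

Abstract (Mathlib-only) transfer of branch data from the coordinate `j` to the Hauptmoduln
`x = t₂` (`j x² = (x + 256)³`, used for `ℓ = 3`) and `x = t₃` (`j x³ = (x + 27)(x + 243)³`, used
for `ℓ = 2`) of `S18.Mod.IsCoordinate`.

Setting: a field `Ω` of characteristic `0`, a subfield `Lc` of constants, a valuation subring `O`
containing `Lc`, and `j : Ω` not a constant such that
* over every `a ∈ Lc`, `a ≠ 0, 1728`, the element `j - a` generates the maximal ideal
  (`OrdLe (j - a) 1 O`),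
* `OrdLe j 3 O` over `0` and `OrdLe (j - 1728) 2 O` over `1728`.

Then `x - c` generates the maximal ideal of `O` whenever it is a non-unit and
`c ∉ {0, -64}` (`ordLe_t2`), resp. `c ∉ {0, -27}` (`ordLe_t3`): the field `unramified` of
`S18.Alg.GoodModel` for the coordinates `t₂`, `t₃` with `S = {0, -64}`, `{0, -27}`.
-/

set_option autoImplicit false

namespace Fermat.Agent.S48.H648

variable {Ω : Type*} [Field Ω]

section Val

variable {O : ValuationSubring Ω}

theorem valuation_lt_one_of_nonunit {t : Ω} (ht : t ∈ O) (ht' : t⁻¹ ∉ O) :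
    O.valuation t < 1 := by
  have h1 : O.valuation t ≤ 1 := (O.valuation_le_one_iff _).2 ht
  rcases h1.lt_or_eq with h | h
  · exact h
  · exfalso
    apply ht'
    rw [← O.valuation_le_one_iff, map_inv₀, h, inv_one]

theorem nonunit_of_valuation_lt_one {t : Ω} (ht0 : t ≠ 0) (ht : O.valuation t < 1) :
    t ∈ O ∧ t⁻¹ ∉ O := by
  refine ⟨(O.valuation_le_one_iff _).1 ht.le, fun h => ?_⟩
  have h1 : O.valuation t⁻¹ ≤ 1 := (O.valuation_le_one_iff _).2 h
  rw [map_inv₀] at h1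
  have hpos : 0 < O.valuation t := zero_lt_iff.2 ((Valuation.ne_zero_iff _).2 ht0)
  exact absurd ((inv_le_one₀ hpos).1 h1) (not_le.2 ht)

/-- `OrdLe` in terms of the valuation. -/
theorem ordLe_iff {y : Ω} (hy : y ≠ 0) {k : ℕ} (hk : k ≠ 0) :
    OrdLe y k O ↔ ∀ t : Ω, O.valuation t < 1 → O.valuation t ^ k ≤ O.valuation y := by
  have hypos : 0 < O.valuation y := zero_lt_iff.2 ((Valuation.ne_zero_iff _).2 hy)
  constructor
  · intro h t ht
    by_cases ht0 : t = 0
    · rw [ht0, map_zero, zero_pow hk]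
      exact zero_le
    obtain ⟨h1, h2⟩ := nonunit_of_valuation_lt_one ht0 ht
    have := (O.valuation_le_one_iff _).2 (h t h1 h2)
    rw [map_mul, map_pow, map_inv₀] at this
    have h2 := (mul_inv_le_iff₀ hypos).1 this
    rwa [one_mul] at h2
  · intro h t ht ht'
    have := h t (valuation_lt_one_of_nonunit ht ht')
    rw [← O.valuation_le_one_iff, map_mul, map_pow, map_inv₀]
    exact (mul_inv_le_iff₀ hypos).2 (by rwa [one_mul])

theorem valuation_const_eq_one (Lc : Subfield Ω) (hO : ∀ a ∈ Lc, a ∈ O) {a : Ω} (ha : a ∈ Lc)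
    (ha0 : a ≠ 0) : O.valuation a = 1 := by
  have h1 : O.valuation a ≤ 1 := (O.valuation_le_one_iff _).2 (hO a ha)
  have h2 : O.valuation a⁻¹ ≤ 1 := (O.valuation_le_one_iff _).2 (hO _ (Lc.inv_mem ha))
  rw [map_inv₀] at h2
  have hpos : 0 < O.valuation a := zero_lt_iff.2 ((Valuation.ne_zero_iff _).2 ha0)
  exact le_antisymm h1 ((inv_le_one₀ hpos).1 h2)

theorem valuation_add_const_eq_one (Lc : Subfield Ω) (hO : ∀ a ∈ Lc, a ∈ O) {y a : Ω}
    (hy : O.valuation y < 1) (ha : a ∈ Lc) (ha0 : a ≠ 0) : O.valuation (y + a) = 1 := by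
  have h1 := valuation_const_eq_one Lc hO ha ha0
  rw [Valuation.map_add_eq_of_lt_right _ (by rw [h1]; exact hy), h1]

end Val

theorem natCast_mem_subfield (Lc : Subfield Ω) (n : ℕ) : (n : Ω) ∈ Lc := natCast_mem Lc n

variable [CharZero Ω]

/-- **Coordinate `t₂`** (`ℓ = 3`): `j x² = (x + 256)³`, branch values `S = {0, -64}`. -/
theorem ordLe_t2 (Lc : Subfield Ω) (O : ValuationSubring Ω) (hO : ∀ a ∈ Lc, a ∈ O) (j x : Ω)
    (hjx : j * x ^ 2 = (x + 256) ^ 3) (hjc : ∀ a ∈ Lc, j ≠ a)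
    (Hgen : ∀ a ∈ Lc, a ≠ 0 → a ≠ 1728 → j - a ∈ O → (j - a)⁻¹ ∉ O → OrdLe (j - a) 1 O)
    (H0 : j ∈ O → j⁻¹ ∉ O → OrdLe j 3 O)
    (H1728 : j - 1728 ∈ O → (j - 1728)⁻¹ ∉ O → OrdLe (j - 1728) 2 O)
    (c : Ω) (hc : c ∈ Lc) (hc0 : c ≠ 0) (hc64 : c ≠ -64)
    (h1 : x - c ∈ O) (h2 : (x - c)⁻¹ ∉ O) : OrdLe (x - c) 1 O := by
  have hv : O.valuation (x - c) < 1 := valuation_lt_one_of_nonunit h1 h2
  have hxc0 : x - c ≠ 0 := by
    intro h
    apply h2
    rw [h, inv_zero]
    exact O.zero_mem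
  have hvc : O.valuation c = 1 := valuation_const_eq_one Lc hO hc hc0
  have hvx : O.valuation x = 1 := by
    have := valuation_add_const_eq_one Lc hO hv hc hc0
    rwa [sub_add_cancel] at this
  have hx0 : x ≠ 0 := by
    intro h
    rw [h, map_zero] at hvx
    exact zero_ne_one hvx
  rw [ordLe_iff hxc0 one_ne_zero]
  intro t ht
  rw [pow_one]
  -- the value `c' = j(c)`
  set c' : Ω := (c + 256) ^ 3 / c ^ 2 with hc'
  have hc'mem : c' ∈ Lc :=
    Lc.div_mem (Lc.pow_mem (Lc.add_mem hc (by exact_mod_cast natCast_mem_subfield Lc 256)) 3)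
      (Lc.pow_mem hc 2)
  have hc'c : c' * c ^ 2 = (c + 256) ^ 3 := by
    rw [hc']
    field_simp
  set Q : Ω := c ^ 2 * x ^ 2 - 196608 * c * x - 16777216 * (x + c) with hQ
  have hQmem : Q ∈ O := by
    have hxO : x ∈ O := (O.valuation_le_one_iff _).1 hvx.le
    have hcO : c ∈ O := hO c hc
    have hn1 : (196608 : Ω) ∈ O := hO _ (by exact_mod_cast natCast_mem_subfield Lc 196608)
    have hn2 : (16777216 : Ω) ∈ O := hO _ (by exact_mod_cast natCast_mem_subfield Lc 16777216)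
    exact sub_mem (sub_mem (mul_mem (pow_mem hcO 2) (pow_mem hxO 2))
      (mul_mem (mul_mem hn1 hcO) hxO)) (mul_mem hn2 (add_mem hxO hcO))
  have key : (j - c') * (x ^ 2 * c ^ 2) = (x - c) * Q := by
    have e1 : (j - c') * (x ^ 2 * c ^ 2) = (j * x ^ 2) * c ^ 2 - (c' * c ^ 2) * x ^ 2 := by ring
    rw [e1, hjx, hc'c, hQ]
    ring
  have hjc' : j - c' ≠ 0 := sub_ne_zero.2 (hjc c' hc'mem)
  have hvjc : O.valuation (j - c') = O.valuation (x - c) * O.valuation Q := by
    have := congrArg O.valuation key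
    rwa [map_mul, map_mul, map_mul, map_pow, map_pow, hvx, hvc, one_pow, mul_one,
      mul_one] at this
  have hvjc_le : O.valuation (j - c') ≤ O.valuation (x - c) := by
    rw [hvjc]
    exact mul_le_of_le_one_right' ((O.valuation_le_one_iff _).2 hQmem)
  have hvjc_lt : O.valuation (j - c') < 1 := lt_of_le_of_lt hvjc_le hv
  obtain ⟨hj1, hj2⟩ := nonunit_of_valuation_lt_one hjc' hvjc_lt
  by_cases hc'0 : c' = 0
  · -- `c = -256`, over `j = 0`
    have hc256 : c + 256 = 0 := by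
      have : (c + 256) ^ 3 = 0 := by rw [← hc'c, hc'0, zero_mul]
      exact pow_eq_zero_iff (by norm_num) |>.1 this
    have hxc : x + 256 = x - c := by
      have : c = -256 := eq_neg_of_add_eq_zero_left hc256
      rw [this]; ring
    rw [hc'0, sub_zero] at hj1 hj2 hjc'
    have h3 := (ordLe_iff hjc' (by norm_num : (3 : ℕ) ≠ 0)).1 (H0 hj1 hj2) t ht
    have hvj : O.valuation j = O.valuation (x - c) ^ 3 := by
      have := congrArg O.valuation hjx
      rwa [map_mul, map_pow, map_pow, hvx, one_pow, mul_one, hxc] at this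
    rw [hvj] at h3
    exact (pow_le_pow_iff_left₀ zero_le zero_le (by norm_num : (3 : ℕ) ≠ 0)).1 h3
  by_cases hc'1 : c' = 1728
  · -- `c = 512`, over `j = 1728`
    have hfac : (c + 64) * (c - 512) ^ 2 = 0 := by
      have : (c + 256) ^ 3 = 1728 * c ^ 2 := by rw [← hc'c, hc'1]
      linear_combination this
    have hc512 : c = 512 := by
      rcases mul_eq_zero.1 hfac with h | h
      · exact absurd (eq_neg_of_add_eq_zero_left h) hc64
      · exact sub_eq_zero.1 (pow_eq_zero_iff (by norm_num) |>.1 h)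
    rw [hc'1] at hj1 hj2 hjc'
    have h3 := (ordLe_iff hjc' (by norm_num : (2 : ℕ) ≠ 0)).1 (H1728 hj1 hj2) t ht
    have hv64 : O.valuation (x + 64) = 1 := by
      have h576 : (576 : Ω) ∈ Lc := by exact_mod_cast natCast_mem_subfield Lc 576
      have := valuation_add_const_eq_one Lc hO hv h576 (by norm_num)
      have e : x - c + 576 = x + 64 := by rw [hc512]; ring
      rwa [e] at this
    have hvj : O.valuation (j - 1728) = O.valuation (x - c) ^ 2 := by
      have e : (j - 1728) * x ^ 2 = (x + 64) * (x - c) ^ 2 := by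
        have : (j - 1728) * x ^ 2 = j * x ^ 2 - 1728 * x ^ 2 := by ring
        rw [this, hjx, hc512]
        ring
      have := congrArg O.valuation e
      rwa [map_mul, map_mul, map_pow, map_pow, hvx, hv64, one_pow, mul_one, one_mul] at this
    rw [hvj] at h3
    exact (pow_le_pow_iff_left₀ zero_le zero_le (by norm_num : (2 : ℕ) ≠ 0)).1 h3
  · -- generic value
    have h3 := (ordLe_iff hjc' one_ne_zero).1 (Hgen c' hc'mem hc'0 hc'1 hj1 hj2) t ht
    rw [pow_one] at h3
    exact h3.trans hvjc_le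

/-- **Coordinate `t₃`** (`ℓ = 2`): `j x³ = (x + 27)(x + 243)³`, branch values `S = {0, -27}`. -/
theorem ordLe_t3 (Lc : Subfield Ω) (O : ValuationSubring Ω) (hO : ∀ a ∈ Lc, a ∈ O) (j x : Ω)
    (hjx : j * x ^ 3 = (x + 27) * (x + 243) ^ 3) (hjc : ∀ a ∈ Lc, j ≠ a)
    (Hgen : ∀ a ∈ Lc, a ≠ 0 → a ≠ 1728 → j - a ∈ O → (j - a)⁻¹ ∉ O → OrdLe (j - a) 1 O)
    (H0 : j ∈ O → j⁻¹ ∉ O → OrdLe j 3 O)
    (H1728 : j - 1728 ∈ O → (j - 1728)⁻¹ ∉ O → OrdLe (j - 1728) 2 O)
    (c : Ω) (hc : c ∈ Lc) (hc0 : c ≠ 0) (hc27 : c ≠ -27)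
    (h1 : x - c ∈ O) (h2 : (x - c)⁻¹ ∉ O) : OrdLe (x - c) 1 O := by
  have hv : O.valuation (x - c) < 1 := valuation_lt_one_of_nonunit h1 h2
  have hxc0 : x - c ≠ 0 := by
    intro h
    apply h2
    rw [h, inv_zero]
    exact O.zero_mem
  have hvc : O.valuation c = 1 := valuation_const_eq_one Lc hO hc hc0
  have hvx : O.valuation x = 1 := by
    have := valuation_add_const_eq_one Lc hO hv hc hc0
    rwa [sub_add_cancel] at this
  have hx0 : x ≠ 0 := by
    intro h
    rw [h, map_zero] at hvx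
    exact zero_ne_one hvx
  rw [ordLe_iff hxc0 one_ne_zero]
  intro t ht
  rw [pow_one]
  set c' : Ω := (c + 27) * (c + 243) ^ 3 / c ^ 3 with hc'
  have hc'mem : c' ∈ Lc :=
    Lc.div_mem (Lc.mul_mem (Lc.add_mem hc (by exact_mod_cast natCast_mem_subfield Lc 27))
      (Lc.pow_mem (Lc.add_mem hc (by exact_mod_cast natCast_mem_subfield Lc 243)) 3))
      (Lc.pow_mem hc 3)
  have hc'c : c' * c ^ 3 = (c + 27) * (c + 243) ^ 3 := by
    rw [hc']
    field_simp
  set Q : Ω := c ^ 3 * x ^ 3 - 196830 * c ^ 2 * x ^ 2 - 19131876 * c * x * (x + c)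
    - 387420489 * (x ^ 2 + x * c + c ^ 2) with hQ
  have hQmem : Q ∈ O := by
    have hxO : x ∈ O := (O.valuation_le_one_iff _).1 hvx.le
    have hcO : c ∈ O := hO c hc
    have hn1 : (196830 : Ω) ∈ O := hO _ (by exact_mod_cast natCast_mem_subfield Lc 196830)
    have hn2 : (19131876 : Ω) ∈ O := hO _ (by exact_mod_cast natCast_mem_subfield Lc 19131876)
    have hn3 : (387420489 : Ω) ∈ O := hO _ (by exact_mod_cast natCast_mem_subfield Lc 387420489)
    refine sub_mem (sub_mem (sub_mem (mul_mem (pow_mem hcO 3) (pow_mem hxO 3))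
      (mul_mem (mul_mem hn1 (pow_mem hcO 2)) (pow_mem hxO 2)))
      (mul_mem (mul_mem (mul_mem hn2 hcO) hxO) (add_mem hxO hcO)))
      (mul_mem hn3 (add_mem (add_mem (pow_mem hxO 2) (mul_mem hxO hcO))
        (pow_mem hcO 2)))
  have key : (j - c') * (x ^ 3 * c ^ 3) = (x - c) * Q := by
    have e1 : (j - c') * (x ^ 3 * c ^ 3) = (j * x ^ 3) * c ^ 3 - (c' * c ^ 3) * x ^ 3 := by ring
    rw [e1, hjx, hc'c, hQ]
    ring
  have hjc' : j - c' ≠ 0 := sub_ne_zero.2 (hjc c' hc'mem)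
  have hvjc : O.valuation (j - c') = O.valuation (x - c) * O.valuation Q := by
    have := congrArg O.valuation key
    rwa [map_mul, map_mul, map_mul, map_pow, map_pow, hvx, hvc, one_pow, mul_one,
      mul_one] at this
  have hvjc_le : O.valuation (j - c') ≤ O.valuation (x - c) := by
    rw [hvjc]
    exact mul_le_of_le_one_right' ((O.valuation_le_one_iff _).2 hQmem)
  have hvjc_lt : O.valuation (j - c') < 1 := lt_of_le_of_lt hvjc_le hv
  obtain ⟨hj1, hj2⟩ := nonunit_of_valuation_lt_one hjc' hvjc_lt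
  by_cases hc'0 : c' = 0
  · -- `c = -243`, over `j = 0`
    have hc243 : c = -243 := by
      have : (c + 27) * (c + 243) ^ 3 = 0 := by rw [← hc'c, hc'0, zero_mul]
      rcases mul_eq_zero.1 this with h | h
      · exact absurd (eq_neg_of_add_eq_zero_left h) hc27
      · exact eq_neg_of_add_eq_zero_left (pow_eq_zero_iff (by norm_num) |>.1 h)
    have hxc : x + 243 = x - c := by rw [hc243]; ring
    rw [hc'0, sub_zero] at hj1 hj2 hjc'
    have h3 := (ordLe_iff hjc' (by norm_num : (3 : ℕ) ≠ 0)).1 (H0 hj1 hj2) t ht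
    have hv27 : O.valuation (x + 27) = 1 := by
      have h216 : (-216 : Ω) ∈ Lc := Lc.neg_mem (by exact_mod_cast natCast_mem_subfield Lc 216)
      have := valuation_add_const_eq_one Lc hO hv h216 (by norm_num)
      have e : x - c + -216 = x + 27 := by rw [hc243]; ring
      rwa [e] at this
    have hvj : O.valuation j = O.valuation (x - c) ^ 3 := by
      have := congrArg O.valuation hjx
      rwa [map_mul, map_mul, map_pow, map_pow, hvx, hv27, one_pow, mul_one, one_mul, hxc]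
        at this
    rw [hvj] at h3
    exact (pow_le_pow_iff_left₀ zero_le zero_le (by norm_num : (3 : ℕ) ≠ 0)).1 h3
  by_cases hc'1 : c' = 1728
  · -- `c² - 486 c - 19683 = 0`, over `j = 1728`
    have hfac : c ^ 2 - 486 * c - 19683 = 0 := by
      have : (c + 27) * (c + 243) ^ 3 = 1728 * c ^ 3 := by rw [← hc'c, hc'1]
      have h2 : (c ^ 2 - 486 * c - 19683) ^ 2 = 0 := by linear_combination this
      exact pow_eq_zero_iff (by norm_num) |>.1 h2
    rw [hc'1] at hj1 hj2 hjc'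
    have h3 := (ordLe_iff hjc' (by norm_num : (2 : ℕ) ≠ 0)).1 (H1728 hj1 hj2) t ht
    have hconj0 : 2 * c - 486 ≠ 0 := by
      intro h
      have hc243 : c = 243 := by linear_combination h / 2
      rw [hc243] at hfac
      norm_num at hfac
    have hvconj : O.valuation (x + c - 486) = 1 := by
      have hmem : 2 * c - 486 ∈ Lc :=
        Lc.sub_mem (Lc.mul_mem (by exact_mod_cast natCast_mem_subfield Lc 2) hc)
          (by exact_mod_cast natCast_mem_subfield Lc 486)
      have := valuation_add_const_eq_one Lc hO hv hmem hconj0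
      have e : x - c + (2 * c - 486) = x + c - 486 := by ring
      rwa [e] at this
    have hvj : O.valuation (j - 1728) = O.valuation (x - c) ^ 2 := by
      have e : (j - 1728) * x ^ 3 = ((x - c) * (x + c - 486)) ^ 2 := by
        have : (j - 1728) * x ^ 3 = j * x ^ 3 - 1728 * x ^ 3 := by ring
        rw [this, hjx]
        linear_combination ((2 : Ω) * x ^ 2 - 972 * x - c ^ 2 + 486 * c - 19683) * hfac
      have := congrArg O.valuation e
      rwa [map_mul, map_pow, map_pow, map_mul, hvx, hvconj, one_pow, mul_one, mul_one] at this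
    rw [hvj] at h3
    exact (pow_le_pow_iff_left₀ zero_le zero_le (by norm_num : (2 : ℕ) ≠ 0)).1 h3
  · have h3 := (ordLe_iff hjc' one_ne_zero).1 (Hgen c' hc'mem hc'0 hc'1 hj1 hj2) t ht
    rw [pow_one] at h3
    exact h3.trans hvjc_le

end Fermat.Agent.S48.H648

end
-- ===== PACK-END S48/H648/BrCoord.lean

-- ===== PACK-BEGIN S48/H828/IActInf.lean
section


/-!
# S48 / Tower A1 / IGUSA1 (helper828), part 9a: the `q`-expansion principle at infinity

Generic complement to `H856.IgusaData.qep_fin`: the same statement in the chart `x⁻¹`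
(field `qep_inf` of `S18.Alg.GoodModel`), from `IgusaData.stable` and
`H588.qep_of_unique_gauss` applied to `x⁻¹`.

* `iact_eval_inv_eq`   : `P(x⁻¹) = (reflect P)(x) · x^{-deg P}`;
* `iact_gauss_inv`     : the field `gauss` of `IgusaData` at `x⁻¹` from the one at `x`;
* `iact_igusa_qep_inf` : `qep_inf` for every intermediate field `Fc ≤ Ffull`.
-/

set_option autoImplicit false

namespace Fermat.Agent.S48.H828

open Fermat.Agent.S18.Alg Polynomial Fermat.Agent.S48.H856

variable {Ω : Type*} [Field Ω]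

theorem iact_eval_inv_eq (P : Polynomial Ω) {x : Ω} (hx : x ≠ 0) :
    P.eval x⁻¹ = (P.reflect P.natDegree).eval x * (x⁻¹) ^ P.natDegree := by
  let _ : Invertible (x⁻¹) := invertibleOfNonzero (inv_ne_zero hx)
  have h := eval₂_reflect_mul_pow (RingHom.id Ω) (x⁻¹) P.natDegree P le_rfl
  rw [invOf_eq_inv, inv_inv, eval₂_id, eval₂_id] at h
  exact h.symm

theorem iact_gauss_inv {R V : Subring Ω} {x : Ω} (hx0 : x ≠ 0) (hxV : x ∈ V)
    (hgauss : ∀ P : Polynomial Ω, (∀ i, P.coeff i ∈ R) →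
      (∃ i, P.coeff i ≠ 0 ∧ (P.coeff i)⁻¹ ∈ R) → (P.eval x)⁻¹ ∈ V) :
    ∀ P : Polynomial Ω, (∀ i, P.coeff i ∈ R) →
      (∃ i, P.coeff i ≠ 0 ∧ (P.coeff i)⁻¹ ∈ R) → (P.eval x⁻¹)⁻¹ ∈ V := by
  rintro P hP ⟨i, hi0, hiR⟩
  have hiN : i ≤ P.natDegree := le_natDegree_of_ne_zero hi0
  have h1 : ((P.reflect P.natDegree).eval x)⁻¹ ∈ V := by
    refine hgauss _ (fun k => ?_) ⟨revAt P.natDegree i, ?_, ?_⟩
    · rw [coeff_reflect]; exact hP _
    · rw [coeff_reflect, revAt_invol]; exact hi0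
    · rw [coeff_reflect, revAt_invol]; exact hiR
  rw [iact_eval_inv_eq P hx0, mul_inv, inv_pow, inv_inv]
  exact V.mul_mem h1 (V.pow_mem hxV _)

theorem iact_ratField_inv_le (Ec : Subfield Ω) (x : Ω) : ratField Ec x ≤ ratField Ec x⁻¹ := by
  unfold ratField
  rw [Subfield.closure_le]
  rintro z (hz | hz)
  · exact Subfield.subset_closure (Or.inl hz)
  · rw [Set.mem_singleton_iff] at hz
    have h1 : x⁻¹ ∈ Subfield.closure ((Ec : Set Ω) ∪ {x⁻¹}) :=
      Subfield.subset_closure (Or.inr rfl)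
    have h2 := (Subfield.closure ((Ec : Set Ω) ∪ {x⁻¹})).inv_mem h1
    rw [inv_inv] at h2
    rw [hz]; exact h2

variable {Ec F0 Ffull : Subfield Ω} {R V : Subring Ω} {w x : Ω}
  {G B : Subgroup (Ω ≃+* Ω)} {t : Ω ≃+* Ω}

theorem iact_igusa_x_ne_zero (h : IgusaData Ec F0 Ffull R V w x G B t) : x ≠ 0 := by
  rintro rfl
  exact h.x_transcendental isAlgebraic_zero

/-- **Node IGUSA1 at infinity.**  The `q`-expansion principle in the chart `x⁻¹`
(`GoodModel.qep_inf`) for every intermediate field `Fc ≤ Ffull`. -/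
theorem iact_igusa_qep_inf (h : IgusaData Ec F0 Ffull R V w x G B t) (Fc : Subfield Ω)
    (hFc : Fc ≤ Ffull) (hwFc : w ∈ Fc) :
    ∀ b ∈ chart Fc R x⁻¹, b * w⁻¹ ∈ V → b * w⁻¹ ∈ chart Fc R x⁻¹ := by
  have := h.G_finite
  have hx0 : x ≠ 0 := iact_igusa_x_ne_zero h
  intro b hb hbV
  have hbF : b * w⁻¹ ∈ Ffull := Ffull.mul_mem (hFc hb.1) (Ffull.inv_mem (hFc hwFc))
  have hRF : R ≤ Ffull.toSubring := fun r hr => h.E_le (h.R_le r hr)
  have hxt : Transcendental R x⁻¹ := fun halg => h.x_transcendental (IsAlgebraic.inv_iff.mp halg)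
  refine H588.qep_of_unique_gauss Ec Fc Ffull R (V ⊓ Ffull.toSubring) h.R_le h.R_total h.w_mem
    h.w_ne_zero h.w_inv_not_mem h.w_discrete hxt hFc hwFc
    (le_inf h.R_le_V hRF) (fun hmem => h.w_inv_not_mem_V hmem.1) ?_ G h.G_fix_E
    (fun g hg => by rw [map_inv₀, h.G_fix_x g hg])
    h.G_stable ?_ (fun f hf hfix => iact_ratField_inv_le Ec x (h.G_inv f hf hfix)) b hb
    ⟨hbV, hbF⟩
  · intro P hP hP'
    refine ⟨iact_gauss_inv hx0 h.x_mem_V h.gauss P hP hP', Ffull.inv_mem ?_⟩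
    rw [Polynomial.eval_eq_sum_range]
    exact Ffull.sum_mem fun i _ =>
      Ffull.mul_mem (hRF (hP i)) (Ffull.pow_mem (Ffull.inv_mem h.x_mem) i)
  · intro g hg f hf
    exact ⟨h.stable g hg f hf.2 hf.1, h.G_stable g hg f hf.2⟩

end Fermat.Agent.S48.H828

end
-- ===== PACK-END S48/H828/IActInf.lean

-- ===== PACK-BEGIN Lib/Cheb/H583/CycAlgBase.lean
section



/-!
# CHEB Tier 2, piece ALG of CYC: basic lemmas (helper583)

* `frob_apply_root`: an arithmetic Frobenius at `P ∣ p` maps an `m`-th root of unity `ζ` to `ζ ^ p`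
  if `p ∤ m`.
* `frob_unique`: if the inertia group at `P` is trivial, two arithmetic Frobenius elements at `P`
  coincide.
* `exists_primesLe_iff`: `decompWeight L H p ≠ 0` iff there is a prime `P ∣ p` with `D_P ≤ H`.
* `autToPow_eq_natCast_iff`: `autToPow f ≡ k mod m` iff `f ζ = ζ ^ k`.
-/

set_option autoImplicit false
set_option linter.unusedSectionVars false

open NumberField

namespace Fermat.Agent.Lib.Cheb.H583

section General

variable {L : Type} [Field L] [NumberField L]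

/-- The residue field of the prime of `ℤ` below a prime `P ∋ p` has `p` elements. -/
theorem card_quot_under_eq {p : ℕ} (hp : p.Prime) {P : Ideal (𝓞 L)} (hP : P.IsPrime)
    (hpP : (p : 𝓞 L) ∈ P) : Nat.card (ℤ ⧸ P.under ℤ) = p := by
  have hle : Ideal.span {(p : ℤ)} ≤ P.under ℤ := by
    rw [Ideal.span_le, Set.singleton_subset_iff]
    show algebraMap ℤ (𝓞 L) (p : ℤ) ∈ P
    simpa using hpP
  have hne : P.under ℤ ≠ ⊤ := (Ideal.IsPrime.under ℤ P).ne_top
  have : Fact p.Prime := ⟨hp⟩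
  have heq : Ideal.span {(p : ℤ)} = P.under ℤ :=
    (Int.ideal_span_isMaximal_of_prime p).eq_of_le hne hle
  rw [← heq, Int.card_ideal_quot]

/-- The defining congruence of an arithmetic Frobenius at `P ∣ p`. -/
theorem frob_smul_sub_pow_mem {p : ℕ} (hp : p.Prime) {P : Ideal (𝓞 L)} (hP : P.IsPrime)
    (hpP : (p : 𝓞 L) ∈ P) {τ : L ≃ₐ[ℚ] L} (hτ : IsArithFrobAt ℤ τ P) (x : 𝓞 L) :
    τ • x - x ^ p ∈ P := by
  have h := hτ x
  rw [card_quot_under_eq hp hP hpP] at h
  exact h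

/-- If `p ∤ m` and `p ∈ P`, then `m ∉ P`. -/
theorem natCast_not_mem_of_not_dvd {p m : ℕ} (hp : p.Prime) (hpm : ¬ p ∣ m) {P : Ideal (𝓞 L)}
    (hP : P.IsPrime) (hpP : (p : 𝓞 L) ∈ P) : (m : 𝓞 L) ∉ P := by
  intro hmP
  have hcop : Nat.Coprime p m := (Nat.Prime.coprime_iff_not_dvd hp).2 hpm
  have h1 : ((Nat.gcd p m : ℤ) : 𝓞 L) ∈ P := by
    rw [Nat.gcd_eq_gcd_ab]
    push_cast
    exact P.add_mem (P.mul_mem_right _ hpP) (P.mul_mem_right _ hmP)
  rw [hcop] at h1
  simp only [Nat.cast_one, Int.cast_one] at h1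
  exact hP.ne_top ((Ideal.eq_top_iff_one P).2 h1)

/-- An arithmetic Frobenius at `P ∣ p` raises the `m`-th roots of unity to the `p`-th power, if
`p ∤ m`. -/
theorem frob_apply_root {p m : ℕ} (hp : p.Prime) (hpm : ¬ p ∣ m) {P : Ideal (𝓞 L)}
    (hP : P.IsPrime) (hpP : (p : 𝓞 L) ∈ P) {τ : L ≃ₐ[ℚ] L} (hτ : IsArithFrobAt ℤ τ P)
    {ζ : L} (hm : 0 < m) (hζ : ζ ^ m = 1) : τ ζ = ζ ^ p := by
  have hint : IsIntegral ℤ ζ := by
    apply IsIntegral.of_pow hm
    rw [hζ]
    exact isIntegral_one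
  set z : 𝓞 L := ⟨ζ, hint⟩ with hz
  have hz1 : z ^ m = 1 := by
    apply RingOfIntegers.ext
    show (z : L) ^ m = 1
    exact hζ
  have hmP : (m : 𝓞 L) ∉ P := natCast_not_mem_of_not_dvd hp hpm hP hpP
  have h := AlgHom.IsArithFrobAt.apply_of_pow_eq_one hτ hz1 hmP
  rw [card_quot_under_eq hp hP hpP] at h
  have h2 := congrArg (fun y : 𝓞 L => (y : L)) h
  exact h2

/-- With trivial inertia, the arithmetic Frobenius is unique. -/
theorem frob_unique {P : Ideal (𝓞 L)} (hin : Spec.InertiaTrivial L P) {τ τ' : L ≃ₐ[ℚ] L}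
    (hτ : IsArithFrobAt ℤ τ P) (hτ' : IsArithFrobAt ℤ τ' P) : τ = τ' := by
  have h : τ * τ'⁻¹ = 1 := by
    apply hin
    intro x
    have h1 := hτ (τ'⁻¹ • x)
    have h2 := hτ' (τ'⁻¹ • x)
    have h3 : (τ * τ'⁻¹) • x - x =
        ((MulSemiringAction.toAlgHom ℤ (𝓞 L) τ) (τ'⁻¹ • x) -
            (τ'⁻¹ • x) ^ Nat.card (ℤ ⧸ P.under ℤ)) -
          ((MulSemiringAction.toAlgHom ℤ (𝓞 L) τ') (τ'⁻¹ • x) -
            (τ'⁻¹ • x) ^ Nat.card (ℤ ⧸ P.under ℤ)) := by
      simp [mul_smul]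
    rw [h3]
    exact P.sub_mem h1 h2
  exact mul_inv_eq_one.1 h

end General

section Weight

variable {L : Type} [Field L] [NumberField L] [IsGalois ℚ L]

open Classical in
/-- `decompWeight L H p ≠ 0` iff some prime above `p` has decomposition group inside `H`. -/
theorem decompWeight_ne_zero_iff (H : Subgroup (L ≃ₐ[ℚ] L)) {p : ℕ} (hp : p ≠ 0) :
    Spec.decompWeight L H p ≠ 0 ↔
      ∃ P : Ideal (𝓞 L), P.IsPrime ∧ (p : 𝓞 L) ∈ P ∧ Spec.decomp L P ≤ H := by
  have hsum := decompWeight_eq_sum (L := L) H hp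
  have hpos : ∀ P : Ideal (𝓞 L), (0 : ℝ) < (Nat.card (Spec.decomp L P) : ℝ) := by
    intro P
    exact_mod_cast Nat.card_pos
  constructor
  · intro hne
    by_contra hcon
    apply hne
    have hempty : (primesFinset L p).filter (fun P => Spec.decomp L P ≤ H) = ∅ := by
      rw [Finset.filter_eq_empty_iff]
      intro P hP hle
      rw [mem_primesFinset hp] at hP
      exact hcon ⟨P, hP.1, hP.2, hle⟩
    rw [hempty, Finset.sum_empty] at hsum
    exact_mod_cast hsum
  · rintro ⟨P, hP, hpP, hle⟩ h0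
    rw [h0, Nat.cast_zero] at hsum
    have hmem : P ∈ (primesFinset L p).filter (fun P => Spec.decomp L P ≤ H) := by
      rw [Finset.mem_filter, mem_primesFinset hp]
      exact ⟨⟨hP, hpP⟩, hle⟩
    have := Finset.sum_pos (fun P _ => hpos P) ⟨P, hmem⟩
    rw [← hsum] at this
    exact lt_irrefl _ this

/-- If two subgroups contain the same decomposition groups of primes above `p`, the weights
agree. -/
theorem decompWeight_congr (H H' : Subgroup (L ≃ₐ[ℚ] L)) (p : ℕ)
    (h : ∀ P : Ideal (𝓞 L), P.IsPrime → (p : 𝓞 L) ∈ P →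
      (Spec.decomp L P ≤ H ↔ Spec.decomp L P ≤ H')) :
    Spec.decompWeight L H p = Spec.decompWeight L H' p := by
  have hset : Spec.primesLe L H p = Spec.primesLe L H' p := by
    ext P
    constructor
    · rintro ⟨h1, h2, h3⟩
      exact ⟨h1, h2, (h P h1 h2).1 h3⟩
    · rintro ⟨h1, h2, h3⟩
      exact ⟨h1, h2, (h P h1 h2).2 h3⟩
  unfold Spec.decompWeight
  rw [hset]

end Weight

section Root

variable {L : Type} [Field L] [NumberField L] {m : ℕ} [NeZero m] {ζ : L}

/-- `autToPow f ≡ k mod m` iff `f ζ = ζ ^ k`. -/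
theorem autToPow_eq_natCast_iff (hζ : IsPrimitiveRoot ζ m) (f : L ≃ₐ[ℚ] L) (k : ℕ) :
    ((hζ.autToPow ℚ f : (ZMod m)ˣ) : ZMod m) = (k : ZMod m) ↔ f ζ = ζ ^ k := by
  have hspec := hζ.autToPow_spec ℚ f
  have hk : ζ ^ k = ζ ^ ((k : ZMod m).val) := by
    rw [ZMod.val_natCast, hζ.eq_orderOf, pow_mod_orderOf]
  constructor
  · intro h
    rw [← hspec, h, ← hk]
  · intro h
    rw [← hspec, hk] at h
    have := hζ.pow_inj (ZMod.val_lt _) (ZMod.val_lt _) h
    exact ZMod.val_injective m this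

/-- `autToPow f = 1` iff `f ζ = ζ`. -/
theorem autToPow_eq_one_iff (hζ : IsPrimitiveRoot ζ m) (f : L ≃ₐ[ℚ] L) :
    hζ.autToPow ℚ f = 1 ↔ f ζ = ζ := by
  have h := autToPow_eq_natCast_iff hζ f 1
  rw [Nat.cast_one, pow_one] at h
  rw [← h]
  constructor
  · intro h1
    rw [h1]
    rfl
  · intro h1
    exact Units.ext h1

end Root

end Fermat.Agent.Lib.Cheb.H583

end
-- ===== PACK-END Lib/Cheb/H583/CycAlgBase.lean

-- ===== PACK-BEGIN Lib/ChebQ/H968/Cross.lean
section





/-!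
# CHEB-Q, piece CROSS-Q: quantitative field crossing (helper968)

`theorem crossDensity : Spec.CrossDensityStatement`, i.e.
`FrobStatement → CycDensityStatement → ChebDensityStatement`.

For `σ ∈ Gal(L/ℚ)` of order `n` and `δ > 0` choose `k ≥ 1` with `n / 2 ^ k ≤ δ` and a prime
`m ≡ 1 mod n ^ k`, `m > |disc L|`; put `M = L(ζ_m)` (`H236.CrossField`).  For every `t ∈ (ℤ/m)ˣ`
with `n ∣ ord t` the lift `g_t = (σ, t)` of `H236.exists_crossLift` acts faithfully on `ζ`, so the
primes with Frobenius `g_t` have lower density `≥ 1/|C(g_t)| ≥ 1/(|C(σ)| (m-1))`.  These sets of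
primes are pairwise disjoint (a prime with Frobenius `g_t` is `≡ t mod m`), restrict to primes with
Frobenius `σ` in `L`, and there are at least `(1 - n/2^k)(m-1)` such `t`.
-/

set_option autoImplicit false
set_option linter.style.haveILetI false
set_option linter.unusedSectionVars false

namespace Fermat.Agent.Lib.ChebQ.H968

open NumberField
open Fermat.Agent.Lib.Cheb
open Fermat.Agent.Lib.Cheb.H236
open Fermat.Agent.Lib.ChebQ.Spec

section Cross

variable (L : Type) [Field L] [NumberField L] (m : ℕ) [hm : Fact m.Prime]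

/-- A prime `p ≠ m` with Frobenius `g` in `L(ζ_m)` is congruent mod `m` to the exponent of `g`
on `ζ`. -/
theorem natCast_eq_of_mem_frobPrimes (t : (ZMod m)ˣ)
    (g : CrossField L m ≃ₐ[ℚ] CrossField L m)
    (hg2 : g (crossZeta L m) = crossZeta L m ^ (t : ZMod m).val) {p : ℕ}
    (hp : p ∈ frobPrimes (CrossField L m) g) (hpm : p ≠ m) :
    (p : ZMod m) = (t : ZMod m) := by
  obtain ⟨hpp, P', hP', hpP', -, hfrob⟩ := hp
  have hζ := crossZeta_spec L m
  have hndvd : ¬ p ∣ m := fun h => hpm ((Nat.prime_dvd_prime_iff_eq hpp hm.out).mp h)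
  have h1 := H583.frob_apply_root hpp hndvd hP' hpP' hfrob hm.out.pos hζ.pow_eq_one
  rw [hg2] at h1
  have h2 : (t : ZMod m).val ≡ p [MOD m] := by
    have hord : orderOf (crossZeta L m) = m := hζ.eq_orderOf.symm
    have e1 := pow_mod_orderOf (crossZeta L m) (t : ZMod m).val
    have e2 := pow_mod_orderOf (crossZeta L m) p
    rw [hord] at e1 e2
    have e3 : crossZeta L m ^ ((t : ZMod m).val % m) = crossZeta L m ^ (p % m) := by
      rw [e1, e2, h1]
    exact hζ.pow_inj (Nat.mod_lt _ hm.out.pos) (Nat.mod_lt _ hm.out.pos) e3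
  have h3 : (((t : ZMod m).val : ℕ) : ZMod m) = (p : ZMod m) :=
    (ZMod.natCast_eq_natCast_iff _ _ _).mpr h2
  rw [← h3, ZMod.natCast_zmod_val]

/-- Restriction of Frobenius primes from the crossing field to `L`. -/
theorem mem_frobPrimes_of_crossField (σ : L ≃ₐ[ℚ] L)
    (g : CrossField L m ≃ₐ[ℚ] CrossField L m)
    (hg1 : ∀ x : L, g (algebraMap L (CrossField L m) x) = algebraMap L (CrossField L m) (σ x))
    (B : Finset ℕ)
    (hB : ∀ p : ℕ, p.Prime → p ∉ B → ∀ P : Ideal (𝓞 L), P.IsPrime → (p : 𝓞 L) ∈ P →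
      Spec.InertiaTrivial L P)
    {p : ℕ} (hp : p ∈ frobPrimes (CrossField L m) g) (hpB : p ∉ B) :
    p ∈ frobPrimes L σ := by
  obtain ⟨hpp, P', hP', hpP', -, hfrob⟩ := hp
  haveI := hP'
  set P : Ideal (𝓞 L) := P'.comap (algebraMap (𝓞 L) (𝓞 (CrossField L m))) with hP
  have hPprime : P.IsPrime := Ideal.comap_isPrime _ _
  have hpP : (p : 𝓞 L) ∈ P := by
    rw [hP, Ideal.mem_comap, map_natCast]
    exact hpP'
  exact ⟨hpp, P, hPprime, hpP, hB p hpp hpB P hPprime hpP, isArithFrobAt_comap σ g hg1 P' hfrob⟩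

variable [IsGalois ℚ L]

/-- an automorphism of `L(ζ_m)` is determined by its restriction to `L` and its value at `ζ`. -/
theorem crossField_algEquiv_ext (h h' : CrossField L m ≃ₐ[ℚ] CrossField L m)
    (hL : ∀ x : L, h (algebraMap L (CrossField L m) x) = h' (algebraMap L (CrossField L m) x))
    (hζ : h (crossZeta L m) = h' (crossZeta L m)) : h = h' := by
  ext y
  have hy : y ∈ Algebra.adjoin L ({crossZeta L m} : Set (CrossField L m)) := by
    rw [IsCyclotomicExtension.adjoin_primitive_root_eq_top (crossZeta_spec L m)]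
    trivial
  induction hy using Algebra.adjoin_induction with
  | mem z hz =>
    rw [Set.mem_singleton_iff] at hz
    subst hz
    exact hζ
  | algebraMap r => exact hL r
  | add _ _ _ _ hx hy => rw [map_add, map_add, hx, hy]
  | mul _ _ _ _ hx hy => rw [map_mul, map_mul, hx, hy]

/-- The centralizer of a crossing lift `g` of `σ` has at most `|C(σ)| (m - 1)` elements. -/
theorem card_centralizer_crossLift_le (σ : L ≃ₐ[ℚ] L)
    (g : CrossField L m ≃ₐ[ℚ] CrossField L m)
    (hg1 : ∀ x : L, g (algebraMap L (CrossField L m) x) = algebraMap L (CrossField L m) (σ x)) :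
    Nat.card (Subgroup.centralizer ({g} : Set (CrossField L m ≃ₐ[ℚ] CrossField L m))) ≤
      Nat.card (Subgroup.centralizer ({σ} : Set (L ≃ₐ[ℚ] L))) * (m - 1) := by
  classical
  haveI : Normal ℚ L := IsGalois.to_normal
  have hζ := crossZeta_spec L m
  let r : (CrossField L m ≃ₐ[ℚ] CrossField L m) →* (L ≃ₐ[ℚ] L) := AlgEquiv.restrictNormalHom L
  have hr : ∀ (h : CrossField L m ≃ₐ[ℚ] CrossField L m) (x : L),
      algebraMap L (CrossField L m) (r h x) = h (algebraMap L (CrossField L m) x) := fun h x =>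
    AlgEquiv.restrictNormal_commutes h L x
  have hrg : r g = σ := by
    ext x
    apply (algebraMap L (CrossField L m)).injective
    rw [hr, hg1]
  have hmem : ∀ h : Subgroup.centralizer ({g} : Set (CrossField L m ≃ₐ[ℚ] CrossField L m)),
      r h.1 ∈ Subgroup.centralizer ({σ} : Set (L ≃ₐ[ℚ] L)) := by
    intro h
    rw [Subgroup.mem_centralizer_iff]
    intro y hy
    rw [Set.mem_singleton_iff] at hy
    subst hy
    have := (Subgroup.mem_centralizer_iff.mp h.2) g (Set.mem_singleton g)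
    rw [← hrg, ← map_mul, ← map_mul, this]
  have hprim : ∀ h : CrossField L m ≃ₐ[ℚ] CrossField L m,
      h (crossZeta L m) ∈ primitiveRoots m (CrossField L m) := by
    intro h
    rw [mem_primitiveRoots hm.out.pos]
    exact hζ.map_of_injective h.injective
  let F : Subgroup.centralizer ({g} : Set (CrossField L m ≃ₐ[ℚ] CrossField L m)) →
      Subgroup.centralizer ({σ} : Set (L ≃ₐ[ℚ] L)) × ↥(primitiveRoots m (CrossField L m)) :=
    fun h => (⟨r h.1, hmem h⟩, ⟨h.1 (crossZeta L m), hprim h.1⟩)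
  have hF : Function.Injective F := by
    intro h h' hh
    have h1 : r h.1 = r h'.1 := congrArg (fun z => (z.1 : L ≃ₐ[ℚ] L)) hh
    have h2 : h.1 (crossZeta L m) = h'.1 (crossZeta L m) :=
      congrArg (fun z => (z.2 : CrossField L m)) hh
    apply Subtype.ext
    apply crossField_algEquiv_ext L m h.1 h'.1 _ h2
    intro x
    rw [← hr, ← hr, h1]
  have hcard := Nat.card_le_card_of_injective F hF
  rw [Nat.card_prod] at hcard
  have h3 : Nat.card ↥(primitiveRoots m (CrossField L m)) = m - 1 := by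
    rw [Nat.card_eq_fintype_card, Fintype.card_coe, hζ.card_primitiveRoots,
      Nat.totient_prime hm.out]
  rwa [h3] at hcard

end Cross

/-- **CROSS-Q**: quantitative field crossing. -/
theorem crossDensity : CrossDensityStatement := by
  intro hD hCyc L _ _ _ σ δ hδ
  classical
  obtain ⟨B, hB⟩ := hD L
  have hB' : ∀ p : ℕ, p.Prime → p ∉ B → ∀ P : Ideal (𝓞 L), P.IsPrime → (p : 𝓞 L) ∈ P →
      Spec.InertiaTrivial L P := fun p hp hpB P hP hpP => (hB p hp hpB P hP hpP).1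
  set n := orderOf σ with hn
  have hn0 : n ≠ 0 := (orderOf_pos σ).ne'
  obtain ⟨k, hk1, hkδ⟩ := exists_pow_two_ge n hδ
  obtain ⟨m, hmp, hmgt, hmod⟩ :=
    Nat.exists_prime_gt_modEq_one (k := n ^ k) (discr L).natAbs (pow_ne_zero k hn0)
  haveI : Fact m.Prime := ⟨hmp⟩
  have hdisc : ¬ (m : ℤ) ∣ discr L := by
    intro hdvd
    have h1 : m ∣ (discr L).natAbs := Int.natCast_dvd.mp hdvd
    have h2 : (discr L).natAbs ≠ 0 := Int.natAbs_ne_zero.mpr (discr_ne_zero L)
    exact absurd (Nat.le_of_dvd (Nat.pos_of_ne_zero h2) h1) (not_le.mpr hmgt)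
  haveI := isGalois_crossField L m
  haveI : IsCyclic (ZMod m)ˣ := ZMod.isCyclic_units_prime hmp
  have hcard : Fintype.card (ZMod m)ˣ = m - 1 := by
    rw [ZMod.card_units_eq_totient, Nat.totient_prime hmp]
  have hdvd : n ^ k ∣ Fintype.card (ZMod m)ˣ := by
    rw [hcard]
    exact (Nat.modEq_iff_dvd' hmp.one_lt.le).mp hmod.symm
  set Good : Finset (ZMod m)ˣ := Finset.univ.filter (fun t : (ZMod m)ˣ => n ∣ orderOf t)
    with hGood
  have hGoodcard := card_filter_dvd_orderOf_ge (U := (ZMod m)ˣ) hk1 hdvd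
  rw [hcard] at hGoodcard
  -- the lifts
  have hlift := fun t : (ZMod m)ˣ => exists_crossLift L m hdisc σ t
  choose g hg1 hg2 using hlift
  set c : ℝ := (Nat.card (Subgroup.centralizer ({σ} : Set (L ≃ₐ[ℚ] L))) : ℝ) with hc
  have hc1 : 1 ≤ c := by
    rw [hc]
    exact_mod_cast Nat.one_le_iff_ne_zero.mpr Nat.card_pos.ne'
  have hm1 : (1 : ℝ) ≤ ((m - 1 : ℕ) : ℝ) := by
    have := hmp.two_le
    exact_mod_cast (by omega : 1 ≤ m - 1)
  set B' : Finset ℕ := insert m B with hB'def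
  -- density of each good `t`
  have ht : ∀ t ∈ Good, HasLowerDensity (frobPrimes (CrossField L m) (g t) \ ↑B')
      ((c * ((m - 1 : ℕ) : ℝ))⁻¹) := by
    intro t htG
    have hfaith := crossLift_faithful L m σ t (Finset.mem_filter.mp htG).2 (g t) (hg1 t) (hg2 t)
    have h1 : HasLowerDensity (frobPrimes (CrossField L m) (g t))
        (Nat.card (Subgroup.centralizer
          ({g t} : Set (CrossField L m ≃ₐ[ℚ] CrossField L m))) : ℝ)⁻¹ :=
      hCyc (CrossField L m) m (crossZeta L m) hmp.pos (crossZeta_spec L m) (g t) hfaith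
    refine HasLowerDensity.mono_const (HasLowerDensity.diff_finset h1 B') ?_
    have hle := card_centralizer_crossLift_le L m σ (g t) (hg1 t)
    have hpos : (0 : ℝ) < (Nat.card (Subgroup.centralizer
        ({g t} : Set (CrossField L m ≃ₐ[ℚ] CrossField L m))) : ℝ) := by
      exact_mod_cast Nat.card_pos
    apply inv_anti₀ hpos
    rw [hc]
    exact_mod_cast hle
  -- disjointness
  have hdisj : ∀ t ∈ Good, ∀ t' ∈ Good, t ≠ t' →
      Disjoint (frobPrimes (CrossField L m) (g t) \ ↑B')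
        (frobPrimes (CrossField L m) (g t') \ ↑B') := by
    intro t _ t' _ htt'
    rw [Set.disjoint_left]
    intro p hp hp'
    have hpm : p ≠ m := by
      intro h
      apply hp.2
      rw [h, hB'def]
      exact Finset.mem_coe.mpr (Finset.mem_insert_self m B)
    have e1 := natCast_eq_of_mem_frobPrimes L m t (g t) (hg2 t) hp.1 hpm
    have e2 := natCast_eq_of_mem_frobPrimes L m t' (g t') (hg2 t') hp'.1 hpm
    exact htt' (Units.ext (e1.symm.trans e2))
  have hunion := hasLowerDensity_biUnion Good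
    (fun t => frobPrimes (CrossField L m) (g t) \ ↑B') (fun _ => (c * ((m - 1 : ℕ) : ℝ))⁻¹)
    hdisj ht
  -- the union restricts into `frobPrimes L σ`
  have hsub : (⋃ t ∈ Good, frobPrimes (CrossField L m) (g t) \ ↑B') ⊆ frobPrimes L σ := by
    intro p hp
    simp only [Set.mem_iUnion] at hp
    obtain ⟨t, -, hpt⟩ := hp
    have hpB : p ∉ B := by
      intro h
      apply hpt.2
      rw [hB'def]
      exact Finset.mem_coe.mpr (Finset.mem_insert_of_mem h)
    exact mem_frobPrimes_of_crossField L m σ (g t) (hg1 t) B hB' hpt.1 hpB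
  show HasLowerDensity (frobPrimes L σ) (c⁻¹ - δ)
  refine HasLowerDensity.mono_const (HasLowerDensity.mono_set hunion hsub) ?_
  -- the constants
  rw [Finset.sum_const, nsmul_eq_mul]
  have hcpos : 0 < c := by linarith
  have hmpos : (0 : ℝ) < ((m - 1 : ℕ) : ℝ) := by linarith
  have h1 : (1 - (n : ℝ) / 2 ^ k) * ((m - 1 : ℕ) : ℝ) * (c * ((m - 1 : ℕ) : ℝ))⁻¹ ≤
      (Good.card : ℝ) * (c * ((m - 1 : ℕ) : ℝ))⁻¹ :=
    mul_le_mul_of_nonneg_right hGoodcard (by positivity)
  have h2 : (1 - (n : ℝ) / 2 ^ k) * ((m - 1 : ℕ) : ℝ) * (c * ((m - 1 : ℕ) : ℝ))⁻¹ =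
      (1 - (n : ℝ) / 2 ^ k) * c⁻¹ := by
    field_simp
  have h3 : c⁻¹ - δ ≤ (1 - (n : ℝ) / 2 ^ k) * c⁻¹ := by
    have hcinv : c⁻¹ ≤ 1 := inv_le_one_of_one_le₀ hc1
    have hcinv0 : 0 ≤ c⁻¹ := by positivity
    have h4 : (n : ℝ) / 2 ^ k * c⁻¹ ≤ δ * 1 :=
      mul_le_mul hkδ hcinv hcinv0 hδ.le
    linarith
  linarith

end Fermat.Agent.Lib.ChebQ.H968

end
-- ===== PACK-END Lib/ChebQ/H968/Cross.lean

-- ===== PACK-BEGIN Lib/Cheb/H56/QAlg.lean
section





/-!
# CHEB Tier 3 (CHEB-Q), piece Q-ALG (row-lead helper56)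

`cycCount : SpecQ.CycCountStatement`: in the situation of `Spec.CycStatement`, for `p ≡ a mod m`
outside a finite set, the degree-one primes of `L^⟨g⟩` above `p` correspond to the primes of `L`
with Frobenius `g`, and their number `c(p)` satisfies `c(p) · ord g · |C_g| ≤ |G|`.
-/

set_option autoImplicit false
set_option linter.unusedSectionVars false
set_option linter.unusedVariables false

open NumberField
open scoped Pointwise

namespace Fermat.Agent.Lib.Cheb.H56

section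

variable {L : Type} [Field L] [NumberField L] [IsGalois ℚ L]

lemma under_eq_span_of_mem {p : ℕ} (hp : p.Prime) {P : Ideal (𝓞 L)} (hP : P.IsPrime)
    (hpP : (p : 𝓞 L) ∈ P) : P.under ℤ = Ideal.span {(p : ℤ)} := by
  have : Fact p.Prime := ⟨hp⟩
  have hmax := Int.ideal_span_isMaximal_of_prime p
  have hle : Ideal.span {(p : ℤ)} ≤ P.under ℤ := by
    rw [Ideal.span_le, Set.singleton_subset_iff]
    show algebraMap ℤ (𝓞 L) (p : ℤ) ∈ P
    simpa using hpP
  have hne : P.under ℤ ≠ ⊤ := (Ideal.IsPrime.under ℤ P).ne_top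
  exact (hmax.eq_of_le hne hle).symm

/-- The orbit count: primes with Frobenius `g` and decomposition group `⟨g⟩`. -/
theorem card_mul_card_mul_card_le (g : L ≃ₐ[ℚ] L) (X : Set (Ideal (𝓞 L))) {p : ℕ} (hp : p.Prime)
    (hX : ∀ P ∈ X, P.IsPrime ∧ (p : 𝓞 L) ∈ P ∧ Spec.InertiaTrivial L P ∧
      IsArithFrobAt ℤ g P ∧ Spec.decomp L P = Subgroup.zpowers g) :
    Nat.card X * Nat.card (Subgroup.zpowers g) * Nat.card (conjugatesOf g) ≤
      Nat.card (L ≃ₐ[ℚ] L) := by
  classical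
  by_cases hne : X.Nonempty
  swap
  · have : IsEmpty X := by
      rw [Set.not_nonempty_iff_eq_empty] at hne
      rw [hne]
      infer_instance
    rw [Nat.card_of_isEmpty, zero_mul, zero_mul]
    exact Nat.zero_le _
  obtain ⟨P₀, hP₀⟩ := hne
  have hex : ∀ P : X, ∃ h : L ≃ₐ[ℚ] L, h • P₀ = P.1 ∧ h * g * h⁻¹ = g := by
    rintro ⟨P, hP⟩
    have := (hX P₀ hP₀).1
    have := (hX P hP).1
    have hunder : P₀.under ℤ = P.under ℤ := by
      rw [under_eq_span_of_mem hp (hX P₀ hP₀).1 (hX P₀ hP₀).2.1,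
        under_eq_span_of_mem hp (hX P hP).1 (hX P hP).2.1]
    obtain ⟨h, hh⟩ := Algebra.IsInvariant.exists_smul_of_under_eq ℤ (𝓞 L) (L ≃ₐ[ℚ] L) P₀ P hunder
    refine ⟨h, hh.symm, ?_⟩
    have h1 := ((hX P₀ hP₀).2.2.2.1).conj h
    rw [← hh] at h1
    exact H583.frob_unique (hX P hP).2.2.1 h1 (hX P hP).2.2.2.1
  choose hP hP1 hP2 using hex
  have hkex : ∀ c : conjugatesOf g, ∃ k : L ≃ₐ[ℚ] L, k * g * k⁻¹ = c.1 :=
    fun c => isConj_iff.mp c.2
  choose k hk using hkex
  have hz : ∀ z : Subgroup.zpowers g, (z : L ≃ₐ[ℚ] L) * g * (z : L ≃ₐ[ℚ] L)⁻¹ = g := by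
    rintro ⟨z, hz⟩
    obtain ⟨n, rfl⟩ := Subgroup.mem_zpowers_iff.mp hz
    show g ^ n * g * (g ^ n)⁻¹ = g
    have hcomm : Commute (g ^ n) g := (Commute.refl g).zpow_left n
    rw [hcomm.eq, mul_assoc, mul_inv_cancel, mul_one]
  have hzP₀ : ∀ z : Subgroup.zpowers g, (z : L ≃ₐ[ℚ] L) • P₀ = P₀ := by
    intro z
    have : (z : L ≃ₐ[ℚ] L) ∈ Spec.decomp L P₀ := by
      rw [(hX P₀ hP₀).2.2.2.2]
      exact z.2
    exact MulAction.mem_stabilizer_iff.mp this
  have hconj : ∀ (P : X) (z : Subgroup.zpowers g) (c : conjugatesOf g),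
      (k c * hP P * (z : L ≃ₐ[ℚ] L)) * g * (k c * hP P * (z : L ≃ₐ[ℚ] L))⁻¹ = c.1 := by
    intro P z c
    calc (k c * hP P * (z : L ≃ₐ[ℚ] L)) * g * (k c * hP P * (z : L ≃ₐ[ℚ] L))⁻¹
        = k c * (hP P * ((z : L ≃ₐ[ℚ] L) * g * (z : L ≃ₐ[ℚ] L)⁻¹) * (hP P)⁻¹) * (k c)⁻¹ := by
          group
      _ = k c * (hP P * g * (hP P)⁻¹) * (k c)⁻¹ := by rw [hz z]
      _ = k c * g * (k c)⁻¹ := by rw [hP2 P]
      _ = c.1 := hk c
  let Ψ : (X × Subgroup.zpowers g) × conjugatesOf g → (L ≃ₐ[ℚ] L) :=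
    fun x => k x.2 * hP x.1.1 * (x.1.2 : L ≃ₐ[ℚ] L)
  have hinj : Function.Injective Ψ := by
    rintro ⟨⟨P, z⟩, c⟩ ⟨⟨P', z'⟩, c'⟩ hΨ
    have hΨ' : k c * hP P * (z : L ≃ₐ[ℚ] L) = k c' * hP P' * (z' : L ≃ₐ[ℚ] L) := hΨ
    have hc : c = c' := Subtype.ext (by rw [← hconj P z c, ← hconj P' z' c', hΨ'])
    subst hc
    have h2 : hP P * (z : L ≃ₐ[ℚ] L) = hP P' * (z' : L ≃ₐ[ℚ] L) := by
      rw [mul_assoc, mul_assoc] at hΨ'
      exact mul_left_cancel hΨ'
    have hPP' : P = P' := by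
      apply Subtype.ext
      have h3 := congrArg (fun x : L ≃ₐ[ℚ] L => x • P₀) h2
      simp only [mul_smul, hzP₀, hP1] at h3
      exact h3
    subst hPP'
    have hzz' : z = z' := Subtype.ext (mul_left_cancel h2)
    rw [hzz']
  have hle := Nat.card_le_card_of_injective Ψ hinj
  rw [Nat.card_prod, Nat.card_prod] at hle
  exact hle

/-- **Q-ALG** from the black boxes (A) and (D). -/
theorem cycCount_of (hA : Spec.CountStatement) (hD : Spec.FrobStatement) :
    SpecQ.CycCountStatement := by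
  intro L _ _ _ m _ ζ hζ g hg
  classical
  obtain ⟨B1, hB1⟩ := hA L (Subgroup.zpowers g)
  obtain ⟨B3, hB3⟩ := hD L
  refine ⟨B1 ∪ B3 ∪ m.primeFactors, fun p hp hpB hpa hc => ?_⟩
  simp only [Finset.mem_union, not_or] at hpB
  obtain ⟨⟨hp1, hp3⟩, hp4⟩ := hpB
  have hpm : ¬ p ∣ m := fun h => hp4 (Nat.mem_primeFactors.mpr ⟨hp, h, NeZero.ne m⟩)
  have key : ∀ P ∈ Spec.primesLe L (Subgroup.zpowers g) p, P.IsPrime ∧ (p : 𝓞 L) ∈ P ∧
      Spec.InertiaTrivial L P ∧ IsArithFrobAt ℤ g P ∧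
      Spec.decomp L P = Subgroup.zpowers g := by
    intro P hP
    obtain ⟨hI, τ, hτ, hDP, hτg, hτp⟩ := H221.exists_frob_of_mem_primesLe hζ hB3 hp hp3 hpm hP
    have hτeq : τ = g := by
      apply H221.eq_of_mem_zpowers hζ hg hτg
      ext
      rw [hτp, hpa]
    rw [hτeq] at hτ hDP
    exact ⟨hP.1, hP.2.1, hI, hτ, hDP⟩
  have hfin : Finite (Spec.primesLe L (Subgroup.zpowers g) p) :=
    (H221.primesLe_finite L _ hp).to_subtype
  have hcount : Spec.primeCount (IntermediateField.fixedField (Subgroup.zpowers g)) p =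
      Nat.card (Spec.primesLe L (Subgroup.zpowers g) p) := by
    have h1 := hB1 p hp hp1
    have h2 : Spec.decompWeight L (Subgroup.zpowers g) p =
        Nat.card (Spec.primesLe L (Subgroup.zpowers g) p) * Nat.card (Subgroup.zpowers g) := by
      unfold Spec.decompWeight
      have : Fintype (Spec.primesLe L (Subgroup.zpowers g) p) := Fintype.ofFinite _
      rw [finsum_eq_sum_of_fintype]
      rw [Finset.sum_congr rfl (fun P _ => by rw [(key P.1 P.2).2.2.2.2])]
      rw [Finset.sum_const, Finset.card_univ, smul_eq_mul, ← Nat.card_eq_fintype_card]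
    rw [h2] at h1
    exact Nat.eq_of_mul_eq_mul_right Nat.card_pos h1
  constructor
  · have hne : Nat.card (Spec.primesLe L (Subgroup.zpowers g) p) ≠ 0 := hcount ▸ hc
    have hnonempty : Nonempty (Spec.primesLe L (Subgroup.zpowers g) p) := by
      by_contra hemp
      rw [not_nonempty_iff] at hemp
      exact hne Nat.card_of_isEmpty
    obtain ⟨P, hP⟩ := hnonempty
    exact ⟨hp, P, (key P hP).1, (key P hP).2.1, (key P hP).2.2.1, (key P hP).2.2.2.1⟩
  · rw [hcount, ← Nat.card_zpowers]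
    exact card_mul_card_mul_card_le g _ hp key

/-- **Q-ALG**, unconditional. -/
theorem cycCount : SpecQ.CycCountStatement :=
  cycCount_of H764.count H943.frobStatement

end

end Fermat.Agent.Lib.Cheb.H56

end
-- ===== PACK-END Lib/Cheb/H56/QAlg.lean

-- ===== PACK-BEGIN S29/H452/MerGL.lean
section


/-!
# S29 / BR / NORM (helper452) — precomposition with Möbius maps on `MerH`

`precompGL g hg : holoRing ≃+* holoRing`, `f ↦ f ∘ (g • ·)` for `g ∈ GL₂(ℝ)` with `det g > 0`, and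
its extension `merGL g hg : MerH ≃+* MerH` to `MerH = Frac holoRing`.
Rules: `merGL (g * h) = merGL h ∘ merGL g`, `merGL γ = (γ⁻¹ • ·)` for `γ ∈ SL(2,ℤ)`.
-/

set_option autoImplicit false

noncomputable section

open UpperHalfPlane
open scoped MatrixGroups

namespace Fermat.Agent.S29.H452

open Fermat.Agent.S24.H624

theorem det_inv_pos {g : GL (Fin 2) ℝ} (hg : 0 < g.det.val) : 0 < (g⁻¹).det.val := by
  rw [map_inv, Units.val_inv_eq_inv_val]
  exact inv_pos.mpr hg

theorem det_mul_pos {g h : GL (Fin 2) ℝ} (hg : 0 < g.det.val) (hh : 0 < h.det.val) :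
    0 < (g * h).det.val := by
  rw [map_mul, Units.val_mul]
  exact mul_pos hg hh

/-- Precomposition with the Möbius map of `g` as a ring endomorphism of `holoRing`. -/
def precompGLHom (g : GL (Fin 2) ℝ) (hg : 0 < g.det.val) : holoRing →+* holoRing where
  toFun f := ⟨fun τ => (f : ℍ → ℂ) (g • τ), mdiff_comp_smul hg f.2⟩
  map_one' := rfl
  map_mul' _ _ := rfl
  map_zero' := rfl
  map_add' _ _ := rfl

@[simp] theorem precompGLHom_apply (g : GL (Fin 2) ℝ) (hg : 0 < g.det.val) (f : holoRing) (τ : ℍ) :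
    ((precompGLHom g hg f : holoRing) : ℍ → ℂ) τ = (f : ℍ → ℂ) (g • τ) := rfl

theorem precompGLHom_mul (g h : GL (Fin 2) ℝ) (hg : 0 < g.det.val) (hh : 0 < h.det.val)
    (f : holoRing) :
    precompGLHom (g * h) (det_mul_pos hg hh) f = precompGLHom h hh (precompGLHom g hg f) := by
  apply Subtype.ext
  funext τ
  simp [mul_smul]

theorem precompGLHom_one (f : holoRing) :
    precompGLHom 1 (by simp) f = f := by
  apply Subtype.ext
  funext τ
  simp

theorem precompGLHom_congr {g h : GL (Fin 2) ℝ} (e : g = h) (hg : 0 < g.det.val)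
    (hh : 0 < h.det.val) : precompGLHom g hg = precompGLHom h hh := by
  subst e; rfl

theorem precompGLHom_inv_right (g : GL (Fin 2) ℝ) (hg : 0 < g.det.val) (f : holoRing) :
    precompGLHom g hg (precompGLHom g⁻¹ (det_inv_pos hg) f) = f := by
  apply Subtype.ext
  funext τ
  simp

theorem precompGLHom_inv_left (g : GL (Fin 2) ℝ) (hg : 0 < g.det.val) (f : holoRing) :
    precompGLHom g⁻¹ (det_inv_pos hg) (precompGLHom g hg f) = f := by
  apply Subtype.ext
  funext τ
  simp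

/-- Precomposition with the Möbius map of `g` as a ring automorphism of `holoRing`. -/
def precompGL (g : GL (Fin 2) ℝ) (hg : 0 < g.det.val) : holoRing ≃+* holoRing :=
  RingEquiv.ofRingHom (precompGLHom g hg) (precompGLHom g⁻¹ (det_inv_pos hg))
    (RingHom.ext fun f => precompGLHom_inv_right g hg f)
    (RingHom.ext fun f => precompGLHom_inv_left g hg f)

@[simp] theorem precompGL_apply (g : GL (Fin 2) ℝ) (hg : 0 < g.det.val) (f : holoRing) (τ : ℍ) :
    ((precompGL g hg f : holoRing) : ℍ → ℂ) τ = (f : ℍ → ℂ) (g • τ) := rfl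

/-- Precomposition with the Möbius map of `g` on meromorphic functions. -/
def merGL (g : GL (Fin 2) ℝ) (hg : 0 < g.det.val) : MerH ≃+* MerH :=
  IsFractionRing.ringEquivOfRingEquiv (precompGL g hg)

@[simp] theorem merGL_algebraMap (g : GL (Fin 2) ℝ) (hg : 0 < g.det.val) (f : holoRing) :
    merGL g hg (algebraMap holoRing MerH f) = algebraMap holoRing MerH (precompGL g hg f) :=
  IsFractionRing.ringEquivOfRingEquiv_algebraMap _ f

/-- Two ring homs out of `MerH` agreeing on holomorphic functions are equal. -/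
theorem merH_ringHom_ext {L : Type*} [Semiring L] {φ ψ : MerH →+* L}
    (h : ∀ f : holoRing, φ (algebraMap holoRing MerH f) = ψ (algebraMap holoRing MerH f)) :
    φ = ψ :=
  IsLocalization.ringHom_ext (nonZeroDivisors holoRing) (RingHom.ext h)

theorem merGL_mul (g h : GL (Fin 2) ℝ) (hg : 0 < g.det.val) (hh : 0 < h.det.val) (F : MerH) :
    merGL (g * h) (det_mul_pos hg hh) F = merGL h hh (merGL g hg F) := by
  have : (merGL (g * h) (det_mul_pos hg hh) : MerH →+* MerH)
      = ((merGL h hh : MerH →+* MerH).comp (merGL g hg : MerH →+* MerH)) := by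
    apply merH_ringHom_ext
    intro f
    simp only [RingHom.coe_coe, RingHom.comp_apply, merGL_algebraMap]
    congr 1
    exact precompGLHom_mul g h hg hh f
  exact RingHom.congr_fun this F

theorem merGL_congr {g h : GL (Fin 2) ℝ} (e : g = h) (hg : 0 < g.det.val)
    (hh : 0 < h.det.val) : merGL g hg = merGL h hh := by
  subst e; rfl

/-- For `γ ∈ SL(2,ℤ)`, `merGL γ` is the action of `γ⁻¹`. -/
theorem merGL_SL (γ : SL(2, ℤ)) (F : MerH) :
    merGL (γ : GL (Fin 2) ℝ) (det_coe_SL_pos γ) F = γ⁻¹ • F := by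
  have : (merGL (γ : GL (Fin 2) ℝ) (det_coe_SL_pos γ) : MerH →+* MerH)
      = (merSL γ⁻¹ : MerH →+* MerH) := by
    apply merH_ringHom_ext
    intro f
    simp only [RingHom.coe_coe, merGL_algebraMap, merSL_apply, smul_algebraMap_MerH]
    congr 1
    apply Subtype.ext
    funext τ
    rw [smul_holoRing_apply, inv_inv]
    rfl
  exact RingHom.congr_fun this F

end Fermat.Agent.S29.H452

end

end
-- ===== PACK-END S29/H452/MerGL.lean

-- ===== PACK-BEGIN S48/H428/NormGen.lean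
section



/-!
# S48 / RES (Tower A1) — node A1-NORM, GENERIC part (helper428)

The hypothesis `NormId` of the raw Eichler–Shimura relation, with a diamond operator, for an
ARBITRARY pair of function fields `F → F'` with `q`-expansions in `K((q))`:

  `Nm_α (β y) = V_ℓ y · det (secMat ℓ (δ y))`      (`= y(q^ℓ) · ∏_{b<ℓ} (δ y)(ζ^b q^{1/ℓ})`).

Inputs (everything else is proved here):
* `α β : F →+* F'` with `q`-expansions `cF' (α y) = cF y`, `cF' (β y) = V_ℓ (cF y)`;
* the degree bound `[F' : α F] ≤ ℓ + 1`;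
* `ℓ` further embeddings `σ b : F' →+* Ω` (`b < ℓ`) into ANY field `Ω` receiving `K((u))` through
  `Ψ`, with `σ b ∘ α = Ψ ∘ V_ℓ ∘ cF` and `σ b (β y) = Ψ ((δ y)(ζ^b u))`;
* one `y₀` such that `δ y₀` has a nonzero coefficient at an index prime to `ℓ` (e.g. `j`).

Main results
* `norm_eq_prod_of_embeddings` : pure field theory (`finrank ≤ #I` distinct embeddings ⟹ the norm
  is the product over them);
* `qExpand_det_secMat_tw` : `V_ℓ (det (secMat ℓ f)) = ∏_b f(ζ^b u)`;
* `normId_of_embeddings` : the generic NORM-ID with diamond;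
* `normId_of_embeddings_coeff` : the same with the twist given coefficientwise.
-/

set_option autoImplicit false
set_option linter.style.haveILetI false

noncomputable section

open ModularCurve Polynomial

namespace Fermat.Agent.S48.H428

open Fermat.Agent.S37

/-! ### Field theory: the norm as a product over sufficiently many embeddings -/

/-- If `F'/F` is finite of degree `≤ #I` (characteristic `0`) and `τ i : F' →+* Ω` (`i : I`) are
pairwise distinct embeddings into a field, all restricting to the same `ι` on `F`, then the norm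
is the product over the `τ i`. -/
theorem norm_eq_prod_of_embeddings {F F' Ω I : Type*} [Field F] [Field F'] [Field Ω]
    [CharZero F] [Algebra F F'] [FiniteDimensional F F'] [Fintype I]
    (hdeg : Module.finrank F F' ≤ Fintype.card I)
    (ι : F →+* Ω) (τ : I → F' →+* Ω) (hτ : ∀ i x, τ i (algebraMap F F' x) = ι x)
    (hinj : Function.Injective τ) (x : F') :
    ι (Algebra.norm F x) = ∏ i, τ i x := by
  classical
  let E := AlgebraicClosure Ω
  letI : Algebra F E := ((algebraMap Ω E).comp ι).toAlgebra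
  have hFE : ∀ a : F, algebraMap F E a = algebraMap Ω E (ι a) := fun _ => rfl
  let τ' : I → F' →ₐ[F] E := fun i =>
    { toRingHom := (algebraMap Ω E).comp (τ i)
      commutes' := fun a => by
        show algebraMap Ω E (τ i (algebraMap F F' a)) = algebraMap F E a
        rw [hτ, hFE] }
  have hτ'_apply : ∀ i z, τ' i z = algebraMap Ω E (τ i z) := fun _ _ => rfl
  have hinj' : Function.Injective τ' := by
    intro i j hij
    apply hinj
    ext z
    have := DFunLike.congr_fun hij z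
    rw [hτ'_apply, hτ'_apply] at this
    exact (algebraMap Ω E).injective this
  haveI : Algebra.IsSeparable F F' := Algebra.IsAlgebraic.isSeparable_of_perfectField
  have hcard : Fintype.card (F' →ₐ[F] E) = Module.finrank F F' := AlgHom.card F F' E
  have hbij : Function.Bijective τ' := by
    rw [Fintype.bijective_iff_injective_and_card]
    refine ⟨hinj', le_antisymm (Fintype.card_le_of_injective _ hinj') ?_⟩
    rw [hcard]
    exact hdeg
  have h := Algebra.norm_eq_prod_embeddings F E x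
  rw [← hbij.prod_comp (fun σ : F' →ₐ[F] E => σ x)] at h
  simp only [hτ'_apply] at h
  rw [hFE, ← map_prod] at h
  exact (algebraMap Ω E).injective h

/-! ### Formal Kronecker identities -/

section Formal

variable {R : Type*} [CommRing R]

/-- H400's section matrix is H340's Kronecker matrix. -/
theorem secMat_eq_kronMat_g (p : ℕ) [NeZero p] (f : LaurentSeries R) :
    H400.secMat p f = H340.kronMat p f := by
  ext i j n
  rw [H400.secMat_apply', H340.kronMat_apply, H400.secL_coeff, H340.sect_coeff]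

/-- `V_ℓ (det (secMat ℓ f)) = ∏_{b<ℓ} f(ζ^b u)`. -/
theorem qExpand_det_secMat_tw [IsDomain R] (ℓ : ℕ) [NeZero ℓ] {ζ : R}
    (hζ : IsPrimitiveRoot ζ ℓ) (f : LaurentSeries R) :
    qExpand R ℓ (H400.secMat ℓ f).det = ∏ b : Fin ℓ, H340.tw ℓ (ζ ^ (b : ℕ)) f := by
  have h := H340.kron_map_qExpand_eq_prod hζ f
  rw [H340.kron, ← secMat_eq_kronMat_g, ← Matrix.charpoly_map] at h
  have hdet : qExpand R ℓ (H400.secMat ℓ f).det
      = ((H400.secMat ℓ f).map (qExpand R ℓ)).det := by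
    rw [RingHom.map_det, RingHom.mapMatrix_apply]
  rw [hdet, Matrix.det_eq_sign_charpoly_coeff, h, Fintype.card_fin,
    Polynomial.coeff_zero_eq_eval_zero, Polynomial.eval_prod]
  simp only [Polynomial.eval_sub, Polynomial.eval_X, Polynomial.eval_C, zero_sub]
  rw [Finset.prod_neg, Finset.card_univ, Fintype.card_fin, ← mul_assoc, ← mul_pow]
  simp only [mul_neg, mul_one, neg_neg, one_pow, one_mul]

/-- the twists `f(ζ^b u)` of a series with a nonzero coefficient prime to `ℓ` are pairwise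
distinct -/
theorem tw_pow_injective [IsDomain R] {ℓ : ℕ} [NeZero ℓ] (hℓ : ℓ.Prime) {ζ : R}
    (hζ : IsPrimitiveRoot ζ ℓ) {f : LaurentSeries R} {n : ℤ} (hn : ¬ (ℓ : ℤ) ∣ n)
    (hf : f.coeff n ≠ 0) :
    Function.Injective fun b : Fin ℓ => H340.tw ℓ (ζ ^ (b : ℕ)) f := by
  intro b b' h
  have h1 := congrArg (fun s : LaurentSeries R => s.coeff n) h
  simp only [H340.tw_coeff] at h1
  have h2 : H340.zpw ℓ (ζ ^ (b : ℕ)) n = H340.zpw ℓ (ζ ^ (b' : ℕ)) n :=
    mul_right_cancel₀ hf h1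
  unfold H340.zpw at h2
  rw [← pow_mul, ← pow_mul] at h2
  -- `ζ ^ (b r) = ζ ^ (b' r)` with `r = n mod ℓ ≠ 0`
  set r : ℕ := (n % (ℓ : ℤ)).toNat with hr
  have hℓ0 : (ℓ : ℤ) ≠ 0 := by exact_mod_cast NeZero.ne ℓ
  have hr0 : 0 ≤ n % (ℓ : ℤ) := Int.emod_nonneg n hℓ0
  have hrℓ : n % (ℓ : ℤ) < ℓ := Int.emod_lt_of_pos n (by exact_mod_cast hℓ.pos)
  have hrne : n % (ℓ : ℤ) ≠ 0 := fun h0 => hn (Int.dvd_of_emod_eq_zero h0)
  have hrpos : 0 < r := by omega
  have hrlt : r < ℓ := by omega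
  have hcop : Nat.Coprime ℓ r := Nat.coprime_of_lt_prime hrpos.ne' hrlt hℓ
  have hmod : (b : ℕ) * r ≡ (b' : ℕ) * r [MOD ℓ] := by
    have key : ∀ m : ℕ, ζ ^ (m % ℓ) = ζ ^ m := by
      intro m
      conv_rhs => rw [← Nat.div_add_mod m ℓ, pow_add, pow_mul, hζ.pow_eq_one, one_pow, one_mul]
    have e1 : ζ ^ ((b : ℕ) * r % ℓ) = ζ ^ ((b' : ℕ) * r % ℓ) := by
      rw [key, key]
      exact h2
    exact hζ.pow_inj (Nat.mod_lt _ hℓ.pos) (Nat.mod_lt _ hℓ.pos) e1
  have hmod' : (b : ℕ) ≡ (b' : ℕ) [MOD ℓ] := Nat.ModEq.cancel_right_of_coprime hcop hmod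
  apply Fin.ext
  have := Nat.ModEq.eq_of_lt_of_lt hmod' b.2 b'.2
  exact this

end Formal

/-! ### The generic NORM-ID with diamond -/

section Main

variable {K : Type*} [Field K] [CharZero K]

omit [CharZero K] in
theorem zpw_ne_zero_g {ℓ : ℕ} {ξ : K} (hξ : ξ ≠ 0) (n : ℤ) : H340.zpw ℓ ξ n ≠ 0 := by
  unfold H340.zpw
  exact pow_ne_zero _ hξ

/-- **A1-NORM, generic form.**  `F → F'` function fields with `q`-expansions `cF`, `cF'` in
`K((q))` (`K` of characteristic `0`), `α` = inclusion, `β = V_ℓ` on `q`-expansions, `[F' : αF] ≤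
ℓ + 1`, and `ℓ` embeddings `σ b : F' →+* Ω` over `Ψ ∘ V_ℓ ∘ cF` with
`σ b (β y) = Ψ ((δ y)(ζ^b u))`.  Then `Nm_α (β y) = V_ℓ y · det (secMat ℓ (δ y))`. -/
theorem normId_of_embeddings (ℓ : ℕ) [NeZero ℓ] (hℓ : ℓ.Prime)
    {F F' Ω : Type*} [Field F] [Field F'] [Field Ω]
    (cF : F →+* LaurentSeries K) (cF' : F' →+* LaurentSeries K)
    (α β : F →+* F') (hα : ∀ y, cF' (α y) = cF y)
    (hβ : ∀ y, cF' (β y) = qExpand K ℓ (cF y))
    (hfin : letI := α.toAlgebra; Module.Finite F F')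
    (hdeg : letI := α.toAlgebra; Module.finrank F F' ≤ ℓ + 1)
    (δ : F → F) {ζ : K} (hζ : IsPrimitiveRoot ζ ℓ)
    (Ψ : LaurentSeries K →+* Ω) (σ : Fin ℓ → F' →+* Ω)
    (hσα : ∀ b y, σ b (α y) = Ψ (qExpand K ℓ (cF y)))
    (hσβ : ∀ b y, σ b (β y) = Ψ (H340.tw ℓ (ζ ^ (b : ℕ)) (cF (δ y))))
    (hdist : ∃ y₀ : F, ∃ n : ℤ, ¬ (ℓ : ℤ) ∣ n ∧ (cF (δ y₀)).coeff n ≠ 0) (y : F) :
    cF (letI := α.toAlgebra; Algebra.norm F (β y))
      = qExpand K ℓ (cF y) * (H400.secMat ℓ (cF (δ y))).det := by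
  classical
  letI := α.toAlgebra
  haveI : Module.Finite F F' := hfin
  haveI : CharZero (LaurentSeries K) :=
    charZero_of_injective_algebraMap (algebraMap K (LaurentSeries K)).injective
  haveI : CharZero F := charZero_of_inj_zero fun n hn => by
    have h0 := congrArg cF hn
    rw [map_natCast, map_zero] at h0
    exact_mod_cast h0
  have hζ0 : ζ ≠ 0 := hζ.ne_zero (NeZero.ne ℓ)
  let ι : F →+* Ω := (Ψ.comp (qExpand K ℓ)).comp cF
  let τ : Option (Fin ℓ) → F' →+* Ω := fun o => o.elim ((Ψ.comp (qExpand K ℓ)).comp cF') σ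
  have hτ : ∀ i x, τ i (algebraMap F F' x) = ι x := by
    intro i x
    cases i with
    | none =>
        show Ψ (qExpand K ℓ (cF' (α x))) = Ψ (qExpand K ℓ (cF x))
        rw [hα]
    | some b => exact hσα b x
  have hinj : Function.Injective τ := by
    obtain ⟨y₀, n, hn, hy₀⟩ := hdist
    have hns : ∀ b : Fin ℓ, τ none ≠ τ (some b) := by
      intro b h
      have h1 := DFunLike.congr_fun h (β y₀)
      have h2 : Ψ (qExpand K ℓ (cF' (β y₀))) = σ b (β y₀) := h1
      rw [hσβ, hβ] at h2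
      have h3 := congrArg (fun s : LaurentSeries K => s.coeff n) (Ψ.injective h2)
      simp only [H340.tw_coeff] at h3
      rw [qExpand_coeff_of_not_dvd ℓ _ hn] at h3
      exact mul_ne_zero (zpw_ne_zero_g (pow_ne_zero _ hζ0) n) hy₀ h3.symm
    intro i j hij
    cases i with
    | none =>
        cases j with
        | none => rfl
        | some b => exact absurd hij (hns b)
    | some b =>
        cases j with
        | none => exact absurd hij.symm (hns b)
        | some b' =>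
            have h1 := DFunLike.congr_fun hij (β y₀)
            have h2 : σ b (β y₀) = σ b' (β y₀) := h1
            rw [hσβ, hσβ] at h2
            exact congrArg some (tw_pow_injective hℓ hζ hn hy₀ (Ψ.injective h2))
  have hcard : Module.finrank F F' ≤ Fintype.card (Option (Fin ℓ)) := by
    rw [Fintype.card_option, Fintype.card_fin]
    exact hdeg
  have h := norm_eq_prod_of_embeddings hcard ι τ hτ hinj (β y)
  rw [Fintype.prod_option] at h
  have h1 : τ none (β y) = Ψ (qExpand K ℓ (qExpand K ℓ (cF y))) := by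
    show Ψ (qExpand K ℓ (cF' (β y))) = _
    rw [hβ]
  have h2 : ∀ b : Fin ℓ, τ (some b) (β y) = Ψ (H340.tw ℓ (ζ ^ (b : ℕ)) (cF (δ y))) :=
    fun b => hσβ b y
  simp only [h2] at h
  rw [h1, ← map_prod, ← qExpand_det_secMat_tw ℓ hζ, ← map_mul, ← map_mul] at h
  exact qExpand_injective (R := K) (N := ℓ) (Ψ.injective h)

end Main

end Fermat.Agent.S48.H428

end
end
-- ===== PACK-END S48/H428/NormGen.lean

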