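import Mathlib
import Fermat.Agent.Pack.L1B.E1L3
import Fermat.Agent.Pack.S44C.G0E14L2
import Fermat.Agent.Pack.L1B.E1L2
import Fermat.Agent.Pack.S44C.G0E13L1
import Fermat.Agent.Pack.L1B.E1L0
import Fermat.Agent.Pack.L1B.E1L1
import Fermat.Agent.Pack.L1B.E0L3
import Fermat.Agent.Pack.S44C.G0E10L2
import Fermat.Agent.Pack.S44C.G0E18L2
import Fermat.Agent.Pack.S44C.G0E18L0
import Fermat.Agent.Pack.S44C.G0E10L3
import Fermat.Agent.Pack.S44C.G0E7L3
import Fermat.Agent.Pack.L1.E10L0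

-- ===== PACK-BEGIN S48/H588/StepU.lean
section



/-!
# Tower A1 (S48 / RES): one step of the tower of good models, RAMIFIED version (helper588)

`Step.lean` (`goodModel_step`) asks that `Ω'/Ω` be unramified at every place over `Lc`
(`StepData.unram`).  The steps of Tower A1 are ramified over the branch values
(`F₁(M)/F₀(M)`: elliptic points and some cusps), and for `ℓ = 2, 3` the base at the coordinate
`j` is only a `H107.BaseModel107` (= `Alg.GoodModel` without the four branch fields, which is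
what `S18/H24/NodeMod.lean : baseModel_j` provides for EVERY `ℓ ∤ M`).  This file provides

* `StepCore`          : `StepData` without the field `unram`;
* `baseModel_stepU`   : `BaseModel107` (base) + `StepCore` ⟹ `BaseModel107` (top)
                        (`qep_fin`, `qep_inf` climb by Galois descent, `H588.qep_of_galois`);
* `goodModel_stepU`   : `GoodModel` (base) + `StepCore` + `unramified` (top) ⟹ `GoodModel` (top);
* `liftModel`, `goodFamily_stepU` : the same for a whole `Alg.GoodFamily`, so that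
  `Alg.AlgMainStatement` (proved for all arguments in `S18/H94/NodeAlg.lean`) applies at the top;
* **node I-S28 of IGUSA1** (`IgusaBase`, `igusaBase_of_baseModel`): the fields
  `R_le R_total w_mem w_ne_zero w_inv_not_mem w_discrete qep0` of `H856.IgusaData` for
  `F0 = ι(Fc)`, `R = ι(R)`, `w = ι w`, `x = ι x`, from a `BaseModel107` of the base (S18
  `node_mod`) and ANY subring `V'` of the big field with `ι(V) ⊆ V'`, `(ι w)⁻¹ ∉ V'`
  (e.g. the Gauss ring of the full-level field, `ι = (q ↦ X^M)`).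
-/

set_option autoImplicit false

namespace Fermat.Agent.S48.H588

open Fermat.Agent.S18.Alg Fermat.Agent.S18.H107 Polynomial

variable {Ω Ω' : Type*} [Field Ω] [Field Ω']

/-- `StepData` without `unram` (see the module docstring). -/
structure StepCore (ι : Ω →+* Ω') (Lc Ec Fc : Subfield Ω) (R V : Subring Ω) (w x : Ω)
    (Fc' : Subfield Ω') (V' : Subring Ω') (G : Subgroup (Ω' ≃+* Ω')) : Prop where
  F_le : Fc.map ι ≤ Fc'
  compositum : Subfield.closure ((Fc' : Set Ω') ∪ ((Lc.map ι : Subfield Ω') : Set Ω')) = ⊤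
  E_closed : ∀ f ∈ Fc', IsAlgebraic (Ec.map ι) f → f ∈ Ec.map ι
  finite : ∃ s : Finset Ω', (s : Set Ω') ⊆ Fc' ∧
    ∀ f ∈ Fc', f ∈ Submodule.span (Fc.map ι) (s : Set Ω')
  V_le : (V' : Set Ω') ⊆ Fc'
  V_total : ∀ f ∈ Fc', f ∈ V' ∨ f⁻¹ ∈ V'
  V_le_V' : V.map ι ≤ V'
  w_inv_not_mem : (ι w)⁻¹ ∉ V'
  V_gen : ∀ f ∈ V', f⁻¹ ∉ V' → f * (ι w)⁻¹ ∈ V'
  separable : ∀ f ∈ V', ∃ P : Polynomial Ω', (∀ i, P.coeff i ∈ polyRing (R.map ι) (ι x)) ∧
    P.eval f * (ι w)⁻¹ ∈ V' ∧ (Polynomial.derivative P).eval f ≠ 0 ∧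
    ((Polynomial.derivative P).eval f)⁻¹ ∈ V'
  G_finite : Finite G
  G_fix : ∀ g ∈ G, ∀ a ∈ Fc.map ι, (g : Ω' ≃+* Ω') a = a
  G_F : ∀ g ∈ G, ∀ f ∈ Fc', (g : Ω' ≃+* Ω') f ∈ Fc'
  G_V : ∀ g ∈ G, ∀ f ∈ V', (g : Ω' ≃+* Ω') f ∈ V'
  G_inv : ∀ f ∈ Fc', (∀ g ∈ G, (g : Ω' ≃+* Ω') f = f) → f ∈ Fc.map ι

section StepU

variable {ι : Ω →+* Ω'} {Lc Ec Fc : Subfield Ω} {R V : Subring Ω} {w x : Ω} {S : Finset Ω}
  {Fc' : Subfield Ω'} {V' : Subring Ω'} {G : Subgroup (Ω' ≃+* Ω')}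

theorem StepData.toCore (hs : StepData ι Lc Ec Fc R V w x Fc' V' G) :
    StepCore ι Lc Ec Fc R V w x Fc' V' G :=
  { F_le := hs.F_le, compositum := hs.compositum, E_closed := hs.E_closed, finite := hs.finite,
    V_le := hs.V_le, V_total := hs.V_total, V_le_V' := hs.V_le_V',
    w_inv_not_mem := hs.w_inv_not_mem, V_gen := hs.V_gen, separable := hs.separable,
    G_finite := hs.G_finite, G_fix := hs.G_fix, G_F := hs.G_F, G_V := hs.G_V, G_inv := hs.G_inv }

theorem baseModel_R_le_F588 (h : BaseModel107 Lc Ec Fc R V w x) : ∀ r ∈ R, r ∈ Fc :=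
  fun _ hr => h.E_le_F (h.R_le hr)

theorem baseModel_w_mem_V588 (h : BaseModel107 Lc Ec Fc R V w x) : w ∈ V := h.R_le_V h.w_mem

/-- `V' ∩ ι(Fc) = ι(V)`. -/
theorem StepCore.mem_V_of_map_mem (hs : StepCore ι Lc Ec Fc R V w x Fc' V' G)
    (h : BaseModel107 Lc Ec Fc R V w x) {a : Ω} (haF : a ∈ Fc) (ha : ι a ∈ V') : a ∈ V := by
  rcases h.V_total a haF with h1 | h1
  · exact h1
  · by_contra hV
    have h2 : (a⁻¹)⁻¹ ∉ V := by rwa [inv_inv]
    have h3 := h.V_gen a⁻¹ h1 h2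
    have ha0 : a ≠ 0 := fun h0 => hV (by rw [h0]; exact V.zero_mem)
    have h4 : ι (a⁻¹ * w⁻¹) ∈ V' := hs.V_le_V' ⟨_, h3, rfl⟩
    have h5 : ι a * ι (a⁻¹ * w⁻¹) ∈ V' := V'.mul_mem ha h4
    have h6 : ι a * ι (a⁻¹ * w⁻¹) = (ι w)⁻¹ := by
      rw [← map_mul, ← mul_assoc, mul_inv_cancel₀ ha0, one_mul, map_inv₀]
    rw [h6] at h5
    exact hs.w_inv_not_mem h5

theorem baseModel_polyRing_le588 (h : BaseModel107 Lc Ec Fc R V w x) {x₀ : Ω} (hx₀ : x₀ ∈ Fc) :
    polyRing R x₀ ≤ Fc.toSubring := by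
  unfold polyRing
  rw [Subring.closure_le]
  rintro z (hz | hz)
  · exact (baseModel_R_le_F588 h) z hz
  · rw [Set.mem_singleton_iff] at hz
    rw [hz]; exact hx₀

/-- Iterating the `q`-expansion principle of the base. -/
theorem baseModel_mem_chart_of_mul_pow588 (h : BaseModel107 Lc Ec Fc R V w x) {x₀ : Ω}
    (hqep : ∀ b ∈ chart Fc R x₀, b * w⁻¹ ∈ V → b * w⁻¹ ∈ chart Fc R x₀)
    {a : Ω} (haV : a ∈ V) : ∀ j : ℕ, a * w ^ j ∈ chart Fc R x₀ → a ∈ chart Fc R x₀ := by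
  intro j
  induction j with
  | zero => intro hj; simpa using hj
  | succ j ih =>
    intro hj
    apply ih
    have h1 : a * w ^ (j + 1) * w⁻¹ = a * w ^ j := by
      rw [pow_succ, mul_assoc, mul_assoc, mul_inv_cancel₀ h.w_ne_zero, mul_one]
    have h2 : a * w ^ (j + 1) * w⁻¹ ∈ V := by
      rw [h1]; exact V.mul_mem haV (V.pow_mem (baseModel_w_mem_V588 h) j)
    have := hqep _ hj h2
    rwa [h1] at this

/-- **The `q`-expansion principle climbs the step** (for any coordinate `x₀ ∈ Fc`). -/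
theorem StepCore.qep (hs : StepCore ι Lc Ec Fc R V w x Fc' V' G)
    (h : BaseModel107 Lc Ec Fc R V w x) {x₀ : Ω} (hx₀ : x₀ ∈ Fc)
    (hqep : ∀ b ∈ chart Fc R x₀, b * w⁻¹ ∈ V → b * w⁻¹ ∈ chart Fc R x₀) :
    ∀ b ∈ chart Fc' (R.map ι) (ι x₀), b * (ι w)⁻¹ ∈ V' →
      b * (ι w)⁻¹ ∈ chart Fc' (R.map ι) (ι x₀) := by
  intro b hb hbV
  have hwF' : ι w ∈ Fc' := hs.F_le ⟨w, (baseModel_R_le_F588 h) w h.w_mem, rfl⟩
  refine ⟨Fc'.mul_mem hb.1 (Fc'.inv_mem hwF'), ?_⟩
  have _hfin := hs.G_finite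
  have hP : polyRing (R.map ι) (ι x₀) ≤ (Fc.map ι).toSubring := by
    rw [← polyRing_map]
    intro z hz
    obtain ⟨a, ha, rfl⟩ := hz
    exact ⟨a, baseModel_polyRing_le588 h hx₀ ha, rfl⟩
  refine qep_of_galois (polyRing (R.map ι) (ι x₀)) (Fc.map ι) Fc' V' (ι w)
    ((map_ne_zero ι).mpr h.w_ne_zero) hwF' G
    (fun g hg a ha => hs.G_fix g hg a (hP ha))
    (fun g hg => hs.G_fix g hg _ ⟨w, (baseModel_R_le_F588 h) w h.w_mem, rfl⟩)
    hs.G_F hs.G_V hs.G_inv ?_ hb.1 hb.2 hbV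
  rintro c ⟨a, haF, rfl⟩ hcV ⟨j, hj⟩
  have haV : a ∈ V := hs.mem_V_of_map_mem h haF hcV
  have h1 : a * w ^ j ∈ chart Fc R x₀ := by
    refine mem_chart_of_map ι (Fc.mul_mem haF (Fc.pow_mem ((baseModel_R_le_F588 h) w h.w_mem) j)) ?_
    rwa [map_mul, map_pow]
  have h2 := baseModel_mem_chart_of_mul_pow588 h hqep haV j h1
  rw [← polyRing_map]
  exact isIntegral_map_of_isIntegral ι h2.2

/-- The Gauss property climbs the step. -/
theorem StepCore.gauss (hs : StepCore ι Lc Ec Fc R V w x Fc' V' G)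
    (h : BaseModel107 Lc Ec Fc R V w x) :
    ∀ P : Polynomial Ω', (∀ i, P.coeff i ∈ R.map ι) →
      (∃ i, P.coeff i ≠ 0 ∧ (P.coeff i)⁻¹ ∈ R.map ι) → (P.eval (ι x))⁻¹ ∈ V' := by
  intro P hP ⟨i, hi0, hi⟩
  have hlift : P ∈ Polynomial.lifts ι := by
    rw [Polynomial.lifts_iff_coeff_lifts]
    intro n
    obtain ⟨a, _, ha⟩ := hP n
    exact ⟨a, ha⟩
  obtain ⟨Q, rfl⟩ := (Polynomial.mem_lifts _).mp hlift
  have hQ : ∀ n, Q.coeff n ∈ R := by
    intro n
    have := hP n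
    rw [coeff_map] at this
    exact (mem_subring_map_iff ι).mp this
  have hQi : Q.coeff i ≠ 0 ∧ (Q.coeff i)⁻¹ ∈ R := by
    rw [coeff_map] at hi0 hi
    refine ⟨fun h0 => hi0 (by rw [h0, map_zero]), ?_⟩
    rw [← map_inv₀] at hi
    exact (mem_subring_map_iff ι).mp hi
  have h1 := h.gauss Q hQ ⟨i, hQi⟩
  have h2 : eval₂ ι (ι x) Q = ι (eval x Q) := by
    have := Polynomial.hom_eval₂ Q (RingHom.id Ω) ι x
    rw [RingHom.comp_id, eval₂_id] at this
    exact this.symm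
  rw [eval_map, h2, ← map_inv₀]
  exact hs.V_le_V' ⟨_, h1, rfl⟩

/-- Finiteness climbs the step. -/
theorem StepCore.finite' (hs : StepCore ι Lc Ec Fc R V w x Fc' V' G)
    (h : BaseModel107 Lc Ec Fc R V w x) :
    ∃ s : Finset Ω', (s : Set Ω') ⊆ Fc' ∧
      ∀ f ∈ Fc', f ∈ Submodule.span (ratField (Ec.map ι) (ι x)) (s : Set Ω') := by
  classical
  obtain ⟨s₀, hs₀F, hs₀⟩ := h.finite
  obtain ⟨s₁, hs₁F, hs₁⟩ := hs.finite
  refine ⟨(s₀.image ι ×ˢ s₁).image (fun ab => ab.1 * ab.2), ?_, ?_⟩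
  · intro z hz
    simp only [Finset.coe_image, Set.mem_image, Finset.mem_coe, Finset.mem_product,
      Finset.mem_image, Prod.exists] at hz
    obtain ⟨a, b, ⟨⟨a₀, ha₀, rfl⟩, hb⟩, rfl⟩ := hz
    exact Fc'.mul_mem (hs.F_le ⟨a₀, hs₀F ha₀, rfl⟩) (hs₁F hb)
  · intro f hf
    set K' := ratField (Ec.map ι) (ι x) with hK'
    set T : Submodule K' Ω' :=
      Submodule.span K' (((s₀.image ι ×ˢ s₁).image (fun ab => ab.1 * ab.2) : Finset Ω') : Set Ω')
      with hT
    -- step 1: `ι a * b ∈ T` for `a ∈ Fc`, `b ∈ s₁`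
    have step1 : ∀ a ∈ Fc, ∀ b ∈ s₁, ι a * b ∈ T := by
      intro a ha b hb
      have ha' := hs₀ a ha
      -- induct on the span membership of `a`
      refine Submodule.span_induction (p := fun a _ => ι a * b ∈ T) ?_ ?_ ?_ ?_ ha'
      · intro a₀ ha₀
        refine Submodule.subset_span ?_
        simp only [Finset.coe_image, Set.mem_image, Finset.mem_coe, Finset.mem_product,
          Finset.mem_image, Prod.exists]
        exact ⟨ι a₀, b, ⟨⟨a₀, ha₀, rfl⟩, hb⟩, rfl⟩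
      · simp
      · intro y z _ _ hy hz
        rw [map_add, add_mul]
        exact T.add_mem hy hz
      · intro c y _ hy
        have hc : ι (c : Ω) ∈ K' := by
          rw [hK', ← ratField_map]
          exact ⟨c, c.2, rfl⟩
        have : ι (c • y) * b = (⟨ι (c : Ω), hc⟩ : K') • (ι y * b) := by
          rw [Subfield.smul_def, Subfield.smul_def, smul_eq_mul, smul_eq_mul, map_mul, mul_assoc]
        rw [this]
        exact T.smul_mem _ hy
    -- `T` is stable under multiplication by `ι(Fc)`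
    have stab : ∀ a ∈ Fc, ∀ t ∈ T, ι a * t ∈ T := by
      intro a ha t ht
      refine Submodule.span_induction (p := fun t _ => ι a * t ∈ T) ?_ ?_ ?_ ?_ ht
      · intro z hz
        simp only [Finset.coe_image, Set.mem_image, Finset.mem_coe, Finset.mem_product,
          Finset.mem_image, Prod.exists] at hz
        obtain ⟨_, b, ⟨⟨a₀, ha₀, rfl⟩, hb⟩, rfl⟩ := hz
        have := step1 (a * a₀) (Fc.mul_mem ha (hs₀F ha₀)) b hb
        rwa [map_mul, mul_assoc] at this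
      · simp
      · intro y z _ _ hy hz
        rw [mul_add]
        exact T.add_mem hy hz
      · intro c y _ hy
        have : ι a * c • y = c • (ι a * y) := by
          rw [Subfield.smul_def, Subfield.smul_def, smul_eq_mul, smul_eq_mul]; ring
        rw [this]
        exact T.smul_mem _ hy
    -- step 2: `f ∈ span_{ι Fc} s₁`
    have hf' := hs₁ f hf
    refine Submodule.span_induction (p := fun f _ => f ∈ T) ?_ ?_ ?_ ?_ hf'
    · intro b hb
      have := step1 1 Fc.one_mem b hb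
      simpa using this
    · exact T.zero_mem
    · intro y z _ _ hy hz
      exact T.add_mem hy hz
    · intro c y _ hy
      obtain ⟨a, ha, hac⟩ := Subfield.mem_map.mp c.2
      have : c • y = ι a * y := by
        rw [Subfield.smul_def, smul_eq_mul, hac]
      rw [this]
      exact stab a ha y hy

/-- **ONE STEP of the tower of base models** (= good models without the branch fields; no
hypothesis on the ramification of `Ω'/Ω`). -/
theorem baseModel_stepU (h : BaseModel107 Lc Ec Fc R V w x)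
    (hs : StepCore ι Lc Ec Fc R V w x Fc' V' G) :
    BaseModel107 (Lc.map ι) (Ec.map ι) Fc' (R.map ι) V' (ι w) (ι x) where
  charZero := by
    have _h0 : CharZero Ω := h.charZero
    exact charZero_of_injective_ringHom ι.injective
  R_le := by
    rintro _ ⟨r, hr, rfl⟩
    exact ⟨r, h.R_le hr, rfl⟩
  R_total := by
    rintro _ ⟨e, he, rfl⟩
    rcases h.R_total e he with h1 | h1
    · exact Or.inl ⟨e, h1, rfl⟩
    · exact Or.inr ⟨e⁻¹, h1, map_inv₀ ι e⟩
  w_mem := ⟨w, h.w_mem, rfl⟩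
  w_ne_zero := (map_ne_zero ι).mpr h.w_ne_zero
  w_inv_not_mem := by
    rw [← map_inv₀, mem_subring_map_iff]
    exact h.w_inv_not_mem
  w_gen := by
    rintro _ ⟨r, hr, rfl⟩ hr'
    rw [← map_inv₀, mem_subring_map_iff] at hr'
    rw [← map_inv₀, ← map_mul, mem_subring_map_iff]
    exact h.w_gen r hr hr'
  w_discrete := by
    rintro _ ⟨r, hr, rfl⟩ hr0
    have hr0' : r ≠ 0 := fun h0 => hr0 (by rw [h0, map_zero])
    obtain ⟨n, hn1, hn2⟩ := h.w_discrete r hr hr0'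
    refine ⟨n, ?_, ?_⟩
    · rw [← map_inv₀, ← map_pow, ← map_mul, mem_subring_map_iff]
      exact hn1
    · rw [← map_inv₀, ← map_pow, ← map_mul, ← map_inv₀, mem_subring_map_iff]
      exact hn2
  residue_perfect := by
    obtain ⟨p, hp, hp1, hp2⟩ := h.residue_perfect
    refine ⟨p, hp, ?_, ?_⟩
    · rw [← map_natCast ι p, ← map_inv₀, ← map_mul, mem_subring_map_iff]
      exact hp1
    · rintro _ ⟨r, hr, rfl⟩
      obtain ⟨s, hs1, hs2⟩ := hp2 r hr
      refine ⟨ι s, ⟨s, hs1, rfl⟩, ?_⟩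
      rw [← map_pow, ← map_sub, ← map_inv₀, ← map_mul, mem_subring_map_iff]
      exact hs2
  E_le_L := by
    rintro _ ⟨e, he, rfl⟩
    exact ⟨e, h.E_le_L he, rfl⟩
  E_le_F := by
    rintro _ ⟨e, he, rfl⟩
    exact hs.F_le ⟨e, h.E_le_F he, rfl⟩
  L_algebraic := by
    rintro _ ⟨a, ha, rfl⟩
    exact isAlgebraic_map ι (h.L_algebraic a ha)
  L_algClosed := isAlgClosed_map ι h.L_algClosed
  E_closed_in_F := hs.E_closed
  compositum := hs.compositum
  x_mem := hs.F_le ⟨x, h.x_mem, rfl⟩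
  x_transcendental := fun halg => h.x_transcendental (isAlgebraic_of_map ι halg)
  finite := hs.finite' h
  V_le := hs.V_le
  V_total := hs.V_total
  R_le_V := by
    rintro _ ⟨r, hr, rfl⟩
    exact hs.V_le_V' ⟨r, h.R_le_V hr, rfl⟩
  w_inv_not_mem_V := hs.w_inv_not_mem
  V_gen := hs.V_gen
  x_mem_V := hs.V_le_V' ⟨x, h.x_mem_V, rfl⟩
  gauss := hs.gauss h
  qep_fin := hs.qep h h.x_mem h.qep_fin
  qep_inf := by
    have := hs.qep h (Fc.inv_mem h.x_mem) h.qep_inf
    rwa [map_inv₀] at this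
  separable := hs.separable


/-- **ONE STEP of the tower of good models**, with `unramified` supplied directly at the top
(for steps that are ramified over `Lc`, e.g. `F₁(M)/F₀(M)` or the full-level field). -/
theorem goodModel_stepU (h : GoodModel Lc Ec Fc R V w x S)
    (hs : StepCore ι Lc Ec Fc R V w x Fc' V' G)
    (hunr : ∀ O : ValuationSubring Ω', (∀ a ∈ Lc.map ι, a ∈ O) → ∀ c ∈ Lc.map ι,
      c ∉ S.map ⟨ι, ι.injective⟩ → ι x - c ∈ O → (ι x - c)⁻¹ ∉ O →
      ∀ t ∈ O, t⁻¹ ∉ O → t * (ι x - c)⁻¹ ∈ O) :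
    GoodModel (Lc.map ι) (Ec.map ι) Fc' (R.map ι) V' (ι w) (ι x) (S.map ⟨ι, ι.injective⟩) := by
  refine (baseModel_stepU (baseModel_of_goodModel107 h) hs).toGoodModel _ ?_ ?_ ?_ hunr
  · intro s hs'
    obtain ⟨s₀, hs₀, rfl⟩ := Finset.mem_map.mp hs'
    exact ⟨s₀, h.S_mem s₀ hs₀, rfl⟩
  · intro s hs' t ht' hst
    obtain ⟨s₀, hs₀, rfl⟩ := Finset.mem_map.mp hs'
    obtain ⟨t₀, ht₀, rfl⟩ := Finset.mem_map.mp ht'
    have hne : s₀ ≠ t₀ := fun he => hst (by rw [he])
    exact ⟨(s₀ - t₀)⁻¹, h.S_distinct s₀ hs₀ t₀ ht₀ hne, by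
      simp [map_inv₀, map_sub]⟩
  · intro s hs' hs0
    obtain ⟨s₀, hs₀, rfl⟩ := Finset.mem_map.mp hs'
    have hne : s₀ ≠ 0 := fun he => hs0 (by simp [he])
    exact ⟨s₀⁻¹, h.S_unit s₀ hs₀ hne, by simp [map_inv₀]⟩

end StepU

section Family

variable (ι : Ω →+* Ω')

/-- The lifted model: constants transported by `ι`, function field and Gauss ring given by `Φ`. -/
def liftModel (Φ : Model Ω → Subfield Ω' × Subring Ω') (p : Model Ω) : Model Ω' :=
  (p.1.map ι, (Φ p).1, p.2.2.1.map ι, (Φ p).2, ι p.2.2.2.2)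

variable {ι}

/-- **ONE STEP for a directed family of good models.**  `Φ p = (Fc', V')` is the function field
and the Gauss ring over the member `p`, monotone in `p`; each member satisfies `StepCore`
(with its own group `G p`); `unramified` is supplied at the top. -/
theorem goodFamily_stepU {Lc : Subfield Ω} {x : Ω} {S : Finset Ω} {𝓕 : Set (Model Ω)}
    (h : GoodFamily Lc x S 𝓕) (Φ : Model Ω → Subfield Ω' × Subring Ω')
    (G : Model Ω → Subgroup (Ω' ≃+* Ω'))
    (hs : ∀ p ∈ 𝓕, StepCore ι Lc p.1 p.2.1 p.2.2.1 p.2.2.2.1 p.2.2.2.2 x (Φ p).1 (Φ p).2 (G p))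
    (hmono : ∀ p ∈ 𝓕, ∀ p' ∈ 𝓕, Model.le p p' → (Φ p).1 ≤ (Φ p').1 ∧ (Φ p).2 ≤ (Φ p').2)
    (hunr : ∀ O : ValuationSubring Ω', (∀ a ∈ Lc.map ι, a ∈ O) → ∀ c ∈ Lc.map ι,
      c ∉ S.map ⟨ι, ι.injective⟩ → ι x - c ∈ O → (ι x - c)⁻¹ ∉ O →
      ∀ t ∈ O, t⁻¹ ∉ O → t * (ι x - c)⁻¹ ∈ O) :
    GoodFamily (Lc.map ι) (ι x) (S.map ⟨ι, ι.injective⟩) (liftModel ι Φ '' 𝓕) where
  good := by
    rintro _ ⟨p, hp, rfl⟩
    exact goodModel_stepU (h.good p hp) (hs p hp) hunr
  enlarge := by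
    classical
    rintro _ ⟨p, hp, rfl⟩ T hT
    -- pull `T` back to `Lc`
    have hex : ∀ a ∈ T, ∃ a₀ ∈ Lc, ι a₀ = a := fun a ha => hT a ha
    choose! f hf using hex
    obtain ⟨p', hp', hle, hmem⟩ := h.enlarge p hp (T.image f) (by
      intro a ha
      obtain ⟨b, hb, rfl⟩ := Finset.mem_image.mp ha
      exact (hf b hb).1)
    refine ⟨liftModel ι Φ p', ⟨p', hp', rfl⟩, ?_, ?_⟩
    · obtain ⟨h1, h2, h3, h4⟩ := hle
      obtain ⟨m1, m2⟩ := hmono p hp p' hp' ⟨h1, h2, h3, h4⟩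
      refine ⟨?_, m1, ?_, m2⟩
      · rintro _ ⟨e, he, rfl⟩
        exact ⟨e, h1 he, rfl⟩
      · rintro _ ⟨e, he, rfl⟩
        exact ⟨e, h3 he, rfl⟩
    · intro a ha
      refine ⟨f a, hmem _ (Finset.mem_image_of_mem f ha), (hf a ha).2⟩

end Family

/-! ### Node I-S28 of IGUSA1: the base fields of `H856.IgusaData` from S18 `node_mod` -/

section IgusaBase

variable {ι : Ω →+* Ω'} {Lc Ec Fc : Subfield Ω} {R V : Subring Ω} {w x : Ω}

/-- `V' ∩ ι(Fc) = ι(V)` for ANY subring `V' ⊇ ι(V)` with `(ι w)⁻¹ ∉ V'`. -/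
theorem baseModel_mem_V_of_map_mem588 (h : BaseModel107 Lc Ec Fc R V w x) {V' : Subring Ω'}
    (hV : V.map ι ≤ V') (hw : (ι w)⁻¹ ∉ V') {a : Ω} (haF : a ∈ Fc) (ha : ι a ∈ V') : a ∈ V := by
  rcases h.V_total a haF with h1 | h1
  · exact h1
  · by_contra hV0
    have h2 : (a⁻¹)⁻¹ ∉ V := by rwa [inv_inv]
    have h3 := h.V_gen a⁻¹ h1 h2
    have ha0 : a ≠ 0 := fun h0 => hV0 (by rw [h0]; exact V.zero_mem)
    have h4 : ι (a⁻¹ * w⁻¹) ∈ V' := hV ⟨_, h3, rfl⟩
    have h5 : ι a * ι (a⁻¹ * w⁻¹) ∈ V' := V'.mul_mem ha h4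
    have h6 : ι a * ι (a⁻¹ * w⁻¹) = (ι w)⁻¹ := by
      rw [← map_mul, ← mul_assoc, mul_inv_cancel₀ ha0, one_mul, map_inv₀]
    rw [h6] at h5
    exact hw h5

/-- **Transport of the `q`-expansion principle** along `ι` (any coordinate `x₀`). -/
theorem baseModel_qep_map588 (h : BaseModel107 Lc Ec Fc R V w x) {V' : Subring Ω'}
    (hV : V.map ι ≤ V') (hw : (ι w)⁻¹ ∉ V') {x₀ : Ω}
    (hqep : ∀ b ∈ chart Fc R x₀, b * w⁻¹ ∈ V → b * w⁻¹ ∈ chart Fc R x₀) :
    ∀ b ∈ chart (Fc.map ι) (R.map ι) (ι x₀), b * (ι w)⁻¹ ∈ V' →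
      b * (ι w)⁻¹ ∈ chart (Fc.map ι) (R.map ι) (ι x₀) := by
  rintro _ ⟨⟨b, hbF, rfl⟩, hbint⟩ hbV
  have hwF : w ∈ Fc := baseModel_R_le_F588 h w h.w_mem
  have hb : b ∈ chart Fc R x₀ := mem_chart_of_map ι hbF hbint
  have h1 : ι (b * w⁻¹) ∈ V' := by rwa [map_mul, map_inv₀]
  have h2 : b * w⁻¹ ∈ V :=
    baseModel_mem_V_of_map_mem588 h hV hw (Fc.mul_mem hbF (Fc.inv_mem hwF)) h1
  have h3 := chart_map ι (hqep b hb h2)
  rwa [map_mul, map_inv₀] at h3

/-- The fields of `H856.IgusaData` that come from the base (`Γ₀`-level) model. -/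
structure IgusaBase (Ec F0 : Subfield Ω') (R V : Subring Ω') (w x : Ω') : Prop where
  R_le : ∀ r ∈ R, r ∈ Ec
  R_total : ∀ e ∈ Ec, e ∈ R ∨ e⁻¹ ∈ R
  w_mem : w ∈ R
  w_ne_zero : w ≠ 0
  w_inv_not_mem : w⁻¹ ∉ R
  w_gen : ∀ r ∈ R, r⁻¹ ∉ R → r * w⁻¹ ∈ R
  w_discrete : ∀ r ∈ R, r ≠ 0 → ∃ n : ℕ, r * (w⁻¹) ^ n ∈ R ∧ (r * (w⁻¹) ^ n)⁻¹ ∈ R
  E_le_F0 : Ec ≤ F0
  x_mem_F0 : x ∈ F0
  x_transcendental : Transcendental R x
  R_le_V : R ≤ V
  x_mem_V : x ∈ V
  V_total_F0 : ∀ f ∈ F0, f ∈ V ∨ f⁻¹ ∈ V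
  gauss : ∀ P : Polynomial Ω', (∀ i, P.coeff i ∈ R) → (∃ i, P.coeff i ≠ 0 ∧ (P.coeff i)⁻¹ ∈ R) →
    (P.eval x)⁻¹ ∈ V
  qep0 : ∀ b ∈ chart F0 R x, b * w⁻¹ ∈ V → b * w⁻¹ ∈ chart F0 R x
  qep0_inf : ∀ b ∈ chart F0 R x⁻¹, b * w⁻¹ ∈ V → b * w⁻¹ ∈ chart F0 R x⁻¹

/-- `x` transcendental over `Lc` ⟹ `ι x` transcendental over (the subring) `ι(R)`. -/
theorem baseModel_transcendental_map588 (h : BaseModel107 Lc Ec Fc R V w x) :
    Transcendental (R.map ι) (ι x) := by
  intro halg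
  apply h.x_transcendental
  apply isAlgebraic_of_map ι
  have hle : ∀ a : R.map ι, (a : Ω') ∈ Lc.map ι := by
    rintro ⟨_, r, hr, rfl⟩
    exact ⟨r, h.E_le_L (h.R_le hr), rfl⟩
  let f : (R.map ι) →+* (Lc.map ι) :=
    { toFun := fun a => ⟨a, hle a⟩
      map_one' := rfl
      map_mul' := fun _ _ => rfl
      map_zero' := rfl
      map_add' := fun _ _ => rfl }
  have hf : Function.Injective f := by
    intro a b hab
    have := congrArg (fun c : Lc.map ι => (c : Ω')) hab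
    exact Subtype.ext this
  have h1 := IsAlgebraic.ringHom_of_comp_eq (A := Ω') (B := Ω') f (RingHom.id Ω') halg hf
    (by ext; rfl)
  simpa using h1

/-- **Node I-S28.**  The base fields of `H856.IgusaData` from a `BaseModel107` of the
`Γ₀`-level field (S18 `node_mod`, e.g. `S18.H24.baseModel_j` for the coordinate `j` and every
`ℓ ∤ M`), for ANY ring hom `ι` into the big field (e.g. `q ↦ X^M`) and ANY subring `V'` of the
big field with `ι(V) ⊆ V'` and `(ι w)⁻¹ ∉ V'` (e.g. the Gauss ring of the full-level field). -/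
theorem igusaBase_of_baseModel (h : BaseModel107 Lc Ec Fc R V w x) (ι : Ω →+* Ω')
    {V' : Subring Ω'} (hV : V.map ι ≤ V') (hw : (ι w)⁻¹ ∉ V') :
    IgusaBase (Ec.map ι) (Fc.map ι) (R.map ι) V' (ι w) (ι x) where
  R_le := by
    rintro _ ⟨r, hr, rfl⟩
    exact ⟨r, h.R_le hr, rfl⟩
  R_total := by
    rintro _ ⟨e, he, rfl⟩
    rcases h.R_total e he with h1 | h1
    · exact Or.inl ⟨e, h1, rfl⟩
    · exact Or.inr ⟨e⁻¹, h1, map_inv₀ ι e⟩
  w_mem := ⟨w, h.w_mem, rfl⟩
  w_ne_zero := (map_ne_zero ι).mpr h.w_ne_zero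
  w_inv_not_mem := by
    rw [← map_inv₀, mem_subring_map_iff]
    exact h.w_inv_not_mem
  w_gen := by
    rintro _ ⟨r, hr, rfl⟩ hr'
    rw [← map_inv₀, mem_subring_map_iff] at hr'
    rw [← map_inv₀, ← map_mul, mem_subring_map_iff]
    exact h.w_gen r hr hr'
  w_discrete := by
    rintro _ ⟨r, hr, rfl⟩ hr0
    have hr0' : r ≠ 0 := fun h0 => hr0 (by rw [h0, map_zero])
    obtain ⟨n, hn1, hn2⟩ := h.w_discrete r hr hr0'
    refine ⟨n, ?_, ?_⟩
    · rw [← map_inv₀, ← map_pow, ← map_mul, mem_subring_map_iff]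
      exact hn1
    · rw [← map_inv₀, ← map_pow, ← map_mul, ← map_inv₀, mem_subring_map_iff]
      exact hn2
  E_le_F0 := by
    rintro _ ⟨e, he, rfl⟩
    exact ⟨e, h.E_le_F he, rfl⟩
  x_mem_F0 := ⟨x, h.x_mem, rfl⟩
  x_transcendental := baseModel_transcendental_map588 h
  R_le_V := by
    rintro _ ⟨r, hr, rfl⟩
    exact hV ⟨r, h.R_le_V hr, rfl⟩
  x_mem_V := hV ⟨x, h.x_mem_V, rfl⟩
  V_total_F0 := by
    rintro _ ⟨f, hf, rfl⟩
    rcases h.V_total f hf with h1 | h1
    · exact Or.inl (hV ⟨f, h1, rfl⟩)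
    · exact Or.inr (hV ⟨f⁻¹, h1, map_inv₀ ι f⟩)
  gauss := by
    intro P hP ⟨i, hi0, hi⟩
    have hlift : P ∈ Polynomial.lifts ι := by
      rw [Polynomial.lifts_iff_coeff_lifts]
      intro n
      obtain ⟨a, _, ha⟩ := hP n
      exact ⟨a, ha⟩
    obtain ⟨Q, rfl⟩ := (Polynomial.mem_lifts _).mp hlift
    have hQ : ∀ n, Q.coeff n ∈ R := by
      intro n
      have := hP n
      rw [coeff_map] at this
      exact (mem_subring_map_iff ι).mp this
    have hQi : Q.coeff i ≠ 0 ∧ (Q.coeff i)⁻¹ ∈ R := by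
      rw [coeff_map] at hi0 hi
      refine ⟨fun h0 => hi0 (by rw [h0, map_zero]), ?_⟩
      rw [← map_inv₀] at hi
      exact (mem_subring_map_iff ι).mp hi
    have h1 := h.gauss Q hQ ⟨i, hQi⟩
    have h2 : eval₂ ι (ι x) Q = ι (eval x Q) := by
      have := Polynomial.hom_eval₂ Q (RingHom.id Ω) ι x
      rw [RingHom.comp_id, eval₂_id] at this
      exact this.symm
    rw [eval_map, h2, ← map_inv₀]
    exact hV ⟨_, h1, rfl⟩
  qep0 := baseModel_qep_map588 h hV hw h.qep_fin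
  qep0_inf := by
    have := baseModel_qep_map588 h hV hw h.qep_inf
    rwa [map_inv₀] at this

end IgusaBase

end Fermat.Agent.S48.H588

end
-- ===== PACK-END S48/H588/StepU.lean

-- ===== PACK-BEGIN S48/Red1/StepQ.lean
section


/-!
# S48 / RES (Tower A1), sub-tower A1-RED: one step of the tower of good models, `q`-expansion
principle SUPPLIED at the top (helper588)

`H588/StepU.lean` climbs a step `Ω → Ω'` with a finite group acting on `Ω'` (Galois descent of the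
`q`-expansion principle).  For the `Γ₁`-fields the `q`-expansion principle comes from node IGUSA1
(`H856.IgusaData.qep_fin`, in the full-level field) and no group on `Ω'` is available.  This file
is the group-free version:

* `StepQ`            : `StepCore` with the fields `G_*` replaced by `qep_fin`, `qep_inf`;
* `baseModel_stepQ`  : `BaseModel107` (base) + `StepQ` ⟹ `BaseModel107` (top);
* `goodModel_stepQ`  : `GoodModel` (base) + `StepQ` + `unramified` (top) ⟹ `GoodModel` (top);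
* `goodFamily_restrict` : the members of a `GoodFamily` whose constant field contains a given
                       finite set of constants form a `GoodFamily`;
* `goodFamily_stepQ` : the same for a directed family.
-/

set_option autoImplicit false

namespace Fermat.Agent.S48.Red1

open Fermat.Agent.S18.Alg Fermat.Agent.S18.H107 Fermat.Agent.S48.H588 Polynomial

variable {Ω Ω' : Type*} [Field Ω] [Field Ω']

/-- One step of the tower, with the `q`-expansion principle supplied at the top. -/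
structure StepQ (ι : Ω →+* Ω') (Lc Ec Fc : Subfield Ω) (R V : Subring Ω) (w x : Ω)
    (Fc' : Subfield Ω') (V' : Subring Ω') : Prop where
  F_le : Fc.map ι ≤ Fc'
  compositum : Subfield.closure ((Fc' : Set Ω') ∪ ((Lc.map ι : Subfield Ω') : Set Ω')) = ⊤
  E_closed : ∀ f ∈ Fc', IsAlgebraic (Ec.map ι) f → f ∈ Ec.map ι
  finite : ∃ s : Finset Ω', (s : Set Ω') ⊆ Fc' ∧
    ∀ f ∈ Fc', f ∈ Submodule.span (ratField (Ec.map ι) (ι x)) (s : Set Ω')
  V_le : (V' : Set Ω') ⊆ Fc'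
  V_total : ∀ f ∈ Fc', f ∈ V' ∨ f⁻¹ ∈ V'
  V_le_V' : V.map ι ≤ V'
  w_inv_not_mem : (ι w)⁻¹ ∉ V'
  V_gen : ∀ f ∈ V', f⁻¹ ∉ V' → f * (ι w)⁻¹ ∈ V'
  separable : ∀ f ∈ V', ∃ P : Polynomial Ω', (∀ i, P.coeff i ∈ polyRing (R.map ι) (ι x)) ∧
    P.eval f * (ι w)⁻¹ ∈ V' ∧ (Polynomial.derivative P).eval f ≠ 0 ∧
    ((Polynomial.derivative P).eval f)⁻¹ ∈ V'
  qep_fin : ∀ b ∈ chart Fc' (R.map ι) (ι x), b * (ι w)⁻¹ ∈ V' →
    b * (ι w)⁻¹ ∈ chart Fc' (R.map ι) (ι x)
  qep_inf : ∀ b ∈ chart Fc' (R.map ι) (ι x)⁻¹, b * (ι w)⁻¹ ∈ V' →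
    b * (ι w)⁻¹ ∈ chart Fc' (R.map ι) (ι x)⁻¹

section Step

variable {ι : Ω →+* Ω'} {Lc Ec Fc : Subfield Ω} {R V : Subring Ω} {w x : Ω} {S : Finset Ω}
  {Fc' : Subfield Ω'} {V' : Subring Ω'}

/-- The Gauss property climbs the step. -/
theorem gauss_stepQ (h : BaseModel107 Lc Ec Fc R V w x) (hVV : V.map ι ≤ V') :
    ∀ P : Polynomial Ω', (∀ i, P.coeff i ∈ R.map ι) →
      (∃ i, P.coeff i ≠ 0 ∧ (P.coeff i)⁻¹ ∈ R.map ι) → (P.eval (ι x))⁻¹ ∈ V' := by
  intro P hP ⟨i, hi0, hi⟩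
  have hlift : P ∈ Polynomial.lifts ι := by
    rw [Polynomial.lifts_iff_coeff_lifts]
    intro n
    obtain ⟨a, _, ha⟩ := hP n
    exact ⟨a, ha⟩
  obtain ⟨Q, rfl⟩ := (Polynomial.mem_lifts _).mp hlift
  have hQ : ∀ n, Q.coeff n ∈ R := by
    intro n
    have := hP n
    rw [coeff_map] at this
    exact (mem_subring_map_iff ι).mp this
  have hQi : Q.coeff i ≠ 0 ∧ (Q.coeff i)⁻¹ ∈ R := by
    rw [coeff_map] at hi0 hi
    refine ⟨fun h0 => hi0 (by rw [h0, map_zero]), ?_⟩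
    rw [← map_inv₀] at hi
    exact (mem_subring_map_iff ι).mp hi
  have h1 := h.gauss Q hQ ⟨i, hQi⟩
  have h2 : eval₂ ι (ι x) Q = ι (eval x Q) := by
    have := Polynomial.hom_eval₂ Q (RingHom.id Ω) ι x
    rw [RingHom.comp_id, eval₂_id] at this
    exact this.symm
  rw [eval_map, h2, ← map_inv₀]
  exact hVV ⟨_, h1, rfl⟩

/-- Finiteness climbs a step (finite over `ι(Fc)` ⟹ finite over `E(x)`). -/
theorem finite_stepQ (h : BaseModel107 Lc Ec Fc R V w x) (hFF : Fc.map ι ≤ Fc')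
    (hfin : ∃ s : Finset Ω', (s : Set Ω') ⊆ Fc' ∧
      ∀ f ∈ Fc', f ∈ Submodule.span (Fc.map ι) (s : Set Ω')) :
    ∃ s : Finset Ω', (s : Set Ω') ⊆ Fc' ∧
      ∀ f ∈ Fc', f ∈ Submodule.span (ratField (Ec.map ι) (ι x)) (s : Set Ω') := by
  classical
  obtain ⟨s₀, hs₀F, hs₀⟩ := h.finite
  obtain ⟨s₁, hs₁F, hs₁⟩ := hfin
  refine ⟨(s₀.image ι ×ˢ s₁).image (fun ab => ab.1 * ab.2), ?_, ?_⟩
  · intro z hz
    simp only [Finset.coe_image, Set.mem_image, Finset.mem_coe, Finset.mem_product,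
      Finset.mem_image, Prod.exists] at hz
    obtain ⟨a, b, ⟨⟨a₀, ha₀, rfl⟩, hb⟩, rfl⟩ := hz
    exact Fc'.mul_mem (hFF ⟨a₀, hs₀F ha₀, rfl⟩) (hs₁F hb)
  · intro f hf
    set K' := ratField (Ec.map ι) (ι x) with hK'
    set T : Submodule K' Ω' :=
      Submodule.span K' (((s₀.image ι ×ˢ s₁).image (fun ab => ab.1 * ab.2) : Finset Ω') : Set Ω')
      with hT
    have step1 : ∀ a ∈ Fc, ∀ b ∈ s₁, ι a * b ∈ T := by
      intro a ha b hb
      have ha' := hs₀ a ha
      refine Submodule.span_induction (p := fun a _ => ι a * b ∈ T) ?_ ?_ ?_ ?_ ha'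
      · intro a₀ ha₀
        refine Submodule.subset_span ?_
        simp only [Finset.coe_image, Set.mem_image, Finset.mem_coe, Finset.mem_product,
          Finset.mem_image, Prod.exists]
        exact ⟨ι a₀, b, ⟨⟨a₀, ha₀, rfl⟩, hb⟩, rfl⟩
      · simp
      · intro y z _ _ hy hz
        rw [map_add, add_mul]
        exact T.add_mem hy hz
      · intro c y _ hy
        have hc : ι (c : Ω) ∈ K' := by
          rw [hK', ← ratField_map]
          exact ⟨c, c.2, rfl⟩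
        have : ι (c • y) * b = (⟨ι (c : Ω), hc⟩ : K') • (ι y * b) := by
          rw [Subfield.smul_def, Subfield.smul_def, smul_eq_mul, smul_eq_mul, map_mul, mul_assoc]
        rw [this]
        exact T.smul_mem _ hy
    have stab : ∀ a ∈ Fc, ∀ t ∈ T, ι a * t ∈ T := by
      intro a ha t ht
      refine Submodule.span_induction (p := fun t _ => ι a * t ∈ T) ?_ ?_ ?_ ?_ ht
      · intro z hz
        simp only [Finset.coe_image, Set.mem_image, Finset.mem_coe, Finset.mem_product,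
          Finset.mem_image, Prod.exists] at hz
        obtain ⟨_, b, ⟨⟨a₀, ha₀, rfl⟩, hb⟩, rfl⟩ := hz
        have := step1 (a * a₀) (Fc.mul_mem ha (hs₀F ha₀)) b hb
        rwa [map_mul, mul_assoc] at this
      · simp
      · intro y z _ _ hy hz
        rw [mul_add]
        exact T.add_mem hy hz
      · intro c y _ hy
        have : ι a * c • y = c • (ι a * y) := by
          rw [Subfield.smul_def, Subfield.smul_def, smul_eq_mul, smul_eq_mul]; ring
        rw [this]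
        exact T.smul_mem _ hy
    have hf' := hs₁ f hf
    refine Submodule.span_induction (p := fun f _ => f ∈ T) ?_ ?_ ?_ ?_ hf'
    · intro b hb
      have := step1 1 Fc.one_mem b hb
      simpa using this
    · exact T.zero_mem
    · intro y z _ _ hy hz
      exact T.add_mem hy hz
    · intro c y _ hy
      obtain ⟨a, ha, hac⟩ := Subfield.mem_map.mp c.2
      have : c • y = ι a * y := by
        rw [Subfield.smul_def, smul_eq_mul, hac]
      rw [this]
      exact stab a ha y hy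

/-- **ONE STEP of the tower of base models**, `q`-expansion principle supplied at the top. -/
theorem baseModel_stepQ (h : BaseModel107 Lc Ec Fc R V w x)
    (hs : StepQ ι Lc Ec Fc R V w x Fc' V') :
    BaseModel107 (Lc.map ι) (Ec.map ι) Fc' (R.map ι) V' (ι w) (ι x) where
  charZero := by
    have _h0 : CharZero Ω := h.charZero
    exact charZero_of_injective_ringHom ι.injective
  R_le := by
    rintro _ ⟨r, hr, rfl⟩
    exact ⟨r, h.R_le hr, rfl⟩
  R_total := by
    rintro _ ⟨e, he, rfl⟩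
    rcases h.R_total e he with h1 | h1
    · exact Or.inl ⟨e, h1, rfl⟩
    · exact Or.inr ⟨e⁻¹, h1, map_inv₀ ι e⟩
  w_mem := ⟨w, h.w_mem, rfl⟩
  w_ne_zero := (map_ne_zero ι).mpr h.w_ne_zero
  w_inv_not_mem := by
    rw [← map_inv₀, mem_subring_map_iff]
    exact h.w_inv_not_mem
  w_gen := by
    rintro _ ⟨r, hr, rfl⟩ hr'
    rw [← map_inv₀, mem_subring_map_iff] at hr'
    rw [← map_inv₀, ← map_mul, mem_subring_map_iff]
    exact h.w_gen r hr hr'
  w_discrete := by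
    rintro _ ⟨r, hr, rfl⟩ hr0
    have hr0' : r ≠ 0 := fun h0 => hr0 (by rw [h0, map_zero])
    obtain ⟨n, hn1, hn2⟩ := h.w_discrete r hr hr0'
    refine ⟨n, ?_, ?_⟩
    · rw [← map_inv₀, ← map_pow, ← map_mul, mem_subring_map_iff]
      exact hn1
    · rw [← map_inv₀, ← map_pow, ← map_mul, ← map_inv₀, mem_subring_map_iff]
      exact hn2
  residue_perfect := by
    obtain ⟨p, hp, hp1, hp2⟩ := h.residue_perfect
    refine ⟨p, hp, ?_, ?_⟩
    · rw [← map_natCast ι p, ← map_inv₀, ← map_mul, mem_subring_map_iff]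
      exact hp1
    · rintro _ ⟨r, hr, rfl⟩
      obtain ⟨s, hs1, hs2⟩ := hp2 r hr
      refine ⟨ι s, ⟨s, hs1, rfl⟩, ?_⟩
      rw [← map_pow, ← map_sub, ← map_inv₀, ← map_mul, mem_subring_map_iff]
      exact hs2
  E_le_L := by
    rintro _ ⟨e, he, rfl⟩
    exact ⟨e, h.E_le_L he, rfl⟩
  E_le_F := by
    rintro _ ⟨e, he, rfl⟩
    exact hs.F_le ⟨e, h.E_le_F he, rfl⟩
  L_algebraic := by
    rintro _ ⟨a, ha, rfl⟩
    exact isAlgebraic_map ι (h.L_algebraic a ha)
  L_algClosed := isAlgClosed_map ι h.L_algClosed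
  E_closed_in_F := hs.E_closed
  compositum := hs.compositum
  x_mem := hs.F_le ⟨x, h.x_mem, rfl⟩
  x_transcendental := fun halg => h.x_transcendental (isAlgebraic_of_map ι halg)
  finite := hs.finite
  V_le := hs.V_le
  V_total := hs.V_total
  R_le_V := by
    rintro _ ⟨r, hr, rfl⟩
    exact hs.V_le_V' ⟨r, h.R_le_V hr, rfl⟩
  w_inv_not_mem_V := hs.w_inv_not_mem
  V_gen := hs.V_gen
  x_mem_V := hs.V_le_V' ⟨x, h.x_mem_V, rfl⟩
  gauss := gauss_stepQ h hs.V_le_V'
  qep_fin := hs.qep_fin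
  qep_inf := hs.qep_inf
  separable := hs.separable

/-- **ONE STEP of the tower of good models**, `q`-expansion principle and `unramified` supplied
at the top. -/
theorem goodModel_stepQ (h : GoodModel Lc Ec Fc R V w x S)
    (hs : StepQ ι Lc Ec Fc R V w x Fc' V')
    (hunr : ∀ O : ValuationSubring Ω', (∀ a ∈ Lc.map ι, a ∈ O) → ∀ c ∈ Lc.map ι,
      c ∉ S.map ⟨ι, ι.injective⟩ → ι x - c ∈ O → (ι x - c)⁻¹ ∉ O →
      ∀ t ∈ O, t⁻¹ ∉ O → t * (ι x - c)⁻¹ ∈ O) :
    GoodModel (Lc.map ι) (Ec.map ι) Fc' (R.map ι) V' (ι w) (ι x) (S.map ⟨ι, ι.injective⟩) := by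
  refine (baseModel_stepQ (baseModel_of_goodModel107 h) hs).toGoodModel _ ?_ ?_ ?_ hunr
  · intro s hs'
    obtain ⟨s₀, hs₀, rfl⟩ := Finset.mem_map.mp hs'
    exact ⟨s₀, h.S_mem s₀ hs₀, rfl⟩
  · intro s hs' t ht' hst
    obtain ⟨s₀, hs₀, rfl⟩ := Finset.mem_map.mp hs'
    obtain ⟨t₀, ht₀, rfl⟩ := Finset.mem_map.mp ht'
    have hne : s₀ ≠ t₀ := fun he => hst (by rw [he])
    exact ⟨(s₀ - t₀)⁻¹, h.S_distinct s₀ hs₀ t₀ ht₀ hne, by
      simp [map_inv₀, map_sub]⟩
  · intro s hs' hs0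
    obtain ⟨s₀, hs₀, rfl⟩ := Finset.mem_map.mp hs'
    have hne : s₀ ≠ 0 := fun he => hs0 (by simp [he])
    exact ⟨s₀⁻¹, h.S_unit s₀ hs₀ hne, by simp [map_inv₀]⟩

end Step

section Family

/-- The members of a good family whose constant field contains a given finite set `T₀` of
constants form a good family. -/
theorem goodFamily_restrict {Lc : Subfield Ω} {x : Ω} {S : Finset Ω} {𝓕 : Set (Model Ω)}
    (h : GoodFamily Lc x S 𝓕) (T₀ : Finset Ω) (hT₀ : ∀ a ∈ T₀, a ∈ Lc) :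
    GoodFamily Lc x S {p | p ∈ 𝓕 ∧ ∀ a ∈ T₀, a ∈ p.1} where
  good := fun p hp => h.good p hp.1
  enlarge := by
    classical
    intro p hp T hT
    obtain ⟨p', hp', hle, hmem⟩ := h.enlarge p hp.1 (T ∪ T₀) (by
      intro a ha
      rcases Finset.mem_union.mp ha with ha | ha
      · exact hT a ha
      · exact hT₀ a ha)
    exact ⟨p', ⟨hp', fun a ha => hmem a (Finset.mem_union_right _ ha)⟩, hle,
      fun a ha => hmem a (Finset.mem_union_left _ ha)⟩

variable {ι : Ω →+* Ω'}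

/-- **Lifting a directed family**: if every lifted member is a good model (for a coordinate
`x'` and a branch set `S'` of the top field) and `Φ` is monotone, the lifted family is a good
family. -/
theorem goodFamily_lift {Lc : Subfield Ω} {x : Ω} {S : Finset Ω} {𝓕 : Set (Model Ω)}
    (h : GoodFamily Lc x S 𝓕) (Φ : Model Ω → Subfield Ω' × Subring Ω') (x' : Ω')
    (S' : Finset Ω')
    (hgood : ∀ p ∈ 𝓕, GoodModel (Lc.map ι) (p.1.map ι) (Φ p).1 (p.2.2.1.map ι) (Φ p).2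
      (ι p.2.2.2.2) x' S')
    (hmono : ∀ p ∈ 𝓕, ∀ p' ∈ 𝓕, Model.le p p' → (Φ p).1 ≤ (Φ p').1 ∧ (Φ p).2 ≤ (Φ p').2) :
    GoodFamily (Lc.map ι) x' S' (liftModel ι Φ '' 𝓕) where
  good := by
    rintro _ ⟨p, hp, rfl⟩
    exact hgood p hp
  enlarge := by
    classical
    rintro _ ⟨p, hp, rfl⟩ T hT
    have hex : ∀ a ∈ T, ∃ a₀ ∈ Lc, ι a₀ = a := fun a ha => hT a ha
    choose! f hf using hex
    obtain ⟨p', hp', hle, hmem⟩ := h.enlarge p hp (T.image f) (by
      intro a ha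
      obtain ⟨b, hb, rfl⟩ := Finset.mem_image.mp ha
      exact (hf b hb).1)
    refine ⟨liftModel ι Φ p', ⟨p', hp', rfl⟩, ?_, ?_⟩
    · obtain ⟨h1, h2, h3, h4⟩ := hle
      obtain ⟨m1, m2⟩ := hmono p hp p' hp' ⟨h1, h2, h3, h4⟩
      refine ⟨?_, m1, ?_, m2⟩
      · rintro _ ⟨e, he, rfl⟩
        exact ⟨e, h1 he, rfl⟩
      · rintro _ ⟨e, he, rfl⟩
        exact ⟨e, h3 he, rfl⟩
    · intro a ha
      refine ⟨f a, hmem _ (Finset.mem_image_of_mem f ha), (hf a ha).2⟩

/-- **ONE STEP for a directed family of good models**, `q`-expansion principle and `unramified`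
supplied at the top.  `Φ p = (Fc', V')` is the function field and the Gauss ring over the member
`p`, monotone in `p`. -/
theorem goodFamily_stepQ {Lc : Subfield Ω} {x : Ω} {S : Finset Ω} {𝓕 : Set (Model Ω)}
    (h : GoodFamily Lc x S 𝓕) (Φ : Model Ω → Subfield Ω' × Subring Ω')
    (hs : ∀ p ∈ 𝓕, StepQ ι Lc p.1 p.2.1 p.2.2.1 p.2.2.2.1 p.2.2.2.2 x (Φ p).1 (Φ p).2)
    (hmono : ∀ p ∈ 𝓕, ∀ p' ∈ 𝓕, Model.le p p' → (Φ p).1 ≤ (Φ p').1 ∧ (Φ p).2 ≤ (Φ p').2)
    (hunr : ∀ O : ValuationSubring Ω', (∀ a ∈ Lc.map ι, a ∈ O) → ∀ c ∈ Lc.map ι,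
      c ∉ S.map ⟨ι, ι.injective⟩ → ι x - c ∈ O → (ι x - c)⁻¹ ∉ O →
      ∀ t ∈ O, t⁻¹ ∉ O → t * (ι x - c)⁻¹ ∈ O) :
    GoodFamily (Lc.map ι) (ι x) (S.map ⟨ι, ι.injective⟩) (liftModel ι Φ '' 𝓕) :=
  goodFamily_lift h Φ _ _ (fun p hp => goodModel_stepQ (h.good p hp) (hs p hp) hunr) hmono

end Family

end Fermat.Agent.S48.Red1

end
-- ===== PACK-END S48/Red1/StepQ.lean

-- ===== PACK-BEGIN S48/H76/GenQX3.lean
section


/-!
# S48 / Tower A1, piece GEN-QX, part 3 (helper76): the generators `e_{K,c}` with rational `q`-expansion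

For `c : ℤ` and `K = k + 1 ≥ 3` the modular form on `Γ₁(M)`

  `E_{K,c}(z) = (M · (-2πi)^K / ((K-1)! M^K))⁻¹ ∑_{M ∣ c', d} ζ^{-cd} (c' z + d)^{-K}`

has the `q`-expansion with RATIONAL coefficients

  `κ_{K,c} + ∑_{n ≥ 1} (∑_{d ∣ n, d ≡ c (M)} d^{K-1} + (-1)^K ∑_{d ∣ n, d ≡ -c (M)} d^{K-1}) qⁿ`.
-/

set_option autoImplicit false

open UpperHalfPlane EisensteinSeries ModularForm Filter Topology Complex CongruenceSubgroup
open scoped Matrix MatrixGroups Manifold Real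

noncomputable section

namespace Fermat.Agent.S48.H76

open Fermat.Agent.S29

local notation "𝕢" => Function.Periodic.qParam

/-! ### Roots of unity -/

theorem zetaPow_eq_of_dvd_sub (M : ℕ) [NeZero M] {a b : ℤ} (h : (M : ℤ) ∣ a - b) :
    zetaPow M a = zetaPow M b := by
  obtain ⟨t, ht⟩ := h
  have : a = b + t * M := by linarith [ht, mul_comm (M : ℤ) t]
  rw [this, zetaPow_add_mul]

theorem zetaPow_nat_mul (M : ℕ) (b : ℕ) (a : ℤ) : zetaPow M ((b : ℤ) * a) = zetaPow M a ^ b := by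
  unfold zetaPow
  rw [← Complex.exp_nat_mul]
  congr 1
  push_cast
  ring

theorem zetaPow_eq_one_iff (M : ℕ) [NeZero M] (a : ℤ) : zetaPow M a = 1 ↔ (M : ℤ) ∣ a := by
  have hM : (M : ℂ) ≠ 0 := Nat.cast_ne_zero.mpr (NeZero.ne M)
  unfold zetaPow
  rw [Complex.exp_eq_one_iff]
  constructor
  · rintro ⟨n, hn⟩
    refine ⟨n, ?_⟩
    have h2 : (2 * (π : ℂ) * Complex.I) ≠ 0 := by
      simp [Real.pi_ne_zero, Complex.I_ne_zero]
    have h3 : (a : ℂ) = (M : ℂ) * n := by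
      have h4 : (2 * (π : ℂ) * Complex.I) * (a : ℂ) =
          (2 * (π : ℂ) * Complex.I) * ((M : ℂ) * n) := by
        have h5 := congrArg (fun t : ℂ => t * (M : ℂ)) hn
        simp only [div_mul_cancel₀ _ hM] at h5
        rw [h5]
        ring
      exact mul_left_cancel₀ h2 h4
    exact_mod_cast h3
  · rintro ⟨n, rfl⟩
    refine ⟨n, ?_⟩
    push_cast
    field_simp

/-- Orthogonality: `∑_{b < M} ζ^{ba} = M [M ∣ a]`. -/
theorem sum_range_zetaPow (M : ℕ) [NeZero M] (a : ℤ) :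
    ∑ b ∈ Finset.range M, zetaPow M ((b : ℤ) * a) = if (M : ℤ) ∣ a then (M : ℂ) else 0 := by
  simp_rw [zetaPow_nat_mul]
  by_cases h : (M : ℤ) ∣ a
  · rw [if_pos h, (zetaPow_eq_one_iff M a).mpr h]
    simp
  · rw [if_neg h]
    have h1 : zetaPow M a ≠ 1 := fun h1 => h ((zetaPow_eq_one_iff M a).mp h1)
    rw [geom_sum_eq h1, ← zetaPow_nat_mul, (zetaPow_eq_one_iff M _).mpr ⟨a, rfl⟩, sub_self,
      zero_div]

/-- The weight `b ↦ ζ^{-cb}`. -/
def gZ (M : ℕ) (c : ℤ) (b : ZMod M) : ℂ := zetaPow M (-c * (b.val : ℤ))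

theorem gZ_intCast (M : ℕ) [NeZero M] (c d : ℤ) : gZ M c (d : ZMod M) = zetaPow M (-c * d) := by
  unfold gZ
  apply zetaPow_eq_of_dvd_sub
  have h : (((d : ZMod M).val : ℤ) : ZMod M) = (d : ZMod M) := by
    rw [Int.cast_natCast, ZMod.natCast_val, ZMod.cast_id', id]
  have h2 := (ZMod.intCast_eq_intCast_iff_dvd_sub _ _ M).mp h
  have : -c * ((d : ZMod M).val : ℤ) - -c * d = c * (d - ((d : ZMod M).val : ℤ)) := by ring
  rw [this]
  exact Dvd.dvd.mul_left h2 c

theorem gZ_natCast (M : ℕ) [NeZero M] (c : ℤ) (b : ℕ) :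
    gZ M c (b : ZMod M) = zetaPow M (-c * b) := by
  have := gZ_intCast M c (b : ℤ)
  simpa using this

theorem gZ_neg (M : ℕ) [NeZero M] (c : ℤ) (b : ZMod M) : gZ M c (-b) = gZ M (-c) b := by
  have hb : b = ((b.val : ℤ) : ZMod M) := by
    rw [Int.cast_natCast, ZMod.natCast_val, ZMod.cast_id', id]
  rw [hb, ← Int.cast_neg, gZ_intCast, gZ_intCast]
  congr 1
  ring

theorem hatG_gZ (M : ℕ) [NeZero M] (c m : ℤ) :
    hatG M (gZ M c) m = if (M : ℤ) ∣ m - c then (M : ℂ) else 0 := by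
  unfold hatG
  rw [← sum_range_zetaPow M (m - c)]
  refine Finset.sum_congr rfl fun b _ => ?_
  rw [gZ_natCast, ← zetaPow_add]
  congr 1
  ring

theorem symG_gZ (M : ℕ) [NeZero M] (c : ℤ) (k : ℕ) :
    symG M (gZ M c) k = fun b => gZ M c b + (-1) ^ (k + 1) * gZ M (-c) b := by
  funext b
  unfold symG
  rw [gZ_neg]

theorem hatG_symG_gZ (M : ℕ) [NeZero M] (c : ℤ) (k : ℕ) (m : ℤ) :
    hatG M (symG M (gZ M c) k) m =
      (M : ℂ) * ((if (M : ℤ) ∣ m - c then 1 else 0) +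
        (-1) ^ (k + 1) * (if (M : ℤ) ∣ m + c then 1 else 0)) := by
  rw [symG_gZ, hatG_add_smul, hatG_gZ, hatG_gZ, sub_neg_eq_add]
  split_ifs <;> ring

/-! ### The divisor sums -/

/-- The rational divisor sum
`∑_{d ∣ n, d ≡ c (M)} d^k + (-1)^{k+1} ∑_{d ∣ n, d ≡ -c (M)} d^k`. -/
def divSumQ (M : ℕ) (c : ℤ) (k n : ℕ) : ℚ :=
  ∑ d ∈ n.divisors, (d : ℚ) ^ k *
    ((if (M : ℤ) ∣ (d : ℤ) - c then 1 else 0) +
      (-1) ^ (k + 1) * (if (M : ℤ) ∣ (d : ℤ) + c then 1 else 0))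

theorem sigmaII_gZ (M : ℕ) [NeZero M] (c : ℤ) (k n : ℕ) :
    sigmaII M (gZ M c) k n = (M : ℂ) * ((divSumQ M c k n : ℚ) : ℂ) := by
  unfold sigmaII divSumQ
  rw [Nat.sum_divisorsAntidiagonal' (f := fun _ m : ℕ => (m : ℂ) ^ k *
    hatG M (symG M (gZ M c) k) m)]
  push_cast
  rw [Finset.mul_sum]
  refine Finset.sum_congr rfl fun d _ => ?_
  rw [hatG_symG_gZ]
  split_ifs <;> push_cast <;> ring

/-! ### The constant term -/

/-- The representative `x_c = ((-c) mod M)/M ∈ [0,1)` of `-c/M`. -/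
def xQ (M : ℕ) (c : ℤ) : ℚ := (((-c) % (M : ℤ) : ℤ) : ℚ) / (M : ℚ)

theorem xQ_mem_Icc (M : ℕ) [NeZero M] (c : ℤ) : ((xQ M c : ℚ) : ℝ) ∈ Set.Icc (0 : ℝ) 1 := by
  have hM : (0 : ℤ) < M := by exact_mod_cast Nat.pos_of_ne_zero (NeZero.ne M)
  have h0 : 0 ≤ (-c) % (M : ℤ) := Int.emod_nonneg _ hM.ne'
  have h1 : (-c) % (M : ℤ) < M := Int.emod_lt_of_pos _ hM
  have hMr : (0 : ℝ) < M := by exact_mod_cast hM
  unfold xQ
  push_cast
  constructor
  · apply div_nonneg _ hMr.le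
    exact_mod_cast h0
  · rw [div_le_one hMr]
    exact_mod_cast h1.le

/-- The rational constant term `κ = -(-1)^{k+1} M^k B_{k+1}(x_c)/(k+1)`. -/
def kappaQ (M : ℕ) (c : ℤ) (k : ℕ) : ℚ :=
  -(-1) ^ (k + 1) * (M : ℚ) ^ k * (Polynomial.bernoulli (k + 1)).eval (xQ M c) / (k + 1)

theorem bernoulliFun_ratCast (K : ℕ) (x : ℚ) :
    bernoulliFun K (x : ℝ) = (((Polynomial.bernoulli K).eval x : ℚ) : ℝ) := by
  unfold bernoulliFun
  rw [Polynomial.eval_map]
  have := Polynomial.eval₂_at_apply (p := Polynomial.bernoulli K) (algebraMap ℚ ℝ) x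
  simpa using this

theorem fourier_xQ (M : ℕ) [NeZero M] (c d : ℤ) :
    (fourier d (((xQ M c : ℚ) : ℝ) : UnitAddCircle) : ℂ) = zetaPow M (-c * d) := by
  have hM : (M : ℂ) ≠ 0 := Nat.cast_ne_zero.mpr (NeZero.ne M)
  rw [fourier_coe_apply]
  have h1 : zetaPow M (-c * d) = zetaPow M (d * ((-c) % (M : ℤ))) := by
    apply zetaPow_eq_of_dvd_sub
    have h2 : (M : ℤ) ∣ -c - (-c) % (M : ℤ) := Int.dvd_self_sub_emod
    have : -c * d - d * ((-c) % (M : ℤ)) = d * (-c - (-c) % (M : ℤ)) := by ring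
    rw [this]
    exact Dvd.dvd.mul_left h2 d
  rw [h1]
  unfold zetaPow xQ
  congr 1
  push_cast
  field_simp

theorem constTerm_gZ (M : ℕ) [NeZero M] (c : ℤ) {k : ℕ} (hk : 1 ≤ k) :
    constTerm M (typeII M (gZ M c)) k = lipConst M k * (M : ℂ) * ((kappaQ M c k : ℚ) : ℂ) := by
  have hM : (M : ℂ) ≠ 0 := Nat.cast_ne_zero.mpr (NeZero.ne M)
  have H := hasSum_one_div_pow_mul_fourier_mul_bernoulliFun (k := k + 1) (by omega)
    (xQ_mem_Icc M c)
  have h1 : constTerm M (typeII M (gZ M c)) k =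
      ∑' d : ℤ, 1 / (d : ℂ) ^ (k + 1) * (fourier d (((xQ M c : ℚ) : ℝ) : UnitAddCircle) : ℂ) := by
    unfold constTerm
    refine tsum_congr fun d => ?_
    rw [fourier_xQ]
    simp only [typeII, if_true]
    rw [gZ_intCast, one_div, mul_comm]
  rw [h1, H.tsum_eq, bernoulliFun_ratCast]
  unfold kappaQ lipConst
  have hk1 : ((k : ℂ) + 1) ≠ 0 := by
    have : ((k + 1 : ℕ) : ℂ) ≠ 0 := Nat.cast_ne_zero.mpr (Nat.succ_ne_zero k)
    simpa using this
  have hfac : ((k.factorial : ℕ) : ℂ) ≠ 0 := Nat.cast_ne_zero.mpr (Nat.factorial_ne_zero k)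
  rw [Nat.factorial_succ]
  push_cast
  have hsign : (-2 * (π : ℂ) * Complex.I) ^ (k + 1) =
      (-1) ^ (k + 1) * (2 * π * Complex.I) ^ (k + 1) := by
    rw [← mul_pow]
    ring_nf
  rw [hsign]
  have hsq : ((-1 : ℂ)) ^ (k + 1) * (-1) ^ (k + 1) = 1 := by
    rw [← mul_pow]
    norm_num
  generalize ((-1 : ℂ)) ^ (k + 1) = s at hsq ⊢
  generalize (2 * (π : ℂ) * Complex.I) ^ (k + 1) = A
  generalize ((Polynomial.eval (xQ M c) (Polynomial.bernoulli (k + 1)) : ℚ) : ℂ) = B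
  generalize ((k.factorial : ℕ) : ℂ) = F at hfac ⊢
  have e : s * A / (F * (M : ℂ) ^ (k + 1)) * M * (-s * (M : ℂ) ^ k * B / ((k : ℂ) + 1)) =
      (s * s) * (-A / (((k : ℂ) + 1) * F) * B) := by
    field_simp
    ring
  rw [e, hsq, one_mul]

/-! ### The generators -/

/-- The rational `q`-series `e_{k+1,c} = κ + ∑_{n ≥ 1} (∑_{d ∣ n, d ≡ c} d^k
+ (-1)^{k+1} ∑_{d ∣ n, d ≡ -c} d^k) qⁿ`. -/
def eisQ (M : ℕ) (c : ℤ) (k : ℕ) : PowerSeries ℚ :=
  PowerSeries.mk fun n => if n = 0 then kappaQ M c k else divSumQ M c k n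

/-- The normalising constant `M (-2πi)^{k+1} / (k! M^{k+1})`. -/
def normC (M k : ℕ) : ℂ := lipConst M k * (M : ℂ)

theorem normC_ne_zero (M : ℕ) [NeZero M] (k : ℕ) : normC M k ≠ 0 := by
  have hM : (M : ℂ) ≠ 0 := Nat.cast_ne_zero.mpr (NeZero.ne M)
  have hfac : ((k.factorial : ℕ) : ℂ) ≠ 0 := Nat.cast_ne_zero.mpr (Nat.factorial_ne_zero k)
  unfold normC lipConst
  refine mul_ne_zero (div_ne_zero (pow_ne_zero _ ?_) (mul_ne_zero hfac (pow_ne_zero _ hM))) hM
  simp [Real.pi_ne_zero, Complex.I_ne_zero]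

theorem coefQ_gZ (M : ℕ) [NeZero M] (c : ℤ) {k : ℕ} (hk : 1 ≤ k) (n : ℕ) :
    coefQ M (gZ M c) k n = normC M k * (((eisQ M c k).coeff n : ℚ) : ℂ) := by
  unfold coefQ eisQ normC
  rw [PowerSeries.coeff_mk]
  by_cases hn : n = 0
  · rw [if_pos hn, if_pos hn, constTerm_gZ M c hk]
  · rw [if_neg hn, if_neg hn, sigmaII_gZ]
    ring

/-- The modular form `E_{k+1,c}` on `Γ₁(M)` (weight `k + 1 ≥ 3`). -/
def eisForm (M : ℕ) [NeZero M] (c : ℤ) {k : ℕ} (hk : 2 ≤ k) :
    ModularForm ((Gamma1 M : Subgroup SL(2, ℤ)) : Subgroup (GL (Fin 2) ℝ)) ((k + 1 : ℕ) : ℤ) :=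
  (normC M k)⁻¹ • typeIIMF M (gZ M c) (k := ((k + 1 : ℕ) : ℤ)) (by push_cast; omega)

theorem eisForm_apply (M : ℕ) [NeZero M] (c : ℤ) {k : ℕ} (hk : 2 ≤ k) (z : ℍ) :
    eisForm M c hk z =
      (normC M k)⁻¹ * H332.wEis (perWeight M (typeII M (gZ M c))) ((k + 1 : ℕ) : ℤ) z := rfl

/-- **The `q`-expansion of the generator `E_{k+1,c}`** (`HasSum` form). -/
theorem hasSum_eisForm (M : ℕ) [NeZero M] (c : ℤ) {k : ℕ} (hk : 2 ≤ k) (z : ℍ) :
    HasSum (fun n : ℕ => (((eisQ M c k).coeff n : ℚ) : ℂ) • 𝕢 1 (z : ℂ) ^ n)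
      (eisForm M c hk z) := by
  have H := (hasSum_typeII M hk (gZ M c) z).mul_left (normC M k)⁻¹
  rw [eisForm_apply]
  have hfun : (fun n : ℕ => (((eisQ M c k).coeff n : ℚ) : ℂ) • 𝕢 1 (z : ℂ) ^ n) =
      fun n : ℕ => (normC M k)⁻¹ * (coefQ M (gZ M c) k n • 𝕢 1 (z : ℂ) ^ n) := by
    funext n
    rw [coefQ_gZ M c (by omega) n, smul_eq_mul, smul_eq_mul, mul_assoc,
      ← mul_assoc (normC M k)⁻¹, inv_mul_cancel₀ (normC_ne_zero M k), one_mul]
  rw [hfun]
  exact H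

/-- **The `q`-expansion of the generator `E_{k+1,c}`** has the rational coefficients `eisQ`. -/
theorem qExpansion_eisForm_coeff (M : ℕ) [NeZero M] (c : ℤ) {k : ℕ} (hk : 2 ≤ k) (n : ℕ) :
    (qExpansion 1 (eisForm M c hk)).coeff n = (((eisQ M c k).coeff n : ℚ) : ℂ) :=
  Fermat.Agent.S22T.qExpansion_coeff_of_hasSum one_pos (hasSum_eisForm M c hk)
    (eisForm M c hk).holo' n

theorem qExpansion_eisForm (M : ℕ) [NeZero M] (c : ℤ) {k : ℕ} (hk : 2 ≤ k) :
    qExpansion 1 (eisForm M c hk) = (eisQ M c k).map (algebraMap ℚ ℂ) := by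
  ext n
  rw [qExpansion_eisForm_coeff, PowerSeries.coeff_map]
  rfl

/-- The generator depends only on `c` modulo `M`. -/
theorem gZ_congr (M : ℕ) [NeZero M] {c c' : ℤ} (h : (M : ℤ) ∣ c - c') : gZ M c = gZ M c' := by
  funext b
  unfold gZ
  apply zetaPow_eq_of_dvd_sub
  have : -c * (b.val : ℤ) - -c' * (b.val : ℤ) = -(b.val : ℤ) * (c - c') := by ring
  rw [this]
  exact Dvd.dvd.mul_left h _

/-- **Diamond action**: for `γ ∈ Γ₀(M)` with upper left entry `a`, `E_{K,c} ∣ γ = E_{K, c a}`. -/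
theorem eisForm_slash_Gamma0 (M : ℕ) [NeZero M] (c : ℤ) {k : ℕ} (hk : 2 ≤ k) (γ : SL(2, ℤ))
    (hγ : γ ∈ Gamma0 M) :
    (⇑(eisForm M c hk)) ∣[((k + 1 : ℕ) : ℤ)] γ = ⇑(eisForm M (c * γ 0 0) hk) := by
  have h1 : (⇑(eisForm M c hk) : ℍ → ℂ) =
      (normC M k)⁻¹ • H332.wEis (perWeight M (typeII M (gZ M c))) ((k + 1 : ℕ) : ℤ) := by
    funext z
    rfl
  have h2 : (⇑(eisForm M (c * γ 0 0) hk) : ℍ → ℂ) =
      (normC M k)⁻¹ • H332.wEis (perWeight M (typeII M (gZ M (c * γ 0 0)))) ((k + 1 : ℕ) : ℤ) := by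
    funext z
    rfl
  have hg : (fun y : ZMod M => gZ M c (y * ((γ 0 0 : ℤ) : ZMod M))) = gZ M (c * γ 0 0) := by
    funext y
    have hy : y = ((y.val : ℤ) : ZMod M) := by
      rw [Int.cast_natCast, ZMod.natCast_val, ZMod.cast_id', id]
    have e1 : gZ M c (y * ((γ 0 0 : ℤ) : ZMod M)) =
        gZ M c ((((y.val : ℤ) * (γ 0 0 : ℤ) : ℤ)) : ZMod M) := by
      rw [Int.cast_mul, ← hy]
    have e2 : gZ M (c * γ 0 0) y = gZ M (c * γ 0 0) ((y.val : ℤ) : ZMod M) := by
      rw [← hy]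
    rw [e1, e2, gZ_intCast, gZ_intCast]
    congr 1
    ring
  rw [h1, h2, ModularForm.SL_smul_slash, typeII_slash_Gamma0 M _ _ γ hγ, hg]

end Fermat.Agent.S48.H76

end
end
-- ===== PACK-END S48/H76/GenQX3.lean

-- ===== PACK-BEGIN S48/H332/PkgDegAlg.lean
section


/-!
# Tower A1 / A1-FF, piece DEG-GEN (helper332) — the degree bound from relations over `ℂ`, generic

GENERIC port of `S24/Deg/H457_Alg.lean` + `H457_Main.lean`: the generators `j(q^d)`, `d ∣ N`, are
replaced by an arbitrary set `S` of Laurent series containing `j`.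

Interface hypothesis `HypG L S n`: every element of the `L`-subalgebra of `L((q))` generated by `S`
is a root of a monic polynomial of degree `n` with coefficients in `L[j]`.

Main result: `finiteDimensional_and_finrank_le_G`.
-/

set_option autoImplicit false
set_option linter.unusedSectionVars false
set_option linter.unusedVariables false

noncomputable section

open Polynomial ModularCurve IntermediateField

namespace Fermat.Agent.S48.H332

open Fermat.Agent.S24 Fermat.Agent.S24.Deg457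

section General

variable (K : Type*) [Field K] [Algebra ℚ K]

/-- The generic interface hypothesis. -/
def HypG (S : Set (LaurentSeries K)) (n : ℕ) : Prop :=
  ∀ b ∈ Algebra.adjoin K S, ∃ P : K[X][X], P.Monic ∧ P.natDegree = n ∧
    P.eval₂ (evJ (JK K)) b = 0

variable {K}

theorem aeval_JK_mem {A : Subalgebra K (LaurentSeries K)} (hJ : JK K ∈ A) (t : K[X]) :
    aeval (JK K) t ∈ A := by
  rw [aeval_def, eval₂_eq_sum_range]
  refine Subalgebra.sum_mem _ fun i _ => ?_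
  exact Subalgebra.mul_mem _ (Subalgebra.algebraMap_mem _ _) (Subalgebra.pow_mem _ hJ _)

theorem eval₂_mem_G {A : Subalgebra K (LaurentSeries K)} (hJ : JK K ∈ A) (Q : K[X][X])
    {s : LaurentSeries K} (hs : s ∈ A) : Q.eval₂ (evJ (JK K)) s ∈ A := by
  rw [eval₂_eq_sum_range]
  refine Subalgebra.sum_mem _ fun i _ => ?_
  exact Subalgebra.mul_mem _ (aeval_JK_mem hJ _) (Subalgebra.pow_mem _ hs _)

/-- a nonzero algebraic element of `A` has an "inverse up to a polynomial in `j`" in `A`. -/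
theorem exists_mul_eq_aeval_G {A : Subalgebra K (LaurentSeries K)} (hJ : JK K ∈ A) {n : ℕ}
    {s : LaurentSeries K} (hs : s ∈ A) (hs0 : s ≠ 0)
    (ha : AlgDeg K n s) : ∃ g ∈ A, ∃ t : K[X], t ≠ 0 ∧ s * g = aeval (JK K) t := by
  obtain ⟨Q, hQ0, -, hQ⟩ := ha
  have key : ∀ m : ℕ, ∀ Q : K[X][X], Q.natDegree ≤ m → Q ≠ 0 → Q.eval₂ (evJ (JK K)) s = 0 →
      ∃ Q₁ : K[X][X], Q₁.coeff 0 ≠ 0 ∧ Q₁.eval₂ (evJ (JK K)) s = 0 := by
    intro m
    induction m with
    | zero =>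
      intro Q hdeg hQ0 hQ
      refine ⟨Q, ?_, hQ⟩
      intro h0
      apply hQ0
      rw [eq_C_of_natDegree_le_zero hdeg, h0, map_zero]
    | succ m ih =>
      intro Q hdeg hQ0 hQ
      by_cases h0 : Q.coeff 0 = 0
      · have hdiv : Q = divX Q * X := by
          conv_lhs => rw [← divX_mul_X_add Q, h0, map_zero, add_zero]
        have hd0 : divX Q ≠ 0 := by
          intro h; apply hQ0; rw [hdiv, h, zero_mul]
        have hev : (divX Q).eval₂ (evJ (JK K)) s = 0 := by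
          rw [hdiv, eval₂_mul, eval₂_X] at hQ
          rcases mul_eq_zero.mp hQ with h | h
          · exact h
          · exact absurd h hs0
        refine ih (divX Q) ?_ hd0 hev
        rw [natDegree_divX_eq_natDegree_tsub_one]
        omega
      · exact ⟨Q, h0, hQ⟩
  obtain ⟨Q₁, h0, hQ₁⟩ := key Q.natDegree Q le_rfl hQ0 hQ
  refine ⟨-(divX Q₁).eval₂ (evJ (JK K)) s, Subalgebra.neg_mem _ (eval₂_mem_G hJ _ hs),
    Q₁.coeff 0, h0, ?_⟩
  have hsplit : Q₁.eval₂ (evJ (JK K)) s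
      = (divX Q₁).eval₂ (evJ (JK K)) s * s + aeval (JK K) (Q₁.coeff 0) := by
    conv_lhs => rw [← divX_mul_X_add Q₁]
    rw [eval₂_add, eval₂_mul, eval₂_X, eval₂_C, evJ_apply]
  rw [hQ₁] at hsplit
  linear_combination hsplit

end General

section Descent

variable {K L : Type*} [Field K] [Algebra ℚ K] [Field L] [Algebra ℚ L]

theorem coeffMap_mem_adjoin (ι : K →+* L) {S : Set (LaurentSeries K)} {a : LaurentSeries K}
    (ha : a ∈ Algebra.adjoin K S) :
    coeffMap ι a ∈ Algebra.adjoin L (⇑(coeffMap ι) '' S) := by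
  induction ha using Algebra.adjoin_induction with
  | mem x hx => exact Algebra.subset_adjoin ⟨x, hx, rfl⟩
  | algebraMap r =>
    rw [coeffMap_algebraMap']
    exact Subalgebra.algebraMap_mem _ _
  | add x y _ _ hx hy =>
    rw [map_add]; exact Subalgebra.add_mem _ hx hy
  | mul x y _ _ hx hy =>
    rw [map_mul]; exact Subalgebra.mul_mem _ hx hy

/-- Lemma B: elements of `K[S]` are algebraic of degree `≤ n` over `K[j]`, given the hypothesis
over the bigger field `L`. -/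
theorem algDeg_of_mem_adjoin (ι : K →+* L) {S : Set (LaurentSeries K)} {n : ℕ}
    (hyp : HypG L (⇑(coeffMap ι) '' S) n) {a : LaurentSeries K}
    (ha : a ∈ Algebra.adjoin K S) : AlgDeg K n a := by
  obtain ⟨P, hP, hn, h0⟩ := hyp _ (coeffMap_mem_adjoin ι ha)
  rw [← coeffMap_JK ι] at h0
  exact exists_relation_of_coeffMap_monic ι (JK K) a n P hP hn h0

/-- Lemma H: every element of the field `K(S)` is algebraic of degree `≤ n` over `K[j]`. -/
theorem algDeg_of_mem_field_G (ι : K →+* L) {S : Set (LaurentSeries K)} (hJ : JK K ∈ S) {n : ℕ}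
    (hyp : HypG L (⇑(coeffMap ι) '' S) n) {x : LaurentSeries K}
    (hx : x ∈ IntermediateField.adjoin K S) : AlgDeg K n x := by
  rw [IntermediateField.mem_adjoin_iff_div] at hx
  obtain ⟨r, hr, s, hs, rfl⟩ := hx
  have hJ' : JK K ∈ Algebra.adjoin K S := Algebra.subset_adjoin hJ
  by_cases hs0 : s = 0
  · subst hs0
    rw [div_zero]
    exact algDeg_of_mem_adjoin ι hyp (Subalgebra.zero_mem _)
  · obtain ⟨g, hg, t, ht, hst⟩ :=
      exists_mul_eq_aeval_G hJ' hs hs0 (algDeg_of_mem_adjoin ι hyp hs)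
    refine AlgDeg.of_mul_eq (a := r * g) ht ?_
      (algDeg_of_mem_adjoin ι hyp (Subalgebra.mul_mem _ hr hg))
    rw [← hst]
    field_simp

end Descent

section Final

variable {K L : Type*} [Field K] [Algebra ℚ K] [CharZero K] [Field L] [Algebra ℚ L]

/-- **Degree bound, generic.**  `F = K(S) ⊆ K((q))`, `j ∈ S`; from the interface hypothesis over
a bigger field `L`: `[F : K(j)] ≤ n`. -/
theorem finiteDimensional_and_finrank_le_G (ι : K →+* L) {S : Set (LaurentSeries K)}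
    (hJ : JK K ∈ S) (F : IntermediateField K (LaurentSeries K))
    (hF : F = IntermediateField.adjoin K S) (jF : F) (hjF : (jF : LaurentSeries K) = JK K)
    (n : ℕ) (hyp : HypG L (⇑(coeffMap ι) '' S) n) :
    FiniteDimensional ↥(IntermediateField.adjoin K {jF}) F ∧
      Module.finrank ↥(IntermediateField.adjoin K {jF}) F ≤ n := by
  refine finiteDimensional_and_finrank_le_of_forall_natDegree_minpoly_le n fun x => ?_
  have hx : (x : LaurentSeries K) ∈ IntermediateField.adjoin K S := by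
    rw [← hF]; exact x.2
  obtain ⟨Q, hQ0, hQn, hQ⟩ := algDeg_of_mem_field_G ι hJ hyp hx
  have hinc : Function.Injective (algebraMap F (LaurentSeries K)) :=
    (algebraMap F (LaurentSeries K)).injective
  refine isIntegral_and_natDegree_le_of_relation (K := K)
    (AdjoinSimple.gen K jF) ?_ x Q hQ0 n hQn ?_
  · intro t ht h0
    apply aeval_JK_ne_zero K ht
    have h1 := congrArg (algebraMap ↥(IntermediateField.adjoin K {jF}) F) h0
    rw [← aeval_algebraMap_apply, map_zero, AdjoinSimple.algebraMap_gen] at h1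
    have h2 := congrArg (algebraMap F (LaurentSeries K)) h1
    rw [← aeval_algebraMap_apply, map_zero] at h2
    rw [← hjF]
    exact h2
  · apply hinc
    rw [map_zero, Polynomial.hom_eval₂, AdjoinSimple.algebraMap_gen]
    have hcomp : (algebraMap F (LaurentSeries K)).comp
        ((aeval jF : K[X] →ₐ[K] F).toRingHom) = evJ (JK K) := by
      refine Polynomial.ringHom_ext ?_ ?_
      · intro c
        simp [evJ, ← IsScalarTower.algebraMap_apply]
      · simp [evJ]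
        exact hjF
    rw [hcomp]
    exact hQ

end Final

end Fermat.Agent.S48.H332

end
end
-- ===== PACK-END S48/H332/PkgDegAlg.lean

-- ===== PACK-BEGIN S48/H308/RankinTop.lean
section



/-!
# S48 (Deligne–Serre), input P4 RANKIN in the exact shape of the row interface

`rankin : Fermat.Agent.S48.Top.RankinStatement` (sharp constant `1`, no boundedness hypothesis).
-/

set_option autoImplicit false

namespace Fermat.Agent.S48.H308

/-- **P4 (RANKIN)**, exact `Top/Spec.lean` shape. -/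
theorem rankin : Fermat.Agent.S48.Top.RankinStatement :=
  fun N _ ε f h => rankin_bound N ε f h.1 h.2

end Fermat.Agent.S48.H308

end
-- ===== PACK-END S48/H308/RankinTop.lean

-- ===== PACK-BEGIN Lib/Cheb/H993/QAdapt.lean
section






/-!
# CHEB-Q: adapters between `Lib/Cheb/SpecQ*.lean` (helper993) and `Lib/ChebQ/Spec.lean` (helper968)

* `cycDensity968_of` : `SpecQ.CycSumStatement → SpecQ.CycCountStatement →
  ChebQ.Spec.CycDensityStatement` (the `O(1)`-form needed by `ChebQ.H968.crossDensity`);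
* `chebDensityFinite_of_968` : `ChebQ.Spec.ChebDensityStatement → SpecQ.ChebDensityFiniteStatement`;
* `client968_of` : `SpecQ.ChebDensityStatement → ChebQ.Spec.ChebDensityClientStatement`.
-/

set_option autoImplicit false

open NumberField

namespace Fermat.Agent.Lib.Cheb.H993

open Fermat.Agent.Lib.Cheb.Spec Fermat.Agent.Lib.Cheb.SpecQ

/-- orbit–stabiliser for conjugation -/
theorem card_conjugatesOf_mul_card_centralizer_h993 {G : Type*} [Group G] [Finite G] (g : G) :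
    Nat.card (conjugatesOf g) * Nat.card (Subgroup.centralizer ({g} : Set G)) = Nat.card G := by
  classical
  cases nonempty_fintype G
  rw [Subgroup.nat_card_centralizer_nat_card_stabilizer]
  have horb : MulAction.orbit (ConjAct G) g = conjugatesOf g := by
    ext h
    rw [ConjAct.mem_orbit_conjAct, isConj_comm]
    rfl
  letI : Fintype (ConjAct G) := Fintype.ofFinite _
  letI : Fintype (MulAction.orbit (ConjAct G) g) := Fintype.ofFinite _
  letI : Fintype (MulAction.stabilizer (ConjAct G) g) := Fintype.ofFinite _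
  have h := MulAction.card_orbit_mul_card_stabilizer_eq_card_group (ConjAct G) g
  rw [← Nat.card_eq_fintype_card, ← Nat.card_eq_fintype_card, ← Nat.card_eq_fintype_card] at h
  rw [← horb]
  exact h

theorem classDensity_eq_inv_h993 (L : Type) [Field L] [NumberField L] (g : L ≃ₐ[ℚ] L) :
    classDensity L g =
      (Nat.card (Subgroup.centralizer ({g} : Set (L ≃ₐ[ℚ] L))) : ℝ)⁻¹ := by
  have h := card_conjugatesOf_mul_card_centralizer_h993 g
  have hZ : (0 : ℝ) < (Nat.card (Subgroup.centralizer ({g} : Set (L ≃ₐ[ℚ] L))) : ℝ) := by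
    exact_mod_cast (Nat.card_pos : 0 < Nat.card (Subgroup.centralizer ({g} : Set (L ≃ₐ[ℚ] L))))
  have hG : (0 : ℝ) < (Nat.card (L ≃ₐ[ℚ] L) : ℝ) := by
    exact_mod_cast (Nat.card_pos : 0 < Nat.card (L ≃ₐ[ℚ] L))
  have h' : (Nat.card (conjugatesOf g) : ℝ) *
      (Nat.card (Subgroup.centralizer ({g} : Set (L ≃ₐ[ℚ] L))) : ℝ) =
      (Nat.card (L ≃ₐ[ℚ] L) : ℝ) := by exact_mod_cast h
  rw [classDensity, div_eq_iff hG.ne', ← h']
  field_simp

/-- `O(1)`-form of `hasLowerDensity_of_tsum`. -/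
theorem exists_finset_of_tsum_h993 {X : Set ℕ} {d' w K : ℝ} (hw : 0 < w)
    (f : ℝ → Nat.Primes → ℝ)
    (hsum : ∀ s : ℝ, 1 < s → s ≤ 2 → Summable (f s))
    (hle : ∀ s : ℝ, 1 < s → s ≤ 2 → ∀ p : Nat.Primes, f s p ≤ w * ((p : ℕ) : ℝ) ^ (-s))
    (hX : ∀ s : ℝ, 1 < s → s ≤ 2 → ∀ p : Nat.Primes, (p : ℕ) ∉ X → f s p ≤ 0)
    (hbound : ∀ s : ℝ, 1 < s → s ≤ 2 → d' * Real.log (1 / (s - 1)) - K ≤ ∑' p, f s p) :
    ∀ s : ℝ, 1 < s → s ≤ 2 → ∃ T : Finset ℕ, (∀ p ∈ T, p ∈ X) ∧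
      d' / w * Real.log (1 / (s - 1)) - (K + 1) / w ≤ ∑ p ∈ T, (p : ℝ) ^ (-s) := by
  classical
  intro s h1 h2
  have hS := (hsum s h1 h2).hasSum
  have hev := hS.eventually (lt_mem_nhds (show ∑' p, f s p - 1 < ∑' p, f s p by linarith))
  obtain ⟨F, hF⟩ := hev.exists
  set F' : Finset Nat.Primes := F.filter (fun p => (p : ℕ) ∈ X) with hF'
  have h3 : ∑ p ∈ F, f s p ≤ ∑ p ∈ F', f s p := by
    rw [hF', Finset.sum_filter]
    apply Finset.sum_le_sum
    intro p _
    split_ifs with hp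
    · exact le_rfl
    · exact hX s h1 h2 p hp
  have h4 : ∑ p ∈ F', f s p ≤ w * ∑ p ∈ F', ((p : ℕ) : ℝ) ^ (-s) := by
    rw [Finset.mul_sum]
    exact Finset.sum_le_sum fun p _ => hle s h1 h2 p
  refine ⟨F'.image (fun p : Nat.Primes => (p : ℕ)), fun p hp => ?_, ?_⟩
  · obtain ⟨q, hq, rfl⟩ := Finset.mem_image.mp hp
    rw [hF', Finset.mem_filter] at hq
    exact hq.2
  · have himg : ∑ p ∈ F'.image (fun p : Nat.Primes => (p : ℕ)), (p : ℝ) ^ (-s) =
        ∑ p ∈ F', ((p : ℕ) : ℝ) ^ (-s) :=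
      Finset.sum_image (f := fun n : ℕ => (n : ℝ) ^ (-s)) (g := fun p : Nat.Primes => (p : ℕ))
        (fun a _ b _ hab => Nat.Primes.coe_nat_injective hab)
    rw [himg]
    have h5 := hbound s h1 h2
    have h6 : d' * Real.log (1 / (s - 1)) - (K + 1) ≤ w * ∑ p ∈ F', ((p : ℕ) : ℝ) ^ (-s) := by
      linarith
    have h7 : d' / w * Real.log (1 / (s - 1)) - (K + 1) / w =
        (d' * Real.log (1 / (s - 1)) - (K + 1)) / w := by ring
    rw [h7, div_le_iff₀ hw]
    linarith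

/-- `O(1)`-form of Q-CYC. -/
theorem cycBound_h993 (hSum : CycSumStatement) (hCount : CycCountStatement)
    (L : Type) [Field L] [NumberField L] [IsGalois ℚ L] (m : ℕ) (ζ : L) (hm : 0 < m)
    (hζ : IsPrimitiveRoot ζ m) (g : L ≃ₐ[ℚ] L) (hfaith : ∀ k : ℕ, (g ^ k) ζ = ζ → g ^ k = 1) :
    ∃ K : ℝ, ∀ s : ℝ, 1 < s → s ≤ 2 → ∃ T : Finset ℕ, (∀ p ∈ T, p ∈ frobPrimes L g) ∧
      classDensity L g * Real.log (1 / (s - 1)) - K ≤ ∑ p ∈ T, (p : ℝ) ^ (-s) := by
  classical
  have : NeZero m := ⟨hm.ne'⟩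
  obtain ⟨C, hC⟩ := hSum L m ζ hζ g hfaith
  obtain ⟨B, hB⟩ := hCount L m ζ hζ g hfaith
  set a : ZMod m := ((hζ.autToPow ℚ g : (ZMod m)ˣ) : ZMod m) with ha
  set c : ℕ → ℕ := fun p =>
    primeCount (IntermediateField.fixedField (Subgroup.zpowers g)) p with hc
  set n : ℕ := orderOf g with hn
  set cg : ℕ := Nat.card (conjugatesOf g) with hcg
  set G : ℕ := Nat.card (L ≃ₐ[ℚ] L) with hG
  have hnpos : 0 < n := orderOf_pos g
  have hcgpos : 0 < cg := by
    have : Nonempty (conjugatesOf g) := ⟨⟨g, mem_conjugatesOf_self⟩⟩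
    exact Nat.card_pos
  have hGpos : 0 < G := Nat.card_pos
  have hnR : (0 : ℝ) < n := by exact_mod_cast hnpos
  have hcgR : (0 : ℝ) < cg := by exact_mod_cast hcgpos
  have hGR : (0 : ℝ) < G := by exact_mod_cast hGpos
  set w : ℝ := (G : ℝ) / ((n : ℝ) * (cg : ℝ)) with hw
  have hwpos : 0 < w := div_pos hGR (mul_pos hnR hcgR)
  set f : ℝ → Nat.Primes → ℝ := fun s p =>
    if ((p : ℕ) : ZMod m) = a ∧ (p : ℕ) ∉ B then (c p : ℝ) * ((p : ℕ) : ℝ) ^ (-s) else 0 with hf
  set g₀ : ℝ → Nat.Primes → ℝ := fun s p =>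
    if ((p : ℕ) : ZMod m) = a then (c p : ℝ) * ((p : ℕ) : ℝ) ^ (-s) else 0 with hg₀
  set h₀ : Nat.Primes → ℝ := fun p => if (p : ℕ) ∈ B then (c p : ℝ) else 0 with hh₀
  have hterm_nonneg : ∀ (s : ℝ) (p : Nat.Primes), 0 ≤ (c p : ℝ) * ((p : ℕ) : ℝ) ^ (-s) :=
    fun s p => mul_nonneg (Nat.cast_nonneg _) (rpow_neg_nonneg _ _)
  have hh₀sum : Summable h₀ := by
    apply summable_of_finset_support_h993 B
    intro p hp
    simp only [hh₀, if_neg hp]
  have hfsum : ∀ s : ℝ, 1 < s → s ≤ 2 → Summable (f s) := by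
    intro s h1 h2
    refine Summable.of_nonneg_of_le (fun p => ?_) (fun p => ?_) (hC s h1 h2).1
    · simp only [hf]
      split_ifs
      · exact hterm_nonneg s p
      · exact le_rfl
    · simp only [hf]
      split_ifs
      · exact le_rfl
      · exact hterm_nonneg s p
  have hg₀sum : ∀ s : ℝ, 1 < s → s ≤ 2 → Summable (g₀ s) := by
    intro s h1 h2
    refine Summable.of_nonneg_of_le (fun p => ?_) (fun p => ?_) (hC s h1 h2).1
    · simp only [hg₀]
      split_ifs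
      · exact hterm_nonneg s p
      · exact le_rfl
    · simp only [hg₀]
      split_ifs
      · exact le_rfl
      · exact hterm_nonneg s p
  have hdens : (n : ℝ)⁻¹ / w = classDensity L g := by
    rw [hw, classDensity, ← hcg, ← hG]
    field_simp
  rw [← hdens]
  refine ⟨(C + ∑' p, h₀ p + 1) / w, ?_⟩
  refine exists_finset_of_tsum_h993 (X := frobPrimes L g) (d' := (n : ℝ)⁻¹) (w := w)
    (K := C + ∑' p, h₀ p) hwpos f hfsum ?_ ?_ ?_
  · intro s h1 h2 p
    simp only [hf]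
    split_ifs with hcond
    · by_cases hcp : c p = 0
      · rw [hcp, Nat.cast_zero, zero_mul]
        exact mul_nonneg hwpos.le (rpow_neg_nonneg _ _)
      · have h3 := (hB p p.2 hcond.2 hcond.1 hcp).2
        have h4 : (c p : ℝ) * (n : ℝ) * (cg : ℝ) ≤ (G : ℝ) := by exact_mod_cast h3
        have h5 : (c p : ℝ) ≤ w := by
          rw [hw, le_div_iff₀ (mul_pos hnR hcgR)]
          linarith
        exact mul_le_mul_of_nonneg_right h5 (rpow_neg_nonneg _ _)
    · exact mul_nonneg hwpos.le (rpow_neg_nonneg _ _)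
  · intro s h1 h2 p hp
    simp only [hf]
    split_ifs with hcond
    · by_cases hcp : c p = 0
      · rw [hcp, Nat.cast_zero, zero_mul]
      · exact absurd (hB p p.2 hcond.2 hcond.1 hcp).1 hp
    · exact le_rfl
  · intro s h1 h2
    have h3 := (hC s h1 h2).2
    have hspos : 0 < s := by linarith
    have h4 : ∀ p : Nat.Primes, g₀ s p ≤ f s p + h₀ p := by
      intro p
      simp only [hg₀, hf, hh₀]
      by_cases hpa : ((p : ℕ) : ZMod m) = a
      · by_cases hpB : (p : ℕ) ∈ B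
        · rw [if_pos hpa, if_neg (fun h => h.2 hpB), if_pos hpB, zero_add]
          calc (c p : ℝ) * ((p : ℕ) : ℝ) ^ (-s) ≤ (c p : ℝ) * 1 :=
                mul_le_mul_of_nonneg_left (rpow_neg_le_one _ hspos) (Nat.cast_nonneg _)
            _ = (c p : ℝ) := mul_one _
        · rw [if_pos hpa, if_pos ⟨hpa, hpB⟩, if_neg hpB, add_zero]
      · rw [if_neg hpa, if_neg (fun h => hpa h.1)]
        split_ifs
        · simp
        · simp
    have h5 : ∑' p, g₀ s p ≤ ∑' p, (f s p + h₀ p) :=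
      (hg₀sum s h1 h2).tsum_le_tsum h4 ((hfsum s h1 h2).add hh₀sum)
    rw [(hfsum s h1 h2).tsum_add hh₀sum] at h5
    have h6 : ∑' p, g₀ s p = ∑' p : Nat.Primes,
        if ((p : ℕ) : ZMod m) = ((hζ.autToPow ℚ g : (ZMod m)ˣ) : ZMod m)
          then (primeCount (IntermediateField.fixedField (Subgroup.zpowers g)) p : ℝ) *
            ((p : ℕ) : ℝ) ^ (-s)
          else 0 := rfl
    rw [h6] at h5
    linarith

/-- Q-CYC in helper968's `O(1)`/centralizer shape. -/
theorem cycDensity968_of (hSum : CycSumStatement) (hCount : CycCountStatement) :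
    Fermat.Agent.Lib.ChebQ.Spec.CycDensityStatement := by
  intro L _ _ _ m ζ hm hζ g hfaith
  obtain ⟨K, hK⟩ := cycBound_h993 hSum hCount L m ζ hm hζ g hfaith
  refine ⟨K, fun s h1 h2 => ?_⟩
  obtain ⟨T, hT, hsum⟩ := hK s h1 h2
  refine ⟨T, fun p hp => hT p hp, ?_⟩
  rw [← classDensity_eq_inv_h993]
  exact hsum

/-- helper968's finite-level statement gives `SpecQ.ChebDensityFiniteStatement`. -/
theorem chebDensityFinite_of_968 (h : Fermat.Agent.Lib.ChebQ.Spec.ChebDensityStatement) :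
    ChebDensityFiniteStatement := by
  intro L _ _ _ g
  apply hasLowerDensity_of_forall_lt
  intro d' hd'
  obtain ⟨K, hK⟩ := h L g (classDensity L g - d') (by linarith)
  apply hasLowerDensity_of_bound (K := K)
  intro s h1 h2
  obtain ⟨T, hT, hsum⟩ := hK s h1 h2
  refine ⟨T, fun p hp => hT (Finset.mem_coe.mpr hp), ?_⟩
  rw [← classDensity_eq_inv_h993] at hsum
  have : classDensity L g - (classDensity L g - d') = d' := by ring
  rw [this] at hsum
  exact hsum

/-- helper968's client statement (Deligne–Serre Lemma 8.4 input) from `SpecQ.ChebDensityStatement`. -/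
theorem client968_of (h : ChebDensityStatement) :
    Fermat.Agent.Lib.ChebQ.Spec.ChebDensityClientStatement := by
  intro G _ _ ρ hρ C _ X η hX hmem
  obtain ⟨E, hE, hker⟩ := hρ
  have h1 := h G ρ E hE hker C ∅
  obtain ⟨K, hK⟩ := hX
  have hsub : frobPrimesHom ρ C ∅ ⊆ X := by
    rintro p ⟨hp, -, A, τ, hA, hτ, -, hC⟩
    exact hmem p A τ hp hA hτ hC
  have h2 := (h1.mono hsub).le_of_bound (u := η) (K := K)
    (fun s hs1 hs2 T hT => hK s hs1 hs2 T (fun p hp => hT p (Finset.mem_coe.mp hp)))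
  have hpos : (0 : ℝ) < (Nat.card ↥(Set.range ρ) : ℝ) := by
    have : Nonempty ↥(Set.range ρ) := ⟨⟨1, ⟨1, map_one ρ⟩⟩⟩
    exact_mod_cast (Nat.card_pos : 0 < Nat.card ↥(Set.range ρ))
  rwa [div_le_iff₀ hpos] at h2

end Fermat.Agent.Lib.Cheb.H993

end
-- ===== PACK-END Lib/Cheb/H993/QAdapt.lean

-- ===== PACK-BEGIN S48/H888/CycloN.lean
section


/-!
# S48 / Tower A1, piece LAYER-A' (helper888), part 1: the mod `N` cyclotomic character

`cycloN N : G_ℚ →* (ZMod N)ˣ` for an arbitrary modulus `N ≠ 0`, with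

* `cycloN_spec`     : `σ t = t ^ (cycloN N σ).val` for every `t` with `t ^ N = 1`;
* `cycloN_eq_one_of_fixes` : `σ` fixes the `N`-th roots of unity `⟹ cycloN N σ = 1`;
* `cycloN_eq_one_of_mem_inertia` : trivial on inertia at every place over `p ∤ N`;
* `cycloN_frobenius` : `cycloN N τ = p` for a Frobenius element `τ` at a place over `p ∤ N`.

(The landed `ExtCitation.cycloChar p` / `S55.Bridge` / `S29.H872.Cyclo` treat prime moduli only.)
-/

set_option autoImplicit false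

namespace Fermat.Agent.S48.H888

open Fermat.Agent.S55.Bridge Fermat.Agent.S29.H872

/-- The absolute Galois group of `ℚ`. -/
abbrev GalQ : Type := AlgebraicClosure ℚ ≃ₐ[ℚ] AlgebraicClosure ℚ

section valuation

variable {A : ValuationSubring (AlgebraicClosure ℚ)}

/-- A natural number prime to `p` is a unit at every place over `p`. -/
theorem val_natCast_eq_one_of_coprime {p n : ℕ} (hp : A.LiesOverPrime p)
    (hcop : Nat.Coprime p n) : A.valuation (n : AlgebraicClosure ℚ) = 1 := by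
  have hq' : A.valuation (p : AlgebraicClosure ℚ) < 1 := (A.mem_nonunits_iff).mp hp
  have hcop' : IsCoprime (p : ℤ) (n : ℤ) := by
    rw [Int.isCoprime_iff_gcd_eq_one, Int.gcd_natCast_natCast]
    exact hcop
  obtain ⟨u, w, huw⟩ := hcop'
  have h1 : (u : AlgebraicClosure ℚ) * (p : AlgebraicClosure ℚ)
      + (w : AlgebraicClosure ℚ) * (n : AlgebraicClosure ℚ) = 1 := by
    exact_mod_cast congrArg (Int.cast : ℤ → AlgebraicClosure ℚ) huw
  have hsmall : A.valuation ((u : AlgebraicClosure ℚ) * (p : AlgebraicClosure ℚ)) < 1 := by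
    rw [map_mul]
    exact (mul_le_of_le_one_left' (val_intCast_le_one u)).trans_lt hq'
  have hwn : A.valuation ((w : AlgebraicClosure ℚ) * (n : AlgebraicClosure ℚ)) = 1 := by
    have : (w : AlgebraicClosure ℚ) * (n : AlgebraicClosure ℚ)
        = 1 + -((u : AlgebraicClosure ℚ) * (p : AlgebraicClosure ℚ)) := by linear_combination h1
    rw [this, (A.valuation).map_add_eq_of_lt_left
      (by rw [Valuation.map_neg, map_one]; exact hsmall), map_one]
  rw [map_mul] at hwn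
  have hp1 : A.valuation (n : AlgebraicClosure ℚ) ≤ 1 := by
    have := val_intCast_le_one (A := A) (n : ℤ)
    rwa [Int.cast_natCast] at this
  refine le_antisymm hp1 ?_
  calc (1 : A.ValueGroup)
      = A.valuation (w : AlgebraicClosure ℚ) * A.valuation (n : AlgebraicClosure ℚ) := hwn.symm
    _ ≤ 1 * A.valuation (n : AlgebraicClosure ℚ) := mul_le_mul_left (val_intCast_le_one w) _
    _ = A.valuation (n : AlgebraicClosure ℚ) := one_mul _

theorem val_le_one_of_pow_eq_one {n : ℕ} (hn : n ≠ 0) {t : AlgebraicClosure ℚ}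
    (ht : t ^ n = 1) : A.valuation t ≤ 1 := by
  have h : (A.valuation t) ^ n = 1 := by rw [← map_pow, ht, map_one]
  exact ((pow_eq_one_iff.1 h).resolve_right hn).le

end valuation

section cyclo

variable (N : ℕ) [NeZero N]

theorem card_rootsOfUnity_Qbar :
    Nat.card (rootsOfUnity N (AlgebraicClosure ℚ)) = N :=
  IsAlgClosed.card_rootsOfUnity_eq (AlgebraicClosure ℚ) N

/-- The mod `N` cyclotomic character of `G_ℚ`. -/
noncomputable def cycloN : GalQ →* (ZMod N)ˣ :=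
  MonoidHom.mk'
    (fun σ => modularCyclotomicCharacter (AlgebraicClosure ℚ) (card_rootsOfUnity_Qbar N)
      (σ : AlgebraicClosure ℚ ≃+* AlgebraicClosure ℚ))
    (fun a b => by rw [← map_mul]; congr 1)

/-- Defining property of `cycloN`, unit form. -/
theorem cycloN_spec_unit (σ : GalQ) {t : (AlgebraicClosure ℚ)ˣ}
    (ht : t ∈ rootsOfUnity N (AlgebraicClosure ℚ)) :
    σ (t : AlgebraicClosure ℚ)
      = (t : AlgebraicClosure ℚ) ^ ((cycloN N σ : (ZMod N)ˣ) : ZMod N).val :=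
  modularCyclotomicCharacter.spec (AlgebraicClosure ℚ) (card_rootsOfUnity_Qbar N)
    (σ : AlgebraicClosure ℚ ≃+* AlgebraicClosure ℚ) ht

/-- An element with `t ^ N = 1`, as a unit in `rootsOfUnity N`. -/
theorem exists_unit_of_pow_eq_one {t : AlgebraicClosure ℚ} (ht : t ^ N = 1) :
    ∃ u : (AlgebraicClosure ℚ)ˣ, u ∈ rootsOfUnity N (AlgebraicClosure ℚ) ∧
      (u : AlgebraicClosure ℚ) = t := by
  have ht0 : t ≠ 0 := by
    rintro rfl
    rw [zero_pow (NeZero.ne N)] at ht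
    exact zero_ne_one ht
  refine ⟨Units.mk0 t ht0, ?_, rfl⟩
  rw [mem_rootsOfUnity]
  apply Units.ext
  rw [Units.val_pow_eq_pow_val, Units.val_mk0, ht, Units.val_one]

/-- Defining property of `cycloN`. -/
theorem cycloN_spec (σ : GalQ) {t : AlgebraicClosure ℚ} (ht : t ^ N = 1) :
    σ t = t ^ ((cycloN N σ : (ZMod N)ˣ) : ZMod N).val := by
  obtain ⟨u, hu, rfl⟩ := exists_unit_of_pow_eq_one N ht
  exact cycloN_spec_unit N σ hu

/-- Uniqueness: if `σ t = t ^ m` on all `N`-th roots of unity then `cycloN N σ = m`. -/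
theorem cycloN_eq_of_forall_pow (σ : GalQ) (m : ℕ)
    (h : ∀ t : AlgebraicClosure ℚ, t ^ N = 1 → σ t = t ^ m) :
    ((cycloN N σ : (ZMod N)ˣ) : ZMod N) = (m : ZMod N) := by
  have h' := modularCyclotomicCharacter.unique (AlgebraicClosure ℚ) (card_rootsOfUnity_Qbar N)
    (σ : AlgebraicClosure ℚ ≃+* AlgebraicClosure ℚ) (c := (m : ZMod N))
    (fun t ht => by
      have htN : (t : AlgebraicClosure ℚ) ^ N = 1 := by
        have := (mem_rootsOfUnity N t).1 ht
        rw [← Units.val_pow_eq_pow_val, this, Units.val_one]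
      have e : (t : AlgebraicClosure ℚ) ^ (m : ZMod N).val = (t : AlgebraicClosure ℚ) ^ m := by
        rw [ZMod.val_natCast]
        conv_rhs => rw [← Nat.div_add_mod m N]
        rw [pow_add, pow_mul, htN, one_pow, one_mul]
      rw [e]
      exact h _ htN)
  exact h'.symm

/-- If `σ` fixes all `N`-th roots of unity then `cycloN N σ = 1`. -/
theorem cycloN_eq_one_of_fixes (σ : GalQ)
    (hσ : ∀ t : AlgebraicClosure ℚ, t ^ N = 1 → σ t = t) : cycloN N σ = 1 := by
  apply Units.ext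
  rw [cycloN_eq_of_forall_pow N σ 1 (fun t ht => by rw [pow_one]; exact hσ t ht)]
  simp

/-- The mod `N` cyclotomic character is unramified at every prime `p ∤ N`. -/
theorem cycloN_eq_one_of_mem_inertia {p : ℕ} (hp : p.Prime) (hpN : ¬ p ∣ N)
    (A : ValuationSubring (AlgebraicClosure ℚ)) (hA : A.LiesOverPrime p)
    (σ : GalQ) (hσ : σ ∈ A.inertiaSubgroupIn ℚ) : cycloN N σ = 1 := by
  apply cycloN_eq_one_of_fixes
  intro t htp
  by_contra hne
  have hpv := val_natCast_eq_one_of_coprime (A := A) hA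
    ((Nat.Prime.coprime_iff_not_dvd hp).2 hpN)
  have hσt : (σ t) ^ N = 1 := by rw [← map_pow, htp, map_one]
  have h1 := val_sub_roots_eq_one (A := A) (NeZero.ne N) hpv hσt htp hne
  have h2 := inertia_val_sub_lt_one A hσ t (val_le_one_of_pow_eq_one (NeZero.ne N) htp)
  rw [h1] at h2
  exact lt_irrefl _ h2

/-- A Frobenius element at a place over `p ∤ N` raises `N`-th roots of unity to the `p`-th
power. -/
theorem frob_rootN_eq_pow {p : ℕ} (hp : p.Prime) (hpN : ¬ p ∣ N)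
    (A : ValuationSubring (AlgebraicClosure ℚ)) (hA : A.LiesOverPrime p)
    (τ : GalQ) (hτ : A.IsFrobeniusAt τ p) {t : AlgebraicClosure ℚ} (htp : t ^ N = 1) :
    τ t = t ^ p := by
  by_contra hne
  have hpv := val_natCast_eq_one_of_coprime (A := A) hA
    ((Nat.Prime.coprime_iff_not_dvd hp).2 hpN)
  have hσt : (τ t) ^ N = 1 := by rw [← map_pow, htp, map_one]
  have htl : (t ^ p) ^ N = 1 := by rw [← pow_mul, mul_comm, pow_mul, htp, one_pow]
  have h1 := val_sub_roots_eq_one (A := A) (NeZero.ne N) hpv hσt htl hne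
  have h2 := frob_val_sub_lt_one A hτ t (val_le_one_of_pow_eq_one (NeZero.ne N) htp)
  rw [h1] at h2
  exact lt_irrefl _ h2

/-- **Cyclotomic character at Frobenius.**  For `p ∤ N` and a Frobenius element `τ` at a place
over `p`, `cycloN N τ = p`. -/
theorem cycloN_frobenius {p : ℕ} (hp : p.Prime) (hpN : ¬ p ∣ N)
    (A : ValuationSubring (AlgebraicClosure ℚ)) (hA : A.LiesOverPrime p)
    (τ : GalQ) (hτ : A.IsFrobeniusAt τ p) :
    ((cycloN N τ : (ZMod N)ˣ) : ZMod N) = (p : ZMod N) :=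
  cycloN_eq_of_forall_pow N τ p (fun _ ht => frob_rootN_eq_pow N hp hpN A hA τ hτ ht)

end cyclo

end Fermat.Agent.S48.H888

end
-- ===== PACK-END S48/H888/CycloN.lean

-- ===== PACK-BEGIN S48/H888/GalChar.lean
section



/-!
# S48 / Tower A1, piece LAYER-A' (helper888), part 2: the Galois character of a Dirichlet character

For `ε : DirichletCharacter ℂ N` and a ring homomorphism `φ : ℤ̄ → F` the character
`galChar ε φ : G_ℚ →* F`, `σ ↦ φ (ε (cycloN N σ))`:

* `galChar_eq_one_of_fixes`       : trivial on `Gal(ℚ̄ / ℚ(μ_N))`;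
* `galChar_eq_one_of_mem_inertia` : trivial on inertia at every place over `p ∤ N`;
* `galChar_frobenius`             : `galChar ε φ τ = φ e` for a Frobenius `τ` at a place over
  `p ∤ N` and every `e : ℤ̄` with `(e : ℂ) = ε p`.
-/

set_option autoImplicit false

namespace Fermat.Agent.S48.H888

open Fermat.Agent.S48.Top

variable {N : ℕ} [NeZero N]

/-- The values of a Dirichlet character are algebraic integers. -/
theorem isIntegral_dirichlet (ε : DirichletCharacter ℂ N) (a : ZMod N) : IsIntegral ℤ (ε a) := by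
  by_cases ha : IsUnit a
  · obtain ⟨u, rfl⟩ := ha
    have hcard : 0 < Fintype.card (ZMod N)ˣ := Fintype.card_pos
    have h1 : ε (u : ZMod N) ^ Fintype.card (ZMod N)ˣ = 1 := by
      rw [← map_pow, ← Units.val_pow_eq_pow_val, pow_card_eq_one, Units.val_one, map_one]
    exact IsIntegral.of_pow hcard (by rw [h1]; exact isIntegral_one)
  · rw [MulChar.map_nonunit ε ha]
    exact isIntegral_zero

/-- The value `ε a` as an algebraic integer. -/
noncomputable def dirichletZbar (ε : DirichletCharacter ℂ N) (a : ZMod N) : Zbar :=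
  ⟨ε a, isIntegral_dirichlet ε a⟩

@[simp] theorem coe_dirichletZbar (ε : DirichletCharacter ℂ N) (a : ZMod N) :
    ((dirichletZbar ε a : Zbar) : ℂ) = ε a := rfl

theorem dirichletZbar_eq (ε : DirichletCharacter ℂ N) (a : ZMod N) {e : Zbar}
    (he : (e : ℂ) = ε a) : dirichletZbar ε a = e :=
  Subtype.ext he.symm

variable {F : Type*} [Field F]

/-- `u ↦ φ (ε u)` as a monoid homomorphism on `(ZMod N)ˣ`. -/
noncomputable def dirichletUnitHom (ε : DirichletCharacter ℂ N) (φ : Zbar →+* F) :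
    (ZMod N)ˣ →* F where
  toFun u := φ (dirichletZbar ε (u : ZMod N))
  map_one' := by
    have : dirichletZbar ε ((1 : (ZMod N)ˣ) : ZMod N) = 1 :=
      Subtype.ext (by simp)
    rw [this, map_one]
  map_mul' u v := by
    have : dirichletZbar ε ((u * v : (ZMod N)ˣ) : ZMod N)
        = dirichletZbar ε (u : ZMod N) * dirichletZbar ε (v : ZMod N) :=
      Subtype.ext (by simp)
    rw [this, map_mul]

/-- The Galois character `σ ↦ φ (ε (χ_N σ))` attached to the Dirichlet character `ε`. -/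
noncomputable def galChar (ε : DirichletCharacter ℂ N) (φ : Zbar →+* F) : GalQ →* F :=
  (dirichletUnitHom ε φ).comp (cycloN N)

theorem galChar_apply (ε : DirichletCharacter ℂ N) (φ : Zbar →+* F) (σ : GalQ) :
    galChar ε φ σ = φ (dirichletZbar ε ((cycloN N σ : (ZMod N)ˣ) : ZMod N)) := rfl

/-- `galChar ε φ` is trivial on automorphisms fixing the `N`-th roots of unity. -/
theorem galChar_eq_one_of_fixes (ε : DirichletCharacter ℂ N) (φ : Zbar →+* F) (σ : GalQ)
    (hσ : ∀ t : AlgebraicClosure ℚ, t ^ N = 1 → σ t = t) : galChar ε φ σ = 1 := by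
  unfold galChar
  rw [MonoidHom.comp_apply, cycloN_eq_one_of_fixes N σ hσ, map_one]

/-- `galChar ε φ` is unramified at every prime `p ∤ N`. -/
theorem galChar_eq_one_of_mem_inertia (ε : DirichletCharacter ℂ N) (φ : Zbar →+* F)
    {p : ℕ} (hp : p.Prime) (hpN : ¬ p ∣ N)
    (A : ValuationSubring (AlgebraicClosure ℚ)) (hA : A.LiesOverPrime p)
    (σ : GalQ) (hσ : σ ∈ A.inertiaSubgroupIn ℚ) : galChar ε φ σ = 1 := by
  unfold galChar
  rw [MonoidHom.comp_apply, cycloN_eq_one_of_mem_inertia N hp hpN A hA σ hσ, map_one]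

/-- `galChar ε φ (Frob_p) = φ (ε p)` for `p ∤ N`. -/
theorem galChar_frobenius (ε : DirichletCharacter ℂ N) (φ : Zbar →+* F)
    {p : ℕ} (hp : p.Prime) (hpN : ¬ p ∣ N)
    (A : ValuationSubring (AlgebraicClosure ℚ)) (hA : A.LiesOverPrime p)
    (τ : GalQ) (hτ : A.IsFrobeniusAt τ p) {e : Zbar} (he : (e : ℂ) = ε (p : ZMod N)) :
    galChar ε φ τ = φ e := by
  rw [galChar_apply, cycloN_frobenius N hp hpN A hA τ hτ, dirichletZbar_eq ε _ he]

/-- The finite set of `N`-th roots of unity in `ℚ̄`. -/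
noncomputable def rootsFinset (N : ℕ) : Finset (AlgebraicClosure ℚ) :=
  Polynomial.nthRootsFinset N (1 : AlgebraicClosure ℚ)

theorem mem_rootsFinset {t : AlgebraicClosure ℚ} (ht : t ^ N = 1) : t ∈ rootsFinset N :=
  (Polynomial.mem_nthRootsFinset (Nat.pos_of_ne_zero (NeZero.ne N)) 1).2 ht

/-- Finite-level form: `galChar ε φ σ = 1` as soon as `σ` fixes the finite set `rootsFinset N`. -/
theorem galChar_eq_one_of_fixes_finset (ε : DirichletCharacter ℂ N) (φ : Zbar →+* F) (σ : GalQ)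
    (hσ : ∀ t ∈ rootsFinset N, σ t = t) : galChar ε φ σ = 1 :=
  galChar_eq_one_of_fixes ε φ σ (fun t ht => hσ t (mem_rootsFinset ht))

end Fermat.Agent.S48.H888

end
-- ===== PACK-END S48/H888/GalChar.lean

-- ===== PACK-BEGIN S29/H872/Cheb.lean
section



/-!
# `WeakCheb` holds (from the landed Frobenius division theorem), and S29 from MOD alone
-/

set_option autoImplicit false

namespace Fermat.Agent.S29.H872

/-- The weak Chebotarev hypothesis of `Glue.lean` follows from the Frobenius division theorem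
`Fermat.Agent.Lib.Cheb.frobeniusDivision`. -/
theorem weakCheb : WeakCheb := by
  intro s σ S
  have hint : ∀ x ∈ (s : Set (AlgebraicClosure ℚ)), IsIntegral ℚ x := fun x _ =>
    (AlgebraicClosure.isAlgebraic ℚ).isIntegral.isIntegral x
  have hfd : FiniteDimensional ℚ (IntermediateField.adjoin ℚ (s : Set (AlgebraicClosure ℚ))) :=
    IntermediateField.finiteDimensional_adjoin hint
  obtain ⟨ℓ, A, τ, k, j, hℓ, hℓS, hA, hτ, -, -, hj⟩ :=
    Fermat.Agent.Lib.Cheb.frobeniusDivision _ hfd σ S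
  exact ⟨ℓ, A, τ, j, hℓ, hℓS, hA, hτ, fun x hx =>
    hj x (IntermediateField.subset_adjoin ℚ _ hx)⟩

/-- **S29 from MOD.** The frozen conclusion of S29 follows from the existence of the
Eichler–Shimura module `ModHyp g p ψ` over algebraically closed fields of characteristic `p`. -/
theorem result_of_mod
    {N : ℕ} {g : CuspForm (CongruenceSubgroup.Gamma0 N) 2}
    {p : ℕ} (hp : p.Prime) {k : Type} [Field k] [CharP k p]
    (φ : integralClosure ℤ ℂ →+* k)
    (hMod : N ≠ 0 → ∀ (F : Type) [Field F] [IsAlgClosed F] [CharP F p]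
      (ψ : integralClosure ℤ ℂ →+* F), ModHyp g p ψ) :
    ∃ ρ : ResidualGaloisRep k, ρ.IsAttachedTo g φ ∧
      ∀ ℓ : ℕ, ℓ.Prime → ¬ ℓ ∣ N * p → ρ.IsUnramifiedAt ℓ :=
  result_of_module hp φ weakCheb hMod

end Fermat.Agent.S29.H872

end
-- ===== PACK-END S29/H872/Cheb.lean

-- ===== PACK-BEGIN S48/H888/LayerA.lean
section




/-!
# S48 / Tower A1, piece LAYER-A' (helper888), part 3: from a Galois module to `ResidualStatement`

Layer A of row S29 (`S29/H872`, helper872) with the cyclotomic determinant replaced by an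
arbitrary determinant character, then specialised to the Galois character of a Dirichlet
character.

* `exists_residualGaloisRep_of_module_det` : abstract glue (determinant `d : G_ℚ →* F`).
* `ModHyp1 ε f ℓ ψ`        : the module hypothesis (finite-dimensional form);
* `HasFrobModule1 ε f ℓ ψ` : the module hypothesis (smooth form, as produced by a torsion module);
* `residual_of_modHyp`     : one prime `ℓ`, any field `k` of characteristic `ℓ`;
* `residualStatement_of_modHyp`, `residualStatement_of_frobModule` :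
  `ModStatement → Top.ResidualStatement`, `FrobModuleStatement → Top.ResidualStatement`.

So Tower A1 only has to produce, for every large `ℓ`, every algebraically closed field `F` of
characteristic `ℓ` and every `ψ : ℤ̄ → F`, a NONZERO smooth `F[G_ℚ]`-module, unramified outside
`N ℓ`, on which every Frobenius element at `p ∤ N ℓ` satisfies `σ² - ψ(a_p) σ + ψ(ε(p)) = 0`.
-/

set_option autoImplicit false

namespace Fermat.Agent.S48.H888

open Polynomial Fermat.Agent.S48.Top Fermat.Agent.S29.H872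

/-- **Glue with an arbitrary determinant character.**  `F` algebraically closed, `M` a nonzero
finite dimensional `F[G_ℚ]`-module of finite level, unramified outside `S`; `d : G_ℚ →* F` a
character of finite level, unramified outside `S`, with `d (Frob_ℓ) = e ℓ`; every Frobenius at
`ℓ ∉ S` satisfies `σ² - c(ℓ) σ + e(ℓ) = 0` on `M`.  Then there is a `ResidualGaloisRep F`,
unramified outside `S`, with `charpoly (ρ Frob_ℓ) = X² - c(ℓ) X + e(ℓ)`. -/
theorem exists_residualGaloisRep_of_module_det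
    {F : Type} [Field F] [IsAlgClosed F]
    {M : Type} [AddCommGroup M] [Module F M] [FiniteDimensional F M] [Nontrivial M]
    (r : GalQ →* Module.End F M) (hfin : GaloisFactorsThroughFiniteLevel r)
    (d : GalQ →* F) (s₁ : Finset (AlgebraicClosure ℚ))
    (hdlevel : ∀ σ : GalQ, (∀ t ∈ s₁, σ t = t) → d σ = 1)
    (S : Finset ℕ) (c e : ℕ → F)
    (hunr : ∀ ℓ : ℕ, ℓ.Prime → ℓ ∉ S → ∀ A : ValuationSubring (AlgebraicClosure ℚ),
      A.LiesOverPrime ℓ → ∀ σ ∈ A.inertiaSubgroupIn ℚ, r σ = 1)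
    (hdunr : ∀ ℓ : ℕ, ℓ.Prime → ℓ ∉ S → ∀ A : ValuationSubring (AlgebraicClosure ℚ),
      A.LiesOverPrime ℓ → ∀ σ ∈ A.inertiaSubgroupIn ℚ, d σ = 1)
    (hdfrob : ∀ ℓ : ℕ, ℓ.Prime → ℓ ∉ S → ∀ A : ValuationSubring (AlgebraicClosure ℚ),
      A.LiesOverPrime ℓ → ∀ σ : GalQ, A.IsFrobeniusAt σ ℓ → d σ = e ℓ)
    (hES : ∀ ℓ : ℕ, ℓ.Prime → ℓ ∉ S → ∀ A : ValuationSubring (AlgebraicClosure ℚ),
      A.LiesOverPrime ℓ → ∀ σ : GalQ, A.IsFrobeniusAt σ ℓ →
        r σ * r σ = c ℓ • r σ - e ℓ • 1)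
    (hCheb : WeakCheb) :
    ∃ ρ : ResidualGaloisRep F,
      (∀ ℓ : ℕ, ℓ.Prime → ℓ ∉ S → ρ.IsUnramifiedAt ℓ) ∧
      ∀ ℓ : ℕ, ℓ.Prime → ℓ ∉ S → ∀ A : ValuationSubring (AlgebraicClosure ℚ),
        A.LiesOverPrime ℓ → ∀ σ : GalQ, A.IsFrobeniusAt σ ℓ →
          LinearMap.charpoly (ρ.ρ σ) = X ^ 2 - C (c ℓ) * X + C (e ℓ) := by
  classical
  obtain ⟨L₀, hL₀fd, hL₀⟩ := hfin
  have := hL₀fd
  obtain ⟨s₀, hs₀⟩ := exists_finset_level L₀
  -- the quadratic relation for every element of the Galois group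
  have hall : ∀ σ : GalQ, ∃ a' : F, r σ * r σ = a' • r σ - d σ • 1 := by
    intro σ
    obtain ⟨q, A, τ, j, hq, hqS, hA, hτ, hagree⟩ := hCheb (s₀ ∪ s₁) σ S
    have h0 : ∀ x ∈ L₀, (τ ^ j) x = σ x :=
      hs₀ _ _ (fun x hx => hagree x (Finset.mem_union_left _ hx))
    have hfix : ∀ x : AlgebraicClosure ℚ, (τ ^ j) x = σ x → (σ⁻¹ * τ ^ j) x = x := by
      intro x hx
      rw [AlgEquiv.mul_apply, hx]
      exact σ.symm_apply_apply x
    have hr : r σ = r τ ^ j := by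
      have h1 : r (σ⁻¹ * τ ^ j) = 1 := hL₀ _ (fun x hx => hfix x (h0 x hx))
      have h2 : r σ * r (σ⁻¹ * τ ^ j) = r τ ^ j := by
        rw [← map_mul, mul_inv_cancel_left, map_pow]
      rw [h1, mul_one] at h2
      exact h2
    have hd : d σ = d τ ^ j := by
      have h1 : d (σ⁻¹ * τ ^ j) = 1 :=
        hdlevel _ (fun t ht => hfix t (hagree t (Finset.mem_union_right _ ht)))
      have h2 : d σ * d (σ⁻¹ * τ ^ j) = d τ ^ j := by
        rw [← map_mul, mul_inv_cancel_left, map_pow]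
      rw [h1, mul_one] at h2
      exact h2
    have hτrel := hES q hq hqS A hA τ hτ
    have hdτ : d τ = e q := hdfrob q hq hqS A hA τ hτ
    obtain ⟨a', ha'⟩ := exists_pow_rel hτrel j
    exact ⟨a', by rw [hr, hd, hdτ]; exact ha'⟩
  choose a ha using hall
  obtain ⟨V, iA, iM, iFin, ρ, hfr, htriv, hchar⟩ := exists_two_dim r d a ha
  -- the level of `ρ`
  have hint : ∀ x ∈ (s₁ : Set (AlgebraicClosure ℚ)), IsIntegral ℚ x := fun x _ =>
    (AlgebraicClosure.isAlgebraic ℚ).isIntegral.isIntegral x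
  have : FiniteDimensional ℚ (IntermediateField.adjoin ℚ (s₁ : Set (AlgebraicClosure ℚ))) :=
    IntermediateField.finiteDimensional_adjoin hint
  have hlevel : GaloisFactorsThroughFiniteLevel ρ := by
    refine ⟨L₀ ⊔ IntermediateField.adjoin ℚ (s₁ : Set (AlgebraicClosure ℚ)), inferInstance,
      fun σ hσ => htriv σ (hL₀ σ fun x hx => hσ x ?_) (hdlevel σ fun t ht => hσ t ?_)⟩
    · exact (le_sup_left : L₀ ≤ _) hx
    · exact (le_sup_right : IntermediateField.adjoin ℚ (s₁ : Set (AlgebraicClosure ℚ)) ≤ _)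
        (IntermediateField.subset_adjoin ℚ _ ht)
  refine ⟨@ResidualGaloisRep.mk F _ V iA iM hfr ρ hlevel, ?_, ?_⟩
  · intro ℓ hℓ hℓS A hA σ hσ
    exact htriv σ (hunr ℓ hℓ hℓS A hA σ hσ) (hdunr ℓ hℓ hℓS A hA σ hσ)
  · intro ℓ hℓ hℓS A hA σ hσ
    have hdσ : d σ = e ℓ := hdfrob ℓ hℓ hℓS A hA σ hσ
    have h := hchar σ (c ℓ) (by rw [hdσ]; exact hES ℓ hℓ hℓS A hA σ hσ)
    rw [hdσ] at h
    exact h

/-! ### The module hypotheses -/

section hyp

variable {N : ℕ} [NeZero N]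

/-- **MOD₁, finite-dimensional form.**  A nonzero finite dimensional `F[G_ℚ]`-module of finite
level, unramified outside `N ℓ`, on which every Frobenius element at `p ∤ N ℓ` satisfies
`σ² - ψ(a_p) σ + ψ(ε(p)) = 0`. -/
def ModHyp1 (ε : DirichletCharacter ℂ N) (f : CuspForm (CongruenceSubgroup.Gamma1 N) 1) (ℓ : ℕ)
    {F : Type} [Field F] (ψ : Zbar →+* F) : Prop :=
  ∃ (M : Type) (_ : AddCommGroup M) (_ : Module F M) (_ : FiniteDimensional F M)
    (_ : Nontrivial M) (r : GalQ →* Module.End F M),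
    GaloisFactorsThroughFiniteLevel r ∧
    (∀ p : ℕ, p.Prime → ¬ p ∣ N * ℓ → ∀ A : ValuationSubring (AlgebraicClosure ℚ),
      A.LiesOverPrime p → ∀ σ ∈ A.inertiaSubgroupIn ℚ, r σ = 1) ∧
    (∀ p : ℕ, p.Prime → ¬ p ∣ N * ℓ →
      ∃ a e : Zbar, (a : ℂ) = ModularFormClass.qCoeff f p ∧ (e : ℂ) = ε (p : ZMod N) ∧
        ∀ A : ValuationSubring (AlgebraicClosure ℚ), A.LiesOverPrime p →
          ∀ σ : GalQ, A.IsFrobeniusAt σ p → r σ * r σ = ψ a • r σ - ψ e • 1)

/-- **MOD₁, smooth form** (the output of a torsion-module layer).  A nonzero smooth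
`F[G_ℚ]`-module, unramified outside `N ℓ`, on which every Frobenius element at `p ∤ N ℓ`
satisfies `σ² x - ψ(a_p) σ x + ψ(ε(p)) x = 0`. -/
def HasFrobModule1 (ε : DirichletCharacter ℂ N) (f : CuspForm (CongruenceSubgroup.Gamma1 N) 1)
    (ℓ : ℕ) {F : Type} [Field F] (ψ : Zbar →+* F) : Prop :=
  ∃ (M : Type) (_ : AddCommGroup M) (_ : Module F M) (ρ : GalQ →* Module.End F M),
    Nontrivial M ∧ Fermat.Agent.S29.IsSmoothRep ρ ∧ Fermat.Agent.S29.IsUnramOutside ρ (N * ℓ) ∧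
    (∀ p : ℕ, p.Prime → ¬ p ∣ N * ℓ →
      ∃ a e : Zbar, (a : ℂ) = ModularFormClass.qCoeff f p ∧ (e : ℂ) = ε (p : ZMod N) ∧
        ∀ A : ValuationSubring (AlgebraicClosure ℚ), A.LiesOverPrime p →
          ∀ σ : GalQ, A.IsFrobeniusAt σ p → ∀ x : M,
            ρ σ (ρ σ x) - ψ a • ρ σ x + ψ e • x = 0)

omit [NeZero N] in
/-- The smooth form implies the finite-dimensional form. -/
theorem modHyp1_of_hasFrobModule1 {ε : DirichletCharacter ℂ N}
    {f : CuspForm (CongruenceSubgroup.Gamma1 N) 1} {ℓ : ℕ} {F : Type} [Field F]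
    {ψ : Zbar →+* F} (h : HasFrobModule1 ε f ℓ ψ) : ModHyp1 ε f ℓ ψ := by
  obtain ⟨M, _, _, ρ, hnt, hsm, hur, hfq⟩ := h
  obtain ⟨W, hW0, hWfin, hWst, L, hL, hLfix⟩ :=
    Fermat.Agent.S29.exists_finite_stable_submodule ρ hsm
  let r : GalQ →* Module.End F W :=
    { toFun := fun σ => (ρ σ).restrict (hWst σ)
      map_one' := by
        ext x
        simp
      map_mul' := fun σ τ => by
        ext x
        simp [LinearMap.restrict_apply] }
  have hr : ∀ (σ : GalQ) (x : W), ((r σ x : W) : M) = ρ σ (x : M) := fun _ _ => rfl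
  have : Nontrivial W := (Submodule.nontrivial_iff_ne_bot).mpr hW0
  refine ⟨W, inferInstance, inferInstance, hWfin, inferInstance, r, ⟨L, hL, ?_⟩, ?_, ?_⟩
  · intro σ hσ
    ext x
    rw [hr, hLfix σ hσ x x.2]
    rfl
  · intro p hp hS A hA σ hσ
    ext x
    rw [hr, hur p hp hS A hA σ hσ]
    rfl
  · intro p hp hS
    obtain ⟨a, e, ha, he, hrel⟩ := hfq p hp hS
    refine ⟨a, e, ha, he, fun A hA σ hσ => ?_⟩
    have h0 := hrel A hA σ hσ
    ext x
    have h1 := h0 (x : M)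
    simp only [LinearMap.sub_apply, Module.End.mul_apply, LinearMap.smul_apply,
      Module.End.one_apply, Submodule.coe_sub, Submodule.coe_smul, hr]
    rw [sub_add_eq_add_sub, sub_eq_zero] at h1
    rw [eq_sub_iff_add_eq, h1]

end hyp

/-! ### From the module to the residual representation -/

section final

variable {N : ℕ} [NeZero N]

/-- **One prime, algebraically closed coefficients, general form.** -/
theorem residual_of_modHyp_field (ε : DirichletCharacter ℂ N)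
    (f : CuspForm (CongruenceSubgroup.Gamma1 N) 1) {ℓ : ℕ} (hℓ : ℓ.Prime)
    {k : Type} [Field k] (φ : Zbar →+* k)
    {F : Type} [Field F] [IsAlgClosed F] (ψ : Zbar →+* F) (ι : F →+* k)
    (hι : ∀ a, ι (ψ a) = φ a) (hMod : ModHyp1 ε f ℓ ψ) :
    ∃ ρ : ResidualGaloisRep k,
      ∀ p : ℕ, p.Prime → ¬ p ∣ N * ℓ → ρ.IsUnramifiedAt p ∧
        ∀ A : ValuationSubring (AlgebraicClosure ℚ), A.LiesOverPrime p →
          ∀ σ : GalQ, A.IsFrobeniusAt σ p →
            ∃ a e : Zbar, (a : ℂ) = ModularFormClass.qCoeff f p ∧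
              (e : ℂ) = ε (p : ZMod N) ∧
              LinearMap.charpoly (ρ.ρ σ) =
                Polynomial.X ^ 2 - Polynomial.C (φ a) * Polynomial.X + Polynomial.C (φ e) := by
  classical
  obtain ⟨M, iA, iM, iFD, iNT, r, hfin, hunr, hES⟩ := hMod
  have hNℓ : N * ℓ ≠ 0 := Nat.mul_ne_zero (NeZero.ne N) hℓ.ne_zero
  let S : Finset ℕ := (N * ℓ).primeFactors
  have hS : ∀ p : ℕ, p.Prime → (p ∉ S ↔ ¬ p ∣ N * ℓ) := fun p hp => by
    simp only [S, Nat.mem_primeFactors, not_and, not_not]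
    constructor
    · intro h hd
      exact hNℓ (h hp hd)
    · intro h _ hd
      exact absurd hd h
  have hSN : ∀ p : ℕ, ¬ p ∣ N * ℓ → ¬ p ∣ N := fun p h hd => h (Dvd.dvd.mul_right hd ℓ)
  let c : ℕ → F := fun p =>
    if h : ∃ a : Zbar, (a : ℂ) = ModularFormClass.qCoeff f p then ψ h.choose else 0
  have hc : ∀ (p : ℕ) (a : Zbar), (a : ℂ) = ModularFormClass.qCoeff f p → c p = ψ a := by
    intro p a ha
    have h : ∃ a : Zbar, (a : ℂ) = ModularFormClass.qCoeff f p := ⟨a, ha⟩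
    simp only [c, dif_pos h]
    congr 1
    exact Subtype.ext (h.choose_spec.trans ha.symm)
  let e : ℕ → F := fun p => ψ (dirichletZbar ε (p : ZMod N))
  have he : ∀ (p : ℕ) (b : Zbar), (b : ℂ) = ε (p : ZMod N) → e p = ψ b := by
    intro p b hb
    simp only [e]
    rw [dirichletZbar_eq ε _ hb]
  obtain ⟨ρ₀, hρunr, hρchar⟩ := exists_residualGaloisRep_of_module_det r hfin
    (galChar ε ψ) (rootsFinset N) (galChar_eq_one_of_fixes_finset ε ψ) S c e
    (fun p hp hpS => hunr p hp ((hS p hp).1 hpS))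
    (fun p hp hpS A hA σ hσ =>
      galChar_eq_one_of_mem_inertia ε ψ hp (hSN p ((hS p hp).1 hpS)) A hA σ hσ)
    (fun p hp hpS A hA σ hσ =>
      galChar_frobenius ε ψ hp (hSN p ((hS p hp).1 hpS)) A hA σ hσ rfl)
    (fun p hp hpS A hA σ hσ => by
      obtain ⟨a, b, ha, hb, hrel⟩ := hES p hp ((hS p hp).1 hpS)
      rw [hc p a ha, he p b hb]
      exact hrel A hA σ hσ) weakCheb
  refine ⟨ρ₀.baseChangeAlong ι, fun p hp hpS => ⟨?_, ?_⟩⟩
  · intro A hA σ hσ
    have h := hρunr p hp ((hS p hp).2 hpS) A hA σ hσ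
    let _ : Algebra F k := ι.toAlgebra
    change (ρ₀.ρ σ).baseChange k = 1
    rw [h, LinearMap.baseChange_one]
  · intro A hA σ hσ
    obtain ⟨a, b, ha, hb, -⟩ := hES p hp hpS
    refine ⟨a, b, ha, hb, ?_⟩
    have h := hρchar p hp ((hS p hp).2 hpS) A hA σ hσ
    rw [hc p a ha, he p b hb] at h
    let _ : Algebra F k := ι.toAlgebra
    change LinearMap.charpoly ((ρ₀.ρ σ).baseChange k) = _
    rw [LinearMap.charpoly_baseChange, h]
    simp only [Polynomial.map_add, Polynomial.map_sub, Polynomial.map_mul, Polynomial.map_pow,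
      Polynomial.map_X, Polynomial.map_C]
    rw [show (algebraMap F k) (ψ a) = φ a from hι a, show (algebraMap F k) (ψ b) = φ b from hι b]

/-- **One prime `ℓ`, any field `k` of characteristic `ℓ`.** -/
theorem residual_of_modHyp (ε : DirichletCharacter ℂ N)
    (f : CuspForm (CongruenceSubgroup.Gamma1 N) 1) {ℓ : ℕ} (hℓ : ℓ.Prime)
    {k : Type} [Field k] [CharP k ℓ] (φ : Zbar →+* k)
    (hMod : ∀ (F : Type) [Field F] [IsAlgClosed F] [CharP F ℓ] (ψ : Zbar →+* F),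
      ModHyp1 ε f ℓ ψ) :
    ∃ ρ : ResidualGaloisRep k,
      ∀ p : ℕ, p.Prime → ¬ p ∣ N * ℓ → ρ.IsUnramifiedAt p ∧
        ∀ A : ValuationSubring (AlgebraicClosure ℚ), A.LiesOverPrime p →
          ∀ σ : GalQ, A.IsFrobeniusAt σ p →
            ∃ a e : Zbar, (a : ℂ) = ModularFormClass.qCoeff f p ∧
              (e : ℂ) = ε (p : ZMod N) ∧
              LinearMap.charpoly (ρ.ρ σ) =
                Polynomial.X ^ 2 - Polynomial.C (φ a) * Polynomial.X + Polynomial.C (φ e) := by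
  have := isAlgClosed_imageField hℓ φ
  have hchar : CharP (imageField hℓ φ) ℓ :=
    (imageField hℓ φ).subtype.charP (imageField hℓ φ).subtype.injective ℓ
  exact residual_of_modHyp_field ε f hℓ φ (toImageField hℓ φ) (imageField hℓ φ).subtype
    (fun a => coe_toImageField hℓ φ a) (hMod _ _)

end final

/-! ### The statements consumed / produced by the row -/

/-- **MOD (finite-dimensional form)**: what a Tower-A1 construction has to deliver. -/
def ModStatement : Prop :=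
  ∀ (N : ℕ) [NeZero N] (ε : DirichletCharacter ℂ N) (f : CuspForm (CongruenceSubgroup.Gamma1 N) 1),
    IsEigen N ε f → ∃ B : ℕ, ∀ ℓ : ℕ, ℓ.Prime → B < ℓ →
      ∀ (F : Type) [Field F] [IsAlgClosed F] [CharP F ℓ] (ψ : Zbar →+* F), ModHyp1 ε f ℓ ψ

/-- **MOD (smooth form)**: what a Tower-A1 torsion-module layer has to deliver. -/
def FrobModuleStatement : Prop :=
  ∀ (N : ℕ) [NeZero N] (ε : DirichletCharacter ℂ N) (f : CuspForm (CongruenceSubgroup.Gamma1 N) 1),
    IsEigen N ε f → ∃ B : ℕ, ∀ ℓ : ℕ, ℓ.Prime → B < ℓ →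
      ∀ (F : Type) [Field F] [IsAlgClosed F] [CharP F ℓ] (ψ : Zbar →+* F),
        HasFrobModule1 ε f ℓ ψ

/-- **LAYER A'**: `ModStatement → Top.ResidualStatement`. -/
theorem residualStatement_of_modHyp (h : ModStatement) : ResidualStatement := by
  intro N _ ε f hf
  obtain ⟨B, hB⟩ := h N ε f hf
  refine ⟨B, fun ℓ hℓ hBℓ k _ _ φ => ?_⟩
  exact residual_of_modHyp ε f hℓ φ (fun F _ _ _ ψ => hB ℓ hℓ hBℓ F ψ)

/-- **LAYER A'**: `FrobModuleStatement → Top.ResidualStatement`. -/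
theorem residualStatement_of_frobModule (h : FrobModuleStatement) : ResidualStatement :=
  residualStatement_of_modHyp (fun N _ ε f hf => by
    obtain ⟨B, hB⟩ := h N ε f hf
    exact ⟨B, fun ℓ hℓ hBℓ F _ _ _ ψ => modHyp1_of_hasFrobModule1 (hB ℓ hℓ hBℓ F ψ)⟩)

end Fermat.Agent.S48.H888

end
-- ===== PACK-END S48/H888/LayerA.lean

-- ===== PACK-BEGIN S48/H888/MAsm.lean
section



/-!
# S48 / Tower A1 (helper888): abstract assembly of layer M with diamond operators

Port of `S29/H42/MAsm.lean` (helper42) to the nebentypus situation.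

Input: an abelian group `A` (in the application: the `ℓ`-torsion of the Jacobian of `X₁(M)` or of
an intermediate curve `X_H`) with a `G_ℚ`-action and two families of operators `T p`, `D p`
(Hecke and diamond operators) commuting with the Galois action, such that

* every element has an open stabiliser,
* inertia at `p ∤ S` acts trivially,
* every Frobenius at `p ∤ S` satisfies `σ² x - T_p (σ x) + p · D_p x = 0`,
* there is a nonzero simultaneous eigenvector `v ∈ F ⊗ A` with `T_p v = a p • v`,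
  `D_p v = δ p • v`, where `p · δ p = e p` in `F`.

Output: `HasFrobModuleDet F S a e`, hence (with `a p = ψ a_p`, `e p = ψ (ε p)`)
`HasFrobModule1 ε f ℓ ψ` and, through LAYER-A', `Top.ResidualStatement`.
-/

set_option autoImplicit false

noncomputable section

open TensorProduct

namespace Fermat.Agent.S48.H888

open Fermat.Agent.S29 Fermat.Agent.S29.H42 Fermat.Agent.S48.Top

/-- A nonzero smooth `F[G_ℚ]`-module, unramified outside `S`, on which every Frobenius element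
at `p ∤ S` satisfies `σ² x - a p • σ x + e p • x = 0`. -/
def HasFrobModuleDet (F : Type) [Field F] (S : ℕ) (a e : ℕ → F) : Prop :=
  ∃ (M : Type) (_ : AddCommGroup M) (_ : Module F M) (ρ : GalQ →* Module.End F M),
    Nontrivial M ∧ IsSmoothRep ρ ∧ IsUnramOutside ρ S ∧
    ∀ p : ℕ, p.Prime → ¬ p ∣ S → ∀ A : ValuationSubring (AlgebraicClosure ℚ),
      A.LiesOverPrime p → ∀ σ : GalQ, A.IsFrobeniusAt σ p → ∀ x : M,
        ρ σ (ρ σ x) - a p • ρ σ x + e p • x = 0

section asm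

variable {F : Type} [Field F] {A : Type} [AddCommGroup A] [DistribMulAction GalQ A]

variable (F) in
/-- The simultaneous eigenspace of the operators `T p`, `D p` (`p` prime, `p ∤ S`). -/
def eigenSub2 (S : ℕ) (a δ : ℕ → F) (T D : ℕ → Module.End ℤ A) : Submodule F (F ⊗[ℤ] A) :=
  eigenSub F S a T ⊓ eigenSub F S δ D

theorem tensorRep_mem_eigenSub2 {S : ℕ} {a δ : ℕ → F} {T D : ℕ → Module.End ℤ A}
    (hT : ∀ (p : ℕ) (σ : GalQ) (x : A), T p (σ • x) = σ • T p x)
    (hD : ∀ (p : ℕ) (σ : GalQ) (x : A), D p (σ • x) = σ • D p x) (σ : GalQ)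
    {v : F ⊗[ℤ] A} (hv : v ∈ eigenSub2 F S a δ T D) :
    tensorRep F A σ v ∈ eigenSub2 F S a δ T D :=
  ⟨tensorRep_mem_eigenSub hT σ hv.1, tensorRep_mem_eigenSub hD σ hv.2⟩

/-- The representation on the simultaneous eigenspace. -/
def eigenRep2 (S : ℕ) (a δ : ℕ → F) (T D : ℕ → Module.End ℤ A)
    (hT : ∀ (p : ℕ) (σ : GalQ) (x : A), T p (σ • x) = σ • T p x)
    (hD : ∀ (p : ℕ) (σ : GalQ) (x : A), D p (σ • x) = σ • D p x) :
    GalQ →* Module.End F (eigenSub2 F S a δ T D) where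
  toFun σ := (tensorRep F A σ).restrict fun _ hv => tensorRep_mem_eigenSub2 hT hD σ hv
  map_one' := by
    ext v
    simp
  map_mul' σ τ := by
    ext v
    simp

@[simp] theorem coe_eigenRep2_apply (S : ℕ) (a δ : ℕ → F) (T D : ℕ → Module.End ℤ A)
    (hT : ∀ (p : ℕ) (σ : GalQ) (x : A), T p (σ • x) = σ • T p x)
    (hD : ∀ (p : ℕ) (σ : GalQ) (x : A), D p (σ • x) = σ • D p x) (σ : GalQ)
    (v : eigenSub2 F S a δ T D) :
    ((eigenRep2 S a δ T D hT hD σ v : eigenSub2 F S a δ T D) : F ⊗[ℤ] A)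
      = tensorRep F A σ v := rfl

/-- The relation `σ² - T σ + p D = 0` passes to `F ⊗ A`. -/
theorem tensorRep_quadratic2 {T D : Module.End ℤ A} (σ : GalQ) (p : ℕ)
    (h : ∀ x : A, σ • σ • x - T (σ • x) + (p : ℤ) • D x = 0) (v : F ⊗[ℤ] A) :
    tensorRep F A σ (tensorRep F A σ v) - T.baseChange F (tensorRep F A σ v)
      + (p : F) • D.baseChange F v = 0 := by
  induction v using TensorProduct.induction_on with
  | zero => simp
  | tmul f x =>
      simp only [tensorRep_tmul, LinearMap.baseChange_tmul]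
      have h1 : (p : F) • (f ⊗ₜ[ℤ] D x) = f ⊗ₜ[ℤ] ((p : ℤ) • D x) := by
        calc (p : F) • (f ⊗ₜ[ℤ] D x) = ((p : F) • f) ⊗ₜ[ℤ] D x := TensorProduct.smul_tmul' _ _ _
          _ = ((p : ℤ) • f) ⊗ₜ[ℤ] D x := by
              congr 1
              simp [zsmul_eq_mul]
          _ = f ⊗ₜ[ℤ] ((p : ℤ) • D x) := TensorProduct.smul_tmul _ _ _
      rw [h1, ← TensorProduct.tmul_sub, ← TensorProduct.tmul_add, h x, TensorProduct.tmul_zero]
  | add v w hv hw =>
      have : tensorRep F A σ (tensorRep F A σ (v + w)) - T.baseChange F (tensorRep F A σ (v + w))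
          + (p : F) • D.baseChange F (v + w)
          = (tensorRep F A σ (tensorRep F A σ v) - T.baseChange F (tensorRep F A σ v)
              + (p : F) • D.baseChange F v)
            + (tensorRep F A σ (tensorRep F A σ w) - T.baseChange F (tensorRep F A σ w)
              + (p : F) • D.baseChange F w) := by
        simp only [map_add, smul_add]
        abel
      rw [this, hv, hw, add_zero]

/-- **Abstract assembly of layer M with diamond operators.** -/
theorem hasFrobModuleDet_of_eigenvector (S : ℕ) (a δ e : ℕ → F) (T D : ℕ → Module.End ℤ A)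
    (hT : ∀ (p : ℕ) (σ : GalQ) (x : A), T p (σ • x) = σ • T p x)
    (hD : ∀ (p : ℕ) (σ : GalQ) (x : A), D p (σ • x) = σ • D p x)
    (hsmooth : ∀ x : A, ∃ L : IntermediateField ℚ (AlgebraicClosure ℚ), FiniteDimensional ℚ L ∧
      ∀ σ : GalQ, (∀ y ∈ L, σ y = y) → σ • x = x)
    (hunr : ∀ p : ℕ, p.Prime → ¬ p ∣ S → ∀ V : ValuationSubring (AlgebraicClosure ℚ),
      V.LiesOverPrime p → ∀ σ ∈ V.inertiaSubgroupIn ℚ, ∀ x : A, σ • x = x)
    (hfrob : ∀ p : ℕ, p.Prime → ¬ p ∣ S → ∀ V : ValuationSubring (AlgebraicClosure ℚ),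
      V.LiesOverPrime p → ∀ σ : GalQ, V.IsFrobeniusAt σ p →
        ∀ x : A, σ • σ • x - T p (σ • x) + (p : ℤ) • D p x = 0)
    (he : ∀ p : ℕ, p.Prime → ¬ p ∣ S → (p : F) * δ p = e p)
    (hocc : ∃ v : F ⊗[ℤ] A, v ≠ 0 ∧ ∀ p : ℕ, p.Prime → ¬ p ∣ S →
      (T p).baseChange F v = a p • v ∧ (D p).baseChange F v = δ p • v) :
    HasFrobModuleDet F S a e := by
  obtain ⟨v, hv0, hv⟩ := hocc
  have hvmem : v ∈ eigenSub2 F S a δ T D :=
    ⟨fun p hp hS => (hv p hp hS).1, fun p hp hS => (hv p hp hS).2⟩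
  refine ⟨eigenSub2 F S a δ T D, inferInstance, inferInstance, eigenRep2 S a δ T D hT hD,
    ?_, ?_, ?_, ?_⟩
  · exact ⟨⟨⟨v, hvmem⟩, 0, fun h => hv0 (congrArg Subtype.val h)⟩⟩
  · intro x
    obtain ⟨L, hL, hfix⟩ := tensorRep_smooth (F := F) hsmooth (x : F ⊗[ℤ] A)
    exact ⟨L, hL, fun σ hσ => Subtype.ext (hfix σ hσ)⟩
  · intro p hp hS V hV σ hσ
    ext x
    have := tensorRep_eq_one_of_trivial (F := F) σ (hunr p hp hS V hV σ hσ)
    simp [this]
  · intro p hp hS V hV σ hσ x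
    apply Subtype.ext
    have h1 := tensorRep_quadratic2 (F := F) σ p (hfrob p hp hS V hV σ hσ) (x : F ⊗[ℤ] A)
    have h2 := (tensorRep_mem_eigenSub2 hT hD σ x.2).1 p hp hS
    have h3 := x.2.2 p hp hS
    rw [h2, h3, smul_smul, he p hp hS] at h1
    simpa using h1

end asm

/-- From the abstract module to the hypothesis of LAYER-A'. -/
theorem hasFrobModule1_of_det {N : ℕ} [NeZero N] (ε : DirichletCharacter ℂ N)
    (f : CuspForm (CongruenceSubgroup.Gamma1 N) 1) (ℓ : ℕ) {F : Type} [Field F]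
    (ψ : Zbar →+* F) (a e : ℕ → Zbar)
    (ha : ∀ p : ℕ, p.Prime → ¬ p ∣ N * ℓ → ((a p : Zbar) : ℂ) = ModularFormClass.qCoeff f p)
    (he : ∀ p : ℕ, p.Prime → ¬ p ∣ N * ℓ → ((e p : Zbar) : ℂ) = ε (p : ZMod N))
    (h : HasFrobModuleDet F (N * ℓ) (fun p => ψ (a p)) (fun p => ψ (e p))) :
    HasFrobModule1 ε f ℓ ψ := by
  obtain ⟨M, iA, iM, ρ, hnt, hsm, hur, hfq⟩ := h
  exact ⟨M, iA, iM, ρ, hnt, hsm, hur, fun p hp hS =>
    ⟨a p, e p, ha p hp hS, he p hp hS, fun A hA σ hσ x => hfq p hp hS A hA σ hσ x⟩⟩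

end Fermat.Agent.S48.H888

end
end
-- ===== PACK-END S48/H888/MAsm.lean

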