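import Fermat.Prelude.Def_FLTPrelim_Ramification
import Fermat.Prelude.Def_AlgebraicCurve_Correspondence
import Fermat.Agent.Pack.S44C.G0E22L0
import Fermat.Agent.Pack.S44C.G0E2L3
import Fermat.Agent.Pack.S44C.G0E24L0
import Fermat.Agent.Pack.S44C.G0E19L0
import Fermat.Agent.Pack.S44C.G0E2L1
import Fermat.Agent.Pack.L1B.E0L0
import Fermat.Agent.Pack.L1B.E1L0
import Fermat.Agent.Pack.L1B.E2L2
import Fermat.Agent.Pack.L1B.E2L0
import Fermat.Agent.Pack.L1.E10L0

-- ===== PACK-BEGIN S48/H136/ESKG.lean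
section
/-
S48 / Tower A1 (helper136) — piece ESK1, part 1: GENERIC raw Eichler–Shimura, definitions,
integral series and the inertia statement.

Port of `S29/H222` (helper222) from the function field of `X₀(N)` to an ARBITRARY subfield
`F₀ ⊆ ℚ((q))` (`F := laurentBaseChange ℚ̄ F₀`, `J := Pic0 ℚ̄ F` with the Prelude's generic
arithmetic Galois action) and an arbitrary "reduction field" `F_k ⊆ k((q))`, `k = A/𝔪`.

* `IsIntG F₀ A Fk U`   : `U ∈ A((q))` lies in `F`, its reduction lies in `F_k` and is nonzero;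
* `CoreG F₀ A Fk m`    : the Kummer core (= `S18.CoreStatement` for `F₀ = F_N`);
* `PGIG F₀ A Fk`       : principal divisors are generated by divisors of integral series;
* `StableG A Fk`       : `F_k` is stable under coefficientwise ring endomorphisms of `k`;
* `eskG_inertia`       : `CoreG + PGIG + StableG ⟹` inertia at `A` acts trivially on `J[m]`.

Everything is independent of the definition of the curve: it applies verbatim to `X₁(M)`,
`X_H`, `X₀(N)`.
-/


set_option autoImplicit false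
set_option linter.style.haveILetI false

noncomputable section

namespace Fermat.Agent.S48.H136

open ModularCurve AlgebraicCurve HahnSeries IsLocalRing
open Fermat.Agent.S18 (Qb)
open Fermat.Agent.S29.H222 (IsDivOf decA decK galA)

/-! ### Definitions -/

section Defs

variable (F₀ : IntermediateField ℚ (LaurentSeries ℚ)) (A : ValuationSubring Qb)
  (Fk : IntermediateField (ResidueField A) (LaurentSeries (ResidueField A)))

/-- `U ∈ A((q))` lies in `F = ℚ̄ · F₀`, its coefficientwise reduction lies in `F_k` and is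
nonzero. -/
def IsIntG (U : LaurentSeries A) : Prop :=
  coeffMap A.subtype U ∈ laurentBaseChange Qb F₀ ∧
    coeffMap (residue A) U ∈ Fk ∧ coeffMap (residue A) U ≠ 0

variable {F₀ A Fk}

/-- The element of `F` given by an integral series. -/
def toFG {U : LaurentSeries A} (hU : IsIntG F₀ A Fk U) : laurentBaseChange Qb F₀ :=
  ⟨coeffMap A.subtype U, hU.1⟩

variable (F₀ A Fk)

/-- The generic Kummer core: two integral series with the same reduction whose quotient has a
divisor divisible by `m` differ by a constant times an `m`-th power. -/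
def CoreG (m : ℕ) : Prop :=
  ∀ (U₁ U₂ : LaurentSeries A) (h₁ : IsIntG F₀ A Fk U₁) (h₂ : IsIntG F₀ A Fk U₂),
    coeffMap (residue A) U₁ = coeffMap (residue A) U₂ →
    (∀ v : Place Qb (laurentBaseChange Qb F₀),
      (m : ℤ) ∣ v.ord (toFG h₁) - v.ord (toFG h₂)) →
    ∃ (c : Qb) (y : laurentBaseChange Qb F₀), c ≠ 0 ∧ y ≠ 0 ∧
      toFG h₁ = algebraMap Qb (laurentBaseChange Qb F₀) c * y ^ m * toFG h₂

/-- Divisors of integral series. -/
def intPrincipalG : Set (Divisor Qb (laurentBaseChange Qb F₀)) :=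
  {D | ∃ (y : LaurentSeries A) (hy : IsIntG F₀ A Fk y), ∀ P, D P = P.ord (toFG hy)}

/-- Principal divisors are generated by the divisors of integral series. -/
def PGIG : Prop :=
  Divisor.principal (K := Qb) (F := laurentBaseChange Qb F₀) ≤
    AddSubgroup.closure (intPrincipalG F₀ A Fk)

/-- The reduction field is stable under coefficientwise ring endomorphisms of `k`. -/
def StableG : Prop :=
  ∀ (φ : ResidueField A →+* ResidueField A) (x : LaurentSeries (ResidueField A)),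
    x ∈ Fk → coeffMap φ x ∈ Fk

end Defs

variable {F₀ : IntermediateField ℚ (LaurentSeries ℚ)} {A : ValuationSubring Qb}
  {Fk : IntermediateField (ResidueField A) (LaurentSeries (ResidueField A))}

/-! ### Algebra of integral series -/

theorem isIntG_one : IsIntG F₀ A Fk (1 : LaurentSeries A) :=
  ⟨by rw [map_one]; exact one_mem _, by rw [map_one]; exact one_mem _,
    by rw [map_one]; exact one_ne_zero⟩

theorem isIntG_mul {U V : LaurentSeries A} (hU : IsIntG F₀ A Fk U) (hV : IsIntG F₀ A Fk V) :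
    IsIntG F₀ A Fk (U * V) :=
  ⟨by rw [map_mul]; exact mul_mem hU.1 hV.1, by rw [map_mul]; exact mul_mem hU.2.1 hV.2.1,
    by rw [map_mul]; exact mul_ne_zero hU.2.2 hV.2.2⟩

theorem isIntG_pow {U : LaurentSeries A} (hU : IsIntG F₀ A Fk U) (n : ℕ) :
    IsIntG F₀ A Fk (U ^ n) :=
  ⟨by rw [map_pow]; exact pow_mem hU.1 n, by rw [map_pow]; exact pow_mem hU.2.1 n,
    by rw [map_pow]; exact pow_ne_zero n hU.2.2⟩

theorem toFG_ne_zero {U : LaurentSeries A} (hU : IsIntG F₀ A Fk U) : toFG hU ≠ 0 := by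
  intro h0
  have h1 : coeffMap A.subtype U = 0 := congrArg Subtype.val h0
  have h2 : U = 0 :=
    Fermat.Agent.S29.H222.esk_coeffMap_subtype_injective (by rw [h1, map_zero])
  exact hU.2.2 (by rw [h2, map_zero])

@[simp] theorem coe_toFG {U : LaurentSeries A} (hU : IsIntG F₀ A Fk U) :
    ((toFG hU : laurentBaseChange Qb F₀) : LaurentSeries Qb) = coeffMap A.subtype U := rfl

theorem toFG_mul {U V : LaurentSeries A} (hU : IsIntG F₀ A Fk U) (hV : IsIntG F₀ A Fk V) :
    toFG (isIntG_mul hU hV) = toFG hU * toFG hV :=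
  Subtype.ext (map_mul _ _ _)

theorem toFG_pow {U : LaurentSeries A} (hU : IsIntG F₀ A Fk U) (n : ℕ) :
    toFG (isIntG_pow hU n) = toFG hU ^ n :=
  Subtype.ext (map_pow _ _ _)

theorem toFG_one : toFG (isIntG_one (F₀ := F₀) (A := A) (Fk := Fk)) = 1 :=
  Subtype.ext (map_one _)

/-- Two integral series with the same image in `F` are equal. -/
theorem eq_of_toFG_eq {U V : LaurentSeries A} (hU : IsIntG F₀ A Fk U) (hV : IsIntG F₀ A Fk V)
    (h : toFG hU = toFG hV) : U = V :=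
  Fermat.Agent.S29.H222.esk_coeffMap_subtype_injective (congrArg Subtype.val h)

/-! ### The decomposition group acts on integral series -/

theorem isIntG_galA (hst : StableG A Fk) (g : A.decompositionSubgroup ℚ) {U : LaurentSeries A}
    (hU : IsIntG F₀ A Fk U) : IsIntG F₀ A Fk (galA g U) := by
  refine ⟨?_, ?_, ?_⟩
  · rw [Fermat.Agent.S29.H222.coeffMap_subtype_galA]
    exact coeffMap_mem_laurentBaseChange (g : Qb ≃ₐ[ℚ] Qb) hU.1
  · rw [Fermat.Agent.S29.H222.coeffMap_residue_galA]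
    exact hst _ _ hU.2.1
  · rw [Fermat.Agent.S29.H222.coeffMap_residue_galA]
    exact Fermat.Agent.S29.H222.coeffMap_ne_zero_of_injective _
      (Fermat.Agent.S29.H222.decK_injective g) hU.2.2

theorem toFG_galA (hst : StableG A Fk) (g : A.decompositionSubgroup ℚ) {U : LaurentSeries A}
    (hU : IsIntG F₀ A Fk U) :
    toFG (isIntG_galA hst g hU) = arithmeticGalois F₀ (g : Qb ≃ₐ[ℚ] Qb) • toFG hU := by
  apply Subtype.ext
  rw [coe_arithmeticGalois_smul]
  exact Fermat.Agent.S29.H222.coeffMap_subtype_galA g U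

/-! ### Divisors of integral series -/

/-- A principal divisor is the difference of the divisors of two integral series. -/
theorem exists_isIntG_of_principal (hpgi : PGIG F₀ A Fk)
    {D : Divisor Qb (laurentBaseChange Qb F₀)}
    (hD : D ∈ Divisor.principal (K := Qb) (F := laurentBaseChange Qb F₀)) :
    ∃ (U₁ U₂ : LaurentSeries A) (h₁ : IsIntG F₀ A Fk U₁) (h₂ : IsIntG F₀ A Fk U₂)
      (D₁ D₂ : Divisor Qb (laurentBaseChange Qb F₀)),
      IsDivOf (toFG h₁) D₁ ∧ IsDivOf (toFG h₂) D₂ ∧ D = D₁ - D₂ := by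
  have hD' := hpgi hD
  clear hD
  induction hD' using AddSubgroup.closure_induction with
  | mem E hE =>
      obtain ⟨y, hy, hEy⟩ := hE
      refine ⟨y, 1, hy, isIntG_one, E, 0, fun v => hEy v, fun v => ?_, by simp⟩
      rw [toFG_one]
      simp
  | zero =>
      refine ⟨1, 1, isIntG_one, isIntG_one, 0, 0, fun v => ?_, fun v => ?_, by simp⟩ <;>
      · rw [toFG_one]
        simp
  | add E E' _ _ hE hE' =>
      obtain ⟨U₁, U₂, h₁, h₂, D₁, D₂, hd₁, hd₂, rfl⟩ := hE
      obtain ⟨U₁', U₂', h₁', h₂', D₁', D₂', hd₁', hd₂', rfl⟩ := hE'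
      refine ⟨U₁ * U₁', U₂ * U₂', isIntG_mul h₁ h₁', isIntG_mul h₂ h₂', D₁ + D₁', D₂ + D₂',
        ?_, ?_, by abel⟩
      · rw [toFG_mul h₁ h₁']
        exact hd₁.mul (toFG_ne_zero h₁) (toFG_ne_zero h₁') hd₁'
      · rw [toFG_mul h₂ h₂']
        exact hd₂.mul (toFG_ne_zero h₂) (toFG_ne_zero h₂') hd₂'
  | neg E _ hE =>
      obtain ⟨U₁, U₂, h₁, h₂, D₁, D₂, hd₁, hd₂, rfl⟩ := hE
      exact ⟨U₂, U₁, h₂, h₁, D₂, D₁, hd₂, hd₁, by abel⟩

/-- `m`-torsion classes: `m • D` is principal. -/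
theorem smul_mem_principal_of_torsionG {m : ℕ}
    (D : Divisor.degZero (K := Qb) (F := laurentBaseChange Qb F₀))
    (hx : (m : ℤ) • (Pic0.mk D : Pic0 Qb (laurentBaseChange Qb F₀)) = 0) :
    (m : ℤ) • (D : Divisor Qb (laurentBaseChange Qb F₀))
      ∈ Divisor.principal (K := Qb) (F := laurentBaseChange Qb F₀) := by
  have hx' : ((m : ℤ) • D : Divisor.degZero (K := Qb) (F := laurentBaseChange Qb F₀)) ∈
      (Divisor.principal (K := Qb) (F := laurentBaseChange Qb F₀)).addSubgroupOf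
        (Divisor.degZero (K := Qb) (F := laurentBaseChange Qb F₀)) := by
    have : Pic0.mk ((m : ℤ) • D) = 0 := hx
    exact (QuotientAddGroup.eq_zero_iff _).mp this
  rw [AddSubgroup.mem_addSubgroupOf] at hx'
  simpa using hx'

/-- Two classes are equal as soon as the difference of the divisors is the divisor of a
function. -/
theorem pic0_mk_eq_of_isDivOfG
    (D D' : Divisor.degZero (K := Qb) (F := laurentBaseChange Qb F₀))
    {y : laurentBaseChange Qb F₀} (hy : y ≠ 0)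
    (h : IsDivOf (K := Qb) y ((D' : Divisor Qb (laurentBaseChange Qb F₀))
      - (D : Divisor Qb (laurentBaseChange Qb F₀)))) :
    (Pic0.mk D' : Pic0 Qb (laurentBaseChange Qb F₀)) = Pic0.mk D := by
  symm
  refine QuotientAddGroup.eq.mpr ?_
  rw [AddSubgroup.mem_addSubgroupOf]
  refine ⟨y, hy, fun v => ?_⟩
  have := h v
  rw [← this]
  simp [sub_eq_neg_add]

/-- A class is zero as soon as its divisor is the divisor of a function. -/
theorem pic0_mk_eq_zero_of_isDivOfG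
    (D : Divisor.degZero (K := Qb) (F := laurentBaseChange Qb F₀))
    {y : laurentBaseChange Qb F₀} (hy : y ≠ 0)
    (h : IsDivOf (K := Qb) y (D : Divisor Qb (laurentBaseChange Qb F₀))) :
    (Pic0.mk D : Pic0 Qb (laurentBaseChange Qb F₀)) = 0 := by
  refine (QuotientAddGroup.eq_zero_iff _).mpr ?_
  rw [AddSubgroup.mem_addSubgroupOf]
  exact ⟨y, hy, h⟩

theorem galois_smul_mkG (σ : Qb ≃ₐ[ℚ] Qb)
    (D : Divisor.degZero (K := Qb) (F := laurentBaseChange Qb F₀)) :
    σ • (Pic0.mk D : Pic0 Qb (laurentBaseChange Qb F₀))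
      = Pic0.mk (SemilinearAut.degZeroSMulHom (arithmeticGalois F₀ σ) D) := by
  rw [galois_smul_pic0_def, SemilinearAut.pic0_smul_mk]

/-! ### ESK-U: inertia acts trivially -/

/-- **Generic ESK-U.**  Inertia at `A` acts trivially on the `m`-torsion of
`Pic0 ℚ̄ (ℚ̄ · F₀)`. -/
theorem eskG_inertia {m : ℕ} (hm : m ≠ 0) (hcore : CoreG F₀ A Fk m) (hpgi : PGIG F₀ A Fk)
    (hst : StableG A Fk) :
    ∀ τ ∈ A.inertiaSubgroupIn ℚ, ∀ x : Pic0 Qb (laurentBaseChange Qb F₀),
      (m : ℤ) • x = 0 → τ • x = x := by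
  intro τ hτ x hx
  obtain ⟨g, hg, rfl⟩ := hτ
  obtain ⟨D, rfl⟩ := Pic0.mk_surjective x
  obtain ⟨U₁, U₂, h₁, h₂, D₁, D₂, hd₁, hd₂, hDD⟩ :=
    exists_isIntG_of_principal hpgi (smul_mem_principal_of_torsionG D hx)
  set G := arithmeticGalois F₀
    (((A.decompositionSubgroup ℚ).subtype g : Qb ≃ₐ[ℚ] Qb)) with hG
  have hV₁ : IsIntG F₀ A Fk (galA g U₁ * U₂) := isIntG_mul (isIntG_galA hst g h₁) h₂
  have hV₂ : IsIntG F₀ A Fk (U₁ * galA g U₂) := isIntG_mul h₁ (isIntG_galA hst g h₂)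
  have hred : coeffMap (residue A) (galA g U₁ * U₂) = coeffMap (residue A) (U₁ * galA g U₂) := by
    rw [map_mul, map_mul, Fermat.Agent.S29.H222.coeffMap_residue_galA,
      Fermat.Agent.S29.H222.coeffMap_residue_galA,
      Fermat.Agent.S29.H222.coeffMap_decK_of_mem_inertia hg,
      Fermat.Agent.S29.H222.coeffMap_decK_of_mem_inertia hg]
  have hgd₁ : IsDivOf (toFG (isIntG_galA hst g h₁)) (G • D₁) := by
    rw [toFG_galA hst]; exact hd₁.smul G
  have hgd₂ : IsDivOf (toFG (isIntG_galA hst g h₂)) (G • D₂) := by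
    rw [toFG_galA hst]; exact hd₂.smul G
  have hdV₁ : IsDivOf (toFG hV₁) (G • D₁ + D₂) := by
    rw [toFG_mul (isIntG_galA hst g h₁) h₂]
    exact hgd₁.mul (toFG_ne_zero _) (toFG_ne_zero _) hd₂
  have hdV₂ : IsDivOf (toFG hV₂) (D₁ + G • D₂) := by
    rw [toFG_mul h₁ (isIntG_galA hst g h₂)]
    exact hd₁.mul (toFG_ne_zero _) (toFG_ne_zero _) hgd₂
  have hkey : ∀ v : Place Qb (laurentBaseChange Qb F₀),
      (m : ℤ) * (G • (D : Divisor Qb (laurentBaseChange Qb F₀)) - D) v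
        = v.ord (toFG hV₁) - v.ord (toFG hV₂) := by
    intro v
    rw [← hdV₁ v, ← hdV₂ v]
    have e1 : ((m : ℤ) • (D : Divisor Qb (laurentBaseChange Qb F₀))) v = D₁ v - D₂ v := by
      rw [hDD, Finsupp.sub_apply]
    have e2 : ((m : ℤ) • (D : Divisor Qb (laurentBaseChange Qb F₀))) (G⁻¹ • v)
        = D₁ (G⁻¹ • v) - D₂ (G⁻¹ • v) := by
      rw [hDD, Finsupp.sub_apply]
    rw [Finsupp.smul_apply, smul_eq_mul] at e1 e2
    simp only [Finsupp.sub_apply, Finsupp.add_apply, SemilinearAut.divisor_smul_apply]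
    linear_combination e2 - e1
  have hord : ∀ v : Place Qb (laurentBaseChange Qb F₀),
      (m : ℤ) ∣ v.ord (toFG hV₁) - v.ord (toFG hV₂) := fun v => ⟨_, (hkey v).symm⟩
  obtain ⟨c, y, hc, hy, hcy⟩ := hcore _ _ hV₁ hV₂ hred hord
  have hE := Fermat.Agent.S29.H222.isDivOf_of_eq_const_mul_pow hm hc hy (toFG_ne_zero hV₂) hcy hkey
  show (((A.decompositionSubgroup ℚ).subtype g : Qb ≃ₐ[ℚ] Qb))
      • (Pic0.mk D : Pic0 Qb (laurentBaseChange Qb F₀)) = Pic0.mk D
  rw [galois_smul_pic0_def, SemilinearAut.pic0_smul_mk]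
  exact pic0_mk_eq_of_isDivOfG D _ hy hE

end Fermat.Agent.S48.H136

end
end
-- ===== PACK-END S48/H136/ESKG.lean

-- ===== PACK-BEGIN S48/H908/CoreG.lean
section








/-!
# S48 / RES (Tower A1) — piece CORE1, part 1 (helper908): the GENERIC glue `MOD + ALG ⟹ CoreG`

Port of `S18/Mod/Defs.lean` + `S18/H965/{GlueLemmas,Glue}.lean` (helper18, helper965) from the
function field of `X₀(M)` to an ARBITRARY subfield `F₀ ⊆ ℚ((q))` (`Ω := ℚ̄·F₀ = laurentBaseChange ℚ̄ F₀`).

Concrete objects (all sub-objects of `Ω = OmG F₀`):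

* `LcG F₀`        constants `ℚ̄`,
* `EcG F₀ E`      constants from `E`,
* `RcG F₀ A E`    constants from `A ∩ E`,
* `FcG F₀ E`      `E · F₀` (the subfield generated by `E` and the image of `F₀`),
* `VcSetG F₀ A E` the Gauss valuation ring of `FcG F₀ E`: quotients `U₁/U₂` of `E`-rational series
                  `U_i ∈ A((q))` lying in `FcG`, with `U₂ ≢ 0` modulo the maximal ideal of `A`.

`HasGoodFamilyG F₀ A x S` is the MOD deliverable (a directed family of `S18.Alg.GoodModel`s made of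
these concrete models and containing a model over a field `E ∋ T` for every finite `T ⊆ ℚ̄`);
for `F₀ = modularFunctionFieldFull M` it is the conclusion of `S18.Mod.GoodModelStatement`.

Main result: `coreG_of_goodFamily` :
`HasGoodFamilyG F₀ A x S` ⟹ `H136.CoreG F₀ A Fk m` for every prime `m` prime to the residue
characteristic (`Fk` arbitrary), which is the hypothesis `CoreG` of helper136's generic raw
Eichler–Shimura engine (`S48/H136/ESKG.lean`).  ALG = the landed `S18.H438.algMain`.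
-/

set_option autoImplicit false
set_option linter.style.haveILetI false

noncomputable section

namespace Fermat.Agent.S48.H908.Core1

open ModularCurve AlgebraicCurve HahnSeries IsLocalRing
open Fermat.Agent.S18 (Qb)
open Fermat.Agent.S18.Alg
open Fermat.Agent.S48.H136 (IsIntG toFG CoreG)

/-! ### The concrete objects -/

section Defs

variable (F₀ : IntermediateField ℚ (LaurentSeries ℚ))

/-- `Ω = ℚ̄ · F₀`, as a type. -/
abbrev OmG : Type := ↥(laurentBaseChange Qb F₀)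

/-- The constants `ℚ̄ ⊆ Ω`. -/
def LcG : Subfield (OmG F₀) := (algebraMap Qb (OmG F₀)).fieldRange

/-- The constants from `E`. -/
def EcG (E : IntermediateField ℚ Qb) : Subfield (OmG F₀) :=
  E.toSubfield.map (algebraMap Qb (OmG F₀))

/-- The constants from `A ∩ E`. -/
def RcG (A : ValuationSubring Qb) (E : IntermediateField ℚ Qb) : Subring (OmG F₀) :=
  (A.toSubring ⊓ E.toSubfield.toSubring).map (algebraMap Qb (OmG F₀))

/-- The image of `F₀` in `Ω`. -/
def gensG : Set (OmG F₀) := {y | ∃ z ∈ F₀, (y : LaurentSeries Qb) = coeffEmb Qb z}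

/-- `Fc = E · F₀`. -/
def FcG (E : IntermediateField ℚ Qb) : Subfield (OmG F₀) :=
  Subfield.closure ((EcG F₀ E : Set (OmG F₀)) ∪ gensG F₀)

/-- A series over `A` is `E`-rational and lies in `Fc`. -/
def IsIntEG (A : ValuationSubring Qb) (E : IntermediateField ℚ Qb) (U : LaurentSeries A) : Prop :=
  (∀ n : ℤ, ((U.coeff n : A) : Qb) ∈ E) ∧
    ∃ f ∈ FcG F₀ E, (f : LaurentSeries Qb) = coeffMap A.subtype U

/-- The Gauss valuation ring of `Fc`, as a set. -/
def VcSetG (A : ValuationSubring Qb) (E : IntermediateField ℚ Qb) : Set (OmG F₀) :=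
  {f | f ∈ FcG F₀ E ∧ ∃ U₁ U₂ : LaurentSeries A, IsIntEG F₀ A E U₁ ∧ IsIntEG F₀ A E U₂ ∧
    coeffMap (IsLocalRing.residue A) U₂ ≠ 0 ∧
    (f : LaurentSeries Qb) * coeffMap A.subtype U₂ = coeffMap A.subtype U₁}

/-- **MOD deliverable, generic form.**  A directed family of good models for the coordinate `x`
with branch set `S`, containing a concrete model over a field `E ∋ T` for every finite set `T` of
elements of `ℚ̄`. -/
def HasGoodFamilyG (A : ValuationSubring Qb) (x : OmG F₀) (S : Finset (OmG F₀)) : Prop :=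
  ∃ 𝓕 : Set (Model (OmG F₀)), GoodFamily (LcG F₀) x S 𝓕 ∧
    ∀ T : Finset Qb, ∃ (E : IntermediateField ℚ Qb) (V : Subring (OmG F₀)) (w : OmG F₀),
      (∀ a ∈ T, a ∈ E) ∧ (V : Set (OmG F₀)) = VcSetG F₀ A E ∧
      ((EcG F₀ E, FcG F₀ E, RcG F₀ A E, V, w) : Model (OmG F₀)) ∈ 𝓕

end Defs

variable {F₀ : IntermediateField ℚ (LaurentSeries ℚ)} {E : IntermediateField ℚ Qb}

/-! ### Coefficients of elements of `Fc` -/

variable (F₀ E) in
/-- The subfield of `Ω` of series all of whose coefficients lie in `E`. -/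
def coeffFieldG : Subfield (OmG F₀) :=
  ((coeffMap (algebraMap (↥E) Qb)).fieldRange).comap
    (algebraMap (OmG F₀) (LaurentSeries Qb))

theorem coeff_mem_of_mem_coeffFieldG {f : OmG F₀} (hf : f ∈ coeffFieldG F₀ E) (n : ℤ) :
    ((f : LaurentSeries Qb)).coeff n ∈ E := by
  obtain ⟨y, hy⟩ := hf
  have h : (f : LaurentSeries Qb) = coeffMap (algebraMap (↥E) Qb) y := hy.symm
  rw [h, coeffMap_coeff]
  exact (y.coeff n).2

theorem EcG_le_coeffFieldG : EcG F₀ E ≤ coeffFieldG F₀ E := by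
  rintro y ⟨a, ha, rfl⟩
  refine ⟨HahnSeries.single 0 ⟨a, ha⟩, ?_⟩
  rw [coeffMap_single]
  change _ = algebraMap Qb (LaurentSeries Qb) a
  rw [algebraMap_laurentSeries_eq_single]
  rfl

theorem gensG_subset_coeffFieldG : gensG F₀ ⊆ (coeffFieldG F₀ E : Set (OmG F₀)) := by
  rintro y ⟨z, -, hz⟩
  refine ⟨coeffMap (algebraMap ℚ (↥E)) z, ?_⟩
  rw [coeffMap_coeffMap]
  change _ = (y : LaurentSeries Qb)
  rw [hz]
  unfold coeffEmb
  exact coeffMap_congr (RingHom.ext fun c => rfl) _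

theorem FcG_le_coeffFieldG : FcG F₀ E ≤ coeffFieldG F₀ E := by
  unfold FcG
  rw [Subfield.closure_le]
  rintro y (hy | hy)
  · exact EcG_le_coeffFieldG hy
  · exact gensG_subset_coeffFieldG hy

/-- Elements of `FcG F₀ E` have all their `q`-expansion coefficients in `E`. -/
theorem coeff_mem_of_mem_FcG {f : OmG F₀} (hf : f ∈ FcG F₀ E) (n : ℤ) :
    ((f : LaurentSeries Qb)).coeff n ∈ E :=
  coeff_mem_of_mem_coeffFieldG (FcG_le_coeffFieldG hf) n

/-! ### Descent to a number field -/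

theorem EcG_le_FcG : EcG F₀ E ≤ FcG F₀ E := fun _ hy =>
  Subfield.subset_closure (Or.inl hy)

theorem algebraMap_mem_EcG {a : Qb} (ha : a ∈ E) : algebraMap Qb (OmG F₀) a ∈ EcG F₀ E :=
  ⟨a, ha, rfl⟩

theorem algebraMap_mem_FcG {a : Qb} (ha : a ∈ E) : algebraMap Qb (OmG F₀) a ∈ FcG F₀ E :=
  EcG_le_FcG (algebraMap_mem_EcG ha)

/-- The image of `F₀` lies in `FcG F₀ E` for every `E`. -/
theorem exists_mem_FcG_of_mem {z : LaurentSeries ℚ} (hz : z ∈ F₀) :
    ∃ f ∈ FcG F₀ E, (f : LaurentSeries Qb) = coeffEmb Qb z :=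
  ⟨⟨coeffEmb Qb z, coeffEmb_mem_laurentBaseChange Qb hz⟩,
    Subfield.subset_closure (Or.inr ⟨z, hz, rfl⟩), rfl⟩

variable (F₀) in
/-- **Descent.**  Every element of `Ω = ℚ̄·F₀` lies in `FcG F₀ E` as soon as the field `E`
contains a certain finite set of constants. -/
theorem exists_finset_seriesG (x : LaurentSeries Qb) (hx : x ∈ laurentBaseChange Qb F₀) :
    ∃ T : Finset Qb, ∀ E : IntermediateField ℚ Qb, (∀ a ∈ T, a ∈ E) →
      ∃ f ∈ FcG F₀ E, (f : LaurentSeries Qb) = x := by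
  classical
  rw [mem_laurentBaseChange_iff] at hx
  induction hx using Subfield.closure_induction with
  | mem y hy =>
      rcases hy with ⟨a, rfl⟩ | ⟨z, hz, rfl⟩
      · refine ⟨{a}, fun E hE =>
          ⟨algebraMap Qb (OmG F₀) a, algebraMap_mem_FcG (hE a (by simp)), rfl⟩⟩
      · exact ⟨∅, fun E _ => exists_mem_FcG_of_mem hz⟩
  | one => exact ⟨∅, fun E _ => ⟨1, one_mem _, rfl⟩⟩
  | add x y _ _ hx hy =>
      obtain ⟨T₁, h₁⟩ := hx
      obtain ⟨T₂, h₂⟩ := hy
      refine ⟨T₁ ∪ T₂, fun E hE => ?_⟩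
      obtain ⟨f, hf, hfx⟩ := h₁ E (fun a ha => hE a (Finset.mem_union_left _ ha))
      obtain ⟨g, hg, hgy⟩ := h₂ E (fun a ha => hE a (Finset.mem_union_right _ ha))
      exact ⟨f + g, add_mem hf hg, by rw [← hfx, ← hgy]; rfl⟩
  | neg x _ hx =>
      obtain ⟨T₁, h₁⟩ := hx
      refine ⟨T₁, fun E hE => ?_⟩
      obtain ⟨f, hf, hfx⟩ := h₁ E hE
      exact ⟨-f, neg_mem hf, by rw [← hfx]; rfl⟩
  | inv x _ hx =>
      obtain ⟨T₁, h₁⟩ := hx
      refine ⟨T₁, fun E hE => ?_⟩
      obtain ⟨f, hf, hfx⟩ := h₁ E hE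
      exact ⟨f⁻¹, inv_mem hf, by rw [← hfx]; rfl⟩
  | mul x y _ _ hx hy =>
      obtain ⟨T₁, h₁⟩ := hx
      obtain ⟨T₂, h₂⟩ := hy
      refine ⟨T₁ ∪ T₂, fun E hE => ?_⟩
      obtain ⟨f, hf, hfx⟩ := h₁ E (fun a ha => hE a (Finset.mem_union_left _ ha))
      obtain ⟨g, hg, hgy⟩ := h₂ E (fun a ha => hE a (Finset.mem_union_right _ ha))
      exact ⟨f * g, mul_mem hf hg, by rw [← hfx, ← hgy]; rfl⟩

variable (F₀) in
/-- **Descent**, elementwise form. -/
theorem exists_finset_mem_FcG (f : OmG F₀) :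
    ∃ T : Finset Qb, ∀ E : IntermediateField ℚ Qb, (∀ a ∈ T, a ∈ E) → f ∈ FcG F₀ E := by
  obtain ⟨T, hT⟩ := exists_finset_seriesG F₀ (f : LaurentSeries Qb) f.2
  refine ⟨T, fun E hE => ?_⟩
  obtain ⟨g, hg, hgf⟩ := hT E hE
  have : g = f := Subtype.ext hgf
  exact this ▸ hg

/-! ### `m` is a unit of `A ∩ E` -/

theorem natCast_inv_mem_valuationSubringG {ℓ : ℕ} (hℓ : ℓ.Prime) (A : ValuationSubring Qb)
    (hA : A.LiesOverPrime ℓ) {m : ℕ} (hm : ¬ ℓ ∣ m) : ((m : Qb))⁻¹ ∈ A := by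
  have hcop : IsCoprime (ℓ : ℤ) (m : ℤ) :=
    Nat.isCoprime_iff_coprime.mpr ((Nat.Prime.coprime_iff_not_dvd hℓ).mpr hm)
  obtain ⟨a, b, hab⟩ := hcop
  have habQ : (a : Qb) * (ℓ : Qb) + (b : Qb) * (m : Qb) = 1 := by exact_mod_cast hab
  have hℓv : A.valuation (ℓ : Qb) < 1 := (A.mem_nonunits_iff).mp hA
  have hint : ∀ c : ℤ, A.valuation (c : Qb) ≤ 1 := fun c =>
    (A.valuation_le_one_iff _).mpr (intCast_mem A c)
  have hmle : A.valuation (m : Qb) ≤ 1 := (A.valuation_le_one_iff _).mpr (natCast_mem A m)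
  have hmge : ¬ A.valuation (m : Qb) < 1 := by
    intro hlt
    have h1 : A.valuation ((a : Qb) * (ℓ : Qb)) < 1 := by
      rw [map_mul]
      calc A.valuation (a : Qb) * A.valuation (ℓ : Qb) ≤ 1 * A.valuation (ℓ : Qb) :=
            mul_le_mul' (hint a) le_rfl
        _ = A.valuation (ℓ : Qb) := one_mul _
        _ < 1 := hℓv
    have h2 : A.valuation ((b : Qb) * (m : Qb)) < 1 := by
      rw [map_mul]
      calc A.valuation (b : Qb) * A.valuation (m : Qb) ≤ 1 * A.valuation (m : Qb) :=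
            mul_le_mul' (hint b) le_rfl
        _ = A.valuation (m : Qb) := one_mul _
        _ < 1 := hlt
    have h3 : A.valuation ((a : Qb) * (ℓ : Qb) + (b : Qb) * (m : Qb)) < 1 :=
      Valuation.map_add_lt _ h1 h2
    rw [habQ, map_one] at h3
    exact lt_irrefl _ h3
  have hm1 : A.valuation (m : Qb) = 1 := le_antisymm hmle (not_lt.mp hmge)
  rw [← A.valuation_le_one_iff, map_inv₀, hm1, inv_one]

theorem mem_RcG_iff {A : ValuationSubring Qb} {y : OmG F₀} :
    y ∈ RcG F₀ A E ↔ ∃ a : Qb, a ∈ A ∧ a ∈ E ∧ algebraMap Qb (OmG F₀) a = y := by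
  constructor
  · rintro ⟨a, ⟨haA, haE⟩, rfl⟩
    exact ⟨a, haA, haE, rfl⟩
  · rintro ⟨a, haA, haE, rfl⟩
    exact ⟨a, ⟨haA, haE⟩, rfl⟩

theorem natCast_inv_mem_RcG {ℓ : ℕ} (hℓ : ℓ.Prime) (A : ValuationSubring Qb)
    (hA : A.LiesOverPrime ℓ) {m : ℕ} (hm : ¬ ℓ ∣ m) : ((m : OmG F₀))⁻¹ ∈ RcG F₀ A E := by
  rw [mem_RcG_iff]
  refine ⟨((m : Qb))⁻¹, natCast_inv_mem_valuationSubringG hℓ A hA hm,
    inv_mem (natCast_mem E m), ?_⟩
  rw [map_inv₀, map_natCast]

/-! ### The divisor hypothesis in valuation-subring form -/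

theorem exists_unit_twistG {x₀ : OmG F₀} (hx₀ : Transcendental Qb x₀)
    [FiniteDimensional (IntermediateField.adjoin Qb {x₀}) (OmG F₀)]
    {m : ℕ} {f g : OmG F₀} (hf : f ≠ 0) (hg : g ≠ 0)
    (hdiv : ∀ v : Place Qb (laurentBaseChange Qb F₀), (m : ℤ) ∣ v.ord f - v.ord g)
    (O : ValuationSubring (OmG F₀)) (hO : ∀ a ∈ LcG F₀, a ∈ O) :
    ∃ t : OmG F₀, t ≠ 0 ∧ (f / g) * t ^ m ∈ O ∧ ((f / g) * t ^ m)⁻¹ ∈ O := by
  by_cases hO' : O = ⊤
  · subst hO'
    exact ⟨1, one_ne_zero, ValuationSubring.mem_top _, ValuationSubring.mem_top _⟩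
  obtain ⟨v, hv⟩ := Fermat.Agent.Lib.RR.H443.exists_place_eq O
    (fun a => hO _ ⟨a, rfl⟩) hO' hx₀
  obtain ⟨k, hk⟩ := hdiv v
  obtain ⟨π, hπ⟩ := Fermat.Agent.Lib.RR.exists_ord_eq_one v
  have hπ0 : π ≠ 0 := Fermat.Agent.Lib.RR.ne_zero_of_ord_ne_zero v (by rw [hπ]; exact one_ne_zero)
  have ht0 : π ^ (-k) ≠ 0 := zpow_ne_zero _ hπ0
  have hfg : f / g ≠ 0 := div_ne_zero hf hg
  have hord : v.ord ((f / g) * (π ^ (-k)) ^ m) = 0 := by
    rw [v.ord_mul hfg (pow_ne_zero _ ht0), div_eq_mul_inv, v.ord_mul hf (inv_ne_zero hg),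
      v.ord_inv, Fermat.Agent.Lib.RR.ord_pow, v.ord_zpow, hπ]
    have : v.ord f = v.ord g + m * k := by linarith
    rw [this]
    ring
  refine ⟨π ^ (-k), ht0, ?_, ?_⟩
  · rw [← hv]
    exact Fermat.Agent.Lib.RR.mem_of_ord_nonneg v (by rw [hord])
  · rw [← hv]
    exact Fermat.Agent.Lib.RR.mem_of_ord_nonneg v (by rw [v.ord_inv, hord, neg_zero])

/-! ### `u ≡ 1` modulo the uniformiser -/

/-- A series over `ℚ̄` with coefficients in `A` comes from a series over `A`. -/
theorem exists_series_of_coeff_memG (A : ValuationSubring Qb) (x : LaurentSeries Qb)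
    (hx : ∀ n, x.coeff n ∈ A) : ∃ U : LaurentSeries A, coeffMap A.subtype U = x := by
  refine ⟨⟨fun n => ⟨x.coeff n, hx n⟩, x.isPWO_support.mono ?_⟩, ?_⟩
  · intro n hn
    rw [HahnSeries.mem_support]
    intro h0
    exact hn (Subtype.ext h0)
  · ext n
    rfl

section Red

variable {A : ValuationSubring Qb}
  {Fk : IntermediateField (ResidueField A) (LaurentSeries (ResidueField A))}

theorem toFG_ne_zero' {U : LaurentSeries A} (hU : IsIntG F₀ A Fk U) : toFG hU ≠ 0 :=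
  Fermat.Agent.S48.H136.toFG_ne_zero hU

/-- **`u ≡ 1 mod w`.**  If `U₁, U₂` are integral with the same reduction and `toFG U_i ∈ FcG F₀ E`,
then `(U₁/U₂ - 1)/w` lies in the Gauss valuation ring `VcSetG F₀ A E`, for any `w` generating the
maximal ideal of `RcG F₀ A E`. -/
theorem sub_one_mul_inv_mem_VcSetG {U₁ U₂ : LaurentSeries A}
    (h₁ : IsIntG F₀ A Fk U₁) (h₂ : IsIntG F₀ A Fk U₂)
    (hred : coeffMap (IsLocalRing.residue A) U₁ = coeffMap (IsLocalRing.residue A) U₂)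
    (hf₁ : toFG h₁ ∈ FcG F₀ E) (hf₂ : toFG h₂ ∈ FcG F₀ E)
    {w : OmG F₀} (hw : w ∈ RcG F₀ A E)
    (hgen : ∀ r ∈ RcG F₀ A E, r⁻¹ ∉ RcG F₀ A E → r * w⁻¹ ∈ RcG F₀ A E) :
    (toFG h₁ / toFG h₂ - 1) * w⁻¹ ∈ VcSetG F₀ A E := by
  obtain ⟨w', hw'A, hw'E, rfl⟩ := mem_RcG_iff.mp hw
  have hg0 : toFG h₂ ≠ 0 := toFG_ne_zero' h₂
  have hwF : algebraMap Qb (OmG F₀) w' ∈ FcG F₀ E := algebraMap_mem_FcG hw'E
  set f : OmG F₀ := (toFG h₁ - toFG h₂) * (algebraMap Qb (OmG F₀) w')⁻¹ with hf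
  have hfF : f ∈ FcG F₀ E := mul_mem (sub_mem hf₁ hf₂) (inv_mem hwF)
  have huF : (toFG h₁ / toFG h₂ - 1) * (algebraMap Qb (OmG F₀) w')⁻¹ ∈ FcG F₀ E :=
    mul_mem (sub_mem (div_mem hf₁ hf₂) (one_mem _)) (inv_mem hwF)
  -- coefficients of `f`
  have hcoeff : ∀ n : ℤ, (f : LaurentSeries Qb).coeff n
      = ((U₁.coeff n : Qb) - (U₂.coeff n : Qb)) * w'⁻¹ := by
    intro n
    have e1 : (f : LaurentSeries Qb) = (coeffMap A.subtype U₁ - coeffMap A.subtype U₂)
        * (algebraMap Qb (LaurentSeries Qb) w')⁻¹ := rfl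
    rw [e1, ← map_inv₀, algebraMap_laurentSeries_eq_single, HahnSeries.coeff_mul_single_zero,
      HahnSeries.coeff_sub, coeffMap_coeff, coeffMap_coeff]
    rfl
  have hcoeffE : ∀ (U : LaurentSeries A) (hU : IsIntG F₀ A Fk U), toFG hU ∈ FcG F₀ E →
      ∀ n : ℤ, ((U.coeff n : A) : Qb) ∈ E := by
    intro U hU hUF n
    have := coeff_mem_of_mem_FcG hUF n
    rwa [Fermat.Agent.S48.H136.coe_toFG, coeffMap_coeff] at this
  have hcoeffA : ∀ n : ℤ, (f : LaurentSeries Qb).coeff n ∈ A := by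
    intro n
    rw [hcoeff]
    set d : A := U₁.coeff n - U₂.coeff n with hd
    have hdval : ((U₁.coeff n : Qb) - (U₂.coeff n : Qb)) = (d : Qb) := rfl
    rw [hdval]
    have hdE : (d : Qb) ∈ E := sub_mem (hcoeffE U₁ h₁ hf₁ n) (hcoeffE U₂ h₂ hf₂ n)
    have hres : IsLocalRing.residue A d = 0 := by
      have := congrArg (fun x => x.coeff n) hred
      simp only [coeffMap_coeff] at this
      rw [hd, map_sub, this, sub_self]
    have hnu : ¬ IsUnit d := by
      rw [IsLocalRing.residue_eq_zero_iff] at hres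
      exact (IsLocalRing.mem_maximalIdeal _).mp hres
    by_cases hd0 : (d : Qb) = 0
    · rw [hd0, zero_mul]
      exact A.zero_mem
    have hr : algebraMap Qb (OmG F₀) (d : Qb) ∈ RcG F₀ A E :=
      mem_RcG_iff.mpr ⟨d, d.2, hdE, rfl⟩
    have hr' : (algebraMap Qb (OmG F₀) (d : Qb))⁻¹ ∉ RcG F₀ A E := by
      intro hmem
      obtain ⟨b, hbA, -, hb⟩ := mem_RcG_iff.mp hmem
      rw [← map_inv₀] at hb
      have hb' : b = (d : Qb)⁻¹ := (algebraMap Qb (OmG F₀)).injective hb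
      apply hnu
      refine IsUnit.of_mul_eq_one (⟨b, hbA⟩ : A) (Subtype.ext ?_)
      change (d : Qb) * b = 1
      rw [hb', mul_inv_cancel₀ hd0]
    obtain ⟨c, hcA, -, hc⟩ := mem_RcG_iff.mp (hgen _ hr hr')
    rw [← map_inv₀, ← map_mul] at hc
    have hc' : c = (d : Qb) * w'⁻¹ := (algebraMap Qb (OmG F₀)).injective hc
    rw [← hc']
    exact hcA
  obtain ⟨W₁, hW₁⟩ := exists_series_of_coeff_memG A (f : LaurentSeries Qb) hcoeffA
  refine ⟨huF, W₁, U₂, ⟨?_, f, hfF, hW₁.symm⟩, ⟨hcoeffE U₂ h₂ hf₂, toFG h₂, hf₂, rfl⟩,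
    h₂.2.2, ?_⟩
  · intro n
    have := coeff_mem_of_mem_FcG hfF n
    rwa [← hW₁, coeffMap_coeff] at this
  · rw [hW₁, ← Fermat.Agent.S48.H136.coe_toFG h₂]
    have : (toFG h₁ / toFG h₂ - 1) * (algebraMap Qb (OmG F₀) w')⁻¹ * toFG h₂ = f := by
      rw [hf]
      field_simp
    rw [← this]
    rfl

/-! ### The glue -/

variable (F₀) in
/-- **MOD deliverable, minimal abstract form**: a good family (S18 `Alg.GoodFamily`, any models)
over `Ω = ℚ̄·F₀` such that for every pair of integral series `U₁, U₂` with the same reduction some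
member `(Ec, Fc, R, V, w)` of the family satisfies `m⁻¹ ∈ R`, `u := U₁/U₂ ∈ Fc` and
`(u - 1)/w ∈ V`.  This is all that the glue uses. -/
def HasGoodFamilyMin (A : ValuationSubring Qb)
    (Fk : IntermediateField (ResidueField A) (LaurentSeries (ResidueField A))) (m : ℕ)
    (x : OmG F₀) (S : Finset (OmG F₀)) : Prop :=
  ∃ 𝓕 : Set (Model (OmG F₀)), GoodFamily (LcG F₀) x S 𝓕 ∧
    ∀ (U₁ U₂ : LaurentSeries A) (h₁ : IsIntG F₀ A Fk U₁) (h₂ : IsIntG F₀ A Fk U₂),
      coeffMap (IsLocalRing.residue A) U₁ = coeffMap (IsLocalRing.residue A) U₂ →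
      ∃ p ∈ 𝓕, ((m : OmG F₀))⁻¹ ∈ p.2.2.1 ∧ toFG h₁ / toFG h₂ ∈ p.2.1 ∧
        (toFG h₁ / toFG h₂ - 1) * (p.2.2.2.2)⁻¹ ∈ p.2.2.2.1

/-- The concrete form of the MOD deliverable implies the minimal abstract one. -/
theorem hasGoodFamilyMin_of_goodFamily {ℓ : ℕ} (hℓ : ℓ.Prime) (hA : A.LiesOverPrime ℓ)
    {m : ℕ} (hm : ¬ ℓ ∣ m) {x : OmG F₀} {S : Finset (OmG F₀)}
    (hmod : HasGoodFamilyG F₀ A x S) : HasGoodFamilyMin F₀ A Fk m x S := by
  classical
  obtain ⟨𝓕, hfam, hT⟩ := hmod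
  refine ⟨𝓕, hfam, fun U₁ U₂ h₁ h₂ hred => ?_⟩
  obtain ⟨T₁, hT₁⟩ := exists_finset_mem_FcG F₀ (toFG h₁)
  obtain ⟨T₂, hT₂⟩ := exists_finset_mem_FcG F₀ (toFG h₂)
  obtain ⟨E, V, w, hTE, hV, hp⟩ := hT (T₁ ∪ T₂)
  have hf₁ : toFG h₁ ∈ FcG F₀ E := hT₁ E (fun a ha => hTE a (Finset.mem_union_left _ ha))
  have hf₂ : toFG h₂ ∈ FcG F₀ E := hT₂ E (fun a ha => hTE a (Finset.mem_union_right _ ha))
  have hgood : GoodModel (LcG F₀) (EcG F₀ E) (FcG F₀ E) (RcG F₀ A E) V w x S := hfam.good _ hp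
  refine ⟨_, hp, natCast_inv_mem_RcG hℓ A hA hm, div_mem hf₁ hf₂, ?_⟩
  have h := sub_one_mul_inv_mem_VcSetG h₁ h₂ hred hf₁ hf₂ hgood.w_mem hgood.w_gen
  rw [← hV] at h
  exact h

/-- **GLUE, generic, abstract form.**  If `Ω = ℚ̄·F₀` is a function field in one variable (`x₀`
transcendental, `Ω` finite over `ℚ̄(x₀)`) and MOD supplies `HasGoodFamilyMin`, then the Kummer core
`CoreG F₀ A Fk m` of helper136's Eichler–Shimura engine holds (`m` prime). -/
theorem coreG_of_min (F₀ : IntermediateField ℚ (LaurentSeries ℚ))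
    (A : ValuationSubring Qb)
    (Fk : IntermediateField (ResidueField A) (LaurentSeries (ResidueField A)))
    (m : ℕ) (hmp : m.Prime)
    {x₀ : OmG F₀} (hx₀ : Transcendental Qb x₀)
    [FiniteDimensional (IntermediateField.adjoin Qb {x₀}) (OmG F₀)]
    (x : OmG F₀) (S : Finset (OmG F₀)) (hmod : HasGoodFamilyMin F₀ A Fk m x S) :
    CoreG F₀ A Fk m := by
  classical
  intro U₁ U₂ h₁ h₂ hred hdiv
  obtain ⟨𝓕, hfam, hT⟩ := hmod
  obtain ⟨p, hp, hmR, huF, huV⟩ := hT U₁ U₂ h₁ h₂ hred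
  have hm0 : m ≠ 0 := hmp.ne_zero
  have hu0 : toFG h₁ / toFG h₂ ≠ 0 := div_ne_zero (toFG_ne_zero' h₁) (toFG_ne_zero' h₂)
  obtain ⟨y, c, hcL, hc0, huy⟩ := Fermat.Agent.S18.H438.algMain (LcG F₀) x S 𝓕 hfam p hp m
    hmp hmR (toFG h₁ / toFG h₂) huF hu0 huV
    (exists_unit_twistG hx₀ (toFG_ne_zero' h₁) (toFG_ne_zero' h₂) hdiv)
  obtain ⟨c', rfl⟩ := hcL
  refine ⟨c', y, ?_, ?_, ?_⟩
  · rintro rfl
    exact hc0 (map_zero _)
  · rintro rfl
    rw [zero_pow hm0, mul_zero] at huy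
    exact hu0 huy
  · rw [← huy, div_mul_cancel₀ _ (toFG_ne_zero' h₂)]

/-- **GLUE, generic, concrete form**: from `HasGoodFamilyG` (the exact analogue of the conclusion
of `S18.Mod.GoodModelStatement`), for every prime `m` different from the residue characteristic
`ℓ` of `A`. -/
theorem coreG_of_goodFamily (F₀ : IntermediateField ℚ (LaurentSeries ℚ)) {ℓ : ℕ} (hℓ : ℓ.Prime)
    (A : ValuationSubring Qb) (hA : A.LiesOverPrime ℓ)
    (Fk : IntermediateField (ResidueField A) (LaurentSeries (ResidueField A)))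
    (m : ℕ) (hmp : m.Prime) (hm : ¬ ℓ ∣ m)
    {x₀ : OmG F₀} (hx₀ : Transcendental Qb x₀)
    [FiniteDimensional (IntermediateField.adjoin Qb {x₀}) (OmG F₀)]
    (x : OmG F₀) (S : Finset (OmG F₀)) (hmod : HasGoodFamilyG F₀ A x S) :
    CoreG F₀ A Fk m :=
  coreG_of_min F₀ A Fk m hmp hx₀ x S (hasGoodFamilyMin_of_goodFamily hℓ hA hm hmod)

end Red

/-! ### D2, generic: transfer of the Kummer core along a finite extension of degree prime to `m` -/

section D2

open IntermediateField Module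

section Generic

variable {K Ω : Type*} [Field K] [Field Ω] [Algebra K Ω] {E F : IntermediateField K Ω}

/-- `extendScalars h` and `F` (with the `E`-algebra structure along the inclusion) are the same
`E`-vector space. -/
def extendScalarsLinearEquiv908 (hEF : E ≤ F) :
    letI := (IntermediateField.inclusion hEF).toRingHom.toAlgebra
    ↥(extendScalars hEF) ≃ₗ[E] F :=
  letI := (IntermediateField.inclusion hEF).toRingHom.toAlgebra
  { toFun := fun x => ⟨x.1, (mem_extendScalars hEF).mp x.2⟩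
    invFun := fun x => ⟨x.1, (mem_extendScalars hEF).mpr x.2⟩
    map_add' := fun _ _ => rfl
    map_smul' := fun _ _ => rfl
    left_inv := fun _ => rfl
    right_inv := fun _ => rfl }

theorem finrank_inclusion_eq_relfinrank908 (hEF : E ≤ F) :
    letI := (IntermediateField.inclusion hEF).toRingHom.toAlgebra
    finrank E F = E.relfinrank F := by
  letI := (IntermediateField.inclusion hEF).toRingHom.toAlgebra
  rw [relfinrank_eq_finrank_of_le hEF]
  exact (extendScalarsLinearEquiv908 hEF).finrank_eq.symm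

theorem finiteDimensional_inclusion908 (hEF : E ≤ F) (h0 : E.relfinrank F ≠ 0) :
    letI := (IntermediateField.inclusion hEF).toRingHom.toAlgebra
    FiniteDimensional E F := by
  letI := (IntermediateField.inclusion hEF).toRingHom.toAlgebra
  apply FiniteDimensional.of_finrank_pos
  rw [finrank_inclusion_eq_relfinrank908 hEF]
  exact Nat.pos_of_ne_zero h0

/-- Norm trick along an inclusion of intermediate fields (instance-free statement). -/
theorem exists_pow_of_inclusion908 (hEF : E ≤ F) (m : ℕ) (hd0 : E.relfinrank F ≠ 0)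
    (hcop : Nat.Coprime (E.relfinrank F) m) (u : E) (hu : u ≠ 0) (c : K) (hc : c ≠ 0)
    (y : F) (hy : y ≠ 0)
    (h : IntermediateField.inclusion hEF u = algebraMap K F c * y ^ m) :
    ∃ (c' : K) (y' : E), c' ≠ 0 ∧ y' ≠ 0 ∧ u = algebraMap K E c' * y' ^ m := by
  letI : Algebra E F := (IntermediateField.inclusion hEF).toRingHom.toAlgebra
  haveI : IsScalarTower K E F := IsScalarTower.of_algebraMap_eq fun _ => rfl
  haveI hfd : FiniteDimensional E F := finiteDimensional_inclusion908 hEF hd0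
  have hfr : finrank E F = E.relfinrank F := finrank_inclusion_eq_relfinrank908 hEF
  exact Fermat.Agent.S18.H568.exists_pow_of_norm_coprime m (by rw [hfr]; exact hcop)
    u hu c hc y hy h

theorem isIntegral_inclusion908 (hEF : E ≤ F) (hd0 : E.relfinrank F ≠ 0) :
    (IntermediateField.inclusion hEF).toRingHom.IsIntegral := by
  letI : Algebra E F := (IntermediateField.inclusion hEF).toRingHom.toAlgebra
  haveI hfd : FiniteDimensional E F := finiteDimensional_inclusion908 hEF hd0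
  exact fun x => (Algebra.IsIntegral.of_finite E F).isIntegral x

end Generic

/-- Monotonicity of `ℚ̄ · F₀` in `F₀`. -/
theorem lbc_mono908 {F₀ F₀' : IntermediateField ℚ (LaurentSeries ℚ)} (h : F₀ ≤ F₀') :
    laurentBaseChange Qb F₀ ≤ laurentBaseChange Qb F₀' := by
  rw [laurentBaseChange, IntermediateField.adjoin_le_iff]
  rintro x ⟨y, hy, rfl⟩
  exact coeffEmb_mem_laurentBaseChange Qb (h hy)

theorem isIntG_of_le {F₀ F₀' : IntermediateField ℚ (LaurentSeries ℚ)} (hle : F₀ ≤ F₀')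
    {A : ValuationSubring Qb}
    {Fk Fk' : IntermediateField (ResidueField A) (LaurentSeries (ResidueField A))}
    (hk : Fk ≤ Fk') {U : LaurentSeries A} (hU : IsIntG F₀ A Fk U) : IsIntG F₀' A Fk' U :=
  ⟨lbc_mono908 hle hU.1, hk hU.2.1, hU.2.2⟩

/-- `CoreG` is antitone in the reduction field `Fk` (the largest choice `Fk = ⊤` gives the
strongest statement). -/
theorem coreG_mono_Fk {F₀ : IntermediateField ℚ (LaurentSeries ℚ)} {A : ValuationSubring Qb}
    {Fk Fk' : IntermediateField (ResidueField A) (LaurentSeries (ResidueField A))}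
    (hk : Fk ≤ Fk') {m : ℕ} (h : CoreG F₀ A Fk' m) : CoreG F₀ A Fk m := by
  intro U₁ U₂ h₁ h₂ hred hord
  exact h U₁ U₂ (isIntG_of_le le_rfl hk h₁) (isIntG_of_le le_rfl hk h₂) hred hord

/-- `CoreG` for `Fk = ⊤` implies `CoreG` for every `Fk`. -/
theorem coreG_of_top {F₀ : IntermediateField ℚ (LaurentSeries ℚ)} {A : ValuationSubring Qb}
    (Fk : IntermediateField (ResidueField A) (LaurentSeries (ResidueField A)))
    {m : ℕ} (h : CoreG F₀ A ⊤ m) : CoreG F₀ A Fk m :=
  coreG_mono_Fk le_top h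

/-- **D2, generic.**  `CoreG` descends along `F₀ ≤ F₀'` when `[ℚ̄F₀' : ℚ̄F₀]` is finite and prime
to `m` (norm trick).  For `p = 2, 3` this replaces the pull-back to an auxiliary level. -/
theorem coreG_of_le {F₀ F₀' : IntermediateField ℚ (LaurentSeries ℚ)} (hle : F₀ ≤ F₀')
    (A : ValuationSubring Qb)
    {Fk Fk' : IntermediateField (ResidueField A) (LaurentSeries (ResidueField A))}
    (hk : Fk ≤ Fk') (m : ℕ)
    (hd0 : (laurentBaseChange Qb F₀).relfinrank (laurentBaseChange Qb F₀') ≠ 0)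
    (hcop : Nat.Coprime ((laurentBaseChange Qb F₀).relfinrank (laurentBaseChange Qb F₀')) m) :
    CoreG F₀' A Fk' m → CoreG F₀ A Fk m := by
  intro hM U₁ U₂ h₁ h₂ hred hord
  have hle' := lbc_mono908 hle
  set φ : laurentBaseChange Qb F₀ →ₐ[Qb] laurentBaseChange Qb F₀' :=
    IntermediateField.inclusion hle' with hφdef
  have hφint : φ.toRingHom.IsIntegral := isIntegral_inclusion908 hle' hd0
  have h₁' : IsIntG F₀' A Fk' U₁ := isIntG_of_le hle hk h₁
  have h₂' : IsIntG F₀' A Fk' U₂ := isIntG_of_le hle hk h₂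
  have e₁ : toFG h₁' = φ (toFG h₁) := rfl
  have e₂ : toFG h₂' = φ (toFG h₂) := rfl
  obtain ⟨c, y, hc, hy, hcy⟩ := hM U₁ U₂ h₁' h₂' hred (fun w => by
    rw [e₁, e₂, Place.ord_restrictAlong φ hφint w, Place.ord_restrictAlong φ hφint w, ← mul_sub]
    exact Dvd.dvd.mul_left (hord _) _)
  have hn₁ := toFG_ne_zero' h₁
  have hn₂ := toFG_ne_zero' h₂
  have hu : toFG h₁ / toFG h₂ ≠ 0 := div_ne_zero hn₁ hn₂
  have hkey : φ (toFG h₁ / toFG h₂) = algebraMap Qb (laurentBaseChange Qb F₀') c * y ^ m := by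
    have hn₂' : toFG h₂' ≠ 0 := toFG_ne_zero' h₂'
    rw [map_div₀, ← e₁, ← e₂, hcy, mul_div_assoc, div_self hn₂', mul_one]
  obtain ⟨c', y', hc', hy', hfin⟩ :=
    exists_pow_of_inclusion908 hle' m hd0 hcop (toFG h₁ / toFG h₂) hu c hc y hy hkey
  refine ⟨c', y', hc', hy', ?_⟩
  rw [← hfin, div_mul_cancel₀ _ hn₂]

end D2

end Fermat.Agent.S48.H908.Core1

end
end
-- ===== PACK-END S48/H908/CoreG.lean

-- ===== PACK-BEGIN S48/H908/CoreF1.lean
section



/-!
# S48 / RES (Tower A1) — piece CORE1, part 2 (helper908): the Kummer core for `F1 M`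

* `divCoeff_eq_sum`, `divGenC_eq_sum` : for `M ∣ M'` the division value `P_b` of level `M` is the
  sum of the division values `P_c` of level `M'` over the classes `c ↦ b`;
* `F1C_le_of_dvd`, `F1_le_of_dvd` : monotonicity of the function field of `X₁(M)` in the level
  (over any field of constants);
* `core1` : `CoreG (F1 M) A Fk ℓ` (the hypothesis `hcore` of helper136's
  `eskG_inertia` / `eskG_frob`) for ALL `M ≠ 0`, all primes `p ∤ M ℓ`, all `A` over `p` and ALL
  reduction fields `Fk`, from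
  - `Mod1Hyp` : the MOD deliverable (`HasGoodFamilyMin`) at GOOD levels only
               (`p ≥ 5`, or `p = 3 ∧ 2 ∣ M`, or `p = 2 ∧ 3 ∣ M`),
  - `FinHyp`  : `ℚ̄·F1(M)` is a function field in one variable,
  - `DegHyp`  : `[ℚ̄·F1(M a) : ℚ̄·F1(M)]` divides `a² - 1` for a prime `a ∤ M`
               (only used for `a = 2, 3`).
  For `p = 3, 2 ∤ M` resp. `p = 2, 3 ∤ M` the core descends from level `2M` resp. `3M` by the
  norm trick (`coreG_of_le`): NO pull-back data on `Pic⁰` are needed.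
-/

set_option autoImplicit false
set_option linter.style.haveILetI false

noncomputable section

namespace Fermat.Agent.S48.H908.Core1

open ModularCurve AlgebraicCurve HahnSeries IsLocalRing
open Fermat.Agent.S18 (Qb)
open Fermat.Agent.S48.H136 (IsIntG toFG CoreG)
open Fermat.Agent.S48.F1

/-! ### Monotonicity of `F1C K M` in the level -/

section Mono

variable {M M' : ℕ} [NeZero M']

/-- The classes of level `M'` above a class of level `M`. -/
def fibre908 (h : M ∣ M') (b : ZMod M) : Finset (ZMod M') :=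
  Finset.univ.filter fun c => ZMod.castHom h (ZMod M) c = b

theorem ne_zero_of_mem_fibre908 (h : M ∣ M') {b : ZMod M} (hb : b ≠ 0) {c : ZMod M'}
    (hc : c ∈ fibre908 h b) : c ≠ 0 := by
  rintro rfl
  rw [fibre908, Finset.mem_filter] at hc
  exact hb (by rw [← hc.2, map_zero])

theorem divCoeff_eq_sum (h : M ∣ M') (b : ZMod M) (k n : ℕ) :
    divCoeff M b k n = ∑ c ∈ fibre908 h b, divCoeff M' c k n := by
  classical
  unfold divCoeff fibre908
  rw [Finset.sum_comm]
  refine Finset.sum_congr rfl fun m _ => ?_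
  rw [Finset.sum_add_distrib, Finset.sum_filter, Finset.sum_filter]
  have hcast : ZMod.castHom h (ZMod M) ((m : ℕ) : ZMod M') = ((m : ℕ) : ZMod M) := map_natCast _ m
  congr 1
  · have : ∀ c : ZMod M', (if ZMod.castHom h (ZMod M) c = b then
        (if ((m : ℕ) : ZMod M') = c then ((n / m : ℕ) : ℤ) ^ (k - 1) else 0) else 0)
        = if ((m : ℕ) : ZMod M') = c then
            (if ZMod.castHom h (ZMod M) c = b then ((n / m : ℕ) : ℤ) ^ (k - 1) else 0) else 0 := by
      intro c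
      split_ifs <;> rfl
    rw [Finset.sum_congr rfl fun c _ => this c, Finset.sum_ite_eq Finset.univ, if_pos (Finset.mem_univ _), hcast]
  · have : ∀ c : ZMod M', (if ZMod.castHom h (ZMod M) c = b then
        (if ((m : ℕ) : ZMod M') = -c then (-1) ^ k * ((n / m : ℕ) : ℤ) ^ (k - 1) else 0) else 0)
        = if -((m : ℕ) : ZMod M') = c then
            (if ZMod.castHom h (ZMod M) c = b then (-1) ^ k * ((n / m : ℕ) : ℤ) ^ (k - 1) else 0)
            else 0 := by
      intro c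
      have hiff : ((m : ℕ) : ZMod M') = -c ↔ -((m : ℕ) : ZMod M') = c :=
        ⟨fun h1 => by rw [h1, neg_neg], fun h1 => by rw [← h1, neg_neg]⟩
      by_cases h1 : ((m : ℕ) : ZMod M') = -c
      · rw [if_pos h1, if_pos (hiff.mp h1)]
      · rw [if_neg h1, if_neg (fun h2 => h1 (hiff.mpr h2))]
        split_ifs <;> rfl
    rw [Finset.sum_congr rfl fun c _ => this c, Finset.sum_ite_eq Finset.univ,
      if_pos (Finset.mem_univ _), map_neg, hcast]
    have hiff : -((m : ℕ) : ZMod M) = b ↔ ((m : ℕ) : ZMod M) = -b :=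
      ⟨fun h1 => by rw [← h1, neg_neg], fun h1 => by rw [h1, neg_neg]⟩
    by_cases h1 : ((m : ℕ) : ZMod M) = -b
    · rw [if_pos h1, if_pos (hiff.mpr h1)]
    · rw [if_neg h1, if_neg (fun h2 => h1 (hiff.mp h2))]

theorem divSeries_eq_sum (h : M ∣ M') (b : ZMod M) (k : ℕ) :
    divSeries M b k = ∑ c ∈ fibre908 h b, divSeries M' c k := by
  ext n
  rw [coeff_divSeries, map_sum, divCoeff_eq_sum h]
  exact Finset.sum_congr rfl fun c _ => (coeff_divSeries M' c k n).symm

theorem divNum_eq_sum (h : M ∣ M') (b : ZMod M) :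
    divNum M b = ∑ c ∈ fibre908 h b, divNum M' c := by
  unfold divNum
  rw [divSeries_eq_sum h, Finset.sum_mul]

theorem divGenC_eq_sum (R : Type*) [CommRing R] (h : M ∣ M') (b : ZMod M) :
    divGenC R M b = ∑ c ∈ fibre908 h b, divGenC R M' c := by
  unfold divGenC
  rw [divNum_eq_sum h, map_sum, map_sum, Finset.mul_sum]

/-- Monotonicity of the function field of `X₁(M)` in the level, over any field of constants. -/
theorem F1C_le_of_dvd (K : Type*) [Field K] (h : M ∣ M') : F1C K M ≤ F1C K M' := by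
  rw [F1C, IntermediateField.adjoin_le_iff]
  rintro x (hx | hx)
  · obtain ⟨d, hd, hdM, rfl⟩ := hx
    exact IntermediateField.subset_adjoin K _
      (Or.inl (mem_divisorExpansionsC K M' (hdM.trans h)))
  · obtain ⟨b, hb, rfl⟩ := hx
    rw [divGenC_eq_sum K h b]
    exact sum_mem fun c hc => divGenC_mem_F1C K M' (ne_zero_of_mem_fibre908 h hb hc)

/-- Monotonicity of `F1 M` in the level. -/
theorem F1_le_of_dvd (h : M ∣ M') : F1 M ≤ F1 M' := by
  rw [← F1C_rat, ← F1C_rat]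
  exact F1C_le_of_dvd ℚ h

end Mono

/-! ### The Kummer core for `F1 M` -/

/-- **MOD1** (hypothesis): the MOD deliverable at the GOOD levels
(`p ≥ 5`, or `p = 3 ∧ 2 ∣ M`, or `p = 2 ∧ 3 ∣ M`), in the minimal abstract form used by the glue
(with the largest reduction field `Fk = ⊤`, i.e. for ALL pairs of integral series of `ℚ̄·F1 M` with
nonzero, equal reductions). -/
def Mod1Hyp : Prop :=
  ∀ (M p : ℕ), M ≠ 0 → p.Prime → ¬ p ∣ M → (p = 3 → 2 ∣ M) → (p = 2 → 3 ∣ M) →
    ∀ A : ValuationSubring Qb, A.LiesOverPrime p → ∀ m : ℕ, m.Prime → ¬ p ∣ m →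
      ∃ (x : OmG (F1 M)) (S : Finset (OmG (F1 M))),
        HasGoodFamilyMin (F1 M) A ⊤ m x S

/-- **MOD1**, concrete form (the exact analogue of `S18.Mod.GoodModelStatement`). -/
def Mod1HypG : Prop :=
  ∀ (M p : ℕ), M ≠ 0 → p.Prime → ¬ p ∣ M → (p = 3 → 2 ∣ M) → (p = 2 → 3 ∣ M) →
    ∀ A : ValuationSubring Qb, A.LiesOverPrime p →
      ∃ (x : OmG (F1 M)) (S : Finset (OmG (F1 M))), HasGoodFamilyG (F1 M) A x S

theorem mod1Hyp_of_G (h : Mod1HypG) : Mod1Hyp := by
  intro M p hM hp hpM h3 h2 A hA m _ hpm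
  obtain ⟨x, S, hxS⟩ := h M p hM hp hpM h3 h2 A hA
  exact ⟨x, S, hasGoodFamilyMin_of_goodFamily hp hA hpm hxS⟩

/-- **FF-ALG, finiteness** (hypothesis): `ℚ̄·F1(M)` is a function field in one variable. -/
def FinHyp : Prop :=
  ∀ M : ℕ, M ≠ 0 → ∃ x₀ : OmG (F1 M), Transcendental Qb x₀ ∧
    FiniteDimensional (IntermediateField.adjoin Qb {x₀}) (OmG (F1 M))

/-- **FF-ALG, degrees** (hypothesis): `[ℚ̄·F1(M a) : ℚ̄·F1(M)]` divides `a² - 1`
(`a` prime, `a ∤ M`; only used for `a = 2, 3`). -/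
def DegHyp : Prop :=
  ∀ (M a : ℕ), M ≠ 0 → a.Prime → ¬ a ∣ M →
    (laurentBaseChange Qb (F1 M)).relfinrank (laurentBaseChange Qb (F1 (M * a))) ∣ a ^ 2 - 1

/-- The Kummer core at a good level (for the largest reduction field). -/
theorem core1_good (hmod : Mod1Hyp) (hfin : FinHyp) (M ℓ p : ℕ) (hM : M ≠ 0) (hℓ : ℓ.Prime)
    (hp : p.Prime) (hpM : ¬ p ∣ M) (hpℓ : ¬ p ∣ ℓ) (h3 : p = 3 → 2 ∣ M) (h2 : p = 2 → 3 ∣ M)
    (A : ValuationSubring Qb) (hA : A.LiesOverPrime p) :
    CoreG (F1 M) A ⊤ ℓ := by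
  obtain ⟨x, S, hxS⟩ := hmod M p hM hp hpM h3 h2 A hA ℓ hℓ hpℓ
  obtain ⟨x₀, hx₀, hfd⟩ := hfin M hM
  exact coreG_of_min (F1 M) A _ ℓ hℓ hx₀ x S hxS

/-- Descent of the core from level `M a` to level `M` (`a` prime, `a ∤ M`, `ℓ ∤ a² - 1`). -/
theorem core1_descend (hdeg : DegHyp) (M a ℓ : ℕ) (hM : M ≠ 0) (ha : a.Prime) (haM : ¬ a ∣ M)
    (hcop : Nat.Coprime (a ^ 2 - 1) ℓ) (A : ValuationSubring Qb)
    (h : CoreG (F1 (M * a)) A ⊤ ℓ) :
    CoreG (F1 M) A ⊤ ℓ := by
  haveI : NeZero (M * a) := ⟨Nat.mul_ne_zero hM ha.ne_zero⟩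
  have hd := hdeg M a hM ha haM
  have ha1 : a ^ 2 - 1 ≠ 0 := by
    have : 2 ≤ a := ha.two_le
    have : 4 ≤ a ^ 2 := by nlinarith
    omega
  refine coreG_of_le (F1_le_of_dvd (Dvd.intro a rfl)) A le_rfl ℓ ?_ ?_ h
  · rintro h0
    rw [h0, zero_dvd_iff] at hd
    exact ha1 hd
  · exact Nat.Coprime.coprime_dvd_left hd hcop

/-- **CORE1**, for the largest reduction field `Fk = ⊤`. -/
theorem core1_top (hmod : Mod1Hyp) (hfin : FinHyp) (hdeg : DegHyp) (M ℓ p : ℕ) (hM : M ≠ 0)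
    (hℓ : ℓ.Prime) (hp : p.Prime) (hpMℓ : ¬ p ∣ M * ℓ) (A : ValuationSubring Qb)
    (hA : A.LiesOverPrime p) : CoreG (F1 M) A ⊤ ℓ := by
  have hpM : ¬ p ∣ M := fun h => hpMℓ (h.mul_right ℓ)
  have hpℓ : ¬ p ∣ ℓ := fun h => hpMℓ (h.mul_left M)
  have hℓp : ℓ ≠ p := fun h => hpℓ (h ▸ dvd_rfl)
  by_cases h3 : p = 3
  · subst h3
    by_cases h2M : 2 ∣ M
    · exact core1_good hmod hfin M ℓ 3 hM hℓ hp hpM hpℓ (fun _ => h2M) (fun h => by omega) A hA
    · have hM2 : M * 2 ≠ 0 := Nat.mul_ne_zero hM (by norm_num)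
      have hp2 : ¬ 3 ∣ M * 2 := by
        intro h
        rcases (Nat.Prime.dvd_mul hp).mp h with h | h
        · exact hpM h
        · omega
      have hcore := core1_good hmod hfin (M * 2) ℓ 3 hM2 hℓ hp hp2 hpℓ
        (fun _ => Dvd.intro_left M rfl) (fun h => by omega) A hA
      refine core1_descend hdeg M 2 ℓ hM Nat.prime_two h2M ?_ A hcore
      have : (2 ^ 2 - 1 : ℕ) = 3 := by norm_num
      rw [this]
      exact (Nat.coprime_primes hp hℓ).mpr (Ne.symm hℓp)
  · by_cases h2 : p = 2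
    · subst h2
      by_cases h3M : 3 ∣ M
      · exact core1_good hmod hfin M ℓ 2 hM hℓ hp hpM hpℓ (fun h => by omega) (fun _ => h3M) A hA
      · have hM3 : M * 3 ≠ 0 := Nat.mul_ne_zero hM (by norm_num)
        have hp3 : ¬ 2 ∣ M * 3 := by
          intro h
          rcases (Nat.Prime.dvd_mul hp).mp h with h | h
          · exact hpM h
          · omega
        have hcore := core1_good hmod hfin (M * 3) ℓ 2 hM3 hℓ hp hp3 hpℓ
          (fun h => by omega) (fun _ => Dvd.intro_left M rfl) A hA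
        refine core1_descend hdeg M 3 ℓ hM Nat.prime_three h3M ?_ A hcore
        have : (3 ^ 2 - 1 : ℕ) = 2 ^ 3 := by norm_num
        rw [this]
        exact Nat.Coprime.pow_left 3 ((Nat.coprime_primes hp hℓ).mpr (Ne.symm hℓp))
    · exact core1_good hmod hfin M ℓ p hM hℓ hp hpM hpℓ (fun h => absurd h h3)
        (fun h => absurd h h2) A hA

/-- **CORE1.**  The Kummer core `CoreG (F1 M) A Fk ℓ` (the hypothesis `hcore` of helper136's
`eskG_inertia` / `eskG_frob`) for every level `M ≠ 0`, all primes `ℓ` and `p ∤ M ℓ`, every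
valuation subring `A` of `ℚ̄` over `p` and EVERY reduction field `Fk`. -/
theorem core1 (hmod : Mod1Hyp) (hfin : FinHyp) (hdeg : DegHyp) (M ℓ p : ℕ) (hM : M ≠ 0)
    (hℓ : ℓ.Prime) (hp : p.Prime) (hpMℓ : ¬ p ∣ M * ℓ) (A : ValuationSubring Qb)
    (hA : A.LiesOverPrime p)
    (Fk : IntermediateField (ResidueField A) (LaurentSeries (ResidueField A))) :
    CoreG (F1 M) A Fk ℓ :=
  coreG_of_top Fk (core1_top hmod hfin hdeg M ℓ p hM hℓ hp hpMℓ A hA)

end Fermat.Agent.S48.H908.Core1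

end
end
-- ===== PACK-END S48/H908/CoreF1.lean

-- ===== PACK-BEGIN S48/H136/ESKGFrob.lean
section
/-
S48 / Tower A1 (helper136) — piece ESK1, part 2: GENERIC raw Eichler–Shimura WITH DIAMOND.

Setting (see `ESKG.lean`): `F = ℚ̄ · F₀ ⊆ ℚ̄((q))`, `F_k ⊆ k((q))`, `A ⊆ ℚ̄` a valuation subring over
`p`.  Hecke data: ANY field `F'` over `ℚ̄` with two embeddings `α β : F → F'` (degeneracy maps)
and the Prelude's `HeckeInputs` (`α`, `β` integral, `α` finite with norm formula, fundamental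
identity along `β`); `T := Pic0.correspondence β α`.  Diamond: `δ : F ≃ₐ[ℚ̄] F` commuting with the
coefficientwise Galois action and preserving integral series.

NORM-ID with diamond (`NormIdG`):  `Nm_α (β y) = V_p y · det (secMat p (δ y))`
(for `X₁(M)`, `β = (q ↦ q^p)`: the conjugates of `y(pτ)` over `F₁(M)` are `y(pτ)` and
`(⟨p⟩⁻¹ y)((τ + b)/p)`, so `δ = ⟨p⟩⁻¹`; for `X₀(N)`: `δ = 1`).

`eskG_frob` :  `CoreG + PGIG + StableG + HeckeInputs + DiamondG + NormIdG ⟹` for every Frobenius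
element `σ` at `A` and every `x ∈ Pic0 ℚ̄ F` with `m x = 0`:

      `σ² (δ x) - T (σ x) + p x = 0`.

`eskG_frob'` : the same relation in the form `σ² x - T (δ⁻¹ σ x) + p δ⁻¹ x = 0`, i.e.
`σ² - T_p σ + p ⟨p⟩ = 0` with `T_p := T ∘ δ⁻¹`, `⟨p⟩ := δ⁻¹`.
-/


set_option autoImplicit false
set_option linter.style.haveILetI false

noncomputable section

namespace Fermat.Agent.S48.H136

open ModularCurve AlgebraicCurve HahnSeries IsLocalRing
open Fermat.Agent.S18 (Qb)
open Fermat.Agent.S29.H222 (IsDivOf decA decK galA)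
open Fermat.Agent.S37.H400 (secMat)

/-! ### The two-argument formal Kronecker norm -/

section Kron2

variable {R : Type*} [CommRing R]

/-- `kron2 p f g = V_p f · det (secMat p g)`; `kron2 p f f = kronNorm p f`. -/
def kron2 (p : ℕ) [NeZero p] (f g : LaurentSeries R) : LaurentSeries R :=
  qExpand R p f * (secMat p g).det

theorem kron2_self (p : ℕ) [NeZero p] (f : LaurentSeries R) :
    kron2 p f f = Fermat.Agent.S37.H400.kronNorm p f := rfl

theorem coeffMap_kron2 {S : Type*} [CommRing S] (φ : R →+* S) (p : ℕ) [NeZero p]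
    (f g : LaurentSeries R) :
    coeffMap φ (kron2 p f g) = kron2 p (coeffMap φ f) (coeffMap φ g) := by
  rw [kron2, kron2, map_mul, Fermat.Agent.S37.H400.coeffMap_qExpand_h400, RingHom.map_det,
    RingHom.mapMatrix_apply, Fermat.Agent.S37.H400.secMat_coeffMap]

theorem kron2_char [IsDomain R] (p : ℕ) [Fact p.Prime] [CharP R p] (f g : LaurentSeries R) :
    haveI : NeZero p := ⟨(Fact.out : p.Prime).ne_zero⟩
    kron2 p f g = qExpand R p f * coeffMap (frobenius R p) g := by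
  haveI : NeZero p := ⟨(Fact.out : p.Prime).ne_zero⟩
  show kron2 p f g = _
  rw [kron2, Fermat.Agent.S37.H400.det_secMat_char]

end Kron2

/-! ### Divisors and algebra automorphisms -/

section AlgEquivDiv

variable {K F : Type*} [Field K] [Field F] [Algebra K F]

theorem isDivOf_algEquiv (δ : F ≃ₐ[K] F) {f : F} {D : Divisor K F} (hf : IsDivOf f D) :
    IsDivOf (δ f) (δ • D) := fun w => by
  rw [Divisor.smul_apply, hf (δ⁻¹ • w)]
  have h := Place.ord_smul δ (δ⁻¹ • w) f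
  rw [smul_inv_smul] at h
  exact h.symm

end AlgEquivDiv

variable {F₀ : IntermediateField ℚ (LaurentSeries ℚ)} {A : ValuationSubring Qb}
  {Fk : IntermediateField (ResidueField A) (LaurentSeries (ResidueField A))}

/-! ### The Hecke correspondence on divisors of functions -/

section Hecke

variable {F' : Type*} [Field F'] [Algebra Qb F']
  (α β : laurentBaseChange Qb F₀ →ₐ[Qb] F')

/-- The norm along `α` of `β y`: the function whose divisor is `T (div y)`. -/
def normG (y : laurentBaseChange Qb F₀) : laurentBaseChange Qb F₀ :=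
  letI := algebraAlong α
  Algebra.norm (laurentBaseChange Qb F₀) (β y)

variable {α β}

/-- `β^* (div y) = div (β y)`. -/
theorem isDivOf_pullbackAlongG [HasPrincipalDivisors Qb F'] (hβ : β.toRingHom.IsIntegral)
    {y : laurentBaseChange Qb F₀} {E : Divisor Qb (laurentBaseChange Qb F₀)}
    (hE : IsDivOf y E) :
    IsDivOf (K := Qb) (β y) (Divisor.pullbackAlong β hβ E) := by
  intro w
  letI := algebraAlong β
  haveI := isScalarTower_along β
  haveI := isIntegral_along β hβ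
  exact Divisor.pullback_apply_eq_ord hE w

/-- `α_* (div z) = div (Nm_α z)`. -/
theorem isDivOf_pushforwardAlongG (hα : α.toRingHom.IsIntegral) (hfin : FiniteAlong Qb α)
    (hN : NormFormulaAlong Qb α hfin) {z : F'} (hz : z ≠ 0) {E : Divisor Qb F'}
    (hE : IsDivOf z E) :
    IsDivOf (K := Qb)
      (letI := algebraAlong α
       Algebra.norm (laurentBaseChange Qb F₀) z)
      (Divisor.pushforwardAlong α hα E) := by
  intro v
  letI := algebraAlong α
  haveI := isScalarTower_along α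
  haveI := isIntegral_along α hα
  haveI : Module.Finite (laurentBaseChange Qb F₀) F' := hfin
  exact hN z hz E hE v

/-- `T (div y) = div (Nm_α (β y))` on divisors. -/
theorem isDivOf_correspondenceG [HasPrincipalDivisors Qb F'] (hα : α.toRingHom.IsIntegral)
    (hβ : β.toRingHom.IsIntegral) (hfin : FiniteAlong Qb α) (hN : NormFormulaAlong Qb α hfin)
    {y : laurentBaseChange Qb F₀} (hy : y ≠ 0) {E : Divisor Qb (laurentBaseChange Qb F₀)}
    (hE : IsDivOf y E) :
    IsDivOf (K := Qb) (normG α β y) (Divisor.correspondence β α hβ hα E) := by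
  have hβy : β y ≠ 0 := by
    intro h
    exact hy (β.toRingHom.injective (by simpa using h))
  exact isDivOf_pushforwardAlongG hα hfin hN hβy (isDivOf_pullbackAlongG hβ hE)

end Hecke

/-! ### Diamond data and NORM-ID -/

/-- A "diamond" automorphism of `F = ℚ̄ · F₀`: it commutes with the coefficientwise Galois action
and preserves integral series. -/
structure DiamondG (F₀ : IntermediateField ℚ (LaurentSeries ℚ)) (A : ValuationSubring Qb)
    (Fk : IntermediateField (ResidueField A) (LaurentSeries (ResidueField A)))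
    (δ : laurentBaseChange Qb F₀ ≃ₐ[Qb] laurentBaseChange Qb F₀) : Prop where
  galois : ∀ (σ : Qb ≃ₐ[ℚ] Qb) (y : laurentBaseChange Qb F₀),
    δ (arithmeticGalois F₀ σ • y) = arithmeticGalois F₀ σ • δ y
  integral : ∀ (U : LaurentSeries A) (hU : IsIntG F₀ A Fk U),
    ∃ (W : LaurentSeries A) (hW : IsIntG F₀ A Fk W), toFG hW = δ (toFG hU)

/-- The trivial diamond (`X₀(N)`). -/
theorem diamondG_refl (F₀ : IntermediateField ℚ (LaurentSeries ℚ)) (A : ValuationSubring Qb)
    (Fk : IntermediateField (ResidueField A) (LaurentSeries (ResidueField A))) :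
    DiamondG F₀ A Fk AlgEquiv.refl :=
  ⟨fun _ _ => rfl, fun U hU => ⟨U, hU, rfl⟩⟩

/-- **NORM-ID with diamond**: the norm along `α` of `β y` has `q`-expansion
`V_p y · det (secMat p (δ y))`. -/
def NormIdG {F' : Type*} [Field F'] [Algebra Qb F']
    (α β : laurentBaseChange Qb F₀ →ₐ[Qb] F') (p : ℕ) [NeZero p]
    (δ : laurentBaseChange Qb F₀ ≃ₐ[Qb] laurentBaseChange Qb F₀) : Prop :=
  ∀ y : laurentBaseChange Qb F₀,
    ((normG α β y : laurentBaseChange Qb F₀) : LaurentSeries Qb)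
      = kron2 p (y : LaurentSeries Qb) ((δ y : laurentBaseChange Qb F₀) : LaurentSeries Qb)

/-! ### The integral Kronecker norm -/

section Kron

variable {p : ℕ} [Fact p.Prime] [NeZero p] [CharP (ResidueField A) p]

/-- Reduction of `kron2 (σU) (σW)` for a Frobenius element `σ`. -/
theorem coeffMap_residue_kron2_galA {g : A.decompositionSubgroup ℚ}
    (hgk : decK g = frobenius (ResidueField A) p) (U W : LaurentSeries A) :
    coeffMap (residue A) (kron2 p (galA g U) (galA g W))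
      = coeffMap (residue A) U ^ p
        * coeffMap (decK g) (coeffMap (decK g) (coeffMap (residue A) W)) := by
  have h1 := kron2_char p (coeffMap (residue A) (galA g U)) (coeffMap (residue A) (galA g W))
  have h2 := Fermat.Agent.S37.H400.laurent_pow_char p (coeffMap (residue A) U)
  rw [Fermat.Agent.S29.H222.coeffMap_residue_galA,
    Fermat.Agent.S29.H222.coeffMap_residue_galA, ← hgk] at h1
  rw [← hgk] at h2
  rw [coeffMap_kron2, Fermat.Agent.S29.H222.coeffMap_residue_galA,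
    Fermat.Agent.S29.H222.coeffMap_residue_galA, h1, h2]

variable {F' : Type*} [Field F'] [Algebra Qb F']
  {α β : laurentBaseChange Qb F₀ →ₐ[Qb] F'}
  {δ : laurentBaseChange Qb F₀ ≃ₐ[Qb] laurentBaseChange Qb F₀}

/-- `δ (σ U) = σ W` when `δ U = W`. -/
theorem toFG_galA_diamond (hst : StableG A Fk) (hδ : DiamondG F₀ A Fk δ)
    (g : A.decompositionSubgroup ℚ) {U W : LaurentSeries A}
    (hU : IsIntG F₀ A Fk U) (hW : IsIntG F₀ A Fk W) (hUW : toFG hW = δ (toFG hU)) :
    toFG (isIntG_galA hst g hW) = δ (toFG (isIntG_galA hst g hU)) := by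
  rw [toFG_galA hst g hW, toFG_galA hst g hU, hδ.galois, hUW]

/-- The integral Kronecker norm `K(U) = kron2 p (σU) (σW)`, `W = δ U`. -/
theorem isIntG_kron2_galA (hst : StableG A Fk) (hδ : DiamondG F₀ A Fk δ)
    (hnid : NormIdG α β p δ) {g : A.decompositionSubgroup ℚ}
    (hgk : decK g = frobenius (ResidueField A) p) {U W : LaurentSeries A}
    (hU : IsIntG F₀ A Fk U) (hW : IsIntG F₀ A Fk W) (hUW : toFG hW = δ (toFG hU)) :
    IsIntG F₀ A Fk (kron2 p (galA g U) (galA g W)) := by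
  refine ⟨?_, ?_, ?_⟩
  · rw [coeffMap_kron2]
    have h := hnid (toFG (isIntG_galA hst g hU))
    rw [← toFG_galA_diamond hst hδ g hU hW hUW, coe_toFG, coe_toFG] at h
    rw [← h]
    exact (normG α β (toFG (isIntG_galA hst g hU))).2
  · rw [coeffMap_residue_kron2_galA hgk]
    exact mul_mem (pow_mem hU.2.1 p) (hst _ _ (hst _ _ hW.2.1))
  · rw [coeffMap_residue_kron2_galA hgk]
    exact mul_ne_zero (pow_ne_zero p hU.2.2)
      (Fermat.Agent.S29.H222.coeffMap_ne_zero_of_injective _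
        (Fermat.Agent.S29.H222.decK_injective g)
        (Fermat.Agent.S29.H222.coeffMap_ne_zero_of_injective _
          (Fermat.Agent.S29.H222.decK_injective g) hW.2.2))

theorem toFG_kron2_galA (hst : StableG A Fk) (hδ : DiamondG F₀ A Fk δ)
    (hnid : NormIdG α β p δ) {g : A.decompositionSubgroup ℚ}
    (hgk : decK g = frobenius (ResidueField A) p) {U W : LaurentSeries A}
    (hU : IsIntG F₀ A Fk U) (hW : IsIntG F₀ A Fk W) (hUW : toFG hW = δ (toFG hU)) :
    toFG (isIntG_kron2_galA hst hδ hnid hgk hU hW hUW)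
      = normG α β (toFG (isIntG_galA hst g hU)) := by
  apply Subtype.ext
  have h := hnid (toFG (isIntG_galA hst g hU))
  rw [← toFG_galA_diamond hst hδ g hU hW hUW, coe_toFG, coe_toFG] at h
  rw [coe_toFG, coeffMap_kron2, h]

end Kron

/-! ### ESK-F with diamond -/

/-- **Generic ESK-F with diamond.**  Every Frobenius element `σ` at `A` satisfies
`σ² (δ x) - T (σ x) + p x = 0` on the `m`-torsion of `Pic0 ℚ̄ (ℚ̄ · F₀)`. -/
theorem eskG_frob {p : ℕ} (hp : p.Prime) {m : ℕ} (hm : m ≠ 0) (hA : A.LiesOverPrime p)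
    (hcore : CoreG F₀ A Fk m) (hpgi : PGIG F₀ A Fk) (hst : StableG A Fk)
    {F' : Type*} [Field F'] [Algebra Qb F'] [HasPrincipalDivisors Qb F']
    (α β : laurentBaseChange Qb F₀ →ₐ[Qb] F')
    (hα : α.toRingHom.IsIntegral) (hβ : β.toRingHom.IsIntegral)
    (hFI : FundamentalIdentityAlong Qb β hβ) (hfin : FiniteAlong Qb α)
    (hN : NormFormulaAlong Qb α hfin)
    (δ : laurentBaseChange Qb F₀ ≃ₐ[Qb] laurentBaseChange Qb F₀) (hδ : DiamondG F₀ A Fk δ)
    (hnid : haveI : NeZero p := ⟨hp.ne_zero⟩; NormIdG α β p δ) :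
    ∀ σ : Qb ≃ₐ[ℚ] Qb, A.IsFrobeniusAt σ p →
      ∀ x : Pic0 Qb (laurentBaseChange Qb F₀), (m : ℤ) • x = 0 →
        σ • σ • (δ • x) - Pic0.correspondence β α hβ hα hFI hfin hN (σ • x) + (p : ℤ) • x = 0 := by
  intro σ hσ x hx
  haveI : NeZero p := ⟨hp.ne_zero⟩
  haveI : Fact p.Prime := ⟨hp⟩
  haveI : CharP (ResidueField A) p :=
    Fermat.Agent.S29.H222.charP_residueField_of_liesOver hp hA
  obtain ⟨hdec, hfrob⟩ := hσ
  set g : A.decompositionSubgroup ℚ := ⟨σ, hdec⟩ with hg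
  have hgk : decK g = frobenius (ResidueField A) p := RingHom.ext fun x => hfrob x
  obtain ⟨D, rfl⟩ := Pic0.mk_surjective x
  obtain ⟨U₁, U₂, h₁, h₂, D₁, D₂, hd₁, hd₂, hDD⟩ :=
    exists_isIntG_of_principal hpgi (smul_mem_principal_of_torsionG D hx)
  obtain ⟨W₁, hW₁, hUW₁⟩ := hδ.integral U₁ h₁
  obtain ⟨W₂, hW₂, hUW₂⟩ := hδ.integral U₂ h₂
  set G := arithmeticGalois F₀ σ with hG
  -- the integral series
  have hg₁ := isIntG_galA hst g h₁
  have hg₂ := isIntG_galA hst g h₂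
  have hgW₁ := isIntG_galA hst g hW₁
  have hgW₂ := isIntG_galA hst g hW₂
  have hggW₁ := isIntG_galA hst g hgW₁
  have hggW₂ := isIntG_galA hst g hgW₂
  have hK₁ := isIntG_kron2_galA hst hδ hnid hgk h₁ hW₁ hUW₁
  have hK₂ := isIntG_kron2_galA hst hδ hnid hgk h₂ hW₂ hUW₂
  have hV₁ : IsIntG F₀ A Fk
      (galA g (galA g W₁) * U₁ ^ p * kron2 p (galA g U₂) (galA g W₂)) :=
    isIntG_mul (isIntG_mul hggW₁ (isIntG_pow h₁ p)) hK₂
  have hV₂ : IsIntG F₀ A Fk
      (galA g (galA g W₂) * U₂ ^ p * kron2 p (galA g U₁) (galA g W₁)) :=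
    isIntG_mul (isIntG_mul hggW₂ (isIntG_pow h₂ p)) hK₁
  -- equal reductions
  have hred : coeffMap (residue A)
        (galA g (galA g W₁) * U₁ ^ p * kron2 p (galA g U₂) (galA g W₂))
      = coeffMap (residue A)
        (galA g (galA g W₂) * U₂ ^ p * kron2 p (galA g U₁) (galA g W₁)) := by
    simp only [map_mul, map_pow, Fermat.Agent.S29.H222.coeffMap_residue_galA,
      coeffMap_residue_kron2_galA hgk]
    ring
  -- divisors
  have hδ₁ : IsDivOf (toFG hW₁) (δ • D₁) := by rw [hUW₁]; exact isDivOf_algEquiv δ hd₁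
  have hδ₂ : IsDivOf (toFG hW₂) (δ • D₂) := by rw [hUW₂]; exact isDivOf_algEquiv δ hd₂
  have hσ₁ : IsDivOf (toFG hg₁) (G • D₁) := by rw [toFG_galA hst]; exact hd₁.smul G
  have hσ₂ : IsDivOf (toFG hg₂) (G • D₂) := by rw [toFG_galA hst]; exact hd₂.smul G
  have hσW₁ : IsDivOf (toFG hgW₁) (G • δ • D₁) := by rw [toFG_galA hst]; exact hδ₁.smul G
  have hσW₂ : IsDivOf (toFG hgW₂) (G • δ • D₂) := by rw [toFG_galA hst]; exact hδ₂.smul G
  have hσσ₁ : IsDivOf (toFG hggW₁) (G • G • δ • D₁) := by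
    rw [toFG_galA hst]; exact hσW₁.smul G
  have hσσ₂ : IsDivOf (toFG hggW₂) (G • G • δ • D₂) := by
    rw [toFG_galA hst]; exact hσW₂.smul G
  have hp₁ : IsDivOf (toFG (isIntG_pow h₁ p)) ((p : ℤ) • D₁) := by
    rw [toFG_pow]; exact hd₁.pow p
  have hp₂ : IsDivOf (toFG (isIntG_pow h₂ p)) ((p : ℤ) • D₂) := by
    rw [toFG_pow]; exact hd₂.pow p
  have hT₁ : IsDivOf (toFG hK₁) (Divisor.correspondence β α hβ hα (G • D₁)) := by
    rw [toFG_kron2_galA hst hδ hnid hgk h₁ hW₁ hUW₁]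
    exact isDivOf_correspondenceG hα hβ hfin hN (toFG_ne_zero hg₁) hσ₁
  have hT₂ : IsDivOf (toFG hK₂) (Divisor.correspondence β α hβ hα (G • D₂)) := by
    rw [toFG_kron2_galA hst hδ hnid hgk h₂ hW₂ hUW₂]
    exact isDivOf_correspondenceG hα hβ hfin hN (toFG_ne_zero hg₂) hσ₂
  have hdV₁ : IsDivOf (toFG hV₁)
      (G • G • δ • D₁ + (p : ℤ) • D₁ + Divisor.correspondence β α hβ hα (G • D₂)) := by
    rw [toFG_mul (isIntG_mul hggW₁ (isIntG_pow h₁ p)) hK₂, toFG_mul hggW₁ (isIntG_pow h₁ p)]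
    exact ((hσσ₁.mul (toFG_ne_zero _) (toFG_ne_zero _) hp₁).mul
      (mul_ne_zero (toFG_ne_zero _) (toFG_ne_zero _)) (toFG_ne_zero _) hT₂)
  have hdV₂ : IsDivOf (toFG hV₂)
      (G • G • δ • D₂ + (p : ℤ) • D₂ + Divisor.correspondence β α hβ hα (G • D₁)) := by
    rw [toFG_mul (isIntG_mul hggW₂ (isIntG_pow h₂ p)) hK₁, toFG_mul hggW₂ (isIntG_pow h₂ p)]
    exact ((hσσ₂.mul (toFG_ne_zero _) (toFG_ne_zero _) hp₂).mul
      (mul_ne_zero (toFG_ne_zero _) (toFG_ne_zero _)) (toFG_ne_zero _) hT₁)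
  -- the divisor of the relation
  set Dv : Divisor Qb (laurentBaseChange Qb F₀) := (D : Divisor Qb (laurentBaseChange Qb F₀))
    with hDv
  set E : Divisor Qb (laurentBaseChange Qb F₀) :=
    G • G • δ • Dv - Divisor.correspondence β α hβ hα (G • Dv) + (p : ℤ) • Dv with hE
  have hGz : ∀ X : Divisor Qb (laurentBaseChange Qb F₀),
      G • ((m : ℤ) • X) = (m : ℤ) • (G • X) :=
    fun X => map_zsmul (DistribSMul.toAddMonoidHom (Divisor Qb (laurentBaseChange Qb F₀)) G) m X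
  have hδz : ∀ X : Divisor Qb (laurentBaseChange Qb F₀),
      δ • ((m : ℤ) • X) = (m : ℤ) • (δ • X) :=
    fun X => map_zsmul (DistribSMul.toAddMonoidHom (Divisor Qb (laurentBaseChange Qb F₀)) δ) m X
  have hmE : (m : ℤ) • E
      = (G • G • δ • D₁ + (p : ℤ) • D₁ + Divisor.correspondence β α hβ hα (G • D₂))
        - (G • G • δ • D₂ + (p : ℤ) • D₂ + Divisor.correspondence β α hβ hα (G • D₁)) := by
    have e1 : (m : ℤ) • E = G • G • δ • ((m : ℤ) • Dv)
        - Divisor.correspondence β α hβ hα (G • ((m : ℤ) • Dv))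
        + (p : ℤ) • ((m : ℤ) • Dv) := by
      rw [hE, smul_add, smul_sub, hδz, hGz, hGz, hGz, map_zsmul, smul_comm (m : ℤ) (p : ℤ) Dv]
    rw [e1, hDD]
    simp only [smul_sub, map_sub]
    abel
  have hkey : ∀ v : Place Qb (laurentBaseChange Qb F₀),
      (m : ℤ) * E v = v.ord (toFG hV₁) - v.ord (toFG hV₂) := by
    intro v
    rw [← hdV₁ v, ← hdV₂ v, ← Finsupp.sub_apply, ← hmE, Finsupp.smul_apply, smul_eq_mul]
  have hord : ∀ v : Place Qb (laurentBaseChange Qb F₀),
      (m : ℤ) ∣ v.ord (toFG hV₁) - v.ord (toFG hV₂) := fun v => ⟨_, (hkey v).symm⟩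
  obtain ⟨c, y, hc, hy, hcy⟩ := hcore _ _ hV₁ hV₂ hred hord
  have hEy : IsDivOf y E :=
    Fermat.Agent.S29.H222.isDivOf_of_eq_const_mul_pow hm hc hy (toFG_ne_zero hV₂) hcy hkey
  -- conclusion in `Pic0`
  rw [Pic0.smul_mk, galois_smul_mkG, galois_smul_mkG, galois_smul_mkG, Pic0.correspondence_mk]
  have hfinal : (Pic0.mk (SemilinearAut.degZeroSMulHom G
        (SemilinearAut.degZeroSMulHom G (Pic0.degZeroSMulHom δ D)))
      - Pic0.mk (Pic0.degZeroCorrespondence β α hβ hα hFI (SemilinearAut.degZeroSMulHom G D))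
      + (p : ℤ) • Pic0.mk D : Pic0 Qb (laurentBaseChange Qb F₀))
      = Pic0.mk (SemilinearAut.degZeroSMulHom G
          (SemilinearAut.degZeroSMulHom G (Pic0.degZeroSMulHom δ D))
          - Pic0.degZeroCorrespondence β α hβ hα hFI (SemilinearAut.degZeroSMulHom G D)
          + (p : ℤ) • D) := rfl
  rw [hfinal]
  exact pic0_mk_eq_zero_of_isDivOfG _ hy hEy

/-! ### The diamond commutes with the Galois action on `Pic0` -/

section Comm

variable {K F : Type*} [Field K] [Field F] [Algebra K F]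

/-- If `δ` and `g` commute on `F`, so do their inverses. -/
theorem algEquiv_inv_comm (δ : F ≃ₐ[K] F) (g : SemilinearAut K F)
    (h : ∀ y : F, δ (g • y) = g • δ y) (y : F) : δ⁻¹ (g⁻¹ • y) = g⁻¹ • δ⁻¹ y := by
  have h1 : δ (g • (δ⁻¹ (g⁻¹ • y))) = y := by
    rw [h]
    show g • δ (δ.symm (g⁻¹ • y)) = y
    rw [AlgEquiv.apply_symm_apply, smul_inv_smul]
  have h2 : δ (g • (g⁻¹ • δ⁻¹ y)) = y := by
    rw [smul_inv_smul]
    exact δ.apply_symm_apply y
  have h3 : g • (δ⁻¹ (g⁻¹ • y)) = g • (g⁻¹ • δ⁻¹ y) := δ.injective (h1.trans h2.symm)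
  exact MulAction.injective g h3

theorem place_smul_comm (δ : F ≃ₐ[K] F) (g : SemilinearAut K F)
    (h : ∀ y : F, δ (g • y) = g • δ y) (v : Place K F) : δ • (g • v) = g • (δ • v) := by
  apply Place.ext
  ext x
  rw [Place.smul_toValuationSubring, SemilinearAut.smul_toValuationSubring,
    SemilinearAut.smul_toValuationSubring, Place.smul_toValuationSubring,
    ValuationSubring.mem_pointwise_smul_iff_inv_smul_mem,
    ValuationSubring.mem_pointwise_smul_iff_inv_smul_mem,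
    ValuationSubring.mem_pointwise_smul_iff_inv_smul_mem,
    ValuationSubring.mem_pointwise_smul_iff_inv_smul_mem]
  have e : g⁻¹ • δ⁻¹ • x = δ⁻¹ • g⁻¹ • x := (algEquiv_inv_comm δ g h x).symm
  rw [e]

theorem divisor_smul_comm (δ : F ≃ₐ[K] F) (g : SemilinearAut K F)
    (h : ∀ y : F, δ (g • y) = g • δ y) (D : Divisor K F) : δ • (g • D) = g • (δ • D) := by
  ext w
  rw [Divisor.smul_apply, SemilinearAut.divisor_smul_apply, SemilinearAut.divisor_smul_apply,
    Divisor.smul_apply]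
  congr 1
  exact (place_smul_comm δ⁻¹ g⁻¹ (algEquiv_inv_comm δ g h) w).symm

theorem pic0_smul_comm (δ : F ≃ₐ[K] F) (g : SemilinearAut K F)
    (h : ∀ y : F, δ (g • y) = g • δ y) (x : Pic0 K F) : δ • (g • x) = g • (δ • x) := by
  obtain ⟨D, rfl⟩ := Pic0.mk_surjective x
  rw [SemilinearAut.pic0_smul_mk, Pic0.smul_mk, Pic0.smul_mk, SemilinearAut.pic0_smul_mk]
  exact congrArg Pic0.mk (Subtype.ext (divisor_smul_comm δ g h D))

end Comm

/-- A diamond commutes with the Galois action on `Pic0`. -/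
theorem DiamondG.smul_comm {δ : laurentBaseChange Qb F₀ ≃ₐ[Qb] laurentBaseChange Qb F₀}
    (hδ : DiamondG F₀ A Fk δ) (σ : Qb ≃ₐ[ℚ] Qb) (x : Pic0 Qb (laurentBaseChange Qb F₀)) :
    δ • (σ • x) = σ • (δ • x) := by
  rw [galois_smul_pic0_def, galois_smul_pic0_def]
  exact pic0_smul_comm δ (arithmeticGalois F₀ σ) (fun y => hδ.galois σ y) x

/-- The inverse of a diamond commutes with the Galois action on `Pic0`. -/
theorem DiamondG.inv_smul_comm {δ : laurentBaseChange Qb F₀ ≃ₐ[Qb] laurentBaseChange Qb F₀}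
    (hδ : DiamondG F₀ A Fk δ) (σ : Qb ≃ₐ[ℚ] Qb) (x : Pic0 Qb (laurentBaseChange Qb F₀)) :
    δ⁻¹ • (σ • x) = σ • (δ⁻¹ • x) := by
  have h := hδ.smul_comm σ (δ⁻¹ • x)
  rw [smul_inv_smul] at h
  rw [← h, inv_smul_smul]

/-- **Generic ESK-F with diamond, second form**: `σ² x - T_p (σ x) + p ⟨p⟩ x = 0` with
`T_p := T ∘ δ⁻¹` and `⟨p⟩ := δ⁻¹`. -/
theorem eskG_frob' {p : ℕ} (hp : p.Prime) {m : ℕ} (hm : m ≠ 0) (hA : A.LiesOverPrime p)
    (hcore : CoreG F₀ A Fk m) (hpgi : PGIG F₀ A Fk) (hst : StableG A Fk)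
    {F' : Type*} [Field F'] [Algebra Qb F'] [HasPrincipalDivisors Qb F']
    (α β : laurentBaseChange Qb F₀ →ₐ[Qb] F')
    (hα : α.toRingHom.IsIntegral) (hβ : β.toRingHom.IsIntegral)
    (hFI : FundamentalIdentityAlong Qb β hβ) (hfin : FiniteAlong Qb α)
    (hN : NormFormulaAlong Qb α hfin)
    (δ : laurentBaseChange Qb F₀ ≃ₐ[Qb] laurentBaseChange Qb F₀) (hδ : DiamondG F₀ A Fk δ)
    (hnid : haveI : NeZero p := ⟨hp.ne_zero⟩; NormIdG α β p δ) :
    ∀ σ : Qb ≃ₐ[ℚ] Qb, A.IsFrobeniusAt σ p →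
      ∀ x : Pic0 Qb (laurentBaseChange Qb F₀), (m : ℤ) • x = 0 →
        σ • σ • x - Pic0.correspondence β α hβ hα hFI hfin hN (δ⁻¹ • (σ • x))
          + (p : ℤ) • (δ⁻¹ • x) = 0 := by
  intro σ hσ x hx
  have hx' : (m : ℤ) • (δ⁻¹ • x) = 0 := by
    have h1 : δ⁻¹ • ((m : ℤ) • x) = (m : ℤ) • (δ⁻¹ • x) :=
      map_zsmul (DistribSMul.toAddMonoidHom (Pic0 Qb (laurentBaseChange Qb F₀)) δ⁻¹) m x
    rw [← h1, hx]
    exact map_zero (DistribSMul.toAddMonoidHom (Pic0 Qb (laurentBaseChange Qb F₀)) δ⁻¹)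
  have h := eskG_frob hp hm hA hcore hpgi hst α β hα hβ hFI hfin hN δ hδ hnid σ hσ
    (δ⁻¹ • x) hx'
  rw [smul_inv_smul, ← hδ.inv_smul_comm σ x] at h
  exact h

end Fermat.Agent.S48.H136

end
end
-- ===== PACK-END S48/H136/ESKGFrob.lean

-- ===== PACK-BEGIN S48/H136/RawES1.lean
section
/-
S48 / Tower A1 (helper136) — piece ESK1, part 3: the ADAPTER

    `rawES1_of_inputs : Core1Statement → PGI1Statement → HI1Statement → DiamondInt1Statement →
        NormId1Statement → Res.RawES1Statement true`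

from the generic engine (`ESKG.lean`, `ESKGFrob.lean`) to the frozen shape of
`Fermat/Agent/S48/Res/Parts.lean`, for
`(F₀, F', F_k, δ) = (F1 M, ℚ̄·F1p M p, F1C k M, diamondAut (unitOf M p))`.

The five inputs (all for primes `p ∤ M` and valuation subrings `A ⊆ ℚ̄` above `p`, `k = A/𝔪`):

* `Core1Statement`       : the Kummer core `CoreG (F1 M) A (F1C k M) ℓ`, `ℓ ≠ p` prime
                           (IGUSA1 / GoodModel for `F1C` + S18 Alg);
* `PGI1Statement`        : principal divisors of `ℚ̄·F1 M` are generated by divisors of integral series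
                           (port of S37 PGI);
* `HI1Statement`         : `CorrInputs (beta1) (alpha1)` (FF-ALG + generic HI);
* `DiamondInt1Statement` : the diamond automorphism `diamondAut (unitOf M p)` preserves integral
                           series (FF-DIA + uniqueness of the Gauss valuation);
* `NormId1Statement`     : `Nm_α (β y) = V_p y · det (secMat p (δ_p y))` (NORMID1).

PROVED here without hypotheses: `stableG_F1C` (`F1C k M` is stable under coefficientwise ring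
endomorphisms), `diamondG_diamondAut_of_integral` (Galois-compatibility of the diamond).
-/



set_option autoImplicit false
set_option linter.style.haveILetI false

noncomputable section

namespace Fermat.Agent.S48.H136

open ModularCurve AlgebraicCurve HahnSeries IsLocalRing
open Fermat.Agent.S18 (Qb)
open Fermat.Agent.S48.F1 Fermat.Agent.S48.Res

/-! ### The action of an algebra automorphism on `Pic0`, two incarnations -/

section OfAlgAut

variable {K F : Type*} [Field K] [Field F] [Algebra K F]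

theorem place_ofAlgAut_smul (δ : F ≃ₐ[K] F) (v : Place K F) :
    SemilinearAut.ofAlgAut δ • v = δ • v := by
  apply Place.ext
  ext x
  rw [SemilinearAut.smul_toValuationSubring, Place.smul_toValuationSubring,
    ValuationSubring.mem_pointwise_smul_iff_inv_smul_mem,
    ValuationSubring.mem_pointwise_smul_iff_inv_smul_mem]
  exact Iff.rfl

theorem divisor_ofAlgAut_smul (δ : F ≃ₐ[K] F) (D : Divisor K F) :
    SemilinearAut.ofAlgAut δ • D = δ • D := by
  ext w
  rw [SemilinearAut.divisor_smul_apply, Divisor.smul_apply]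
  have h := place_ofAlgAut_smul δ⁻¹ w
  rw [map_inv] at h
  rw [h]

theorem pic0_ofAlgAut_smul (δ : F ≃ₐ[K] F) (x : Pic0 K F) :
    SemilinearAut.ofAlgAut δ • x = δ • x := by
  obtain ⟨D, rfl⟩ := Pic0.mk_surjective x
  rw [SemilinearAut.pic0_smul_mk, Pic0.smul_mk]
  exact congrArg Pic0.mk (Subtype.ext (divisor_ofAlgAut_smul δ D))

end OfAlgAut

/-! ### `F1C k M` is stable under coefficientwise endomorphisms -/

theorem coeffMap_mem_F1C {k : Type*} [Field k] (M : ℕ) (φ : k →+* k) {x : LaurentSeries k}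
    (hx : x ∈ F1C k M) : coeffMap φ x ∈ F1C k M := by
  unfold F1C at hx
  induction hx using IntermediateField.adjoin_induction with
  | mem y hy =>
      rcases hy with hy | hy
      · obtain ⟨d, hne, hd, rfl⟩ := hy
        haveI := hne
        rw [Fermat.Agent.S37.H400.coeffMap_qExpand_h400, coeffMap_jqModC]
        exact IntermediateField.subset_adjoin k _ (Or.inl (mem_divisorExpansionsC k M hd))
      · obtain ⟨a, ha, rfl⟩ := hy
        rw [coeffMap_divGenC]
        exact divGenC_mem_F1C k M ha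
  | algebraMap c =>
      rw [coeffMap_algebraMap]
      exact (F1C k M).algebraMap_mem _
  | add y z _ _ hy hz => rw [map_add]; exact add_mem hy hz
  | inv y _ hy => rw [map_inv₀]; exact inv_mem hy
  | mul y z _ _ hy hz => rw [map_mul]; exact mul_mem hy hz

theorem stableG_F1C (A : ValuationSubring Qb) (M : ℕ) :
    StableG A (F1C (ResidueField A) M) :=
  fun φ _ hx => coeffMap_mem_F1C M φ hx

/-! ### The inputs -/

/-- **CORE1**: the Kummer core for `F1 M` at every place `A` above `p ∤ M ℓ`, modulus `ℓ`. -/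
def Core1Statement : Prop :=
  ∀ (M ℓ p : ℕ), M ≠ 0 → ℓ.Prime → p.Prime → ¬ p ∣ M * ℓ →
    ∀ A : ValuationSubring Qb, A.LiesOverPrime p →
      CoreG (F1 M) A (F1C (ResidueField A) M) ℓ

/-- **PGI1**: principal divisors of `ℚ̄ · F1 M` are generated by divisors of integral series. -/
def PGI1Statement : Prop :=
  ∀ (M p : ℕ), M ≠ 0 → p.Prime → ¬ p ∣ M →
    ∀ A : ValuationSubring Qb, A.LiesOverPrime p → PGIG (F1 M) A (F1C (ResidueField A) M)

/-- **HI1**: the Hecke inputs for `α = alpha1`, `β = beta1` at level `(M; p)`. -/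
def HI1Statement : Prop :=
  ∀ (M p : ℕ) [NeZero p], M ≠ 0 → p.Prime → ¬ p ∣ M →
    CorrInputs (beta1 Qb M p) (alpha1 Qb M p)

/-- **DIA-INT**: the diamond automorphism `δ_p` preserves integral series. -/
def DiamondInt1Statement : Prop :=
  ∀ (M p : ℕ), M ≠ 0 → p.Prime → ¬ p ∣ M →
    ∀ A : ValuationSubring Qb, A.LiesOverPrime p →
      ∀ (U : LaurentSeries A) (hU : IsIntG (F1 M) A (F1C (ResidueField A) M) U),
        ∃ (W : LaurentSeries A) (hW : IsIntG (F1 M) A (F1C (ResidueField A) M) W),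
          toFG hW = diamondAut Qb M (unitOf M p) (toFG hU)

/-- **NORMID1**: `Nm_α (β y) = V_p y · det (secMat p (δ_p y))`. -/
def NormId1Statement : Prop :=
  ∀ (M p : ℕ) [NeZero p], M ≠ 0 → p.Prime → ¬ p ∣ M →
    NormIdG (alpha1 Qb M p) (beta1 Qb M p) p (diamondAut Qb M (unitOf M p))

/-! ### The diamond datum -/

/-- The diamond automorphism commutes with the coefficientwise Galois action. -/
theorem diamondAut_galois (M : ℕ) (d : (ZMod M)ˣ) (σ : Qb ≃ₐ[ℚ] Qb) (y : F1Bar M) :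
    diamondAut Qb M d (arithmeticGalois (F1 M) σ • y)
      = arithmeticGalois (F1 M) σ • diamondAut Qb M d y := by
  have h := congrArg (fun g : SemilinearAut Qb (F1Bar M) => g • y)
    (arithmeticGalois_mul_diamond M d σ)
  simp only [mul_smul, SemilinearAut.ofAlgAut_smul] at h
  exact h.symm

theorem diamondG_diamondAut_of_integral (M : ℕ) (d : (ZMod M)ˣ) (A : ValuationSubring Qb)
    (hint : ∀ (U : LaurentSeries A) (hU : IsIntG (F1 M) A (F1C (ResidueField A) M) U),
      ∃ (W : LaurentSeries A) (hW : IsIntG (F1 M) A (F1C (ResidueField A) M) W),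
        toFG hW = diamondAut Qb M d (toFG hU)) :
    DiamondG (F1 M) A (F1C (ResidueField A) M) (diamondAut Qb M d) :=
  ⟨fun σ y => diamondAut_galois M d σ y, hint⟩

/-! ### The adapter -/

/-- **RawES1 from its five inputs** (exact shape of `Res/Parts.lean`, orientation `s = true`). -/
theorem rawES1_of_inputs (hcore : Core1Statement) (hpgi : PGI1Statement) (hHI : HI1Statement)
    (hdia : DiamondInt1Statement) (hnid : NormId1Statement) : RawES1Statement true := by
  intro M ℓ p hM hℓ hp hpMℓ A hA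
  have hpM : ¬ p ∣ M := fun h => hpMℓ (Dvd.dvd.mul_right h ℓ)
  haveI : NeZero p := ⟨hp.ne_zero⟩
  have hC := hcore M ℓ p hM hℓ hp hpMℓ A hA
  have hP := hpgi M p hM hp hpM A hA
  have hst := stableG_F1C A M
  refine ⟨eskG_inertia hℓ.ne_zero hC hP hst, ?_⟩
  intro σ hσ x hx
  obtain ⟨hβ, hα, hPD, hfin, hFI, hN⟩ := hHI M p hM hp hpM
  haveI := hPD
  have hδ := diamondG_diamondAut_of_integral M (unitOf M p) A (hdia M p hM hp hpM A hA)
  have h := eskG_frob hp hℓ.ne_zero hA hC hP hst (alpha1 Qb M p) (beta1 Qb M p) hα hβ hFI hfin hN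
    (diamondAut Qb M (unitOf M p)) hδ (hnid M p hM hp hpM) σ hσ x hx
  have hT : hecke1 M p = (Pic0.correspondence (beta1 Qb M p) (alpha1 Qb M p) hβ hα hFI hfin
      hN).toIntLinearMap := by
    rw [hecke1_eq, heckeL, corrOp_eq (beta1 Qb M p) (alpha1 Qb M p) hβ hα hFI hfin hN]
  have hD : diamondS true M p (σ • σ • x)
      = σ • σ • (diamondAut Qb M (unitOf M p) • x) := by
    show diamond1 M (unitOf M p) (σ • σ • x) = _
    rw [galois_smul_diamond1, galois_smul_diamond1, diamond1_apply, pic0_ofAlgAut_smul]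
  rw [hD, hT]
  exact h

end Fermat.Agent.S48.H136

end
end
-- ===== PACK-END S48/H136/RawES1.lean

-- ===== PACK-BEGIN S48/H136/ESKV.lean
section
/-
S48 / Tower A1 (helper136) — piece ESK1, part 4: GENERIC raw Eichler–Shimura with diamond,
VERSION 2 (no integrality hypothesis on the diamond).

Why a second version.  `DiamondG.integral` of `ESKGFrob.lean` asks that the diamond automorphism
map series with integral `q`-expansion (at `∞`) to series with integral `q`-expansion.  For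
`X₁(M)` this is FALSE as soon as `d ≠ ±1`: `δ_d` moves the cusp `∞`, and a function with integral
expansion at `∞` may have a pole through the reduction of the cusp `δ_d ∞` (`u = 1/(p + t)`,
`t` a local parameter at `δ_d ∞`).  What is TRUE (and is exactly what the Gauss-lemma proof of PGI
constructs, cf. `S37/H700/GaussMain.lean`, `pgi`) is

  `ValG F₀ A Fk` : every `f ≠ 0` in `F = ℚ̄ · F₀` is `c · u₁ / u₂`, `c ∈ ℚ̄ˣ`, `u₁ u₂` integral series
                   (elements of `A((q))` lying in `F` with nonzero reduction in `F_k`).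

`eskV_inertia` : `CoreG + ValG + StableG ⟹` inertia at `A` acts trivially on `J[m]`;
`eskV_frob`    : `CoreG + ValG + StableG + HeckeInputs + NormIdG + (δ commutes with Galois) ⟹`
                 `σ² (δ x) - T (σ x) + p x = 0` on `J[m]` for every Frobenius element `σ` at `A`.
`eskV_frob'`   : the same in the form `σ² x - T (δ⁻¹ σ x) + p δ⁻¹ x = 0`.

Proof of `eskV_frob`: `m D = div f`, `f = c u₁/u₂`, `δ f = c' w₁/w₂` (`ValG` twice);
`R := σ²(δ f) · f^p / Nm_α(β σ f)` has divisor `m E`, `E` the divisor of the relation; `ValG` for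
`R`: `R = c₃ v₁/v₂`.  NORM-ID and the multiplicativity of `V_p`, `det secMat` give the identity of
`q`-series `R · k₁ · X₂ = k₂ · X₁` with constants `k₁ k₂` and
`X₁ = σ²W₁ · U₁^p · kron2 (σU₂) (σW₂)`, `X₂ = σ²W₂ · U₂^p · kron2 (σU₁) (σW₁)` in `A((q))`, which
have the SAME reduction.  Hence `v₁/v₂` is a unit constant times a series with reduction `1`, and
the Kummer core `CoreG` applies to `(a v₁, v₂)`.
-/


set_option autoImplicit false
set_option linter.style.haveILetI false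

noncomputable section

namespace Fermat.Agent.S48.H136

open ModularCurve AlgebraicCurve HahnSeries IsLocalRing
open Fermat.Agent.S18 (Qb)
open Fermat.Agent.S29.H222 (IsDivOf decA decK galA)
open Fermat.Agent.S37.H400 (secMat)

/-! ### Constants and the formal Kronecker norm -/

section Const

variable {R : Type*} [CommRing R]

theorem single_zero_pow (c : R) (n : ℕ) :
    (HahnSeries.single (0 : ℤ) c : LaurentSeries R) ^ n = HahnSeries.single 0 (c ^ n) :=
  (map_pow (HahnSeries.C : R →+* LaurentSeries R) c n).symm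

theorem single_zero_mul_single_zero (c d : R) :
    (HahnSeries.single (0 : ℤ) c : LaurentSeries R) * HahnSeries.single 0 d
      = HahnSeries.single 0 (c * d) :=
  (map_mul (HahnSeries.C : R →+* LaurentSeries R) c d).symm

theorem single_zero_one : (HahnSeries.single (0 : ℤ) (1 : R) : LaurentSeries R) = 1 := rfl

theorem det_secMat_single_zero (p : ℕ) [NeZero p] (c : R) :
    (secMat p (HahnSeries.single (0 : ℤ) c : LaurentSeries R)).det
      = HahnSeries.single 0 (c ^ p) := by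
  have h := Fermat.Agent.S37.H400.secMat_qExpand p (HahnSeries.single (0 : ℤ) c : LaurentSeries R)
  rw [qExpand_single, mul_zero] at h
  rw [h, Matrix.scalar_apply, Matrix.det_diagonal, Finset.prod_const, Finset.card_univ,
    Fintype.card_fin, single_zero_pow]

theorem kron2_mul (p : ℕ) [NeZero p] (f f' g g' : LaurentSeries R) :
    kron2 p (f * f') (g * g') = kron2 p f g * kron2 p f' g' := by
  rw [kron2, kron2, kron2, map_mul, Fermat.Agent.S37.H400.secMat_mul, Matrix.det_mul]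
  ring

theorem kron2_single_zero (p : ℕ) [NeZero p] (c c' : R) :
    kron2 p (HahnSeries.single (0 : ℤ) c : LaurentSeries R) (HahnSeries.single 0 c')
      = HahnSeries.single 0 (c * c' ^ p) := by
  rw [kron2, qExpand_single, mul_zero, det_secMat_single_zero, single_zero_mul_single_zero]

end Const

/-! ### Two algebraic identities -/

section Identities

variable {L : Type*} [Field L]

/-- `x = C y₁/y₂`, `y₁ = C₁ a₁/b₁`, `y₂ = C₂ a₂/b₂` ⟹ `x = (C C₁/C₂) (a₁ b₂)/(a₂ b₁)`. -/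
theorem eskV_quot {x y₁ y₂ a₁ b₁ a₂ b₂ C C₁ C₂ C' : L} (hC₂ : C₂ ≠ 0) (hy₂ : y₂ ≠ 0)
    (E0 : C' * C₂ = C * C₁) (E1 : x * y₂ = C * y₁) (E2 : y₁ * b₁ = C₁ * a₁)
    (E3 : y₂ * b₂ = C₂ * a₂) : x * (a₂ * b₁) = C' * (a₁ * b₂) := by
  apply mul_right_cancel₀ (mul_ne_zero hC₂ hy₂)
  linear_combination (-(x * y₂ * b₁)) * E3 + (b₁ * y₂ * b₂) * E1 + (C * y₂ * b₂) * E2
    - (a₁ * b₂ * y₂) * E0

/-- The identity of `q`-series behind `eskV_frob`. -/
theorem eskV_key {r P Q S T Vu₁ Vu₂ Vc Nw₁ Nw₂ Nc gw₁ gw₂ gc u₁p u₂p cp : L}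
    (e5 : r * (P * Q) = S * T) (e8 : P * Vu₂ = Vc * Vu₁) (e7 : Q * Nw₂ = Nc * Nw₁)
    (e6 : S * gw₂ = gc * gw₁) (e9 : T * u₂p = cp * u₁p) :
    r * (Vc * Nc) * (gw₂ * u₂p * (Vu₁ * Nw₁)) = (gc * cp) * (gw₁ * u₁p * (Vu₂ * Nw₂)) := by
  linear_combination (-(r * (Nc * Nw₁) * gw₂ * u₂p)) * e8 - (r * P * Vu₂ * gw₂ * u₂p) * e7
    + (Vu₂ * Nw₂ * gw₂ * u₂p) * e5 + (T * Vu₂ * Nw₂ * u₂p) * e6 + (gc * gw₁ * Vu₂ * Nw₂) * e9

end Identities

variable {F₀ : IntermediateField ℚ (LaurentSeries ℚ)} {A : ValuationSubring Qb}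
  {Fk : IntermediateField (ResidueField A) (LaurentSeries (ResidueField A))}

/-! ### Unit constants -/

/-- If `κ · P = Q` with `P, Q ∈ A((q))` of nonzero reduction, then `κ` is a unit of `A`. -/
theorem exists_unit_of_const_mul_eq {P Q : LaurentSeries A}
    (hP : coeffMap (residue A) P ≠ 0) (hQ : coeffMap (residue A) Q ≠ 0) {κ : Qb}
    (h : HahnSeries.single (0 : ℤ) κ * coeffMap A.subtype P = coeffMap A.subtype Q) :
    ∃ a : A, IsUnit a ∧ (a : Qb) = κ := by
  have hκ0 : κ ≠ 0 := by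
    rintro rfl
    rw [HahnSeries.single_eq_zero, zero_mul] at h
    have hQ0 : Q = 0 :=
      Fermat.Agent.S29.H222.esk_coeffMap_subtype_injective (by rw [← h, map_zero])
    exact hQ (by rw [hQ0, map_zero])
  have hunit : ∀ (a : A) (P' Q' : LaurentSeries A), coeffMap (residue A) Q' ≠ 0 →
      HahnSeries.single (0 : ℤ) (a : Qb) * coeffMap A.subtype P' = coeffMap A.subtype Q' →
      IsUnit a := by
    intro a P' Q' hQ' h'
    have e : HahnSeries.single (0 : ℤ) a * P' = Q' := by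
      apply Fermat.Agent.S29.H222.esk_coeffMap_subtype_injective
      rw [map_mul, coeffMap_single]
      exact h'
    by_contra hna
    have hres : residue A a = 0 := (IsLocalRing.residue_eq_zero_iff a).mpr hna
    apply hQ'
    rw [← e, map_mul, coeffMap_single, hres, HahnSeries.single_eq_zero, zero_mul]
  rcases A.mem_or_inv_mem κ with hκ | hκ
  · exact ⟨⟨κ, hκ⟩, hunit ⟨κ, hκ⟩ P Q hQ h, rfl⟩
  · have h' : HahnSeries.single (0 : ℤ) ((⟨κ⁻¹, hκ⟩ : A) : Qb) * coeffMap A.subtype Q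
        = coeffMap A.subtype P := by
      show HahnSeries.single (0 : ℤ) κ⁻¹ * coeffMap A.subtype Q = coeffMap A.subtype P
      rw [← h, ← mul_assoc, single_zero_mul_single_zero, inv_mul_cancel₀ hκ0, single_zero_one,
        one_mul]
    have hu := hunit ⟨κ⁻¹, hκ⟩ Q P hP h'
    refine ⟨((hu.unit⁻¹ : Aˣ) : A), Units.isUnit _, ?_⟩
    have h1 : ((hu.unit⁻¹ : Aˣ) : A) * (⟨κ⁻¹, hκ⟩ : A) = 1 := by
      have := hu.unit.inv_mul
      simpa using this
    have h2 : (((hu.unit⁻¹ : Aˣ) : A) : Qb) * κ⁻¹ = 1 := congrArg Subtype.val h1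
    exact (eq_inv_of_mul_eq_one_left h2).trans (inv_inv κ)

/-- Multiplying an integral series by a unit constant. -/
theorem isIntG_const_mul {a : A} (ha : IsUnit a) {U : LaurentSeries A}
    (hU : IsIntG F₀ A Fk U) : IsIntG F₀ A Fk (HahnSeries.single (0 : ℤ) a * U) := by
  refine ⟨?_, ?_, ?_⟩
  · rw [map_mul, coeffMap_single, ← algebraMap_laurentSeries_eq_single]
    exact mul_mem ((laurentBaseChange Qb F₀).algebraMap_mem _) hU.1
  · rw [map_mul, coeffMap_single, ← algebraMap_laurentSeries_eq_single]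
    exact mul_mem (Fk.algebraMap_mem _) hU.2.1
  · rw [map_mul, coeffMap_single]
    refine mul_ne_zero ?_ hU.2.2
    rw [Ne, HahnSeries.single_eq_zero_iff]
    intro h0
    exact ((IsLocalRing.residue_eq_zero_iff a).mp h0) ha

theorem toFG_const_mul {a : A} (ha : IsUnit a) {U : LaurentSeries A}
    (hU : IsIntG F₀ A Fk U) :
    toFG (isIntG_const_mul ha hU)
      = algebraMap Qb (laurentBaseChange Qb F₀) (a : Qb) * toFG hU := by
  apply Subtype.ext
  show coeffMap A.subtype (HahnSeries.single (0 : ℤ) a * U)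
    = algebraMap Qb (LaurentSeries Qb) (a : Qb) * coeffMap A.subtype U
  rw [map_mul, coeffMap_single, algebraMap_laurentSeries_eq_single]
  rfl

/-! ### The hypothesis `ValG` -/

section Val

variable (F₀ A Fk)

/-- **VAL**: every nonzero element of `F = ℚ̄ · F₀` is a nonzero constant times the quotient of
two integral series. -/
def ValG : Prop :=
  ∀ f : laurentBaseChange Qb F₀, f ≠ 0 →
    ∃ (c : Qb) (U₁ U₂ : LaurentSeries A) (h₁ : IsIntG F₀ A Fk U₁) (h₂ : IsIntG F₀ A Fk U₂),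
      c ≠ 0 ∧ f * toFG h₂ = algebraMap Qb (laurentBaseChange Qb F₀) c * toFG h₁

end Val

/-- `ValG` for a function and its image under an automorphism, simultaneously. -/
theorem ValG.pair (hval : ValG F₀ A Fk)
    (δ : laurentBaseChange Qb F₀ ≃ₐ[Qb] laurentBaseChange Qb F₀)
    (f : laurentBaseChange Qb F₀) (hf : f ≠ 0) :
    ∃ (c c' : Qb) (U₁ U₂ W₁ W₂ : LaurentSeries A) (h₁ : IsIntG F₀ A Fk U₁)
      (h₂ : IsIntG F₀ A Fk U₂) (hW₁ : IsIntG F₀ A Fk W₁) (hW₂ : IsIntG F₀ A Fk W₂),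
      c ≠ 0 ∧ c' ≠ 0 ∧
      f * toFG h₂ = algebraMap Qb (laurentBaseChange Qb F₀) c * toFG h₁ ∧
      δ f * toFG hW₂ = algebraMap Qb (laurentBaseChange Qb F₀) c' * toFG hW₁ := by
  obtain ⟨c, U₁, U₂, h₁, h₂, hc, hfu⟩ := hval f hf
  have hδ₁ : δ (toFG h₁) ≠ 0 := (map_ne_zero δ).mpr (toFG_ne_zero h₁)
  have hδ₂ : δ (toFG h₂) ≠ 0 := (map_ne_zero δ).mpr (toFG_ne_zero h₂)
  obtain ⟨c₁, A₁, B₁, hA₁, hB₁, hc₁, hu₁⟩ := hval _ hδ₁
  obtain ⟨c₂, A₂, B₂, hA₂, hB₂, hc₂, hu₂⟩ := hval _ hδ₂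
  refine ⟨c, c * c₁ / c₂, U₁, U₂, A₁ * B₂, A₂ * B₁, h₁, h₂, isIntG_mul hA₁ hB₂,
    isIntG_mul hA₂ hB₁, hc, div_ne_zero (mul_ne_zero hc hc₁) hc₂, hfu, ?_⟩
  rw [toFG_mul hA₂ hB₁, toFG_mul hA₁ hB₂]
  have E1 : δ f * δ (toFG h₂) = algebraMap Qb (laurentBaseChange Qb F₀) c * δ (toFG h₁) := by
    rw [← map_mul, hfu, map_mul, AlgEquiv.commutes]
  have E0 : algebraMap Qb (laurentBaseChange Qb F₀) (c * c₁ / c₂)
      * algebraMap Qb (laurentBaseChange Qb F₀) c₂
      = algebraMap Qb (laurentBaseChange Qb F₀) c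
        * algebraMap Qb (laurentBaseChange Qb F₀) c₁ := by
    rw [← map_mul, ← map_mul, div_mul_cancel₀ _ hc₂]
  exact eskV_quot ((map_ne_zero _).mpr hc₂) hδ₂ E0 E1 hu₁ hu₂

/-! ### Coercions -/

theorem coe_algebraMap_lbc (c : Qb) :
    ((algebraMap Qb (laurentBaseChange Qb F₀) c : laurentBaseChange Qb F₀) : LaurentSeries Qb)
      = HahnSeries.single 0 c := by
  rw [← algebraMap_laurentSeries_eq_single]
  rfl

/-! ### ESK-U from `ValG` -/

/-- **Generic ESK-U, version 2.**  Inertia at `A` acts trivially on the `m`-torsion of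
`Pic0 ℚ̄ (ℚ̄ · F₀)`. -/
theorem eskV_inertia {m : ℕ} (hm : m ≠ 0) (hcore : CoreG F₀ A Fk m) (hval : ValG F₀ A Fk)
    (hst : StableG A Fk) :
    ∀ τ ∈ A.inertiaSubgroupIn ℚ, ∀ x : Pic0 Qb (laurentBaseChange Qb F₀),
      (m : ℤ) • x = 0 → τ • x = x := by
  intro τ hτ x hx
  obtain ⟨g, hg, rfl⟩ := hτ
  obtain ⟨D, rfl⟩ := Pic0.mk_surjective x
  obtain ⟨f, hf0, hfD⟩ := smul_mem_principal_of_torsionG D hx
  obtain ⟨c, U₁, U₂, h₁, h₂, hc, hfu⟩ := hval f hf0
  set G := arithmeticGalois F₀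
    (((A.decompositionSubgroup ℚ).subtype g : Qb ≃ₐ[ℚ] Qb)) with hG
  have hV₁ : IsIntG F₀ A Fk (galA g U₁ * U₂) := isIntG_mul (isIntG_galA hst g h₁) h₂
  have hV₂ : IsIntG F₀ A Fk (U₁ * galA g U₂) := isIntG_mul h₁ (isIntG_galA hst g h₂)
  have hred : coeffMap (residue A) (galA g U₁ * U₂) = coeffMap (residue A) (U₁ * galA g U₂) := by
    rw [map_mul, map_mul, Fermat.Agent.S29.H222.coeffMap_residue_galA,
      Fermat.Agent.S29.H222.coeffMap_residue_galA,
      Fermat.Agent.S29.H222.coeffMap_decK_of_mem_inertia hg,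
      Fermat.Agent.S29.H222.coeffMap_decK_of_mem_inertia hg]
  -- orders
  have hu₁0 := toFG_ne_zero h₁
  have hu₂0 := toFG_ne_zero h₂
  have hcF : algebraMap Qb (laurentBaseChange Qb F₀) c ≠ 0 := (map_ne_zero _).mpr hc
  have hordf : ∀ v : Place Qb (laurentBaseChange Qb F₀),
      v.ord f = v.ord (toFG h₁) - v.ord (toFG h₂) := by
    intro v
    have h := congrArg v.ord hfu
    rw [v.ord_mul hf0 hu₂0, v.ord_mul hcF hu₁0,
      Fermat.Agent.S29.H222.esk_ord_algebraMap v hc] at h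
    linarith
  have hordG : ∀ (y : laurentBaseChange Qb F₀) (v : Place Qb (laurentBaseChange Qb F₀)),
      v.ord (G • y) = (G⁻¹ • v).ord y := by
    intro y v
    have h := SemilinearAut.ord_smul G (G⁻¹ • v) y
    rw [smul_inv_smul] at h
    exact h
  have hkey : ∀ v : Place Qb (laurentBaseChange Qb F₀),
      (m : ℤ) * (G • (D : Divisor Qb (laurentBaseChange Qb F₀)) - D) v
        = v.ord (toFG hV₁) - v.ord (toFG hV₂) := by
    intro v
    have e1 := hfD v
    have e2 := hfD (G⁻¹ • v)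
    rw [Finsupp.smul_apply, smul_eq_mul] at e1 e2
    have hg₁ : toFG (isIntG_galA hst g h₁) = G • toFG h₁ := toFG_galA hst g h₁
    have hg₂ : toFG (isIntG_galA hst g h₂) = G • toFG h₂ := toFG_galA hst g h₂
    rw [toFG_mul (isIntG_galA hst g h₁) h₂, toFG_mul h₁ (isIntG_galA hst g h₂),
      v.ord_mul (toFG_ne_zero _) hu₂0, v.ord_mul hu₁0 (toFG_ne_zero _),
      hg₁, hg₂, hordG, hordG]
    have e3 := hordf v
    have e4 := hordf (G⁻¹ • v)
    simp only [Finsupp.sub_apply, SemilinearAut.divisor_smul_apply]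
    linear_combination e2 - e1 + e4 - e3
  have hord : ∀ v : Place Qb (laurentBaseChange Qb F₀),
      (m : ℤ) ∣ v.ord (toFG hV₁) - v.ord (toFG hV₂) := fun v => ⟨_, (hkey v).symm⟩
  obtain ⟨c', y, hc', hy, hcy⟩ := hcore _ _ hV₁ hV₂ hred hord
  have hE := Fermat.Agent.S29.H222.isDivOf_of_eq_const_mul_pow hm hc' hy (toFG_ne_zero hV₂) hcy
    hkey
  show (((A.decompositionSubgroup ℚ).subtype g : Qb ≃ₐ[ℚ] Qb))
      • (Pic0.mk D : Pic0 Qb (laurentBaseChange Qb F₀)) = Pic0.mk D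
  rw [galois_smul_pic0_def, SemilinearAut.pic0_smul_mk]
  exact pic0_mk_eq_of_isDivOfG D _ hy hE

/-! ### ESK-F from `ValG` -/

section FrobAux

theorem kron2_ne_zero {K : Type*} [Field K] (p : ℕ) [NeZero p] {f g : LaurentSeries K}
    (hf : f ≠ 0) (hg : g ≠ 0) : kron2 p f g ≠ 0 := by
  have h := kron2_mul p f f⁻¹ g g⁻¹
  rw [mul_inv_cancel₀ hf, mul_inv_cancel₀ hg] at h
  have h1 : kron2 p (1 : LaurentSeries K) 1 = 1 := by
    rw [kron2, map_one, Fermat.Agent.S37.H400.secMat_one, Matrix.det_one, mul_one]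
  rw [h1] at h
  intro h0
  rw [h0, zero_mul] at h
  exact one_ne_zero h

variable {p : ℕ} [Fact p.Prime] [NeZero p] [CharP (ResidueField A) p]

/-- The two series `X₁`, `X₂` have the same reduction. -/
theorem coeffMap_residue_eskX {g : A.decompositionSubgroup ℚ}
    (hgk : decK g = frobenius (ResidueField A) p) (U₁ U₂ W₁ W₂ : LaurentSeries A) :
    coeffMap (residue A) (galA g (galA g W₁) * U₁ ^ p * kron2 p (galA g U₂) (galA g W₂))
      = coeffMap (residue A)
          (galA g (galA g W₂) * U₂ ^ p * kron2 p (galA g U₁) (galA g W₁)) := by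
  simp only [map_mul, map_pow, Fermat.Agent.S29.H222.coeffMap_residue_galA,
    coeffMap_residue_kron2_galA hgk]
  ring

theorem coeffMap_residue_eskX_ne_zero {g : A.decompositionSubgroup ℚ}
    (hgk : decK g = frobenius (ResidueField A) p) {U₁ U₂ W₁ W₂ : LaurentSeries A}
    (hU₁ : coeffMap (residue A) U₁ ≠ 0) (hU₂ : coeffMap (residue A) U₂ ≠ 0)
    (hW₁ : coeffMap (residue A) W₁ ≠ 0) (hW₂ : coeffMap (residue A) W₂ ≠ 0) :
    coeffMap (residue A) (galA g (galA g W₁) * U₁ ^ p * kron2 p (galA g U₂) (galA g W₂))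
      ≠ 0 := by
  have hinj : ∀ {x : LaurentSeries (ResidueField A)}, x ≠ 0 → coeffMap (decK g) x ≠ 0 :=
    fun hx => Fermat.Agent.S29.H222.coeffMap_ne_zero_of_injective _
      (Fermat.Agent.S29.H222.decK_injective g) hx
  rw [map_mul, map_mul, map_pow, Fermat.Agent.S29.H222.coeffMap_residue_galA,
    Fermat.Agent.S29.H222.coeffMap_residue_galA, coeffMap_residue_kron2_galA hgk]
  exact mul_ne_zero (mul_ne_zero (hinj (hinj hW₁)) (pow_ne_zero p hU₁))
    (mul_ne_zero (pow_ne_zero p hU₂) (hinj (hinj hW₂)))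

omit [Fact p.Prime] [CharP (ResidueField A) p] in
/-- The image of `X₁` in `ℚ̄((q))`. -/
theorem coeffMap_subtype_eskX (g : A.decompositionSubgroup ℚ) (U₁ U₂ W₁ W₂ : LaurentSeries A) :
    coeffMap A.subtype (galA g (galA g W₁) * U₁ ^ p * kron2 p (galA g U₂) (galA g W₂))
      = coeffMap (((g : Qb ≃ₐ[ℚ] Qb)) : Qb →+* Qb)
            (coeffMap (((g : Qb ≃ₐ[ℚ] Qb)) : Qb →+* Qb) (coeffMap A.subtype W₁))
          * coeffMap A.subtype U₁ ^ p
          * (qExpand Qb p (coeffMap (((g : Qb ≃ₐ[ℚ] Qb)) : Qb →+* Qb) (coeffMap A.subtype U₂))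
            * (secMat p
                (coeffMap (((g : Qb ≃ₐ[ℚ] Qb)) : Qb →+* Qb) (coeffMap A.subtype W₂))).det) := by
  rw [map_mul, map_mul, map_pow, coeffMap_kron2,
    Fermat.Agent.S29.H222.coeffMap_subtype_galA, Fermat.Agent.S29.H222.coeffMap_subtype_galA,
    Fermat.Agent.S29.H222.coeffMap_subtype_galA, Fermat.Agent.S29.H222.coeffMap_subtype_galA]
  rfl

end FrobAux

/-- **Generic ESK-F with diamond, version 2.**  Every Frobenius element `σ` at `A` satisfies
`σ² (δ x) - T (σ x) + p x = 0` on the `m`-torsion of `Pic0 ℚ̄ (ℚ̄ · F₀)`.  No integrality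
hypothesis on `δ`. -/
theorem eskV_frob {p : ℕ} (hp : p.Prime) {m : ℕ} (hm : m ≠ 0) (hA : A.LiesOverPrime p)
    (hcore : CoreG F₀ A Fk m) (hval : ValG F₀ A Fk) (hst : StableG A Fk)
    {F' : Type*} [Field F'] [Algebra Qb F'] [HasPrincipalDivisors Qb F']
    (α β : laurentBaseChange Qb F₀ →ₐ[Qb] F')
    (hα : α.toRingHom.IsIntegral) (hβ : β.toRingHom.IsIntegral)
    (hFI : FundamentalIdentityAlong Qb β hβ) (hfin : FiniteAlong Qb α)
    (hN : NormFormulaAlong Qb α hfin)
    (δ : laurentBaseChange Qb F₀ ≃ₐ[Qb] laurentBaseChange Qb F₀)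
    (hgal : ∀ (σ : Qb ≃ₐ[ℚ] Qb) (y : laurentBaseChange Qb F₀),
      δ (arithmeticGalois F₀ σ • y) = arithmeticGalois F₀ σ • δ y)
    (hnid : haveI : NeZero p := ⟨hp.ne_zero⟩; NormIdG α β p δ) :
    ∀ σ : Qb ≃ₐ[ℚ] Qb, A.IsFrobeniusAt σ p →
      ∀ x : Pic0 Qb (laurentBaseChange Qb F₀), (m : ℤ) • x = 0 →
        σ • σ • (δ • x) - Pic0.correspondence β α hβ hα hFI hfin hN (σ • x) + (p : ℤ) • x = 0 := by
  intro σ hσ x hx
  haveI : NeZero p := ⟨hp.ne_zero⟩
  haveI : Fact p.Prime := ⟨hp⟩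
  haveI : CharP (ResidueField A) p :=
    Fermat.Agent.S29.H222.charP_residueField_of_liesOver hp hA
  obtain ⟨hdec, hfrob⟩ := hσ
  set g : A.decompositionSubgroup ℚ := ⟨σ, hdec⟩ with hg
  have hgk : decK g = frobenius (ResidueField A) p := RingHom.ext fun x => hfrob x
  obtain ⟨D, rfl⟩ := Pic0.mk_surjective x
  obtain ⟨f, hf0, hfD⟩ := smul_mem_principal_of_torsionG D hx
  obtain ⟨c, c', U₁, U₂, W₁, W₂, h₁, h₂, hW₁, hW₂, hc, hc', hfu, hδw⟩ := hval.pair δ f hf0
  set G := arithmeticGalois F₀ σ with hG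
  -- nonvanishing
  have hδf0 : δ f ≠ 0 := (map_ne_zero δ).mpr hf0
  have hGf0 : G • f ≠ 0 := (smul_ne_zero_iff_ne G).mpr hf0
  have hGGδ0 : G • G • δ f ≠ 0 := (smul_ne_zero_iff_ne G).mpr ((smul_ne_zero_iff_ne G).mpr hδf0)
  have hcoe0 : ∀ {y : laurentBaseChange Qb F₀}, y ≠ 0 → (y : LaurentSeries Qb) ≠ 0 :=
    fun hy h => hy (Subtype.ext h)
  -- the norm
  have hNmL : ((normG α β (G • f) : laurentBaseChange Qb F₀) : LaurentSeries Qb)
      = kron2 p ((G • f : laurentBaseChange Qb F₀) : LaurentSeries Qb)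
          ((G • δ f : laurentBaseChange Qb F₀) : LaurentSeries Qb) := by
    have h := hnid (G • f)
    rw [hgal σ f] at h
    exact h
  have hNm0 : normG α β (G • f) ≠ 0 := by
    intro h0
    have h1 : ((normG α β (G • f) : laurentBaseChange Qb F₀) : LaurentSeries Qb) = 0 := by
      rw [h0]; rfl
    rw [hNmL] at h1
    exact kron2_ne_zero p (hcoe0 hGf0) (hcoe0 ((smul_ne_zero_iff_ne G).mpr hδf0)) h1
  -- the function of the relation
  set R : laurentBaseChange Qb F₀ := G • G • δ f * f ^ p * (normG α β (G • f))⁻¹ with hR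
  have hR0 : R ≠ 0 := mul_ne_zero (mul_ne_zero hGGδ0 (pow_ne_zero p hf0)) (inv_ne_zero hNm0)
  have hRNm : R * normG α β (G • f) = G • G • δ f * f ^ p := by
    rw [hR, mul_assoc, inv_mul_cancel₀ hNm0, mul_one]
  -- the divisor of the relation
  set Dv : Divisor Qb (laurentBaseChange Qb F₀) := (D : Divisor Qb (laurentBaseChange Qb F₀))
    with hDv
  set E : Divisor Qb (laurentBaseChange Qb F₀) :=
    G • G • δ • Dv - Divisor.correspondence β α hβ hα (G • Dv) + (p : ℤ) • Dv with hE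
  have hGz : ∀ X : Divisor Qb (laurentBaseChange Qb F₀),
      G • ((m : ℤ) • X) = (m : ℤ) • (G • X) :=
    fun X => map_zsmul (DistribSMul.toAddMonoidHom (Divisor Qb (laurentBaseChange Qb F₀)) G) m X
  have hδz : ∀ X : Divisor Qb (laurentBaseChange Qb F₀),
      δ • ((m : ℤ) • X) = (m : ℤ) • (δ • X) :=
    fun X => map_zsmul (DistribSMul.toAddMonoidHom (Divisor Qb (laurentBaseChange Qb F₀)) δ) m X
  have hmE : (m : ℤ) • E = G • G • δ • ((m : ℤ) • Dv)
      - Divisor.correspondence β α hβ hα (G • ((m : ℤ) • Dv))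
      + (p : ℤ) • ((m : ℤ) • Dv) := by
    rw [hE, smul_add, smul_sub, hδz, hGz, hGz, hGz, map_zsmul, smul_comm (m : ℤ) (p : ℤ) Dv]
  have hfDiv : IsDivOf f ((m : ℤ) • Dv) := hfD
  have hdGGδ : IsDivOf (G • G • δ f) (G • G • δ • ((m : ℤ) • Dv)) :=
    ((isDivOf_algEquiv δ hfDiv).smul G).smul G
  have hdfp : IsDivOf (f ^ p) ((p : ℤ) • ((m : ℤ) • Dv)) := hfDiv.pow p
  have hdT : IsDivOf (normG α β (G • f))
      (Divisor.correspondence β α hβ hα (G • ((m : ℤ) • Dv))) :=
    isDivOf_correspondenceG hα hβ hfin hN hGf0 (hfDiv.smul G)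
  have hdR : ∀ v : Place Qb (laurentBaseChange Qb F₀), (m : ℤ) * E v = v.ord R := by
    intro v
    have h := congrArg v.ord hRNm
    rw [v.ord_mul hR0 hNm0, v.ord_mul hGGδ0 (pow_ne_zero p hf0), ← hdGGδ v, ← hdfp v,
      ← hdT v] at h
    have h2 := congrArg (fun X : Divisor Qb (laurentBaseChange Qb F₀) => X v) hmE
    simp only [Finsupp.add_apply, Finsupp.sub_apply] at h2
    rw [Finsupp.smul_apply, smul_eq_mul] at h2
    linarith
  -- `ValG` for `R`
  obtain ⟨c₃, V₁, V₂, hV₁, hV₂, hc₃, hRV⟩ := hval R hR0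
  -- the identity of `q`-series
  set gσ : LaurentSeries Qb →+* LaurentSeries Qb := coeffMap (σ : Qb →+* Qb) with hgσ
  have r1 : (f : LaurentSeries Qb) * coeffMap A.subtype U₂
      = HahnSeries.single 0 c * coeffMap A.subtype U₁ := by
    have h := congrArg (Subtype.val) hfu
    rw [← coe_algebraMap_lbc (F₀ := F₀) c]
    exact h
  have r2 : ((δ f : laurentBaseChange Qb F₀) : LaurentSeries Qb) * coeffMap A.subtype W₂
      = HahnSeries.single 0 c' * coeffMap A.subtype W₁ := by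
    have h := congrArg (Subtype.val) hδw
    rw [← coe_algebraMap_lbc (F₀ := F₀) c']
    exact h
  have r3 : (R : LaurentSeries Qb) * coeffMap A.subtype V₂
      = HahnSeries.single 0 c₃ * coeffMap A.subtype V₁ := by
    have h := congrArg (Subtype.val) hRV
    rw [← coe_algebraMap_lbc (F₀ := F₀) c₃]
    exact h
  have e5 : (R : LaurentSeries Qb)
      * (qExpand Qb p (gσ (f : LaurentSeries Qb))
          * (secMat p (gσ ((δ f : laurentBaseChange Qb F₀) : LaurentSeries Qb))).det)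
      = gσ (gσ ((δ f : laurentBaseChange Qb F₀) : LaurentSeries Qb))
          * (f : LaurentSeries Qb) ^ p := by
    have h := congrArg (Subtype.val) hRNm
    have h' : (R : LaurentSeries Qb)
        * ((normG α β (G • f) : laurentBaseChange Qb F₀) : LaurentSeries Qb)
        = ((G • G • δ f : laurentBaseChange Qb F₀) : LaurentSeries Qb)
          * (f : LaurentSeries Qb) ^ p := h
    rw [hNmL] at h'
    exact h'
  have e8 : qExpand Qb p (gσ (f : LaurentSeries Qb))
        * qExpand Qb p (gσ (coeffMap A.subtype U₂))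
      = qExpand Qb p (gσ (HahnSeries.single 0 c))
        * qExpand Qb p (gσ (coeffMap A.subtype U₁)) := by
    rw [← map_mul, ← map_mul, ← map_mul, ← map_mul, r1]
  have e7 : (secMat p (gσ ((δ f : laurentBaseChange Qb F₀) : LaurentSeries Qb))).det
        * (secMat p (gσ (coeffMap A.subtype W₂))).det
      = (secMat p (gσ (HahnSeries.single 0 c'))).det
        * (secMat p (gσ (coeffMap A.subtype W₁))).det := by
    rw [← Matrix.det_mul, ← Matrix.det_mul, ← Fermat.Agent.S37.H400.secMat_mul,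
      ← Fermat.Agent.S37.H400.secMat_mul, ← map_mul, ← map_mul, r2]
  have e6 : gσ (gσ ((δ f : laurentBaseChange Qb F₀) : LaurentSeries Qb))
        * gσ (gσ (coeffMap A.subtype W₂))
      = gσ (gσ (HahnSeries.single 0 c')) * gσ (gσ (coeffMap A.subtype W₁)) := by
    rw [← map_mul, ← map_mul, ← map_mul, ← map_mul, r2]
  have e9 : (f : LaurentSeries Qb) ^ p * coeffMap A.subtype U₂ ^ p
      = (HahnSeries.single 0 c : LaurentSeries Qb) ^ p * coeffMap A.subtype U₁ ^ p := by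
    rw [← mul_pow, ← mul_pow, r1]
  have hkeyL := eskV_key e5 e8 e7 e6 e9
  -- constants
  have hk₁ : qExpand Qb p (gσ (HahnSeries.single 0 c))
        * (secMat p (gσ (HahnSeries.single 0 c'))).det
      = HahnSeries.single 0 (σ c * σ c' ^ p) := by
    rw [hgσ, coeffMap_single, coeffMap_single, qExpand_single, mul_zero,
      det_secMat_single_zero, single_zero_mul_single_zero]
    rfl
  have hk₂ : gσ (gσ (HahnSeries.single 0 c')) * (HahnSeries.single 0 c : LaurentSeries Qb) ^ p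
      = HahnSeries.single 0 (σ (σ c') * c ^ p) := by
    rw [hgσ, coeffMap_single, coeffMap_single, single_zero_pow, single_zero_mul_single_zero]
    rfl
  have hκ₁ : σ c * σ c' ^ p ≠ 0 :=
    mul_ne_zero ((map_ne_zero σ).mpr hc) (pow_ne_zero p ((map_ne_zero σ).mpr hc'))
  have hκ₂ : σ (σ c') * c ^ p ≠ 0 :=
    mul_ne_zero ((map_ne_zero σ).mpr ((map_ne_zero σ).mpr hc')) (pow_ne_zero p hc)
  set X₁ : LaurentSeries A :=
    galA g (galA g W₁) * U₁ ^ p * kron2 p (galA g U₂) (galA g W₂) with hX₁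
  set X₂ : LaurentSeries A :=
    galA g (galA g W₂) * U₂ ^ p * kron2 p (galA g U₁) (galA g W₁) with hX₂
  have hser : (R : LaurentSeries Qb) * HahnSeries.single 0 (σ c * σ c' ^ p)
        * coeffMap A.subtype X₂
      = HahnSeries.single 0 (σ (σ c') * c ^ p) * coeffMap A.subtype X₁ := by
    rw [hX₁, hX₂, coeffMap_subtype_eskX, coeffMap_subtype_eskX, ← hk₁, ← hk₂]
    exact hkeyL
  -- the unit constant
  have hredX : coeffMap (residue A) X₁ = coeffMap (residue A) X₂ :=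
    coeffMap_residue_eskX hgk U₁ U₂ W₁ W₂
  have hX₁0 : coeffMap (residue A) X₁ ≠ 0 :=
    coeffMap_residue_eskX_ne_zero hgk h₁.2.2 h₂.2.2 hW₁.2.2 hW₂.2.2
  have hX₂0 : coeffMap (residue A) X₂ ≠ 0 := hredX ▸ hX₁0
  have hκeq : HahnSeries.single (0 : ℤ) (c₃ * (σ c * σ c' ^ p) / (σ (σ c') * c ^ p))
        * coeffMap A.subtype (V₁ * X₂)
      = coeffMap A.subtype (X₁ * V₂) := by
    have hκ : (HahnSeries.single (0 : ℤ) (σ (σ c') * c ^ p) : LaurentSeries Qb)
          * HahnSeries.single 0 (c₃ * (σ c * σ c' ^ p) / (σ (σ c') * c ^ p))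
        = HahnSeries.single 0 c₃ * HahnSeries.single 0 (σ c * σ c' ^ p) := by
      rw [single_zero_mul_single_zero, single_zero_mul_single_zero, mul_div_cancel₀ _ hκ₂]
    have hK₂0 : (HahnSeries.single (0 : ℤ) (σ (σ c') * c ^ p) : LaurentSeries Qb) ≠ 0 := by
      rw [Ne, HahnSeries.single_eq_zero_iff]
      exact hκ₂
    apply mul_left_cancel₀ hK₂0
    rw [map_mul (coeffMap A.subtype) V₁ X₂, map_mul (coeffMap A.subtype) X₁ V₂]
    linear_combination (coeffMap A.subtype V₁ * coeffMap A.subtype X₂) * hκ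
      - (HahnSeries.single 0 (σ c * σ c' ^ p) * coeffMap A.subtype X₂) * r3
      + (coeffMap A.subtype V₂) * hser
  obtain ⟨a, ha, haκ⟩ := exists_unit_of_const_mul_eq
    (by rw [map_mul]; exact mul_ne_zero hV₁.2.2 hX₂0)
    (by rw [map_mul]; exact mul_ne_zero hX₁0 hV₂.2.2) hκeq
  have hV₁' : IsIntG F₀ A Fk (HahnSeries.single (0 : ℤ) a * V₁) := isIntG_const_mul ha hV₁
  have hredV : coeffMap (residue A) (HahnSeries.single (0 : ℤ) a * V₁)
      = coeffMap (residue A) V₂ := by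
    have e : HahnSeries.single (0 : ℤ) a * V₁ * X₂ = X₁ * V₂ := by
      apply Fermat.Agent.S29.H222.esk_coeffMap_subtype_injective
      rw [← hκeq, ← haκ, mul_assoc,
        map_mul (coeffMap A.subtype) (HahnSeries.single (0 : ℤ) a) (V₁ * X₂), coeffMap_single]
      rfl
    have e' := congrArg (coeffMap (residue A)) e
    rw [map_mul, map_mul (coeffMap (residue A)) X₁ V₂, hredX, mul_comm] at e'
    exact mul_left_cancel₀ hX₂0 e'
  -- orders
  have hkey : ∀ v : Place Qb (laurentBaseChange Qb F₀),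
      (m : ℤ) * E v = v.ord (toFG hV₁') - v.ord (toFG hV₂) := by
    intro v
    have h := congrArg v.ord hRV
    have ha0 : (a : Qb) ≠ 0 := by
      intro h0
      exact ha.ne_zero (Subtype.ext h0)
    rw [v.ord_mul hR0 (toFG_ne_zero hV₂),
      v.ord_mul ((map_ne_zero _).mpr hc₃) (toFG_ne_zero hV₁),
      Fermat.Agent.S29.H222.esk_ord_algebraMap v hc₃] at h
    rw [toFG_const_mul ha hV₁, v.ord_mul ((map_ne_zero _).mpr ha0) (toFG_ne_zero hV₁),
      Fermat.Agent.S29.H222.esk_ord_algebraMap v ha0, hdR v]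
    linarith
  have hord : ∀ v : Place Qb (laurentBaseChange Qb F₀),
      (m : ℤ) ∣ v.ord (toFG hV₁') - v.ord (toFG hV₂) := fun v => ⟨_, (hkey v).symm⟩
  obtain ⟨c₄, y, hc₄, hy, hcy⟩ := hcore _ _ hV₁' hV₂ hredV hord
  have hEy : IsDivOf y E :=
    Fermat.Agent.S29.H222.isDivOf_of_eq_const_mul_pow hm hc₄ hy (toFG_ne_zero hV₂) hcy hkey
  -- conclusion in `Pic0`
  rw [Pic0.smul_mk, galois_smul_mkG, galois_smul_mkG, galois_smul_mkG, Pic0.correspondence_mk]
  have hfinal : (Pic0.mk (SemilinearAut.degZeroSMulHom G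
        (SemilinearAut.degZeroSMulHom G (Pic0.degZeroSMulHom δ D)))
      - Pic0.mk (Pic0.degZeroCorrespondence β α hβ hα hFI (SemilinearAut.degZeroSMulHom G D))
      + (p : ℤ) • Pic0.mk D : Pic0 Qb (laurentBaseChange Qb F₀))
      = Pic0.mk (SemilinearAut.degZeroSMulHom G
          (SemilinearAut.degZeroSMulHom G (Pic0.degZeroSMulHom δ D))
          - Pic0.degZeroCorrespondence β α hβ hα hFI (SemilinearAut.degZeroSMulHom G D)
          + (p : ℤ) • D) := rfl
  rw [hfinal]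
  exact pic0_mk_eq_zero_of_isDivOfG _ hy hEy

/-- **Generic ESK-F with diamond, version 2, second form**:
`σ² x - T (δ⁻¹ σ x) + p δ⁻¹ x = 0`. -/
theorem eskV_frob' {p : ℕ} (hp : p.Prime) {m : ℕ} (hm : m ≠ 0) (hA : A.LiesOverPrime p)
    (hcore : CoreG F₀ A Fk m) (hval : ValG F₀ A Fk) (hst : StableG A Fk)
    {F' : Type*} [Field F'] [Algebra Qb F'] [HasPrincipalDivisors Qb F']
    (α β : laurentBaseChange Qb F₀ →ₐ[Qb] F')
    (hα : α.toRingHom.IsIntegral) (hβ : β.toRingHom.IsIntegral)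
    (hFI : FundamentalIdentityAlong Qb β hβ) (hfin : FiniteAlong Qb α)
    (hN : NormFormulaAlong Qb α hfin)
    (δ : laurentBaseChange Qb F₀ ≃ₐ[Qb] laurentBaseChange Qb F₀)
    (hgal : ∀ (σ : Qb ≃ₐ[ℚ] Qb) (y : laurentBaseChange Qb F₀),
      δ (arithmeticGalois F₀ σ • y) = arithmeticGalois F₀ σ • δ y)
    (hnid : haveI : NeZero p := ⟨hp.ne_zero⟩; NormIdG α β p δ) :
    ∀ σ : Qb ≃ₐ[ℚ] Qb, A.IsFrobeniusAt σ p →
      ∀ x : Pic0 Qb (laurentBaseChange Qb F₀), (m : ℤ) • x = 0 →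
        σ • σ • x - Pic0.correspondence β α hβ hα hFI hfin hN (δ⁻¹ • (σ • x))
          + (p : ℤ) • (δ⁻¹ • x) = 0 := by
  intro σ hσ x hx
  have hx' : (m : ℤ) • (δ⁻¹ • x) = 0 := by
    have h1 : δ⁻¹ • ((m : ℤ) • x) = (m : ℤ) • (δ⁻¹ • x) :=
      map_zsmul (DistribSMul.toAddMonoidHom (Pic0 Qb (laurentBaseChange Qb F₀)) δ⁻¹) m x
    rw [← h1, hx]
    exact map_zero (DistribSMul.toAddMonoidHom (Pic0 Qb (laurentBaseChange Qb F₀)) δ⁻¹)
  have hcomm : δ⁻¹ • (σ • x) = σ • (δ⁻¹ • x) := by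
    have h : δ • (σ • (δ⁻¹ • x)) = σ • (δ • (δ⁻¹ • x)) := by
      rw [galois_smul_pic0_def, galois_smul_pic0_def]
      exact pic0_smul_comm δ (arithmeticGalois F₀ σ) (fun y => hgal σ y) (δ⁻¹ • x)
    rw [smul_inv_smul] at h
    rw [← h, inv_smul_smul]
  have h := eskV_frob hp hm hA hcore hval hst α β hα hβ hFI hfin hN δ hgal hnid σ hσ
    (δ⁻¹ • x) hx'
  rw [smul_inv_smul, ← hcomm] at h
  exact h

end Fermat.Agent.S48.H136

end
end
-- ===== PACK-END S48/H136/ESKV.lean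

-- ===== PACK-BEGIN S48/H428/NormGenG.lean
section



/-!
# S48 / RES (Tower A1) — node A1-NORM, generic part in the shape of `H136.NormIdG` (helper428)

`normIdG_of_embeddings` : the hypothesis `NormIdG α β p δ` of helper136's generic raw
Eichler–Shimura engine (`H136.eskG_frob`), for ANY `F₀ ⊆ ℚ((q))`, ANY field `F'` with a
`q`-expansion `cF' : F' →+* ℚ̄((q))`, `α` = inclusion and `β = V_p` on `q`-expansions, from

* the degree bound `[F' : α F] ≤ p + 1`,
* `p` embeddings `σ b : F' →+* Ω` over `Ψ ∘ V_p` with `σ b (β y) = Ψ ((δ y)(ζ^b u))`,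
* one `y₀` such that `δ y₀` has a nonzero coefficient at an index prime to `p`.

`normIdG_of_embeddings_jq` : the last hypothesis is automatic when `j ∈ F₀` and `δ` fixes `j`.
-/

set_option autoImplicit false
set_option linter.style.haveILetI false

noncomputable section

open ModularCurve AlgebraicCurve

namespace Fermat.Agent.S48.H428

open Fermat.Agent.S18 (Qb)
open Fermat.Agent.S48.H136 (NormIdG normG kron2)
open Fermat.Agent.S37

variable {F₀ : IntermediateField ℚ (LaurentSeries ℚ)} {F' : Type*} [Field F'] [Algebra Qb F']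

/-- **A1-NORM, generic, `NormIdG` shape.** -/
theorem normIdG_of_embeddings (α β : laurentBaseChange Qb F₀ →ₐ[Qb] F') {p : ℕ} [NeZero p]
    (hp : p.Prime) (δ : laurentBaseChange Qb F₀ ≃ₐ[Qb] laurentBaseChange Qb F₀)
    (cF' : F' →+* LaurentSeries Qb)
    (hα : ∀ y, cF' (α y) = (y : LaurentSeries Qb))
    (hβ : ∀ y, cF' (β y) = qExpand Qb p (y : LaurentSeries Qb))
    (hfin : FiniteAlong Qb α) (hdeg : finrankAlong Qb α ≤ p + 1)
    {ζ : Qb} (hζ : IsPrimitiveRoot ζ p)
    {Ω : Type*} [Field Ω] (Ψ : LaurentSeries Qb →+* Ω) (σ : Fin p → F' →+* Ω)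
    (hσα : ∀ b y, σ b (α y) = Ψ (qExpand Qb p (y : LaurentSeries Qb)))
    (hσβ : ∀ b y, σ b (β y)
      = Ψ (H340.tw p (ζ ^ (b : ℕ)) ((δ y : laurentBaseChange Qb F₀) : LaurentSeries Qb)))
    (hdist : ∃ y₀ : laurentBaseChange Qb F₀, ∃ n : ℤ, ¬ (p : ℤ) ∣ n ∧
      ((δ y₀ : laurentBaseChange Qb F₀) : LaurentSeries Qb).coeff n ≠ 0) :
    NormIdG α β p δ := by
  intro y
  exact normId_of_embeddings (K := Qb) p hp
    (cF := (laurentBaseChange Qb F₀).val.toRingHom) (cF' := cF')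
    α.toRingHom β.toRingHom hα hβ hfin hdeg (fun y => δ y) hζ Ψ σ hσα hσβ hdist y

/-- The distinctness hypothesis of `normIdG_of_embeddings` holds as soon as `j ∈ F₀` and `δ`
fixes `j`. -/
theorem hdist_of_jq {p : ℕ} (hp : p.Prime)
    (δ : laurentBaseChange Qb F₀ ≃ₐ[Qb] laurentBaseChange Qb F₀) (hj : jq ∈ F₀)
    (hδj : ∀ y : laurentBaseChange Qb F₀, (y : LaurentSeries Qb) = coeffEmb Qb jq → δ y = y) :
    ∃ y₀ : laurentBaseChange Qb F₀, ∃ n : ℤ, ¬ (p : ℤ) ∣ n ∧
      ((δ y₀ : laurentBaseChange Qb F₀) : LaurentSeries Qb).coeff n ≠ 0 := by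
  refine ⟨⟨coeffEmb Qb jq, coeffEmb_mem_laurentBaseChange Qb hj⟩, -1, ?_, ?_⟩
  · intro h
    have h1 : (p : ℤ) ∣ 1 := (dvd_neg.mp h)
    have h2 : p ∣ 1 := by exact_mod_cast h1
    exact hp.one_lt.ne' (Nat.dvd_one.mp h2)
  · rw [hδj _ rfl]
    show (coeffEmb Qb jq).coeff (-1) ≠ 0
    rw [coeffEmb_coeff, coeff_jq_neg_one, map_one]
    exact one_ne_zero

/-- **A1-NORM, generic, `NormIdG` shape**, for a diamond fixing `j ∈ F₀`. -/
theorem normIdG_of_embeddings_jq (α β : laurentBaseChange Qb F₀ →ₐ[Qb] F') {p : ℕ} [NeZero p]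
    (hp : p.Prime) (δ : laurentBaseChange Qb F₀ ≃ₐ[Qb] laurentBaseChange Qb F₀)
    (cF' : F' →+* LaurentSeries Qb)
    (hα : ∀ y, cF' (α y) = (y : LaurentSeries Qb))
    (hβ : ∀ y, cF' (β y) = qExpand Qb p (y : LaurentSeries Qb))
    (hfin : FiniteAlong Qb α) (hdeg : finrankAlong Qb α ≤ p + 1)
    {ζ : Qb} (hζ : IsPrimitiveRoot ζ p)
    {Ω : Type*} [Field Ω] (Ψ : LaurentSeries Qb →+* Ω) (σ : Fin p → F' →+* Ω)
    (hσα : ∀ b y, σ b (α y) = Ψ (qExpand Qb p (y : LaurentSeries Qb)))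
    (hσβ : ∀ b y, σ b (β y)
      = Ψ (H340.tw p (ζ ^ (b : ℕ)) ((δ y : laurentBaseChange Qb F₀) : LaurentSeries Qb)))
    (hj : jq ∈ F₀)
    (hδj : ∀ y : laurentBaseChange Qb F₀, (y : LaurentSeries Qb) = coeffEmb Qb jq → δ y = y) :
    NormIdG α β p δ :=
  normIdG_of_embeddings α β hp δ cF' hα hβ hfin hdeg hζ Ψ σ hσα hσβ (hdist_of_jq hp δ hj hδj)

end Fermat.Agent.S48.H428

end
end
-- ===== PACK-END S48/H428/NormGenG.lean

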