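import Fermat.Prelude.Thm_ModularCurve_coeffMap_qExpand
import Fermat.Agent.Pack.S44C.G0E20L1
import Fermat.Agent.Pack.S44C.G0E7L1
import Fermat.Agent.Pack.S44C.G0E8L3
import Fermat.Agent.Pack.S44C.G0E20L2
import Fermat.Agent.Pack.S44C.G0E17L0
import Fermat.Agent.Pack.S44C.G0E21L1
import Fermat.Agent.Pack.S44C.G0E16L1
import Fermat.Agent.Pack.S44C.G0E21L2
import Fermat.Agent.Pack.S44C.G0E10L1
import Fermat.Agent.Pack.L1B.E1L3
import Fermat.Agent.Pack.S44C.G0E17L1
import Fermat.Agent.Pack.S44C.G0E5L1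
import Fermat.Agent.Pack.L1B.E0L2
import Fermat.Agent.Pack.S44C.G0E13L1
import Fermat.Agent.Pack.L1B.E1L0
import Fermat.Agent.Pack.L1B.E2L3
import Fermat.Agent.Pack.L1B.E2L1
import Fermat.Agent.Pack.S44C.G0E10L3
import Fermat.Agent.Pack.L1.E10L0

-- ===== PACK-BEGIN S18/H576/Sep.lean
section








/-!
# S18 / node_mod, part G-SEP (helper576): the field `separable` of `Alg.GoodModel` for the
concrete objects of `Mod/Defs.lean`, coordinate `x = j`

    theorem field_separable (M) [NeZero M] (hℓ : ℓ.Prime) (hℓM : ¬ ℓ ∣ M) (hA : A.LiesOverPrime ℓ)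
        (E) [FiniteDimensional ℚ E] {w} (hwm : w ∈ Rc M A E)
        (hwg : ∀ r ∈ Rc M A E, r⁻¹ ∉ Rc M A E → r * w⁻¹ ∈ Rc M A E) :
        ∀ f ∈ VcSet M A E, ∃ P : Polynomial (Om M),
          (∀ i, P.coeff i ∈ Alg.polyRing (Rc M A E) (jOm M)) ∧ P.eval f * w⁻¹ ∈ VcSet M A E ∧
          (Polynomial.derivative P).eval f ≠ 0 ∧ ((Polynomial.derivative P).eval f)⁻¹ ∈ VcSet M A E

Proof: `f = φ V₁ / φ V₂` (Transport), `f̄ := ρ V₁ / ρ V₂ ∈ F_κ` (H516 `red_mem_of_incl_mem`, S28
`CoreData` over `κ = κ_E`), `F_κ` is algebraic over `κ(j̄)` (S28 H867 `isIntegral_jd`), so there is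
`P̄ ∈ κ[X][Y]` with `P̄(j̄, f̄) = 0`, `∂P̄/∂Y (j̄, f̄) ≠ 0` (helper264, `κ` perfect); lift `P̄` to
`R_E[X][Y]`, homogenise in `(V₁, V₂)`.
-/

set_option autoImplicit false

noncomputable section

namespace Fermat.Agent.S18.H576

open ModularCurve AlgebraicCurve HahnSeries Fermat.Agent.S18 Fermat.Agent.S18.Mod
open Fermat.Agent.S18.H602 (RE mem_RE toA)

section Homog

variable {S T : Type*} [CommRing S] [CommRing T]

/-- Homogenisation `∑_{i ≤ d} P_i a^i b^{d-i}`. -/
def homog (d : ℕ) (P : Polynomial S) (a b : S) : S :=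
  ∑ i ∈ Finset.range (d + 1), P.coeff i * a ^ i * b ^ (d - i)

theorem map_homog (ψ : S →+* T) (d : ℕ) (P : Polynomial S) (a b : S) :
    ψ (homog d P a b) = homog d (P.map ψ) (ψ a) (ψ b) := by
  simp only [homog, map_sum, map_mul, map_pow, Polynomial.coeff_map]

theorem homog_eq (d : ℕ) (P : Polynomial S) {g a b : S} (h : g * b = a)
    (hd : P.natDegree ≤ d) : homog d P a b = b ^ d * P.eval g := by
  rw [Polynomial.eval_eq_sum_range' (Nat.lt_succ_of_le hd), Finset.mul_sum]
  refine Finset.sum_congr rfl fun i hi => ?_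
  have hi' : i ≤ d := Nat.lt_succ_iff.mp (Finset.mem_range.mp hi)
  have hb : b ^ d = b ^ i * b ^ (d - i) := by rw [← _root_.pow_add, Nat.add_sub_cancel' hi']
  rw [← h, hb, mul_pow]
  ring

end Homog

section Residue

variable {A : ValuationSubring Qb} {E : IntermediateField ℚ Qb}

theorem charP_residue_RE {ℓ : ℕ} (hℓ : ℓ.Prime) (hA : A.LiesOverPrime ℓ) :
    CharP (IsLocalRing.ResidueField (RE A E)) ℓ :=
  (CharP.charP_iff_prime_eq_zero hℓ).mpr (natCast_residue_RE_eq_zero hA)

theorem perfectField_residue_RE {ℓ : ℕ} (hℓ : ℓ.Prime) (hA : A.LiesOverPrime ℓ) :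
    PerfectField (IsLocalRing.ResidueField (RE A E)) := by
  haveI : Fact ℓ.Prime := ⟨hℓ⟩
  haveI : CharP (IsLocalRing.ResidueField (RE A E)) ℓ := charP_residue_RE hℓ hA
  letI : Algebra (ZMod ℓ) (IsLocalRing.ResidueField (RE A E)) := ZMod.algebra _ ℓ
  haveI : Algebra.IsAlgebraic (ZMod ℓ) (IsLocalRing.ResidueField (RE A E)) := by
    refine ⟨fun x => ?_⟩
    obtain ⟨r', rfl⟩ := IsLocalRing.residue_surjective x
    obtain ⟨P, hP0, hP⟩ := exists_polynomial_residue r' hℓ
    refine ⟨P.map (Int.castRingHom (ZMod ℓ)), hP0, ?_⟩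
    rw [Polynomial.aeval_def, Polynomial.eval₂_map]
    have h1 : (algebraMap (ZMod ℓ) (IsLocalRing.ResidueField (RE A E))).comp
        (Int.castRingHom (ZMod ℓ)) =
        (IsLocalRing.residue (RE A E)).comp (Int.castRingHom (RE A E)) := RingHom.ext_int _ _
    rw [h1, ← Polynomial.hom_eval₂, hP, map_zero]
  exact Algebra.IsAlgebraic.perfectField (ZMod ℓ)

end Residue

section Algebraic

/-- Every element of `F_κ = κ(j(q^d) : d ∣ N)` is algebraic over `κ(j)` (any field `κ`). -/
theorem isAlgebraic_adjoin_jqModC_of_mem_fullC (κ : Type*) [Field κ] (N : ℕ)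
    {y : LaurentSeries κ} (hy : y ∈ modularFunctionFieldFullC κ N) :
    IsAlgebraic (IntermediateField.adjoin κ {jqModC κ}) y := by
  have hle : modularFunctionFieldFullC κ N ≤
      (algebraicClosure (S28.jField κ) (LaurentSeries κ)).restrictScalars κ := by
    rw [modularFunctionFieldFullC, IntermediateField.adjoin_le_iff]
    rintro x ⟨d, hd, -, rfl⟩
    show _ ∈ algebraicClosure (S28.jField κ) (LaurentSeries κ)
    rw [mem_algebraicClosure_iff']
    have := S28.H867.isIntegral_jd κ d (NeZero.ne d)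
      (fun p hp _ _ => S28.H807.nonempty_modPolyData p hp)
    rwa [S28.H867.jd_eq] at this
  have h := hle hy
  exact mem_algebraicClosure_iff.mp h

end Algebraic

section Main

variable {M : ℕ} {A : ValuationSubring Qb} {E : IntermediateField ℚ Qb}

theorem jqModC_mem_OE : jqModC (RE A E) ∈ OE M A E := by
  rw [mem_OE, coeffMap_jqModC, H602.laurentBaseChange_full_eq]
  exact jqModC_mem_full E M

/-- `j` as an integral series. -/
def JE (M : ℕ) (A : ValuationSubring Qb) (E : IntermediateField ℚ Qb) : OE M A E :=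
  ⟨jqModC (RE A E), jqModC_mem_OE⟩

theorem phi_JE : phi M A E (JE M A E) = jOm M := by
  apply Subtype.ext
  show incQ A E (jqModC (RE A E)) = coeffEmb Qb (qExpand ℚ 1 jq)
  rw [incQ_apply, coeffMap_jqModC, coeffMap_jqModC, H602.coeffEmb_qExpand_jq, qExpand_one_apply]

theorem rho_JE : rho M A E (JE M A E) = jqModC (IsLocalRing.ResidueField (RE A E)) := by
  rw [rho_apply]
  exact coeffMap_jqModC _

theorem C_mem_OE (r : RE A E) : HahnSeries.C (Γ := ℤ) r ∈ OE M A E := by
  rw [mem_OE, H516.coeffMap_C]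
  exact C_mem_FE M _

/-- Constants as integral series. -/
def CE (M : ℕ) (A : ValuationSubring Qb) (E : IntermediateField ℚ Qb) : RE A E →+* OE M A E :=
  (HahnSeries.C (Γ := ℤ) (R := RE A E)).codRestrict (OE M A E) C_mem_OE

theorem phi_CE (r : RE A E) : phi M A E (CE M A E r) = iotaR M A E r := by
  apply Subtype.ext
  show incQ A E (HahnSeries.C r) = _
  rw [incQ_apply, H516.coeffMap_C, H516.coeffMap_C, iotaR_apply, coe_iota_single,
    HahnSeries.C_apply]
  rfl

theorem rho_CE (r : RE A E) :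
    rho M A E (CE M A E r) = HahnSeries.C (IsLocalRing.residue (RE A E) r) := by
  rw [rho_apply]
  exact H516.coeffMap_C _ r

/-- Evaluation `R_E[X] → O_E`, `X ↦ j`. -/
def evE (M : ℕ) (A : ValuationSubring Qb) (E : IntermediateField ℚ Qb) :
    Polynomial (RE A E) →+* OE M A E :=
  Polynomial.eval₂RingHom (CE M A E) (JE M A E)

theorem phi_comp_evE :
    (phi M A E).comp (evE M A E) = Polynomial.eval₂RingHom (iotaR M A E) (jOm M) := by
  refine Polynomial.ringHom_ext (fun r => ?_) ?_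
  · simp only [RingHom.comp_apply, evE, Polynomial.coe_eval₂RingHom, Polynomial.eval₂_C]
    exact phi_CE r
  · simp only [RingHom.comp_apply, evE, Polynomial.coe_eval₂RingHom, Polynomial.eval₂_X]
    exact phi_JE

theorem rho_comp_evE :
    (rho M A E).comp (evE M A E) =
      ((Polynomial.aeval (jqModC (IsLocalRing.ResidueField (RE A E))) :
          Polynomial (IsLocalRing.ResidueField (RE A E)) →ₐ[IsLocalRing.ResidueField (RE A E)]
            LaurentSeries (IsLocalRing.ResidueField (RE A E))).toRingHom).comp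
        (Polynomial.mapRingHom (IsLocalRing.residue (RE A E))) := by
  refine Polynomial.ringHom_ext (fun r => ?_) ?_
  · simp only [RingHom.comp_apply, evE, Polynomial.coe_eval₂RingHom, Polynomial.eval₂_C,
      Polynomial.coe_mapRingHom, Polynomial.map_C, AlgHom.toRingHom_eq_coe, RingHom.coe_coe,
      Polynomial.aeval_C]
    rw [rho_CE, algebraMap_laurentSeries_eq_single, HahnSeries.C_apply]
  · simp only [RingHom.comp_apply, evE, Polynomial.coe_eval₂RingHom, Polynomial.eval₂_X,
      Polynomial.coe_mapRingHom, Polynomial.map_X, AlgHom.toRingHom_eq_coe, RingHom.coe_coe,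
      Polynomial.aeval_X]
    exact rho_JE

theorem eval₂_iotaR_mem_polyRing (g : Polynomial (RE A E)) :
    Polynomial.eval₂ (iotaR M A E) (jOm M) g ∈ Alg.polyRing (Rc M A E) (jOm M) := by
  rw [Polynomial.eval₂_eq_sum_range]
  refine sum_mem fun i _ => ?_
  have h1 : iotaR M A E (g.coeff i) ∈ Alg.polyRing (Rc M A E) (jOm M) :=
    Subring.subset_closure (Set.mem_union_left _ (iotaR_mem_Rc _))
  have h2 : jOm M ∈ Alg.polyRing (Rc M A E) (jOm M) :=
    Subring.subset_closure (Set.mem_union_right _ (Set.mem_singleton _))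
  exact mul_mem h1 (pow_mem h2 _)

/-- **G-SEP** for the concrete objects, coordinate `j`. -/
theorem field_separable (M : ℕ) [NeZero M] {ℓ : ℕ} (hℓ : ℓ.Prime) (hℓM : ¬ ℓ ∣ M)
    {A : ValuationSubring Qb} (hA : A.LiesOverPrime ℓ) (E : IntermediateField ℚ Qb)
    {w : Om M} (hwm : w ∈ Rc M A E)
    (hwg : ∀ r ∈ Rc M A E, r⁻¹ ∉ Rc M A E → r * w⁻¹ ∈ Rc M A E) :
    ∀ f ∈ VcSet M A E, ∃ P : Polynomial (Om M),
      (∀ i, P.coeff i ∈ Alg.polyRing (Rc M A E) (jOm M)) ∧ P.eval f * w⁻¹ ∈ VcSet M A E ∧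
      (Polynomial.derivative P).eval f ≠ 0 ∧
      ((Polynomial.derivative P).eval f)⁻¹ ∈ VcSet M A E := by
  intro f hf
  haveI : Fact ℓ.Prime := ⟨hℓ⟩
  haveI : CharP (IsLocalRing.ResidueField (RE A E)) ℓ := charP_residue_RE hℓ hA
  haveI : PerfectField (IsLocalRing.ResidueField (RE A E)) := perfectField_residue_RE hℓ hA
  have core : S28.CoreData M (IsLocalRing.ResidueField (RE A E)) :=
    S28.H867.coreData_of_inputs M ℓ hℓM (IsLocalRing.ResidueField (RE A E))
      (fun p hp _ _ => S28.H807.nonempty_modPolyData p hp)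
      (fun p hp _ _ => S28.H807.nonempty_unitPolyData p hp)
      S28.H25.theta_identity
  obtain ⟨V₁, V₂, h2, h12⟩ := exists_rep_of_mem_VcSet hf
  set fbar : LaurentSeries (IsLocalRing.ResidueField (RE A E)) :=
    rho M A E V₁ * (rho M A E V₂)⁻¹ with hfbar
  have hfb : fbar * rho M A E V₂ = rho M A E V₁ := by
    rw [hfbar, mul_assoc, inv_mul_cancel₀ h2, mul_one]
  have hmemF : ∀ V : OE M A E,
      rho M A E V ∈ modularFunctionFieldFullC (IsLocalRing.ResidueField (RE A E)) M := fun V =>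
    H516.red_mem_of_incl_mem (RE A E) (IsLocalRing.residue (RE A E)) M core V.2
  have hfbarF : fbar ∈ modularFunctionFieldFullC (IsLocalRing.ResidueField (RE A E)) M :=
    mul_mem (hmemF V₁) (inv_mem (hmemF V₂))
  have halg := isAlgebraic_adjoin_jqModC_of_mem_fullC _ M hfbarF
  obtain ⟨Pbar, hP0, hP1⟩ :=
    H264.exists_bivariate_simple_root_jqModC (IsLocalRing.ResidueField (RE A E)) ℓ fbar halg
  obtain ⟨Pt, hPt⟩ := Polynomial.map_surjective
    (Polynomial.mapRingHom (IsLocalRing.residue (RE A E)))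
    (Polynomial.map_surjective _ IsLocalRing.residue_surjective) Pbar
  obtain ⟨PO, hPO⟩ : ∃ PO : Polynomial (OE M A E), PO = Pt.map (evE M A E) := ⟨_, rfl⟩
  obtain ⟨d, hd⟩ : ∃ d : ℕ, d = PO.natDegree := ⟨_, rfl⟩
  -- the two reductions of `PO`
  have hPOphi : PO.map (phi M A E) = Pt.map (Polynomial.eval₂RingHom (iotaR M A E) (jOm M)) := by
    rw [hPO, Polynomial.map_map, phi_comp_evE]
  have hPOrho : PO.map (rho M A E) =
      Pbar.map ((Polynomial.aeval (jqModC (IsLocalRing.ResidueField (RE A E))) :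
          Polynomial (IsLocalRing.ResidueField (RE A E)) →ₐ[IsLocalRing.ResidueField (RE A E)]
            LaurentSeries (IsLocalRing.ResidueField (RE A E))).toRingHom) := by
    rw [hPO, Polynomial.map_map, rho_comp_evE, ← Polynomial.map_map, hPt]
  have hdeg1 : ∀ {T : Type} [CommRing T] (ψ : OE M A E →+* T), (PO.map ψ).natDegree ≤ d :=
    fun ψ => hd ▸ Polynomial.natDegree_map_le
  have hdeg2 : ∀ {T : Type} [CommRing T] (ψ : OE M A E →+* T),
      ((Polynomial.derivative PO).map ψ).natDegree ≤ d := fun ψ =>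
    hd ▸ (Polynomial.natDegree_map_le).trans
      ((Polynomial.natDegree_derivative_le PO).trans (Nat.sub_le _ _))
  have hderrho : (Polynomial.derivative PO).map (rho M A E) =
      (Polynomial.derivative Pbar).map
        ((Polynomial.aeval (jqModC (IsLocalRing.ResidueField (RE A E))) :
          Polynomial (IsLocalRing.ResidueField (RE A E)) →ₐ[IsLocalRing.ResidueField (RE A E)]
            LaurentSeries (IsLocalRing.ResidueField (RE A E))).toRingHom) := by
    rw [← Polynomial.derivative_map, hPOrho, Polynomial.derivative_map]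
  -- the homogenised values
  obtain ⟨W, hW⟩ : ∃ W : OE M A E, W = homog d PO V₁ V₂ := ⟨_, rfl⟩
  obtain ⟨Z, hZ⟩ : ∃ Z : OE M A E, Z = homog d (Polynomial.derivative PO) V₁ V₂ := ⟨_, rfl⟩
  have hWphi : phi M A E W = (phi M A E V₂) ^ d * (PO.map (phi M A E)).eval f := by
    rw [hW, map_homog, homog_eq d _ h12 (hdeg1 _)]
  have hWrho : rho M A E W = 0 := by
    rw [hW, map_homog, homog_eq d _ hfb (hdeg1 _), hPOrho,
      Polynomial.eval_map, hP0, mul_zero]
  have hZphi : phi M A E Z =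
      (phi M A E V₂) ^ d * ((Polynomial.derivative PO).map (phi M A E)).eval f := by
    rw [hZ, map_homog, homog_eq d _ h12 (hdeg2 _)]
  have hZrho : rho M A E Z ≠ 0 := by
    rw [hZ, map_homog, homog_eq d _ hfb (hdeg2 _), hderrho, Polynomial.eval_map]
    exact mul_ne_zero (pow_ne_zero _ h2) hP1
  have hV₂d : rho M A E (V₂ ^ d) ≠ 0 := by
    rw [map_pow]
    exact pow_ne_zero _ h2
  obtain ⟨W', hW'⟩ := exists_div_of_rho_eq_zero hwm hwg W hWrho
  have hZ0 : phi M A E Z ≠ 0 := by
    intro h0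
    apply hZrho
    have : Z = 0 := phi_injective (by rw [h0, map_zero])
    rw [this, map_zero]
  have hder0 : ((Polynomial.derivative PO).map (phi M A E)).eval f ≠ 0 := by
    intro h0
    apply hZ0
    rw [hZphi, h0, mul_zero]
  refine ⟨PO.map (phi M A E), ?_, ?_, ?_, ?_⟩
  · intro i
    rw [hPOphi, Polynomial.coeff_map]
    exact eval₂_iotaR_mem_polyRing _
  · refine mem_VcSet_of_rep W' (V₂ ^ d) hV₂d ?_
    rw [hW', hWphi, map_pow]
    ring
  · rw [Polynomial.derivative_map]
    exact hder0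
  · rw [Polynomial.derivative_map]
    refine mem_VcSet_of_rep (V₂ ^ d) Z hZrho ?_
    rw [hZphi, map_pow]
    field_simp

/-- **G-SEP**, in the exact shape of the field `Alg.GoodModel.separable`, for any subring `V`
with underlying set `VcSet M A E`. -/
theorem field_separable_subring (M : ℕ) [NeZero M] {ℓ : ℕ} (hℓ : ℓ.Prime) (hℓM : ¬ ℓ ∣ M)
    {A : ValuationSubring Qb} (hA : A.LiesOverPrime ℓ) (E : IntermediateField ℚ Qb)
    (V : Subring (Om M)) (hV : (V : Set (Om M)) = VcSet M A E)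
    {w : Om M} (hwm : w ∈ Rc M A E)
    (hwg : ∀ r ∈ Rc M A E, r⁻¹ ∉ Rc M A E → r * w⁻¹ ∈ Rc M A E) :
    ∀ f ∈ V, ∃ P : Polynomial (Om M),
      (∀ i, P.coeff i ∈ Alg.polyRing (Rc M A E) (jOm M)) ∧ P.eval f * w⁻¹ ∈ V ∧
      (Polynomial.derivative P).eval f ≠ 0 ∧ ((Polynomial.derivative P).eval f)⁻¹ ∈ V := by
  have hmem : ∀ g : Om M, g ∈ V ↔ g ∈ VcSet M A E := fun g => by
    rw [← hV]
    rfl
  intro f hf
  obtain ⟨P, h1, h2, h3, h4⟩ := field_separable M hℓ hℓM hA E hwm hwg f ((hmem f).mp hf)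
  exact ⟨P, h1, (hmem _).mpr h2, h3, (hmem _).mpr h4⟩

end Main

end Fermat.Agent.S18.H576

end
end
-- ===== PACK-END S18/H576/Sep.lean

-- ===== PACK-BEGIN S48/H828/IActRing.lean
section


/-!
# S48 / Tower A1 / IGUSA1, piece I-ACT (helper828), part 1: the ring of level-`M` modular
functions which are holomorphic on `ℍ` and `E`-rational at every cusp

Generator-free set-up on top of the S24 analytic layer (`InfExp`, `compSL`).

* `E` is any field with a ring hom `ι : E →+* ℂ` (think of a number field containing `ζ_M`).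
* `iactRing ι M` : the subring of functions `f : ℍ → ℂ` which are holomorphic, invariant under
  `Γ(M)`, and such that EVERY `SL(2,ℤ)`-translate `f ∘ γ` has a convergent Laurent expansion in
  `X = exp(2πiτ/M)` with coefficients in `ι(E)`.
* `iactExp ι M : iactRing ι M →+* LaurentSeries E` : the (injective) `X`-expansion at `∞`.
* `SL(2,ℤ)` acts on `iactRing ι M` by `(γ • f) τ = f (γ⁻¹ • τ)`; `Γ(M)` acts trivially.
* `T` acts on expansions by the substitution `X ↦ ζ⁻¹ X`.

Any concrete generator (division values, Eisenstein quotients, `j(dτ)`) lies in `iactRing` as soon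
as the three defining properties are checked.
-/

set_option autoImplicit false
set_option linter.unusedSectionVars false

noncomputable section

open ModularCurve HahnSeries UpperHalfPlane
open scoped MatrixGroups Manifold

namespace Fermat.Agent.S48.H828

open Fermat.Agent.S24 Fermat.Agent.S24.H997 Fermat.Agent.S24.H624

variable {E : Type*} [Field E] (ι : E →+* ℂ) (M : ℕ)

/-- `f` has a convergent expansion at `∞` in `X = exp(2πiτ/M)` with coefficients in `ι(E)`. -/
def IActRat (f : ℍ → ℂ) : Prop := ∃ φ : LaurentSeries E, InfExp M f (coeffMap ι φ)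

variable {ι M}

theorem iact_coeffMap_C (c : E) : coeffMap ι (HahnSeries.C c) = HahnSeries.C (ι c) := by
  show coeffMap ι (HahnSeries.single 0 c) = HahnSeries.single 0 (ι c)
  exact coeffMap_single ι 0 c

theorem IActRat.const (c : E) : IActRat ι M (fun _ => ι c) :=
  ⟨HahnSeries.C c, by rw [iact_coeffMap_C]; exact InfExp.const (ι c)⟩

theorem IActRat.zero : IActRat ι M (fun _ => 0) :=
  ⟨0, by rw [map_zero]; exact InfExp.zero⟩

theorem IActRat.one : IActRat ι M (fun _ => 1) :=
  ⟨1, by rw [map_one]; exact InfExp.one⟩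

theorem IActRat.add {f g : ℍ → ℂ} (hf : IActRat ι M f) (hg : IActRat ι M g) :
    IActRat ι M (f + g) := by
  obtain ⟨φ, hφ⟩ := hf
  obtain ⟨ψ, hψ⟩ := hg
  exact ⟨φ + ψ, by rw [map_add]; exact hφ.add hψ⟩

theorem IActRat.neg {f : ℍ → ℂ} (hf : IActRat ι M f) : IActRat ι M (-f) := by
  obtain ⟨φ, hφ⟩ := hf
  exact ⟨-φ, by rw [map_neg]; exact hφ.neg⟩

theorem IActRat.mul {f g : ℍ → ℂ} (hf : IActRat ι M f) (hg : IActRat ι M g) :
    IActRat ι M (f * g) := by
  obtain ⟨φ, hφ⟩ := hf
  obtain ⟨ψ, hψ⟩ := hg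
  exact ⟨φ * ψ, by rw [map_mul]; exact hφ.mul hψ⟩

variable (ι M)

/-- The ring of holomorphic level-`M` modular functions, `E`-rational at every cusp. -/
def iactRing : Subring (ℍ → ℂ) where
  carrier := {f | MDiff f ∧ (∀ γ ∈ CongruenceSubgroup.Gamma M, compSL γ f = f) ∧
    ∀ γ : SL(2, ℤ), IActRat ι M (compSL γ f)}
  mul_mem' := by
    rintro f g ⟨hf, hf1, hf2⟩ ⟨hg, hg1, hg2⟩
    refine ⟨hf.mul hg, fun γ hγ => ?_, fun γ => ?_⟩
    · show compSL γ f * compSL γ g = f * g
      rw [hf1 γ hγ, hg1 γ hγ]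
    · exact (hf2 γ).mul (hg2 γ)
  one_mem' := ⟨mdifferentiable_const, fun _ _ => rfl, fun _ => IActRat.one⟩
  add_mem' := by
    rintro f g ⟨hf, hf1, hf2⟩ ⟨hg, hg1, hg2⟩
    refine ⟨hf.add hg, fun γ hγ => ?_, fun γ => ?_⟩
    · show compSL γ f + compSL γ g = f + g
      rw [hf1 γ hγ, hg1 γ hγ]
    · exact (hf2 γ).add (hg2 γ)
  zero_mem' := ⟨mdifferentiable_const, fun _ _ => rfl, fun _ => IActRat.zero⟩
  neg_mem' := by
    rintro f ⟨hf, hf1, hf2⟩
    refine ⟨hf.neg, fun γ hγ => ?_, fun γ => ?_⟩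
    · show -compSL γ f = -f
      rw [hf1 γ hγ]
    · exact (hf2 γ).neg

variable {ι M}

theorem mem_iactRing {f : ℍ → ℂ} :
    f ∈ iactRing ι M ↔ MDiff f ∧ (∀ γ ∈ CongruenceSubgroup.Gamma M, compSL γ f = f) ∧
      ∀ γ : SL(2, ℤ), IActRat ι M (compSL γ f) := Iff.rfl

theorem const_mem_iactRing (c : E) : (fun _ : ℍ => ι c) ∈ iactRing ι M :=
  ⟨mdifferentiable_const, fun _ _ => rfl, fun _ => IActRat.const c⟩

/-- `iactRing` is stable under precomposition with `SL(2,ℤ)`. -/
theorem compSL_mem_iactRing (g : SL(2, ℤ)) {f : ℍ → ℂ} (hf : f ∈ iactRing ι M) :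
    compSL g f ∈ iactRing ι M := by
  obtain ⟨h0, h1, h2⟩ := hf
  refine ⟨(precompSL g ⟨f, h0⟩).2, fun δ hδ => ?_, fun γ => ?_⟩
  · have hn : g * δ * g⁻¹ ∈ CongruenceSubgroup.Gamma M :=
      (CongruenceSubgroup.Gamma_normal M).conj_mem δ hδ g
    have e : g * δ = (g * δ * g⁻¹) * g := by group
    rw [← compSL_mul, e, compSL_mul, h1 _ hn]
  · rw [← compSL_mul]
    exact h2 _

theorem iactRat_self (f : iactRing ι M) : IActRat ι M (f : ℍ → ℂ) := by
  have := f.2.2.2 1
  rwa [compSL_one] at this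

variable [NeZero M]

theorem iact_unique {f : ℍ → ℂ} {φ ψ : LaurentSeries E} (hφ : InfExp M f (coeffMap ι φ))
    (hψ : InfExp M f (coeffMap ι ψ)) : φ = ψ :=
  inf_coeffMap_injective ι.injective (hφ.unique hψ)

variable (ι M)

/-- The `X`-expansion at `∞` of an element of `iactRing`, as a Laurent series over `E`. -/
def iactExpFun (f : iactRing ι M) : LaurentSeries E := Classical.choose (iactRat_self f)

variable {ι M}

theorem iactExpFun_spec (f : iactRing ι M) :
    InfExp M (f : ℍ → ℂ) (coeffMap ι (iactExpFun ι M f)) :=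
  Classical.choose_spec (iactRat_self f)

theorem iactExpFun_eq {f : iactRing ι M} {φ : LaurentSeries E}
    (h : InfExp M (f : ℍ → ℂ) (coeffMap ι φ)) : iactExpFun ι M f = φ :=
  iact_unique (iactExpFun_spec f) h

variable (ι M)

/-- The `X`-expansion at `∞` as a ring homomorphism `iactRing ι M →+* LaurentSeries E`. -/
def iactExp : iactRing ι M →+* LaurentSeries E where
  toFun := iactExpFun ι M
  map_one' := iactExpFun_eq (by rw [map_one]; exact InfExp.one)
  map_mul' f g := iactExpFun_eq (by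
    rw [map_mul]; exact (iactExpFun_spec f).mul (iactExpFun_spec g))
  map_zero' := iactExpFun_eq (by rw [map_zero]; exact InfExp.zero)
  map_add' f g := iactExpFun_eq (by
    rw [map_add]; exact (iactExpFun_spec f).add (iactExpFun_spec g))

variable {ι M}

theorem iactExp_spec (f : iactRing ι M) :
    InfExp M (f : ℍ → ℂ) (coeffMap ι (iactExp ι M f)) := iactExpFun_spec f

theorem iactExp_eq {f : iactRing ι M} {φ : LaurentSeries E}
    (h : InfExp M (f : ℍ → ℂ) (coeffMap ι φ)) : iactExp ι M f = φ := iactExpFun_eq h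

theorem iactExp_injective : Function.Injective (iactExp ι M) := by
  intro f g h
  apply Subtype.ext
  have hf := iactExp_spec f
  rw [h] at hf
  exact hf.fun_unique (iactExp_spec g)

/-- The constant function `ι c` as an element of `iactRing`. -/
def iactConst (c : E) : iactRing ι M := ⟨fun _ => ι c, const_mem_iactRing c⟩

theorem iactExp_const (c : E) : iactExp ι M (iactConst c) = HahnSeries.C c :=
  iactExp_eq (by rw [iact_coeffMap_C]; exact InfExp.const (ι c))

instance iactRing_isDomain : IsDomain (iactRing ι M) :=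
  (iactExp_injective (ι := ι) (M := M)).isDomain _

/-! ### the action of `SL(2,ℤ)` -/

variable (ι M)

/-- Precomposition with `g` as a ring endomorphism of `iactRing`. -/
def iactComp (g : SL(2, ℤ)) : iactRing ι M →+* iactRing ι M where
  toFun f := ⟨compSL g f, compSL_mem_iactRing g f.2⟩
  map_one' := rfl
  map_mul' _ _ := rfl
  map_zero' := rfl
  map_add' _ _ := rfl

variable {ι M}

@[simp] theorem iactComp_apply (g : SL(2, ℤ)) (f : iactRing ι M) (τ : ℍ) :
    (iactComp ι M g f : ℍ → ℂ) τ = (f : ℍ → ℂ) (g • τ) := rfl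

theorem iactComp_one (f : iactRing ι M) : iactComp ι M 1 f = f := by
  apply Subtype.ext; funext τ; simp

theorem iactComp_mul (g h : SL(2, ℤ)) (f : iactRing ι M) :
    iactComp ι M (g * h) f = iactComp ι M h (iactComp ι M g f) := by
  apply Subtype.ext; funext τ; simp [mul_smul]

theorem iactComp_of_mem_Gamma {g : SL(2, ℤ)} (hg : g ∈ CongruenceSubgroup.Gamma M)
    (f : iactRing ι M) : iactComp ι M g f = f :=
  Subtype.ext (f.2.2.1 g hg)

/-- Left action of `SL(2,ℤ)` on `iactRing`: `(γ • f) τ = f (γ⁻¹ • τ)`. -/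
instance iactMulSemiringAction : MulSemiringAction SL(2, ℤ) (iactRing ι M) where
  smul γ f := iactComp ι M γ⁻¹ f
  one_smul f := by
    show iactComp ι M (1 : SL(2, ℤ))⁻¹ f = f
    rw [inv_one, iactComp_one]
  mul_smul γ δ f := by
    show iactComp ι M (γ * δ)⁻¹ f = iactComp ι M γ⁻¹ (iactComp ι M δ⁻¹ f)
    rw [mul_inv_rev, iactComp_mul]
  smul_zero γ := map_zero _
  smul_add γ f g := map_add _ f g
  smul_one γ := map_one _
  smul_mul γ f g := map_mul _ f g

theorem iact_smul_def (γ : SL(2, ℤ)) (f : iactRing ι M) : γ • f = iactComp ι M γ⁻¹ f := rfl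

theorem iact_smul_apply (γ : SL(2, ℤ)) (f : iactRing ι M) (τ : ℍ) :
    ((γ • f : iactRing ι M) : ℍ → ℂ) τ = (f : ℍ → ℂ) (γ⁻¹ • τ) := rfl

theorem iact_smul_of_mem_Gamma {γ : SL(2, ℤ)} (hγ : γ ∈ CongruenceSubgroup.Gamma M)
    (f : iactRing ι M) : γ • f = f :=
  iactComp_of_mem_Gamma (inv_mem hγ) f

theorem iact_smul_const (γ : SL(2, ℤ)) (c : E) :
    γ • (iactConst c : iactRing ι M) = iactConst c := rfl

end Fermat.Agent.S48.H828

end
end
-- ===== PACK-END S48/H828/IActRing.lean

-- ===== PACK-BEGIN S48/H828/IActInv.lean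
section




/-!
# S48 / Tower A1 / IGUSA1, piece I-ACT (helper828), part 2: `SL(2,ℤ)`-invariants are `E[j]`

* `iactJ : iactRing ι M` is the `j`-function, with expansion `jq(X^M)` (`iactExp_J`).
* `iact_coeff_eq_zero_of_T` : a `T`-invariant function has only exponents divisible by `M`.
* `iact_exists_poly` : an `SL(2,ℤ)`-invariant holomorphic function with an `E`-rational expansion
  is a polynomial in `j` with coefficients in `E` (function level and series level).
* `iact_invariant_eq_eval₂` : the invariants of `iactRing ι M` are `E[j]`.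
-/

set_option autoImplicit false
set_option linter.unusedSectionVars false

noncomputable section

open ModularCurve HahnSeries UpperHalfPlane
open scoped MatrixGroups Manifold

namespace Fermat.Agent.S48.H828

open Fermat.Agent.S24 Fermat.Agent.S24.H997 Fermat.Agent.S24.H624 Fermat.Agent.S20.L1

variable {E : Type*} [Field E] [CharZero E] {ι : E →+* ℂ} {M : ℕ} [NeZero M]

/-! ### the `j`-function -/

theorem iact_coeffMap_coeffEmb (x : LaurentSeries ℚ) :
    coeffMap ι (coeffEmb E x) = coeffEmb ℂ x := by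
  rw [coeffEmb, coeffMap_coeffMap]
  exact coeffMap_congr (RingHom.ext fun c => by simp) x

variable (E M) in
/-- The expansion `jq(X^M)` of `j` in the variable `X = q^{1/M}`, over `E`. -/
def iactJX : LaurentSeries E := qExpand E M (coeffEmb E jq)

theorem iact_coeffMap_JX : coeffMap ι (iactJX E M) = qExpand ℂ M infJq := by
  rw [iactJX, coeffMap_qExpand, iact_coeffMap_coeffEmb]
  rfl

theorem iact_infExp_jFun : InfExp M jFun (qExpand ℂ M infJq) := by
  have hM : 0 < M := Nat.pos_of_ne_zero (NeZero.ne M)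
  have h := (infExp_jFun).comp_infAff (M := 1) (N := M) (a := 1) (d := 1) (e := M) 0
    one_pos one_pos one_pos hM (by ring)
  rw [infRoot_zero, infTwist_one] at h
  refine h.congr fun τ => ?_
  rw [infAff_one_zero_one]

theorem iactRat_jFun : IActRat ι M jFun :=
  ⟨iactJX E M, by rw [iact_coeffMap_JX]; exact iact_infExp_jFun⟩

theorem compSL_jFun (γ : SL(2, ℤ)) : compSL γ jFun = jFun := by
  funext τ
  exact jFun_smul' γ τ

theorem jFun_mem_iactRing : jFun ∈ iactRing ι M :=
  ⟨mdiff_jFun, fun γ _ => compSL_jFun γ, fun γ => by rw [compSL_jFun]; exact iactRat_jFun⟩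

variable (ι M) in
/-- The `j`-function as an element of `iactRing`. -/
def iactJ : iactRing ι M := ⟨jFun, jFun_mem_iactRing⟩

theorem iactExp_J : iactExp ι M (iactJ ι M) = iactJX E M :=
  iactExp_eq (by rw [iact_coeffMap_JX]; exact iact_infExp_jFun)

theorem iact_smul_J (γ : SL(2, ℤ)) : γ • iactJ ι M = iactJ ι M :=
  Subtype.ext (compSL_jFun γ⁻¹)

/-! ### `T`-invariance and the support of the expansion -/

theorem iact_T_smul (τ : ℍ) : ModularGroup.T • τ = infAff 1 1 1 τ := by
  apply UpperHalfPlane.ext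
  rw [infAff_coe one_pos one_pos, UpperHalfPlane.modular_T_smul, UpperHalfPlane.coe_vadd]
  push_cast
  ring

theorem iact_infRoot_one_zpow (n : ℤ) : infRoot 1 M ^ n = infRoot n M := by
  apply Units.ext
  rw [infRoot_zpow_coe, infRoot_coe, ← Complex.exp_int_mul]
  congr 1
  push_cast
  ring

/-- A `T`-invariant function has no exponents prime to the width. -/
theorem iact_coeff_eq_zero_of_T {f : ℍ → ℂ} {Φ : LaurentSeries ℂ} (h : InfExp M f Φ)
    (hT : ∀ τ, f (ModularGroup.T • τ) = f τ) {n : ℤ} (hn : ¬ (M : ℤ) ∣ n) : Φ.coeff n = 0 := by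
  have hM : 0 < M := Nat.pos_of_ne_zero (NeZero.ne M)
  have h1 : InfExp M f (infTwist (infRoot 1 M) Φ) := by
    refine (h.comp_translate 1).congr fun τ => ?_
    rw [← iact_T_smul, hT]
  have h2 := congrArg (fun x : LaurentSeries ℂ => x.coeff n) (h1.unique h)
  simp only [infTwist_coeff] at h2
  by_contra hne
  have h3 : (((infRoot 1 M) ^ n : ℂˣ) : ℂ) = 1 := by
    have := mul_left_cancel₀ hne (h2.trans (mul_one _).symm)
    exact this
  have h4 : infRoot n M = infRoot 0 M := by
    rw [infRoot_zero, ← iact_infRoot_one_zpow]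
    exact Units.ext h3
  rw [infRoot_eq_iff hM, sub_zero] at h4
  exact hn h4

/-! ### the constant case -/

theorem iact_const_of_invariant {f : ℍ → ℂ} {Φ : LaurentSeries ℂ} (hol : MDiff f)
    (hinv : ∀ (γ : SL(2, ℤ)) (τ : ℍ), f (γ • τ) = f τ) (h : InfExp M f Φ)
    (hΦ : ∀ n : ℤ, n < 0 → Φ.coeff n = 0) : ∀ τ, f τ = Φ.coeff 0 := by
  have hM : (0 : ℝ) < M := by exact_mod_cast Nat.pos_of_ne_zero (NeZero.ne M)
  obtain ⟨A, rfl⟩ := Fermat.Agent.S28.H685.exists_ofPowerSeries_eq Φ hΦ
  have hL : Fermat.Agent.S28.H685.HasQLaurent (M : ℝ) f (HahnSeries.ofPowerSeries ℤ ℂ A) := h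
  have hA := hL.hasQExp_of_ofPowerSeries
  obtain ⟨c, hc⟩ := Fermat.Agent.S28.H685.exists_const_of_invariant f hol
    (hA.isBoundedAtImInfty hM) (hinv _) (hinv _)
  have h1 : InfExp M f (HahnSeries.C c) := (InfExp.const c).congr fun τ => (hc τ).symm
  have h2 := h.unique h1
  intro τ
  rw [h2, hc τ]
  simp

/-! ### structure of the powers of `jq(X^M)` -/

theorem iact_leadingCoeff_pow {R : Type*} [CommRing R] [IsDomain R] (x : LaurentSeries R)
    (n : ℕ) : (x ^ n).leadingCoeff = x.leadingCoeff ^ n := by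
  induction n with
  | zero => simp
  | succ n ih => rw [pow_succ, HahnSeries.leadingCoeff_mul, ih, pow_succ]

theorem iact_JXC_order : (qExpand ℂ M infJq).order = -(M : ℤ) := by
  rw [inf_qExpand_order, infJq_order]
  ring

theorem iact_JXC_pow_order (n : ℕ) : ((qExpand ℂ M infJq) ^ n).order = -((M * n : ℕ) : ℤ) := by
  rw [HahnSeries.order_pow, iact_JXC_order]
  push_cast
  simp only [nsmul_eq_mul]
  ring

theorem iact_JXC_pow_coeff (n : ℕ) :
    ((qExpand ℂ M infJq) ^ n).coeff (-((M * n : ℕ) : ℤ)) = 1 := by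
  rw [← iact_JXC_pow_order n, ← HahnSeries.leadingCoeff_eq, iact_leadingCoeff_pow,
    inf_qExpand_leadingCoeff, infJq_leadingCoeff, one_pow]

theorem iact_JXC_pow_coeff_of_lt (n : ℕ) {k : ℤ} (hk : k < -((M * n : ℕ) : ℤ)) :
    ((qExpand ℂ M infJq) ^ n).coeff k = 0 :=
  HahnSeries.coeff_eq_zero_of_lt_order (by rw [iact_JXC_pow_order]; exact hk)

theorem iact_infExp_pow {f : ℍ → ℂ} {Φ : LaurentSeries ℂ} (h : InfExp M f Φ) (n : ℕ) :
    InfExp M (fun τ => f τ ^ n) (Φ ^ n) := by
  have hL : Fermat.Agent.S28.H685.HasQLaurent (M : ℝ) f Φ := h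
  exact hL.pow n

/-! ### the polynomial principle over `E` -/

theorem iact_exists_poly_aux :
    ∀ (n : ℕ) (f : ℍ → ℂ) (φ : LaurentSeries E), MDiff f →
      (∀ (γ : SL(2, ℤ)) (τ : ℍ), f (γ • τ) = f τ) → InfExp M f (coeffMap ι φ) →
      (∀ k : ℤ, k < -((M * n : ℕ) : ℤ) → φ.coeff k = 0) →
      ∃ P : Polynomial E, P.natDegree ≤ n ∧ φ = Polynomial.aeval (iactJX E M) P ∧
        ∀ τ, f τ = (P.map ι).eval (jFun τ) := by
  intro n
  induction n with
  | zero =>
    intro f φ hol hinv h hφ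
    have hφ' : ∀ k : ℤ, k < 0 → (coeffMap ι φ).coeff k = 0 := by
      intro k hk
      rw [coeffMap_coeff, hφ k (by simpa using hk), map_zero]
    have hc := iact_const_of_invariant hol hinv h hφ'
    rw [coeffMap_coeff] at hc
    have h1 : InfExp M f (coeffMap ι (HahnSeries.C (φ.coeff 0))) := by
      rw [iact_coeffMap_C]
      exact (InfExp.const _).congr fun τ => (hc τ).symm
    have h2 : φ = HahnSeries.C (φ.coeff 0) := iact_unique h h1
    refine ⟨Polynomial.C (φ.coeff 0), by simp, ?_, fun τ => by simpa using hc τ⟩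
    rw [Polynomial.aeval_C]
    rw [show algebraMap E (LaurentSeries E) (φ.coeff 0) = HahnSeries.C (φ.coeff 0) from by
      rw [algebraMap_laurentSeries_eq_single]; rfl]
    exact h2
  | succ n ih =>
    intro f φ hol hinv h hφ
    set c := φ.coeff (-((M * (n + 1) : ℕ) : ℤ)) with hc
    set g : ℍ → ℂ := fun τ => f τ - ι c * jFun τ ^ (n + 1) with hg
    set ψ : LaurentSeries E := φ - HahnSeries.C c * (iactJX E M) ^ (n + 1) with hψ
    have hmap : coeffMap ι ψ =
        coeffMap ι φ - HahnSeries.C (ι c) * (qExpand ℂ M infJq) ^ (n + 1) := by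
      rw [hψ, map_sub, map_mul, map_pow, iact_coeffMap_C, iact_coeffMap_JX]
    have hgexp : InfExp M g (coeffMap ι ψ) := by
      rw [hmap]
      exact h.sub ((InfExp.const (ι c)).mul (iact_infExp_pow iact_infExp_jFun (n + 1)))
    have hgol : MDiff g := by
      have h1 : MDiff (fun τ : ℍ => ι c * jFun τ ^ (n + 1)) :=
        (mdifferentiable_const (c := ι c)).mul (mdiff_jFun.pow (n + 1))
      exact hol.sub h1
    have hginv : ∀ (γ : SL(2, ℤ)) (τ : ℍ), g (γ • τ) = g τ := by
      intro γ τ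
      simp only [hg, hinv γ τ, jFun_smul' γ τ]
    have hψ0 : ∀ k : ℤ, k < -((M * n : ℕ) : ℤ) → ψ.coeff k = 0 := by
      intro k hk
      apply ι.injective
      rw [map_zero, ← coeffMap_coeff, hmap]
      by_cases hdvd : (M : ℤ) ∣ k
      · obtain ⟨m, rfl⟩ := hdvd
        have hM : (0 : ℤ) < M := by exact_mod_cast Nat.pos_of_ne_zero (NeZero.ne M)
        have hm : m < -(n : ℤ) := by
          push_cast at hk
          have : (M : ℤ) * m < (M : ℤ) * (-(n : ℤ)) := by linarith
          exact lt_of_mul_lt_mul_left this hM.le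
        rw [HahnSeries.coeff_sub, HahnSeries.C_mul_eq_smul, HahnSeries.coeff_smul, smul_eq_mul,
          coeffMap_coeff]
        rcases lt_or_eq_of_le (show m ≤ -((n : ℤ) + 1) by omega) with h1 | h1
        · have hk' : (M : ℤ) * m < -((M * (n + 1) : ℕ) : ℤ) := by
            push_cast
            nlinarith
          rw [hφ _ hk', iact_JXC_pow_coeff_of_lt (n + 1) hk', map_zero, mul_zero, sub_zero]
        · have hk' : (M : ℤ) * m = -((M * (n + 1) : ℕ) : ℤ) := by
            rw [h1]; push_cast; ring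
          rw [hk', iact_JXC_pow_coeff, mul_one, ← hc, sub_self]
      · rw [← hmap]
        exact iact_coeff_eq_zero_of_T hgexp (hginv _) hdvd
    obtain ⟨P, hPdeg, hPφ, hPf⟩ := ih g ψ hgol hginv hgexp hψ0
    refine ⟨P + Polynomial.C c * Polynomial.X ^ (n + 1), ?_, ?_, ?_⟩
    · refine (Polynomial.natDegree_add_le _ _).trans (max_le (hPdeg.trans (Nat.le_succ n)) ?_)
      exact Polynomial.natDegree_C_mul_X_pow_le c (n + 1)
    · rw [map_add, ← hPφ, map_mul, map_pow, Polynomial.aeval_X, Polynomial.aeval_C]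
      rw [show algebraMap E (LaurentSeries E) c = HahnSeries.C c from by
        rw [algebraMap_laurentSeries_eq_single]; rfl]
      rw [hψ]
      ring
    · intro τ
      have := hPf τ
      simp only [Polynomial.map_add, Polynomial.map_mul, Polynomial.map_pow, Polynomial.map_C,
        Polynomial.map_X, Polynomial.eval_add, Polynomial.eval_mul, Polynomial.eval_C,
        Polynomial.eval_pow, Polynomial.eval_X]
      rw [← this]
      simp only [hg]
      ring

/-- **Polynomial principle over `E`.** A holomorphic `SL(2,ℤ)`-invariant function with an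
`E`-rational expansion in `X = q^{1/M}` is a polynomial in `j` with coefficients in `E`. -/
theorem iact_exists_poly {f : ℍ → ℂ} {φ : LaurentSeries E} (hol : MDiff f)
    (hinv : ∀ (γ : SL(2, ℤ)) (τ : ℍ), f (γ • τ) = f τ) (h : InfExp M f (coeffMap ι φ)) :
    ∃ P : Polynomial E, φ = Polynomial.aeval (iactJX E M) P ∧
      ∀ τ, f τ = (P.map ι).eval (jFun τ) := by
  obtain ⟨n, hn⟩ : ∃ n : ℕ, ∀ k : ℤ, k < -((M * n : ℕ) : ℤ) → φ.coeff k = 0 := by
    refine ⟨(-φ.order).toNat, fun k hk => HahnSeries.coeff_eq_zero_of_lt_order ?_⟩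
    have hM : (1 : ℤ) ≤ M := by exact_mod_cast Nat.one_le_iff_ne_zero.mpr (NeZero.ne M)
    have h1 : -φ.order ≤ ((-φ.order).toNat : ℤ) := Int.self_le_toNat _
    have h2 : (0 : ℤ) ≤ ((-φ.order).toNat : ℤ) := Int.natCast_nonneg _
    push_cast at hk
    nlinarith
  obtain ⟨P, -, h1, h2⟩ := iact_exists_poly_aux n f φ hol hinv h hn
  exact ⟨P, h1, h2⟩

/-! ### invariants of `iactRing` -/

variable (ι M) in
/-- Constants, as a ring homomorphism `E →+* iactRing ι M`. -/
def iactC : E →+* iactRing ι M where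
  toFun c := iactConst c
  map_one' := Subtype.ext (by funext τ; simp [iactConst])
  map_mul' a b := Subtype.ext (by funext τ; simp [iactConst])
  map_zero' := Subtype.ext (by funext τ; simp [iactConst])
  map_add' a b := Subtype.ext (by funext τ; simp [iactConst])

theorem iactC_apply (c : E) (τ : ℍ) : ((iactC ι M c : iactRing ι M) : ℍ → ℂ) τ = ι c := rfl

theorem iactExp_C (c : E) : iactExp ι M (iactC ι M c) = HahnSeries.C c := iactExp_const c

theorem iact_smul_C (γ : SL(2, ℤ)) (c : E) : γ • iactC ι M c = iactC ι M c := rfl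

theorem iact_eval₂_apply (P : Polynomial E) (τ : ℍ) :
    ((Polynomial.eval₂ (iactC ι M) (iactJ ι M) P : iactRing ι M) : ℍ → ℂ) τ
      = (P.map ι).eval (jFun τ) := by
  induction P using Polynomial.induction_on' with
  | add p q hp hq =>
    rw [Polynomial.eval₂_add, Polynomial.map_add, Polynomial.eval_add, ← hp, ← hq]
    rfl
  | monomial n a =>
    rw [Polynomial.eval₂_monomial, Polynomial.map_monomial, Polynomial.eval_monomial]
    rfl

theorem iact_smul_eval₂ (γ : SL(2, ℤ)) (P : Polynomial E) :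
    γ • Polynomial.eval₂ (iactC ι M) (iactJ ι M) P = Polynomial.eval₂ (iactC ι M) (iactJ ι M) P := by
  apply Subtype.ext
  funext τ
  rw [iact_smul_apply, iact_eval₂_apply, iact_eval₂_apply, jFun_smul']

/-- **Invariants.** The `SL(2,ℤ)`-invariant elements of `iactRing ι M` are exactly the
polynomials in `j` with coefficients in `E`. -/
theorem iact_invariant_eq_eval₂ (f : iactRing ι M) (hinv : ∀ γ : SL(2, ℤ), γ • f = f) :
    ∃ P : Polynomial E, f = Polynomial.eval₂ (iactC ι M) (iactJ ι M) P := by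
  have hinv' : ∀ (γ : SL(2, ℤ)) (τ : ℍ), (f : ℍ → ℂ) (γ • τ) = (f : ℍ → ℂ) τ := by
    intro γ τ
    have := congrArg (fun g : iactRing ι M => (g : ℍ → ℂ) τ) (hinv γ⁻¹)
    simpa [iact_smul_apply] using this
  obtain ⟨P, -, hP⟩ := iact_exists_poly (f := (f : ℍ → ℂ)) f.2.1 hinv' (iactExp_spec f)
  refine ⟨P, Subtype.ext ?_⟩
  funext τ
  rw [hP τ, iact_eval₂_apply]

end Fermat.Agent.S48.H828

end
end
-- ===== PACK-END S48/H828/IActInv.lean

-- ===== PACK-BEGIN S48/H828/IActField.lean
section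


/-!
# S48 / Tower A1 / IGUSA1, piece I-ACT (helper828), part 3: the field of level-`M` modular
functions `E`-rational at all cusps, with its Galois action

`IActField ι M := Frac (iactRing ι M)`.

* `iactFieldExp ι M : IActField ι M →+* LaurentSeries E` : the `X`-expansion (`X = q^{1/M}`),
  injective; its range is the field called `Ffull` in the IGUSA1 memo.
* `SL(2,ℤ)` acts (`MulSemiringAction`), `Γ(M)` acts trivially (`iact_field_smul_of_mem_Gamma`),
  so the action factors through the FINITE group `SL(2,ℤ) ⧸ Γ(M)` (`iactQuotAction`).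
* `iact_fixed_iff` : the fixed field is `E(j)`.
* `iactFieldExp_T_smul` : `T` acts on expansions by the substitution `X ↦ ζ⁻¹ X`.
-/

set_option autoImplicit false
set_option linter.unusedSectionVars false
set_option warn.classDefReducibility false

noncomputable section

open ModularCurve HahnSeries UpperHalfPlane
open scoped MatrixGroups Manifold

namespace Fermat.Agent.S48.H828

open Fermat.Agent.S24 Fermat.Agent.S24.H997 Fermat.Agent.S24.H624 Fermat.Agent.S20.L1

/-! ### a generic norm lemma -/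

/-- If a finite-index subgroup `Γ` of `G` fixes `b ≠ 0` (in a domain with `G`-action), then some
multiple `b * c ≠ 0` is fixed by all of `G`. -/
theorem iact_exists_invariant_multiple {G R : Type*} [Group G] [CommRing R] [IsDomain R]
    [MulSemiringAction G R] (Γ : Subgroup G) [Finite (G ⧸ Γ)] (b : R)
    (hΓ : ∀ γ ∈ Γ, γ • b = b) (hb : b ≠ 0) :
    ∃ c : R, b * c ≠ 0 ∧ ∀ g : G, g • (b * c) = b * c := by
  classical
  let _ : Fintype (G ⧸ Γ) := Fintype.ofFinite _
  have hterm : ∀ (g : G) (x : G ⧸ Γ),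
      g • ((Quotient.out x : G) • b) = (Quotient.out (g • x) : G) • b := by
    intro g x
    have h1 : ((Quotient.out (g • x) : G) : G ⧸ Γ) = ((g * Quotient.out x : G) : G ⧸ Γ) := by
      rw [QuotientGroup.out_eq']
      conv_lhs => rw [← QuotientGroup.out_eq' x]
      rfl
    have h2 : (Quotient.out (g • x) : G)⁻¹ * (g * Quotient.out x) ∈ Γ := QuotientGroup.eq.mp h1
    have h3 : g * Quotient.out x
        = (Quotient.out (g • x) : G) * ((Quotient.out (g • x) : G)⁻¹ * (g * Quotient.out x)) := by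
      group
    rw [← mul_smul, h3, mul_smul, hΓ _ h2]
  set N : R := ∏ x : G ⧸ Γ, (Quotient.out x : G) • b with hN
  have hinv : ∀ g : G, g • N = N := by
    intro g
    rw [hN, Finset.smul_prod']
    simp only [hterm]
    exact Equiv.prod_comp (MulAction.toPerm g) (fun y : G ⧸ Γ => (Quotient.out y : G) • b)
  have hN0 : N ≠ 0 := by
    rw [hN, Finset.prod_ne_zero_iff]
    intro x _
    exact (smul_ne_zero_iff_ne _).mpr hb
  have hdvd : b ∣ N := by
    have h0 : (Quotient.out ((1 : G) : G ⧸ Γ) : G) • b = b := by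
      apply hΓ
      have h1 : ((Quotient.out ((1 : G) : G ⧸ Γ) : G) : G ⧸ Γ) = ((1 : G) : G ⧸ Γ) :=
        QuotientGroup.out_eq' _
      have := QuotientGroup.eq.mp h1.symm
      simpa using this
    have := Finset.dvd_prod_of_mem (fun x : G ⧸ Γ => (Quotient.out x : G) • b)
      (Finset.mem_univ ((1 : G) : G ⧸ Γ))
    rwa [h0] at this
  obtain ⟨c, hc⟩ := hdvd
  exact ⟨c, hc ▸ hN0, fun g => hc ▸ hinv g⟩

variable {E : Type*} [Field E] [CharZero E] (ι : E →+* ℂ) (M : ℕ) [NeZero M]

/-- The field of level-`M` modular functions, `E`-rational at all cusps. -/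
abbrev IActField : Type := FractionRing (iactRing ι M)

/-- The action of `SL(2,ℤ)` on `IActField`, extending `(γ • f) τ = f (γ⁻¹ • τ)`. -/
instance iactFieldAction : MulSemiringAction SL(2, ℤ) (IActField ι M) :=
  IsFractionRing.mulSemiringAction SL(2, ℤ) (iactRing ι M) (IActField ι M)

variable {ι M}

theorem iact_smul_algebraMap (γ : SL(2, ℤ)) (f : iactRing ι M) :
    γ • algebraMap (iactRing ι M) (IActField ι M) f
      = algebraMap (iactRing ι M) (IActField ι M) (γ • f) :=
  IsFractionRing.ringEquivOfRingEquiv_algebraMap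
    (MulSemiringAction.toRingEquiv SL(2, ℤ) (iactRing ι M) γ) f

variable (ι M)

/-- The `X`-expansion on the field. -/
def iactFieldExp : IActField ι M →+* LaurentSeries E :=
  IsFractionRing.lift (iactExp_injective (ι := ι) (M := M))

/-- Constants `E → IActField`. -/
def iactFC : E →+* IActField ι M :=
  (algebraMap (iactRing ι M) (IActField ι M)).comp (iactC ι M)

/-- The `j`-function in `IActField`. -/
def iactFJ : IActField ι M := algebraMap (iactRing ι M) (IActField ι M) (iactJ ι M)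

variable {ι M}

@[simp] theorem iactFieldExp_algebraMap (f : iactRing ι M) :
    iactFieldExp ι M (algebraMap (iactRing ι M) (IActField ι M) f) = iactExp ι M f :=
  IsFractionRing.lift_algebraMap (iactExp_injective (ι := ι) (M := M)) f

theorem iactFieldExp_injective : Function.Injective (iactFieldExp ι M) :=
  (iactFieldExp ι M).injective

theorem iactFieldExp_C (c : E) : iactFieldExp ι M (iactFC ι M c) = HahnSeries.C c := by
  rw [iactFC, RingHom.comp_apply, iactFieldExp_algebraMap, iactExp_C]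

theorem iactFieldExp_J : iactFieldExp ι M (iactFJ ι M) = iactJX E M := by
  rw [iactFJ, iactFieldExp_algebraMap, iactExp_J]

theorem iact_eval₂_field (P : Polynomial E) :
    Polynomial.eval₂ (iactFC ι M) (iactFJ ι M) P
      = algebraMap (iactRing ι M) (IActField ι M)
          (Polynomial.eval₂ (iactC ι M) (iactJ ι M) P) := by
  rw [Polynomial.hom_eval₂]
  rfl

theorem iact_field_smul_eval₂ (γ : SL(2, ℤ)) (P : Polynomial E) :
    γ • Polynomial.eval₂ (iactFC ι M) (iactFJ ι M) P
      = Polynomial.eval₂ (iactFC ι M) (iactFJ ι M) P := by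
  rw [iact_eval₂_field, iact_smul_algebraMap, iact_smul_eval₂]

/-- `Γ(M)` acts trivially on `IActField`. -/
theorem iact_field_smul_of_mem_Gamma {γ : SL(2, ℤ)} (hγ : γ ∈ CongruenceSubgroup.Gamma M)
    (x : IActField ι M) : γ • x = x := by
  obtain ⟨a, b, hb, rfl⟩ := IsFractionRing.div_surjective (A := iactRing ι M) x
  rw [smul_div₀', iact_smul_algebraMap, iact_smul_algebraMap, iact_smul_of_mem_Gamma hγ,
    iact_smul_of_mem_Gamma hγ]

/-- **Fixed field.** An element of `IActField` is `SL(2,ℤ)`-invariant iff it is a rational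
function of `j` with coefficients in `E`. -/
theorem iact_fixed_iff (x : IActField ι M) :
    (∀ γ : SL(2, ℤ), γ • x = x) ↔
      ∃ P Q : Polynomial E, Polynomial.eval₂ (iactFC ι M) (iactFJ ι M) Q ≠ 0 ∧
        x = Polynomial.eval₂ (iactFC ι M) (iactFJ ι M) P
          / Polynomial.eval₂ (iactFC ι M) (iactFJ ι M) Q := by
  constructor
  · intro hx
    obtain ⟨a, b, hb, rfl⟩ := IsFractionRing.div_surjective (A := iactRing ι M) x
    have hb0 : b ≠ 0 := nonZeroDivisors.ne_zero hb
    obtain ⟨c, hc0, hcinv⟩ := iact_exists_invariant_multiple (G := SL(2, ℤ))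
      (CongruenceSubgroup.Gamma M) b (fun γ hγ => iact_smul_of_mem_Gamma hγ b) hb0
    have hinj : Function.Injective (algebraMap (iactRing ι M) (IActField ι M)) :=
      IsFractionRing.injective _ _
    have hbc : algebraMap (iactRing ι M) (IActField ι M) (b * c) ≠ 0 := by
      rw [Ne, map_eq_zero_iff _ hinj]
      exact hc0
    have hb' : algebraMap (iactRing ι M) (IActField ι M) b ≠ 0 := by
      rw [Ne, map_eq_zero_iff _ hinj]
      exact hb0
    have hx' : algebraMap (iactRing ι M) (IActField ι M) a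
        / algebraMap (iactRing ι M) (IActField ι M) b
        = algebraMap (iactRing ι M) (IActField ι M) (a * c)
          / algebraMap (iactRing ι M) (IActField ι M) (b * c) := by
      rw [map_mul, map_mul]
      have hc' : algebraMap (iactRing ι M) (IActField ι M) c ≠ 0 := by
        intro h
        apply hbc
        rw [map_mul, h, mul_zero]
      field_simp
    have hacinv : ∀ γ : SL(2, ℤ), γ • (a * c) = a * c := by
      intro γ
      apply hinj
      have h1 : algebraMap (iactRing ι M) (IActField ι M) (a * c)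
          = (algebraMap (iactRing ι M) (IActField ι M) a
              / algebraMap (iactRing ι M) (IActField ι M) b)
            * algebraMap (iactRing ι M) (IActField ι M) (b * c) := by
        rw [hx']
        field_simp
      rw [← iact_smul_algebraMap, h1, smul_mul', hx γ, iact_smul_algebraMap, hcinv γ]
    obtain ⟨P, hP⟩ := iact_invariant_eq_eval₂ (a * c) hacinv
    obtain ⟨Q, hQ⟩ := iact_invariant_eq_eval₂ (b * c) hcinv
    refine ⟨P, Q, ?_, ?_⟩
    · rw [iact_eval₂_field, ← hQ]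
      exact hbc
    · rw [iact_eval₂_field, iact_eval₂_field, ← hP, ← hQ]
      exact hx'
  · rintro ⟨P, Q, -, rfl⟩ γ
    rw [smul_div₀', iact_field_smul_eval₂, iact_field_smul_eval₂]

/-! ### the action of `T` on expansions -/

theorem iact_T_inv_smul (τ : ℍ) : (ModularGroup.T)⁻¹ • τ = infAff 1 (-1) 1 τ := by
  rw [inv_smul_eq_iff, iact_T_smul]
  apply UpperHalfPlane.ext
  rw [infAff_coe one_pos one_pos, infAff_coe one_pos one_pos]
  push_cast
  ring

theorem iact_coeffMap_infTwist (u : Eˣ) (φ : LaurentSeries E) :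
    coeffMap ι (infTwist u φ) = infTwist (Units.map (ι : E →* ℂ) u) (coeffMap ι φ) := by
  ext n
  rw [coeffMap_coeff, infTwist_coeff, infTwist_coeff, coeffMap_coeff, map_mul, ← map_zpow]
  rfl

/-- `T` acts on the `X`-expansion by `X ↦ ζ⁻¹ X`, where `ζ ∈ E` maps to `exp(2πi/M)`. -/
theorem iactExp_T_smul (ζ : Eˣ) (hζ : Units.map (ι : E →* ℂ) ζ = infRoot 1 M)
    (f : iactRing ι M) :
    iactExp ι M (ModularGroup.T • f) = infTwist ζ⁻¹ (iactExp ι M f) := by
  apply iactExp_eq
  rw [iact_coeffMap_infTwist, map_inv, hζ]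
  have h1 : (infRoot 1 M)⁻¹ = infRoot (-1) M := by
    rw [← iact_infRoot_one_zpow (M := M) (-1), zpow_neg_one]
  rw [h1]
  refine ((iactExp_spec f).comp_translate (-1)).congr fun τ => ?_
  rw [iact_smul_apply, iact_T_inv_smul]

/-- `T` acts on the `X`-expansion of field elements by `X ↦ ζ⁻¹ X`. -/
theorem iactFieldExp_T_smul (ζ : Eˣ) (hζ : Units.map (ι : E →* ℂ) ζ = infRoot 1 M)
    (x : IActField ι M) :
    iactFieldExp ι M (ModularGroup.T • x) = infTwist ζ⁻¹ (iactFieldExp ι M x) := by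
  obtain ⟨a, b, hb, rfl⟩ := IsFractionRing.div_surjective (A := iactRing ι M) x
  rw [smul_div₀', iact_smul_algebraMap, iact_smul_algebraMap, map_div₀, map_div₀, map_div₀,
    iactFieldExp_algebraMap, iactFieldExp_algebraMap, iactFieldExp_algebraMap,
    iactFieldExp_algebraMap, iactExp_T_smul ζ hζ, iactExp_T_smul ζ hζ]

/-! ### the finite quotient `SL(2,ℤ) ⧸ Γ(M)` -/

instance iact_Gamma_normal (N : ℕ) : (CongruenceSubgroup.Gamma N).Normal :=
  CongruenceSubgroup.Gamma_normal N

variable (ι M)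

/-- The action as a homomorphism from the finite group `SL(2,ℤ) ⧸ Γ(M)`. -/
def iactQuotHom : (SL(2, ℤ) ⧸ CongruenceSubgroup.Gamma M) →* RingAut (IActField ι M) :=
  QuotientGroup.lift (CongruenceSubgroup.Gamma M)
    (MulSemiringAction.toRingAut SL(2, ℤ) (IActField ι M))
    (fun γ hγ => RingEquiv.ext fun x => iact_field_smul_of_mem_Gamma hγ x)

/-- The action of the finite group `SL(2,ℤ) ⧸ Γ(M)` on `IActField` (a `def`, not an instance). -/
def iactQuotAction :
    MulSemiringAction (SL(2, ℤ) ⧸ CongruenceSubgroup.Gamma M) (IActField ι M) :=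
  MulSemiringAction.compHom (IActField ι M) (iactQuotHom ι M)

variable {ι M}

theorem iactQuotHom_mk (g : SL(2, ℤ)) (x : IActField ι M) :
    iactQuotHom ι M (g : SL(2, ℤ) ⧸ CongruenceSubgroup.Gamma M) x = g • x := rfl

theorem iactQuotAction_mk_smul (g : SL(2, ℤ)) (x : IActField ι M) :
    letI := iactQuotAction ι M
    ((g : SL(2, ℤ) ⧸ CongruenceSubgroup.Gamma M) • x : IActField ι M) = g • x := rfl

instance iact_finite_quot : Finite (SL(2, ℤ) ⧸ CongruenceSubgroup.Gamma M) :=
  Subgroup.finite_quotient_of_finiteIndex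

/-- Fixed field of the finite group action. -/
theorem iactQuot_fixed_iff (x : IActField ι M) :
    (∀ q : SL(2, ℤ) ⧸ CongruenceSubgroup.Gamma M, iactQuotHom ι M q x = x) ↔
      ∃ P Q : Polynomial E, Polynomial.eval₂ (iactFC ι M) (iactFJ ι M) Q ≠ 0 ∧
        x = Polynomial.eval₂ (iactFC ι M) (iactFJ ι M) P
          / Polynomial.eval₂ (iactFC ι M) (iactFJ ι M) Q := by
  rw [← iact_fixed_iff]
  constructor
  · intro h γ
    exact h (γ : SL(2, ℤ) ⧸ CongruenceSubgroup.Gamma M)
  · intro h q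
    obtain ⟨g, rfl⟩ := QuotientGroup.mk_surjective q
    exact h g

end Fermat.Agent.S48.H828

end
end
-- ===== PACK-END S48/H828/IActField.lean

-- ===== PACK-BEGIN S48/H648/BrPlace.lean
section





/-!
# S48 / Tower A1 / A1-BR (helper648), part 2: branch data of the full-level field

`L = H828.IActField ι M` is the field of modular functions of level `Γ(M)`, `E`-rational at all
cusps (helper828, I-ACT), with constants `iactFC ι M : E →+* L` and `j = iactFJ ι M`.

For EVERY valuation subring `O` of `L` containing the constants: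

* `iact_ordLe_generic` : if `j - c` is a non-unit of `O`, `c ≠ 0, 1728`, then `j - c` generates the
  maximal ideal of `O` (`t * (j - c)⁻¹ ∈ O` for all non-units `t`): **`X(M) → X(1)` is unramified
  outside `j = 0, 1728, ∞`** — the field `unramified` of `S18.Alg.GoodModel` for the coordinate `j`;
* `iact_ordLe_zero` : if `j` is a non-unit of `O` then `t ^ 3 * j⁻¹ ∈ O` (`e ≤ 3` over `j = 0`);
* `iact_ordLe_1728` : if `j - 1728` is a non-unit then `t ^ 2 * (j - 1728)⁻¹ ∈ O` (`e ≤ 2`).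

Route: the analytic places `brPlace ι M τ` (order of vanishing at `τ ∈ ℍ`, S24 `laurentAt`) have
these properties by helper47's local orders of `j`; every `O` centred at `j = c` is conjugate to
an analytic place under the finite group `SL(2,ℤ)/Γ(M)` (`ordLe_of_conj`, `Lib.ValConj`).
No degree count and no dictionary "places ↔ points" is needed.
-/

set_option autoImplicit false
set_option linter.unusedSectionVars false
set_option linter.style.haveILetI false

noncomputable section

open ModularCurve HahnSeries UpperHalfPlane Polynomial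
open scoped MatrixGroups Manifold Pointwise

namespace Fermat.Agent.S48.H648

open Fermat.Agent.S48.H828 Fermat.Agent.S24.H624 Fermat.Agent.S20.L1 Fermat.Agent.S24.M7.H47
open ModularForm EisensteinSeries

/-! ### The valuation subring attached to an embedding into Laurent series -/

section OrdPlace

variable {L C : Type*} [Field L] [Field C]

theorem order_map_inv (e : L →+* LaurentSeries C) {x : L} (hx : x ≠ 0) :
    (e x⁻¹).order = -(e x).order := by
  have h1 : e x ≠ 0 := (map_ne_zero e).2 hx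
  have h2 : e x⁻¹ ≠ 0 := (map_ne_zero e).2 (inv_ne_zero hx)
  have h := HahnSeries.order_mul h1 h2
  rw [← map_mul, mul_inv_cancel₀ hx, map_one, HahnSeries.order_one] at h
  omega

theorem order_map_pow (e : L →+* LaurentSeries C) {x : L} (hx : x ≠ 0) (k : ℕ) :
    (e (x ^ k)).order = k * (e x).order := by
  induction k with
  | zero => simp
  | succ n ih =>
    rw [pow_succ, map_mul, HahnSeries.order_mul ((map_ne_zero e).2 (pow_ne_zero _ hx))
      ((map_ne_zero e).2 hx), ih]
    push_cast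
    ring

/-- The valuation subring `{x | 0 ≤ ord (e x)}` of `L`. -/
def ordPlace (e : L →+* LaurentSeries C) : ValuationSubring L where
  carrier := {x | 0 ≤ (e x).order}
  mul_mem' := by
    intro x y hx hy
    simp only [Set.mem_ofPred_eq] at hx hy ⊢
    by_cases hx0 : x = 0
    · rw [hx0, zero_mul, map_zero, HahnSeries.order_zero]
    by_cases hy0 : y = 0
    · rw [hy0, mul_zero, map_zero, HahnSeries.order_zero]
    rw [map_mul, HahnSeries.order_mul ((map_ne_zero e).2 hx0) ((map_ne_zero e).2 hy0)]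
    omega
  one_mem' := by
    simp only [Set.mem_ofPred_eq]
    rw [map_one, HahnSeries.order_one]
  add_mem' := by
    intro x y hx hy
    simp only [Set.mem_ofPred_eq] at hx hy ⊢
    by_cases hxy : e x + e y = 0
    · rw [map_add, hxy, HahnSeries.order_zero]
    rw [map_add]
    exact le_trans (le_min hx hy) (HahnSeries.min_order_le_order_add hxy)
  zero_mem' := by
    simp only [Set.mem_ofPred_eq]
    rw [map_zero, HahnSeries.order_zero]
  neg_mem' := by
    intro x hx
    simp only [Set.mem_ofPred_eq] at hx ⊢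
    rwa [map_neg, HahnSeries.order_neg]
  mem_or_inv_mem' := by
    intro x
    simp only [Set.mem_ofPred_eq]
    by_cases hx0 : x = 0
    · left
      rw [hx0, map_zero, HahnSeries.order_zero]
    rw [order_map_inv e hx0]
    omega

theorem mem_ordPlace (e : L →+* LaurentSeries C) (x : L) :
    x ∈ ordPlace e ↔ 0 ≤ (e x).order := Iff.rfl

/-- In `ordPlace e`, an element `y` of order `k` satisfies `OrdLe y k`. -/
theorem ordLe_ordPlace (e : L →+* LaurentSeries C) {y : L} (hy0 : y ≠ 0) {k : ℕ}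
    (hy : (e y).order = k) : OrdLe y k (ordPlace e) := by
  intro t ht htinv
  rw [mem_ordPlace] at ht htinv ⊢
  have ht0 : t ≠ 0 := by
    rintro rfl
    apply htinv
    rw [inv_zero, map_zero, HahnSeries.order_zero]
  rw [order_map_inv e ht0] at htinv
  have h1 : 1 ≤ (e t).order := by omega
  rw [map_mul, HahnSeries.order_mul ((map_ne_zero e).2 (pow_ne_zero _ ht0))
    ((map_ne_zero e).2 (inv_ne_zero hy0)), order_map_pow e ht0, order_map_inv e hy0, hy]
  nlinarith

theorem centredAt_ordPlace {E : Type*} [Field E] (e : L →+* LaurentSeries C) (φ : E →+* L)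
    (j : L) (c : E) (hconst : ∀ a : E, 0 ≤ (e (φ a)).order) (hpos : 0 < (e (j - φ c)).order) :
    CentredAt φ j c (ordPlace e) where
  const_mem := hconst
  sub_mem := hpos.le
  inv_notMem := by
    have h0 : j - φ c ≠ 0 := by
      intro h
      rw [h, map_zero, HahnSeries.order_zero] at hpos
      exact lt_irrefl _ hpos
    rw [mem_ordPlace, order_map_inv e h0]
    omega

end OrdPlace

/-! ### The analytic places of `IActField` -/

variable {E : Type*} [Field E] [CharZero E] (ι : E →+* ℂ) (M : ℕ) [NeZero M]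

/-- The inclusion of `iactRing` into the ring of holomorphic functions on `ℍ`. -/
def brToHolo : iactRing ι M →+* holoRing where
  toFun f := ⟨f.1, f.2.1⟩
  map_one' := rfl
  map_mul' _ _ := rfl
  map_zero' := rfl
  map_add' _ _ := rfl

theorem brToHolo_injective : Function.Injective (brToHolo ι M) := by
  intro f g h
  exact Subtype.ext (congrArg (fun x : holoRing => (x : ℍ → ℂ)) h)

theorem brToHolo_apply (f : iactRing ι M) : ((brToHolo ι M f : holoRing) : ℍ → ℂ) = f.1 := rfl

/-- Taylor expansion at `τ` on `iactRing`. -/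
def brTaylor (τ : ℍ) : iactRing ι M →+* LaurentSeries ℂ :=
  (taylorLaurent τ).comp (brToHolo ι M)

theorem brTaylor_injective (τ : ℍ) : Function.Injective (brTaylor ι M τ) :=
  (taylorLaurent_injective τ).comp (brToHolo_injective ι M)

/-- Laurent expansion at `τ` on `IActField`. -/
def brExp (τ : ℍ) : IActField ι M →+* LaurentSeries ℂ :=
  IsFractionRing.lift (brTaylor_injective ι M τ)

theorem brExp_algebraMap (τ : ℍ) (f : iactRing ι M) :
    brExp ι M τ (algebraMap (iactRing ι M) (IActField ι M) f)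
      = laurentAt τ (algebraMap holoRing MerH (brToHolo ι M f)) := by
  rw [brExp, IsFractionRing.lift_algebraMap, laurentAt_algebraMap]
  rfl

/-- The analytic place at `τ`: functions regular at `τ`. -/
def brPlace (τ : ℍ) : ValuationSubring (IActField ι M) := ordPlace (brExp ι M τ)

theorem brExp_const (τ : ℍ) (a : E) : brExp ι M τ (iactFC ι M a) = HahnSeries.C (ι a) := by
  rw [iactFC, RingHom.comp_apply, brExp_algebraMap]
  exact laurentAt_const τ (ι a)

theorem brToHolo_J_sub (c : E) (τ : ℍ) (hτ : jFun τ = ι c) :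
    (fun w : ℂ => jFun (ofComplex w) - jFun τ)
      = ((brToHolo ι M (iactJ ι M - iactC ι M c) : holoRing) : ℍ → ℂ) ∘ ofComplex := by
  funext w
  rw [hτ]
  rfl

theorem brExp_J_sub_order (c : E) (τ : ℍ) (hτ : jFun τ = ι c) {k : ℕ}
    (hk : analyticOrderAt (fun w : ℂ => jFun (ofComplex w) - jFun τ) (τ : ℂ) = k) :
    (brExp ι M τ (iactFJ ι M - iactFC ι M c)).order = k := by
  have e1 : iactFJ ι M - iactFC ι M c
      = algebraMap (iactRing ι M) (IActField ι M) (iactJ ι M - iactC ι M c) := by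
    rw [map_sub]; rfl
  have hord : ordAt τ ((brToHolo ι M (iactJ ι M - iactC ι M c) : holoRing) : ℍ → ℂ) = k := by
    rw [ordAt_def, ← brToHolo_J_sub ι M c τ hτ, hk]
  have hne : brToHolo ι M (iactJ ι M - iactC ι M c) ≠ 0 := by
    intro h0
    rw [h0] at hord
    have h1 : ordAt τ ((0 : holoRing) : ℍ → ℂ) = ⊤ := ordAt_zero τ
    rw [h1] at hord
    exact ENat.top_ne_natCast k hord
  rw [e1, brExp_algebraMap, order_laurentAt_algebraMap τ hne, hord]
  simp

theorem brPlace_centredAt (c : E) (τ : ℍ) (hτ : jFun τ = ι c) {k : ℕ} (hk0 : 0 < k)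
    (hk : analyticOrderAt (fun w : ℂ => jFun (ofComplex w) - jFun τ) (τ : ℂ) = k) :
    CentredAt (iactFC ι M) (iactFJ ι M) c (brPlace ι M τ) := by
  refine centredAt_ordPlace _ _ _ _ (fun a => ?_) ?_
  · rw [brExp_const, HahnSeries.order_C]
  · rw [brExp_J_sub_order ι M c τ hτ hk]
    exact_mod_cast hk0

theorem brPlace_ordLe (c : E) (τ : ℍ) (hτ : jFun τ = ι c) {k : ℕ} (hk0 : 0 < k)
    (hk : analyticOrderAt (fun w : ℂ => jFun (ofComplex w) - jFun τ) (τ : ℂ) = k) :
    OrdLe (iactFJ ι M - iactFC ι M c) k (brPlace ι M τ) :=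
  ordLe_ordPlace _ (brPlace_centredAt ι M c τ hτ hk0 hk).sub_ne_zero
    (brExp_J_sub_order ι M c τ hτ hk)

/-! ### Conjugacy: all places over `j = c` -/

theorem iact_quot_smul_C (q : SL(2, ℤ) ⧸ CongruenceSubgroup.Gamma M) (a : E) :
    iactQuotHom ι M q (iactFC ι M a) = iactFC ι M a := by
  obtain ⟨g, rfl⟩ := QuotientGroup.mk_surjective q
  rw [iactQuotHom_mk, iactFC, RingHom.comp_apply, iact_smul_algebraMap, iact_smul_C]

theorem iact_quot_smul_J (q : SL(2, ℤ) ⧸ CongruenceSubgroup.Gamma M) :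
    iactQuotHom ι M q (iactFJ ι M) = iactFJ ι M := by
  obtain ⟨g, rfl⟩ := QuotientGroup.mk_surjective q
  rw [iactQuotHom_mk, iactFJ, iact_smul_algebraMap, iact_smul_J]

/-- **Key transfer**: a bound for the order of `j - c` at ONE analytic point over `c` holds at
EVERY valuation subring of `IActField` centred at `j = c`. -/
theorem iact_ordLe_of_analytic (c : E) (τ : ℍ) (hτ : jFun τ = ι c) {k : ℕ} (hk0 : 0 < k)
    (hk : analyticOrderAt (fun w : ℂ => jFun (ofComplex w) - jFun τ) (τ : ℂ) = k)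
    {O : ValuationSubring (IActField ι M)}
    (hO : CentredAt (iactFC ι M) (iactFJ ι M) c O) :
    OrdLe (iactFJ ι M - iactFC ι M c) k O := by
  letI := iactQuotAction ι M
  refine ordLe_of_conj (G := SL(2, ℤ) ⧸ CongruenceSubgroup.Gamma M) (iactFC ι M) (iactFJ ι M) c
    (fun q a => iact_quot_smul_C ι M q a) (fun q => iact_quot_smul_J ι M q)
    (fun x hx => (iactQuot_fixed_iff x).1 hx)
    (brPlace_centredAt ι M c τ hτ hk0 hk) hO (brPlace_ordLe ι M c τ hτ hk0 hk)

/-- **`X(M) → X(1)` is unramified outside `j ∈ {0, 1728, ∞}`.** -/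
theorem iact_ordLe_generic (c : E) (hc0 : c ≠ 0) (hc1 : c ≠ 1728)
    {O : ValuationSubring (IActField ι M)}
    (hO : CentredAt (iactFC ι M) (iactFJ ι M) c O) :
    OrdLe (iactFJ ι M - iactFC ι M c) 1 O := by
  obtain ⟨τ, hτ⟩ := jFun_surjective (ι c)
  have h4 : E₄ τ ≠ 0 := by
    intro h
    have := (jFun_eq_zero_iff τ).2 h
    rw [hτ] at this
    exact hc0 ((map_eq_zero ι).1 this)
  have h6 : E₆ τ ≠ 0 := by
    intro h
    have := (jFun_eq_1728_iff τ).2 h
    rw [hτ] at this
    apply hc1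
    apply ι.injective
    rw [this, map_ofNat]
  exact iact_ordLe_of_analytic ι M c τ hτ one_pos
    (by exact_mod_cast analyticOrderAt_jFun_sub_generic h4 h6) hO

/-- Ramification over `j = 0` is at most `3`. -/
theorem iact_ordLe_zero {O : ValuationSubring (IActField ι M)}
    (hO : CentredAt (iactFC ι M) (iactFJ ι M) 0 O) :
    OrdLe (iactFJ ι M - iactFC ι M 0) 3 O := by
  have hτ : jFun rho = ι 0 := by rw [map_zero]; exact jFun_rho
  exact iact_ordLe_of_analytic ι M 0 rho hτ (by norm_num)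
    (by exact_mod_cast analyticOrderAt_jFun_sub_of_E₄ E₄_rho) hO

/-- Ramification over `j = 1728` is at most `2`. -/
theorem iact_ordLe_1728 {O : ValuationSubring (IActField ι M)}
    (hO : CentredAt (iactFC ι M) (iactFJ ι M) 1728 O) :
    OrdLe (iactFJ ι M - iactFC ι M 1728) 2 O := by
  have hτ : jFun UpperHalfPlane.I = ι 1728 := by rw [map_ofNat]; exact jFun_I
  exact iact_ordLe_of_analytic ι M 1728 UpperHalfPlane.I hτ (by norm_num)
    (by exact_mod_cast analyticOrderAt_jFun_sub_of_E₆ _root_.Fermat.Agent.S24.M7.H47.E₆_I) hO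

end Fermat.Agent.S48.H648

end
end
-- ===== PACK-END S48/H648/BrPlace.lean

-- ===== PACK-BEGIN S48/H828/IActGroup.lean
section



/-!
# S48 / Tower A1 / IGUSA1, piece I-ACT (helper828), part 4: the groups `G`, `B` and `t`

For `Ω := IActField ι M` we define (as subgroups / elements of `Ω ≃+* Ω`, the shape of
`Fermat.Agent.S48.H856.IgusaData`):

* `iactRho ι M : SL(2,ℤ) →* (Ω ≃+* Ω)` the action;
* `iactG ι M := range`, `iactB ι M := image of Γ₀(M)`, `iactT ι M := image of T`;

and prove the group-theoretic fields of `IgusaData`: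
`iactG_finite`, `iactB_le`, `iactT_mem`, `iactT_normal`, `iactT_gen`, `iactG_fix_C`, `iactG_fix_J`,
`iactG_inv` (fixed field `= E(j)`).
-/

set_option autoImplicit false
set_option linter.unusedSectionVars false

noncomputable section

open ModularCurve HahnSeries UpperHalfPlane
open scoped MatrixGroups Manifold

namespace Fermat.Agent.S48.H828

open Fermat.Agent.S24 Fermat.Agent.S24.H997 Fermat.Agent.S24.H624 Fermat.Agent.S20.L1
open Fermat.Agent.S48.H368

/-! ### matrix computation: `g T g⁻¹ ≡ T^(a²)` modulo `Γ(M)` for `g ∈ Γ₀(M)` -/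

theorem iact_T_zpow (n : ℤ) : ModularGroup.T ^ n = upperU (n : ℤ) := by
  rw [modularGroup_T_eq, ← upperU_zsmul]
  simp

theorem iact_conj_matrix (g : SL(2, ℤ)) (n : ℤ) :
    ((upperU n * (g * upperU (1 : ℤ) * g⁻¹) : SL(2, ℤ)) : Matrix (Fin 2) (Fin 2) ℤ)
      = !![(g 0 0 * g 1 1 - (g 0 0 + g 0 1) * g 1 0)
              + n * (g 1 0 * g 1 1 - (g 1 0 + g 1 1) * g 1 0),
           (-(g 0 0 * g 0 1) + (g 0 0 + g 0 1) * g 0 0)
              + n * (-(g 1 0 * g 0 1) + (g 1 0 + g 1 1) * g 0 0);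
           g 1 0 * g 1 1 - (g 1 0 + g 1 1) * g 1 0,
           -(g 1 0 * g 0 1) + (g 1 0 + g 1 1) * g 0 0] := by
  rw [Matrix.SpecialLinearGroup.coe_mul, Matrix.SpecialLinearGroup.coe_mul,
    Matrix.SpecialLinearGroup.coe_mul, coe_upperU, coe_upperU,
    Matrix.SpecialLinearGroup.coe_inv, Matrix.adjugate_fin_two]
  ext i j
  fin_cases i <;> fin_cases j <;> simp [Matrix.mul_apply, Fin.sum_univ_two] <;> ring

theorem iact_conj_T_mem_Gamma (M : ℕ) {g : SL(2, ℤ)} (hg : g ∈ CongruenceSubgroup.Gamma0 M) :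
    (ModularGroup.T ^ (g 0 0 ^ 2 : ℤ))⁻¹ * (g * ModularGroup.T * g⁻¹)
      ∈ CongruenceSubgroup.Gamma M := by
  have hc : ((g 1 0 : ℤ) : ZMod M) = 0 := CongruenceSubgroup.Gamma0_mem.mp hg
  have hdet : g 0 0 * g 1 1 - g 0 1 * g 1 0 = 1 := sl2_det_eq g
  have hdet' : ((g 0 0 : ℤ) : ZMod M) * ((g 1 1 : ℤ) : ZMod M) = 1 := by
    have := congrArg (fun z : ℤ => (z : ZMod M)) hdet
    simp only [Int.cast_sub, Int.cast_mul, Int.cast_one, hc, mul_zero, sub_zero] at this
    exact this
  rw [iact_T_zpow, ← upperU_neg, modularGroup_T_eq, CongruenceSubgroup.Gamma_mem]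
  have hmat := iact_conj_matrix g (-(g 0 0 ^ 2))
  have e00 := congrFun (congrFun hmat 0) 0
  have e01 := congrFun (congrFun hmat 0) 1
  have e10 := congrFun (congrFun hmat 1) 0
  have e11 := congrFun (congrFun hmat 1) 1
  simp only [Matrix.of_apply, Matrix.cons_val_zero, Matrix.cons_val_one, Matrix.cons_val',
    Matrix.cons_val_fin_one] at e00 e01 e10 e11
  refine ⟨?_, ?_, ?_, ?_⟩
  · rw [e00]
    push_cast
    rw [hc]
    linear_combination hdet'
  · rw [e01]
    push_cast
    rw [hc]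
    linear_combination (-(((g 0 0 : ℤ) : ZMod M) ^ 2)) * hdet'
  · rw [e10]
    push_cast
    rw [hc]
    ring
  · rw [e11]
    push_cast
    rw [hc]
    linear_combination hdet'

variable {E : Type*} [Field E] [CharZero E] (ι : E →+* ℂ) (M : ℕ) [NeZero M]

/-- The action of `SL(2,ℤ)` on `IActField ι M` as a homomorphism to ring automorphisms. -/
def iactRho : SL(2, ℤ) →* (IActField ι M ≃+* IActField ι M) :=
  MulSemiringAction.toRingAut SL(2, ℤ) (IActField ι M)

/-- `G`: the image of `SL(2,ℤ)`. -/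
def iactG : Subgroup (IActField ι M ≃+* IActField ι M) := (iactRho ι M).range

/-- `B`: the image of `Γ₀(M)`. -/
def iactB : Subgroup (IActField ι M ≃+* IActField ι M) :=
  (CongruenceSubgroup.Gamma0 M).map (iactRho ι M)

/-- `t`: the image of `T`. -/
def iactT : IActField ι M ≃+* IActField ι M := iactRho ι M ModularGroup.T

variable {ι M}

@[simp] theorem iactRho_apply (g : SL(2, ℤ)) (x : IActField ι M) : iactRho ι M g x = g • x := rfl

theorem iactRho_of_mem_Gamma {g : SL(2, ℤ)} (hg : g ∈ CongruenceSubgroup.Gamma M) :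
    iactRho ι M g = 1 :=
  RingEquiv.ext fun x => iact_field_smul_of_mem_Gamma hg x

theorem iactRho_eq_quot (g : SL(2, ℤ)) :
    iactRho ι M g = iactQuotHom ι M (g : SL(2, ℤ) ⧸ CongruenceSubgroup.Gamma M) := rfl

theorem iactG_eq_range_quot : iactG ι M = (iactQuotHom ι M).range := by
  ext σ
  constructor
  · rintro ⟨g, rfl⟩
    exact ⟨(g : SL(2, ℤ) ⧸ CongruenceSubgroup.Gamma M), rfl⟩
  · rintro ⟨q, rfl⟩
    obtain ⟨g, rfl⟩ := QuotientGroup.mk_surjective q
    exact ⟨g, rfl⟩

theorem iactG_finite : Finite (iactG ι M) := by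
  rw [iactG_eq_range_quot]
  exact Set.finite_range _

theorem iactB_le : iactB ι M ≤ iactG ι M := by
  rintro σ ⟨g, -, rfl⟩
  exact ⟨g, rfl⟩

theorem iact_T_mem_Gamma0 : ModularGroup.T ∈ CongruenceSubgroup.Gamma0 M := by
  rw [CongruenceSubgroup.Gamma0_mem]
  simp [ModularGroup.T]

theorem iactT_mem : iactT ι M ∈ iactB ι M := ⟨ModularGroup.T, iact_T_mem_Gamma0, rfl⟩

theorem iactT_mem_G : iactT ι M ∈ iactG ι M := iactB_le iactT_mem

/-- `B` normalises `⟨t⟩`. -/
theorem iactT_normal : ∀ b ∈ iactB ι M, b * iactT ι M * b⁻¹ ∈ Subgroup.zpowers (iactT ι M) := by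
  rintro b ⟨g, hg, rfl⟩
  have h := iactRho_of_mem_Gamma (ι := ι) (iact_conj_T_mem_Gamma M hg)
  rw [map_mul, map_inv, map_zpow, inv_mul_eq_one, map_mul, map_mul, map_inv] at h
  refine ⟨(g 0 0 ^ 2 : ℤ), ?_⟩
  exact h

/-- The `G`-conjugates of `t` generate `G`. -/
theorem iactT_gen :
    iactG ι M ≤ Subgroup.closure {s | ∃ g ∈ iactG ι M, s = g * iactT ι M * g⁻¹} := by
  rintro σ ⟨γ, rfl⟩
  have hγ : γ ∈ Subgroup.normalClosure ({ModularGroup.T} : Set SL(2, ℤ)) := by
    rw [normalClosure_T]; trivial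
  unfold Subgroup.normalClosure at hγ
  induction hγ using Subgroup.closure_induction with
  | mem x hx =>
    rw [Group.mem_conjugatesOfSet_iff] at hx
    obtain ⟨a, ha, hax⟩ := hx
    rw [Set.mem_singleton_iff] at ha
    subst ha
    obtain ⟨c, rfl⟩ := isConj_iff.mp hax
    refine Subgroup.subset_closure ⟨iactRho ι M c, ⟨c, rfl⟩, ?_⟩
    rw [map_mul, map_mul, map_inv]
    rfl
  | one => rw [map_one]; exact one_mem _
  | mul x y _ _ hx hy => rw [map_mul]; exact mul_mem hx hy
  | inv x _ hx => rw [map_inv]; exact inv_mem hx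

theorem iactG_fix_C (g : IActField ι M ≃+* IActField ι M) (hg : g ∈ iactG ι M) (c : E) :
    g (iactFC ι M c) = iactFC ι M c := by
  obtain ⟨γ, rfl⟩ := hg
  rw [iactRho_apply, iactFC, RingHom.comp_apply, iact_smul_algebraMap, iact_smul_C]

theorem iactG_fix_J (g : IActField ι M ≃+* IActField ι M) (hg : g ∈ iactG ι M) :
    g (iactFJ ι M) = iactFJ ι M := by
  obtain ⟨γ, rfl⟩ := hg
  rw [iactRho_apply, iactFJ, iact_smul_algebraMap, iact_smul_J]

/-- **Fixed field of `G`** is `E(j)`. -/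
theorem iactG_inv (x : IActField ι M) (hx : ∀ g ∈ iactG ι M, g x = x) :
    ∃ P Q : Polynomial E, Polynomial.eval₂ (iactFC ι M) (iactFJ ι M) Q ≠ 0 ∧
      x = Polynomial.eval₂ (iactFC ι M) (iactFJ ι M) P
        / Polynomial.eval₂ (iactFC ι M) (iactFJ ι M) Q :=
  (iact_fixed_iff x).mp fun γ => hx _ ⟨γ, rfl⟩

end Fermat.Agent.S48.H828

end
end
-- ===== PACK-END S48/H828/IActGroup.lean

-- ===== PACK-BEGIN S48/H150/AlgGen.lean
section



/-!
# S48 / Tower A1 / A1-FF, leaf FF-ALG (helper150), part 1: the generic algebraicity statement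

Every element `f` of helper828's ring `iactRing ι M` (holomorphic level-`M` modular functions,
`E`-rational at every cusp) is a root of a MONIC polynomial with coefficients in `E[j]`:
the characteristic polynomial `∏_{g ∈ SL₂(ℤ)/Γ(M)} (T - g • f)` has `SL₂(ℤ)`-invariant
coefficients, and the invariants of `iactRing ι M` are `E[j]` (`H828.iact_invariant_eq_eval₂`).

Passing to expansions, undoing `q ↦ X^M`, and descending along `ℚ → ℂ` (S24 `Deg457`):

* `algRel_of_infExp` : if `x ∈ ℚ((q))` is the `q`-expansion at `∞` of a holomorphic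
  `Γ(M)`-invariant function all of whose `SL₂(ℤ)`-translates have a convergent Laurent expansion in
  `q^{1/M}`, then `x` is a root of a nonzero polynomial over `ℚ[j]`, and `coeffEmb K x` is a root
  of a nonzero polynomial over `K[j]`, for every field `K ⊇ ℚ`.
-/

set_option autoImplicit false
set_option linter.unusedSectionVars false
set_option linter.style.haveILetI false

noncomputable section

open Polynomial ModularCurve UpperHalfPlane
open scoped MatrixGroups

namespace Fermat.Agent.S48.H150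

open Fermat.Agent.S24 Fermat.Agent.S24.H997 Fermat.Agent.S24.H624 Fermat.Agent.S24.Deg457
open Fermat.Agent.S48.H828

/-- `x` is a root of a nonzero polynomial with coefficients in `K[J]`. -/
def AlgRel (K : Type*) [Field K] (J x : LaurentSeries K) : Prop :=
  ∃ Q : K[X][X], Q ≠ 0 ∧ Q.eval₂ (evJ J) x = 0

section Formal

variable {K L : Type*} [Field K] [Field L]

theorem evJ_comp_eq (φ : LaurentSeries K →+* LaurentSeries L) (ι : K →+* L)
    (hφ : ∀ c : K, φ (algebraMap K (LaurentSeries K) c) = algebraMap L (LaurentSeries L) (ι c))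
    (J : LaurentSeries K) :
    φ.comp (evJ J) = (evJ (φ J)).comp (Polynomial.mapRingHom ι) := by
  refine Polynomial.ringHom_ext ?_ ?_
  · intro c
    simp [evJ, hφ]
  · simp [evJ]

/-- transport of a relation along a ring homomorphism of Laurent series fields which is
semilinear over `ι` on constants. -/
theorem eval₂_evJ_map (φ : LaurentSeries K →+* LaurentSeries L) (ι : K →+* L)
    (hφ : ∀ c : K, φ (algebraMap K (LaurentSeries K) c) = algebraMap L (LaurentSeries L) (ι c))
    (J x : LaurentSeries K) (Q : K[X][X]) :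
    (Q.map (Polynomial.mapRingHom ι)).eval₂ (evJ (φ J)) (φ x) = φ (Q.eval₂ (evJ J) x) := by
  rw [Polynomial.eval₂_map, ← evJ_comp_eq φ ι hφ J, Polynomial.hom_eval₂]

theorem AlgRel.map (φ : LaurentSeries K →+* LaurentSeries L) (ι : K →+* L)
    (hφ : ∀ c : K, φ (algebraMap K (LaurentSeries K) c) = algebraMap L (LaurentSeries L) (ι c))
    {J x : LaurentSeries K} (h : AlgRel K J x) : AlgRel L (φ J) (φ x) := by
  obtain ⟨Q, hQ0, hQ⟩ := h
  refine ⟨Q.map (Polynomial.mapRingHom ι), ?_, ?_⟩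
  · rw [Ne, Polynomial.map_eq_zero_iff
      (Polynomial.map_injective ι ι.injective)]
    exact hQ0
  · rw [eval₂_evJ_map φ ι hφ, hQ, map_zero]

theorem qExpand_algebraMap (M : ℕ) [NeZero M] (c : K) :
    qExpand K M (algebraMap K (LaurentSeries K) c) = algebraMap K (LaurentSeries K) c := by
  rw [algebraMap_laurentSeries_eq_single, qExpand_single, mul_zero]

/-- undoing `q ↦ q^M`. -/
theorem eval₂_evJ_qExpand (M : ℕ) [NeZero M] (J x : LaurentSeries K) (Q : K[X][X]) :
    Q.eval₂ (evJ (qExpand K M J)) (qExpand K M x) = qExpand K M (Q.eval₂ (evJ J) x) := by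
  have h := eval₂_evJ_map (qExpand K M) (RingHom.id K) (fun c => qExpand_algebraMap M c) J x Q
  have hid : Polynomial.mapRingHom (RingHom.id K) = RingHom.id K[X] :=
    RingHom.ext fun p => Polynomial.map_id
  rwa [hid, Polynomial.map_id] at h

theorem AlgRel.coeffMap (ι : K →+* L) {J x : LaurentSeries K} (h : AlgRel K J x) :
    AlgRel L (coeffMap ι J) (coeffMap ι x) :=
  h.map (ModularCurve.coeffMap ι) ι (fun c => coeffMap_algebraMap' ι c)

end Formal

section Ring

variable {E : Type*} [Field E] [CharZero E] (ι : E →+* ℂ) (M : ℕ) [NeZero M]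

/-- The action of `SL₂(ℤ)` on `iactRing` factors through the finite quotient by `Γ(M)`. -/
def algQuotHom : (SL(2, ℤ) ⧸ CongruenceSubgroup.Gamma M) →* RingAut (iactRing ι M) :=
  QuotientGroup.lift (CongruenceSubgroup.Gamma M)
    (MulSemiringAction.toRingAut SL(2, ℤ) (iactRing ι M))
    (fun _ hγ => RingEquiv.ext fun f => iact_smul_of_mem_Gamma hγ f)

/-- The action of the finite group `SL₂(ℤ) ⧸ Γ(M)` on `iactRing` (a `def`, not an instance). -/
@[instance_reducible]
def algQuotAction :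
    MulSemiringAction (SL(2, ℤ) ⧸ CongruenceSubgroup.Gamma M) (iactRing ι M) :=
  MulSemiringAction.compHom (iactRing ι M) (algQuotHom ι M)

variable {ι M}

theorem algQuotAction_mk_smul (g : SL(2, ℤ)) (f : iactRing ι M) :
    letI := algQuotAction ι M
    ((g : SL(2, ℤ) ⧸ CongruenceSubgroup.Gamma M) • f : iactRing ι M) = g • f := rfl

/-- the evaluation `E[j] → iactRing`. -/
def algEvJ (ι : E →+* ℂ) (M : ℕ) [NeZero M] : E[X] →+* iactRing ι M :=
  Polynomial.eval₂RingHom (iactC ι M) (iactJ ι M)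

theorem iactExp_comp_algEvJ : (iactExp ι M).comp (algEvJ ι M) = evJ (iactJX E M) := by
  refine Polynomial.ringHom_ext ?_ ?_
  · intro c
    simp only [algEvJ, RingHom.comp_apply, Polynomial.coe_eval₂RingHom, Polynomial.eval₂_C,
      iactExp_C, evJ, AlgHom.toRingHom_eq_coe, RingHom.coe_coe, Polynomial.aeval_C,
      algebraMap_laurentSeries_eq_single]
    rfl
  · simp only [algEvJ, RingHom.comp_apply, Polynomial.coe_eval₂RingHom, Polynomial.eval₂_X,
      iactExp_J, evJ, AlgHom.toRingHom_eq_coe, RingHom.coe_coe, Polynomial.aeval_X]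

/-- **Integrality over `E[j]`.**  Every element of `iactRing ι M` is a root of a monic
polynomial with coefficients in `E[j]`; on expansions. -/
theorem exists_monic_rel (f : iactRing ι M) :
    ∃ P : E[X][X], P.Monic ∧ P.eval₂ (evJ (iactJX E M)) (iactExp ι M f) = 0 := by
  classical
  letI : MulSemiringAction (SL(2, ℤ) ⧸ CongruenceSubgroup.Gamma M) (iactRing ι M) :=
    algQuotAction ι M
  haveI : Finite (SL(2, ℤ) ⧸ CongruenceSubgroup.Gamma M) := iact_finite_quot
  letI : Fintype (SL(2, ℤ) ⧸ CongruenceSubgroup.Gamma M) := Fintype.ofFinite _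
  set G := SL(2, ℤ) ⧸ CongruenceSubgroup.Gamma M
  have hlift : MulSemiringAction.charpoly G f ∈ Polynomial.lifts (algEvJ ι M) := by
    rw [Polynomial.lifts_iff_coeff_lifts]
    intro n
    have hinv : ∀ γ : SL(2, ℤ), γ • (MulSemiringAction.charpoly G f).coeff n
        = (MulSemiringAction.charpoly G f).coeff n := fun γ =>
      MulSemiringAction.smul_coeff_charpoly f n (γ : G)
    obtain ⟨P, hP⟩ := iact_invariant_eq_eval₂ _ hinv
    exact ⟨P, hP.symm⟩
  obtain ⟨P, hP1, -, hP3⟩ := Polynomial.lifts_and_natDegree_eq_and_monic hlift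
    (MulSemiringAction.monic_charpoly G f)
  refine ⟨P, hP3, ?_⟩
  have h0 : (P.map (algEvJ ι M)).eval f = 0 := by
    rw [hP1]
    exact MulSemiringAction.eval_charpoly G f
  rw [Polynomial.eval_map] at h0
  have h1 := congrArg (iactExp ι M) h0
  rwa [Polynomial.hom_eval₂, map_zero, iactExp_comp_algEvJ] at h1

end Ring

/-! ### from an analytic avatar to an algebraic relation -/

section Avatar

variable {M : ℕ} [NeZero M]

/-- `holN M` + `Γ(M)`-invariance = `iactRing` over `ℂ`. -/
theorem mem_iactRing_of_holN {f : ℍ → ℂ} (hf : f ∈ holN M)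
    (hinv : ∀ γ ∈ CongruenceSubgroup.Gamma M, compSL γ f = f) :
    f ∈ iactRing (RingHom.id ℂ) M := by
  refine ⟨hf.1, hinv, fun γ => ?_⟩
  obtain ⟨φ, hφ⟩ := hf.2 γ
  exact ⟨φ, by rwa [coeffMap_id]⟩

/-- an expansion in `q` is an expansion in `X = q^{1/M}`. -/
theorem infExp_qExpand {f : ℍ → ℂ} {φ : LaurentSeries ℂ} (h : InfExp 1 f φ) :
    InfExp M f (qExpand ℂ M φ) := by
  have hM : 0 < M := Nat.pos_of_ne_zero (NeZero.ne M)
  have h1 := h.comp_infAff (M := 1) (N := M) (a := 1) (d := 1) (e := M) 0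
    one_pos one_pos one_pos hM (by ring)
  rw [infRoot_zero, infTwist_one] at h1
  refine h1.congr fun τ => ?_
  rw [infAff_one_zero_one]

/-- **FF-ALG, generic form over `ℂ`.**  The `q`-expansion at `∞` of an element of
`iactRing (id) M` is a root of a monic polynomial over `ℂ[j]`. -/
theorem exists_monic_rel_of_infExp {f : ℍ → ℂ} (hf : f ∈ iactRing (RingHom.id ℂ) M)
    {φ : LaurentSeries ℂ} (hφ : InfExp 1 f φ) :
    ∃ P : ℂ[X][X], P.Monic ∧ P.eval₂ (evJ infJq) φ = 0 := by
  obtain ⟨P, hP, h0⟩ := exists_monic_rel (ι := RingHom.id ℂ) (M := M) ⟨f, hf⟩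
  refine ⟨P, hP, ?_⟩
  have h1 : iactExp (RingHom.id ℂ) M ⟨f, hf⟩ = qExpand ℂ M φ :=
    iactExp_eq (by rw [coeffMap_id]; exact infExp_qExpand hφ)
  have h2 : iactJX ℂ M = qExpand ℂ M infJq := by
    have := iact_coeffMap_JX (ι := RingHom.id ℂ) (M := M)
    rwa [coeffMap_id] at this
  rw [h1, h2, eval₂_evJ_qExpand] at h0
  exact (inf_qExpand_eq_zero_iff (e := M) _).mp h0

/-- **FF-ALG, generic form.**  Let `x ∈ K((q))` (`K ⊆ ℂ` via `ι`) be the `q`-expansion at `∞` of
a holomorphic `Γ(M)`-invariant function all of whose `SL₂(ℤ)`-translates have an expansion in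
`q^{1/M}`.  Then `x` is a root of a nonzero polynomial with coefficients in `K[j]`. -/
theorem algRel_of_infExp {K : Type*} [Field K] [Algebra ℚ K] (ι : K →+* ℂ) {f : ℍ → ℂ}
    (hf : f ∈ iactRing (RingHom.id ℂ) M) {x : LaurentSeries K}
    (hx : InfExp 1 f (coeffMap ι x)) : AlgRel K (JK K) x := by
  obtain ⟨P, hP, h0⟩ := exists_monic_rel_of_infExp hf hx
  have hJ : infJq = coeffMap ι (JK K) := (coeffMap_JK ι).symm
  rw [hJ] at h0
  obtain ⟨Q, hQ0, -, hQ⟩ := exists_relation_of_coeffMap_monic ι (JK K) x _ P hP rfl h0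
  exact ⟨Q, hQ0, hQ⟩

/-- the same for a rational `q`-expansion. -/
theorem algRel_rat_of_infExp {f : ℍ → ℂ} (hf : f ∈ iactRing (RingHom.id ℂ) M)
    {x : LaurentSeries ℚ} (hx : InfExp 1 f (coeffEmb ℂ x)) : AlgRel ℚ jq x := by
  have h := algRel_of_infExp (K := ℚ) (algebraMap ℚ ℂ) hf (x := x) hx
  have hJ : JK ℚ = jq := by
    rw [JK, coeffEmb]
    exact coeffMap_id jq
  rwa [hJ] at h

end Avatar

end Fermat.Agent.S48.H150

end
end
-- ===== PACK-END S48/H150/AlgGen.lean

-- ===== PACK-BEGIN S48/Res/Chain.lean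
section



/-!
# S48 / RES (Tower A1) — the chain `RawES1 + OCC1 ⟹ Top.ResidualStatement` (helper168)

Sorry-free.  Uses the abstract assembly `H888.hasFrobModuleDet_of_eigenvector` (helper888) with
`A = J₁(M)[ℓ]`, `T p = ⟨p⟩^{∓1} T_p`, `D p = ⟨p⟩^{∓1}`, the formal properties of `F1/Basic.lean`
(Galois equivariance of `T_p`, `⟨d⟩`; SMOOTH) and LAYER A' `H888.residualStatement_of_frobModule`.
-/

set_option autoImplicit false
set_option linter.style.haveILetI false

noncomputable section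

open CongruenceSubgroup ModularCurve AlgebraicCurve
open scoped TensorProduct

namespace Fermat.Agent.S48.Res

open Fermat.Agent.S48.F1 Fermat.Agent.S48.Top Fermat.Agent.S48.H888

section Sign

variable (s : Bool) (M m p : ℕ)

theorem diamondS_not_diamondS (x : J1 M) : diamondS (!s) M p (diamondS s M p x) = x := by
  cases s <;> simp [diamondS]

theorem coe_diamondST (x : J1T M m) :
    ((diamondST s M m p x : J1T M m) : J1 M) = diamondS s M p (x : J1 M) := by
  cases s <;> simp [diamondST, diamondS]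

theorem diamondST_not_comp : diamondST (!s) M m p ∘ₗ diamondST s M m p = LinearMap.id := by
  ext x
  rw [LinearMap.comp_apply, coe_diamondST, coe_diamondST, diamondS_not_diamondS]
  rfl

attribute [local instance] galoisActionJ1T in
theorem galois_smul_diamondST (σ : AlgebraicClosure ℚ ≃ₐ[ℚ] AlgebraicClosure ℚ)
    (x : J1T M m) : diamondST s M m p (σ • x) = σ • diamondST s M m p x := by
  cases s
  · exact galois_smul_diamondInvT M m (unitOf M p) σ x
  · exact galois_smul_diamondT M m (unitOf M p) σ x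

end Sign

theorem frobModule_of_parts (s : Bool) (hES : RawES1Statement s) (hOcc : Occ1Statement s) :
    FrobModuleStatement := by
  intro N _ ε f hf
  obtain ⟨B, hB⟩ := hOcc N ε f hf
  refine ⟨B, fun ℓ hℓ hBℓ F _ _ _ ψ => ?_⟩
  obtain ⟨M, a, e, d, hM0, hMp, hae, v, hv0, hv⟩ := hB ℓ hℓ hBℓ F ψ
  have hpM : ∀ p : ℕ, p.Prime → ¬ p ∣ N * ℓ → ¬ p ∣ M * ℓ := by
    intro p hp hS hd
    rcases (Nat.Prime.dvd_mul hp).1 hd with h | h
    · exact hS (hMp p hp h)
    · exact hS (h.mul_left N)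
  have hd0 : ∀ p : ℕ, p.Prime → ¬ p ∣ N * ℓ → d p ≠ 0 := by
    intro p hp hS h0
    have h1 := (hae p hp hS).2.2
    rw [h0, zero_mul] at h1
    have h2 : ℓ ∣ p := (CharP.cast_eq_zero_iff F ℓ p).1 h1.symm
    have h3 : ℓ = p := (Nat.prime_dvd_prime_iff_eq hℓ hp).1 h2
    exact hS (h3 ▸ Dvd.intro_left N rfl)
  letI := galoisActionJ1T M ℓ
  refine hasFrobModule1_of_det ε f ℓ ψ a e (fun p hp hS => (hae p hp hS).1)
    (fun p hp hS => (hae p hp hS).2.1) ?_
  refine hasFrobModuleDet_of_eigenvector (A := J1T M ℓ) (N * ℓ) (fun p => ψ (a p))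
    (fun p => (d p)⁻¹) (fun p => ψ (e p))
    (fun p => diamondST (!s) M ℓ p ∘ₗ heckeT M ℓ p)
    (fun p => diamondST (!s) M ℓ p) ?_ ?_ ?_ ?_ ?_ ?_ ?_
  · -- hT
    intro p σ x
    show diamondST (!s) M ℓ p (heckeT M ℓ p (σ • x))
      = σ • diamondST (!s) M ℓ p (heckeT M ℓ p x)
    rw [galois_smul_heckeT, galois_smul_diamondST]
  · -- hD
    intro p σ x
    exact galois_smul_diamondST (!s) M ℓ p σ x
  · -- smooth
    intro x
    obtain ⟨K, hK, hfix⟩ := j1_exists_finite_level_fix_torsion M hℓ.ne_zero (x : J1 M)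
      (Pic0.mem_torsion.mp x.2)
    exact ⟨K, hK, fun σ hσ => Subtype.ext (hfix σ hσ)⟩
  · -- unramified
    intro p hp hS V hV σ hσ x
    exact Subtype.ext ((hES M ℓ p hM0 hℓ hp (hpM p hp hS) V hV).1 σ hσ (x : J1 M)
      (Pic0.mem_torsion.mp x.2))
  · -- Frobenius relation
    intro p hp hS V hV σ hσ x
    apply Subtype.ext
    have h := (hES M ℓ p hM0 hℓ hp (hpM p hp hS) V hV).2 σ hσ (x : J1 M)
      (Pic0.mem_torsion.mp x.2)
    have h2 := congrArg (diamondS (!s) M p) h
    rw [map_add, map_sub, map_zero, diamondS_not_diamondS, map_zsmul] at h2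
    show ((σ • σ • x - (diamondST (!s) M ℓ p ∘ₗ heckeT M ℓ p) (σ • x)
      + (p : ℤ) • diamondST (!s) M ℓ p x : J1T M ℓ) : J1 M) = 0
    rw [AddSubgroup.coe_add, AddSubgroup.coe_sub, AddSubgroup.coe_zsmul, LinearMap.comp_apply,
      coe_diamondST, coe_diamondST]
    exact h2
  · -- p * δ p = e p
    intro p hp hS
    have h1 := (hae p hp hS).2.2
    show (p : F) * (d p)⁻¹ = ψ (e p)
    rw [← h1, mul_comm (d p), mul_assoc, mul_inv_cancel₀ (hd0 p hp hS), mul_one]
  · -- occurrence
    refine ⟨v, hv0, fun p hp hS => ?_⟩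
    obtain ⟨h1, h2⟩ := hv p hp hS
    have h3 : (diamondST (!s) M ℓ p).baseChange F v = (d p)⁻¹ • v := by
      have h4 := congrArg ((diamondST (!s) M ℓ p).baseChange F) h2
      rw [← LinearMap.comp_apply, ← LinearMap.baseChange_comp, diamondST_not_comp,
        LinearMap.baseChange_id, LinearMap.id_apply, map_smul] at h4
      have h5 := congrArg (fun w => (d p)⁻¹ • w) h4
      simp only [smul_smul, inv_mul_cancel₀ (hd0 p hp hS), one_smul] at h5
      exact h5.symm
    refine ⟨?_, h3⟩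
    rw [LinearMap.baseChange_comp, LinearMap.comp_apply, h1, map_smul, h3, smul_smul,
      mul_comm (d p), mul_assoc, mul_inv_cancel₀ (hd0 p hp hS), mul_one]

/-- **The chain of RES**: `RawES1Statement s → Occ1Statement s → Top.ResidualStatement`
(for either orientation `s`). -/
theorem residual_of_parts (s : Bool) (hES : RawES1Statement s) (hOcc : Occ1Statement s) :
    ResidualStatement :=
  residualStatement_of_frobModule (frobModule_of_parts s hES hOcc)

end Fermat.Agent.S48.Res

end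
end
-- ===== PACK-END S48/Res/Chain.lean

-- ===== PACK-BEGIN S48/Res/ChainOcc.lean
section






/-!
# S48 / RES (Tower A1) — `Eigenclass1 + M4b1 ⟹ Occ1Statement true` (helper168)

Sorry-free.  Port of `S29/M4c.lean` (`M4c_exists_eigenclass_of`) to `Γ₁(M)` with diamonds: the
eigenclass `cl : Γ₁(M) → F` is written in coordinates `cl = ∑ⱼ wⱼ cⱼ` (`cⱼ` with values in `𝔽_ℓ`,
`H188.exists_coords`), `v = ∑ⱼ wⱼ ⊗ κ(cⱼ)`; the tensor lemmas are those of helper92
(`S29.M4c_tensor_eigen`, `S29.M4c_tensor_ne_zero`).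
-/

set_option autoImplicit false
set_option linter.style.haveILetI false
set_option linter.unusedSectionVars false

noncomputable section

open CongruenceSubgroup ModularCurve AlgebraicCurve ModularCurve.Period
open scoped TensorProduct MatrixGroups

namespace Fermat.Agent.S48.Res

open Fermat.Agent.S48.F1 Fermat.Agent.S48.Top Fermat.Agent.S48.H548

section Adapter

variable {M ℓ : ℕ}

theorem isPar1_zero {A : Type*} [AddCommGroup A] : IsPar1 (0 : Additive (Gamma1 M) →+ A) :=
  ⟨fun _ _ => rfl, fun _ _ => rfl⟩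

theorem IsPar1.add {A : Type*} [AddCommGroup A] {c c' : Additive (Gamma1 M) →+ A}
    (h : IsPar1 c) (h' : IsPar1 c') : IsPar1 (c + c') :=
  ⟨fun γ hγ => by
      show c (Additive.ofMul γ) + c' (Additive.ofMul γ) = 0
      rw [h.1 γ hγ, h'.1 γ hγ, add_zero],
    fun γ hγ => by
      show c (Additive.ofMul γ) + c' (Additive.ofMul γ) = 0
      rw [h.2 γ hγ, h'.2 γ hγ, add_zero]⟩

/-- The predicate "`c` is (the underlying function of) a parabolic character". -/
def IsParFun (M ℓ : ℕ) (c : Additive (Gamma1 M) → ZMod ℓ) : Prop :=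
  ∃ φ : Additive (Gamma1 M) →+ ZMod ℓ, ⇑φ = c ∧ IsPar1 φ

open Classical in
/-- Extension of `κ` to plain functions. -/
def kappaFun {V : Type*} [AddCommGroup V] (κ : (Additive (Gamma1 M) →+ ZMod ℓ) → V)
    (c : Additive (Gamma1 M) → ZMod ℓ) : V :=
  if h : IsParFun M ℓ c then κ h.choose else 0

theorem kappaFun_coe {V : Type*} [AddCommGroup V] (κ : (Additive (Gamma1 M) →+ ZMod ℓ) → V)
    (φ : Additive (Gamma1 M) →+ ZMod ℓ) (hφ : IsPar1 φ) : kappaFun κ ⇑φ = κ φ := by
  have h : IsParFun M ℓ ⇑φ := ⟨φ, rfl, hφ⟩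
  rw [kappaFun, dif_pos h]
  congr 1
  exact DFunLike.coe_injective h.choose_spec.1

theorem isParFun_coe (φ : Additive (Gamma1 M) →+ ZMod ℓ) (hφ : IsPar1 φ) :
    IsParFun M ℓ ⇑φ := ⟨φ, rfl, hφ⟩

end Adapter

section Torsion

variable (M ℓ : ℕ)

/-- `J₁(M)[ℓ]` is killed by `ℓ`. -/
theorem j1T_nsmul_eq_zero (x : J1T M ℓ) : ℓ • x = 0 := by
  apply Subtype.ext
  have h := Pic0.mem_torsion.mp x.2
  have h2 : ((ℓ • x : J1T M ℓ) : J1 M) = (ℓ : ℤ) • (x : J1 M) := by
    rw [natCast_zsmul]
    rfl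
  rw [h2, h]
  rfl

end Torsion

theorem diaHom1_injective {M : ℕ} [NeZero M] (a : SL(2, ℤ)) (ha : a ∈ Gamma0 M)
    {A : Type*} [AddCommGroup A] (c : Additive (Gamma1 M) →+ A)
    (h : diaHom1 a ha A c = 0) : c = 0 := by
  refine AddMonoidHom.ext fun γ => ?_
  obtain ⟨γ, rfl⟩ : ∃ γ' : Gamma1 M, Additive.ofMul γ' = γ := ⟨Additive.toMul γ, rfl⟩
  have ha' : a⁻¹ ∈ Gamma0 M := (Gamma0 M).inv_mem ha
  have h1 := congrArg (fun f : Additive (Gamma1 M) →+ A => f (Additive.ofMul (conj1 a⁻¹ ha' γ))) h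
  simp only [diaHom1_apply, AddMonoidHom.zero_apply] at h1
  have h2 : conj1 a ha (conj1 a⁻¹ ha' γ) = γ := by
    apply Subtype.ext
    simp only [coe_conj1]
    group
  rw [h2] at h1
  exact h1

/-- **OCC1 from its parts.** -/
theorem occ1_of_parts (hE : Eigenclass1Statement) (hK : M4b1Statement) :
    Occ1Statement true := by
  classical
  intro N _ ε f hf
  obtain ⟨B, hB⟩ := hE N ε f hf
  refine ⟨B, fun ℓ hℓ hBℓ F _ _ _ ψ => ?_⟩
  obtain ⟨M, hM, a, e, hMp, hae, cl, hcl0, hclP, hcl⟩ := hB ℓ hℓ hBℓ F ψ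
  haveI := hM
  haveI hℓF : Fact ℓ.Prime := ⟨hℓ⟩
  letI : Algebra (ZMod ℓ) F := ZMod.algebra F ℓ
  letI : Module (ZMod ℓ) (J1T M ℓ) :=
    AddCommGroup.zmodModule (n := ℓ) (j1T_nsmul_eq_zero M ℓ)
  obtain ⟨κ, hκadd, hκinj, hκ⟩ := hK M ℓ hℓ
  haveI : Group.FG (Gamma1 M) := by
    haveI := Fermat.Agent.S48.H188.fg_SL2Z
    infer_instance
  obtain ⟨n, w, cc, hw, hsum, hzero⟩ :=
    Fermat.Agent.S48.H188.exists_coords (k := ZMod ℓ) cl
  have hccP : ∀ j, IsPar1 (cc j) := fun j =>
    ⟨fun γ hγ => hzero _ (hclP.1 γ hγ) j, fun γ hγ => hzero _ (hclP.2 γ hγ) j⟩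
  have hcc0 : ∃ j, (⇑(cc j) : Additive (Gamma1 M) → ZMod ℓ) ≠ 0 := by
    by_contra hcon
    rw [not_exists] at hcon
    apply hcl0
    refine AddMonoidHom.ext fun γ => ?_
    rw [hsum γ]
    refine Finset.sum_eq_zero fun j _ => ?_
    have h0 : (⇑(cc j) : Additive (Gamma1 M) → ZMod ℓ) = 0 := not_not.mp (hcon j)
    rw [show cc j γ = (⇑(cc j) : Additive (Gamma1 M) → ZMod ℓ) γ from rfl, h0]
    simp
  -- the properties of the extended Kummer map
  have hP0 : IsParFun M ℓ 0 := ⟨0, rfl, isPar1_zero⟩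
  have hPadd : ∀ c c', IsParFun M ℓ c → IsParFun M ℓ c' → IsParFun M ℓ (c + c') := by
    rintro _ _ ⟨φ, rfl, hφ⟩ ⟨φ', rfl, hφ'⟩
    exact ⟨φ + φ', rfl, hφ.add hφ'⟩
  have hKadd : ∀ c c', IsParFun M ℓ c → IsParFun M ℓ c' →
      kappaFun κ (c + c') = kappaFun κ c + kappaFun κ c' := by
    rintro _ _ ⟨φ, rfl, hφ⟩ ⟨φ', rfl, hφ'⟩
    have h1 : (⇑φ + ⇑φ' : Additive (Gamma1 M) → ZMod ℓ) = ⇑(φ + φ') := rfl
    rw [h1, kappaFun_coe κ _ (hφ.add hφ'), kappaFun_coe κ _ hφ, kappaFun_coe κ _ hφ',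
      hκadd φ φ' hφ hφ']
  have hKinj : ∀ c, IsParFun M ℓ c → kappaFun κ c = 0 → c = 0 := by
    rintro _ ⟨φ, rfl, hφ⟩ h
    rw [kappaFun_coe κ _ hφ] at h
    rw [hκinj φ hφ h]
    rfl
  -- the eigenvector
  set v : F ⊗[ℤ] J1T M ℓ := ∑ j, w j ⊗ₜ[ℤ] κ (cc j) with hv
  have hv' : v = ∑ j, w j ⊗ₜ[ℤ] kappaFun κ ⇑(cc j) := by
    rw [hv]
    refine Finset.sum_congr rfl fun j _ => ?_
    rw [kappaFun_coe κ _ (hccP j)]
  have hv0 : v ≠ 0 := by
    rw [hv']
    exact Fermat.Agent.S29.M4c_tensor_ne_zero (IsParFun M ℓ) (kappaFun κ) hKinj w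
      (fun j => ⇑(cc j)) hw (fun j => isParFun_coe _ (hccP j)) hcc0
  -- arithmetic of the primes
  have hpM : ∀ p : ℕ, p.Prime → ¬ p ∣ N * ℓ → ¬ p ∣ M := fun p hp hS h => hS (hMp p hp h)
  have hpℓ : ∀ p : ℕ, p.Prime → ¬ p ∣ N * ℓ → p ≠ ℓ := fun p _ hS h =>
    hS (h ▸ Dvd.intro_left N rfl)
  have hpF : ∀ p : ℕ, p.Prime → ¬ p ∣ N * ℓ → (p : F) ≠ 0 := by
    intro p hp hS h0
    have h2 : ℓ ∣ p := (CharP.cast_eq_zero_iff F ℓ p).1 h0
    exact hpℓ p hp hS ((Nat.prime_dvd_prime_iff_eq hℓ hp).1 h2).symm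
  have hψe : ∀ p : ℕ, p.Prime → ¬ p ∣ N * ℓ → ψ (e p) ≠ 0 := by
    intro p hp hS h0
    haveI : Fact p.Prime := ⟨hp⟩
    apply hcl0
    apply diaHom1_injective (sigmaP M p (hpM p hp hS)) (sigmaP_mem (hpM p hp hS))
    refine AddMonoidHom.ext fun γ => ?_
    have h1 := (hcl p (hpM p hp hS) hS γ).2
    rw [h0, zero_mul] at h1
    rcases mul_eq_zero.mp h1 with h2 | h2
    · exact absurd h2 (hpF p hp hS)
    · exact h2
  refine ⟨M, a, e, fun p => (p : F) * (ψ (e p))⁻¹, NeZero.ne M, hMp, fun p hp hS => ?_, v, hv0,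
    fun p hp hS => ?_⟩
  · refine ⟨(hae p hp hS).1, (hae p hp hS).2, ?_⟩
    rw [mul_assoc, inv_mul_cancel₀ (hψe p hp hS), mul_one]
  · haveI : Fact p.Prime := ⟨hp⟩
    have hpM' := hpM p hp hS
    set σ := sigmaP M p hpM' with hσ
    have hσm : σ ∈ Gamma0 M := sigmaP_mem hpM'
    -- `δ = ψ(e p) / p`, the eigenvalue of `diaHom1 σ`
    set δ : F := ψ (e p) * (p : F)⁻¹ with hδ
    have hδ0 : δ ≠ 0 := mul_ne_zero (hψe p hp hS) (inv_ne_zero (hpF p hp hS))
    have hδinv : δ⁻¹ = (p : F) * (ψ (e p))⁻¹ := by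
      rw [hδ, mul_inv, inv_inv, mul_comm]
    have hdia : ∀ γ : Additive (Gamma1 M), diaHom1 σ hσm F cl γ = δ * cl γ := by
      intro γ
      have h1 := (hcl p hpM' hS γ).2
      rw [hδ, mul_assoc, mul_comm ((p : F)⁻¹), ← mul_assoc, ← h1, mul_comm (p : F), mul_assoc,
        mul_inv_cancel₀ (hpF p hp hS), mul_one]
    -- coordinates of the identities
    have hid1 : ∀ γ : Additive (Gamma1 M),
        ∑ j, w j * algebraMap (ZMod ℓ) F (diaHom1 σ hσm (ZMod ℓ) (cc j) γ)
          = δ * ∑ j, w j * algebraMap (ZMod ℓ) F (cc j γ) := by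
      intro γ
      obtain ⟨γ, rfl⟩ : ∃ γ' : Gamma1 M, Additive.ofMul γ' = γ := ⟨Additive.toMul γ, rfl⟩
      rw [← hsum, ← hdia, diaHom1_apply, hsum]
      rfl
    have hid2 : ∀ γ : Additive (Gamma1 M),
        ∑ j, w j * algebraMap (ZMod ℓ) F (heckeHom1 p hpM' (ZMod ℓ) (cc j) γ)
          = ψ (a p) * ∑ j, w j * algebraMap (ZMod ℓ) F (cc j γ) := by
      intro γ
      obtain ⟨γ, rfl⟩ : ∃ γ' : Gamma1 M, Additive.ofMul γ' = γ := ⟨Additive.toMul γ, rfl⟩
      rw [← hsum, ← (hcl p hpM' hS _).1, heckeHom1_apply]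
      simp only [heckeHom1_apply, map_sum, Finset.mul_sum]
      rw [Finset.sum_comm]
      refine Finset.sum_congr rfl fun x _ => ?_
      rw [hsum]
    have hdP : ∀ j, IsPar1 (diaHom1 σ hσm (ZMod ℓ) (cc j)) := fun j =>
      ⟨isParabolicHom_diaHom1 σ hσm _ (hccP j).1, diaHom1_finOrder σ hσm _ (hccP j).2⟩
    have hTP : ∀ j, IsPar1 (heckeHom1 p hpM' (ZMod ℓ) (cc j)) := fun j =>
      ⟨isParabolicHom_heckeHom1 hpM' _ (hccP j).1, heckeHom1_finOrder hpM' _ (hccP j).2⟩
    -- `v' = ∑ w ⊗ κ (cc ∘ conj σ) = δ • v`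
    have hv1 : (∑ j, w j ⊗ₜ[ℤ] κ (diaHom1 σ hσm (ZMod ℓ) (cc j)) : F ⊗[ℤ] J1T M ℓ) = δ • v := by
      rw [hv']
      have := Fermat.Agent.S29.M4c_tensor_eigen (IsParFun M ℓ) (kappaFun κ) hP0 hPadd hKadd w
        (fun j => ⇑(cc j)) (fun j => ⇑(diaHom1 σ hσm (ZMod ℓ) (cc j)))
        (fun j => isParFun_coe _ (hccP j)) (fun j => isParFun_coe _ (hdP j)) δ hid1
      rw [← this]
      refine Finset.sum_congr rfl fun j _ => ?_
      rw [kappaFun_coe κ _ (hdP j)]
    have hv2 : (∑ j, w j ⊗ₜ[ℤ] κ (heckeHom1 p hpM' (ZMod ℓ) (cc j)) : F ⊗[ℤ] J1T M ℓ)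
        = ψ (a p) • v := by
      rw [hv']
      have := Fermat.Agent.S29.M4c_tensor_eigen (IsParFun M ℓ) (kappaFun κ) hP0 hPadd hKadd w
        (fun j => ⇑(cc j)) (fun j => ⇑(heckeHom1 p hpM' (ZMod ℓ) (cc j)))
        (fun j => isParFun_coe _ (hccP j)) (fun j => isParFun_coe _ (hTP j)) (ψ (a p)) hid2
      rw [← this]
      refine Finset.sum_congr rfl fun j _ => ?_
      rw [kappaFun_coe κ _ (hTP j)]
    -- apply the operators to `δ • v`
    have hT : (heckeT M ℓ p).baseChange F (δ • v) = ψ (a p) • v := by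
      rw [← hv1, map_sum, ← hv2]
      refine Finset.sum_congr rfl fun j _ => ?_
      rw [LinearMap.baseChange_tmul, (hκ p hpM' (hpℓ p hp hS) (cc j) (hccP j)).1]
    have hD : (diamondT M ℓ (unitOf M p)).baseChange F (δ • v) = v := by
      rw [← hv1, map_sum, hv]
      refine Finset.sum_congr rfl fun j _ => ?_
      rw [LinearMap.baseChange_tmul, (hκ p hpM' (hpℓ p hp hS) (cc j) (hccP j)).2]
    rw [map_smul] at hT hD
    constructor
    · have h1 := congrArg (fun x => δ⁻¹ • x) hT
      simp only [smul_smul, inv_mul_cancel₀ hδ0, one_smul] at h1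
      rw [h1, hδinv]
    · have h1 := congrArg (fun x => δ⁻¹ • x) hD
      simp only [smul_smul, inv_mul_cancel₀ hδ0, one_smul] at h1
      show (diamondST true M ℓ p).baseChange F v = _
      have h2 : diamondST true M ℓ p = diamondT M ℓ (unitOf M p) := by simp [diamondST]
      rw [h2, h1, hδinv]

/-- **RES from its three deep inputs.** -/
theorem residual_of_three (hES : RawES1Statement true) (hE : Eigenclass1Statement)
    (hK : M4b1Statement) : ResidualStatement :=
  residual_of_parts true hES (occ1_of_parts hE hK)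

end Fermat.Agent.S48.Res

end
end
-- ===== PACK-END S48/Res/ChainOcc.lean

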