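import Fermat.Prelude.Def_ModularCurve_ArithmeticGalois
import Fermat.Prelude.Def_AlgebraicCurve_BaseChangeGalois
import Fermat.Prelude.Thm_ModularCurve_coeffMap_qExpand
import Fermat.Agent.Pack.L1B.E2L3
import Fermat.Agent.Pack.S44C.G0E21L2
import Fermat.Agent.Pack.S44C.G0E20L2
import Fermat.Agent.Pack.L1B.E0L0
import Fermat.Agent.Pack.L1B.E1L0
import Fermat.Agent.Pack.L1B.E2L0
import Fermat.Agent.Pack.L1.E6L2
import Fermat.Agent.Pack.L1B.E2L1
import Fermat.Agent.Pack.L1B.E0L1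
import Fermat.Agent.Pack.S44C.G0E11L1
import Fermat.Agent.Pack.S44C.G0E11L2
import Fermat.Agent.Pack.S44C.G0E13L3
import Fermat.Agent.Pack.S44C.G0E19L3
import Fermat.Agent.Pack.L1B.E2L2
import Fermat.Agent.Pack.L1.E10L0

-- ===== PACK-BEGIN S48/H76/Avatar.lean
section





/-!
# S48 / Tower A1, piece A1-FF (helper76): analytic avatars of the generators of `F1 M`

* `yW M w = G_w / Δ` (`G_w` the level-`M` Eisenstein series of weight `12` with periodic weight `w`):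
  holomorphic on `ℍ`, `yW ∘ γ = yW (γ · w)` for all `γ ∈ SL(2,ℤ)`, expansion in `X = e^{2πiτ/M}`
  with explicit coefficients (`infExp_yW`, `coefX_mem`); hence `yW M w ∈ S24.H997.holN M`.
* `pFun M a = C₁₂⁻¹ · G_{[v₀ = a]} / Δ` is the analytic avatar of the generator
  `P_a = F1.divGenC ℂ M a` of the function field `F1 M` of `X₁(M)`:
  `infExp_pFun : InfExp 1 (pFun M a) (F1.divGenC ℂ M a)` (`a ≠ 0`),
  `compSL_pFun : compSL γ (pFun M a) = pFun M (a * γ 0 0)` for `γ ∈ Γ₀(M)`,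
  `pFun_smul_Gamma1`, `pFun_neg`, `pFun_mem_holN`, `mdiff_pFun`,
  `hasSum_typeI`, `qExpansion_typeI` (any weight `k + 1 ≥ 3`).
-/

set_option autoImplicit false

open UpperHalfPlane EisensteinSeries ModularForm Filter Topology Complex CongruenceSubgroup
open HahnSeries ModularCurve
open scoped Matrix MatrixGroups Manifold Real

noncomputable section

namespace Fermat.Agent.S48.H76

open Fermat.Agent.S29 Fermat.Agent.S24 Fermat.Agent.S24.H997 Fermat.Agent.S24.H624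
open Fermat.Agent.S28 Fermat.Agent.S28.H748

local notation "𝕢" => Function.Periodic.qParam
local notation "Δ" => ModularForm.discriminant

/-- The expansion of `G_w` in `X = e^{2πiτ/M}` as a power series. -/
def coefXSeries (M : ℕ) (w : ZMod M → ZMod M → ℂ) (k : ℕ) : PowerSeries ℂ :=
  PowerSeries.mk (coefX M w k)

theorem infPExp_wEis (M : ℕ) [NeZero M] {k : ℕ} (hk : 2 ≤ k) (w : ZMod M → ZMod M → ℂ) :
    InfPExp M (H332.wEis (perWeight M w) ((k + 1 : ℕ) : ℤ)) (coefXSeries M w k) := by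
  intro τ
  have H := hasSum_wEis_periodic M hk w τ
  simpa [coefXSeries, infZ, smul_eq_mul] using H

/-- The weight-zero function `G_w / Δ` (`G_w` of weight `12`). -/
def yW (M : ℕ) (w : ZMod M → ZMod M → ℂ) (τ : ℍ) : ℂ :=
  H332.wEis (perWeight M w) ((11 + 1 : ℕ) : ℤ) τ * (Δ τ)⁻¹

/-- The expansion of `yW M w` in `X`. -/
def yWSeries (M : ℕ) [NeZero M] (w : ZMod M → ZMod M → ℂ) : LaurentSeries ℂ :=
  ofPowerSeries ℤ ℂ (coefXSeries M w 11) * qExpand ℂ M H565.deltaInvSeriesC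

theorem infExp_yW (M : ℕ) [NeZero M] (w : ZMod M → ZMod M → ℂ) :
    InfExp M (yW M w) (yWSeries M w) := by
  have h1 := (infPExp_wEis M (k := 11) (by norm_num) w).infExp 0
  have h2 : InfExp M (H332.wEis (perWeight M w) ((11 + 1 : ℕ) : ℤ))
      (ofPowerSeries ℤ ℂ (coefXSeries M w 11)) := by
    have e : (single (0 : ℤ) (1 : ℂ) * ofPowerSeries ℤ ℂ (coefXSeries M w 11)) =
        ofPowerSeries ℤ ℂ (coefXSeries M w 11) := by
      rw [show (single (0 : ℤ) (1 : ℂ)) = 1 from rfl, one_mul]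
    rw [e] at h1
    refine h1.congr fun τ => ?_
    simp
  exact h2.mul (infExp_level (N := M) infExp_one_deltaInv)

theorem mdiff_yW (M : ℕ) [NeZero M] (w : ZMod M → ZMod M → ℂ) : MDiff (yW M w) :=
  Fermat.Agent.S28.H748.InfExp.mdiff748 (infExp_yW M w)

/-- **Translates**: `yW w ∘ γ = yW (γ · w)` for every `γ ∈ SL(2,ℤ)`. -/
theorem compSL_yW (M : ℕ) (w : ZMod M → ZMod M → ℂ) (γ : SL(2, ℤ)) :
    compSL γ (yW M w) = yW M (actW M γ w) := by
  funext τ
  have h := congrFun (perWeight_slash M w ((11 + 1 : ℕ) : ℤ) γ) τ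
  rw [SL_slash_apply] at h
  simp only [compSL_apply, yW]
  rw [← h, Fermat.Agent.S24.JFun.discriminant_smul]
  have hd : denom γ τ ≠ 0 := denom_ne_zero γ τ
  have hΔ : Δ τ ≠ 0 := discriminant_ne_zero τ
  have e12 : (((11 + 1 : ℕ) : ℤ)) = (12 : ℤ) := by norm_num
  rw [e12, zpow_neg]
  field_simp

theorem yW_mem_holN (M : ℕ) [NeZero M] (w : ZMod M → ZMod M → ℂ) : yW M w ∈ holN M := by
  refine ⟨mdiff_yW M w, fun γ => ?_⟩
  rw [compSL_yW]
  exact (infExp_yW M (actW M γ w)).mem_expRing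

/-! ### Rationality of the expansions -/

/-- Fourier inversion on `ℤ/M`. -/
theorem fourier_inversion (M : ℕ) [NeZero M] (g : ZMod M → ℂ) (b : ZMod M) :
    g b = (M : ℂ)⁻¹ * ∑ c ∈ Finset.range M, hatG M g (c : ℤ) * gZ M (c : ℤ) b := by
  have hM : (M : ℂ) ≠ 0 := Nat.cast_ne_zero.mpr (NeZero.ne M)
  have hb : b.val ∈ Finset.range M := Finset.mem_range.mpr (ZMod.val_lt b)
  have h1 : ∀ c ∈ Finset.range M, hatG M g (c : ℤ) * gZ M (c : ℤ) b =
      ∑ b' ∈ Finset.range M, g (b' : ZMod M) * zetaPow M ((c : ℤ) * ((b' : ℤ) - (b.val : ℤ))) := by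
    intro c _
    unfold hatG gZ
    rw [Finset.sum_mul]
    refine Finset.sum_congr rfl fun b' _ => ?_
    rw [mul_assoc, ← zetaPow_add]
    congr 2
    ring
  rw [Finset.sum_congr rfl h1, Finset.sum_comm]
  have h2 : ∀ b' ∈ Finset.range M,
      ∑ c ∈ Finset.range M, g (b' : ZMod M) * zetaPow M ((c : ℤ) * ((b' : ℤ) - (b.val : ℤ))) =
        if b' = b.val then (M : ℂ) * g b else 0 := by
    intro b' hb'
    rw [← Finset.mul_sum, sum_range_zetaPow]
    have hb'M := Finset.mem_range.mp hb'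
    have hbM := ZMod.val_lt b
    by_cases h : b' = b.val
    · rw [if_pos h, h, sub_self, if_pos (dvd_zero _), ZMod.natCast_zmod_val, mul_comm]
    · rw [if_neg h, if_neg, mul_zero]
      intro hdvd
      apply h
      have h3 : |(b' : ℤ) - (b.val : ℤ)| < (M : ℤ) := by
        rw [abs_lt]
        constructor <;> omega
      have h4 := Int.eq_zero_of_abs_lt_dvd hdvd h3
      omega
  rw [Finset.sum_congr rfl h2, Finset.sum_ite_eq' _ _ _, if_pos hb, ← mul_assoc,
    inv_mul_cancel₀ hM, one_mul]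

/-- The normalised constant term `κ_w = M⁻¹ ∑_c ŵ₀(c) κ_c`. -/
def kappaW (M : ℕ) (w : ZMod M → ZMod M → ℂ) (k : ℕ) : ℂ :=
  (M : ℂ)⁻¹ * ∑ c ∈ Finset.range M, hatG M (w 0) (c : ℤ) * ((kappaQ M (c : ℤ) k : ℚ) : ℂ)

theorem constTerm_typeII (M : ℕ) (g : ZMod M → ℂ) (k : ℕ) :
    constTerm M (typeII M g) k = ∑' d : ℤ, g ((d : ℤ) : ZMod M) * (1 / ((0 : ℂ) + d) ^ (k + 1)) := by
  unfold constTerm
  refine tsum_congr fun d => ?_
  simp [typeII]

/-- **The constant term of a level-`M` Eisenstein series** in terms of Bernoulli polynomials. -/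
theorem constTerm_eq (M : ℕ) [NeZero M] {k : ℕ} (hk : 1 ≤ k) (w : ZMod M → ZMod M → ℂ) :
    constTerm M w k = normC M k * kappaW M w k := by
  have h1 : constTerm M w k =
      ∑' d : ℤ, ∑ c ∈ Finset.range M, ((M : ℂ)⁻¹ * hatG M (w 0) (c : ℤ)) *
        (gZ M (c : ℤ) ((d : ℤ) : ZMod M) * (1 / ((0 : ℂ) + d) ^ (k + 1))) := by
    unfold constTerm
    refine tsum_congr fun d => ?_
    rw [fourier_inversion M (w 0) ((d : ℤ) : ZMod M), Finset.mul_sum, Finset.sum_mul]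
    refine Finset.sum_congr rfl fun c _ => ?_
    simp only [zero_add, one_div]
    ring
  rw [h1, Summable.tsum_finsetSum]
  · unfold kappaW
    rw [Finset.mul_sum, Finset.mul_sum]
    refine Finset.sum_congr rfl fun c _ => ?_
    rw [tsum_mul_left, ← constTerm_typeII, constTerm_gZ M (c : ℤ) hk]
    unfold normC
    ring
  · intro c _
    exact (summable_row M hk (gZ M (c : ℤ)) 0).mul_left _

/-- The coefficients of the `X`-expansion of `G_w`, divided by the normalising constant, lie in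
every subring containing `ζ_M`, `1/M`, the Bernoulli constants `κ_c` and the values of `w`. -/
theorem coefX_mem (M : ℕ) [NeZero M] {k : ℕ} (hk : 1 ≤ k) (w : ZMod M → ZMod M → ℂ)
    (S : Subring ℂ) (hζ : ∀ a : ℤ, zetaPow M a ∈ S) (hM : (M : ℂ)⁻¹ ∈ S)
    (hκ : ∀ c : ℕ, ((kappaQ M (c : ℤ) k : ℚ) : ℂ) ∈ S) (hw : ∀ x y, w x y ∈ S) (n : ℕ) :
    (normC M k)⁻¹ * coefX M w k n ∈ S := by
  have hhat : ∀ (g : ZMod M → ℂ), (∀ b, g b ∈ S) → ∀ m : ℤ, hatG M g m ∈ S := by
    intro g hg m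
    unfold hatG
    exact S.sum_mem fun b _ => S.mul_mem (hg _) (hζ _)
  unfold coefX
  by_cases hn : n = 0
  · rw [if_pos hn, constTerm_eq M hk, ← mul_assoc, inv_mul_cancel₀ (normC_ne_zero M k), one_mul]
    unfold kappaW
    exact S.mul_mem hM (S.sum_mem fun c _ => S.mul_mem (hhat _ (hw 0) _) (hκ c))
  · rw [if_neg hn]
    have hMne : (M : ℂ) ≠ 0 := Nat.cast_ne_zero.mpr (NeZero.ne M)
    have e : (normC M k)⁻¹ * (lipConst M k * coefA M w k n) = (M : ℂ)⁻¹ * coefA M w k n := by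
      have h0 := normC_ne_zero M k
      unfold normC at h0 ⊢
      have hl : lipConst M k ≠ 0 := left_ne_zero_of_mul h0
      field_simp
    rw [e]
    refine S.mul_mem hM ?_
    unfold coefA sigma2
    refine S.sum_mem fun x _ => S.mul_mem (S.pow_mem (natCast_mem S _) _) (hhat _ ?_ _)
    intro b
    unfold symW
    exact S.add_mem (hw _ _) (S.mul_mem (S.pow_mem (S.neg_mem S.one_mem) _) (hw _ _))

/-! ### Type I: the division values -/

/-- The weight of type I: `w(x, y) = [x = a]`. -/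
def typeI (M : ℕ) (a : ZMod M) : ZMod M → ZMod M → ℂ := fun x _ => if x = a then 1 else 0

/-- `C_{k+1} = (-2πi)^{k+1} / k!`. -/
def divC (k : ℕ) : ℂ := (-2 * π * Complex.I) ^ (k + 1) / (k.factorial : ℂ)

theorem divC_ne_zero (k : ℕ) : divC k ≠ 0 := by
  unfold divC
  have h1 : (-2 * (π : ℂ) * Complex.I) ≠ 0 := by
    simp [Real.pi_ne_zero, Complex.I_ne_zero]
  exact div_ne_zero (pow_ne_zero _ h1) (Nat.cast_ne_zero.mpr (Nat.factorial_ne_zero k))

theorem lipConst_mul_pow (M : ℕ) [NeZero M] (k : ℕ) :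
    lipConst M k * (M : ℂ) ^ (k + 1) = divC k := by
  have hM : (M : ℂ) ≠ 0 := Nat.cast_ne_zero.mpr (NeZero.ne M)
  unfold lipConst divC
  field_simp

theorem constTerm_typeI (M : ℕ) {a : ZMod M} (ha : a ≠ 0) (k : ℕ) :
    constTerm M (typeI M a) k = 0 := by
  unfold constTerm
  have : ∀ d : ℤ, typeI M a 0 ((d : ℤ) : ZMod M) * ((d : ℂ) ^ (k + 1))⁻¹ = 0 := by
    intro d
    simp [typeI, Ne.symm ha]
  simp_rw [this]
  exact tsum_zero

/-- the symmetrised indicator -/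
def symI (M : ℕ) (a : ZMod M) (k c : ℕ) : ℂ :=
  (if (c : ZMod M) = a then 1 else 0) + (-1) ^ (k + 1) * (if (c : ZMod M) = -a then 1 else 0)

theorem symW_typeI (M : ℕ) (a : ZMod M) (k c : ℕ) :
    symW M (typeI M a) k c = fun _ => symI M a k c := by
  funext b
  unfold symW typeI symI
  simp only [neg_eq_iff_eq_neg]

theorem hatG_const (M : ℕ) [NeZero M] (v : ℂ) (m : ℤ) :
    hatG M (fun _ => v) m = if (M : ℤ) ∣ m then v * M else 0 := by
  unfold hatG
  rw [← Finset.mul_sum, sum_range_zetaPow]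
  split_ifs <;> simp

theorem coefA_typeI_of_not_dvd (M : ℕ) [NeZero M] (a : ZMod M) (k : ℕ) {n : ℕ} (hn : ¬ M ∣ n) :
    coefA M (typeI M a) k n = 0 := by
  unfold coefA sigma2
  refine Finset.sum_eq_zero fun x hx => ?_
  have hx' := Nat.mem_divisorsAntidiagonal.mp hx
  have hm : ¬ (M : ℤ) ∣ ((x.2 : ℕ) : ℤ) := by
    intro h0
    rw [Int.natCast_dvd_natCast] at h0
    exact hn (h0.trans ⟨x.1, by rw [mul_comm]; exact hx'.1.symm⟩)
  beta_reduce
  rw [symW_typeI, hatG_const, if_neg hm, mul_zero]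

/-- the divisor sum `∑_{c m = n} m^k ([c = a] + (-1)^{k+1} [c = -a])` -/
def sigmaI (M : ℕ) (a : ZMod M) (k n : ℕ) : ℂ :=
  ∑ x ∈ n.divisorsAntidiagonal, (x.2 : ℂ) ^ k * symI M a k x.1

theorem sigmaI_zero (M : ℕ) (a : ZMod M) (k : ℕ) : sigmaI M a k 0 = 0 := by
  simp [sigmaI]

theorem coefA_typeI_mul (M : ℕ) [NeZero M] (a : ZMod M) (k n : ℕ) :
    coefA M (typeI M a) k (M * n) = (M : ℂ) ^ (k + 1) * sigmaI M a k n := by
  have hM : M ≠ 0 := NeZero.ne M
  unfold coefA sigma2 sigmaI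
  by_cases hn : n = 0
  · subst hn
    simp
  rw [Finset.mul_sum]
  symm
  refine Finset.sum_bij_ne_zero (fun x _ _ => (x.1, M * x.2)) ?_ ?_ ?_ ?_
  · intro x hx _
    have hx' := Nat.mem_divisorsAntidiagonal.mp hx
    rw [Nat.mem_divisorsAntidiagonal]
    refine ⟨?_, Nat.mul_ne_zero hM hn⟩
    show x.1 * (M * x.2) = M * n
    rw [← hx'.1]
    ring
  · intro x hx _ y hy _ hxy
    have h1 : x.1 = y.1 := (Prod.mk.inj hxy).1
    have h2 : M * x.2 = M * y.2 := (Prod.mk.inj hxy).2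
    exact Prod.ext h1 (Nat.eq_of_mul_eq_mul_left (Nat.pos_of_ne_zero hM) h2)
  · intro y hy hne
    have hy' := Nat.mem_divisorsAntidiagonal.mp hy
    have hm : (M : ℤ) ∣ ((y.2 : ℕ) : ℤ) := by
      by_contra hm
      apply hne
      beta_reduce
      rw [symW_typeI, hatG_const, if_neg hm, mul_zero]
    rw [Int.natCast_dvd_natCast] at hm
    obtain ⟨m', hm'⟩ := hm
    refine ⟨(y.1, m'), ?_, ?_, ?_⟩
    · rw [Nat.mem_divisorsAntidiagonal]
      refine ⟨?_, hn⟩
      have h1 : M * (y.1 * m') = M * n := by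
        rw [← hy'.1, hm']
        ring
      exact Nat.eq_of_mul_eq_mul_left (Nat.pos_of_ne_zero hM) h1
    · intro h0
      apply hne
      beta_reduce
      rw [symW_typeI, hatG_const, if_pos (by rw [Int.natCast_dvd_natCast]; exact ⟨m', hm'⟩)]
      have h0' : (M : ℂ) ^ (k + 1) * ((m' : ℂ) ^ k * symI M a k y.1) = 0 := h0
      have hMC : (M : ℂ) ^ (k + 1) ≠ 0 := pow_ne_zero _ (Nat.cast_ne_zero.mpr hM)
      rcases mul_eq_zero.mp ((mul_eq_zero.mp h0').resolve_left hMC) with h | h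
      · have : m' = 0 := by
          by_contra hne'
          exact (pow_ne_zero k (Nat.cast_ne_zero.mpr hne')) h
        subst this
        simp [hm'] at hy'
        omega
      · rw [h]
        simp
    · exact Prod.ext rfl hm'.symm
  · intro x hx _
    have hd : (M : ℤ) ∣ (((M * x.2 : ℕ)) : ℤ) := by
      rw [Int.natCast_dvd_natCast]
      exact ⟨x.2, rfl⟩
    show (M : ℂ) ^ (k + 1) * ((x.2 : ℂ) ^ k * symI M a k x.1) =
      (((M * x.2 : ℕ)) : ℂ) ^ k * hatG M (symW M (typeI M a) k x.1) ((M * x.2 : ℕ) : ℤ)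
    rw [symW_typeI, hatG_const, if_pos hd]
    push_cast
    ring

theorem sigmaI_eq_divCoeff (M : ℕ) (a : ZMod M) (k n : ℕ) :
    sigmaI M a k n = ((F1.divCoeff M a (k + 1) n : ℤ) : ℂ) := by
  unfold sigmaI F1.divCoeff symI
  rw [Nat.sum_divisorsAntidiagonal (f := fun c m => (m : ℂ) ^ k *
    ((if (c : ZMod M) = a then 1 else 0) + (-1) ^ (k + 1) * (if (c : ZMod M) = -a then 1 else 0)))]
  rw [Int.cast_sum]
  refine Finset.sum_congr rfl fun m _ => ?_
  have e : (((((n / m : ℕ) : ℤ)) : ℤ) : ℂ) = ((n / m : ℕ) : ℂ) := Int.cast_natCast _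
  simp only [Nat.add_sub_cancel]
  rw [← e]
  generalize (((n / m : ℕ) : ℤ)) = t
  split_ifs <;> simp <;> ring

theorem coefX_typeI_mul (M : ℕ) [NeZero M] {a : ZMod M} (ha : a ≠ 0) (k n : ℕ) :
    coefX M (typeI M a) k (M * n) = divC k * ((F1.divCoeff M a (k + 1) n : ℤ) : ℂ) := by
  unfold coefX
  by_cases hn : n = 0
  · subst hn
    simp [constTerm_typeI M ha]
  · rw [if_neg (Nat.mul_ne_zero (NeZero.ne M) hn), coefA_typeI_mul, ← mul_assoc,
      lipConst_mul_pow, sigmaI_eq_divCoeff]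

theorem coefX_typeI_of_not_dvd (M : ℕ) [NeZero M] (a : ZMod M) (k : ℕ) {n : ℕ}
    (hn : ¬ M ∣ n) : coefX M (typeI M a) k n = 0 := by
  unfold coefX
  have h0 : n ≠ 0 := fun h => hn (h ▸ dvd_zero M)
  rw [if_neg h0, coefA_typeI_of_not_dvd M a k hn, mul_zero]

/-- **Expansion in `q`** of the Eisenstein series of type I on `Γ₁(M)` (weight `k + 1 ≥ 3`):
`G_{[v₀ = a]} = C_{k+1} ∑ c_{a,k+1}(n) qⁿ`. -/
theorem hasSum_typeI (M : ℕ) [NeZero M] {k : ℕ} (hk : 2 ≤ k) {a : ZMod M} (ha : a ≠ 0) (z : ℍ) :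
    HasSum (fun n : ℕ => (divC k * ((F1.divCoeff M a (k + 1) n : ℤ) : ℂ)) • 𝕢 1 (z : ℂ) ^ n)
      (H332.wEis (perWeight M (typeI M a)) ((k + 1 : ℕ) : ℤ) z) := by
  have H := hasSum_wEis_periodic M hk (typeI M a) z
  have hinj : Function.Injective (fun n : ℕ => M * n) := fun a b hab =>
    Nat.eq_of_mul_eq_mul_left (Nat.pos_of_ne_zero (NeZero.ne M)) hab
  rw [← hinj.hasSum_iff] at H
  · convert H using 1
    funext n
    simp only [Function.comp_apply]
    rw [coefX_typeI_mul M ha, qParam_M_pow]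
  · intro n hn
    have hnd : ¬ M ∣ n := by
      rintro ⟨m, rfl⟩
      exact hn ⟨m, rfl⟩
    rw [coefX_typeI_of_not_dvd M a k hnd, zero_smul]

/-- **`q`-expansion coefficients** of the Eisenstein series of type I on `Γ₁(M)`. -/
theorem qExpansion_typeI (M : ℕ) [NeZero M] {k : ℕ} (hk : 2 ≤ k) {a : ZMod M} (ha : a ≠ 0)
    (n : ℕ) :
    (qExpansion 1 (H332.wEis (perWeight M (typeI M a)) ((k + 1 : ℕ) : ℤ))).coeff n =
      divC k * ((F1.divCoeff M a (k + 1) n : ℤ) : ℂ) := by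
  have hk3 : (3 : ℤ) ≤ ((k + 1 : ℕ) : ℤ) := by
    push_cast
    omega
  exact Fermat.Agent.S22T.qExpansion_coeff_of_hasSum one_pos (hasSum_typeI M hk ha)
    (perWeight_mdiff M (typeI M a) hk3) n

/-! ### The avatar of `P_a` -/

/-- **The analytic avatar of the division value `P_a`**: `C₁₂⁻¹ · G_{[v₀ = a]} / Δ`. -/
def pFun (M : ℕ) (a : ZMod M) (τ : ℍ) : ℂ := (divC 11)⁻¹ * yW M (typeI M a) τ

theorem pFun_eq (M : ℕ) (a : ZMod M) :
    pFun M a = (fun _ => (divC 11)⁻¹) * yW M (typeI M a) := rfl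

theorem infPExp_typeI (M : ℕ) [NeZero M] {k : ℕ} (hk : 2 ≤ k) {a : ZMod M} (ha : a ≠ 0) :
    InfPExp 1 (fun τ => (divC k)⁻¹ * H332.wEis (perWeight M (typeI M a)) ((k + 1 : ℕ) : ℤ) τ)
      ((F1.divSeries M a (k + 1)).map (Int.castRingHom ℂ)) := by
  intro τ
  have H := (hasSum_typeI M hk ha τ).mul_left (divC k)⁻¹
  have e : (fun n : ℕ => PowerSeries.coeff n
        ((F1.divSeries M a (k + 1)).map (Int.castRingHom ℂ)) * infZ 1 τ ^ n) =
      fun n : ℕ => (divC k)⁻¹ *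
        ((divC k * ((F1.divCoeff M a (k + 1) n : ℤ) : ℂ)) • 𝕢 1 (τ : ℂ) ^ n) := by
    funext n
    have hC := divC_ne_zero k
    simp only [PowerSeries.coeff_map, F1.coeff_divSeries, infZ, smul_eq_mul, eq_intCast,
      Nat.cast_one]
    field_simp
  rw [e]
  exact H

/-- **The `q`-expansion of the avatar `pFun M a` is the division value `P_a`.** -/
theorem infExp_pFun (M : ℕ) [NeZero M] {a : ZMod M} (ha : a ≠ 0) :
    InfExp 1 (pFun M a) (F1.divGenC ℂ M a) := by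
  have h1 := (infPExp_typeI M (k := 11) (by norm_num) ha).infExp 0
  have h2 := h1.mul infExp_one_deltaInv
  have e : F1.divGenC ℂ M a =
      (single (0 : ℤ) (1 : ℂ) *
        ofPowerSeries ℤ ℂ ((F1.divSeries M a (11 + 1)).map (Int.castRingHom ℂ))) *
      H565.deltaInvSeriesC := by
    have hΔ : H565.deltaInvSeriesC = single (-1 : ℤ) (1 : ℂ) *
        ofPowerSeries ℤ ℂ (ModularCurve.dedekindEtaUnitInv.map (Int.castRingHom ℂ)) := rfl
    rw [show (single (0 : ℤ) (1 : ℂ)) = 1 from rfl, one_mul, hΔ,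
      F1.divGenC, F1.divNum, map_mul, map_mul]
    ring
  rw [e]
  refine h2.congr fun τ => ?_
  simp only [zpow_zero, one_mul, pFun, yW]
  ring

theorem mdiff_pFun (M : ℕ) [NeZero M] (a : ZMod M) : MDiff (pFun M a) := by
  have h := mdiff_yW M (typeI M a)
  exact (mdifferentiable_const (c := (divC 11)⁻¹)).mul h

theorem pFun_mem_holN (M : ℕ) [NeZero M] (a : ZMod M) : pFun M a ∈ holN M := by
  rw [pFun_eq]
  exact (holN M).mul_mem (const_mem_holN M _) (yW_mem_holN M (typeI M a))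

/-- The action of `Γ₀(M)` on the weights of type I. -/
theorem actW_typeI_Gamma0 (M : ℕ) [NeZero M] (a : ZMod M) (γ : SL(2, ℤ)) (hγ : γ ∈ Gamma0 M) :
    actW M γ (typeI M a) = typeI M (a * ((γ 0 0 : ℤ) : ZMod M)) := by
  have h10 : (((γ 1 0 : ℤ)) : ZMod M) = 0 := by
    rw [Gamma0_mem] at hγ
    exact hγ
  have hdet : ((γ 0 0 : ℤ) : ZMod M) * ((γ 1 1 : ℤ) : ZMod M) = 1 := by
    have h := Matrix.SpecialLinearGroup.det_coe γ
    rw [Matrix.det_fin_two] at h
    have h' := congrArg (fun z : ℤ => (z : ZMod M)) h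
    simp only [Int.cast_sub, Int.cast_mul, Int.cast_one] at h'
    rw [h10, mul_zero, sub_zero] at h'
    exact h'
  funext x y
  unfold actW typeI
  have e00 : ((γ⁻¹ : SL(2, ℤ)) 0 0 : ℤ) = γ 1 1 := by
    rw [Matrix.SpecialLinearGroup.SL2_inv_expl]; rfl
  have e10 : ((γ⁻¹ : SL(2, ℤ)) 1 0 : ℤ) = -γ 1 0 := by
    rw [Matrix.SpecialLinearGroup.SL2_inv_expl]; rfl
  rw [e00, e10]
  simp only [Int.cast_neg, h10, neg_zero, mul_zero, add_zero]
  congr 1
  apply propext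
  constructor
  · intro h
    rw [← h, mul_assoc, mul_comm ((γ 1 1 : ℤ) : ZMod M), hdet, mul_one]
  · intro h
    rw [h, mul_assoc, hdet, mul_one]

/-- **Diamond law**: `P_a ∘ γ = P_{a γ₀₀}` for `γ ∈ Γ₀(M)`. -/
theorem compSL_pFun (M : ℕ) [NeZero M] (a : ZMod M) (γ : SL(2, ℤ)) (hγ : γ ∈ Gamma0 M) :
    compSL γ (pFun M a) = pFun M (a * ((γ 0 0 : ℤ) : ZMod M)) := by
  funext τ
  have h := congrFun (compSL_yW M (typeI M a) γ) τ
  rw [actW_typeI_Gamma0 M a γ hγ] at h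
  simp only [compSL_apply] at h
  simp only [compSL_apply, pFun, h]

/-- `pFun M a` is invariant under `Γ₁(M)`. -/
theorem pFun_smul_Gamma1 (M : ℕ) [NeZero M] (a : ZMod M) (γ : SL(2, ℤ)) (hγ : γ ∈ Gamma1 M)
    (τ : ℍ) : pFun M a (γ • τ) = pFun M a τ := by
  have h0 : γ ∈ Gamma0 M := Gamma1_in_Gamma0 M hγ
  have h := congrFun (compSL_pFun M a γ h0) τ
  rw [compSL_apply] at h
  rw [h]
  have h00 : ((γ 0 0 : ℤ) : ZMod M) = 1 := ((Gamma1_mem M γ).mp hγ).1
  rw [h00, mul_one]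

/-- `P_{-a} = P_a`. -/
theorem pFun_neg (M : ℕ) [NeZero M] (a : ZMod M) : pFun M (-a) = pFun M a := by
  have hmem : (-1 : SL(2, ℤ)) ∈ Gamma0 M := by
    rw [Gamma0_mem]
    simp
  have h := compSL_pFun M a (-1) hmem
  have e : compSL (-1 : SL(2, ℤ)) (pFun M a) = pFun M a := by
    funext τ
    simp only [compSL_apply]
    congr 1
    exact UpperHalfPlane.ext (by simp)
  rw [e] at h
  rw [h]
  congr 1
  simp

end Fermat.Agent.S48.H76

end
end
-- ===== PACK-END S48/H76/Avatar.lean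

-- ===== PACK-BEGIN S48/H948/CohAsm.lean
section





/-!
# S48 / RES (Tower A1): the COHOMOLOGY SIDE, assembled (helper948)

`cohStatement : CohStatement` — for every weight-one eigen-datum `(N, ε, f)` there is a level
`M₀` (`N ∣ M₀`, same prime divisors) such that for every odd prime `ℓ`, every field `F` of
characteristic `ℓ` and every `ψ : ℤ̄ →+* F` there is a NONZERO PARABOLIC homomorphism
`cl : Γ₁(M₀ ℓ) → F`, vanishing on elements of finite order, with

* `T_p cl = ψ(a_p(f)) • cl`            (`H548.heckeHom1`, transfer formula),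
* `p • ⟨p⟩ cl = ψ(ε(p)) • cl`          (`H548.diaHom1 s`, `s ∈ Γ₀(M₀ ℓ)` with `s₁₁ ≡ p`),

for all primes `p ∤ M₀ ℓ`.  No characteristic-zero lift, no bound on `ℓ` besides `ℓ ≠ 2`.

Assembly of pieces on main:
* PACKET `H228.exists_integral_packet'` (helper228): the depleted form `h` of level `M₀`,
  everywhere integral, `a₁(h) = 1`;
* P2-EIS `H796.exists_multiplier` (helper796/788/196): the weight-one multiplier `E ≡ 1 mod ψ`
  on `Γ₁(ℓ)` with nebentypus `ω⁻¹`;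
* CHI0 + M4a1 `H548.exists_eigenclass_mul` (helper548/188): the eigenclass of `h · E`.

What remains of RES after this file is the GEOMETRIC side: the Kummer bridge
`Hom_par(Γ₁(M), 𝔽_ℓ) → J₁(M)[ℓ]` (Hecke- and diamond-equivariant, injective) and the raw
Eichler–Shimura relation on `J₁(M)[ℓ]`.
-/

set_option autoImplicit false
set_option linter.unusedSectionVars false
set_option linter.style.haveILetI false

noncomputable section

namespace Fermat.Agent.S48.H948

open CongruenceSubgroup Matrix.SpecialLinearGroup ModularCurve.Period UpperHalfPlane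
open ModularFormClass
open scoped MatrixGroups ModularForm

open Fermat.Agent.S48.Top (Zbar IsEigen)

/-- `cl : Γ₁(M) → F` is a cohomological eigenclass attached to `(f, ε)` through `ψ : ℤ̄ → F`. -/
structure IsCohEigenclass {N : ℕ} [NeZero N] (ε : DirichletCharacter ℂ N)
    (f : CuspForm (Gamma1 N) 1) (M : ℕ) [NeZero M] {F : Type} [Field F] (ψ : Zbar →+* F)
    (cl : Additive (Gamma1 M) →+ F) : Prop where
  ne_zero : cl ≠ 0
  parabolic : IsParabolicHom (Gamma1 M) cl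
  finOrder : ∀ γ : Gamma1 M, IsOfFinOrder γ → cl (Additive.ofMul γ) = 0
  hecke : ∀ (p : ℕ) [Fact p.Prime] (hpM : ¬ p ∣ M),
    ∃ a : Zbar, (a : ℂ) = qCoeff f p ∧
      ∀ γ : Additive (Gamma1 M), Fermat.Agent.S48.H548.heckeHom1 p hpM F cl γ = ψ a * cl γ
  diamond : ∀ (p : ℕ) [Fact p.Prime] (_ : ¬ p ∣ M) (s : SL(2, ℤ)) (hs : s ∈ Gamma0 M),
    ((s 1 1 : ℤ) : ZMod M) = (p : ZMod M) →
    ∃ e : Zbar, (e : ℂ) = ε (p : ZMod N) ∧
      ∀ γ : Additive (Gamma1 M),
        (p : F) * Fermat.Agent.S48.H548.diaHom1 s hs F cl γ = ψ e * cl γ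

/-- **COH**: the cohomology side of RES. -/
def CohStatement : Prop :=
  ∀ (N : ℕ) [NeZero N] (ε : DirichletCharacter ℂ N) (f : CuspForm (Gamma1 N) 1),
    IsEigen N ε f →
    ∃ (M₀ : ℕ) (_ : NeZero M₀), N ∣ M₀ ∧ (∀ q : ℕ, q.Prime → q ∣ M₀ → q ∣ N) ∧
      ∀ (ℓ : ℕ) [Fact ℓ.Prime], ℓ ≠ 2 →
        haveI : NeZero (M₀ * ℓ) := ⟨Nat.mul_ne_zero (NeZero.ne M₀) (Fact.out : ℓ.Prime).ne_zero⟩
        ∀ (F : Type) [Field F] [CharP F ℓ] (ψ : Zbar →+* F),
          ∃ cl : Additive (Gamma1 (M₀ * ℓ)) →+ F, IsCohEigenclass ε f (M₀ * ℓ) ψ cl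

/-- Values of Dirichlet characters are algebraic integers. -/
theorem isIntegral_dirichlet948 {M : ℕ} [NeZero M] (χ : DirichletCharacter ℂ M) (x : ZMod M) :
    IsIntegral ℤ (χ x) := by
  by_cases hx : IsUnit x
  · obtain ⟨u, rfl⟩ := hx
    have h1 : (χ (u : ZMod M)) ^ (Fintype.card (ZMod M)ˣ) = 1 := by
      rw [← map_pow, ← Units.val_pow_eq_pow_val, pow_card_eq_one, Units.val_one, map_one]
    exact IsIntegral.of_pow (Fintype.card_pos) (h1 ▸ isIntegral_one)
  · rw [MulChar.map_nonunit χ hx]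
    exact isIntegral_zero

theorem cohStatement : CohStatement := by
  intro N _ ε f hf
  obtain ⟨M₀, hM₀, hNM, hprimes, h, hE, hint, hp⟩ :=
    Fermat.Agent.S48.H228.exists_integral_packet' N ε f hf
  refine ⟨M₀, hM₀, hNM, hprimes, ?_⟩
  intro ℓ hℓ hℓ2 F _ _ ψ
  have : NeZero ℓ := ⟨hℓ.out.ne_zero⟩
  -- the multiplier
  obtain ⟨ψ', H, hψ', hHneb, hHq⟩ := Fermat.Agent.S48.H796.exists_multiplier ℓ ψ hℓ2
  -- the data over `R = ℤ̄`
  set ε' : DirichletCharacter ℂ M₀ := DirichletCharacter.changeLevel hNM ε with hε'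
  let ι : Zbar →+* ℂ := algebraMap Zbar ℂ
  have hι : Function.Injective ι := Subtype.val_injective
  let εR : ZMod M₀ → Zbar := fun x => ⟨ε' x, isIntegral_dirichlet948 ε' x⟩
  let ψR : ZMod ℓ → Zbar := fun a => (hψ' a).choose
  have hψR : ∀ a, ι (ψR a) = ψ' a := fun a => (hψ' a).choose_spec.1
  have hψR2 : ∀ a : ZMod ℓ, ψ (ψR a) * ((a.val : ℕ) : F) = if a = 0 then 0 else 1 :=
    fun a => (hψ' a).choose_spec.2
  let c : ℕ → Zbar := fun n => ⟨qCoeff h n, hint n⟩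
  let e : ℕ → Zbar := fun n => (hHq n).choose
  have he : ∀ n, qCoeff (⇑H : ℍ → ℂ) n = ι (e n) := fun n => ((hHq n).choose_spec.1).symm
  have he2 : ∀ n, ψ (e n) = if n = 0 then 1 else 0 := fun n => (hHq n).choose_spec.2
  have hc1 : c 1 = 1 := Subtype.ext hE.1
  -- Teichmüller property
  have hteich : ∀ p : ℕ, p.Prime → ¬ p ∣ M₀ * ℓ → ψ (ψR (p : ZMod ℓ)) * (p : F) = 1 := by
    intro p _ hpM
    have hpℓ : ¬ ℓ ∣ p := fun hd => by
      have : p = ℓ := ((Nat.prime_dvd_prime_iff_eq hℓ.out ‹p.Prime›).mp hd).symm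
      exact hpM (this ▸ Dvd.intro_left M₀ rfl)
    have h0 : ((p : ℕ) : ZMod ℓ) ≠ 0 := fun h => hpℓ ((ZMod.natCast_eq_zero_iff p ℓ).mp h)
    have h1 := hψR2 (p : ZMod ℓ)
    rw [if_neg h0] at h1
    have h2 : ((((p : ℕ) : ZMod ℓ).val : ℕ) : F) = (p : F) := by
      rw [ZMod.val_natCast]
      exact (CharP.cast_eq_mod F ℓ p).symm
    rwa [h2] at h1
  -- the Hecke relations of `h`, over `ℤ̄` and then mod `ψ`
  have hrelR : ∀ p : ℕ, p.Prime → ¬ p ∣ M₀ * ℓ → ∀ n : ℕ,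
      c (p * n) + εR (p : ZMod M₀) * (if p ∣ n then c (n / p) else 0) = c p * c n := by
    intro p hpr hpM n
    have hpM₀ : ¬ p ∣ M₀ := fun hd => hpM (Dvd.dvd.mul_right hd ℓ)
    apply Subtype.ext
    have := hE.2 p hpr hpM₀ n
    by_cases hd : p ∣ n
    · rw [if_pos hd] at this ⊢
      exact this
    · rw [if_neg hd] at this ⊢
      simpa using this
  have hrel : ∀ p : ℕ, p.Prime → ¬ p ∣ M₀ * ℓ → ∀ n : ℕ,
      ψ (c (p * n)) + ψ (εR (p : ZMod M₀)) * (if p ∣ n then ψ (c (n / p)) else 0) =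
        ψ (c p) * ψ (c n) := by
    intro p hpr hpM n
    have := congrArg ψ (hrelR p hpr hpM n)
    rw [map_add, map_mul, map_mul] at this
    rw [← this]
    by_cases hd : p ∣ n
    · rw [if_pos hd, if_pos hd]
    · rw [if_neg hd, if_neg hd, map_zero]
  -- nebentypus of `h` and `H`
  have hh : Fermat.Agent.S48.H548.HasNeb (fun x => ε' x) (⇑h) 1 := fun γ hγ =>
    Fermat.Agent.S48.H848.nebentypus_of_hecke_SL ε' h hE.2 γ hγ
  have hHn : Fermat.Agent.S48.H548.HasNeb (fun x => ψ' x) (⇑H) 1 := fun γ hγ => hHneb γ hγ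
  obtain ⟨cl, hcl0, hpar, hfin, hT, -, hD⟩ :=
    Fermat.Agent.S48.H548.exists_eigenclass_mul (N := M₀) (L := ℓ) (R := Zbar) (k := F) ℓ
      (ι := ι) (φ := ψ) hι (fun x => ε' x) εR (fun _ => rfl) (fun x => ψ' x) ψR hψR hteich
      (fun p => ψ (c p)) h hh c (fun _ => rfl) ⟨1, by rw [hc1, map_one]; exact one_ne_zero⟩
      hrel H hHn e he (by rw [he2, if_pos rfl])
      (fun n hn => by rw [he2, if_neg (by omega)])
  refine ⟨cl, hcl0, hpar, hfin, ?_, ?_⟩
  · intro p hpf hpM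
    have hpN : ¬ p ∣ N := fun hd => hpM (Dvd.dvd.mul_right (hd.trans hNM) ℓ)
    exact ⟨c p, hp p hpf.out hpN, fun γ => hT p hpM γ⟩
  · intro p hpf hpM s hs hsp
    have hpM₀ : ¬ p ∣ M₀ := fun hd => hpM (Dvd.dvd.mul_right hd ℓ)
    refine ⟨εR (p : ZMod M₀), ?_, fun γ => hD p hpM s hs hsp γ⟩
    have hc : IsCoprime ((p : ℕ) : ℤ) ((M₀ : ℕ) : ℤ) := by
      rw [Nat.isCoprime_iff_coprime]
      exact (Nat.Prime.coprime_iff_not_dvd hpf.out).mpr hpM₀
    have := DirichletCharacter.changeLevel_eq_cast_of_dvd' ε hNM hc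
    simpa using this

end Fermat.Agent.S48.H948

end
end
-- ===== PACK-END S48/H948/CohAsm.lean

-- ===== PACK-BEGIN S48/H451/Eigenclass1.lean
section



/-!
# S48 / RES (Tower A1): input (E) `Res.Eigenclass1Statement` (helper451)

`eigenclass1 : Res.Eigenclass1Statement`, UNCONDITIONAL: a pure adapter from the landed
cohomology side `H948.cohStatement` (PACKET + P2-EIS + CHI0 + M4a1).

Choices: `B := 2`, `M := M₀ * ℓ`, `a p`, `e p` := the eigenvalues provided by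
`H948.IsCohEigenclass.hecke` / `.diamond` at `s := H548.sigmaP M p`.
-/

set_option autoImplicit false

noncomputable section

open CongruenceSubgroup ModularCurve.Period
open scoped MatrixGroups

namespace Fermat.Agent.S48.H451

open Fermat.Agent.S48.Top Fermat.Agent.S48.Res Fermat.Agent.S48.H548 Fermat.Agent.S48.H948

/-- A prime not dividing `N * ℓ` does not divide `M₀ * ℓ` when the primes of `M₀` divide `N`. -/
theorem not_dvd_mul_of_primes451 {N M₀ ℓ p : ℕ} (hp : p.Prime)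
    (hprimes : ∀ q : ℕ, q.Prime → q ∣ M₀ → q ∣ N) (h : ¬ p ∣ N * ℓ) : ¬ p ∣ M₀ * ℓ := by
  intro hd
  rcases (Nat.Prime.dvd_mul hp).mp hd with h1 | h1
  · exact h (Dvd.dvd.mul_right (hprimes p hp h1) ℓ)
  · exact h (Dvd.dvd.mul_left h1 N)

/-- **(E)** `Res.Eigenclass1Statement`, from the landed cohomology side. -/
theorem eigenclass1 : Eigenclass1Statement := by
  intro N _ ε f hf
  obtain ⟨M₀, hM₀, hNM, hprimes, hcoh⟩ := cohStatement N ε f hf
  refine ⟨2, ?_⟩
  intro ℓ hℓ hBℓ F _ _ _ ψ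
  haveI : Fact ℓ.Prime := ⟨hℓ⟩
  have hℓ2 : ℓ ≠ 2 := by omega
  haveI hM : NeZero (M₀ * ℓ) := ⟨Nat.mul_ne_zero (NeZero.ne M₀) hℓ.ne_zero⟩
  obtain ⟨cl, hcl⟩ := hcoh ℓ hℓ2 F ψ
  classical
  -- the eigenvalues, by choice
  let a : ℕ → Zbar := fun p =>
    if h : p.Prime ∧ ¬ p ∣ M₀ * ℓ then
      haveI : Fact p.Prime := ⟨h.1⟩
      (hcl.hecke p h.2).choose
    else 0
  let e : ℕ → Zbar := fun p =>
    if h : p.Prime ∧ ¬ p ∣ M₀ * ℓ then
      haveI : Fact p.Prime := ⟨h.1⟩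
      (hcl.diamond p h.2 (sigmaP (M₀ * ℓ) p h.2) (sigmaP_mem h.2) (sigmaP_lower h.2)).choose
    else 0
  have ha : ∀ (p : ℕ) [hp : Fact p.Prime] (hpM : ¬ p ∣ M₀ * ℓ),
      ((a p : Zbar) : ℂ) = ModularFormClass.qCoeff f p ∧
        ∀ γ : Additive (Gamma1 (M₀ * ℓ)), heckeHom1 p hpM F cl γ = ψ (a p) * cl γ := by
    intro p hp hpM
    have h : p.Prime ∧ ¬ p ∣ M₀ * ℓ := ⟨hp.out, hpM⟩
    have hap : a p = (hcl.hecke p hpM).choose := dif_pos h
    rw [hap]
    exact (hcl.hecke p hpM).choose_spec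
  have he : ∀ (p : ℕ) [hp : Fact p.Prime] (hpM : ¬ p ∣ M₀ * ℓ),
      ((e p : Zbar) : ℂ) = ε (p : ZMod N) ∧
        ∀ γ : Additive (Gamma1 (M₀ * ℓ)),
          (p : F) * diaHom1 (sigmaP (M₀ * ℓ) p hpM) (sigmaP_mem hpM) F cl γ = ψ (e p) * cl γ := by
    intro p hp hpM
    have h : p.Prime ∧ ¬ p ∣ M₀ * ℓ := ⟨hp.out, hpM⟩
    have hep : e p = (hcl.diamond p hpM (sigmaP (M₀ * ℓ) p hpM) (sigmaP_mem hpM)
        (sigmaP_lower hpM)).choose := dif_pos h
    rw [hep]
    exact (hcl.diamond p hpM (sigmaP (M₀ * ℓ) p hpM) (sigmaP_mem hpM)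
        (sigmaP_lower hpM)).choose_spec
  refine ⟨M₀ * ℓ, hM, a, e, ?_, ?_, cl, hcl.ne_zero, ⟨hcl.parabolic, hcl.finOrder⟩, ?_⟩
  · intro p hp hd
    rcases (Nat.Prime.dvd_mul hp).mp hd with h1 | h1
    · exact Dvd.dvd.mul_right (hprimes p hp h1) ℓ
    · exact Dvd.dvd.mul_left h1 N
  · intro p hp hpN
    haveI : Fact p.Prime := ⟨hp⟩
    have hpM := not_dvd_mul_of_primes451 hp hprimes hpN
    exact ⟨(ha p hpM).1, (he p hpM).1⟩
  · intro p hp hpM _ γ
    exact ⟨(ha p hpM).2 γ, (he p hpM).2 γ⟩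

end Fermat.Agent.S48.H451

end
end
-- ===== PACK-END S48/H451/Eigenclass1.lean

-- ===== PACK-BEGIN S48/H848/DiaMain.lean
section





/-!
# S48 / RES (Tower A1) — piece FF-DIA, concrete part (helper848)

`exists_isDiamond_of_avatar` : existence of the diamond automorphisms `δ_d` of `L · F1(M)`
(`F1.IsDiamond`), for every field `L ⊆ ℂ`, from an analytic avatar of the division values `P_a`
(interface `PAvatar`: convergent `q`-expansion `divGenC ℂ M a` and the transformation law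
`P_a ∘ γ = P_{a γ₀₀}` under `Γ₀(M)`).
-/

set_option autoImplicit false

noncomputable section

open ModularCurve HahnSeries UpperHalfPlane Fermat.Agent.S24 IntermediateField CongruenceSubgroup
open scoped MatrixGroups

namespace Fermat.Agent.S48.H848

open Fermat.Agent.S48.F1

/-- The interface for the analytic avatar of the division values `P_a`. -/
structure PAvatar (M : ℕ) (pFun : ZMod M → ℍ → ℂ) : Prop where
  infExp : ∀ a : ZMod M, a ≠ 0 → InfExp 1 (pFun a) (divGenC ℂ M a)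
  smul : ∀ g : SL(2, ℤ), g ∈ Gamma0 M → ∀ a : ZMod M, a ≠ 0 → ∀ z : ℍ,
    pFun a (g • z) = pFun (a * ((g 0 0 : ℤ) : ZMod M)) z

/-! ### Base change of an adjoined field -/

section Lbc

variable (L : Type*) [Field L] [Algebra ℚ L]

theorem coeffEmb_mem_adjoin_image (S : Set (LaurentSeries ℚ)) (x : LaurentSeries ℚ)
    (hx : x ∈ IntermediateField.adjoin ℚ S) :
    coeffEmb L x ∈ IntermediateField.adjoin L (⇑(coeffEmb L) '' S) := by
  induction hx using IntermediateField.adjoin_induction with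
  | mem x hx => exact IntermediateField.subset_adjoin L _ ⟨x, hx, rfl⟩
  | algebraMap q =>
      rw [coeffEmb_algebraMap]
      exact IntermediateField.algebraMap_mem _ _
  | add x y hx hy ihx ihy =>
      rw [map_add]
      exact add_mem ihx ihy
  | inv x hx ihx =>
      rw [map_inv₀]
      exact inv_mem ihx
  | mul x y hx hy ihx ihy =>
      rw [map_mul]
      exact mul_mem ihx ihy

theorem lbc_adjoin_eq (S : Set (LaurentSeries ℚ)) :
    laurentBaseChange L (IntermediateField.adjoin ℚ S) =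
      IntermediateField.adjoin L (⇑(coeffEmb L) '' S) := by
  apply le_antisymm
  · unfold laurentBaseChange
    rw [IntermediateField.adjoin_le_iff]
    rintro y ⟨x, hx, rfl⟩
    exact coeffEmb_mem_adjoin_image L S x hx
  · rw [IntermediateField.adjoin_le_iff]
    rintro y ⟨x, hx, rfl⟩
    exact coeffEmb_mem_laurentBaseChange L (IntermediateField.subset_adjoin ℚ S hx)

end Lbc

/-! ### The generators and their avatars -/

section Gens

variable (M : ℕ) [NeZero M]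

/-- Index set of the generators of `F1 M`: divisors `d ∣ M` and classes `a ≠ 0`. -/
abbrev DiaIdx : Type := {d : ℕ // d ∣ M} ⊕ {a : ZMod M // a ≠ 0}

theorem diaIdx_pos (d : {d : ℕ // d ∣ M}) : 0 < d.1 :=
  Nat.pos_of_dvd_of_pos d.2 (Nat.pos_of_ne_zero (NeZero.ne M))

/-- The generators of `F1 M` over `ℚ`. -/
def diaGenQ : DiaIdx M → LaurentSeries ℚ
  | Sum.inl d =>
      haveI : NeZero d.1 := ⟨(diaIdx_pos M d).ne'⟩
      qExpand ℚ d.1 jq
  | Sum.inr a => divGen M a.1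

theorem range_diaGenQ : Set.range (diaGenQ M) = divisorExpansions M ∪ divGens M := by
  ext x
  constructor
  · rintro ⟨i, rfl⟩
    rcases i with d | a
    · exact Or.inl ⟨d.1, ⟨(diaIdx_pos M d).ne'⟩, d.2, rfl⟩
    · exact Or.inr ⟨a.1, a.2, rfl⟩
  · rintro (⟨d, hne, hd, rfl⟩ | ⟨a, ha, rfl⟩)
    · exact ⟨Sum.inl ⟨d, hd⟩, rfl⟩
    · exact ⟨Sum.inr ⟨a, ha⟩, rfl⟩

variable (L : Type*) [Field L] [Algebra ℚ L]

/-- The generators of `L · F1 M` over `L`. -/
def diaGen : DiaIdx M → LaurentSeries L := fun i => coeffEmb L (diaGenQ M i)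

theorem range_diaGen : Set.range (diaGen M L) = ⇑(coeffEmb L) '' (divisorExpansions M ∪ divGens M) := by
  rw [← range_diaGenQ, ← Set.range_comp]
  rfl

/-- `L · F1 M` is generated over `L` by the generators. -/
theorem F1L_eq_adjoin : F1L L M = IntermediateField.adjoin L (Set.range (diaGen M L)) := by
  rw [range_diaGen]
  exact lbc_adjoin_eq L _

/-- The avatars of the generators. -/
def diaAv (pFun : ZMod M → ℍ → ℂ) : DiaIdx M → ℍ → ℂ
  | Sum.inl d => H997.Jd d.1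
  | Sum.inr a => pFun a.1

theorem coeffMap_coeffEmb_eq (ι : L →+* ℂ) (x : LaurentSeries ℚ) :
    coeffMap ι (coeffEmb L x) = coeffEmb ℂ x := by
  rw [coeffEmb, coeffMap_coeffMap]
  exact coeffMap_congr (Subsingleton.elim _ _) x

theorem infExp_diaAv (ι : L →+* ℂ) {pFun : ZMod M → ℍ → ℂ} (hp : PAvatar M pFun)
    (i : DiaIdx M) : InfExp 1 (diaAv M pFun i) (coeffMap ι (diaGen M L i)) := by
  rw [diaGen, coeffMap_coeffEmb_eq]
  rcases i with d | a
  · have hd := diaIdx_pos M d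
    have : NeZero d.1 := ⟨hd.ne'⟩
    have h := inf_J_mul_exp H997.infExp_jFun hd one_pos
    have h1 : coeffEmb ℂ (diaGenQ M (Sum.inl d)) = qExpand ℂ (d.1 * 1) infJq := by
      show coeffEmb ℂ (qExpand ℚ d.1 jq) = _
      rw [← qExpand_coeffEmb]
      exact qExpand_congr (mul_one d.1).symm _
    rw [h1]
    exact h
  · show InfExp 1 (pFun a.1) (coeffEmb ℂ (divGen M a.1))
    have h1 : coeffEmb ℂ (divGen M a.1) = divGenC ℂ M a.1 := by
      rw [← divGenC_rat]
      exact coeffMap_divGenC (algebraMap ℚ ℂ) M a.1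
    rw [h1]
    exact hp.infExp a.1 a.2

/-- Multiplication by a unit as a permutation of the nonzero classes. -/
def unitPerm (d : (ZMod M)ˣ) : Equiv.Perm {a : ZMod M // a ≠ 0} where
  toFun a := ⟨(d : ZMod M) * a.1, unit_mul_ne_zero d a.2⟩
  invFun a := ⟨((d⁻¹ : (ZMod M)ˣ) : ZMod M) * a.1, unit_mul_ne_zero d⁻¹ a.2⟩
  left_inv a := by
    apply Subtype.ext
    show ((d⁻¹ : (ZMod M)ˣ) : ZMod M) * ((d : ZMod M) * a.1) = a.1
    rw [← mul_assoc, ← Units.val_mul, inv_mul_cancel, Units.val_one, one_mul]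
  right_inv a := by
    apply Subtype.ext
    show (d : ZMod M) * (((d⁻¹ : (ZMod M)ˣ) : ZMod M) * a.1) = a.1
    rw [← mul_assoc, ← Units.val_mul, mul_inv_cancel, Units.val_one, one_mul]

/-- The permutation of the generators attached to a unit `d`. -/
def diaPerm (d : (ZMod M)ˣ) : Equiv.Perm (DiaIdx M) :=
  Equiv.sumCongr (Equiv.refl _) (unitPerm M d)

/-- An element of `Γ₀(M)` with upper left entry `≡ d`. -/
theorem exists_Gamma0_of_unit (d : (ZMod M)ˣ) :
    ∃ g : SL(2, ℤ), g ∈ Gamma0 M ∧ ((g 0 0 : ℤ) : ZMod M) = (d : ZMod M) := by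
  have hcop : Nat.Coprime (d : ZMod M).val M := ZMod.val_coe_unit_coprime d
  have hcop' : IsCoprime (((d : ZMod M).val : ℕ) : ℤ) (M : ℤ) :=
    Nat.isCoprime_iff_coprime.mpr hcop
  obtain ⟨u, v, huv⟩ := hcop'
  obtain ⟨g, h00, -, h10, -⟩ := exists_SL2_848 (((d : ZMod M).val : ℕ) : ℤ) (-v) (M : ℤ) u
    (by linear_combination huv)
  refine ⟨g, ?_, ?_⟩
  · rw [Gamma0_mem, h10]
    simp
  · rw [h00]
    simp

theorem diaAv_smul {pFun : ZMod M → ℍ → ℂ} (hp : PAvatar M pFun) (d : (ZMod M)ˣ)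
    (g : SL(2, ℤ)) (hg : g ∈ Gamma0 M) (hgd : ((g 0 0 : ℤ) : ZMod M) = (d : ZMod M))
    (i : DiaIdx M) (z : ℍ) :
    diaAv M pFun i (g • z) = diaAv M pFun (diaPerm M d i) z := by
  rcases i with e | a
  · exact H997.Jd_inv M e.1 e.2 g hg z
  · show pFun a.1 (g • z) = pFun ((d : ZMod M) * a.1) z
    rw [hp.smul g hg a.1 a.2 z, hgd, mul_comm]

end Gens

/-! ### The diamond automorphisms -/

section Main

/-- `exists_algEquiv_of_avatars` for an intermediate field given as `L(g)`. -/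
theorem exists_algEquiv_of_avatars_of_eq {L : Type*} [Field L] {I : Type*} (ι : L →+* ℂ)
    (g : I → LaurentSeries L) (A : I → ℍ → ℂ)
    (hA : ∀ i, InfExp 1 (A i) (coeffMap ι (g i))) (π : Equiv.Perm I) (γ : Equiv.Perm ℍ)
    (hγ : ∀ i z, A i (γ z) = A (π i) z)
    (K : IntermediateField L (LaurentSeries L))
    (hK : K = IntermediateField.adjoin L (Set.range g)) :
    ∃ σ : K ≃ₐ[L] K, ∀ (i : I) (x y : K), (x : LaurentSeries L) = g i →
      (y : LaurentSeries L) = g (π i) → σ x = y := by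
  subst hK
  obtain ⟨σ, hσ⟩ := exists_algEquiv_of_avatars ι g A hA π γ hγ
  refine ⟨σ, fun i x y hx hy => ?_⟩
  have h1 : x = genAdj g i := Subtype.ext hx
  have h2 : y = genAdj g (π i) := Subtype.ext hy
  rw [h1, h2, hσ]

variable (M : ℕ) [NeZero M] (L : Type*) [Field L] [Algebra ℚ L]

omit [NeZero M] in
/-- An automorphism of `L · F1(M)` fixing the generators `j(q^d)` fixes `L · F0(M)`. -/
theorem fixes_full_of_fixes_gens (σ : F1L L M ≃ₐ[L] F1L L M)
    (hσ : ∀ (d : ℕ) [NeZero d], d ∣ M → ∀ x : F1L L M,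
      (x : LaurentSeries L) = coeffEmb L (qExpand ℚ d jq) → σ x = x)
    (x : F1L L M)
    (hx : (x : LaurentSeries L) ∈ laurentBaseChange L (modularFunctionFieldFull M)) :
    σ x = x := by
  have hle : laurentBaseChange L (modularFunctionFieldFull M) ≤ F1L L M :=
    lbc_mono L (full_le_F1 M)
  have key : ((σ : F1L L M ≃ₐ[L] F1L L M) : F1L L M →+* F1L L M).comp
      (IntermediateField.inclusion hle).toRingHom
      = (IntermediateField.inclusion hle).toRingHom := by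
    refine lbc_ringHom_ext (S := divisorExpansions M) _ _ ?_ ?_
    · intro a
      show σ ((IntermediateField.inclusion hle) (algebraMap L _ a))
        = (IntermediateField.inclusion hle) (algebraMap L _ a)
      rw [AlgHom.commutes, σ.commutes]
    · rintro z ⟨dd, hne, hdd, rfl⟩
      exact hσ dd hdd _ (IntermediateField.coe_inclusion hle _)
  have h1 := congrArg (fun f : _ →+* F1L L M => f ⟨(x : LaurentSeries L), hx⟩) key
  have hx' : (IntermediateField.inclusion hle) ⟨(x : LaurentSeries L), hx⟩ = x :=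
    Subtype.ext (IntermediateField.coe_inclusion hle _)
  simp only [RingHom.comp_apply] at h1
  have h2 : σ ((IntermediateField.inclusion hle) ⟨(x : LaurentSeries L), hx⟩)
      = (IntermediateField.inclusion hle) ⟨(x : LaurentSeries L), hx⟩ := h1
  rwa [hx'] at h2

/-- **FF-DIA** from an avatar of the `P_a`: for every unit `d` there is a diamond automorphism
`δ_d` of `L · F1(M)`. -/
theorem exists_isDiamond_of_avatar (ι : L →+* ℂ) {pFun : ZMod M → ℍ → ℂ}
    (hp : PAvatar M pFun) (d : (ZMod M)ˣ) :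
    ∃ σ : F1L L M ≃ₐ[L] F1L L M, IsDiamond L M d σ := by
  obtain ⟨g, hg, hgd⟩ := exists_Gamma0_of_unit M d
  obtain ⟨σ, hσ⟩ := exists_algEquiv_of_avatars_of_eq ι (diaGen M L) (diaAv M pFun)
    (infExp_diaAv M L ι hp) (diaPerm M d) (MulAction.toPerm g)
    (fun i z => diaAv_smul M hp d g hg hgd i z) (F1L L M) (F1L_eq_adjoin M L)
  refine ⟨σ, ?_, ?_⟩
  · refine fixes_full_of_fixes_gens M L σ ?_
    intro dd _ hdd x hx
    exact hσ (Sum.inl ⟨dd, hdd⟩) x x hx hx
  · intro a x y ha hx hy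
    exact hσ (Sum.inr ⟨a, ha⟩) x y hx hy

end Main

end Fermat.Agent.S48.H848

end
end
-- ===== PACK-END S48/H848/DiaMain.lean

-- ===== PACK-BEGIN S48/H848/DiaFinal.lean
section



/-!
# S48 / RES (Tower A1) — piece FF-DIA (helper848): the diamond automorphisms exist

`exists_isDiamond M d : ∃ σ, F1.IsDiamond Qbar M d σ` for every unit `d` mod `M`, hence
`isDiamond_diamondAut_848 : F1.IsDiamond Qbar M d (F1.diamondAut Qbar M d)` unconditionally.
More generally `exists_isDiamond_of_emb` for every field `L` with an embedding into `ℂ`.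

Inputs: the generic transport `exists_isDiamond_of_avatar` (`DiaMain`) and the analytic avatar
`H76.pFun` of the division values (`H76.Avatar`: `infExp_pFun`, `compSL_pFun`).
-/

set_option autoImplicit false

noncomputable section

open ModularCurve UpperHalfPlane Fermat.Agent.S24 CongruenceSubgroup
open scoped MatrixGroups

namespace Fermat.Agent.S48.H848

open Fermat.Agent.S48.F1

/-- The Eisenstein avatar `H76.pFun` satisfies the avatar interface. -/
theorem pAvatar_pFun (M : ℕ) [NeZero M] : PAvatar M (H76.pFun M) where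
  infExp _ ha := H76.infExp_pFun M ha
  smul g hg a _ z := by
    have h := congrFun (H76.compSL_pFun M a g hg) z
    rwa [H997.compSL_apply] at h

/-- **FF-DIA** over any field `L` embedded in `ℂ`. -/
theorem exists_isDiamond_of_emb (M : ℕ) [NeZero M] (L : Type*) [Field L] [Algebra ℚ L]
    (ι : L →+* ℂ) (d : (ZMod M)ˣ) :
    ∃ σ : F1L L M ≃ₐ[L] F1L L M, IsDiamond L M d σ :=
  exists_isDiamond_of_avatar M L ι (pAvatar_pFun M) d

/-- A fixed embedding `Qbar → ℂ`. -/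
def qbarEmb848 : AlgebraicClosure ℚ →+* ℂ :=
  letI : Algebra ℚ (AlgebraicClosure ℚ) := AlgebraicClosure.instAlgebra ℚ
  ((IsAlgClosed.lift : AlgebraicClosure ℚ →ₐ[ℚ] ℂ) : AlgebraicClosure ℚ →+* ℂ)

/-- **FF-DIA**: for every unit `d` there is a diamond automorphism `δ_d` of `Qbar · F1(M)`. -/
theorem exists_isDiamond (M : ℕ) [NeZero M] (d : (ZMod M)ˣ) :
    ∃ σ : F1L (AlgebraicClosure ℚ) M ≃ₐ[AlgebraicClosure ℚ] F1L (AlgebraicClosure ℚ) M,
      IsDiamond (AlgebraicClosure ℚ) M d σ :=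
  exists_isDiamond_of_emb M (AlgebraicClosure ℚ) qbarEmb848 d

/-- The chosen `F1.diamondAut` is a diamond automorphism (unconditionally). -/
theorem isDiamond_diamondAut_848 (M : ℕ) [NeZero M] (d : (ZMod M)ˣ) :
    IsDiamond (AlgebraicClosure ℚ) M d (diamondAut (AlgebraicClosure ℚ) M d) :=
  isDiamond_diamondAut (AlgebraicClosure ℚ) M d (exists_isDiamond M d)

/-- The action of `δ_d` on the generators `P_a`. -/
theorem diamondAut_divGenL (M : ℕ) [NeZero M] (d : (ZMod M)ˣ) (a : ZMod M) (ha : a ≠ 0) :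
    diamondAut (AlgebraicClosure ℚ) M d (divGenL (AlgebraicClosure ℚ) M a ha) =
      divGenL (AlgebraicClosure ℚ) M ((d : ZMod M) * a) (unit_mul_ne_zero d ha) :=
  (isDiamond_iff.mp (isDiamond_diamondAut_848 M d)).2 a ha

/-- `δ_d` fixes `Qbar · F0(M)`. -/
theorem diamondAut_fixes_full (M : ℕ) [NeZero M] (d : (ZMod M)ˣ)
    (x : F1L (AlgebraicClosure ℚ) M)
    (hx : (x : LaurentSeries (AlgebraicClosure ℚ)) ∈
      laurentBaseChange (AlgebraicClosure ℚ) (modularFunctionFieldFull M)) :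
    diamondAut (AlgebraicClosure ℚ) M d x = x :=
  (isDiamond_diamondAut_848 M d).1 x hx

end Fermat.Agent.S48.H848

end
end
-- ===== PACK-END S48/H848/DiaFinal.lean

-- ===== PACK-BEGIN S48/H882/K3Gen.lean
section





/-!
# Tower A1 / A1-KUM, piece K3 (descent `ℂ → ℚ̄`), GENERIC in `(Γ, F₀)` — TOP (helper882)

Generic port of the landed `S29/M4b/K3/{Basic,Top}.lean` (helper42) from `(Γ₀(N), F₀(N))` to ANY
subgroup `Γ ≤ SL(2,ℤ)` of finite index containing `T` and ANY field `F₀ ⊆ ℚ((q))` with `jq ∈ F₀`.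

Interface (all `Prop`s about `q`-expansions at `i∞`; characters are `χ : Γ →* ℂˣ`, as in
`S48.H332.GHasChar` and `S29.H942.exists_kummerChar`):

* `HasCharG Γ χ U`      : `U (γ τ) = χ γ * U τ`;
* `IsTwistedG Γ p χ U`  : `U` holomorphic, `≠ 0`, of character `χ`, `U ^ p` good for `Γ`;
* `RealisesG Γ F₀ u G`  : `G` good for `Γ`, `qexp G = ι u`, `u ∈ ℚ̄·F₀`;
* `MeroG Γ F₀`          : **MERO** (file `GenField.lean`; proved in `MeroG.lean` from the degree);
* `GenData Γ F₀ S`      : **GEN** (file `GenField.lean`);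
* `FinG F₀ p U`         : **FIN** — finiteness of the `Aut(ℂ/ℚ̄)`-orbit of the class of
  `qexp (U ^ p)` modulo `p`-th powers (proved in `K3Fin.lean` from DTO + DFROM + MERO).

Main result `exists_realised_isTwistedG` : MERO + GEN + FIN ⟹ for a twisted function `U` of a
character `χ` with `χ T = 1` there are `U'` twisted of the SAME character and `u ∈ ℚ̄·F₀` with
`U' ^ p` realising `u`.
-/

set_option autoImplicit false
set_option linter.style.haveILetI false

noncomputable section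

open UpperHalfPlane ModularGroup CongruenceSubgroup Polynomial ModularCurve AlgebraicCurve
open scoped MatrixGroups Manifold Modular Real

namespace Fermat.Agent.S48.H882

open Fermat.Agent.S24 Fermat.Agent.S24.H648 Fermat.Agent.S24.H708 Fermat.Agent.S24.Deg457
open Fermat.Agent.S24.H624

/-! ### Interface definitions -/

section Defs

variable (Γ : Subgroup SL(2, ℤ)) (F₀ : IntermediateField ℚ (LaurentSeries ℚ))

/-- `U` transforms under `Γ` by the character `χ`. -/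
def HasCharG (χ : Γ →* ℂˣ) (U : ℍ → ℂ) : Prop :=
  ∀ (γ : Γ) (τ : ℍ), U ((γ : SL(2, ℤ)) • τ) = ((χ γ : ℂˣ) : ℂ) * U τ

/-- `U` is a twisted function of character `χ` and exponent `p`: holomorphic on `ℍ`, not
identically zero, of character `χ`, with `U ^ p` good for `Γ`. -/
structure IsTwistedG (p : ℕ) (χ : Γ →* ℂˣ) (U : ℍ → ℂ) : Prop where
  mdiff : MDifferentiable 𝓘(ℂ) 𝓘(ℂ) U
  ne_zero : ∃ τ : ℍ, U τ ≠ 0
  hasChar : HasCharG Γ χ U
  pow_good : GoodG Γ (fun τ => U τ ^ p)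

/-- `G` realises `u ∈ ℚ̄·F₀`: `G` is good for `Γ` and its `q`-expansion at `i∞` is `u` (with
coefficients embedded by `Deg457.iotaC`). -/
def RealisesG (u : laurentBaseChange Kbar F₀) (G : ℍ → ℂ) : Prop :=
  GoodG Γ G ∧ qexpFun 1 G = coeffMap iotaC ((u : laurentBaseChange Kbar F₀) : LaurentSeries Kbar)

/-- **FIN** for the function `U`: the `Aut(ℂ/ℚ̄)`-orbit of the class of `qexp (U ^ p)` in
`(ℂ·F₀)ˣ / (ℂ·F₀)ˣ ^ p` is finite (hypothesis `horb` of `S29.H152.desc_main`). -/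
def FinG (p : ℕ) (U : ℍ → ℂ) : Prop :=
  letI : Algebra Kbar ℂ := iotaC.toAlgebra
  ∃ T : Set (LaurentSeries ℂ), T.Finite ∧ ∀ σ : ℂ ≃ₐ[Kbar] ℂ, ∃ t ∈ T,
    ∃ u ∈ laurentBaseChange ℂ F₀, u ≠ 0 ∧
      coeffMap (σ : ℂ →+* ℂ) (qexpFun 1 (fun τ => U τ ^ p)) = t * u ^ p

end Defs

/-! ### Basic lemmas -/

section Basic

variable {Γ : Subgroup SL(2, ℤ)} {p : ℕ}

theorem order_jq_eq : jq.order = -1 := by
  have hne : jq ≠ 0 := by
    intro h
    have h1 := coeff_jq_neg_one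
    rw [h, HahnSeries.coeff_zero] at h1
    exact zero_ne_one h1
  refine le_antisymm (HahnSeries.order_le_of_coeff_ne_zero ?_) ?_
  · rw [coeff_jq_neg_one]
    exact one_ne_zero
  · by_contra hlt
    rw [not_le] at hlt
    refine HahnSeries.coeff_order_eq_zero.not.mpr hne ?_
    exact coeff_jq_of_lt hlt

/-- A function of a character trivial on `T` is `1`-periodic. -/
theorem periodic_of_hasCharG (hT : ModularGroup.T ∈ Γ) {χ : Γ →* ℂˣ}
    (hχT : χ ⟨ModularGroup.T, hT⟩ = 1) {U : ℍ → ℂ} (hU : HasCharG Γ χ U) :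
    Function.Periodic (U ∘ ofComplex) (1 : ℝ) := by
  have hTτ : ∀ τ : ℍ, U (ModularGroup.T • τ) = U τ := by
    intro τ
    have h := hU ⟨ModularGroup.T, hT⟩ τ
    rw [hχT, Units.val_one, one_mul] at h
    exact h
  intro w
  by_cases hw : 0 < Complex.im w
  · have hw' : 0 < Complex.im (w + ((1 : ℝ) : ℂ)) := by simpa using hw
    simp only [Function.comp_apply, ofComplex_apply_of_im_pos hw', ofComplex_apply_of_im_pos hw]
    rw [← hTτ ⟨w, hw⟩]
    congr 1
    apply UpperHalfPlane.ext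
    rw [UpperHalfPlane.modular_T_smul, UpperHalfPlane.coe_vadd]
    simp [add_comm]
  · have hw0 : Complex.im w ≤ 0 := not_lt.mp hw
    have hw' : Complex.im (w + ((1 : ℝ) : ℂ)) ≤ 0 := by simpa using hw0
    simp only [Function.comp_apply]
    rw [ofComplex_apply_of_im_nonpos hw', ofComplex_apply_of_im_nonpos hw0]

/-- If `U ^ p` (`p ≠ 0`) has at most exponential growth, so has `U`. -/
theorem expGrowth_of_pow_expGrowth (hp : p ≠ 0) {U : ℍ → ℂ}
    (h : ExpGrowth (fun τ => U τ ^ p)) : ExpGrowth U := by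
  obtain ⟨C, m, hC⟩ := h
  refine ⟨1 + |C|, m, fun τ hτ => ?_⟩
  have h1 := hC τ hτ
  rw [norm_pow] at h1
  have hexp : (1 : ℝ) ≤ Real.exp (2 * Real.pi * m * τ.im) := by
    apply Real.one_le_exp
    have := Real.pi_pos
    have := τ.im_pos
    positivity
  by_cases hle : ‖U τ‖ ≤ 1
  · calc ‖U τ‖ ≤ 1 := hle
      _ ≤ (1 + |C|) * 1 := by have := abs_nonneg C; linarith
      _ ≤ (1 + |C|) * Real.exp (2 * Real.pi * m * τ.im) := by
          apply mul_le_mul_of_nonneg_left hexp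
          have := abs_nonneg C; linarith
  · have hgt : 1 ≤ ‖U τ‖ := (not_le.mp hle).le
    have h2 : ‖U τ‖ ≤ ‖U τ‖ ^ p := le_self_pow₀ hgt hp
    calc ‖U τ‖ ≤ ‖U τ‖ ^ p := h2
      _ ≤ C * Real.exp (2 * Real.pi * m * τ.im) := h1
      _ ≤ (1 + |C|) * Real.exp (2 * Real.pi * m * τ.im) := by
          apply mul_le_mul_of_nonneg_right _ (Real.exp_pos _).le
          have := le_abs_self C; linarith

/-- A holomorphic `Γ`-invariant function one of whose powers is good is good. -/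
theorem goodG_of_pow_goodG (hp : p ≠ 0) {W : ℍ → ℂ} (hW : MDifferentiable 𝓘(ℂ) 𝓘(ℂ) W)
    (hinv : ∀ γ ∈ Γ, ∀ τ : ℍ, W (γ • τ) = W τ) (hpow : GoodG Γ (fun τ => W τ ^ p)) :
    GoodG Γ W :=
  ⟨hW, hinv, fun g => expGrowth_of_pow_expGrowth hp (hpow.2.2 g)⟩

/-- **K3a**: a twisted function of a character trivial on `T` is meromorphic at `i∞` in `q`. -/
theorem isMerInf_of_isTwistedG (hp : p ≠ 0) (hT : ModularGroup.T ∈ Γ) {χ : Γ →* ℂˣ}
    (hχT : χ ⟨ModularGroup.T, hT⟩ = 1) {U : ℍ → ℂ} (hU : IsTwistedG Γ p χ U) :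
    IsMerInf 1 U := by
  refine ⟨hU.mdiff, ?_, ?_⟩
  · have := periodic_of_hasCharG hT hχT hU.hasChar
    simpa using this
  · obtain ⟨-, -, h3⟩ := hU.pow_good
    have h := h3 1
    simp only [one_smul] at h
    exact Fermat.Agent.S29.H882.isBounded_mul_qh_pow_of_expGrowth
      (expGrowth_of_pow_expGrowth hp h)

theorem IsTwistedG.fun_ne_zero {χ : Γ →* ℂˣ} {U : ℍ → ℂ} (hU : IsTwistedG Γ p χ U) : U ≠ 0 := by
  obtain ⟨τ, hτ⟩ := hU.ne_zero
  intro h0
  exact hτ (by rw [h0]; rfl)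

theorem IsTwistedG.pow_ne_zero {χ : Γ →* ℂˣ} {U : ℍ → ℂ} (hU : IsTwistedG Γ p χ U) :
    (fun τ => U τ ^ p) ≠ 0 := by
  obtain ⟨τ, hτ⟩ := hU.ne_zero
  intro h0
  exact _root_.pow_ne_zero p hτ (congrFun h0 τ)

/-- The `q`-expansion of the `p`-th power of a twisted function is nonzero. -/
theorem IsTwistedG.qexpFun_pow_ne_zero (hT : ModularGroup.T ∈ Γ) {χ : Γ →* ℂˣ} {U : ℍ → ℂ}
    (hU : IsTwistedG Γ p χ U) : qexpFun 1 (fun τ => U τ ^ p) ≠ 0 := by
  intro h0
  exact hU.pow_ne_zero ((qexpFun_eq_zero_iff (isMerInf_of_goodG hT hU.pow_good)).mp h0)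

/-- The character of a twisted function has exponent `p`. -/
theorem IsTwistedG.char_pow {χ : Γ →* ℂˣ} {U : ℍ → ℂ} (hU : IsTwistedG Γ p χ U) (γ : Γ) :
    χ γ ^ p = 1 := by
  obtain ⟨τ, hτ⟩ := hU.ne_zero
  have h1 := hU.pow_good.2.1 γ γ.2 τ
  simp only at h1
  rw [hU.hasChar γ τ, mul_pow] at h1
  have h2 : (((χ γ : ℂˣ) : ℂ) ^ p - 1) * U τ ^ p = 0 := by
    rw [sub_mul, one_mul, h1, sub_self]
  rcases mul_eq_zero.mp h2 with h | h
  · apply Units.ext
    rw [Units.val_pow_eq_pow_val, Units.val_one]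
    exact sub_eq_zero.mp h
  · exact absurd h (_root_.pow_ne_zero p hτ)

/-- Transport of the character along `U' * B = ζ * (U * A)` with `A`, `B` invariant. -/
theorem hasCharG_of_mul_eq {χ : Γ →* ℂˣ} {U U' A B : ℍ → ℂ} (ζ : ℂ)
    (hU' : MDifferentiable 𝓘(ℂ) 𝓘(ℂ) U') (hB : MDifferentiable 𝓘(ℂ) 𝓘(ℂ) B) (hB0 : B ≠ 0)
    (hAinv : ∀ γ ∈ Γ, ∀ τ : ℍ, A (γ • τ) = A τ)
    (hBinv : ∀ γ ∈ Γ, ∀ τ : ℍ, B (γ • τ) = B τ)
    (hU : HasCharG Γ χ U) (h : ∀ τ, U' τ * B τ = ζ * (U τ * A τ)) : HasCharG Γ χ U' := by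
  intro γ τ₀
  set c : ℂ := ((χ γ : ℂˣ) : ℂ) with hc
  set D : ℍ → ℂ := fun τ => U' ((γ : SL(2, ℤ)) • τ) - c * U' τ with hD
  have hDm : MDifferentiable 𝓘(ℂ) 𝓘(ℂ) D := by
    have h1 : MDifferentiable 𝓘(ℂ) 𝓘(ℂ) (fun τ : ℍ => U' ((γ : SL(2, ℤ)) • τ)) :=
      (precompSL (γ : SL(2, ℤ)) ⟨U', hU'⟩).2
    have h2 : MDifferentiable 𝓘(ℂ) 𝓘(ℂ) (fun τ : ℍ => c * U' τ) :=
      (mdifferentiable_const (c := c)).mul hU'
    exact h1.sub h2
  have hDB : D * B = 0 := by
    funext τ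
    simp only [Pi.mul_apply, Pi.zero_apply, hD]
    have e1 := h ((γ : SL(2, ℤ)) • τ)
    rw [hBinv _ γ.2 τ, hAinv _ γ.2 τ, hU γ τ] at e1
    have e2 := h τ
    calc (U' ((γ : SL(2, ℤ)) • τ) - c * U' τ) * B τ
        = U' ((γ : SL(2, ℤ)) • τ) * B τ - c * (U' τ * B τ) := by ring
      _ = ζ * (c * U τ * A τ) - c * (ζ * (U τ * A τ)) := by rw [e1, e2]
      _ = 0 := by ring
  rcases mul_eq_zero_of_mdiff hDm hB hDB with h0 | h0
  · have := congrFun h0 τ₀
    simp only [hD, Pi.zero_apply] at this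
    exact sub_eq_zero.mp this
  · exact absurd h0 hB0

/-- ROOT with divisibility read off from an identity `G * B ^ p = V ^ p`. -/
theorem exists_root_of_mul_pow_eq' (hp : p ≠ 0) {G B V : ℍ → ℂ}
    (hG : MDifferentiable 𝓘(ℂ) 𝓘(ℂ) G) (hB : MDifferentiable 𝓘(ℂ) 𝓘(ℂ) B)
    (hV : MDifferentiable 𝓘(ℂ) 𝓘(ℂ) V) (hB0 : B ≠ 0) (hV0 : V ≠ 0)
    (h : ∀ τ, G τ * B τ ^ p = V τ ^ p) :
    ∃ U' : ℍ → ℂ, MDifferentiable 𝓘(ℂ) 𝓘(ℂ) U' ∧ ∀ τ : ℍ, U' τ ^ p = G τ := by
  refine Fermat.Agent.S29.H751.exists_pow_eq_UHP hG p hp fun τ => ?_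
  have hfun : G * B ^ p = V ^ p := funext h
  have h1 : ordAt τ (G * B ^ p) = ordAt τ G + p • ordAt τ B := by
    rw [ordAt_mul hG (hB.pow p)]
    congr 1
    rw [ordAt_def, ordAt_def]
    have : (B ^ p) ∘ ofComplex = (B ∘ ofComplex) ^ p := rfl
    rw [this, analyticOrderAt_pow (analyticAt_of_mdiff hB τ)]
  have h2 : ordAt τ (V ^ p) = p • ordAt τ V := by
    rw [ordAt_def, ordAt_def]
    have : (V ^ p) ∘ ofComplex = (V ∘ ofComplex) ^ p := rfl
    rw [this, analyticOrderAt_pow (analyticAt_of_mdiff hV τ)]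
  rw [hfun, h2] at h1
  obtain ⟨b, hb⟩ := ENat.ne_top_iff_exists.mp (ordAt_ne_top hB hB0 τ)
  obtain ⟨v, hv⟩ := ENat.ne_top_iff_exists.mp (ordAt_ne_top hV hV0 τ)
  have hGne : ordAt τ G ≠ ⊤ := by
    intro htop
    rw [htop, top_add, ← hv] at h1
    have h4 : ((p * v : ℕ) : ℕ∞) = ⊤ := by
      rw [← h1]; push_cast; simp [nsmul_eq_mul]
    exact ENat.natCast_ne_top _ h4
  obtain ⟨g, hg⟩ := ENat.ne_top_iff_exists.mp hGne
  rw [← hb, ← hv, ← hg] at h1
  have h3 : p * v = g + p * b := by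
    have : ((p * v : ℕ) : ℕ∞) = ((g + p * b : ℕ) : ℕ∞) := by
      push_cast
      simpa [nsmul_eq_mul] using h1
    exact_mod_cast this
  refine ⟨v - b, ?_⟩
  rw [← ordAt_def, ← hg]
  have hbv : b ≤ v := by
    by_contra hlt
    rw [not_le] at hlt
    have : p * v < p * b := Nat.mul_lt_mul_of_pos_left hlt (Nat.pos_of_ne_zero hp)
    omega
  have : g = p * (v - b) := by
    rw [Nat.mul_sub]
    omega
  rw [this]

end Basic

/-! ### The top assembly -/

/-- **PIECE K3, generic** (from MERO, GEN and FIN).  For a twisted function `U` of a character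
`χ` trivial on `T` there are a twisted function `U'` of the same character and `u ∈ ℚ̄·F₀` such
that `U' ^ p` realises `u`. -/
theorem exists_realised_isTwistedG (Γ : Subgroup SL(2, ℤ)) [Finite (SL(2, ℤ) ⧸ Γ)]
    (hT : ModularGroup.T ∈ Γ) (F₀ : IntermediateField ℚ (LaurentSeries ℚ)) (hj : jq ∈ F₀)
    {S : Set (LaurentSeries ℚ)} (hgen : GenData Γ F₀ S) (hmero : MeroG Γ F₀)
    (p : ℕ) [NeZero p] {χ : Γ →* ℂˣ} (hχT : χ ⟨ModularGroup.T, hT⟩ = 1) {U : ℍ → ℂ}
    (hU : IsTwistedG Γ p χ U) (hfin : FinG F₀ p U) :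
    ∃ (U' : ℍ → ℂ) (u : laurentBaseChange Kbar F₀),
      IsTwistedG Γ p χ U' ∧ RealisesG Γ F₀ u (fun τ => U' τ ^ p) := by
  classical
  letI : Algebra Kbar ℂ := iotaC.toAlgebra
  have hp : p ≠ 0 := NeZero.ne p
  -- `q`-expansions of `U` and `U ^ p`
  have hqU : HasQExp 1 U (qexpFun 1 U) :=
    HasQExp.of_isMerInf (isMerInf_of_isTwistedG hp hT hχT hU)
  have hqG : HasQExp 1 (fun τ => U τ ^ p) (qexpFun 1 U ^ p) := hqU.pow p
  have hfFC : qexpFun 1 (fun τ => U τ ^ p) ∈ laurentBaseChange ℂ F₀ := hmero _ hU.pow_good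
  have hUne : U ≠ 0 := hU.fun_ne_zero
  have hGne : (fun τ => U τ ^ p) ≠ 0 := hU.pow_ne_zero
  have hf0 : qexpFun 1 (fun τ => U τ ^ p) ≠ 0 := by
    rw [hqG.qexpFun_eq]
    exact fun h0 => hGne (hqG.eq_zero_iff.mp h0)
  -- descent
  obtain ⟨T, hTfin, horb⟩ := hfin
  obtain ⟨g, hgF, hg0, -, -, -, f', hf', hfg⟩ :=
    Fermat.Agent.S29.H152.desc_main (K := Kbar) (Ω := ℂ) F₀ jq hj order_jq_eq
      (Nat.card (SL(2, ℤ) ⧸ Γ)) hgen.degStatement
      p (Nat.pos_of_ne_zero hp) (qexpFun 1 (fun τ => U τ ^ p)) (qexpFun 1 U) hfFC hf0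
      hqG.qexpFun_eq.symm T hTfin horb
  -- clear the denominator of `f'` by a `p`-th power
  obtain ⟨r, hr, s, hs, hs0, hrs⟩ := exists_div_AKG Kbar hgen.le_adjoin hf'
  have hιinj : Function.Injective (coeffMap iotaC) := by
    intro x y hxy
    ext k
    have := congrArg (fun z : LaurentSeries ℂ => z.coeff k) hxy
    simp only [coeffMap_coeff] at this
    exact iotaC.injective this
  have hιs0 : coeffMap iotaC s ≠ 0 := fun h0 => hs0 (hιinj (by rw [h0, map_zero]))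
  set u₀ : LaurentSeries Kbar := r * s ^ (p - 1) with hu₀
  have hu₀AK : u₀ ∈ AKG Kbar S := mul_mem hr (pow_mem hs _)
  have hu₀F : u₀ ∈ laurentBaseChange Kbar F₀ := AKG_le_laurentBaseChange Kbar hgen.subset hu₀AK
  have hu₀eq : u₀ = f' * s ^ p := by
    rw [hu₀, hrs]
    have : s ^ p = s ^ (p - 1) * s := by
      rw [← pow_succ, Nat.sub_add_cancel (Nat.pos_of_ne_zero hp)]
    rw [this]
    field_simp
  -- `ι u₀ = f * φ ^ p` with `φ = g * ι s ∈ F_ℂ`
  set φ : LaurentSeries ℂ := g * coeffMap iotaC s with hφ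
  have hφF : φ ∈ laurentBaseChange ℂ F₀ :=
    mul_mem hgF (AKG_le_laurentBaseChange ℂ hgen.subset (coeffMap_mem_AKG iotaC hs))
  have hφ0 : φ ≠ 0 := mul_ne_zero hg0 hιs0
  have hιu : coeffMap iotaC u₀ = qexpFun 1 (fun τ => U τ ^ p) * φ ^ p := by
    rw [hu₀eq, map_mul, map_pow, hφ, mul_pow, ← mul_assoc, hfg]
    rfl
  -- the good function realising `u₀`
  obtain ⟨G', hG'good, hG'q⟩ := hgen.coeffMap_mem_goodQG iotaC hu₀AK
  -- `φ = a / b`, quotient of `q`-expansions of good functions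
  obtain ⟨a, ⟨A, hAgood, hAq⟩, b, ⟨B, hBgood, hBq⟩, hb0, hab⟩ := hgen.exists_div_goodQG hφF
  have ha0 : a ≠ 0 := by
    rintro rfl
    rw [zero_div] at hab
    exact hφ0 hab
  have hA0 : A ≠ 0 := fun h0 => ha0 (hAq.eq_zero_iff.mpr h0)
  have hB0 : B ≠ 0 := fun h0 => hb0 (hBq.eq_zero_iff.mpr h0)
  -- `G' * B ^ p = (U * A) ^ p`
  have hser : coeffMap iotaC u₀ * b ^ p = (qexpFun 1 U * a) ^ p := by
    rw [hιu, hab, mul_pow, hqG.qexpFun_eq, mul_assoc, div_pow,
      div_mul_cancel₀ _ (_root_.pow_ne_zero p hb0)]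
  have hfunc : G' * B ^ p = (U * A) ^ p :=
    HasQExp.eq_of_eq (hser ▸ hG'q.mul (hBq.pow p)) ((hqU.mul hAq).pow p)
  have hpt : ∀ τ, G' τ * B τ ^ p = (U * A) τ ^ p := fun τ => congrFun hfunc τ
  have hG'm : MDifferentiable 𝓘(ℂ) 𝓘(ℂ) G' := hG'good.1
  have hAm : MDifferentiable 𝓘(ℂ) 𝓘(ℂ) A := hAgood.1
  have hBm : MDifferentiable 𝓘(ℂ) 𝓘(ℂ) B := hBgood.1
  have hUAm : MDifferentiable 𝓘(ℂ) 𝓘(ℂ) (U * A) := hU.mdiff.mul hAm
  have hUA0 : U * A ≠ 0 := by
    intro h0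
    rcases mul_eq_zero_of_mdiff hU.mdiff hAm h0 with h1 | h1
    · exact hUne h1
    · exact hA0 h1
  -- the root
  obtain ⟨U', hU'm, hU'p⟩ := exists_root_of_mul_pow_eq' hp hG'm hBm hUAm hB0 hUA0 hpt
  -- `U' * B = ζ * (U * A)`
  obtain ⟨τ₀, hτ₀⟩ : ∃ τ₀, (U * A) τ₀ ≠ 0 := by
    by_contra hcon
    simp only [not_exists, not_not] at hcon
    exact hUA0 (funext hcon)
  have hpow : ∀ τ, (U' τ * B τ) ^ p = (U * A) τ ^ p := fun τ => by
    rw [mul_pow, hU'p, hpt]
  set ζ : ℂ := U' τ₀ * B τ₀ / (U * A) τ₀ with hζ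
  have hζp : ζ ^ p = 1 := by
    rw [hζ, div_pow, hpow, div_self (_root_.pow_ne_zero p hτ₀)]
  have hmul : (fun τ => U' τ * B τ) = fun τ => ζ * (U * A) τ := by
    refine Fermat.Agent.S29.H751.eq_of_pow_eq_UHP (hU'm.mul hBm)
      ((mdifferentiable_const (c := ζ)).mul hUAm) hp (fun τ => ?_) (τ₀ := τ₀) ?_ ?_
    · rw [hpow, mul_pow, hζp, one_mul]
    · rw [hζ]
      field_simp
    · intro h0
      have h1 := hpow τ₀
      rw [h0, zero_pow hp] at h1
      exact _root_.pow_ne_zero p hτ₀ h1.symm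
  have hchar : HasCharG Γ χ U' :=
    hasCharG_of_mul_eq ζ hU'm hBm hB0 hAgood.2.1 hBgood.2.1 hU.hasChar
      (fun τ => congrFun hmul τ)
  have hG'eq : (fun τ => U' τ ^ p) = G' := funext hU'p
  have hG'0 : G' ≠ 0 := by
    intro h0
    have := hpt τ₀
    rw [h0] at this
    simp only [Pi.zero_apply, zero_mul] at this
    exact _root_.pow_ne_zero p hτ₀ this.symm
  refine ⟨U', ⟨u₀, hu₀F⟩, ⟨hU'm, ?_, hchar, ?_⟩, ?_, ?_⟩
  · by_contra hcon
    simp only [not_exists, not_not] at hcon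
    apply hG'0
    funext τ
    rw [← hU'p, hcon, zero_pow hp]
    rfl
  · rw [hG'eq]; exact hG'good
  · rw [hG'eq]; exact hG'good
  · rw [hG'eq]; exact hG'q.qexpFun_eq

end Fermat.Agent.S48.H882

end
end
-- ===== PACK-END S48/H882/K3Gen.lean

-- ===== PACK-BEGIN S48/H882/K3Fin.lean
section





/-!
# Tower A1 / A1-KUM, piece K3, GENERIC in `(Γ, F₀)` — FIN and the final form (helper882)

Generic port of the landed `S29/M4b/K3/{Fin,Main,Final}.lean` (helper42).

* `DToG F₀ p U`   : **DTO** (K2 over `ℂ`, "easy half" of the dictionary) for the function `U`: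
    `p ∣ ord_w (qexp (U ^ p))` at EVERY place `w` of `ℂ·F₀ / ℂ`;
* `DFromG Γ F₀ p` : **DFROM** ("hard half" + ROOT over `ℂ`): every `f ∈ (ℂ·F₀)ˣ` all of whose
    orders are divisible by `p` is, up to a `p`-th power of `(ℂ·F₀)ˣ`, the `q`-expansion of
    `V ^ p`, `V` holomorphic on `ℍ` with `V ^ p` good for `Γ`;
* `finG_of_dfrom`  : MERO + DTO + DFROM ⟹ FIN;
* `pieceK3G`       : **K3 generic** — MERO + GEN + DFROM + (DTO for `U`) ⟹ the twisted function
    `U` can be replaced by a twisted function `U'` of the same character whose `p`-th power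
    realises an element of `ℚ̄·F₀`.

For `(Γ, F₀) = (Γ₀(N), modularFunctionFieldFull N)` these are the landed S29 statements
(`GoodG (Gamma0 N) = goodRing N` by `Iff.rfl`); the instance needed by Tower A1 is
`(Γ₁(M), S48.F1.F1 M)`.
-/

set_option autoImplicit false
set_option linter.style.haveILetI false

noncomputable section

open UpperHalfPlane ModularGroup CongruenceSubgroup Polynomial ModularCurve AlgebraicCurve
open scoped MatrixGroups Manifold Modular Real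

namespace Fermat.Agent.S48.H882

open Fermat.Agent.S24 Fermat.Agent.S24.H648 Fermat.Agent.S24.H708 Fermat.Agent.S24.Deg457
open Fermat.Agent.S24.H624

section Defs

variable (Γ : Subgroup SL(2, ℤ)) (F₀ : IntermediateField ℚ (LaurentSeries ℚ))

/-- **DTO** for the function `U`: `p ∣ ord_w (qexp (U ^ p))` at every place `w` of `ℂ·F₀`. -/
def DToG (p : ℕ) (U : ℍ → ℂ) : Prop :=
  ∀ f : laurentBaseChange ℂ F₀, (f : LaurentSeries ℂ) = qexpFun 1 (fun τ => U τ ^ p) →
    ∀ w : Place ℂ (laurentBaseChange ℂ F₀), (p : ℤ) ∣ w.ord f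

/-- **DFROM** for `(Γ, F₀)`: an element `f ≠ 0` of `ℂ·F₀` all of whose orders are divisible by
`p` is, up to the `p`-th power of a nonzero element `s` of `ℂ·F₀`, the `q`-expansion of `V ^ p`
for a holomorphic `V : ℍ → ℂ` with `V ^ p` good for `Γ`. -/
def DFromG (p : ℕ) : Prop :=
  ∀ f : laurentBaseChange ℂ F₀, f ≠ 0 →
    (∀ w : Place ℂ (laurentBaseChange ℂ F₀), (p : ℤ) ∣ w.ord f) →
    ∃ s : LaurentSeries ℂ, s ∈ laurentBaseChange ℂ F₀ ∧ s ≠ 0 ∧ ∃ V : ℍ → ℂ,
      MDifferentiable 𝓘(ℂ) 𝓘(ℂ) V ∧ GoodG Γ (fun τ => V τ ^ p) ∧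
      qexpFun 1 (fun τ => V τ ^ p) = (f : LaurentSeries ℂ) * s ^ p

end Defs

variable {Γ : Subgroup SL(2, ℤ)} {F₀ : IntermediateField ℚ (LaurentSeries ℚ)} {p : ℕ}

/-- There are finitely many characters of exponent `p` of a subgroup of finite index. -/
theorem finite_pCharG (Γ : Subgroup SL(2, ℤ)) [Finite (SL(2, ℤ) ⧸ Γ)] (p : ℕ) [NeZero p] :
    Finite {κ : Γ →* ℂˣ // ∀ γ, κ γ ^ p = 1} := by
  classical
  haveI : Group.FG SL(2, ℤ) := Group.fg_iff.mpr ⟨{ModularGroup.S, ModularGroup.T},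
    SpecialLinearGroup.SL2Z_generators, by simp⟩
  haveI : Γ.FiniteIndex := Subgroup.finiteIndex_of_finite_quotient
  haveI : Group.FG Γ := inferInstance
  obtain ⟨S, hS, hSfin⟩ := Group.fg_iff.mp (inferInstance : Group.FG Γ)
  haveI : Finite S := hSfin
  let Φ : {κ : Γ →* ℂˣ // ∀ γ, κ γ ^ p = 1} → (S → rootsOfUnity p ℂ) :=
    fun κ s => ⟨κ.1 s, (mem_rootsOfUnity p _).mpr (κ.2 s)⟩
  refine Finite.of_injective Φ ?_
  intro κ₁ κ₂ h
  apply Subtype.ext
  apply MonoidHom.eq_of_eqOn_dense hS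
  intro x hx
  have := congrFun h ⟨x, hx⟩
  exact congrArg Subtype.val this

/-- `qexpFun` commutes with powers of functions meromorphic at `i∞`. -/
theorem qexpFun_pow_eq {f : ℍ → ℂ} (hf : IsMerInf 1 f) (n : ℕ) :
    qexpFun 1 (f ^ n) = qexpFun 1 f ^ n := by
  induction n with
  | zero =>
      rw [pow_zero, pow_zero]
      have h1 : (1 : ℍ → ℂ) = fun _ => (1 : ℂ) := rfl
      rw [h1, qexpFun_const]
      simp
  | succ n ih => rw [pow_succ, qexpFun_mul (hf.pow n) hf, ih, pow_succ]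

/-- Two holomorphic functions with good `p`-th powers and the SAME character have `p`-th powers
whose `q`-expansions differ by a `p`-th power of `ℂ·F₀`. -/
theorem exists_pow_mul_eq_of_sameCharG (hp : p ≠ 0) (hT : ModularGroup.T ∈ Γ)
    (hmero : MeroG Γ F₀) {V₁ V₂ : ℍ → ℂ} (κ : Γ →* ℂˣ) (hκ : ∀ γ, κ γ ^ p = 1)
    (h1m : MDifferentiable 𝓘(ℂ) 𝓘(ℂ) V₁) (h2m : MDifferentiable 𝓘(ℂ) 𝓘(ℂ) V₂)
    (h1 : HasCharG Γ κ V₁) (h2 : HasCharG Γ κ V₂)
    (h1g : GoodG Γ (fun τ => V₁ τ ^ p)) (h2g : GoodG Γ (fun τ => V₂ τ ^ p))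
    (h1ne : qexpFun 1 (fun τ => V₁ τ ^ p) ≠ 0) (h2ne : qexpFun 1 (fun τ => V₂ τ ^ p) ≠ 0) :
    ∃ g : LaurentSeries ℂ, g ∈ laurentBaseChange ℂ F₀ ∧ g ≠ 0 ∧
      qexpFun 1 (fun τ => V₁ τ ^ p) = g ^ p * qexpFun 1 (fun τ => V₂ τ ^ p) := by
  have hp1 : p - 1 + 1 = p := Nat.sub_add_cancel (Nat.one_le_iff_ne_zero.mpr hp)
  set W : ℍ → ℂ := fun τ => V₁ τ * V₂ τ ^ (p - 1) with hWdef
  have hfun : (fun τ => W τ ^ p) = (fun τ => V₁ τ ^ p) * (fun τ => V₂ τ ^ p) ^ (p - 1) := by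
    funext τ
    simp only [hWdef, Pi.mul_apply, Pi.pow_apply]
    rw [mul_pow, ← pow_mul, ← pow_mul, mul_comm (p - 1) p]
  have hWinv : ∀ γ ∈ Γ, ∀ τ : ℍ, W (γ • τ) = W τ := by
    intro γ hγ τ
    have e1 := h1 ⟨γ, hγ⟩ τ
    have e2 := h2 ⟨γ, hγ⟩ τ
    simp only at e1 e2
    simp only [hWdef]
    rw [e1, e2, mul_pow]
    have hk : ((κ ⟨γ, hγ⟩ : ℂˣ) : ℂ) * ((κ ⟨γ, hγ⟩ : ℂˣ) : ℂ) ^ (p - 1) = 1 := by
      rw [← pow_succ', hp1]
      have h3 := congrArg (fun u : ℂˣ => (u : ℂ)) (hκ ⟨γ, hγ⟩)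
      simpa using h3
    calc ((κ ⟨γ, hγ⟩ : ℂˣ) : ℂ) * V₁ τ * (((κ ⟨γ, hγ⟩ : ℂˣ) : ℂ) ^ (p - 1) * V₂ τ ^ (p - 1))
        = (((κ ⟨γ, hγ⟩ : ℂˣ) : ℂ) * ((κ ⟨γ, hγ⟩ : ℂˣ) : ℂ) ^ (p - 1)) *
            (V₁ τ * V₂ τ ^ (p - 1)) := by ring
      _ = V₁ τ * V₂ τ ^ (p - 1) := by rw [hk, one_mul]
  have hW : GoodG Γ W := by
    refine goodG_of_pow_goodG hp (h1m.mul (h2m.pow (p - 1))) hWinv ?_
    rw [hfun]
    exact h1g.mul (h2g.pow _)
  have hWm := isMerInf_of_goodG hT hW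
  have h1M := isMerInf_of_goodG hT h1g
  have h2M := isMerInf_of_goodG hT h2g
  set w := qexpFun 1 W with hw
  set a := qexpFun 1 (fun τ => V₁ τ ^ p) with ha
  set b := qexpFun 1 (fun τ => V₂ τ ^ p) with hb
  have hwFC : w ∈ laurentBaseChange ℂ F₀ := hmero _ hW
  have hbFC : b ∈ laurentBaseChange ℂ F₀ := hmero _ h2g
  have hwp : w ^ p = a * b ^ (p - 1) := by
    have hfun' : W ^ p = (fun τ => V₁ τ ^ p) * (fun τ => V₂ τ ^ p) ^ (p - 1) := hfun
    rw [hw, ← qexpFun_pow_eq hWm p, hfun', qexpFun_mul h1M (h2M.pow (p - 1)),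
      qexpFun_pow_eq h2M (p - 1)]
  refine ⟨w * b⁻¹, mul_mem hwFC (inv_mem hbFC), ?_, ?_⟩
  · refine mul_ne_zero ?_ (inv_ne_zero h2ne)
    intro h0
    rw [h0, zero_pow hp] at hwp
    exact mul_ne_zero h1ne (pow_ne_zero _ h2ne) hwp.symm
  · rw [mul_pow, hwp, inv_pow]
    have hbp : b ^ p = b ^ (p - 1) * b := by rw [← pow_succ, hp1]
    rw [hbp, mul_inv]
    field_simp

/-- Representatives of the fibres of a map to a finite type. -/
theorem exists_finset_fibre_rep' {G X : Type*} [Finite X] (χ : G → X) :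
    ∃ s : Finset G, ∀ g : G, ∃ h ∈ s, χ g = χ h := by
  classical
  haveI : Fintype (Set.range χ) := Fintype.ofFinite _
  let r : Set.range χ → G := fun x => x.2.choose
  have hr : ∀ x : Set.range χ, χ (r x) = x := fun x => x.2.choose_spec
  refine ⟨Finset.univ.image r, fun g => ⟨r ⟨χ g, g, rfl⟩, ?_, ?_⟩⟩
  · exact Finset.mem_image_of_mem _ (Finset.mem_univ _)
  · exact (hr ⟨χ g, g, rfl⟩).symm

/-- **K3-FIN, generic**: from MERO, DFROM and DTO for `U`. -/
theorem finG_of_dfrom (Γ : Subgroup SL(2, ℤ)) [Finite (SL(2, ℤ) ⧸ Γ)]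
    (hT : ModularGroup.T ∈ Γ) (F₀ : IntermediateField ℚ (LaurentSeries ℚ))
    (hmero : MeroG Γ F₀) (p : ℕ) [NeZero p] (hd : DFromG Γ F₀ p)
    {χ : Γ →* ℂˣ} {U : ℍ → ℂ} (hU : IsTwistedG Γ p χ U) (hdto : DToG F₀ p U) :
    FinG F₀ p U := by
  letI : Algebra Kbar ℂ := iotaC.toAlgebra
  classical
  have hp : p ≠ 0 := NeZero.ne p
  set a : LaurentSeries ℂ := qexpFun 1 (fun τ => U τ ^ p) with ha
  have haFC : a ∈ laurentBaseChange ℂ F₀ := hmero _ hU.pow_good
  have ha0 : a ≠ 0 := hU.qexpFun_pow_ne_zero hT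
  set f₀ : laurentBaseChange ℂ F₀ := ⟨a, haFC⟩ with hf₀def
  have hf₀ : f₀ ≠ 0 := fun h => ha0 (congrArg Subtype.val h)
  have hdvd : ∀ w : Place ℂ (laurentBaseChange ℂ F₀), (p : ℤ) ∣ w.ord f₀ :=
    fun w => hdto f₀ rfl w
  -- the data attached to each `σ`
  have key : ∀ σ : ℂ ≃ₐ[Kbar] ℂ, ∃ (s : LaurentSeries ℂ) (V : ℍ → ℂ)
      (κ : {κ : Γ →* ℂˣ // ∀ γ, κ γ ^ p = 1}), s ∈ laurentBaseChange ℂ F₀ ∧ s ≠ 0 ∧
      MDifferentiable 𝓘(ℂ) 𝓘(ℂ) V ∧ GoodG Γ (fun τ => V τ ^ p) ∧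
      HasCharG Γ κ.1 V ∧
      qexpFun 1 (fun τ => V τ ^ p) ≠ 0 ∧
      qexpFun 1 (fun τ => V τ ^ p) = coeffMap (σ : ℂ →+* ℂ) a * s ^ p := by
    intro σ
    set g : SemilinearAut ℂ (laurentBaseChange ℂ F₀) :=
      arithmeticGalois F₀ (σ.toRingEquiv.toRatAlgEquiv) with hg
    have hcoe : ((g • f₀ : laurentBaseChange ℂ F₀) : LaurentSeries ℂ)
        = coeffMap (σ : ℂ →+* ℂ) a := rfl
    have hne : g • f₀ ≠ 0 := (smul_ne_zero_iff_ne g).mpr hf₀
    have hdvd' : ∀ w : Place ℂ (laurentBaseChange ℂ F₀), (p : ℤ) ∣ w.ord (g • f₀) := by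
      intro w
      have h := SemilinearAut.ord_smul g (g⁻¹ • w) f₀
      rw [smul_inv_smul] at h
      rw [h]
      exact hdvd _
    obtain ⟨s, hs, hs0, V, hVm, hVg, hq⟩ := hd (g • f₀) hne hdvd'
    rw [hcoe] at hq
    have hqne : qexpFun 1 (fun τ => V τ ^ p) ≠ 0 := by
      rw [hq]
      refine mul_ne_zero ?_ (pow_ne_zero _ hs0)
      rw [← hcoe]
      exact fun h => hne (Subtype.ext h)
    have hV0 : V ≠ 0 := by
      intro h0
      apply hqne
      have : (fun τ => V τ ^ p) = 0 := by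
        funext τ
        rw [h0]
        simp [hp]
      rw [this]
      exact (qexpFun_eq_zero_iff (isMerInf_of_goodG hT
        (by rw [← this]; exact hVg))).mpr rfl
    obtain ⟨κ, hκ, hVκ⟩ := Fermat.Agent.S29.H942.exists_kummerChar Γ hVm hV0 hp
      (fun γ hγ z => hVg.2.1 γ hγ z)
    exact ⟨s, V, ⟨κ, hκ⟩, hs, hs0, hVm, hVg, hVκ, hqne, hq⟩
  choose s V κ hs hs0 hVm hVg hVκ hqne hq using key
  haveI := finite_pCharG Γ p
  obtain ⟨R, hR⟩ := exists_finset_fibre_rep' κ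
  refine ⟨(fun σ : ℂ ≃ₐ[Kbar] ℂ => coeffMap (σ : ℂ →+* ℂ) a) '' (R : Set (ℂ ≃ₐ[Kbar] ℂ)),
    R.finite_toSet.image _, fun σ => ?_⟩
  obtain ⟨h, hhR, hκeq⟩ := hR σ
  refine ⟨coeffMap (h : ℂ →+* ℂ) a, ⟨h, hhR, rfl⟩, ?_⟩
  have h2 := hVκ h
  rw [← hκeq] at h2
  obtain ⟨g, hg, hg0, hgeq⟩ := exists_pow_mul_eq_of_sameCharG hp hT hmero (κ σ).1 (κ σ).2
    (hVm σ) (hVm h) (hVκ σ) h2 (hVg σ) (hVg h) (hqne σ) (hqne h)
  rw [hq σ, hq h] at hgeq
  refine ⟨g * s h * (s σ)⁻¹, mul_mem (mul_mem hg (hs h)) (inv_mem (hs σ)),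
    mul_ne_zero (mul_ne_zero hg0 (hs0 h)) (inv_ne_zero (hs0 σ)), ?_⟩
  have hsp : s σ ^ p ≠ 0 := pow_ne_zero _ (hs0 σ)
  rw [mul_pow, mul_pow, inv_pow]
  field_simp
  rw [hgeq]
  ring

/-- **PIECE K3, GENERIC in `(Γ, F₀)`**: from GEN, MERO, DFROM, and DTO for the given `U`. -/
theorem pieceK3G (Γ : Subgroup SL(2, ℤ)) [Finite (SL(2, ℤ) ⧸ Γ)]
    (hT : ModularGroup.T ∈ Γ) (F₀ : IntermediateField ℚ (LaurentSeries ℚ)) (hj : jq ∈ F₀)
    {S : Set (LaurentSeries ℚ)} (hgen : GenData Γ F₀ S) (hmero : MeroG Γ F₀)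
    (p : ℕ) [NeZero p] (hd : DFromG Γ F₀ p)
    {χ : Γ →* ℂˣ} (hχT : χ ⟨ModularGroup.T, hT⟩ = 1) {U : ℍ → ℂ}
    (hU : IsTwistedG Γ p χ U) (hdto : DToG F₀ p U) :
    ∃ (U' : ℍ → ℂ) (u : laurentBaseChange Kbar F₀),
      IsTwistedG Γ p χ U' ∧ RealisesG Γ F₀ u (fun τ => U' τ ^ p) :=
  exists_realised_isTwistedG Γ hT F₀ hj hgen hmero p hχT hU
    (finG_of_dfrom Γ hT F₀ hmero p hd hU hdto)

end Fermat.Agent.S48.H882

end
end
-- ===== PACK-END S48/H882/K3Fin.lean

-- ===== PACK-BEGIN S48/H428/HolFrame.lean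
section


/-!
# S48 / RES (Tower A1) — NORMID1, part 1: the analytic frame (helper428)

A generator-free frame for "`q`-series over `ℚ̄` with a meromorphic avatar of level `L`", on top of
the S24 analytic layer (`holN L`, `InfExp`, `compSL`):

* `HolField L = Frac (holN L)` with the expansion `holExp L : HolField L →+* ℂ((z))`
  (`z = exp(2πiτ/L)`) and the translation `holAct L g` (`f ↦ f ∘ g`, `g ∈ SL(2,ℤ)`);
* `avatarFieldC L : Subfield ℚ̄((q))` : the `q`-series `f` such that `Φ_L f = f(z^L)` (coefficients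
  through `ιK : ℚ̄ → ℂ`) is the expansion of an element of `HolField L`;
* `sigC L g : avatarFieldC L →+* ℂ((z))` : `f ↦` expansion of `(avatar of f) ∘ g`;
* `mem_avatarFieldC_of_hol`, `sigC_of_hol` : membership and the value of `sigC` from a holomorphic
  avatar; `sigC_one` : `sigC L 1 = Φ_L`.
-/

set_option autoImplicit false
set_option linter.unusedSectionVars false
set_option linter.style.haveILetI false

noncomputable section

open ModularCurve HahnSeries UpperHalfPlane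
open scoped MatrixGroups

namespace Fermat.Agent.S48.H428

open Fermat.Agent.S24 Fermat.Agent.S24.H997

variable (L : ℕ) [NeZero L]

/-! ### The ring `holN L` -/

/-- The expansion at `∞` (variable `z = exp(2πiτ/L)`) on `holN L`. -/
def holExp0 : holN L →+* LaurentSeries ℂ := (expInf L).comp (holToExp L)

theorem holExp0_injective : Function.Injective (holExp0 L) :=
  expInf_injective.comp (holToExp_injective L)

theorem holExp0_spec (f : holN L) : InfExp L (f : ℍ → ℂ) (holExp0 L f) :=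
  expInf_spec (holToExp L f)

variable {L} in
theorem holExp0_eq {f : holN L} {φ : LaurentSeries ℂ} (h : InfExp L (f : ℍ → ℂ) φ) :
    holExp0 L f = φ :=
  (holExp0_spec L f).unique h

instance holN_isDomain : IsDomain (holN L) :=
  Function.Injective.isDomain (holExp0 L) (holExp0_injective L)

/-- Precomposition with `g ∈ SL(2,ℤ)` on `holN L`. -/
def holComp (g : SL(2, ℤ)) : holN L →+* holN L where
  toFun f := ⟨compSL g f.1, comp_mem_holN L g f.1 f.2⟩
  map_one' := rfl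
  map_mul' _ _ := rfl
  map_zero' := rfl
  map_add' _ _ := rfl

variable {L} in
@[simp] theorem holComp_coe (g : SL(2, ℤ)) (f : holN L) :
    ((holComp L g f : holN L) : ℍ → ℂ) = compSL g (f : ℍ → ℂ) := rfl

theorem holComp_injective (g : SL(2, ℤ)) : Function.Injective (holComp L g) := by
  intro f f' h
  apply Subtype.ext
  have h1 : compSL g (f : ℍ → ℂ) = compSL g (f' : ℍ → ℂ) := congrArg Subtype.val h
  have h2 := congrArg (compSL g⁻¹) h1
  rwa [← compSL_mul, ← compSL_mul, mul_inv_cancel, compSL_one, compSL_one] at h2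

/-! ### The field `HolField L` -/

/-- The field of meromorphic functions of level `L`: fractions of elements of `holN L`. -/
abbrev HolField : Type := FractionRing (holN L)

/-- The expansion at `∞` on `HolField L`. -/
def holExp : HolField L →+* LaurentSeries ℂ :=
  IsFractionRing.lift (holExp0_injective L)

variable {L} in
@[simp] theorem holExp_algebraMap (f : holN L) :
    holExp L (algebraMap (holN L) (HolField L) f) = holExp0 L f :=
  IsFractionRing.lift_algebraMap (holExp0_injective L) f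

theorem holExp_injective : Function.Injective (holExp L) := (holExp L).injective

/-- Translation by `g ∈ SL(2,ℤ)` on `HolField L`: `f ↦ f ∘ g`. -/
def holAct (g : SL(2, ℤ)) : HolField L →+* HolField L :=
  IsFractionRing.lift (g := (algebraMap (holN L) (HolField L)).comp (holComp L g))
    ((IsFractionRing.injective (holN L) (HolField L)).comp (holComp_injective L g))

variable {L} in
@[simp] theorem holAct_algebraMap (g : SL(2, ℤ)) (f : holN L) :
    holAct L g (algebraMap (holN L) (HolField L) f)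
      = algebraMap (holN L) (HolField L) (holComp L g f) :=
  IsFractionRing.lift_algebraMap _ f

/-- The expansion at `∞` of the translate by `g`. -/
def sigH (g : SL(2, ℤ)) : HolField L →+* LaurentSeries ℂ := (holExp L).comp (holAct L g)

variable {L} in
theorem sigH_algebraMap (g : SL(2, ℤ)) (f : holN L) :
    sigH L g (algebraMap (holN L) (HolField L) f) = holExp0 L (holComp L g f) := by
  rw [sigH, RingHom.comp_apply, holAct_algebraMap, holExp_algebraMap]

/-! ### `q`-series with an avatar -/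

/-- The `q`-series over `ℚ̄` with a (meromorphic) avatar of level `L`. -/
def avatarFieldC : Subfield (LaurentSeries Kbar) :=
  (holExp L).fieldRange.comap (HolBase.Φ L)

variable {L} in
theorem mem_avatarFieldC {f : LaurentSeries Kbar} :
    f ∈ avatarFieldC L ↔ ∃ y : HolField L, holExp L y = HolBase.Φ L f := Iff.rfl

variable {L} in
/-- A holomorphic avatar suffices. -/
theorem mem_avatarFieldC_of_hol {f : LaurentSeries Kbar} {A : ℍ → ℂ} (hA : A ∈ holN L)
    (hexp : InfExp L A (HolBase.Φ L f)) : f ∈ avatarFieldC L :=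
  ⟨algebraMap (holN L) (HolField L) ⟨A, hA⟩, by
    rw [holExp_algebraMap]
    exact holExp0_eq (f := ⟨A, hA⟩) hexp⟩

/-- The avatar of a `q`-series. -/
def avatarEmbC : avatarFieldC L →+* HolField L where
  toFun f := Classical.choose (mem_avatarFieldC.1 f.2)
  map_one' := by
    apply holExp_injective L
    rw [Classical.choose_spec (mem_avatarFieldC.1 (1 : avatarFieldC L).2), RingHom.map_one]
    exact RingHom.map_one _
  map_mul' f g := by
    apply holExp_injective L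
    rw [RingHom.map_mul, Classical.choose_spec (mem_avatarFieldC.1 (f * g).2),
      Classical.choose_spec (mem_avatarFieldC.1 f.2),
      Classical.choose_spec (mem_avatarFieldC.1 g.2)]
    exact RingHom.map_mul _ _ _
  map_zero' := by
    apply holExp_injective L
    rw [Classical.choose_spec (mem_avatarFieldC.1 (0 : avatarFieldC L).2), RingHom.map_zero]
    exact RingHom.map_zero _
  map_add' f g := by
    apply holExp_injective L
    rw [RingHom.map_add, Classical.choose_spec (mem_avatarFieldC.1 (f + g).2),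
      Classical.choose_spec (mem_avatarFieldC.1 f.2),
      Classical.choose_spec (mem_avatarFieldC.1 g.2)]
    exact RingHom.map_add _ _ _

variable {L} in
theorem holExp_avatarEmbC (f : avatarFieldC L) :
    holExp L (avatarEmbC L f) = HolBase.Φ L (f : LaurentSeries Kbar) :=
  Classical.choose_spec (mem_avatarFieldC.1 f.2)

variable {L} in
theorem avatarEmbC_eq_iff (f : avatarFieldC L) (y : HolField L) :
    avatarEmbC L f = y ↔ holExp L y = HolBase.Φ L (f : LaurentSeries Kbar) := by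
  constructor
  · rintro rfl
    exact holExp_avatarEmbC f
  · intro h
    apply holExp_injective L
    rw [h, holExp_avatarEmbC]

variable {L} in
theorem avatarEmbC_of_hol {f : LaurentSeries Kbar} (hf : f ∈ avatarFieldC L) {A : ℍ → ℂ}
    (hA : A ∈ holN L) (hexp : InfExp L A (HolBase.Φ L f)) :
    avatarEmbC L ⟨f, hf⟩ = algebraMap (holN L) (HolField L) ⟨A, hA⟩ := by
  rw [avatarEmbC_eq_iff, holExp_algebraMap]
  exact holExp0_eq (f := ⟨A, hA⟩) hexp

/-- `f ↦` the expansion at `∞` of `(avatar of f) ∘ g`. -/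
def sigC (g : SL(2, ℤ)) : avatarFieldC L →+* LaurentSeries ℂ :=
  (sigH L g).comp (avatarEmbC L)

variable {L} in
/-- The value of `sigC` from a holomorphic avatar. -/
theorem sigC_of_hol {f : LaurentSeries Kbar} (hf : f ∈ avatarFieldC L) {A : ℍ → ℂ}
    (hA : A ∈ holN L) (hexp : InfExp L A (HolBase.Φ L f)) (g : SL(2, ℤ))
    {ψ : LaurentSeries ℂ} (hψ : InfExp L (compSL g A) ψ) :
    sigC L g ⟨f, hf⟩ = ψ := by
  rw [sigC, RingHom.comp_apply, avatarEmbC_of_hol hf hA hexp, sigH_algebraMap]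
  exact holExp0_eq (f := holComp L g ⟨A, hA⟩) hψ

variable {L} in
theorem holAct_one (y : HolField L) : holAct L 1 y = y := by
  have h : holAct L 1 = RingHom.id (HolField L) := by
    apply IsLocalization.ringHom_ext (nonZeroDivisors (holN L))
    ext f
    rw [RingHom.comp_apply, holAct_algebraMap, RingHom.comp_apply, RingHom.id_apply]
    congr 1
    apply Subtype.ext
    rw [holComp_coe, compSL_one]
  rw [h, RingHom.id_apply]

variable {L} in
theorem sigC_one (f : avatarFieldC L) : sigC L 1 f = HolBase.Φ L (f : LaurentSeries Kbar) := by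
  rw [sigC, RingHom.comp_apply, sigH, RingHom.comp_apply, holAct_one, holExp_avatarEmbC]

end Fermat.Agent.S48.H428

end
end
-- ===== PACK-END S48/H428/HolFrame.lean

-- ===== PACK-BEGIN S48/H428/HolLevel.lean
section




/-!
# S48 / RES (Tower A1) — NORMID1, part 2: change of level for avatars (helper428)

`f : ℍ → ℂ` with an expansion `φ` in `q = exp(2πiτ)` (`InfExp 1 f φ`):
* `infExp_level`    : `f` has the expansion `φ(z^L)` in `z = exp(2πiτ/L)`;
* `infExp_comp_mul` : `τ ↦ f(pτ)` has the expansion `φ(z^{Lp})`;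
* `infExp_comp_div` : `τ ↦ f((τ+b)/p)` has the expansion `φ(ζ_p^b z^M)` in `z = exp(2πiτ/(Mp))`;
* `holN_mul_right`  : `holN M ≤ holN (M p)`;
* `comp_mul_mem_holN` : `f ∈ holN M ⟹ f(p ·) ∈ holN (M p)`.
-/

set_option autoImplicit false
set_option linter.unusedSectionVars false
set_option linter.style.haveILetI false

noncomputable section

open ModularCurve HahnSeries UpperHalfPlane
open scoped MatrixGroups

namespace Fermat.Agent.S48.H428

open Fermat.Agent.S24 Fermat.Agent.S24.H997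

theorem coeffMap_ιK_coeffEmb_g (x : LaurentSeries ℚ) :
    coeffMap ιK (coeffEmb Kbar x) = coeffEmb ℂ x := by
  rw [coeffEmb, coeffMap_coeffMap, coeffEmb]
  refine coeffMap_congr (RingHom.ext fun c => ?_) x
  rw [RingHom.comp_apply, ιK_algebraMap]
  simp

/-- `Φ_L` on rational series. -/
theorem Φ_coeffEmb (L : ℕ) [NeZero L] (x : LaurentSeries ℚ) :
    HolBase.Φ L (coeffEmb Kbar x) = qExpand ℂ L (coeffEmb ℂ x) := by
  show qExpand ℂ L (coeffMap ιK (coeffEmb Kbar x)) = _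
  rw [coeffMap_ιK_coeffEmb_g]

/-- `Φ_M ∘ V_p = Φ_{M p}`. -/
theorem Φ_qExpand_g (M p : ℕ) [NeZero M] [NeZero p] [NeZero (M * p)] (x : LaurentSeries Kbar) :
    HolBase.Φ M (qExpand Kbar p x) = HolBase.Φ (M * p) x := by
  show qExpand ℂ M (coeffMap ιK (qExpand Kbar p x)) = qExpand ℂ (M * p) (coeffMap ιK x)
  rw [coeffMap_qExpand, qExpand_qExpand]

section Exp

variable {f : ℍ → ℂ} {φ : LaurentSeries ℂ}

theorem infExp_level (h : InfExp 1 f φ) (L : ℕ) [NeZero L] : InfExp L f (qExpand ℂ L φ) := by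
  have hL : 0 < L := Nat.pos_of_ne_zero (NeZero.ne L)
  have h1 := h.comp_infAff (e := L) (a := 1) (d := 1) (N := L) 0 one_pos one_pos one_pos hL
    (by ring)
  rw [infRoot_zero, infTwist_one] at h1
  exact h1.congr fun τ => by rw [infAff_one_zero_one]

theorem infExp_comp_mul (h : InfExp 1 f φ) (L p : ℕ) [NeZero L] [NeZero p] [NeZero (L * p)] :
    InfExp L (fun τ => f (infAff p 0 1 τ)) (qExpand ℂ (L * p) φ) := by
  have hL : 0 < L := Nat.pos_of_ne_zero (NeZero.ne L)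
  have hp : 0 < p := Nat.pos_of_ne_zero (NeZero.ne p)
  have h1 := h.comp_infAff (e := L * p) (a := p) (d := 1) (N := L) 0 hp one_pos one_pos hL
    (by ring)
  rw [infRoot_zero, infTwist_one] at h1
  exact h1

theorem infExp_comp_div (h : InfExp 1 f φ) (M p : ℕ) [NeZero M] [NeZero p] [NeZero (M * p)]
    (b : ℤ) :
    InfExp (M * p) (fun τ => f (infAff 1 b p τ)) (qExpand ℂ M (infTwist (infRoot b p) φ)) := by
  have hM : 0 < M := Nat.pos_of_ne_zero (NeZero.ne M)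
  have hp : 0 < p := Nat.pos_of_ne_zero (NeZero.ne p)
  have h1 := h.comp_infAff (e := M) (a := 1) (d := p) (N := M * p) b one_pos hp one_pos
    (Nat.mul_pos hM hp) (by ring)
  rw [mul_one] at h1
  exact h1

end Exp

section Hol

variable {M : ℕ} [NeZero M]

/-- `holN M ≤ holN (M p)`. -/
theorem holN_mul_right (p : ℕ) [NeZero p] [NeZero (M * p)] {f : ℍ → ℂ} (hf : f ∈ holN M) :
    f ∈ holN (M * p) := by
  have hM : 0 < M := Nat.pos_of_ne_zero (NeZero.ne M)
  have hp : 0 < p := Nat.pos_of_ne_zero (NeZero.ne p)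
  refine ⟨hf.1, fun γ => ?_⟩
  obtain ⟨φ, hφ⟩ := hf.2 γ
  have h1 := hφ.comp_infAff (e := p) (a := 1) (d := 1) (N := M * p) 0 one_pos one_pos hM
    (Nat.mul_pos hM hp) (by ring)
  have h2 : InfExp (M * p) (compSL γ f) (qExpand ℂ p (infTwist (infRoot 0 (1 * M)) φ)) :=
    h1.congr fun τ => by rw [infAff_one_zero_one]
  exact h2.mem_expRing

/-- `f ∈ holN M ⟹ (τ ↦ f (p τ)) ∈ holN (M p)`. -/
theorem comp_mul_mem_holN (p : ℕ) [NeZero p] [NeZero (M * p)] {f : ℍ → ℂ} (hf : f ∈ holN M) :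
    (fun τ => f (infAff p 0 1 τ)) ∈ holN (M * p) := by
  have hp : 0 < p := Nat.pos_of_ne_zero (NeZero.ne p)
  have hM : 0 < M := Nat.pos_of_ne_zero (NeZero.ne M)
  refine ⟨H564.mdiff_comp_infAff hf.1 hp one_pos 0, fun g => ?_⟩
  obtain ⟨γ', a, d', b, ha, hd', had, h00, h01, h10, h11⟩ := inf_exists_hnf p hp g
  obtain ⟨φ, hφ⟩ := hf.2 γ'
  haveI : NeZero (a * a) := ⟨(Nat.mul_pos ha ha).ne'⟩
  have he : a * a * (d' * M) = a * (M * p) := by
    rw [← had]; ring
  have h := hφ.comp_infAff (e := a * a) b ha hd' hM (Nat.mul_pos hM hp) he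
  have h2 : compSL g (fun τ => f (infAff p 0 1 τ))
      = fun τ => compSL γ' f (infAff a b d' τ) := by
    funext τ
    show f (infAff p 0 1 (g • τ)) = f (γ' • infAff a b d' τ)
    rw [inf_aff_smul_eq hp ha hd' g γ' h00 h01 h10 h11 τ]
  rw [h2]
  exact h.mem_expRing

end Hol

end Fermat.Agent.S48.H428

end
end
-- ===== PACK-END S48/H428/HolLevel.lean

-- ===== PACK-BEGIN S48/H428/NormAv.lean
section



/-!
# S48 / RES (Tower A1) — NORMID1, part 3: avatars of the generators of `F1(M; p)` (helper428)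

`IsAv M x A` : the rational `q`-series `x` has the holomorphic avatar `A ∈ holN M`
(`InfExp 1 A x`).  For a prime-to-`M` level raising `L = M p`:

* `IsAv.mem`      : `x ∈ avatarFieldC (M p)`;
* `IsAv.mem_V`    : `V_p x = x(q^p) ∈ avatarFieldC (M p)` (avatar `A(p τ)`);
* `IsAv.sig_fix`  : `sigC g x = Φ x` when `A ∘ g = A`;
* `IsAv.sig_V`    : `sigC h (V_p x) = Φ_M (x'(ζ_p^b u))` when `diag(p,1) h = δ [[1,b],[0,p]]` and
  `A ∘ δ` is the avatar of `x'`;
* `isAv_jd`, `isAv_divGen` : the avatars `j(dτ)` (S24) and `pFun M a` (helper76) of the generators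
  of `F1 M`.
-/

set_option autoImplicit false
set_option linter.unusedSectionVars false
set_option linter.style.haveILetI false

noncomputable section

open ModularCurve HahnSeries UpperHalfPlane
open scoped MatrixGroups

namespace Fermat.Agent.S48.H428

open Fermat.Agent.S24 Fermat.Agent.S24.H997 Fermat.Agent.S48.F1

/-- `x ∈ ℚ((q))` has the holomorphic avatar `A` of level `M`. -/
structure IsAv (M : ℕ) (x : LaurentSeries ℚ) (A : ℍ → ℂ) : Prop where
  hol : A ∈ holN M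
  exp : InfExp 1 A (coeffEmb ℂ x)

section Generic

variable {M : ℕ} [NeZero M] {p : ℕ} [NeZero p] [NeZero (M * p)]
variable {x x' : LaurentSeries ℚ} {A A' : ℍ → ℂ}

theorem IsAv.exp_level (h : IsAv M x A) :
    InfExp (M * p) A (HolBase.Φ (M * p) (coeffEmb Kbar x)) := by
  rw [Φ_coeffEmb]
  exact infExp_level h.exp (M * p)

theorem IsAv.mem (h : IsAv M x A) : coeffEmb Kbar x ∈ avatarFieldC (M * p) :=
  mem_avatarFieldC_of_hol (holN_mul_right p h.hol) h.exp_level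

theorem coeffEmb_qExpand_g (L : Type*) [Field L] [Algebra ℚ L] (n : ℕ) [NeZero n]
    (y : LaurentSeries ℚ) : coeffEmb L (qExpand ℚ n y) = qExpand L n (coeffEmb L y) :=
  coeffMap_qExpand _ n y

theorem IsAv.exp_V (h : IsAv M x A) :
    InfExp (M * p) (fun τ => A (infAff p 0 1 τ))
      (HolBase.Φ (M * p) (coeffEmb Kbar (qExpand ℚ p x))) := by
  haveI : NeZero (M * p * p) := ⟨Nat.mul_ne_zero (NeZero.ne (M * p)) (NeZero.ne p)⟩
  rw [Φ_coeffEmb, coeffEmb_qExpand_g, qExpand_qExpand]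
  exact infExp_comp_mul h.exp (M * p) p

theorem IsAv.mem_V (h : IsAv M x A) :
    coeffEmb Kbar (qExpand ℚ p x) ∈ avatarFieldC (M * p) :=
  mem_avatarFieldC_of_hol (comp_mul_mem_holN p h.hol) h.exp_V

/-- `sigC g` fixes a series whose avatar is `g`-invariant. -/
theorem IsAv.sig_fix (h : IsAv M x A) (g : SL(2, ℤ)) (hg : compSL g A = A)
    (hx : coeffEmb Kbar x ∈ avatarFieldC (M * p)) :
    sigC (M * p) g ⟨coeffEmb Kbar x, hx⟩ = HolBase.Φ (M * p) (coeffEmb Kbar x) :=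
  sigC_of_hol hx (holN_mul_right p h.hol) h.exp_level g (by rw [hg]; exact h.exp_level)

/-- `sigC h (V_p x)` when `diag(p,1) h = δ [[1,b],[0,p]]` and `A ∘ δ = A'` is the avatar of
`x'`. -/
theorem IsAv.sig_V (h : IsAv M x A) (h' : IsAv M x' A') (g δ : SL(2, ℤ)) (b : ℤ)
    (h00 : (p : ℤ) * g 0 0 = δ 0 0 * (1 : ℕ))
    (h01 : (p : ℤ) * g 0 1 = δ 0 0 * b + δ 0 1 * p)
    (h10 : g 1 0 = δ 1 0 * (1 : ℕ)) (h11 : g 1 1 = δ 1 0 * b + δ 1 1 * p)
    (hδ : compSL δ A = A')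
    (hx : coeffEmb Kbar (qExpand ℚ p x) ∈ avatarFieldC (M * p)) :
    sigC (M * p) g ⟨coeffEmb Kbar (qExpand ℚ p x), hx⟩
      = qExpand ℂ M (infTwist (infRoot b p) (coeffEmb ℂ x')) := by
  have hp : 0 < p := Nat.pos_of_ne_zero (NeZero.ne p)
  refine sigC_of_hol hx (comp_mul_mem_holN p h.hol) h.exp_V g ?_
  have e : compSL g (fun τ => A (infAff p 0 1 τ)) = fun τ => A' (infAff 1 b p τ) := by
    funext τ
    show A (infAff p 0 1 (g • τ)) = A' (infAff 1 b p τ)
    rw [inf_aff_smul_eq hp one_pos hp g δ h00 h01 h10 h11 τ, ← hδ]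
    rfl
  rw [e]
  exact infExp_comp_div h'.exp M p b

end Generic

/-! ### The avatars of the generators of `F1 M` -/

section Gens

variable (M : ℕ) [NeZero M]

theorem isAv_jd {d : ℕ} [NeZero d] (hd : d ∣ M) : IsAv M (qExpand ℚ d jq) (Jd d) := by
  refine ⟨Jd_mem_holN M d hd, ?_⟩
  have hd0 : 0 < d := Nat.pos_of_ne_zero (NeZero.ne d)
  have h := inf_J_mul_exp infExp_jFun hd0 one_pos
  rw [coeffEmb_qExpand_g]
  have e : qExpand ℂ d (coeffEmb ℂ jq) = qExpand ℂ (d * 1) infJq :=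
    qExpand_congr (mul_one d).symm _
  rw [e]
  exact h

theorem isAv_divGen {a : ZMod M} (ha : a ≠ 0) : IsAv M (divGen M a) (H76.pFun M a) := by
  refine ⟨H76.pFun_mem_holN M a, ?_⟩
  have h := H76.infExp_pFun M ha
  have e : coeffEmb ℂ (divGen M a) = divGenC ℂ M a := by
    rw [divGen, coeffEmb, coeffMap_divGenC]
  rw [e]
  exact h

end Gens

end Fermat.Agent.S48.H428

end
end
-- ===== PACK-END S48/H428/NormAv.lean

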