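import Fermat.Agent.Pack.S44C.G0E24L3
import Fermat.Agent.Pack.S44C.G0E21L2
import Fermat.Agent.Pack.S44C.G0E13L0
import Fermat.Agent.Pack.S44C.G0E10L2
import Fermat.Agent.Pack.L1B.E2L1
import Fermat.Agent.Pack.L1B.E2L3
import Fermat.Agent.Pack.L1.E10L0

-- ===== PACK-BEGIN S48/Red1/GlueGen.lean
section


/-!
# S48 / RES (Tower A1), sub-tower A1-RED: GENERIC glue `GoodFamily + ALG ⟹ CORE` (helper588)

Port of `S18/H965/Glue.lean` (`node_glue`) to an ARBITRARY field `F₀ ⊆ ℚ((q))`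
(`F₀ = F1 M` of `S48/F1/Defs.lean`, `F₀ = F1p M p`, …).

* `OmG F₀ := ↥(laurentBaseChange Q̄ F₀)`, `LcG F₀` its constants;
* `CoreGen F₀ A m` : the Kummer-type core of S18 (`S18.CoreStatement`) for `F₀`, WITHOUT any
  condition on where the reductions live (so it implies every variant with a residue field
  `F_k ⊆ k((q))` in the hypotheses);
* `ConcreteFamily F₀ A 𝓕` : what the glue needs to know about the members of a family of models
  on `OmG F₀` (they are "concrete": `R = A ∩ Ec`, coefficients of `Fc` in `Ec`, integral series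
  of `Fc` lie in `V`, every pair of elements of `Ω` lies in some member);
* `coreGen_of_family` : `GoodFamily` + `ConcreteFamily` + `AlgMainStatement` ⟹ `CoreGen`
  for every PRIME `m ≠ ℓ`.
-/

set_option autoImplicit false

noncomputable section

namespace Fermat.Agent.S48.Red1

open ModularCurve AlgebraicCurve HahnSeries Fermat.Agent.S18

variable (F₀ : IntermediateField ℚ (LaurentSeries ℚ))

/-- The function field `Q̄ · F₀ ⊆ Q̄((q))`, as a type. -/
abbrev OmG : Type := ↥(laurentBaseChange Qb F₀)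

/-- The constants `Q̄ ⊆ OmG F₀`. -/
def LcG : Subfield (OmG F₀) := (algebraMap Qb (OmG F₀)).fieldRange

/-- **CORE** for `F₀`: two `A`-integral series of `Q̄·F₀` with the same nonzero reduction whose
quotient has a divisor divisible by `m` differ by a constant times an `m`-th power. -/
def CoreGen (A : ValuationSubring Qb) (m : ℕ) : Prop :=
  ∀ (U₁ U₂ : LaurentSeries A) (h₁ : coeffMap A.subtype U₁ ∈ laurentBaseChange Qb F₀)
    (h₂ : coeffMap A.subtype U₂ ∈ laurentBaseChange Qb F₀),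
    coeffMap (IsLocalRing.residue A) U₂ ≠ 0 →
    coeffMap (IsLocalRing.residue A) U₁ = coeffMap (IsLocalRing.residue A) U₂ →
    (∀ v : Place Qb (OmG F₀),
      (m : ℤ) ∣ v.ord (⟨_, h₁⟩ : OmG F₀) - v.ord (⟨_, h₂⟩ : OmG F₀)) →
    ∃ (c : Qb) (y : OmG F₀), c ≠ 0 ∧ y ≠ 0 ∧
      (⟨_, h₁⟩ : OmG F₀) = algebraMap Qb (OmG F₀) c * y ^ m * (⟨_, h₂⟩ : OmG F₀)

/-- What the glue needs to know about a family of models on `OmG F₀` (see the module docstring).
For a model `p = (Ec, Fc, R, V, w)`: `p.1 = Ec`, `p.2.1 = Fc`, `p.2.2.1 = R`, `p.2.2.2.1 = V`. -/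
structure ConcreteFamily (A : ValuationSubring Qb) (𝓕 : Set (Alg.Model (OmG F₀))) : Prop where
  /-- descent: every pair of elements of `Ω` lies in the function field of some member -/
  exists_member : ∀ f g : OmG F₀, ∃ p ∈ 𝓕, f ∈ p.2.1 ∧ g ∈ p.2.1
  /-- `Ec` consists of constants -/
  E_const : ∀ p ∈ 𝓕, ∀ e ∈ p.1, ∃ a : Qb, algebraMap Qb (OmG F₀) a = e
  /-- `R = A ∩ Ec` -/
  R_iff : ∀ p ∈ 𝓕, ∀ a : Qb,
    algebraMap Qb (OmG F₀) a ∈ p.2.2.1 ↔ a ∈ A ∧ algebraMap Qb (OmG F₀) a ∈ p.1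
  /-- the `q`-expansion coefficients of the elements of `Fc` lie in `Ec` -/
  coeff_mem : ∀ p ∈ 𝓕, ∀ f ∈ p.2.1, ∀ n : ℤ,
    algebraMap Qb (OmG F₀) ((f : LaurentSeries Qb).coeff n) ∈ p.1
  /-- `A`-integral elements of `Fc` lie in `V` -/
  int_mem_V : ∀ p ∈ 𝓕, ∀ f ∈ p.2.1, (∀ n : ℤ, (f : LaurentSeries Qb).coeff n ∈ A) →
    f ∈ p.2.2.2.1
  /-- `A`-integral elements of `Fc` with nonzero reduction are units of `V` -/
  unit_V : ∀ p ∈ 𝓕, ∀ f ∈ p.2.1, ∀ U : LaurentSeries A,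
    (f : LaurentSeries Qb) = coeffMap A.subtype U → coeffMap (IsLocalRing.residue A) U ≠ 0 →
    f⁻¹ ∈ p.2.2.2.1

variable {F₀}

theorem coeffMap_subtype_injective (A : ValuationSubring Qb) :
    Function.Injective (coeffMap (A.subtype : A →+* Qb)) := by
  intro U V h
  ext n
  have := congrArg (fun x => x.coeff n) h
  simpa using this

theorem series_ne_zero_of_red_ne_zero {A : ValuationSubring Qb} {U : LaurentSeries A}
    (hU : coeffMap (IsLocalRing.residue A) U ≠ 0) : coeffMap A.subtype U ≠ 0 := by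
  intro h0
  apply hU
  have h2 : U = 0 := coeffMap_subtype_injective A (by rw [h0, map_zero])
  rw [h2, map_zero]

/-- The divisor hypothesis of `CoreGen` in the valuation-subring form of `AlgMainStatement`. -/
theorem exists_unit_twistG {x₀ : OmG F₀} (hx₀ : Transcendental Qb x₀)
    [FiniteDimensional (IntermediateField.adjoin Qb {x₀}) (OmG F₀)]
    {m : ℕ} {f g : OmG F₀} (hf : f ≠ 0) (hg : g ≠ 0)
    (hdiv : ∀ v : Place Qb (OmG F₀), (m : ℤ) ∣ v.ord f - v.ord g)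
    (O : ValuationSubring (OmG F₀)) (hO : ∀ a ∈ LcG F₀, a ∈ O) :
    ∃ t : OmG F₀, t ≠ 0 ∧ (f / g) * t ^ m ∈ O ∧ ((f / g) * t ^ m)⁻¹ ∈ O := by
  by_cases hO' : O = ⊤
  · subst hO'
    exact ⟨1, one_ne_zero, ValuationSubring.mem_top _, ValuationSubring.mem_top _⟩
  obtain ⟨v, hv⟩ := Fermat.Agent.Lib.RR.H443.exists_place_eq O
    (fun a => hO _ ⟨a, rfl⟩) hO' hx₀
  obtain ⟨k, hk⟩ := hdiv v
  obtain ⟨π, hπ⟩ := Fermat.Agent.Lib.RR.exists_ord_eq_one v
  have hπ0 : π ≠ 0 := Fermat.Agent.Lib.RR.ne_zero_of_ord_ne_zero v (by rw [hπ]; exact one_ne_zero)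
  have ht0 : π ^ (-k) ≠ 0 := zpow_ne_zero _ hπ0
  have hfg : f / g ≠ 0 := div_ne_zero hf hg
  have hord : v.ord ((f / g) * (π ^ (-k)) ^ m) = 0 := by
    rw [v.ord_mul hfg (pow_ne_zero _ ht0), div_eq_mul_inv, v.ord_mul hf (inv_ne_zero hg),
      v.ord_inv, Fermat.Agent.Lib.RR.ord_pow, v.ord_zpow, hπ]
    have : v.ord f = v.ord g + m * k := by linarith
    rw [this]
    ring
  refine ⟨π ^ (-k), ht0, ?_, ?_⟩
  · rw [← hv]
    exact Fermat.Agent.Lib.RR.mem_of_ord_nonneg v (by rw [hord])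
  · rw [← hv]
    exact Fermat.Agent.Lib.RR.mem_of_ord_nonneg v (by rw [v.ord_inv, hord, neg_zero])

/-- **`u ≡ 1 mod w`** in a concrete family. -/
theorem sub_one_mul_inv_mem_V {A : ValuationSubring Qb} {𝓕 : Set (Alg.Model (OmG F₀))}
    (hc : ConcreteFamily F₀ A 𝓕) {p : Alg.Model (OmG F₀)} (hp : p ∈ 𝓕)
    (hw : p.2.2.2.2 ∈ p.2.2.1) (hw0 : p.2.2.2.2 ≠ 0)
    (hRE : ∀ r ∈ p.2.2.1, r ∈ p.1) (hEF : p.1 ≤ p.2.1)
    (hgen : ∀ r ∈ p.2.2.1, r⁻¹ ∉ p.2.2.1 → r * (p.2.2.2.2)⁻¹ ∈ p.2.2.1)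
    {U₁ U₂ : LaurentSeries A} (h₁ : coeffMap A.subtype U₁ ∈ laurentBaseChange Qb F₀)
    (h₂ : coeffMap A.subtype U₂ ∈ laurentBaseChange Qb F₀)
    (hU₂ : coeffMap (IsLocalRing.residue A) U₂ ≠ 0)
    (hred : coeffMap (IsLocalRing.residue A) U₁ = coeffMap (IsLocalRing.residue A) U₂)
    (hf₁ : (⟨_, h₁⟩ : OmG F₀) ∈ p.2.1) (hf₂ : (⟨_, h₂⟩ : OmG F₀) ∈ p.2.1) :
    ((⟨_, h₁⟩ : OmG F₀) / (⟨_, h₂⟩ : OmG F₀) - 1) * (p.2.2.2.2)⁻¹ ∈ p.2.2.2.1 := by
  obtain ⟨Ec, Fc, R, V, w⟩ := p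
  simp only at hw hw0 hRE hEF hgen hf₁ hf₂ ⊢
  set f₁ : OmG F₀ := ⟨_, h₁⟩ with hf₁def
  set f₂ : OmG F₀ := ⟨_, h₂⟩ with hf₂def
  have hf₂0 : f₂ ≠ 0 := by
    intro h0
    exact series_ne_zero_of_red_ne_zero hU₂ (congrArg Subtype.val h0)
  obtain ⟨w', hw'⟩ := hc.E_const _ hp w (hRE w hw)
  have hw'0 : w' ≠ 0 := by
    rintro rfl
    exact hw0 (by rw [← hw', map_zero])
  have hwF : w ∈ Fc := hEF (hRE w hw)
  set f : OmG F₀ := (f₁ - f₂) * w⁻¹ with hf
  have hfF : f ∈ Fc := mul_mem (sub_mem hf₁ hf₂) (inv_mem hwF)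
  -- coefficients of `f`
  have hcoeff : ∀ n : ℤ, (f : LaurentSeries Qb).coeff n
      = ((U₁.coeff n : Qb) - (U₂.coeff n : Qb)) * w'⁻¹ := by
    intro n
    have e1 : (f : LaurentSeries Qb) = (coeffMap A.subtype U₁ - coeffMap A.subtype U₂)
        * (algebraMap Qb (LaurentSeries Qb) w')⁻¹ := by
      rw [hf, ← hw']
      rfl
    rw [e1, ← map_inv₀, algebraMap_laurentSeries_eq_single, HahnSeries.coeff_mul_single_zero,
      HahnSeries.coeff_sub, coeffMap_coeff, coeffMap_coeff]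
    rfl
  have hcoeffA : ∀ n : ℤ, (f : LaurentSeries Qb).coeff n ∈ A := by
    intro n
    rw [hcoeff]
    set d : A := U₁.coeff n - U₂.coeff n with hd
    have hdval : ((U₁.coeff n : Qb) - (U₂.coeff n : Qb)) = (d : Qb) := rfl
    rw [hdval]
    have hdE : algebraMap Qb (OmG F₀) (d : Qb) ∈ Ec := by
      have h := hc.coeff_mem _ hp (f₁ - f₂) (sub_mem hf₁ hf₂) n
      have e2 : ((f₁ - f₂ : OmG F₀) : LaurentSeries Qb).coeff n = (d : Qb) := by
        show (coeffMap A.subtype U₁ - coeffMap A.subtype U₂).coeff n = _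
        rw [HahnSeries.coeff_sub, coeffMap_coeff, coeffMap_coeff]
        rfl
      rwa [e2] at h
    have hres : IsLocalRing.residue A d = 0 := by
      have := congrArg (fun x => x.coeff n) hred
      simp only [coeffMap_coeff] at this
      rw [hd, map_sub, this, sub_self]
    have hnu : ¬ IsUnit d := by
      rw [IsLocalRing.residue_eq_zero_iff] at hres
      exact (IsLocalRing.mem_maximalIdeal _).mp hres
    by_cases hd0 : (d : Qb) = 0
    · rw [hd0, zero_mul]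
      exact A.zero_mem
    have hr : algebraMap Qb (OmG F₀) (d : Qb) ∈ R := (hc.R_iff _ hp _).mpr ⟨d.2, hdE⟩
    have hr' : (algebraMap Qb (OmG F₀) (d : Qb))⁻¹ ∉ R := by
      intro hmem
      rw [← map_inv₀] at hmem
      have hbA : (d : Qb)⁻¹ ∈ A := ((hc.R_iff _ hp _).mp hmem).1
      apply hnu
      refine IsUnit.of_mul_eq_one (⟨(d : Qb)⁻¹, hbA⟩ : A) (Subtype.ext ?_)
      change (d : Qb) * (d : Qb)⁻¹ = 1
      rw [mul_inv_cancel₀ hd0]
    have h3 := hgen _ hr hr'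
    rw [← hw', ← map_inv₀, ← map_mul] at h3
    exact ((hc.R_iff _ hp _).mp h3).1
  have hfV : f ∈ V := hc.int_mem_V _ hp f hfF hcoeffA
  have hf₂V : f₂⁻¹ ∈ V := hc.unit_V _ hp f₂ hf₂ U₂ rfl hU₂
  have : (f₁ / f₂ - 1) * w⁻¹ = f * f₂⁻¹ := by
    rw [hf]
    field_simp
  rw [this]
  exact V.mul_mem hfV hf₂V

/-- **GENERIC GLUE.**  `GoodFamily` + `ConcreteFamily` + ALG ⟹ CORE, for every prime `m ≠ ℓ`. -/
theorem coreGen_of_family {ℓ : ℕ} (hℓ : ℓ.Prime) (A : ValuationSubring Qb)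
    (hA : A.LiesOverPrime ℓ) {x : OmG F₀} {S : Finset (OmG F₀)}
    {𝓕 : Set (Alg.Model (OmG F₀))}
    [FiniteDimensional (IntermediateField.adjoin Qb {x}) (OmG F₀)]
    (hfam : Alg.GoodFamily (LcG F₀) x S 𝓕) (hc : ConcreteFamily F₀ A 𝓕)
    (halg : Alg.AlgMainStatement (LcG F₀) x S 𝓕)
    (m : ℕ) (hmp : m.Prime) (hm : ¬ ℓ ∣ m) : CoreGen F₀ A m := by
  classical
  intro U₁ U₂ h₁ h₂ hU₂ hred hdiv
  set f₁ : OmG F₀ := ⟨_, h₁⟩ with hf₁def
  set f₂ : OmG F₀ := ⟨_, h₂⟩ with hf₂def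
  have hU₁ : coeffMap (IsLocalRing.residue A) U₁ ≠ 0 := by rw [hred]; exact hU₂
  have hf₁0 : f₁ ≠ 0 := fun h0 =>
    series_ne_zero_of_red_ne_zero hU₁ (congrArg Subtype.val h0)
  have hf₂0 : f₂ ≠ 0 := fun h0 =>
    series_ne_zero_of_red_ne_zero hU₂ (congrArg Subtype.val h0)
  obtain ⟨p, hp, hf₁, hf₂⟩ := hc.exists_member f₁ f₂
  have hgood := hfam.good p hp
  have hxtr : Transcendental Qb x := by
    intro halgx
    apply hgood.x_transcendental
    obtain ⟨P, hP0, hP⟩ := halgx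
    let e : Qb →+* (LcG F₀) := (algebraMap Qb (OmG F₀)).rangeRestrictField
    refine ⟨P.map e, ?_, ?_⟩
    · exact (Polynomial.map_ne_zero_iff e.injective).mpr hP0
    · rw [Polynomial.aeval_def, Polynomial.eval₂_map]
      rw [Polynomial.aeval_def] at hP
      exact hP
  have hm0 : m ≠ 0 := hmp.ne_zero
  have hu0 : f₁ / f₂ ≠ 0 := div_ne_zero hf₁0 hf₂0
  have huV : (f₁ / f₂ - 1) * (p.2.2.2.2)⁻¹ ∈ p.2.2.2.1 :=
    sub_one_mul_inv_mem_V hc hp hgood.w_mem hgood.w_ne_zero (fun r hr => hgood.R_le hr)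
      hgood.E_le_F hgood.w_gen h₁ h₂ hU₂ hred hf₁ hf₂
  have hmR : ((m : OmG F₀))⁻¹ ∈ p.2.2.1 := by
    have h1 : ((m : Qb))⁻¹ ∈ A :=
      Fermat.Agent.S18.H965.natCast_inv_mem_valuationSubring hℓ A hA hm
    have h2 : algebraMap Qb (OmG F₀) ((m : Qb))⁻¹ = ((m : OmG F₀))⁻¹ := by
      rw [map_inv₀, map_natCast]
    rw [← h2]
    refine (hc.R_iff _ hp _).mpr ⟨h1, ?_⟩
    rw [h2]
    exact inv_mem (natCast_mem _ m)
  obtain ⟨y, c, hcL, hc0, huy⟩ := halg hfam p hp m hmp hmR (f₁ / f₂) (div_mem hf₁ hf₂) hu0 huV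
    (exists_unit_twistG hxtr hf₁0 hf₂0 hdiv)
  obtain ⟨c', rfl⟩ := hcL
  refine ⟨c', y, ?_, ?_, ?_⟩
  · rintro rfl
    exact hc0 (map_zero _)
  · rintro rfl
    rw [zero_pow hm0, mul_zero] at huy
    exact hu0 huy
  · rw [← huy, div_mul_cancel₀ _ hf₂0]

end Fermat.Agent.S48.Red1

end
end
-- ===== PACK-END S48/Red1/GlueGen.lean

-- ===== PACK-BEGIN S48/H332/PkgFrac.lean
section


/-!
# Tower A1 / A1-FF, piece PKG-GEN (helper332) — generic function fields `ℚ̄(S) ⊆ ℚ̄((q))`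

GENERIC port of `S24/Mod/H997Frac.lean`.  A `GenField` is a set `S` of Laurent series over `ℚ̄`
containing `j`, together with a field `F = ℚ̄(S)` (given up to a propositional equality, so that
`F` may be `laurentBaseChange ℚ̄ F₀` for `F₀ = ℚ(S₀)`, see `laurentBaseChange_adjoin`).

* `GenField.RG`     : the `ℚ̄`-subalgebra generated by `S`;
* `GenField.inclRG` : the inclusion `RG → F`;
* `GenField.liftF`  : every injective ring hom `RG →+* L` into a field extends to `F →+* L`.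
-/

set_option autoImplicit false

noncomputable section

open ModularCurve HahnSeries IntermediateField

namespace Fermat.Agent.S48.H332

open Fermat.Agent.S24 Fermat.Agent.S24.H997

/-- The base change to `ℚ̄` of the field generated over `ℚ` by a set `S₀` of rational Laurent
series is generated over `ℚ̄` by the image of `S₀`. -/
theorem laurentBaseChange_adjoin (S₀ : Set (LaurentSeries ℚ)) :
    laurentBaseChange Kbar (IntermediateField.adjoin ℚ S₀)
      = IntermediateField.adjoin Kbar (⇑(coeffEmb Kbar) '' S₀) := by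
  apply le_antisymm
  · rw [laurentBaseChange, IntermediateField.adjoin_le_iff]
    rintro _ ⟨x, hx, rfl⟩
    have hx' : x ∈ IntermediateField.adjoin ℚ S₀ := hx
    induction hx' using IntermediateField.adjoin_induction with
    | mem y hy => exact IntermediateField.subset_adjoin Kbar _ ⟨y, hy, rfl⟩
    | algebraMap c =>
        have h : coeffEmb Kbar (algebraMap ℚ (LaurentSeries ℚ) c)
            = algebraMap Kbar (LaurentSeries Kbar) (algebraMap ℚ Kbar c) := by
          rw [algebraMap_apply_eq_single, algebraMap_laurentSeries_eq_single, coeffEmb,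
            coeffMap_single]
        show coeffEmb Kbar (algebraMap ℚ (LaurentSeries ℚ) c) ∈ _
        rw [h]
        exact IntermediateField.algebraMap_mem _ _
    | add y z _ _ hy hz =>
        show coeffEmb Kbar (y + z) ∈ _
        rw [map_add]
        exact add_mem (hy (by assumption)) (hz (by assumption))
    | inv y _ hy =>
        show coeffEmb Kbar (y⁻¹) ∈ _
        rw [map_inv₀]
        exact inv_mem (hy (by assumption))
    | mul y z _ _ hy hz =>
        show coeffEmb Kbar (y * z) ∈ _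
        rw [map_mul]
        exact mul_mem (hy (by assumption)) (hz (by assumption))
  · rw [laurentBaseChange]
    exact IntermediateField.adjoin.mono _ _ _
      (Set.image_mono (IntermediateField.subset_adjoin ℚ _))

/-- The series `j ∈ ℚ̄((q))`. -/
def jBar : LaurentSeries Kbar := coeffEmb Kbar jq

/-- A field `F = ℚ̄(S) ⊆ ℚ̄((q))` generated by a set `S` of Laurent series containing `j`. -/
structure GenField where
  /-- the generators -/
  S : Set (LaurentSeries Kbar)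
  /-- the field -/
  F : IntermediateField Kbar (LaurentSeries Kbar)
  hF : F = IntermediateField.adjoin Kbar S
  hj : jBar ∈ S

/-- The generic field attached to a set `S₀` of RATIONAL series containing `jq`:
`F = laurentBaseChange ℚ̄ (ℚ(S₀))`. -/
def GenField.ofRat (S₀ : Set (LaurentSeries ℚ)) (hj : jq ∈ S₀) : GenField where
  S := ⇑(coeffEmb Kbar) '' S₀
  F := laurentBaseChange Kbar (IntermediateField.adjoin ℚ S₀)
  hF := laurentBaseChange_adjoin S₀
  hj := ⟨jq, hj, rfl⟩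

namespace GenField

variable (P : GenField)

/-- The polynomial ring `ℚ̄[S] ⊆ ℚ̄((q))`. -/
def RG : Subalgebra Kbar (LaurentSeries Kbar) := Algebra.adjoin Kbar P.S

theorem subset_F : P.S ⊆ (P.F : Set (LaurentSeries Kbar)) := by
  rw [P.hF]
  exact IntermediateField.subset_adjoin Kbar P.S

theorem RG_le : P.RG ≤ P.F.toSubalgebra := by
  rw [P.hF]
  exact IntermediateField.algebra_adjoin_le_adjoin Kbar P.S

/-- The inclusion `ℚ̄[S] → F`. -/
def inclRG : P.RG →ₐ[Kbar] P.F := Subalgebra.inclusion P.RG_le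

@[simp] theorem coe_inclRG (r : P.RG) : ((P.inclRG r : P.F) : LaurentSeries Kbar) = r := rfl

theorem inclRG_injective : Function.Injective P.inclRG :=
  Subalgebra.inclusion_injective P.RG_le

theorem exists_div_inclRG (f : P.F) :
    ∃ r t : P.RG, t ≠ 0 ∧ f = P.inclRG r / P.inclRG t := by
  have hf : (f : LaurentSeries Kbar) ∈ IntermediateField.adjoin Kbar P.S := by
    rw [← P.hF]; exact f.2
  obtain ⟨r, hr, s, hs, h⟩ := IntermediateField.mem_adjoin_iff_div.mp hf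
  by_cases hs0 : s = 0
  · refine ⟨0, 1, one_ne_zero, ?_⟩
    apply Subtype.ext
    rw [h, hs0, div_zero]
    simp
  · refine ⟨⟨r, hr⟩, ⟨s, hs⟩, fun h0 => hs0 (congrArg Subtype.val h0), ?_⟩
    apply Subtype.ext
    rw [h]
    simp

/-- A generator as an element of `ℚ̄[S]`. -/
def genR {s : LaurentSeries Kbar} (hs : s ∈ P.S) : P.RG := ⟨s, Algebra.subset_adjoin hs⟩

/-- A generator as an element of `F`. -/
def genF {s : LaurentSeries Kbar} (hs : s ∈ P.S) : P.F := ⟨s, P.subset_F hs⟩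

@[simp] theorem inclRG_genR {s : LaurentSeries Kbar} (hs : s ∈ P.S) :
    P.inclRG (P.genR hs) = P.genF hs := rfl

/-- The `j`-function as an element of `F`. -/
def jF : P.F := P.genF P.hj

@[simp] theorem coe_jF : ((P.jF : P.F) : LaurentSeries Kbar) = jBar := rfl

theorem inclRG_genR_j : P.inclRG (P.genR P.hj) = P.jF := rfl

section Lift

variable {P}
variable {L : Type*} [Field L]

/-- Extension of an injective ring hom `ℚ̄[S] →+* L` to the fraction field `F`. -/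
def liftF (s : P.RG →+* L) (hs : Function.Injective s) : P.F →+* L :=
  letI : Algebra P.RG P.F := P.inclRG.toRingHom.toAlgebra
  haveI : FaithfulSMul P.RG P.F :=
    (faithfulSMul_iff_algebraMap_injective _ _).mpr P.inclRG_injective
  haveI : IsFractionRing P.RG P.F :=
    IsFractionRing.of_field _ _ fun z => by
      obtain ⟨r, t, -, h⟩ := P.exists_div_inclRG z
      exact ⟨r, t, h⟩
  IsFractionRing.lift hs

theorem liftF_inclRG (s : P.RG →+* L) (hs : Function.Injective s) (r : P.RG) :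
    _root_.Fermat.Agent.S48.H332.GenField.liftF s hs (P.inclRG r) = s r := by
  let _ : Algebra P.RG P.F := P.inclRG.toRingHom.toAlgebra
  have : FaithfulSMul P.RG P.F :=
    (faithfulSMul_iff_algebraMap_injective _ _).mpr P.inclRG_injective
  have : IsFractionRing P.RG P.F :=
    IsFractionRing.of_field _ _ fun z => by
      obtain ⟨r, t, -, h⟩ := P.exists_div_inclRG z
      exact ⟨r, t, h⟩
  exact IsFractionRing.lift_algebraMap hs r

theorem liftF_div (s : P.RG →+* L) (hs : Function.Injective s) (r t : P.RG) :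
    _root_.Fermat.Agent.S48.H332.GenField.liftF s hs (P.inclRG r / P.inclRG t) = s r / s t := by
  rw [map_div₀, liftF_inclRG, liftF_inclRG]

theorem liftF_algebraMap (s : P.RG →+* L) (hs : Function.Injective s) (c : Kbar) :
    _root_.Fermat.Agent.S48.H332.GenField.liftF s hs (algebraMap Kbar P.F c) = s (algebraMap Kbar P.RG c) := by
  rw [← liftF_inclRG s hs]
  congr 1

end Lift

end GenField

end Fermat.Agent.S48.H332

end
end
-- ===== PACK-END S48/H332/PkgFrac.lean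

-- ===== PACK-BEGIN S48/H332/PkgBridge.lean
section


/-!
# Tower A1 / A1-FF, piece PKG-GEN (helper332) — generic analytic interface and the bridge

GENERIC port of `S24/Mod/H997Bridge.lean`.  `GenBase M Γ P` packages a ring `Hol` of functions
`ℍ → ℂ`, stable under `SL(2,ℤ)`, containing for every generator `s ∈ P.S` an *avatar* `G s`,
invariant under `Γ`, such that the avatars jointly distinguish the cosets of `Γ`, together with ONE
injective expansion ring hom `qexp : Hol →+* ℂ((z))` (expansion at `i∞` in `z = q^{1/M}`) with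
`qexp (G s) = s(z^M)` (coefficients embedded by `ιK`).

From this we construct the *bridge* `e : ℚ̄[S] →+* Hol` (injective, `e s = G s`).
-/

set_option autoImplicit false

noncomputable section

open ModularCurve HahnSeries UpperHalfPlane
open scoped MatrixGroups

namespace Fermat.Agent.S48.H332

open Fermat.Agent.S24 Fermat.Agent.S24.H997

/-- Generic analytic interface: level of the expansion variable `M`, invariance group `Γ`
(necessarily containing `-1`), generated field `P`. -/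
structure GenBase (M : ℕ) [NeZero M] (Γ : Subgroup SL(2, ℤ)) (P : GenField) where
  /-- the ring of nice functions on `ℍ` -/
  Hol : Subring (ℍ → ℂ)
  const_mem : ∀ c : ℂ, (fun _ : ℍ => c) ∈ Hol
  comp_mem : ∀ (g : SL(2, ℤ)) (f : ℍ → ℂ), f ∈ Hol → compSL g f ∈ Hol
  /-- the avatar of a generator -/
  G : LaurentSeries Kbar → ℍ → ℂ
  G_mem : ∀ s, s ∈ P.S → G s ∈ Hol
  G_j_inv : ∀ (g : SL(2, ℤ)) (τ : ℍ), G jBar (g • τ) = G jBar τ
  G_inv : ∀ s, s ∈ P.S → ∀ g ∈ Γ, ∀ τ : ℍ, G s (g • τ) = G s τ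
  G_distinct : ∀ g : SL(2, ℤ), (∀ s, s ∈ P.S → ∀ τ : ℍ, G s (g • τ) = G s τ) → g ∈ Γ
  /-- expansion at `i∞` in the variable `z = q^{1/M}` -/
  qexp : Hol →+* LaurentSeries ℂ
  qexp_injective : Function.Injective qexp
  qexp_const : ∀ c : ℂ, qexp ⟨_, const_mem c⟩ = HahnSeries.C c
  qexp_G : ∀ (s : LaurentSeries Kbar) (hs : s ∈ P.S), qexp ⟨G s, G_mem s hs⟩ = HolBase.Φ M s

namespace GenBase

variable {M : ℕ} [NeZero M] {Γ : Subgroup SL(2, ℤ)} {P : GenField} (B : GenBase M Γ P)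

/-- constant functions as elements of `Hol` -/
def constH (c : ℂ) : B.Hol := ⟨_, B.const_mem c⟩

/-- the avatar of a generator as an element of `Hol` -/
def GH {s : LaurentSeries Kbar} (hs : s ∈ P.S) : B.Hol := ⟨B.G s, B.G_mem s hs⟩

/-- the `j`-function as an element of `Hol` -/
def JH : B.Hol := B.GH P.hj

/-- precomposition with `g ∈ SL(2,ℤ)` as a ring endomorphism of `Hol` -/
def compH (g : SL(2, ℤ)) : B.Hol →+* B.Hol where
  toFun h := ⟨compSL g h.1, B.comp_mem g h.1 h.2⟩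
  map_one' := rfl
  map_mul' _ _ := rfl
  map_zero' := rfl
  map_add' _ _ := rfl

@[simp] theorem compH_apply (g : SL(2, ℤ)) (h : B.Hol) (τ : ℍ) :
    (B.compH g h : ℍ → ℂ) τ = (h : ℍ → ℂ) (g • τ) := rfl

theorem compH_one (h : B.Hol) : B.compH 1 h = h := by
  apply Subtype.ext; funext τ; simp

theorem compH_mul (g g' : SL(2, ℤ)) (h : B.Hol) :
    B.compH (g * g') h = B.compH g' (B.compH g h) := by
  apply Subtype.ext; funext τ; simp [mul_smul]

theorem compH_injective (g : SL(2, ℤ)) : Function.Injective (B.compH g) := by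
  intro h h' hh
  have := congrArg (B.compH g⁻¹) hh
  rwa [← compH_mul, ← compH_mul, mul_inv_cancel, compH_one, compH_one] at this

theorem compH_constH (g : SL(2, ℤ)) (c : ℂ) : B.compH g (B.constH c) = B.constH c := rfl

theorem compH_JH (g : SL(2, ℤ)) : B.compH g B.JH = B.JH := by
  apply Subtype.ext; funext τ; exact B.G_j_inv g τ

theorem compH_GH_of_mem {s : LaurentSeries Kbar} (hs : s ∈ P.S) {g : SL(2, ℤ)}
    (hg : g ∈ Γ) : B.compH g (B.GH hs) = B.GH hs := by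
  apply Subtype.ext; funext τ; exact B.G_inv s hs g hg τ

include B in
/-- `-1 ∈ Γ` (it acts trivially on `ℍ`). -/
theorem neg_one_mem : (-1 : SL(2, ℤ)) ∈ Γ := by
  apply B.G_distinct
  intro s _ τ
  rw [ModularGroup.SL_neg_smul, one_smul]

theorem qexp_GH {s : LaurentSeries Kbar} (hs : s ∈ P.S) :
    B.qexp (B.GH hs) = HolBase.Φ M s := B.qexp_G s hs

theorem Φ_mem_range {r : LaurentSeries Kbar} (hr : r ∈ P.RG) :
    HolBase.Φ M r ∈ B.qexp.range := by
  induction hr using Algebra.adjoin_induction with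
  | mem x hx => exact ⟨B.GH hx, B.qexp_GH hx⟩
  | algebraMap c =>
      exact ⟨B.constH (ιK c), by rw [HolBase.Φ_algebraMap]; exact B.qexp_const _⟩
  | add _ _ _ _ hx hy => rw [map_add]; exact add_mem hx hy
  | mul _ _ _ _ hx hy => rw [map_mul]; exact mul_mem hx hy

/-- `Hol ≃ range qexp`. -/
def qexpEquiv : B.Hol ≃+* B.qexp.range :=
  RingEquiv.ofBijective B.qexp.rangeRestrict
    ⟨fun x y h => B.qexp_injective (congrArg Subtype.val h), B.qexp.rangeRestrict_surjective⟩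

/-- The bridge `e : ℚ̄[S] →+* Hol`. -/
def bridge : P.RG →+* B.Hol :=
  (B.qexpEquiv.symm : B.qexp.range →+* B.Hol).comp
    (((HolBase.Φ M).comp P.RG.val.toRingHom).codRestrict B.qexp.range
      fun r => B.Φ_mem_range r.2)

theorem qexp_bridge (r : P.RG) : B.qexp (B.bridge r) = HolBase.Φ M (r : LaurentSeries Kbar) := by
  have h := B.qexpEquiv.apply_symm_apply
    ((((HolBase.Φ M).comp P.RG.val.toRingHom).codRestrict B.qexp.range
      fun r => B.Φ_mem_range r.2) r)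
  exact congrArg Subtype.val h

theorem bridge_injective : Function.Injective B.bridge := by
  intro r r' h
  apply Subtype.ext
  apply HolBase.Φ_injective (N := M)
  rw [← qexp_bridge, ← qexp_bridge, h]

theorem bridge_algebraMap (c : Kbar) : B.bridge (algebraMap Kbar P.RG c) = B.constH (ιK c) := by
  apply B.qexp_injective
  rw [qexp_bridge]
  show HolBase.Φ M (algebraMap Kbar (LaurentSeries Kbar) c) = _
  rw [HolBase.Φ_algebraMap]
  exact (B.qexp_const _).symm

theorem bridge_genR {s : LaurentSeries Kbar} (hs : s ∈ P.S) :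
    B.bridge (P.genR hs) = B.GH hs := by
  apply B.qexp_injective
  rw [qexp_bridge, qexp_GH]
  rfl

theorem bridge_genR_j : B.bridge (P.genR P.hj) = B.JH := B.bridge_genR P.hj

/-- Every `e r` is `Γ`-invariant. -/
theorem compH_bridge_of_mem {g : SL(2, ℤ)} (hg : g ∈ Γ) (r : P.RG) :
    B.compH g (B.bridge r) = B.bridge r := by
  obtain ⟨r, hr⟩ := r
  induction hr using Algebra.adjoin_induction with
  | mem x hx =>
      have : (⟨x, Algebra.subset_adjoin hx⟩ : P.RG) = P.genR hx := rfl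
      rw [this, bridge_genR]
      exact B.compH_GH_of_mem hx hg
  | algebraMap c =>
      have : (⟨algebraMap Kbar (LaurentSeries Kbar) c, Subalgebra.algebraMap_mem _ c⟩ : P.RG)
          = algebraMap Kbar P.RG c := rfl
      rw [this, bridge_algebraMap]
      rfl
  | add x y hx hy ihx ihy =>
      have : (⟨x + y, add_mem hx hy⟩ : P.RG) = ⟨x, hx⟩ + ⟨y, hy⟩ := rfl
      rw [this, map_add, map_add, ihx, ihy]
  | mul x y hx hy ihx ihy =>
      have : (⟨x * y, mul_mem hx hy⟩ : P.RG) = ⟨x, hx⟩ * ⟨y, hy⟩ := rfl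
      rw [this, map_mul, map_mul, ihx, ihy]

/-- The value of `e r` at a point, for `r` with a known avatar: the bridge is determined by
`qexp`.  If `h ∈ Hol` has `qexp h = Φ r` then `e r = h`. -/
theorem bridge_eq_of_qexp {r : P.RG} {h : B.Hol}
    (hh : B.qexp h = HolBase.Φ M (r : LaurentSeries Kbar)) : B.bridge r = h := by
  apply B.qexp_injective
  rw [qexp_bridge, hh]

end GenBase

end Fermat.Agent.S48.H332

end
end
-- ===== PACK-END S48/H332/PkgBridge.lean

-- ===== PACK-BEGIN S48/H332/PkgLocal.lean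
section


/-!
# Tower A1 / A1-FF, piece PKG-GEN (helper332) — `LocalData` from an expansion with rotation data

GENERIC port of `S24/Mod/H997Local.lean` (the relation `RotRel` is reused from there).
The index set of the embeddings is the coset space `SL(2,ℤ) ⧸ Γ`.
-/

set_option autoImplicit false

noncomputable section

open ModularCurve HahnSeries UpperHalfPlane
open scoped MatrixGroups

namespace Fermat.Agent.S48.H332

open Fermat.Agent.S24 Fermat.Agent.S24.H997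

/-- The coset space `SL₂(ℤ) / Γ`. -/
abbrev XG (Γ : Subgroup SL(2, ℤ)) : Type := SL(2, ℤ) ⧸ Γ

/-- The permutation of `SL₂(ℤ) / Γ` induced by left multiplication by `g`. -/
def permG (Γ : Subgroup SL(2, ℤ)) (g : SL(2, ℤ)) : Equiv.Perm (XG Γ) := MulAction.toPerm g

theorem permG_inv (Γ : Subgroup SL(2, ℤ)) (g : SL(2, ℤ)) : permG Γ g⁻¹ = (permG Γ g)⁻¹ := by
  ext x
  simp [permG]

theorem permG_one (Γ : Subgroup SL(2, ℤ)) : permG Γ 1 = 1 := by
  ext x
  simp [permG]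

theorem permG_mk (Γ : Subgroup SL(2, ℤ)) (g h : SL(2, ℤ)) :
    permG Γ g (h : XG Γ) = ((g * h : SL(2, ℤ)) : XG Γ) := rfl

variable {M : ℕ} [NeZero M] {Γ : Subgroup SL(2, ℤ)} {P : GenField}

/-- An abstract injective expansion ring hom on `Hol`. -/
structure GenExpansion (B : GenBase M Γ P) where
  E : B.Hol →+* LaurentSeries ℂ
  inj : Function.Injective E
  const : ∀ c : ℂ, E (B.constH c) = HahnSeries.C c

/-- Rotation data for an expansion: precomposition with `ε` rotates the local coordinate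
by the primitive `m`-th root of unity `ζ` (to first order). -/
structure GenRotData (B : GenBase M Γ P) (X : GenExpansion B) (ε : SL(2, ℤ)) where
  m : ℕ
  m_pos : 0 < m
  ζ : ℂ
  hζ : IsPrimitiveRoot ζ m
  rot : ∀ h : B.Hol, RotRel ζ (X.E h) (X.E (B.compH ε h))

namespace GenBase

variable (B : GenBase M Γ P) (X : GenExpansion B)

/-- the ring hom `ℚ̄[S] → ℂ((z))`, `r ↦ E (e r ∘ g⁻¹)` -/
def sG (g : SL(2, ℤ)) : P.RG →+* LaurentSeries ℂ :=
  X.E.comp ((B.compH g⁻¹).comp B.bridge)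

theorem sG_apply (g : SL(2, ℤ)) (r : P.RG) :
    B.sG X g r = X.E (B.compH g⁻¹ (B.bridge r)) := rfl

theorem sG_injective (g : SL(2, ℤ)) : Function.Injective (B.sG X g) :=
  X.inj.comp ((B.compH_injective g⁻¹).comp B.bridge_injective)

/-- the embedding `F → ℂ((z))` attached to `g` -/
def sigmaG (g : SL(2, ℤ)) : P.F →+* LaurentSeries ℂ :=
  GenField.liftF (B.sG X g) (B.sG_injective X g)

theorem sigmaG_inclRG (g : SL(2, ℤ)) (r : P.RG) :
    B.sigmaG X g (P.inclRG r) = X.E (B.compH g⁻¹ (B.bridge r)) :=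
  GenField.liftF_inclRG _ _ r

theorem sigmaG_algebraMap (g : SL(2, ℤ)) (c : Kbar) :
    B.sigmaG X g (algebraMap Kbar P.F c) = HahnSeries.C (ιK c) := by
  rw [sigmaG, GenField.liftF_algebraMap, sG_apply, bridge_algebraMap, compH_constH, X.const]

theorem sigmaG_genF (g : SL(2, ℤ)) {s : LaurentSeries Kbar} (hs : s ∈ P.S) :
    B.sigmaG X g (P.genF hs) = X.E (B.compH g⁻¹ (B.GH hs)) := by
  rw [← GenField.inclRG_genR, sigmaG_inclRG, bridge_genR]

theorem sigmaG_jF (g : SL(2, ℤ)) :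
    B.sigmaG X g P.jF = X.E B.JH := by
  rw [← GenField.inclRG_genR_j, sigmaG_inclRG, bridge_genR_j, compH_JH]

theorem sG_mul_of_mem (g : SL(2, ℤ)) {δ : SL(2, ℤ)} (hδ : δ ∈ Γ) :
    B.sG X (g * δ) = B.sG X g := by
  ext1 r
  rw [sG_apply, sG_apply, mul_inv_rev, compH_mul,
    B.compH_bridge_of_mem (inv_mem hδ)]

theorem sigmaG_mul_of_mem (g : SL(2, ℤ)) {δ : SL(2, ℤ)}
    (hδ : δ ∈ Γ) : B.sigmaG X (g * δ) = B.sigmaG X g := by
  unfold sigmaG
  congr 1
  exact B.sG_mul_of_mem X g hδ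

theorem sigmaG_eq_of_mk_eq {g g' : SL(2, ℤ)}
    (h : (g : XG Γ) = (g' : XG Γ)) : B.sigmaG X g = B.sigmaG X g' := by
  have hmem : g⁻¹ * g' ∈ Γ := QuotientGroup.eq.mp h
  have := B.sigmaG_mul_of_mem X g hmem
  rw [mul_inv_cancel_left] at this
  exact this.symm

/-- the embedding attached to a coset -/
def sigmaX (x : XG Γ) : P.F →+* LaurentSeries ℂ := B.sigmaG X (Quotient.out x)

theorem sigmaX_mk (g : SL(2, ℤ)) : B.sigmaX X (g : XG Γ) = B.sigmaG X g :=
  B.sigmaG_eq_of_mk_eq X (QuotientGroup.out_eq' _)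

theorem sigmaX_injective : Function.Injective (B.sigmaX X) := by
  intro x y hxy
  obtain ⟨g, rfl⟩ := QuotientGroup.mk_surjective x
  obtain ⟨g', rfl⟩ := QuotientGroup.mk_surjective y
  rw [sigmaX_mk, sigmaX_mk] at hxy
  apply QuotientGroup.eq.mpr
  apply B.G_distinct
  intro s hs τ
  have h1 := congrArg (fun σ => σ (P.genF hs)) hxy
  simp only [sigmaG_genF] at h1
  have h2 := X.inj h1
  have h3 := congrArg (fun h : B.Hol => (h : ℍ → ℂ) (g' • τ)) h2
  simp only [compH_apply] at h3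
  rw [← mul_smul, ← mul_smul, inv_mul_cancel, one_smul] at h3
  exact h3

theorem rotRel_sigmaG (ε : SL(2, ℤ)) (R : GenRotData B X ε) (g : SL(2, ℤ)) (f : P.F) :
    RotRel R.ζ (B.sigmaG X g f) (B.sigmaG X (ε⁻¹ * g) f) := by
  have hζ : R.ζ ≠ 0 := R.hζ.ne_zero R.m_pos.ne'
  obtain ⟨r, t, -, rfl⟩ := P.exists_div_inclRG f
  rw [map_div₀, map_div₀]
  have key : ∀ r : P.RG, RotRel R.ζ (B.sigmaG X g (P.inclRG r))
      (B.sigmaG X (ε⁻¹ * g) (P.inclRG r)) := by
    intro r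
    rw [sigmaG_inclRG, sigmaG_inclRG, mul_inv_rev, inv_inv, compH_mul]
    exact R.rot _
  exact (key r).div hζ (key t)

/-- `LocalData` from an expansion with rotation data. -/
def mkLocalData (ε : SL(2, ℤ)) (R : GenRotData B X ε) (t : P.F) (u : LaurentSeries ℂ)
    (ht : ∀ g : SL(2, ℤ), B.sigmaG X g t = u) (hu : u.order = (R.m : ℤ)) :
    LocalData Kbar P.F ℂ (XG Γ) t where
  m := R.m
  m_pos := R.m_pos
  ζ := R.ζ
  hζ := R.hζ
  ι := ιK
  perm := permG Γ ε⁻¹
  σ := B.sigmaX X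
  σ_inj := B.sigmaX_injective X
  σ_const x c := B.sigmaG_algebraMap X _ c
  σ_t_eq x y := by
    show B.sigmaG X _ t = B.sigmaG X _ t
    rw [ht, ht]
  σ_t_order x := by
    show (B.sigmaG X _ t).order = _
    rw [ht, hu]
  σ_perm_order x f := by
    obtain ⟨g, rfl⟩ := QuotientGroup.mk_surjective x
    have h : permG Γ ε⁻¹ (g : XG Γ) = ((ε⁻¹ * g : SL(2, ℤ)) : XG Γ) := rfl
    rw [h, sigmaX_mk, sigmaX_mk]
    exact (B.rotRel_sigmaG X ε R g f).1
  σ_perm_leadingCoeff x f := by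
    obtain ⟨g, rfl⟩ := QuotientGroup.mk_surjective x
    have h : permG Γ ε⁻¹ (g : XG Γ) = ((ε⁻¹ * g : SL(2, ℤ)) : XG Γ) := rfl
    rw [h, sigmaX_mk, sigmaX_mk]
    exact (B.rotRel_sigmaG X ε R g f).2

@[simp] theorem mkLocalData_perm (ε : SL(2, ℤ)) (R : GenRotData B X ε) (t : P.F)
    (u : LaurentSeries ℂ) (ht : ∀ g : SL(2, ℤ), B.sigmaG X g t = u)
    (hu : u.order = (R.m : ℤ)) :
    (B.mkLocalData X ε R t u ht hu).perm = permG Γ ε⁻¹ := rfl

@[simp] theorem mkLocalData_σ (ε : SL(2, ℤ)) (R : GenRotData B X ε) (t : P.F)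
    (u : LaurentSeries ℂ) (ht : ∀ g : SL(2, ℤ), B.sigmaG X g t = u)
    (hu : u.order = (R.m : ℤ)) :
    (B.mkLocalData X ε R t u ht hu).σ = B.sigmaX X := rfl

@[simp] theorem mkLocalData_m (ε : SL(2, ℤ)) (R : GenRotData B X ε) (t : P.F)
    (u : LaurentSeries ℂ) (ht : ∀ g : SL(2, ℤ), B.sigmaG X g t = u)
    (hu : u.order = (R.m : ℤ)) :
    (B.mkLocalData X ε R t u ht hu).m = R.m := rfl

end GenBase

end Fermat.Agent.S48.H332

end
end
-- ===== PACK-END S48/H332/PkgLocal.lean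

-- ===== PACK-BEGIN S48/H332/PkgCore.lean
section


/-!
# Tower A1 / A1-FF, piece PKG-GEN (helper332) — the generic analytic core and the package

GENERIC port of `S24/Mod/H997Core.lean`: `GenCore M Γ P` is the complete list of analytic facts
needed (besides the degree bound `[F : ℚ̄(j)] ≤ |SL₂(ℤ)/Γ|`) to produce all the `LocalData` of the
generic modular package `GenPackage Γ P`.
-/

set_option autoImplicit false
set_option linter.style.haveILetI false
set_option linter.unusedVariables false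

noncomputable section

open ModularCurve HahnSeries UpperHalfPlane
open scoped MatrixGroups

namespace Fermat.Agent.S48.H332

open Fermat.Agent.S24 Fermat.Agent.S24.H997

variable {M : ℕ} [NeZero M] {Γ : Subgroup SL(2, ℤ)} {P : GenField}

/-- Local data at a point of `ℍ` lying over `a = j(τ₀)`: an expansion (Taylor expansion at `τ₀`),
rotation data for the stabilising element `ε`, and the order of vanishing of `j - a`. -/
structure GenPointData (B : GenBase M Γ P) (a : ℂ) (ε : SL(2, ℤ)) where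
  X : GenExpansion B
  R : GenRotData B X ε
  order_J : (X.E (B.JH - B.constH a)).order = (R.m : ℤ)

/-- Change of the value `a` along an equality. -/
def GenPointData.castVal {B : GenBase M Γ P} {a a' : ℂ} {ε : SL(2, ℤ)} (h : a = a')
    (Q : GenPointData B a ε) : GenPointData B a' ε where
  X := Q.X
  R := Q.R
  order_J := by rw [← h]; exact Q.order_J

/-- **The generic analytic interface.** -/
structure GenCore (M : ℕ) [NeZero M] (Γ : Subgroup SL(2, ℤ)) (P : GenField)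
    extends GenBase M Γ P where
  /-- generic points: `j - a` has a simple zero at some `τ₀` -/
  generic : ∀ a : ℂ, a ≠ 0 → a ≠ 1728 → GenPointData toGenBase a 1
  /-- the point `i` over `1728`, rotation by `S` -/
  at1728 : GenPointData toGenBase 1728 ModularGroup.S
  /-- the point `ρ` over `0`, rotation by `S * T` -/
  at0 : GenPointData toGenBase 0 (ModularGroup.S * ModularGroup.T)
  /-- the cusp `∞`: `qexp (h ∘ T)` is `qexp h` with `z` replaced by `ζ z` -/
  infζ : ℂ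
  inf_hζ : IsPrimitiveRoot infζ M
  inf_shift : ∀ (h : Hol) (n : ℤ),
    (qexp (toGenBase.compH ModularGroup.T h)).coeff n = infζ ^ n * (qexp h).coeff n
  generic_m : ∀ (a : ℂ) (h0 : a ≠ 0) (h1 : a ≠ 1728), (generic a h0 h1).R.m = 1
  at1728_m : at1728.R.m = 2
  at0_m : at0.R.m = 3

namespace GenBase

variable (B : GenBase M Γ P)

/-- the expansion at `∞` -/
def qexpExpansion : GenExpansion B := ⟨B.qexp, B.qexp_injective, B.qexp_const⟩

theorem qexp_JH_coeff (k : ℤ) :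
    (B.qexp B.JH).coeff k
      = if (M : ℤ) ∣ k then ((jq.coeff (k / (M : ℤ)) : ℚ) : ℂ) else 0 := by
  rw [JH, qexp_GH, HolBase.Φ_coeff]
  split_ifs with h
  · rw [jBar, coeffEmb_coeff, ιK_algebraMap]
  · rfl

theorem qexp_JH_ne_zero : B.qexp B.JH ≠ 0 := by
  apply ne_zero_of_coeff_ne_zero (g := -(M : ℤ))
  rw [qexp_JH_coeff, if_pos (dvd_neg.mpr dvd_rfl)]
  have hN : (M : ℤ) ≠ 0 := by exact_mod_cast NeZero.ne M
  rw [Int.neg_ediv_of_dvd dvd_rfl, Int.ediv_self hN, coeff_jq_neg_one]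
  simp

theorem order_qexp_JH : (B.qexp B.JH).order = -(M : ℤ) := by
  have hN : (M : ℤ) ≠ 0 := by exact_mod_cast NeZero.ne M
  have hNpos : (0 : ℤ) < M := by exact_mod_cast Nat.pos_of_ne_zero (NeZero.ne M)
  apply le_antisymm
  · apply order_le_of_coeff_ne_zero
    rw [qexp_JH_coeff, if_pos (dvd_neg.mpr dvd_rfl)]
    rw [Int.neg_ediv_of_dvd dvd_rfl, Int.ediv_self hN, coeff_jq_neg_one]
    simp
  · by_contra hlt
    replace hlt := lt_of_not_ge hlt
    have h0 := coeff_order_eq_zero.not.mpr B.qexp_JH_ne_zero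
    apply h0
    rw [qexp_JH_coeff]
    split_ifs with hdvd
    · obtain ⟨m, hm⟩ := hdvd
      rw [hm, Int.mul_ediv_cancel_left _ hN]
      have : m < -1 := by
        rw [hm] at hlt
        by_contra hge
        replace hge := le_of_not_gt hge
        have : (M : ℤ) * m ≥ M * (-1) := mul_le_mul_of_nonneg_left hge hNpos.le
        linarith
      rw [coeff_jq_of_lt this]
      simp
    · rfl

end GenBase

/-- Rotation data from a coefficientwise statement `coeff_n (E (h ∘ ε)) = ζ^n coeff_n (E h)`. -/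
def GenRotData.ofCoeff (B : GenBase M Γ P) (X : GenExpansion B) (ε : SL(2, ℤ)) (m : ℕ)
    (m_pos : 0 < m) (ζ : ℂ) (hζ : IsPrimitiveRoot ζ m)
    (h : ∀ (f : B.Hol) (n : ℤ), (X.E (B.compH ε f)).coeff n = ζ ^ n * (X.E f).coeff n) :
    GenRotData B X ε where
  m := m
  m_pos := m_pos
  ζ := ζ
  hζ := hζ
  rot f := by
    have hζ0 : ζ ≠ 0 := hζ.ne_zero m_pos.ne'
    by_cases hf : X.E f = 0
    · have : X.E (B.compH ε f) = 0 := by
        ext n; rw [h, hf]; simp
      rw [hf, this]; exact RotRel.zero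
    · have hf' : X.E (B.compH ε f) ≠ 0 := by
        intro h0
        apply hf
        ext n
        have := congrArg (fun s => s.coeff n) h0
        simp only [h, coeff_zero, mul_eq_zero, zpow_ne_zero n hζ0, false_or] at this
        simpa using this
      have hord : (X.E (B.compH ε f)).order = (X.E f).order := by
        apply le_antisymm
        · apply order_le_of_coeff_ne_zero
          rw [h]
          exact mul_ne_zero (zpow_ne_zero _ hζ0) (coeff_order_eq_zero.not.mpr hf)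
        · apply order_le_of_coeff_ne_zero
          have := coeff_order_eq_zero.not.mpr hf'
          rw [h] at this
          exact right_ne_zero_of_mul this
      refine ⟨hord, ?_⟩
      rw [leadingCoeff_eq, leadingCoeff_eq, hord, h]

namespace GenCore

variable (A : GenCore M Γ P)

/-- rotation data at the cusp -/
def infRot : GenRotData A.toGenBase A.toGenBase.qexpExpansion ModularGroup.T :=
  GenRotData.ofCoeff A.toGenBase A.toGenBase.qexpExpansion ModularGroup.T M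
    (Nat.pos_of_ne_zero (NeZero.ne M)) A.infζ A.inf_hζ A.inf_shift

/-- the local data at `∞` -/
def dataInf : LocalData Kbar P.F ℂ (XG Γ) (P.jF)⁻¹ :=
  A.toGenBase.mkLocalData A.toGenBase.qexpExpansion ModularGroup.T A.infRot (P.jF)⁻¹
    (A.qexp A.toGenBase.JH)⁻¹
    (fun g => by rw [map_inv₀, GenBase.sigmaG_jF]; rfl)
    (by
      rw [RotRel.order_inv' A.toGenBase.qexp_JH_ne_zero, A.toGenBase.order_qexp_JH, neg_neg]
      rfl)

theorem sigmaG_sub {a : Kbar} {ε : SL(2, ℤ)} (Q : GenPointData A.toGenBase (ιK a) ε)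
    (g : SL(2, ℤ)) :
    A.toGenBase.sigmaG Q.X g (P.jF - algebraMap Kbar P.F a)
      = Q.X.E (A.toGenBase.JH - A.toGenBase.constH (ιK a)) := by
  rw [map_sub, GenBase.sigmaG_jF, GenBase.sigmaG_algebraMap, map_sub, Q.X.const]

/-- the local data attached to point data over `a` -/
def dataOfPoint {a : Kbar} {ε : SL(2, ℤ)} (Q : GenPointData A.toGenBase (ιK a) ε) :
    LocalData Kbar P.F ℂ (XG Γ) (P.jF - algebraMap Kbar P.F a) :=
  A.toGenBase.mkLocalData Q.X ε Q.R _ _ (fun g => A.sigmaG_sub Q g) Q.order_J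

/-- all the embeddings `σ_x` agree on `ℚ̄(j)` -/
theorem sigmaX_eq_on_adjoin (X : GenExpansion A.toGenBase) (x y : XG Γ) {f : P.F}
    (hf : f ∈ IntermediateField.adjoin Kbar {P.jF}) :
    A.toGenBase.sigmaX X x f = A.toGenBase.sigmaX X y f := by
  induction hf using IntermediateField.adjoin_induction with
  | mem z hz =>
      rw [Set.mem_singleton_iff] at hz
      subst hz
      show A.toGenBase.sigmaG X _ P.jF = A.toGenBase.sigmaG X _ P.jF
      rw [GenBase.sigmaG_jF, GenBase.sigmaG_jF]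
  | algebraMap c =>
      show A.toGenBase.sigmaG X _ _ = A.toGenBase.sigmaG X _ _
      rw [GenBase.sigmaG_algebraMap, GenBase.sigmaG_algebraMap]
  | add z w _ _ hz hw => rw [map_add, map_add, hz, hw]
  | inv z _ hz => rw [map_inv₀, map_inv₀, hz]
  | mul z w _ _ hz hw => rw [map_mul, map_mul, hz, hw]

/-- lower bound for the degree: `|SL₂(ℤ)/Γ| ≤ [F : ℚ̄(j)]`. -/
theorem card_le_finrank (A : GenCore M Γ P)
    [FiniteDimensional ↥(IntermediateField.adjoin Kbar {P.jF}) P.F] :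
    Nat.card (XG Γ) ≤ Module.finrank ↥(IntermediateField.adjoin Kbar {P.jF}) P.F := by
  classical
  set E := IntermediateField.adjoin Kbar {P.jF} with hE
  let X := A.toGenBase.qexpExpansion
  let x0 : XG Γ := ((1 : SL(2, ℤ)) : XG Γ)
  let ψ : ↥E →+* LaurentSeries ℂ := (A.toGenBase.sigmaX X x0).comp (algebraMap ↥E P.F)
  letI : Algebra ↥E (LaurentSeries ℂ) := ψ.toAlgebra
  let a : XG Γ → (P.F →ₐ[↥E] LaurentSeries ℂ) := fun x =>
    { A.toGenBase.sigmaX X x with
      commutes' := fun y => A.sigmaX_eq_on_adjoin X x x0 y.2 }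
  have ha : Function.Injective a := by
    intro x y hxy
    apply A.toGenBase.sigmaX_injective X
    refine RingHom.ext fun f => ?_
    exact congrArg (fun φ : P.F →ₐ[↥E] LaurentSeries ℂ => φ f) hxy
  haveI : Module.Free ↥E P.F := Module.Free.of_divisionRing ↥E P.F
  haveI : Module.Finite ↥E P.F := ‹FiniteDimensional ↥E P.F›
  haveI : Finite (P.F →ₐ[↥E] LaurentSeries ℂ) := Finite.algHom ↥E P.F (LaurentSeries ℂ)
  calc Nat.card (XG Γ) ≤ Nat.card (P.F →ₐ[↥E] LaurentSeries ℂ) :=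
        Nat.card_le_card_of_injective a ha
    _ ≤ Module.finrank ↥E P.F := card_algHom_le_finrank ↥E P.F (LaurentSeries ℂ)

/-- the index of `Γ` is finite as soon as `F / ℚ̄(j)` is finite -/
theorem finite_XG (A : GenCore M Γ P)
    [FiniteDimensional ↥(IntermediateField.adjoin Kbar {P.jF}) P.F] : Finite (XG Γ) := by
  classical
  set E := IntermediateField.adjoin Kbar {P.jF} with hE
  let X := A.toGenBase.qexpExpansion
  let x0 : XG Γ := ((1 : SL(2, ℤ)) : XG Γ)
  let ψ : ↥E →+* LaurentSeries ℂ := (A.toGenBase.sigmaX X x0).comp (algebraMap ↥E P.F)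
  letI : Algebra ↥E (LaurentSeries ℂ) := ψ.toAlgebra
  let a : XG Γ → (P.F →ₐ[↥E] LaurentSeries ℂ) := fun x =>
    { A.toGenBase.sigmaX X x with
      commutes' := fun y => A.sigmaX_eq_on_adjoin X x x0 y.2 }
  have ha : Function.Injective a := by
    intro x y hxy
    apply A.toGenBase.sigmaX_injective X
    refine RingHom.ext fun f => ?_
    exact congrArg (fun φ : P.F →ₐ[↥E] LaurentSeries ℂ => φ f) hxy
  haveI : Module.Free ↥E P.F := Module.Free.of_divisionRing ↥E P.F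
  haveI : Module.Finite ↥E P.F := ‹FiniteDimensional ↥E P.F›
  haveI : Finite (P.F →ₐ[↥E] LaurentSeries ℂ) := Finite.algHom ↥E P.F (LaurentSeries ℂ)
  exact Finite.of_injective a ha

/-- the local data over a finite point `a : ℚ̄` -/
def dataFin (a : Kbar) : LocalData Kbar P.F ℂ (XG Γ) (P.jF - algebraMap Kbar P.F a) :=
  letI := Classical.propDecidable
  if h0 : a = 0 then
    A.dataOfPoint (a := a) (ε := ModularGroup.S * ModularGroup.T)
      (A.at0.castVal (by rw [h0, map_zero]))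
  else if h1 : a = 1728 then
    A.dataOfPoint (a := a) (ε := ModularGroup.S)
      (A.at1728.castVal (by rw [h1]; exact (map_ofNat ιK 1728).symm))
  else
    A.dataOfPoint (a := a) (ε := 1)
      (A.generic (ιK a)
        (fun h => h0 (ιK_injective (by rw [h, map_zero])))
        (fun h => h1 (ιK_injective (by rw [h]; exact (map_ofNat ιK 1728).symm))))

theorem dataFin_perm_generic (a : Kbar) (h0 : a ≠ 0) (h1 : a ≠ 1728) :
    (A.dataFin a).perm = 1 := by
  unfold dataFin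
  rw [dif_neg h0, dif_neg h1]
  show permG Γ 1⁻¹ = 1
  rw [inv_one, permG_one]

theorem dataFin_zero_perm :
    (A.dataFin 0).perm = permG Γ (ModularGroup.S * ModularGroup.T)⁻¹ := by
  unfold dataFin
  rw [dif_pos rfl]
  rfl

theorem dataFin_1728_perm :
    (A.dataFin 1728).perm = permG Γ ModularGroup.S⁻¹ := by
  have h0 : (1728 : Kbar) ≠ 0 := by norm_num
  unfold dataFin
  rw [dif_neg h0, dif_pos rfl]
  rfl

theorem dataInf_perm : A.dataInf.perm = permG Γ ModularGroup.T⁻¹ := rfl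

theorem dataFin_zero_numOrbits :
    numOrbits (A.dataFin 0).perm = numOrbits (permG Γ (ModularGroup.S * ModularGroup.T)) := by
  rw [dataFin_zero_perm, permG_inv, numOrbits_inv]

theorem dataFin_1728_numOrbits :
    numOrbits (A.dataFin 1728).perm = numOrbits (permG Γ ModularGroup.S) := by
  rw [dataFin_1728_perm, permG_inv, numOrbits_inv]

theorem dataInf_numOrbits :
    numOrbits A.dataInf.perm = numOrbits (permG Γ ModularGroup.T) := by
  rw [dataInf_perm, permG_inv, numOrbits_inv]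

end GenCore

/-- **The generic modular package**: everything the algebraic side (`S24/Alg`, generic in the
function field) needs to know about `F = ℚ̄(S)`, a field of modular functions for `Γ`. -/
structure GenPackage (M : ℕ) (Γ : Subgroup SL(2, ℤ)) (P : GenField) where
  finiteDimensional :
    FiniteDimensional ↥(IntermediateField.adjoin Kbar {P.jF}) P.F
  finrank_eq :
    Module.finrank ↥(IntermediateField.adjoin Kbar {P.jF}) P.F = Nat.card (XG Γ)
  dataFin : ∀ a : Kbar, LocalData Kbar P.F ℂ (XG Γ) (P.jF - algebraMap Kbar P.F a)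
  dataInf : LocalData Kbar P.F ℂ (XG Γ) (P.jF)⁻¹
  perm_generic : ∀ a : Kbar, a ≠ 0 → a ≠ 1728 → (dataFin a).perm = 1
  perm_zero : (dataFin 0).perm = permG Γ (ModularGroup.S * ModularGroup.T)⁻¹
  perm_1728 : (dataFin 1728).perm = permG Γ ModularGroup.S⁻¹
  perm_inf : dataInf.perm = permG Γ ModularGroup.T⁻¹
  m_generic : ∀ a : Kbar, a ≠ 0 → a ≠ 1728 → (dataFin a).m = 1
  m_zero : (dataFin 0).m = 3
  m_1728 : (dataFin 1728).m = 2
  m_inf : dataInf.m = M

namespace GenPackage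

theorem orbits_zero (Q : GenPackage M Γ P) :
    numOrbits (Q.dataFin 0).perm = numOrbits (permG Γ (ModularGroup.S * ModularGroup.T)) := by
  rw [Q.perm_zero, permG_inv, numOrbits_inv]

theorem orbits_1728 (Q : GenPackage M Γ P) :
    numOrbits (Q.dataFin 1728).perm = numOrbits (permG Γ ModularGroup.S) := by
  rw [Q.perm_1728, permG_inv, numOrbits_inv]

theorem orbits_inf (Q : GenPackage M Γ P) :
    numOrbits Q.dataInf.perm = numOrbits (permG Γ ModularGroup.T) := by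
  rw [Q.perm_inf, permG_inv, numOrbits_inv]

end GenPackage

namespace GenCore

theorem dataFin_m_generic (A : GenCore M Γ P) (a : Kbar) (h0 : a ≠ 0) (h1 : a ≠ 1728) :
    (A.dataFin a).m = 1 := by
  unfold dataFin
  rw [dif_neg h0, dif_neg h1]
  exact A.generic_m _ _ _

theorem dataFin_m_zero (A : GenCore M Γ P) : (A.dataFin 0).m = 3 := by
  unfold dataFin
  rw [dif_pos rfl]
  exact A.at0_m

theorem dataFin_m_1728 (A : GenCore M Γ P) : (A.dataFin 1728).m = 2 := by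
  have h0 : (1728 : Kbar) ≠ 0 := by norm_num
  unfold dataFin
  rw [dif_neg h0, dif_pos rfl]
  exact A.at1728_m

/-- **Assembly.**  The generic modular package from the analytic core and the degree bound. -/
def toPackage (A : GenCore M Γ P)
    (hfd : FiniteDimensional ↥(IntermediateField.adjoin Kbar {P.jF}) P.F)
    (hle : Module.finrank ↥(IntermediateField.adjoin Kbar {P.jF}) P.F ≤ Nat.card (XG Γ)) :
    GenPackage M Γ P where
  finiteDimensional := hfd
  finrank_eq := le_antisymm hle A.card_le_finrank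
  dataFin := A.dataFin
  dataInf := A.dataInf
  perm_generic := A.dataFin_perm_generic
  perm_zero := A.dataFin_zero_perm
  perm_1728 := A.dataFin_1728_perm
  perm_inf := A.dataInf_perm
  m_generic := A.dataFin_m_generic
  m_zero := A.dataFin_m_zero
  m_1728 := A.dataFin_m_1728
  m_inf := rfl

end GenCore

end Fermat.Agent.S48.H332

end
end
-- ===== PACK-END S48/H332/PkgCore.lean

-- ===== PACK-BEGIN S48/H332/KumGen.lean
section


/-!
# Tower A1 / A1-KUM / K1 — Kummer functions for ANY subgroup `Γ ≤ SL(2,ℤ)` of level `M`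

Generic version of `Fermat.Agent.S29.H332.KummerFun` (which is for `Γ₀(N)`): `Γ` is any subgroup of
`SL(2,ℤ)` containing all conjugates of `T ^ M` (e.g. `Γ(M) ≤ Γ`: `Γ₁(M)`, `Γ₀(M)`, `Γ_H`), and
`χ : Γ →* ℂˣ` is a unitary character which is trivial on all elements of trace `±2`.

* `HasLevel Γ M`, `hasLevel_of_Gamma_le`, `hasLevel_Gamma1`, `hasLevel_Gamma0`;
* `GParTriv χ`, `GHasChar χ h`; `GHasChar.mem_holN` : a holomorphic function with character `χ`
  and moderate growth lies in the S24 ring `holN M` (expansions in `exp(2πiτ/M)` at all cusps);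
* `gkfun Γ χ = E^χ₁₂ / (c Δ)` (`c = kumConst Γ χ ∈ {1, 2}`): holomorphic, character `χ`,
  in `holN M`, `Δ · gkfun → 1` at `i∞`, not identically zero, all translates of exponential
  growth; if `T ∈ Γ` the expansion at `i∞` in `q = exp(2πiτ)` has order `-1` and leading
  coefficient `1`;
* `IsGoodFor Γ f` (holomorphic, `Γ`-invariant, all `SL(2,ℤ)`-translates of exponential growth —
  the analogue of `S24.H648.goodRing N` for `Γ`), `gkfun_pow_isGoodFor`.
-/

set_option autoImplicit false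
set_option linter.unusedSectionVars false

noncomputable section

open UpperHalfPlane EisensteinSeries ModularForm Filter Topology HahnSeries ModularCurve
open scoped Matrix MatrixGroups Manifold

namespace Fermat.Agent.S48.H332

open Fermat.Agent.S24 Fermat.Agent.S24.H997 Fermat.Agent.S24.H624 Fermat.Agent.S24.H648
open Fermat.Agent.S29.H332

local notation "Δ" => ModularForm.discriminant

/-! ### Subgroups of level `M` -/

/-- `Γ` contains all conjugates of the powers of `T ^ M` (true if `Γ(M) ≤ Γ`). -/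
def HasLevel (Γ : Subgroup SL(2, ℤ)) (M : ℕ) : Prop :=
  ∀ (g : SL(2, ℤ)) (m : ℤ), g * ModularGroup.T ^ ((M : ℤ) * m) * g⁻¹ ∈ Γ

theorem hasLevel_of_Gamma_le {Γ : Subgroup SL(2, ℤ)} {M : ℕ}
    (h : CongruenceSubgroup.Gamma M ≤ Γ) : HasLevel Γ M := by
  intro g m
  apply h
  have hT : ModularGroup.T ^ ((M : ℤ) * m) ∈ CongruenceSubgroup.Gamma M := by
    have := CongruenceSubgroup.ModularGroup_T_pow_mem_Gamma (M : ℤ) ((M : ℤ) * m)
      (dvd_mul_right _ _)
    simpa using this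
  exact (CongruenceSubgroup.Gamma_normal M).conj_mem _ hT g

theorem gamma_le_Gamma1 (M : ℕ) : CongruenceSubgroup.Gamma M ≤ CongruenceSubgroup.Gamma1 M := by
  intro A hA
  rw [CongruenceSubgroup.Gamma_mem] at hA
  rw [CongruenceSubgroup.Gamma1_mem]
  exact ⟨hA.1, hA.2.2.2, hA.2.2.1⟩

theorem hasLevel_Gamma1 (M : ℕ) : HasLevel (CongruenceSubgroup.Gamma1 M) M :=
  hasLevel_of_Gamma_le (gamma_le_Gamma1 M)

theorem hasLevel_Gamma0 (M : ℕ) : HasLevel (CongruenceSubgroup.Gamma0 M) M :=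
  hasLevel_of_Gamma_le ((gamma_le_Gamma1 M).trans (CongruenceSubgroup.Gamma1_in_Gamma0 M))

theorem HasLevel.mono {Γ Γ' : Subgroup SL(2, ℤ)} {M : ℕ} (h : HasLevel Γ M) (hle : Γ ≤ Γ') :
    HasLevel Γ' M := fun g m => hle (h g m)

theorem HasLevel.conj_T_pow {Γ : Subgroup SL(2, ℤ)} {M : ℕ} (h : HasLevel Γ M) (g : SL(2, ℤ)) :
    g * ModularGroup.T ^ ((M : ℕ) : ℤ) * g⁻¹ ∈ Γ := by
  simpa using h g 1

/-! ### Functions with a parabolic character -/

section Character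

variable {Γ : Subgroup SL(2, ℤ)}

/-- `χ` is trivial on all elements of `Γ` of trace `±2` (cusp stabilisers and `-1`). -/
def GParTriv (χ : Γ →* ℂˣ) : Prop :=
  ∀ γ : Γ, ((γ : SL(2, ℤ)).1.trace = 2 ∨ (γ : SL(2, ℤ)).1.trace = -2) → χ γ = 1

/-- `h(γ τ) = χ(γ) h(τ)` for all `γ ∈ Γ`. -/
def GHasChar (χ : Γ →* ℂˣ) (h : ℍ → ℂ) : Prop :=
  ∀ (γ : Γ) (τ : ℍ), h ((γ : SL(2, ℤ)) • τ) = (χ γ : ℂ) * h τ

variable {χ : Γ →* ℂˣ} {h : ℍ → ℂ}

/-- If `g T^w g⁻¹ ∈ Γ`, then `h ∘ g` is invariant under `τ ↦ τ + w`. -/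
theorem GHasChar.compSL_T_zpow (hh : GHasChar χ h) (hχ : GParTriv χ) (g : SL(2, ℤ))
    (w : ℤ) (hw : g * ModularGroup.T ^ w * g⁻¹ ∈ Γ) (τ : ℍ) :
    compSL g h (ModularGroup.T ^ w • τ) = compSL g h τ := by
  have h1 : g • (ModularGroup.T ^ w • τ) = (g * ModularGroup.T ^ w * g⁻¹) • (g • τ) := by
    rw [← mul_smul, ← mul_smul, mul_assoc, mul_assoc, inv_mul_cancel, mul_one]
  have h2 := hh ⟨_, hw⟩ (g • τ)
  rw [hχ ⟨_, hw⟩ (Or.inl (trace_conj_T_zpow g w))] at h2
  simp only [compSL_apply]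
  rw [h1, h2, Units.val_one, one_mul]

/-- `h ∘ g` is `w`-periodic if `g T^w g⁻¹ ∈ Γ`. -/
theorem GHasChar.compSL_vadd (hh : GHasChar χ h) (hχ : GParTriv χ) (g : SL(2, ℤ))
    (w : ℕ) (hw : g * ModularGroup.T ^ (w : ℤ) * g⁻¹ ∈ Γ)
    (τ : ℍ) : compSL g h (((w : ℤ) : ℝ) +ᵥ τ) = compSL g h τ := by
  have := hh.compSL_T_zpow hχ g (w : ℤ) hw τ
  rwa [UpperHalfPlane.modular_T_zpow_smul] at this

theorem GHasChar.periodic (hh : GHasChar χ h) (hχ : GParTriv χ) (g : SL(2, ℤ))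
    (w : ℕ) (hw : g * ModularGroup.T ^ (w : ℤ) * g⁻¹ ∈ Γ) :
    Function.Periodic (compSL g h ∘ ofComplex) (w : ℝ) :=
  periodic_comp_ofComplex_of_vadd (hh.compSL_vadd hχ g w hw)

/-- Expansion at the cusp `g∞` in the local parameter of width `w` (any `w` with
`g T^w g⁻¹ ∈ Γ`): a holomorphic function with a parabolic character such that
`Δ^m · (h ∘ g)` is bounded at `i∞` has a Laurent expansion in `exp(2πiτ/w)`. -/
theorem GHasChar.infExp_cuspExp (hh : GHasChar χ h) (hχ : GParTriv χ)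
    (hhol : MDiff h) (m : ℕ) (g : SL(2, ℤ)) (w : ℕ) [NeZero w]
    (hw : g * ModularGroup.T ^ (w : ℤ) * g⁻¹ ∈ Γ)
    (hbd : IsBoundedAtImInfty (fun τ => Δ τ ^ m * compSL g h τ)) :
    InfExp w (compSL g h) (cuspExp h m g w) := by
  have hN : (0 : ℝ) < w := by exact_mod_cast Nat.pos_of_ne_zero (NeZero.ne w)
  set F : ℍ → ℂ := fun τ => Δ τ ^ m * compSL g h τ with hF
  have hcomp : MDiff (compSL g h) := (precompSL g ⟨h, hhol⟩).2
  have hFhol : MDiff F := (mdiff_delta_pow m).mul hcomp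
  have hFper : Function.Periodic (F ∘ ofComplex) (w : ℝ) := by
    intro z
    have h1 := hh.periodic hχ g w hw z
    have h2 := periodic_comp_ofComplex_of_vadd (f := Δ) (N := w) (fun τ => delta_vadd w τ) z
    simp only [Function.comp_apply, hF] at h1 h2 ⊢
    rw [h1, h2]
  have hsum := fun τ => UpperHalfPlane.hasSum_qExpansion hN hFper hFhol hbd τ
  have hP : InfPExp w F (UpperHalfPlane.qExpansion (w : ℝ) F) := by
    intro τ
    simpa [infZ, smul_eq_mul] using hsum τ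
  have hE : InfExp w F (HahnSeries.ofPowerSeries ℤ ℂ (UpperHalfPlane.qExpansion (w : ℝ) F)) := by
    have := hP.infExp 0
    simp only [zpow_zero, one_mul] at this
    have e : (HahnSeries.single (0 : ℤ) (1 : ℂ)) = 1 := rfl
    rwa [e, one_mul] at this
  have hDinv : InfExp w (fun τ => (Δ τ)⁻¹ ^ m)
      (qExpand ℂ w Fermat.Agent.S28.H568.dInvS ^ m) :=
    Fermat.Agent.S28.H568.InfExp.pow' (infExp_deltaInv w) m
  have : compSL g h = fun τ => (Δ τ)⁻¹ ^ m * F τ := by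
    funext τ
    simp only [hF]
    have hΔ : Δ τ ≠ 0 := ModularForm.discriminant_ne_zero τ
    rw [← mul_assoc, ← mul_pow, inv_mul_cancel₀ hΔ, one_pow, one_mul]
  rw [this]
  exact hDinv.mul hE

/-- Abstract membership criterion at one cusp. -/
theorem GHasChar.compSL_mem_expRing {M : ℕ} [NeZero M] (hΓ : HasLevel Γ M)
    (hh : GHasChar χ h) (hχ : GParTriv χ)
    (hhol : MDiff h) (m : ℕ) (g : SL(2, ℤ))
    (hbd : IsBoundedAtImInfty (fun τ => Δ τ ^ m * compSL g h τ)) :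
    compSL g h ∈ expRing M :=
  (hh.infExp_cuspExp hχ hhol m g M (hΓ.conj_T_pow g) hbd).mem_expRing

/-- Abstract membership criterion: a holomorphic function with a parabolic character of a group
of level `M` such that `Δ^m · (h ∘ g)` is bounded at `i∞` for every `g ∈ SL(2,ℤ)` lies in the S24
ring `holN M`. -/
theorem GHasChar.mem_holN {M : ℕ} [NeZero M] (hΓ : HasLevel Γ M)
    (hh : GHasChar χ h) (hχ : GParTriv χ)
    (hhol : MDiff h) (m : ℕ)
    (hbd : ∀ g : SL(2, ℤ), IsBoundedAtImInfty (fun τ => Δ τ ^ m * compSL g h τ)) :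
    h ∈ holN M :=
  ⟨hhol, fun g => hh.compSL_mem_expRing hΓ hχ hhol m g (hbd g)⟩

/-- Powers: `h ^ p` is `Γ`-invariant if `χ ^ p = 1`. -/
theorem GHasChar.pow_invariant (hh : GHasChar χ h) {p : ℕ}
    (hp : ∀ γ, χ γ ^ p = 1) (γ : Γ) (τ : ℍ) :
    h ((γ : SL(2, ℤ)) • τ) ^ p = h τ ^ p := by
  rw [hh γ τ, mul_pow, ← Units.val_pow_eq_pow_val, hp γ, Units.val_one, one_mul]

/-- `h ∘ g` is invariant under `δ` if `g δ g⁻¹ ∈ Γ` and `χ (g δ g⁻¹) = 1`. -/
theorem GHasChar.compSL_compSL (hh : GHasChar χ h) (g δ : SL(2, ℤ))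
    (hδ : g * δ * g⁻¹ ∈ Γ) (hχ : χ ⟨_, hδ⟩ = 1) :
    compSL δ (compSL g h) = compSL g h := by
  funext τ
  simp only [compSL_apply]
  have h1 : g • (δ • τ) = (g * δ * g⁻¹) • (g • τ) := by
    rw [← mul_smul, ← mul_smul, mul_assoc, mul_assoc, inv_mul_cancel, mul_one]
  have h2 := hh ⟨_, hδ⟩ (g • τ)
  rw [hχ, Units.val_one, one_mul] at h2
  rw [h1, h2]

/-- `χ` is trivial on the elements of finite order. -/
def GEllTriv (χ : Γ →* ℂˣ) : Prop :=
  ∀ (γ : Γ) (n : ℕ), 0 < n → γ ^ n = 1 → χ γ = 1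

/-- Conjugates of elements of finite order have finite order. -/
theorem GEllTriv.conj (hχ : GEllTriv χ) {ε : SL(2, ℤ)} {n : ℕ} (hn : 0 < n) (hε : ε ^ n = 1)
    (g : SL(2, ℤ)) (k : ℕ) (hk : g * ε ^ k * g⁻¹ ∈ Γ) :
    χ ⟨_, hk⟩ = 1 := by
  refine hχ _ n hn ?_
  apply Subtype.ext
  rw [SubgroupClass.coe_pow, Subgroup.coe_mk, OneMemClass.coe_one]
  have : (g * ε ^ k * g⁻¹) ^ n = g * (ε ^ k) ^ n * g⁻¹ := conj_pow
  rw [this, ← pow_mul, mul_comm, pow_mul, hε, one_pow, mul_one, mul_inv_cancel]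

/-- Conjugates of powers of `T` are parabolic. -/
theorem GParTriv.conj_T (hχ : GParTriv χ) (g : SL(2, ℤ)) (k : ℕ)
    (hk : g * ModularGroup.T ^ k * g⁻¹ ∈ Γ) :
    χ ⟨_, hk⟩ = 1 := by
  apply hχ
  left
  have := trace_conj_T_zpow g (k : ℤ)
  rwa [zpow_natCast] at this

end Character

/-! ### Good functions for `Γ` -/

/-- The analogue of `S24.H648.goodRing N` for a subgroup `Γ`: holomorphic, `Γ`-invariant, all
`SL(2,ℤ)`-translates of at most exponential growth at `i∞`. -/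
def IsGoodFor (Γ : Subgroup SL(2, ℤ)) (f : ℍ → ℂ) : Prop :=
  MDiff f ∧ (∀ γ ∈ Γ, ∀ τ : ℍ, f (γ • τ) = f τ) ∧
    ∀ g : SL(2, ℤ), ExpGrowth (fun τ => f (g • τ))

theorem isGoodFor_Gamma0_iff {N : ℕ} {f : ℍ → ℂ} :
    IsGoodFor (CongruenceSubgroup.Gamma0 N) f ↔ f ∈ goodRing N := Iff.rfl

theorem IsGoodFor.mono {Γ Γ' : Subgroup SL(2, ℤ)} {f : ℍ → ℂ} (h : IsGoodFor Γ' f)
    (hle : Γ ≤ Γ') : IsGoodFor Γ f :=
  ⟨h.1, fun γ hγ τ => h.2.1 γ (hle hγ) τ, h.2.2⟩

/-- A `Γ`-invariant element of `holN M` is good for `Γ`. -/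
theorem isGoodFor_of_mem_holN {Γ : Subgroup SL(2, ℤ)} {M : ℕ} [NeZero M] {f : ℍ → ℂ}
    (hf : f ∈ holN M) (hinv : ∀ γ ∈ Γ, ∀ τ : ℍ, f (γ • τ) = f τ) : IsGoodFor Γ f := by
  refine ⟨hf.1, hinv, fun g => ?_⟩
  obtain ⟨φ, hφ⟩ := hf.2 g
  exact expGrowth_of_infExp hφ

/-- Every element of `holN M` has all its translates of exponential growth. -/
theorem expGrowth_of_mem_holN {M : ℕ} [NeZero M] {f : ℍ → ℂ} (hf : f ∈ holN M)
    (g : SL(2, ℤ)) : ExpGrowth (fun τ => f (g • τ)) := by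
  obtain ⟨φ, hφ⟩ := hf.2 g
  exact expGrowth_of_infExp hφ

/-! ### The Kummer function -/

section Kummer

variable (Γ : Subgroup SL(2, ℤ)) (χ : Γ →* ℂˣ)

/-- The value at `i∞` of the twisted Eisenstein series of even weight: `1` or `2`. -/
def kumConst : ℂ := 1 + twistWeight Γ χ ![0, -1]

/-- The Kummer function `E^χ₁₂ / (c Δ)`. -/
def gkfun : ℍ → ℂ :=
  fun τ => twistedEis Γ χ 12 τ / (kumConst Γ χ * Δ τ)

variable {Γ χ}

theorem GParTriv.trivialOnUnipotent (hχ : GParTriv χ) : TrivialOnUnipotent χ := by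
  intro γ hγ
  apply hχ γ
  left
  have h10 : (γ : SL(2, ℤ)).1 1 0 = 0 := by
    have := congrFun hγ 0
    simpa [botRow] using this
  have h11 : (γ : SL(2, ℤ)).1 1 1 = 1 := by
    have := congrFun hγ 1
    simpa [botRow] using this
  have hdet := (γ : SL(2, ℤ)).det_coe
  rw [Matrix.det_fin_two, h10, h11, mul_zero, sub_zero, mul_one] at hdet
  rw [Matrix.trace_fin_two, hdet, h11]
  rfl

theorem twistWeight_neg_eq (hχ : GParTriv χ) :
    twistWeight Γ χ ![0, -1] = 0 ∨ twistWeight Γ χ ![0, -1] = 1 := by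
  by_cases h : ∃ γ : Γ, botRow (γ : SL(2, ℤ)) = ![0, -1]
  · right
    obtain ⟨γ, hγ⟩ := h
    have h1 := twistWeight_botRow hχ.trivialOnUnipotent γ
    rw [hγ] at h1
    have h10 : (γ : SL(2, ℤ)).1 1 0 = 0 := by
      have := congrFun hγ 0
      simpa [botRow] using this
    have h11 : (γ : SL(2, ℤ)).1 1 1 = -1 := by
      have := congrFun hγ 1
      simpa [botRow] using this
    have hdet := (γ : SL(2, ℤ)).det_coe
    rw [Matrix.det_fin_two, h10, h11, mul_zero, sub_zero] at hdet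
    have htr : (γ : SL(2, ℤ)).1.trace = -2 := by
      rw [Matrix.trace_fin_two, h11]
      linarith
    rw [h1, hχ γ (Or.inr htr), inv_one, Units.val_one]
  · left
    exact twistWeight_of_not _ h

theorem kumConst_ne_zero (hχ : GParTriv χ) : kumConst Γ χ ≠ 0 := by
  unfold kumConst
  rcases twistWeight_neg_eq hχ with h | h <;> rw [h] <;> norm_num

theorem compSL_gkfun (g : SL(2, ℤ)) :
    compSL g (gkfun Γ χ)
      = fun τ => (twistedEis Γ χ 12 ∣[(12 : ℤ)] g) τ / (kumConst Γ χ * Δ τ) := by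
  funext τ
  have hd : denom g τ ≠ 0 := denom_ne_zero g τ
  have hΔ : Δ τ ≠ 0 := ModularForm.discriminant_ne_zero τ
  simp only [compSL_apply, gkfun]
  rw [SL_slash_apply, delta_smul, zpow_neg]
  by_cases hc : kumConst Γ χ = 0
  · simp [hc]
  · field_simp

theorem gHasChar_gkfun (hχ : GParTriv χ) : GHasChar χ (gkfun Γ χ) := by
  intro γ τ
  have h := congrFun (compSL_gkfun (Γ := Γ) (χ := χ) (γ : SL(2, ℤ))) τ
  rw [compSL_apply] at h
  rw [h, twistedEis_slash hχ.trivialOnUnipotent]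
  simp only [Pi.smul_apply, smul_eq_mul, gkfun]
  ring

theorem mdiff_gkfun (hχ : GParTriv χ) (hnorm : ∀ γ, ‖(χ γ : ℂ)‖ = 1) :
    MDiff (gkfun Γ χ) := by
  have hE : MDiff (twistedEis Γ χ 12) :=
    twistedEis_mdifferentiable hχ.trivialOnUnipotent hnorm (by norm_num)
  rw [UpperHalfPlane.mdifferentiable_iff] at hE ⊢
  have hΔ := UpperHalfPlane.mdifferentiable_iff.mp mdiff_delta
  have h2 : DifferentiableOn ℂ (fun z => kumConst Γ χ * (Δ ∘ ofComplex) z) {z : ℂ | 0 < z.im} :=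
    hΔ.const_mul _
  refine (hE.div h2 ?_).congr ?_
  · intro z hz
    exact mul_ne_zero (kumConst_ne_zero hχ) (ModularForm.discriminant_ne_zero _)
  · intro z hz
    simp [gkfun]

theorem isBoundedAtImInfty_delta_mul_gkfun (hχ : GParTriv χ)
    (hnorm : ∀ γ, ‖(χ γ : ℂ)‖ = 1) (g : SL(2, ℤ)) :
    IsBoundedAtImInfty (fun τ => Δ τ ^ 1 * compSL g (gkfun Γ χ) τ) := by
  have hE := twistedEis_slash_isBoundedAtImInfty hχ.trivialOnUnipotent hnorm
    (k := 12) (by norm_num) g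
  have : (fun τ => Δ τ ^ 1 * compSL g (gkfun Γ χ) τ)
      = (fun _ : ℍ => (kumConst Γ χ)⁻¹) * (twistedEis Γ χ 12 ∣[(12 : ℤ)] g) := by
    funext τ
    have hΔ : Δ τ ≠ 0 := ModularForm.discriminant_ne_zero τ
    have hc := kumConst_ne_zero hχ
    rw [compSL_gkfun]
    simp only [Pi.mul_apply, pow_one]
    field_simp
  rw [this]
  exact (Filter.const_boundedAtFilter _ _).mul hE

/-- **K1 (generic)**: the Kummer function lies in the S24 ring `holN M`. -/
theorem gkfun_mem_holN {M : ℕ} [NeZero M] (hΓ : HasLevel Γ M) (hχ : GParTriv χ)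
    (hnorm : ∀ γ, ‖(χ γ : ℂ)‖ = 1) :
    gkfun Γ χ ∈ holN M :=
  (gHasChar_gkfun hχ).mem_holN hΓ hχ (mdiff_gkfun hχ hnorm) 1
    (isBoundedAtImInfty_delta_mul_gkfun hχ hnorm)

theorem delta_mul_gkfun (hχ : GParTriv χ) (τ : ℍ) :
    Δ τ ^ 1 * compSL 1 (gkfun Γ χ) τ = twistedEis Γ χ 12 τ / kumConst Γ χ := by
  have hΔ : Δ τ ≠ 0 := ModularForm.discriminant_ne_zero τ
  have hc := kumConst_ne_zero hχ
  rw [compSL_one]
  simp only [gkfun, pow_one]
  field_simp

theorem tendsto_delta_mul_gkfun (hχ : GParTriv χ) (hnorm : ∀ γ, ‖(χ γ : ℂ)‖ = 1) :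
    Tendsto (fun τ => Δ τ ^ 1 * compSL 1 (gkfun Γ χ) τ) atImInfty (𝓝 1) := by
  have h := tendsto_twistedEis hχ.trivialOnUnipotent hnorm (k := 12) (by norm_num)
  have e : (1 : ℂ) + (-1) ^ (12 : ℤ) * twistWeight Γ χ ![0, -1] = kumConst Γ χ := by
    unfold kumConst
    norm_num
  rw [e] at h
  have h2 := h.div_const (kumConst Γ χ)
  rw [div_self (kumConst_ne_zero hχ)] at h2
  refine h2.congr fun τ => ?_
  rw [delta_mul_gkfun hχ]

/-- The Kummer function is not identically zero. -/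
theorem gkfun_ne_zero (hχ : GParTriv χ) (hnorm : ∀ γ, ‖(χ γ : ℂ)‖ = 1) :
    gkfun Γ χ ≠ 0 := by
  intro h0
  have h := tendsto_delta_mul_gkfun hχ hnorm
  have h' : (fun τ : ℍ => Δ τ ^ 1 * compSL 1 (gkfun Γ χ) τ) = fun _ => (0 : ℂ) := by
    funext τ
    rw [h0, compSL_one]
    simp
  rw [h'] at h
  have := tendsto_nhds_unique h tendsto_const_nhds
  exact one_ne_zero this

theorem exists_gkfun_ne_zero (hχ : GParTriv χ) (hnorm : ∀ γ, ‖(χ γ : ℂ)‖ = 1) :
    ∃ τ : ℍ, gkfun Γ χ τ ≠ 0 := by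
  by_contra hne
  exact gkfun_ne_zero hχ hnorm (funext fun τ => by_contra fun h => hne ⟨τ, h⟩)

/-- All translates of the Kummer function have exponential growth. -/
theorem expGrowth_gkfun {M : ℕ} [NeZero M] (hΓ : HasLevel Γ M) (hχ : GParTriv χ)
    (hnorm : ∀ γ, ‖(χ γ : ℂ)‖ = 1) (g : SL(2, ℤ)) :
    ExpGrowth (fun τ => gkfun Γ χ (g • τ)) :=
  expGrowth_of_mem_holN (gkfun_mem_holN hΓ hχ hnorm) g

/-- **K1 → MERO (generic)**: the `p`-th power of the Kummer function is good for `Γ`. -/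
theorem gkfun_pow_isGoodFor {M : ℕ} [NeZero M] (hΓ : HasLevel Γ M) (hχ : GParTriv χ)
    (hnorm : ∀ γ, ‖(χ γ : ℂ)‖ = 1) {p : ℕ} (hp : ∀ γ, χ γ ^ p = 1) :
    IsGoodFor Γ (gkfun Γ χ ^ p) := by
  refine isGoodFor_of_mem_holN (pow_mem (gkfun_mem_holN hΓ hχ hnorm) p) ?_
  intro γ hγ τ
  exact (gHasChar_gkfun hχ).pow_invariant hp ⟨γ, hγ⟩ τ

/-! ### The expansion at `i∞` when `T ∈ Γ` -/

variable (Γ χ) in
/-- The expansion of the Kummer function at `i∞` in `q = exp(2πiτ)` (meaningful if `T ∈ Γ`). -/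
def gkexp : LaurentSeries ℂ := cuspExp (gkfun Γ χ) 1 1 1

theorem T_conj_mem (hT : ModularGroup.T ∈ Γ) :
    (1 : SL(2, ℤ)) * ModularGroup.T ^ ((1 : ℕ) : ℤ) * (1 : SL(2, ℤ))⁻¹ ∈ Γ := by
  simpa using hT

theorem infExp_gkfun (hT : ModularGroup.T ∈ Γ) (hχ : GParTriv χ)
    (hnorm : ∀ γ, ‖(χ γ : ℂ)‖ = 1) :
    InfExp 1 (gkfun Γ χ) (gkexp Γ χ) := by
  have h := (gHasChar_gkfun hχ).infExp_cuspExp hχ (mdiff_gkfun hχ hnorm) 1 1 1
    (T_conj_mem hT) (isBoundedAtImInfty_delta_mul_gkfun hχ hnorm 1)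
  rwa [compSL_one] at h

theorem coeff_zero_qExpansion_gkfun (hT : ModularGroup.T ∈ Γ) (hχ : GParTriv χ)
    (hnorm : ∀ γ, ‖(χ γ : ℂ)‖ = 1) :
    (UpperHalfPlane.qExpansion ((1 : ℕ) : ℝ)
      (fun τ => Δ τ ^ 1 * compSL 1 (gkfun Γ χ) τ)).coeff 0 = 1 := by
  have hper : Function.Periodic ((fun τ => Δ τ ^ 1 * compSL 1 (gkfun Γ χ) τ) ∘ ofComplex)
      ((1 : ℕ) : ℝ) := by
    intro z
    have h1 := (gHasChar_gkfun hχ).periodic hχ 1 1 (T_conj_mem hT) z
    have h2 := periodic_comp_ofComplex_of_vadd (f := Δ) (N := 1) (fun τ => delta_vadd (1 : ℕ) τ) z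
    simp only [Function.comp_apply] at h1 h2 ⊢
    rw [h1, h2]
  have hhol : MDiff (fun τ => Δ τ ^ 1 * compSL 1 (gkfun Γ χ) τ) :=
    (mdiff_delta_pow 1).mul (precompSL 1 ⟨_, mdiff_gkfun hχ hnorm⟩).2
  have han := UpperHalfPlane.analyticAt_cuspFunction_zero (h := ((1 : ℕ) : ℝ)) (by norm_num)
    hper hhol (isBoundedAtImInfty_delta_mul_gkfun hχ hnorm 1)
  rw [UpperHalfPlane.qExpansion_coeff_zero (by norm_num) han hper]
  exact (tendsto_delta_mul_gkfun hχ hnorm).limUnder_eq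

theorem gkexp_eq (hT : ModularGroup.T ∈ Γ) (hχ : GParTriv χ)
    (hnorm : ∀ γ, ‖(χ γ : ℂ)‖ = 1) :
    (gkexp Γ χ).order = -1 ∧ (gkexp Γ χ).leadingCoeff = 1 := by
  set ψ := UpperHalfPlane.qExpansion ((1 : ℕ) : ℝ)
      (fun τ => Δ τ ^ 1 * compSL 1 (gkfun Γ χ) τ) with hψ
  have hc : PowerSeries.coeff 0 ψ = 1 := coeff_zero_qExpansion_gkfun hT hχ hnorm
  have hord : ψ.order = ((0 : ℕ) : ℕ∞) := by
    rw [PowerSeries.order_eq_nat]
    exact ⟨by rw [hc]; exact one_ne_zero, fun i hi => absurd hi (Nat.not_lt_zero i)⟩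
  have h1 : (HahnSeries.ofPowerSeries ℤ ℂ ψ).order = 0 := by
    simpa using order_ofPowerSeries hord
  have h2 : (HahnSeries.ofPowerSeries ℤ ℂ ψ).leadingCoeff = 1 := by
    rw [leadingCoeff_ofPowerSeries hord, hc]
  have h3 : (qExpand ℂ 1 Fermat.Agent.S28.H568.dInvS ^ 1).order = -1 := by
    rw [pow_one, inf_qExpand_order, Fermat.Agent.S28.H568.dInvS_order]
    simp
  have h4 : (qExpand ℂ 1 Fermat.Agent.S28.H568.dInvS ^ 1).leadingCoeff = 1 := by
    rw [pow_one, inf_qExpand_leadingCoeff, Fermat.Agent.S28.H568.dInvS_leadingCoeff]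
  have hx : (qExpand ℂ 1 Fermat.Agent.S28.H568.dInvS ^ 1) ≠ 0 := by
    intro h0
    rw [h0] at h4
    simp at h4
  have hy : (HahnSeries.ofPowerSeries ℤ ℂ ψ) ≠ 0 := by
    intro h0
    rw [h0] at h2
    simp at h2
  refine ⟨?_, ?_⟩
  · show (_ * _ : LaurentSeries ℂ).order = -1
    rw [HahnSeries.order_mul hx hy, h3, h1, add_zero]
  · show (_ * _ : LaurentSeries ℂ).leadingCoeff = 1
    rw [HahnSeries.leadingCoeff_mul, h4, h2, one_mul]

theorem gkexp_ne_zero (hT : ModularGroup.T ∈ Γ) (hχ : GParTriv χ)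
    (hnorm : ∀ γ, ‖(χ γ : ℂ)‖ = 1) :
    gkexp Γ χ ≠ 0 := by
  intro h0
  have := (gkexp_eq hT hχ hnorm).2
  rw [h0] at this
  simp at this

/-- The `q`-expansion of the Kummer function (S24 `H708` form). -/
theorem hasQExp_gkfun (hT : ModularGroup.T ∈ Γ) (hχ : GParTriv χ)
    (hnorm : ∀ γ, ‖(χ γ : ℂ)‖ = 1) :
    Fermat.Agent.S24.H708.HasQExp 1 (gkfun Γ χ) (gkexp Γ χ) :=
  hasQExp_of_infExp (mdiff_gkfun hχ hnorm) (infExp_gkfun hT hχ hnorm)

/-- The `q`-expansion of the `p`-th power of the Kummer function. -/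
theorem hasQExp_gkfun_pow (hT : ModularGroup.T ∈ Γ) (hχ : GParTriv χ)
    (hnorm : ∀ γ, ‖(χ γ : ℂ)‖ = 1) (p : ℕ) :
    Fermat.Agent.S24.H708.HasQExp 1 (gkfun Γ χ ^ p) (gkexp Γ χ ^ p) :=
  (hasQExp_gkfun hT hχ hnorm).pow p

theorem T_mem_Gamma1 (M : ℕ) : ModularGroup.T ∈ CongruenceSubgroup.Gamma1 M := by
  rw [CongruenceSubgroup.Gamma1_mem]
  simp [ModularGroup.T]

end Kummer

end Fermat.Agent.S48.H332

end
end
-- ===== PACK-END S48/H332/KumGen.lean

-- ===== PACK-BEGIN S48/H332/PkgConj.lean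
section




/-!
# Tower A1 / A1-FF, piece DEG-GEN (helper332) — function-level conjugate product, generic `Γ`

GENERIC port of `S24/Deg/H648Conj.lean`: for a subgroup `Γ ≤ SL₂(ℤ)` of finite index and a
function `f` good for `Γ` (`IsGoodFor Γ f`: holomorphic, `Γ`-invariant, all `SL₂(ℤ)`-translates of
at most exponential growth), the polynomial `∏ₓ (Y - f ∘ gₓ⁻¹)` (product over `x ∈ SL₂(ℤ)/Γ`) has
coefficients in `ℂ[j]`:

`exists_gcharPoly_eval_eq_zero` : `∃ P ∈ ℂ[X][Y]` monic of degree `|SL₂(ℤ)/Γ|` with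
`P(j(τ), f(τ)) = 0` for all `τ`.
-/

set_option autoImplicit false
set_option linter.unusedSectionVars false

noncomputable section

open UpperHalfPlane ModularGroup CongruenceSubgroup Polynomial
open scoped MatrixGroups Manifold Modular Real

namespace Fermat.Agent.S48.H332

open Fermat.Agent.S24.H648

variable (Γ : Subgroup SL(2, ℤ))

/-- The conjugate `f ∘ gₓ⁻¹` of `f` attached to the coset `x = gₓ Γ`. -/
def gconj (f : ℍ → ℂ) (x : SL(2, ℤ) ⧸ Γ) : ℍ → ℂ :=
  fun τ => f ((Quotient.out x)⁻¹ • τ)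

variable {Γ}

lemma gconj_mk {f : ℍ → ℂ} (hf : ∀ γ ∈ Γ, ∀ τ : ℍ, f (γ • τ) = f τ) (g : SL(2, ℤ))
    (τ : ℍ) : gconj Γ f (g : SL(2, ℤ) ⧸ Γ) τ = f (g⁻¹ • τ) := by
  obtain ⟨h, hh⟩ := QuotientGroup.mk_out_eq_mul Γ g
  unfold gconj
  rw [hh, mul_inv_rev, mul_smul]
  exact hf _ (inv_mem h.2) _

lemma gconj_smul {f : ℍ → ℂ} (hf : ∀ γ ∈ Γ, ∀ τ : ℍ, f (γ • τ) = f τ) (γ : SL(2, ℤ))
    (x : SL(2, ℤ) ⧸ Γ) (τ : ℍ) : gconj Γ f x (γ • τ) = gconj Γ f (γ⁻¹ • x) τ := by
  induction x using QuotientGroup.induction_on with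
  | H g =>
    rw [gconj_mk hf, MulAction.Quotient.smul_mk, gconj_mk hf, smul_eq_mul, mul_inv_rev, inv_inv,
      mul_smul]

lemma gconj_one_coset {f : ℍ → ℂ} (hf : ∀ γ ∈ Γ, ∀ τ : ℍ, f (γ • τ) = f τ) (τ : ℍ) :
    gconj Γ f ((1 : SL(2, ℤ)) : SL(2, ℤ) ⧸ Γ) τ = f τ := by
  rw [gconj_mk hf]; simp

lemma gconj_mem_niceRing {f : ℍ → ℂ} (hf : IsGoodFor Γ f) (x : SL(2, ℤ) ⧸ Γ) :
    gconj Γ f x ∈ niceRing :=
  ⟨mdifferentiable_comp_smul hf.1 _, hf.2.2 _⟩

variable (Γ) in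
/-- The "characteristic polynomial" `∏ₓ (Y - f ∘ gₓ⁻¹)` evaluated at `τ`. -/
def gcharPolyAt [Fintype (SL(2, ℤ) ⧸ Γ)] (f : ℍ → ℂ) (τ : ℍ) : ℂ[X] :=
  ∏ x : SL(2, ℤ) ⧸ Γ, (X - C (gconj Γ f x τ))

section charPoly

variable [Fintype (SL(2, ℤ) ⧸ Γ)]

lemma gcharPolyAt_monic (f : ℍ → ℂ) (τ : ℍ) : (gcharPolyAt Γ f τ).Monic :=
  Polynomial.monic_prod_of_monic _ _ fun _ _ => Polynomial.monic_X_sub_C _

lemma gcharPolyAt_natDegree (f : ℍ → ℂ) (τ : ℍ) :
    (gcharPolyAt Γ f τ).natDegree = Fintype.card (SL(2, ℤ) ⧸ Γ) := by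
  unfold gcharPolyAt
  rw [Polynomial.natDegree_prod_of_monic _ _ fun _ _ => Polynomial.monic_X_sub_C _]
  simp

lemma gcharPolyAt_smul {f : ℍ → ℂ} (hf : ∀ γ ∈ Γ, ∀ τ : ℍ, f (γ • τ) = f τ)
    (γ : SL(2, ℤ)) (τ : ℍ) : gcharPolyAt Γ f (γ • τ) = gcharPolyAt Γ f τ := by
  unfold gcharPolyAt
  refine Fintype.prod_equiv (MulAction.toPerm γ⁻¹) _ _ fun x => ?_
  rw [gconj_smul hf]
  rfl

lemma gcharPolyAt_eval_self {f : ℍ → ℂ} (hf : ∀ γ ∈ Γ, ∀ τ : ℍ, f (γ • τ) = f τ)
    (τ : ℍ) : (gcharPolyAt Γ f τ).eval (f τ) = 0 := by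
  unfold gcharPolyAt
  rw [Polynomial.eval_prod]
  refine Finset.prod_eq_zero (Finset.mem_univ ((1 : SL(2, ℤ)) : SL(2, ℤ) ⧸ Γ)) ?_
  rw [gconj_one_coset hf]
  simp

lemma gcharPolyAt_eval_gconj (f : ℍ → ℂ) (x : SL(2, ℤ) ⧸ Γ)
    (τ : ℍ) : (gcharPolyAt Γ f τ).eval (gconj Γ f x τ) = 0 := by
  unfold gcharPolyAt
  rw [Polynomial.eval_prod]
  refine Finset.prod_eq_zero (Finset.mem_univ x) ?_
  simp

lemma coeff_gcharPolyAt_mem_niceRing {f : ℍ → ℂ} (hf : IsGoodFor Γ f) (k : ℕ) :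
    (fun τ => (gcharPolyAt Γ f τ).coeff k) ∈ niceRing :=
  coeff_prod_mem_niceRing (gconj Γ f) (gconj_mem_niceRing hf) Finset.univ k

/-- **Conjugate product, generic `Γ`.**  The conjugate product `∏ₓ (Y - f ∘ gₓ⁻¹)` of a good
function `f` has coefficients in `ℂ[j]`. -/
theorem exists_gcharPoly {f : ℍ → ℂ} (hf : IsGoodFor Γ f) :
    ∃ P : (ℂ[X])[X], P.Monic ∧ P.natDegree = Fintype.card (SL(2, ℤ) ⧸ Γ) ∧
      ∀ τ : ℍ, P.map (Polynomial.evalRingHom (jFun τ)) = gcharPolyAt Γ f τ := by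
  classical
  set n := Fintype.card (SL(2, ℤ) ⧸ Γ) with hn
  have key : ∀ k : ℕ, ∃ p : ℂ[X], ∀ τ, (gcharPolyAt Γ f τ).coeff k = p.eval (jFun τ) := by
    intro k
    have h := coeff_gcharPolyAt_mem_niceRing hf k
    exact exists_polynomial_of_expGrowth _ h.1
      (fun γ τ => by rw [gcharPolyAt_smul hf.2.1]) h.2
  choose p hp using key
  set Q : (ℂ[X])[X] := ∑ i ∈ Finset.range n, C (p i) * X ^ i with hQ
  have hQdeg : Q.degree < n := by
    rw [Polynomial.degree_lt_iff_coeff_zero]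
    intro m hm
    rw [hQ, Polynomial.finsetSum_coeff]
    refine Finset.sum_eq_zero fun i hi => ?_
    rw [Polynomial.coeff_C_mul_X_pow, if_neg]
    have := Finset.mem_range.mp hi
    omega
  refine ⟨X ^ n + Q, Polynomial.monic_X_pow_add hQdeg, ?_, fun τ => ?_⟩
  · rw [Polynomial.natDegree_add_eq_left_of_degree_lt (by rwa [Polynomial.degree_X_pow]),
      Polynomial.natDegree_X_pow]
  · have h1 := (gcharPolyAt_monic (Γ := Γ) f τ).as_sum
    rw [gcharPolyAt_natDegree] at h1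
    rw [h1, Polynomial.map_add, Polynomial.map_pow, Polynomial.map_X, hQ, Polynomial.map_sum]
    congr 1
    refine Finset.sum_congr rfl fun i _ => ?_
    rw [Polynomial.map_mul, Polynomial.map_pow, Polynomial.map_X, Polynomial.map_C,
      Polynomial.coe_evalRingHom, ← hp i τ]

/-- Corollary: every good function for `Γ` is a root of a monic polynomial of degree
`|SL₂(ℤ)/Γ|` over `ℂ[j]`. -/
theorem exists_gcharPoly_eval_eq_zero {f : ℍ → ℂ} (hf : IsGoodFor Γ f) :
    ∃ P : (ℂ[X])[X], P.Monic ∧ P.natDegree = Fintype.card (SL(2, ℤ) ⧸ Γ) ∧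
      ∀ τ : ℍ, (P.map (Polynomial.evalRingHom (jFun τ))).eval (f τ) = 0 := by
  obtain ⟨P, h1, h2, h3⟩ := exists_gcharPoly hf
  exact ⟨P, h1, h2, fun τ => by rw [h3, gcharPolyAt_eval_self hf.2.1]⟩

/-- All conjugates are roots of the same polynomial. -/
theorem exists_gcharPoly_eval_gconj {f : ℍ → ℂ} (hf : IsGoodFor Γ f) :
    ∃ P : (ℂ[X])[X], P.Monic ∧ P.natDegree = Fintype.card (SL(2, ℤ) ⧸ Γ) ∧
      ∀ (x : SL(2, ℤ) ⧸ Γ) (τ : ℍ),
        (P.map (Polynomial.evalRingHom (jFun τ))).eval (gconj Γ f x τ) = 0 := by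
  obtain ⟨P, h1, h2, h3⟩ := exists_gcharPoly hf
  exact ⟨P, h1, h2, fun x τ => by rw [h3, gcharPolyAt_eval_gconj]⟩

end charPoly

end Fermat.Agent.S48.H332

end
end
-- ===== PACK-END S48/H332/PkgConj.lean

-- ===== PACK-BEGIN S48/H882/MeroG.lean
section


/-!
# Tower A1 / DICT1, piece MERO, GENERIC in `(Γ, F₀)` (helper882)

Generic port of the landed `S29/H882/{MeroMain,MeroPrim}.lean` from `(Γ₀(N), F₀(N))` to ANY
subgroup `Γ` of finite index and ANY field `F₀ = ℚ(S) ⊆ ℚ((q))` generated by realised series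
(`GenData Γ F₀ S`).

**Main result** `meroG_of_card_le_finrank`:
if `[SL(2,ℤ) : Γ] ≤ [ℚ̄·F₀ : ℚ̄(j)]` (the lower bound of the degree, e.g. helper332's
`S48.H332.GenData.finrank_eq` for `Γ ∋ -1`), then the `q`-expansion at `i∞` of EVERY good function
for `Γ` (holomorphic, `Γ`-invariant, all translates of at most exponential growth) lies in `ℂ·F₀`.

`of_pm` versions: a subgroup `Γ` not containing `-1` (e.g. `Γ₁(M)`, `M ≥ 3`) may be replaced by
any `Γ'` with `Γ' ⊆ Γ ∪ -Γ` (e.g. `Γ' = ±Γ₁(M)`), since `-1` acts trivially on `ℍ`.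

Proof: the field `MCG Γ` generated by the `q`-expansions of good functions has degree
`≤ [SL(2,ℤ) : Γ]` over `ℂ(j)` (conjugate product, `GoodG.lean`) and contains `ℂ·F₀` (GEN); a
primitive element `θ` of `ℚ̄·F₀ / ℚ̄(j)` keeps its degree over `ℂ(j)` (descent of relations), so it
generates `MCG Γ` over `ℂ(j)`.
-/

set_option autoImplicit false
set_option linter.style.haveILetI false
set_option linter.unusedSectionVars false

noncomputable section

open UpperHalfPlane ModularGroup CongruenceSubgroup Polynomial ModularCurve IntermediateField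
open scoped MatrixGroups Manifold Modular Real

namespace Fermat.Agent.S48.H882

open Fermat.Agent.S24 Fermat.Agent.S24.H648 Fermat.Agent.S24.H708 Fermat.Agent.S24.Deg457
open Fermat.Agent.S29.H882 (exists_relation_of_coeffMap_ne_zero exists_clear_denominators)

/-! ### `±Γ` -/

section Pm

variable {Γ Γ' : Subgroup SL(2, ℤ)}

/-- Good functions for `Γ` are good for every `Γ' ⊆ Γ ∪ -Γ`. -/
theorem GoodG.of_pm (hpm : ∀ g ∈ Γ', g ∈ Γ ∨ -g ∈ Γ) {f : ℍ → ℂ} (hf : GoodG Γ f) :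
    GoodG Γ' f := by
  refine ⟨hf.1, fun g hg τ => ?_, hf.2.2⟩
  rcases hpm g hg with h | h
  · exact hf.2.1 g h τ
  · have := hf.2.1 (-g) h τ
    rwa [ModularGroup.SL_neg_smul] at this

theorem goodQG_le_of_pm (hpm : ∀ g ∈ Γ', g ∈ Γ ∨ -g ∈ Γ) : goodQG Γ ≤ goodQG Γ' := by
  rintro b ⟨f, hf, hq⟩
  exact ⟨f, hf.of_pm hpm, hq⟩

theorem GenData.of_pm {F₀ : IntermediateField ℚ (LaurentSeries ℚ)} {S : Set (LaurentSeries ℚ)}
    (h : GenData Γ F₀ S) (hpm : ∀ g ∈ Γ', g ∈ Γ ∨ -g ∈ Γ) : GenData Γ' F₀ S :=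
  ⟨h.subset, h.le_adjoin, fun s hs => goodQG_le_of_pm hpm (h.real s hs)⟩

end Pm

/-! ### Base change of the function field -/

section BaseChange

variable {K L : Type*} [Field K] [Algebra ℚ K] [Field L] [Algebra ℚ L]

/-- `coeffMap ι` maps `K·F₀` into `L·F₀`. -/
theorem coeffMap_mem_laurentBaseChange' (ι : K →+* L)
    (F₀ : IntermediateField ℚ (LaurentSeries ℚ)) {x : LaurentSeries K}
    (hx : x ∈ laurentBaseChange K F₀) : coeffMap ι x ∈ laurentBaseChange L F₀ := by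
  rw [mem_laurentBaseChange_iff] at hx
  induction hx using Subfield.closure_induction with
  | mem y hy =>
      rcases hy with ⟨a, rfl⟩ | ⟨z, hz, rfl⟩
      · rw [coeffMap_algebraMap']
        exact (laurentBaseChange L F₀).algebraMap_mem _
      · rw [coeffMap_coeffEmb']
        exact coeffEmb_mem_laurentBaseChange L hz
  | one => simp
  | add x y _ _ hx hy => simpa using add_mem hx hy
  | neg x _ hx => simpa using neg_mem hx
  | inv x _ hx => simpa using inv_mem hx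
  | mul x y _ _ hx hy => simpa using mul_mem hx hy

end BaseChange

/-! ### The field generated by the good functions -/

section MC

variable (Γ : Subgroup SL(2, ℤ))

/-- The field generated by the `q`-expansions of good functions for `Γ`. -/
def MCG : IntermediateField ℂ (LaurentSeries ℂ) :=
  IntermediateField.adjoin ℂ (goodQG Γ : Set (LaurentSeries ℂ))

theorem goodQG_le_MCG {b : LaurentSeries ℂ} (hb : b ∈ goodQG Γ) : b ∈ MCG Γ :=
  IntermediateField.subset_adjoin ℂ _ hb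

/-- `j` as an element of `MCG Γ`. -/
def jMG : MCG Γ := ⟨JK ℂ, goodQG_le_MCG Γ (JK_mem_goodQG Γ)⟩

theorem aeval_jMG_ne_zero {t : ℂ[X]} (ht : t ≠ 0) :
    aeval (AdjoinSimple.gen ℂ (jMG Γ)) t ≠ 0 := by
  intro h0
  apply aeval_JK_ne_zero ℂ ht
  have h1 := congrArg (algebraMap ↥(IntermediateField.adjoin ℂ {jMG Γ}) (MCG Γ)) h0
  rw [← aeval_algebraMap_apply, map_zero, AdjoinSimple.algebraMap_gen] at h1
  have h2 := congrArg (algebraMap (MCG Γ) (LaurentSeries ℂ)) h1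
  rw [← aeval_algebraMap_apply, map_zero] at h2
  exact h2

theorem algebraMap_comp_aeval_jMG :
    (algebraMap (MCG Γ) (LaurentSeries ℂ)).comp
      ((aeval (jMG Γ) : ℂ[X] →ₐ[ℂ] MCG Γ).toRingHom) = evJ (JK ℂ) := by
  refine Polynomial.ringHom_ext ?_ ?_
  · intro c
    simp [evJ, ← IsScalarTower.algebraMap_apply]
  · simp [evJ]
    rfl

/-- **Degree bound**: `[MCG Γ : ℂ(j)] ≤ [SL(2,ℤ) : Γ]`. -/
theorem finiteDimensional_and_finrank_le_MCG [Finite (SL(2, ℤ) ⧸ Γ)] :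
    FiniteDimensional ↥(IntermediateField.adjoin ℂ {jMG Γ}) (MCG Γ) ∧
      Module.finrank ↥(IntermediateField.adjoin ℂ {jMG Γ}) (MCG Γ)
        ≤ Nat.card (SL(2, ℤ) ⧸ Γ) := by
  refine finiteDimensional_and_finrank_le_of_forall_natDegree_minpoly_le _ fun x => ?_
  obtain ⟨Q, hQ0, hQn, hQ⟩ := algDeg_of_mem_adjoin_goodQG (Γ := Γ) x.2
  have hinc : Function.Injective (algebraMap (MCG Γ) (LaurentSeries ℂ)) :=
    (algebraMap (MCG Γ) (LaurentSeries ℂ)).injective
  refine isIntegral_and_natDegree_le_of_relation (K := ℂ)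
    (AdjoinSimple.gen ℂ (jMG Γ)) (fun t ht => aeval_jMG_ne_zero Γ ht) x Q hQ0 _ hQn ?_
  apply hinc
  rw [map_zero, Polynomial.hom_eval₂, AdjoinSimple.algebraMap_gen, algebraMap_comp_aeval_jMG]
  exact hQ

end MC

/-! ### The primitive element -/

section Prim

variable {Γ : Subgroup SL(2, ℤ)} [Finite (SL(2, ℤ) ⧸ Γ)]
  {F₀ : IntermediateField ℚ (LaurentSeries ℚ)} {S : Set (LaurentSeries ℚ)}
  (hgen : GenData Γ F₀ S)
  (jF : ↥(laurentBaseChange Kbar F₀)) (hjF : (jF : LaurentSeries Kbar) = JK Kbar)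

include hgen in
theorem GenData.le_MCG : laurentBaseChange ℂ F₀ ≤ MCG Γ :=
  hgen.laurentBaseChange_le_adjoin_goodQG

/-- The base change of an element of `ℚ̄·F₀`, as a Laurent series over `ℂ`. -/
def thetaL (θ : ↥(laurentBaseChange Kbar F₀)) : LaurentSeries ℂ :=
  coeffMap iotaC (θ : LaurentSeries Kbar)

theorem thetaL_mem (θ : ↥(laurentBaseChange Kbar F₀)) : thetaL θ ∈ laurentBaseChange ℂ F₀ :=
  coeffMap_mem_laurentBaseChange' iotaC _ θ.2

/-- The same element in `MCG Γ`. -/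
def thetaM (θ : ↥(laurentBaseChange Kbar F₀)) : MCG Γ := ⟨thetaL θ, hgen.le_MCG (thetaL_mem θ)⟩

include hjF in
theorem aeval_jF_ne_zero' {t : Kbar[X]} (ht : t ≠ 0) :
    aeval (AdjoinSimple.gen Kbar jF) t ≠ 0 := by
  intro h0
  apply aeval_JK_ne_zero Kbar ht
  have h1 := congrArg (algebraMap ↥(IntermediateField.adjoin Kbar {jF})
    ↥(laurentBaseChange Kbar F₀)) h0
  rw [← aeval_algebraMap_apply, map_zero, AdjoinSimple.algebraMap_gen] at h1
  have h2 := congrArg (algebraMap ↥(laurentBaseChange Kbar F₀) (LaurentSeries Kbar)) h1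
  rw [← aeval_algebraMap_apply, map_zero] at h2
  rw [← hjF]
  exact h2

include hjF in
theorem algebraMap_comp_aeval_jF' :
    (algebraMap ↥(laurentBaseChange Kbar F₀) (LaurentSeries Kbar)).comp
      ((aeval jF : Kbar[X] →ₐ[Kbar] ↥(laurentBaseChange Kbar F₀)).toRingHom)
      = evJ (JK Kbar) := by
  refine Polynomial.ringHom_ext ?_ ?_
  · intro c
    simp [evJ, ← IsScalarTower.algebraMap_apply]
  · simp [evJ]
    exact hjF

include hjF in
/-- The degree of `θ` over `ℚ̄(j)` is at most the degree of its base change over `ℂ(j)`. -/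
theorem natDegree_minpoly_le_thetaM (θ : ↥(laurentBaseChange Kbar F₀)) :
    (minpoly ↥(IntermediateField.adjoin Kbar {jF}) θ).natDegree
      ≤ (minpoly ↥(IntermediateField.adjoin ℂ {jMG Γ}) (thetaM hgen θ)).natDegree := by
  haveI := (finiteDimensional_and_finrank_le_MCG Γ).1
  have hint : IsIntegral ↥(IntermediateField.adjoin ℂ {jMG Γ}) (thetaM hgen θ) :=
    IsIntegral.of_finite _ _
  have hp0 : minpoly ↥(IntermediateField.adjoin ℂ {jMG Γ}) (thetaM hgen θ) ≠ 0 :=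
    minpoly.ne_zero hint
  obtain ⟨t, Q, ht, hQ⟩ := exists_clear_denominators (K := ℂ) (jMG Γ)
    (minpoly ↥(IntermediateField.adjoin ℂ {jMG Γ}) (thetaM hgen θ))
  have hφinj : Function.Injective
      ((aeval (AdjoinSimple.gen ℂ (jMG Γ)) : ℂ[X] →ₐ[ℂ] ℂ⟮jMG Γ⟯).toRingHom) := by
    rw [injective_iff_map_eq_zero]
    intro t ht0
    by_contra h
    exact aeval_jMG_ne_zero Γ h ht0
  have hQ0 : Q ≠ 0 := by
    intro h
    rw [h, Polynomial.map_zero] at hQ
    exact (mul_ne_zero (C_ne_zero.mpr ht) hp0) hQ.symm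
  have hQd : Q.natDegree ≤
      (minpoly ↥(IntermediateField.adjoin ℂ {jMG Γ}) (thetaM hgen θ)).natDegree := by
    rw [← Polynomial.natDegree_map_eq_of_injective hφinj Q, hQ, natDegree_C_mul ht]
  have hroot : Q.eval₂ (evJ (JK ℂ)) (thetaL θ) = 0 := by
    have h1 : aeval (thetaM hgen θ)
        (Q.map ((aeval (AdjoinSimple.gen ℂ (jMG Γ)) : ℂ[X] →ₐ[ℂ] ℂ⟮jMG Γ⟯).toRingHom)) = 0 := by
      rw [hQ, map_mul, minpoly.aeval, mul_zero]
    have h2 := congrArg (algebraMap (MCG Γ) (LaurentSeries ℂ)) h1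
    rw [map_zero, aeval_def, eval₂_map, Polynomial.hom_eval₂] at h2
    have hcomp : (algebraMap (MCG Γ) (LaurentSeries ℂ)).comp
        ((algebraMap ↥(IntermediateField.adjoin ℂ {jMG Γ}) (MCG Γ)).comp
          ((aeval (AdjoinSimple.gen ℂ (jMG Γ)) : ℂ[X] →ₐ[ℂ] ℂ⟮jMG Γ⟯).toRingHom))
        = evJ (JK ℂ) := by
      refine Polynomial.ringHom_ext ?_ ?_
      · intro c
        simp [evJ, ← IsScalarTower.algebraMap_apply]
      · simp [evJ]
        rfl
    rw [hcomp] at h2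
    exact h2
  obtain ⟨Q', hQ'0, hQ'd, hQ'⟩ := exists_relation_of_coeffMap_ne_zero iotaC (JK Kbar)
    (θ : LaurentSeries Kbar) _ Q hQ0 hQd (by rw [coeffMap_JK]; exact hroot)
  have hinc : Function.Injective
      (algebraMap ↥(laurentBaseChange Kbar F₀) (LaurentSeries Kbar)) :=
    (algebraMap ↥(laurentBaseChange Kbar F₀) (LaurentSeries Kbar)).injective
  have key := isIntegral_and_natDegree_le_of_relation (K := Kbar)
    (AdjoinSimple.gen Kbar jF) (fun t ht => aeval_jF_ne_zero' jF hjF ht) θ Q' hQ'0 _ hQ'd (by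
      apply hinc
      rw [map_zero, Polynomial.hom_eval₂, AdjoinSimple.algebraMap_gen,
        algebraMap_comp_aeval_jF' jF hjF]
      exact hQ')
  exact key.2

include hgen in
theorem coe_mem_of_mem_adjoin_jMG (hj : jq ∈ F₀) (e : ↥(IntermediateField.adjoin ℂ {jMG Γ})) :
    (((e : MCG Γ)) : LaurentSeries ℂ) ∈ laurentBaseChange ℂ F₀ := by
  have hJ : JK ℂ ∈ laurentBaseChange ℂ F₀ := coeffEmb_mem_laurentBaseChange ℂ hj
  obtain ⟨r, s, hrs⟩ := (IntermediateField.mem_adjoin_simple_iff ℂ (e : MCG Γ)).mp e.2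
  have hr : ((aeval (jMG Γ) r : MCG Γ) : LaurentSeries ℂ) = aeval (JK ℂ) r := by
    have := (aeval_algebraMap_apply (LaurentSeries ℂ) (jMG Γ) r).symm
    exact this
  have hs : ((aeval (jMG Γ) s : MCG Γ) : LaurentSeries ℂ) = aeval (JK ℂ) s := by
    have := (aeval_algebraMap_apply (LaurentSeries ℂ) (jMG Γ) s).symm
    exact this
  have hmem : ∀ t : ℂ[X], aeval (JK ℂ) t ∈ laurentBaseChange ℂ F₀ := by
    intro t
    have := (aeval_algebraMap_apply (LaurentSeries ℂ)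
      (⟨JK ℂ, hJ⟩ : ↥(laurentBaseChange ℂ F₀)) t)
    have h2 : (algebraMap ↥(laurentBaseChange ℂ F₀) (LaurentSeries ℂ))
        (⟨JK ℂ, hJ⟩ : ↥(laurentBaseChange ℂ F₀)) = JK ℂ := rfl
    rw [h2] at this
    rw [this]
    exact (aeval (⟨JK ℂ, hJ⟩ : ↥(laurentBaseChange ℂ F₀)) t).2
  rw [hrs]
  have : (((aeval (jMG Γ) r / aeval (jMG Γ) s : MCG Γ)) : LaurentSeries ℂ)
      = aeval (JK ℂ) r / aeval (JK ℂ) s := by
    rw [← hr, ← hs]
    rfl
  rw [this]
  exact div_mem (hmem r) (hmem s)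

include hgen hjF in
/-- **`MCG Γ ≤ ℂ·F₀`** from the lower bound of the degree over `ℚ̄`. -/
theorem MCG_le_of_card_le_finrank (hj : jq ∈ F₀)
    [FiniteDimensional ↥(IntermediateField.adjoin Kbar {jF}) ↥(laurentBaseChange Kbar F₀)]
    (hdeg : Nat.card (SL(2, ℤ) ⧸ Γ)
      ≤ Module.finrank ↥(IntermediateField.adjoin Kbar {jF}) ↥(laurentBaseChange Kbar F₀)) :
    MCG Γ ≤ laurentBaseChange ℂ F₀ := by
  obtain ⟨θ, hθ⟩ := Field.exists_primitive_element ↥(IntermediateField.adjoin Kbar {jF})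
    ↥(laurentBaseChange Kbar F₀)
  have hθd := (Field.primitive_element_iff_minpoly_natDegree_eq _ θ).mp hθ
  haveI := (finiteDimensional_and_finrank_le_MCG Γ).1
  have htop : IntermediateField.adjoin ↥(IntermediateField.adjoin ℂ {jMG Γ})
      {thetaM hgen θ} = ⊤ := by
    rw [Field.primitive_element_iff_minpoly_natDegree_eq]
    have h1 := natDegree_minpoly_le_thetaM hgen jF hjF θ
    have h2 := (finiteDimensional_and_finrank_le_MCG Γ).2
    have h3 : (minpoly ↥(IntermediateField.adjoin ℂ {jMG Γ}) (thetaM hgen θ)).natDegree ≤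
        Module.finrank ↥(IntermediateField.adjoin ℂ {jMG Γ}) (MCG Γ) := minpoly.natDegree_le _
    omega
  intro y hy
  have hy' : (⟨y, hy⟩ : MCG Γ) ∈
      IntermediateField.adjoin ↥(IntermediateField.adjoin ℂ {jMG Γ}) {thetaM hgen θ} := by
    rw [htop]; exact IntermediateField.mem_top
  have key : ∀ z : MCG Γ,
      z ∈ IntermediateField.adjoin ↥(IntermediateField.adjoin ℂ {jMG Γ}) {thetaM hgen θ} →
      (z : LaurentSeries ℂ) ∈ laurentBaseChange ℂ F₀ := by
    intro z hz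
    refine IntermediateField.adjoin_induction ↥(IntermediateField.adjoin ℂ {jMG Γ})
      (p := fun (z : MCG Γ) _ => ((z : MCG Γ) : LaurentSeries ℂ) ∈ laurentBaseChange ℂ F₀)
      ?_ ?_ ?_ ?_ ?_ hz
    · intro x hx
      rw [Set.mem_singleton_iff] at hx
      subst hx
      exact thetaL_mem θ
    · intro e
      exact coe_mem_of_mem_adjoin_jMG hgen hj e
    · intro x y _ _ hx hy
      exact add_mem hx hy
    · intro x _ hx
      exact inv_mem hx
    · intro x y _ _ hx hy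
      exact mul_mem hx hy
  exact key ⟨y, hy⟩ hy'

end Prim

/-! ### MERO -/

/-- **MERO, generic**: if `[SL(2,ℤ) : Γ] ≤ [ℚ̄·F₀ : ℚ̄(j)]`, the `q`-expansion of every good
function for `Γ` lies in `ℂ·F₀`. -/
theorem mem_of_mem_goodQG_of_card_le_finrank {Γ : Subgroup SL(2, ℤ)} [Finite (SL(2, ℤ) ⧸ Γ)]
    {F₀ : IntermediateField ℚ (LaurentSeries ℚ)} {S : Set (LaurentSeries ℚ)}
    (hgen : GenData Γ F₀ S) (hj : jq ∈ F₀)
    (jF : ↥(laurentBaseChange Kbar F₀)) (hjF : (jF : LaurentSeries Kbar) = JK Kbar)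
    [FiniteDimensional ↥(IntermediateField.adjoin Kbar {jF}) ↥(laurentBaseChange Kbar F₀)]
    (hdeg : Nat.card (SL(2, ℤ) ⧸ Γ)
      ≤ Module.finrank ↥(IntermediateField.adjoin Kbar {jF}) ↥(laurentBaseChange Kbar F₀))
    {b : LaurentSeries ℂ} (hb : b ∈ goodQG Γ) : b ∈ laurentBaseChange ℂ F₀ :=
  MCG_le_of_card_le_finrank hgen jF hjF hj hdeg (goodQG_le_MCG Γ hb)

/-- **MERO, generic, `±Γ` form**: `Γ'` is any subgroup of finite index with `Γ' ⊆ Γ ∪ -Γ` and
`[SL(2,ℤ) : Γ'] ≤ [ℚ̄·F₀ : ℚ̄(j)]`; `T ∈ Γ`. -/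
theorem mem_of_goodG_of_pm {Γ Γ' : Subgroup SL(2, ℤ)} [Finite (SL(2, ℤ) ⧸ Γ')]
    (hpm : ∀ g ∈ Γ', g ∈ Γ ∨ -g ∈ Γ) (hT : ModularGroup.T ∈ Γ)
    {F₀ : IntermediateField ℚ (LaurentSeries ℚ)} {S : Set (LaurentSeries ℚ)}
    (hgen : GenData Γ F₀ S) (hj : jq ∈ F₀)
    (jF : ↥(laurentBaseChange Kbar F₀)) (hjF : (jF : LaurentSeries Kbar) = JK Kbar)
    [FiniteDimensional ↥(IntermediateField.adjoin Kbar {jF}) ↥(laurentBaseChange Kbar F₀)]
    (hdeg : Nat.card (SL(2, ℤ) ⧸ Γ')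
      ≤ Module.finrank ↥(IntermediateField.adjoin Kbar {jF}) ↥(laurentBaseChange Kbar F₀))
    {G : ℍ → ℂ} (hG : GoodG Γ G) : qexpFun 1 G ∈ laurentBaseChange ℂ F₀ :=
  mem_of_mem_goodQG_of_card_le_finrank (hgen.of_pm hpm) hj jF hjF hdeg
    ((goodQG_le_of_pm hpm) (qexpFun_mem_goodQG hT hG))

/-- **MERO, generic**, in the `Prop` form `MeroG Γ F₀` used by piece K3. -/
theorem meroG_of_pm {Γ Γ' : Subgroup SL(2, ℤ)} [Finite (SL(2, ℤ) ⧸ Γ')]
    (hpm : ∀ g ∈ Γ', g ∈ Γ ∨ -g ∈ Γ) (hT : ModularGroup.T ∈ Γ)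
    {F₀ : IntermediateField ℚ (LaurentSeries ℚ)} {S : Set (LaurentSeries ℚ)}
    (hgen : GenData Γ F₀ S) (hj : jq ∈ F₀)
    (jF : ↥(laurentBaseChange Kbar F₀)) (hjF : (jF : LaurentSeries Kbar) = JK Kbar)
    [FiniteDimensional ↥(IntermediateField.adjoin Kbar {jF}) ↥(laurentBaseChange Kbar F₀)]
    (hdeg : Nat.card (SL(2, ℤ) ⧸ Γ')
      ≤ Module.finrank ↥(IntermediateField.adjoin Kbar {jF}) ↥(laurentBaseChange Kbar F₀)) :
    MeroG Γ F₀ :=
  fun _ hG => mem_of_goodG_of_pm hpm hT hgen hj jF hjF hdeg hG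

/-- **MERO, generic**, for `Γ ∋ -1` (take `Γ' = Γ`). -/
theorem meroG_of_card_le_finrank {Γ : Subgroup SL(2, ℤ)} [Finite (SL(2, ℤ) ⧸ Γ)]
    (hT : ModularGroup.T ∈ Γ)
    {F₀ : IntermediateField ℚ (LaurentSeries ℚ)} {S : Set (LaurentSeries ℚ)}
    (hgen : GenData Γ F₀ S) (hj : jq ∈ F₀)
    (jF : ↥(laurentBaseChange Kbar F₀)) (hjF : (jF : LaurentSeries Kbar) = JK Kbar)
    [FiniteDimensional ↥(IntermediateField.adjoin Kbar {jF}) ↥(laurentBaseChange Kbar F₀)]
    (hdeg : Nat.card (SL(2, ℤ) ⧸ Γ)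
      ≤ Module.finrank ↥(IntermediateField.adjoin Kbar {jF}) ↥(laurentBaseChange Kbar F₀)) :
    MeroG Γ F₀ :=
  meroG_of_pm (fun _ hg => Or.inl hg) hT hgen hj jF hjF hdeg

end Fermat.Agent.S48.H882

end
end
-- ===== PACK-END S48/H882/MeroG.lean

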