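import Fermat.Agent.Pack.L1B.E3L1
import Fermat.Agent.Pack.L1B.E2L2
import Fermat.Agent.Pack.L1B.E2L0
import Fermat.Agent.Pack.L1B.E3L2
import Fermat.Agent.Pack.L1B.E0L0
import Fermat.Agent.Pack.S44C.G0E7L1
import Fermat.Agent.Pack.L1B.E1L3
import Fermat.Agent.Pack.L1B.E3L0
import Fermat.Agent.Pack.L1.E10L0

-- ===== PACK-BEGIN S48/H648/BrMain.lean
section


/-!
# S48 / Tower A1 / A1-BR (helper648), part 3: the field `unramified` of `S18.Alg.GoodModel`
for every field embedded in the full-level field (coordinate `j`)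

Let `Ω` be ANY field with a field embedding `ψ : Ω →+* H828.IActField ι M` (e.g. the `Γ₁(M)`-field,
`q ↦ X^M`), `Lc` a subfield of constants with `ψ(Lc) = constants of IActField`, and `x : Ω` with
`ψ x = j`.  Then for every valuation subring `O` of `Ω` containing `Lc`:

* `unramified_j_of_embedding` : over `c ∉ {0, 1728}` the element `x - c` generates the maximal
  ideal — literally the conclusion of `GoodModel.unramified` for `S = {0, 1728}`;
* `ordLe_zero_of_embedding`, `ordLe_1728_of_embedding` : `e ≤ 3` over `0`, `e ≤ 2` over `1728`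
  (inputs for the coordinates `t₂`, `t₃`, see `BrCoord.lean`).
-/

set_option autoImplicit false
set_option linter.unusedSectionVars false

noncomputable section

open scoped MatrixGroups

namespace Fermat.Agent.S48.H648

open Fermat.Agent.S48.H828

variable {E : Type*} [Field E] [CharZero E] (ι : E →+* ℂ) (M : ℕ) [NeZero M]
variable {Ω : Type*} [Field Ω]

/-- Transport of the hypotheses to the full-level field. -/
theorem exists_centredAt_of_embedding (ψ : Ω →+* IActField ι M) (Lc : Subfield Ω) (x : Ω)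
    (hconst : ∀ b : E, ∃ a ∈ Lc, ψ a = iactFC ι M b) (hx : ψ x = iactFJ ι M)
    (O : ValuationSubring Ω) (hO : ∀ a ∈ Lc, a ∈ O) (c : Ω) (b : E) (hb : ψ c = iactFC ι M b)
    (h1 : x - c ∈ O) (h2 : (x - c)⁻¹ ∉ O) :
    ∃ OL : ValuationSubring (IActField ι M), (∀ y : Ω, ψ y ∈ OL ↔ y ∈ O) ∧
      CentredAt (iactFC ι M) (iactFJ ι M) b OL := by
  obtain ⟨OL, hOL⟩ := exists_valuationSubring_comap ψ O
  refine ⟨OL, hOL, ?_, ?_, ?_⟩
  · intro b'
    obtain ⟨a, ha, hab⟩ := hconst b'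
    rw [← hab, hOL]
    exact hO a ha
  · rw [← hx, ← hb, ← map_sub, hOL]
    exact h1
  · rw [← hx, ← hb, ← map_sub, ← map_inv₀, hOL]
    exact h2

/-- **Bound for the ramification over `j = c`** in any field embedded in the full-level field,
given the bound at one analytic point. -/
theorem ordLe_of_embedding (ψ : Ω →+* IActField ι M) (Lc : Subfield Ω) (x : Ω)
    (hconst : ∀ b : E, ∃ a ∈ Lc, ψ a = iactFC ι M b) (hx : ψ x = iactFJ ι M)
    (O : ValuationSubring Ω) (hO : ∀ a ∈ Lc, a ∈ O) (c : Ω) (b : E) (hb : ψ c = iactFC ι M b)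
    (h1 : x - c ∈ O) (h2 : (x - c)⁻¹ ∉ O) (k : ℕ)
    (hk : ∀ OL : ValuationSubring (IActField ι M), CentredAt (iactFC ι M) (iactFJ ι M) b OL →
      OrdLe (iactFJ ι M - iactFC ι M b) k OL) :
    OrdLe (x - c) k O := by
  obtain ⟨OL, hOL, hcen⟩ := exists_centredAt_of_embedding ι M ψ Lc x hconst hx O hO c b hb h1 h2
  refine ordLe_comap ψ hOL ?_
  rw [map_sub, hx, hb]
  exact hk OL hcen

variable [CharZero Ω]

/-- **`GoodModel.unramified` for the coordinate `j`**, `S = {0, 1728}`. -/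
theorem unramified_j_of_embedding (ψ : Ω →+* IActField ι M) (Lc : Subfield Ω) (x : Ω)
    (hconst : ∀ b : E, ∃ a ∈ Lc, ψ a = iactFC ι M b)
    (hLc : ∀ a ∈ Lc, ∃ b : E, ψ a = iactFC ι M b) (hx : ψ x = iactFJ ι M)
    (O : ValuationSubring Ω) (hO : ∀ a ∈ Lc, a ∈ O) (c : Ω) (hc : c ∈ Lc)
    (hc0 : c ≠ 0) (hc1 : c ≠ 1728) (h1 : x - c ∈ O) (h2 : (x - c)⁻¹ ∉ O)
    (t : Ω) (ht : t ∈ O) (ht' : t⁻¹ ∉ O) : t * (x - c)⁻¹ ∈ O := by
  obtain ⟨b, hb⟩ := hLc c hc
  have hb0 : b ≠ 0 := by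
    rintro rfl
    rw [map_zero] at hb
    exact hc0 ((map_eq_zero ψ).1 hb)
  have hb1 : b ≠ 1728 := by
    rintro rfl
    apply hc1
    apply ψ.injective
    rw [hb, map_ofNat, map_ofNat]
  have := ordLe_of_embedding ι M ψ Lc x hconst hx O hO c b hb h1 h2 1
    (fun OL hOL => iact_ordLe_generic ι M b hb0 hb1 hOL) t ht ht'
  rwa [pow_one] at this

/-- `e ≤ 3` over `j = 0`. -/
theorem ordLe_zero_of_embedding (ψ : Ω →+* IActField ι M) (Lc : Subfield Ω) (x : Ω)
    (hconst : ∀ b : E, ∃ a ∈ Lc, ψ a = iactFC ι M b) (hx : ψ x = iactFJ ι M)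
    (O : ValuationSubring Ω) (hO : ∀ a ∈ Lc, a ∈ O) (h1 : x ∈ O) (h2 : x⁻¹ ∉ O) :
    OrdLe x 3 O := by
  have := ordLe_of_embedding ι M ψ Lc x hconst hx O hO 0 0 (by rw [map_zero, map_zero])
    (by rwa [sub_zero]) (by rwa [sub_zero]) 3 (fun OL hOL => iact_ordLe_zero ι M hOL)
  rwa [sub_zero] at this

/-- `e ≤ 2` over `j = 1728`. -/
theorem ordLe_1728_of_embedding (ψ : Ω →+* IActField ι M) (Lc : Subfield Ω) (x : Ω)
    (hconst : ∀ b : E, ∃ a ∈ Lc, ψ a = iactFC ι M b) (hx : ψ x = iactFJ ι M)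
    (O : ValuationSubring Ω) (hO : ∀ a ∈ Lc, a ∈ O) (h1 : x - 1728 ∈ O)
    (h2 : (x - 1728)⁻¹ ∉ O) : OrdLe (x - 1728) 2 O :=
  ordLe_of_embedding ι M ψ Lc x hconst hx O hO 1728 1728 (by rw [map_ofNat, map_ofNat])
    h1 h2 2 (fun OL hOL => iact_ordLe_1728 ι M hOL)

end Fermat.Agent.S48.H648

end
end
-- ===== PACK-END S48/H648/BrMain.lean

-- ===== PACK-BEGIN S48/H648/BrCoordMain.lean
section



/-!
# S48 / Tower A1 / A1-BR (helper648), part 5: `GoodModel.unramified` for the coordinates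
`t₂`, `t₃` in every field embedded in the full-level field

`Ω` any field of characteristic `0` with an embedding `ψ : Ω →+* H828.IActField ι M`, constants
`Lc` with `ψ(Lc) = constants`, `jΩ : Ω` with `ψ jΩ = j`.

* `unramified_t2_of_embedding` : `x : Ω` with `jΩ * x² = (x + 256)³`; for `c ∈ Lc`,
  `c ∉ {0, -64}`, `x - c` a non-unit of `O ⊇ Lc`: `t * (x - c)⁻¹ ∈ O` for all non-units `t`.
* `unramified_t3_of_embedding` : `x : Ω` with `jΩ * x³ = (x + 27)(x + 243)³`, `c ∉ {0, -27}`.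

These are literally the conclusions of `S18.Alg.GoodModel.unramified` for the three admissible
coordinates of `S18.Mod.IsCoordinate` (`unramified_j_of_embedding` for `x = j`).
-/

set_option autoImplicit false
set_option linter.unusedSectionVars false

noncomputable section

open scoped MatrixGroups

namespace Fermat.Agent.S48.H648

open Fermat.Agent.S48.H828 Fermat.Agent.S20.L1 Fermat.Agent.S24.M7.H47

variable {E : Type*} [Field E] [CharZero E] (ι : E →+* ℂ) (M : ℕ) [NeZero M]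
variable {Ω : Type*} [Field Ω] [CharZero Ω]

/-- `j` is not a constant. -/
theorem iactFJ_ne_const (b : E) : iactFJ ι M ≠ iactFC ι M b := by
  intro h
  have h1 : iactJ ι M = iactC ι M b :=
    IsFractionRing.injective (iactRing ι M) (IActField ι M) h
  obtain ⟨τ, hτ⟩ := jFun_surjective (ι b + 1)
  have h2 : jFun τ = ι b := congrFun (congrArg Subtype.val h1) τ
  rw [hτ] at h2
  exact one_ne_zero (add_eq_left.1 h2)

/-- The three `j`-inputs of `ordLe_t2`, `ordLe_t3` for a field embedded in the full-level field. -/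
theorem j_inputs_of_embedding (ψ : Ω →+* IActField ι M) (Lc : Subfield Ω) (jΩ : Ω)
    (hconst : ∀ b : E, ∃ a ∈ Lc, ψ a = iactFC ι M b)
    (hLc : ∀ a ∈ Lc, ∃ b : E, ψ a = iactFC ι M b) (hj : ψ jΩ = iactFJ ι M)
    (O : ValuationSubring Ω) (hO : ∀ a ∈ Lc, a ∈ O) :
    (∀ a ∈ Lc, jΩ ≠ a) ∧
    (∀ a ∈ Lc, a ≠ 0 → a ≠ 1728 → jΩ - a ∈ O → (jΩ - a)⁻¹ ∉ O → OrdLe (jΩ - a) 1 O) ∧
    (jΩ ∈ O → jΩ⁻¹ ∉ O → OrdLe jΩ 3 O) ∧
    (jΩ - 1728 ∈ O → (jΩ - 1728)⁻¹ ∉ O → OrdLe (jΩ - 1728) 2 O) := by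
  refine ⟨fun a ha h => ?_, fun a ha ha0 ha1 h1 h2 t ht ht' => ?_,
    fun h1 h2 => ordLe_zero_of_embedding ι M ψ Lc jΩ hconst hj O hO h1 h2,
    fun h1 h2 => ordLe_1728_of_embedding ι M ψ Lc jΩ hconst hj O hO h1 h2⟩
  · obtain ⟨b, hb⟩ := hLc a ha
    apply iactFJ_ne_const ι M b
    rw [← hj, ← hb, h]
  · rw [pow_one]
    exact unramified_j_of_embedding ι M ψ Lc jΩ hconst hLc hj O hO a ha ha0 ha1 h1 h2 t ht ht'

/-- **`GoodModel.unramified` for the coordinate `t₂`** (`ℓ = 3`), `S = {0, -64}`. -/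
theorem unramified_t2_of_embedding (ψ : Ω →+* IActField ι M) (Lc : Subfield Ω) (jΩ x : Ω)
    (hconst : ∀ b : E, ∃ a ∈ Lc, ψ a = iactFC ι M b)
    (hLc : ∀ a ∈ Lc, ∃ b : E, ψ a = iactFC ι M b) (hj : ψ jΩ = iactFJ ι M)
    (hjx : jΩ * x ^ 2 = (x + 256) ^ 3)
    (O : ValuationSubring Ω) (hO : ∀ a ∈ Lc, a ∈ O) (c : Ω) (hc : c ∈ Lc)
    (hc0 : c ≠ 0) (hc64 : c ≠ -64) (h1 : x - c ∈ O) (h2 : (x - c)⁻¹ ∉ O)
    (t : Ω) (ht : t ∈ O) (ht' : t⁻¹ ∉ O) : t * (x - c)⁻¹ ∈ O := by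
  obtain ⟨hjc, Hgen, H0, H1728⟩ := j_inputs_of_embedding ι M ψ Lc jΩ hconst hLc hj O hO
  have := ordLe_t2 Lc O hO jΩ x hjx hjc Hgen H0 H1728 c hc hc0 hc64 h1 h2 t ht ht'
  rwa [pow_one] at this

/-- **`GoodModel.unramified` for the coordinate `t₃`** (`ℓ = 2`), `S = {0, -27}`. -/
theorem unramified_t3_of_embedding (ψ : Ω →+* IActField ι M) (Lc : Subfield Ω) (jΩ x : Ω)
    (hconst : ∀ b : E, ∃ a ∈ Lc, ψ a = iactFC ι M b)
    (hLc : ∀ a ∈ Lc, ∃ b : E, ψ a = iactFC ι M b) (hj : ψ jΩ = iactFJ ι M)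
    (hjx : jΩ * x ^ 3 = (x + 27) * (x + 243) ^ 3)
    (O : ValuationSubring Ω) (hO : ∀ a ∈ Lc, a ∈ O) (c : Ω) (hc : c ∈ Lc)
    (hc0 : c ≠ 0) (hc27 : c ≠ -27) (h1 : x - c ∈ O) (h2 : (x - c)⁻¹ ∉ O)
    (t : Ω) (ht : t ∈ O) (ht' : t⁻¹ ∉ O) : t * (x - c)⁻¹ ∈ O := by
  obtain ⟨hjc, Hgen, H0, H1728⟩ := j_inputs_of_embedding ι M ψ Lc jΩ hconst hLc hj O hO
  have := ordLe_t3 Lc O hO jΩ x hjx hjc Hgen H0 H1728 c hc hc0 hc27 h1 h2 t ht ht'
  rwa [pow_one] at this

end Fermat.Agent.S48.H648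

end
end
-- ===== PACK-END S48/H648/BrCoordMain.lean

-- ===== PACK-BEGIN S48/H648/BrEmb.lean
section


/-!
# S48 / Tower A1 / A1-BR (helper648), part 6: fields of `q`-series with avatars

The consumer (A1-FF / A1-RED) works with `Ω = laurentBaseChange E F₀`, `F₀` a field of rational
`q`-series (e.g. `F₁(M) = ℚ(j, Y_c)`).  The full-level field `H828.IActField ι M` lives in the
variable `X = q^{1/M}`.

* `avatarField ι M : Subfield (LaurentSeries E)` : the `q`-series `f` such that `f(X^M)` is the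
  `X`-expansion of an element of `IActField ι M` ("`f` has an avatar").  It contains the
  constants and `j` (`const_mem_avatarField`, `jq_mem_avatarField`).
* `avatarEmb ι M : avatarField ι M →+* IActField ι M`, with
  `iactFieldExp (avatarEmb f) = qExpand E M f`.
* `coeffEmb_mem_avatarField_of_adjoin` : it suffices to produce avatars for GENERATORS of `F₀`.
* `unramified_j_laurentBaseChange`, `unramified_t2_laurentBaseChange`,
  `unramified_t3_laurentBaseChange` : the field `unramified` of `S18.Alg.GoodModel` for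
  `Ω = laurentBaseChange E F₀`, `Lc = (algebraMap E Ω).fieldRange`, as soon as the generators of
  `F₀` have avatars.
-/

set_option autoImplicit false
set_option linter.unusedSectionVars false

noncomputable section

open ModularCurve HahnSeries
open scoped MatrixGroups

namespace Fermat.Agent.S48.H648

open Fermat.Agent.S48.H828

variable {E : Type*} [Field E] [CharZero E] (ι : E →+* ℂ) (M : ℕ) [NeZero M]

/-- The `q`-series over `E` with an avatar in the full-level field. -/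
def avatarField : Subfield (LaurentSeries E) :=
  (iactFieldExp ι M).fieldRange.comap (qExpand E M)

variable {ι M}

theorem mem_avatarField {f : LaurentSeries E} :
    f ∈ avatarField ι M ↔ ∃ y : IActField ι M, iactFieldExp ι M y = qExpand E M f := Iff.rfl

theorem mem_avatarField_of_ring {f : LaurentSeries E} (g : iactRing ι M)
    (hg : iactExp ι M g = qExpand E M f) : f ∈ avatarField ι M :=
  ⟨algebraMap _ _ g, by rw [iactFieldExp_algebraMap, hg]⟩

theorem C_mem_avatarField (a : E) : HahnSeries.C a ∈ avatarField ι M :=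
  ⟨iactFC ι M a, by rw [iactFieldExp_C, qExpand_C]⟩

theorem const_mem_avatarField (a : E) : algebraMap E (LaurentSeries E) a ∈ avatarField ι M := by
  rw [algebraMap_laurentSeries_eq_single]
  exact C_mem_avatarField a

theorem jq_mem_avatarField : coeffEmb E jq ∈ avatarField ι M :=
  ⟨iactFJ ι M, by rw [iactFieldExp_J]; rfl⟩

variable (ι M)

/-- The embedding of the field of `q`-series with avatars into the full-level field. -/
def avatarEmb : avatarField ι M →+* IActField ι M where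
  toFun f := Classical.choose (mem_avatarField.1 f.2)
  map_one' := by
    apply iactFieldExp_injective (ι := ι) (M := M)
    rw [Classical.choose_spec (mem_avatarField.1 (1 : avatarField ι M).2), RingHom.map_one]
    exact RingHom.map_one _
  map_mul' f g := by
    apply iactFieldExp_injective (ι := ι) (M := M)
    rw [RingHom.map_mul, Classical.choose_spec (mem_avatarField.1 (f * g).2),
      Classical.choose_spec (mem_avatarField.1 f.2),
      Classical.choose_spec (mem_avatarField.1 g.2)]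
    exact RingHom.map_mul _ _ _
  map_zero' := by
    apply iactFieldExp_injective (ι := ι) (M := M)
    rw [Classical.choose_spec (mem_avatarField.1 (0 : avatarField ι M).2), RingHom.map_zero]
    exact RingHom.map_zero _
  map_add' f g := by
    apply iactFieldExp_injective (ι := ι) (M := M)
    rw [RingHom.map_add, Classical.choose_spec (mem_avatarField.1 (f + g).2),
      Classical.choose_spec (mem_avatarField.1 f.2),
      Classical.choose_spec (mem_avatarField.1 g.2)]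
    exact RingHom.map_add _ _ _

variable {ι M}

theorem iactFieldExp_avatarEmb (f : avatarField ι M) :
    iactFieldExp ι M (avatarEmb ι M f) = qExpand E M (f : LaurentSeries E) :=
  Classical.choose_spec (mem_avatarField.1 f.2)

theorem avatarEmb_eq_iff (f : avatarField ι M) (y : IActField ι M) :
    avatarEmb ι M f = y ↔ iactFieldExp ι M y = qExpand E M (f : LaurentSeries E) := by
  constructor
  · rintro rfl
    exact iactFieldExp_avatarEmb f
  · intro h
    apply iactFieldExp_injective (ι := ι) (M := M)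
    rw [h, iactFieldExp_avatarEmb]

theorem avatarEmb_const (a : E) (h : algebraMap E (LaurentSeries E) a ∈ avatarField ι M) :
    avatarEmb ι M ⟨_, h⟩ = iactFC ι M a := by
  rw [avatarEmb_eq_iff, iactFieldExp_C]
  show _ = qExpand E M (algebraMap E (LaurentSeries E) a)
  rw [algebraMap_laurentSeries_eq_single]
  exact (qExpand_C M a).symm

theorem avatarEmb_jq (h : coeffEmb E jq ∈ avatarField ι M) :
    avatarEmb ι M ⟨_, h⟩ = iactFJ ι M := by
  rw [avatarEmb_eq_iff, iactFieldExp_J]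
  rfl

/-- Avatars for generators suffice. -/
theorem coeffEmb_mem_avatarField_of_adjoin (S : Set (LaurentSeries ℚ))
    (hS : ∀ s ∈ S, coeffEmb E s ∈ avatarField ι M) :
    ∀ x ∈ IntermediateField.adjoin ℚ S, coeffEmb E x ∈ avatarField ι M := by
  intro x hx
  have hx' : x ∈ Subfield.closure (Set.range (algebraMap ℚ (LaurentSeries ℚ)) ∪ S) := hx
  have hle : Subfield.closure (Set.range (algebraMap ℚ (LaurentSeries ℚ)) ∪ S)
      ≤ (avatarField ι M).comap (coeffEmb E) := by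
    rw [Subfield.closure_le]
    rintro y (⟨c, rfl⟩ | hy)
    · show coeffEmb E (algebraMap ℚ (LaurentSeries ℚ) c) ∈ avatarField ι M
      have : coeffEmb E (algebraMap ℚ (LaurentSeries ℚ) c)
          = HahnSeries.C (algebraMap ℚ E c) := by
        rw [algebraMap_apply_eq_single, coeffEmb, coeffMap_single]
        rfl
      rw [this]
      exact C_mem_avatarField _
    · exact hS y hy
  exact hle hx'

theorem laurentBaseChange_le_avatarField (F₀ : IntermediateField ℚ (LaurentSeries ℚ))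
    (hF₀ : ∀ x ∈ F₀, coeffEmb E x ∈ avatarField ι M) :
    (laurentBaseChange E F₀).toSubfield ≤ avatarField ι M := by
  intro f hf
  have hf' : f ∈ Subfield.closure (Set.range (algebraMap E (LaurentSeries E)) ∪
      (⇑(coeffEmb E) '' (F₀ : Set (LaurentSeries ℚ)))) := hf
  revert hf'
  apply (Subfield.closure_le (t := avatarField ι M)).2
  rintro y (⟨c, rfl⟩ | ⟨x, hx, rfl⟩)
  · exact const_mem_avatarField c
  · exact hF₀ x hx

variable (ι M)

/-- The embedding `laurentBaseChange E F₀ →+* IActField`, `q ↦ X^M`. -/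
def baseChangeEmb (F₀ : IntermediateField ℚ (LaurentSeries ℚ))
    (hF₀ : ∀ x ∈ F₀, coeffEmb E x ∈ avatarField ι M) :
    ↥(laurentBaseChange E F₀) →+* IActField ι M :=
  (avatarEmb ι M).comp (Subfield.inclusion (laurentBaseChange_le_avatarField F₀ hF₀))

variable {ι M}

theorem iactFieldExp_baseChangeEmb (F₀ : IntermediateField ℚ (LaurentSeries ℚ))
    (hF₀ : ∀ x ∈ F₀, coeffEmb E x ∈ avatarField ι M) (f : ↥(laurentBaseChange E F₀)) :
    iactFieldExp ι M (baseChangeEmb ι M F₀ hF₀ f) = qExpand E M (f : LaurentSeries E) :=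
  iactFieldExp_avatarEmb _

theorem baseChangeEmb_eq_iff (F₀ : IntermediateField ℚ (LaurentSeries ℚ))
    (hF₀ : ∀ x ∈ F₀, coeffEmb E x ∈ avatarField ι M) (f : ↥(laurentBaseChange E F₀))
    (y : IActField ι M) :
    baseChangeEmb ι M F₀ hF₀ f = y ↔ iactFieldExp ι M y = qExpand E M (f : LaurentSeries E) :=
  avatarEmb_eq_iff _ y

theorem baseChangeEmb_algebraMap (F₀ : IntermediateField ℚ (LaurentSeries ℚ))
    (hF₀ : ∀ x ∈ F₀, coeffEmb E x ∈ avatarField ι M) (a : E) :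
    baseChangeEmb ι M F₀ hF₀ (algebraMap E ↥(laurentBaseChange E F₀) a) = iactFC ι M a := by
  rw [baseChangeEmb_eq_iff, iactFieldExp_C]
  show _ = qExpand E M (algebraMap E (LaurentSeries E) a)
  rw [algebraMap_laurentSeries_eq_single]
  exact (qExpand_C M a).symm

section Final

variable (F₀ : IntermediateField ℚ (LaurentSeries ℚ))
  (hF₀ : ∀ x ∈ F₀, coeffEmb E x ∈ avatarField ι M)
  [CharZero ↥(laurentBaseChange E F₀)]

include hF₀

theorem baseChange_hconst :
    ∀ b : E, ∃ a ∈ (algebraMap E ↥(laurentBaseChange E F₀)).fieldRange,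
      baseChangeEmb ι M F₀ hF₀ a = iactFC ι M b :=
  fun b => ⟨_, ⟨b, rfl⟩, baseChangeEmb_algebraMap F₀ hF₀ b⟩

theorem baseChange_hLc :
    ∀ a ∈ (algebraMap E ↥(laurentBaseChange E F₀)).fieldRange,
      ∃ b : E, baseChangeEmb ι M F₀ hF₀ a = iactFC ι M b := by
  rintro _ ⟨b, rfl⟩
  exact ⟨b, baseChangeEmb_algebraMap F₀ hF₀ b⟩

theorem baseChange_hj (jΩ : ↥(laurentBaseChange E F₀))
    (hj : (jΩ : LaurentSeries E) = coeffEmb E jq) :
    baseChangeEmb ι M F₀ hF₀ jΩ = iactFJ ι M := by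
  rw [baseChangeEmb_eq_iff, iactFieldExp_J, hj]
  rfl

/-- **`GoodModel.unramified`, coordinate `j`, `S = {0, 1728}`**, for `Ω = laurentBaseChange E F₀`
and `Lc = (algebraMap E Ω).fieldRange`. -/
theorem unramified_j_laurentBaseChange (jΩ : ↥(laurentBaseChange E F₀))
    (hj : (jΩ : LaurentSeries E) = coeffEmb E jq)
    (O : ValuationSubring ↥(laurentBaseChange E F₀))
    (hO : ∀ a ∈ (algebraMap E ↥(laurentBaseChange E F₀)).fieldRange, a ∈ O)
    (c : ↥(laurentBaseChange E F₀))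
    (hc : c ∈ (algebraMap E ↥(laurentBaseChange E F₀)).fieldRange)
    (hc0 : c ≠ 0) (hc1 : c ≠ 1728) (h1 : jΩ - c ∈ O) (h2 : (jΩ - c)⁻¹ ∉ O)
    (t : ↥(laurentBaseChange E F₀)) (ht : t ∈ O) (ht' : t⁻¹ ∉ O) : t * (jΩ - c)⁻¹ ∈ O :=
  unramified_j_of_embedding ι M (baseChangeEmb ι M F₀ hF₀) _ jΩ (baseChange_hconst F₀ hF₀)
    (baseChange_hLc F₀ hF₀) (baseChange_hj F₀ hF₀ jΩ hj) O hO c hc hc0 hc1 h1 h2 t ht ht'

/-- **`GoodModel.unramified`, coordinate `t₂`, `S = {0, -64}`.** -/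
theorem unramified_t2_laurentBaseChange (jΩ x : ↥(laurentBaseChange E F₀))
    (hj : (jΩ : LaurentSeries E) = coeffEmb E jq) (hjx : jΩ * x ^ 2 = (x + 256) ^ 3)
    (O : ValuationSubring ↥(laurentBaseChange E F₀))
    (hO : ∀ a ∈ (algebraMap E ↥(laurentBaseChange E F₀)).fieldRange, a ∈ O)
    (c : ↥(laurentBaseChange E F₀))
    (hc : c ∈ (algebraMap E ↥(laurentBaseChange E F₀)).fieldRange)
    (hc0 : c ≠ 0) (hc64 : c ≠ -64) (h1 : x - c ∈ O) (h2 : (x - c)⁻¹ ∉ O)
    (t : ↥(laurentBaseChange E F₀)) (ht : t ∈ O) (ht' : t⁻¹ ∉ O) : t * (x - c)⁻¹ ∈ O :=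
  unramified_t2_of_embedding ι M (baseChangeEmb ι M F₀ hF₀) _ jΩ x (baseChange_hconst F₀ hF₀)
    (baseChange_hLc F₀ hF₀) (baseChange_hj F₀ hF₀ jΩ hj) hjx O hO c hc hc0 hc64 h1 h2 t ht ht'

/-- **`GoodModel.unramified`, coordinate `t₃`, `S = {0, -27}`.** -/
theorem unramified_t3_laurentBaseChange (jΩ x : ↥(laurentBaseChange E F₀))
    (hj : (jΩ : LaurentSeries E) = coeffEmb E jq)
    (hjx : jΩ * x ^ 3 = (x + 27) * (x + 243) ^ 3)
    (O : ValuationSubring ↥(laurentBaseChange E F₀))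
    (hO : ∀ a ∈ (algebraMap E ↥(laurentBaseChange E F₀)).fieldRange, a ∈ O)
    (c : ↥(laurentBaseChange E F₀))
    (hc : c ∈ (algebraMap E ↥(laurentBaseChange E F₀)).fieldRange)
    (hc0 : c ≠ 0) (hc27 : c ≠ -27) (h1 : x - c ∈ O) (h2 : (x - c)⁻¹ ∉ O)
    (t : ↥(laurentBaseChange E F₀)) (ht : t ∈ O) (ht' : t⁻¹ ∉ O) : t * (x - c)⁻¹ ∈ O :=
  unramified_t3_of_embedding ι M (baseChangeEmb ι M F₀ hF₀) _ jΩ x (baseChange_hconst F₀ hF₀)
    (baseChange_hLc F₀ hF₀) (baseChange_hj F₀ hF₀ jΩ hj) hjx O hO c hc hc0 hc27 h1 h2 t ht ht'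

end Final

end Fermat.Agent.S48.H648

end
end
-- ===== PACK-END S48/H648/BrEmb.lean

-- ===== PACK-BEGIN S48/H828/IActJd.lean
section


/-!
# S48 / Tower A1 / IGUSA1, pieces I-ACT / I-F0 (helper828), part 5: the functions `j(dτ)`

Assume `ζ ∈ Eˣ` maps to `exp(2πi/M)`.  Then for `d ∣ M`:

* `Jd_mem_iactRing` : `τ ↦ j(dτ)` lies in `iactRing ι M` (all its `SL(2,ℤ)`-translates have
  `E`-rational `X`-expansions);
* `iactExp_Jd` : its `X`-expansion is `jq(X^{dM})`, written `qExpand M (qExpand d jq)`;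
* `iact_smul_Jd_of_mem_Gamma0`, `iact_mem_Gamma0_of_smul_JM` : the stabiliser of `j(Mτ)` is `Γ₀(M)`;
* `iactB_inv` (**I-F0**, field `B_inv` of `H856.IgusaData`): every `Γ₀(M)`-invariant element of
  `IActField ι M` lies in `E(j(dτ) : d ∣ M)`.
-/

set_option autoImplicit false
set_option linter.unusedSectionVars false

noncomputable section

open ModularCurve HahnSeries UpperHalfPlane
open scoped MatrixGroups Manifold

namespace Fermat.Agent.S48.H828

open Fermat.Agent.S24 Fermat.Agent.S24.H997 Fermat.Agent.S24.H624 Fermat.Agent.S20.L1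

/-! ### a Galois correspondence lemma (elementwise form) -/

/-- Let a finite group `G` act faithfully on a field `L`, let `F₀` be a subfield containing the
invariants, and let `B ≤ G` contain every element fixing `F₀` pointwise.  Then every `B`-invariant
element of `L` lies in `F₀`. -/
theorem iact_mem_of_fixed {L : Type*} [Field L] {G : Type*} [Group G] [Finite G]
    [MulSemiringAction G L] [FaithfulSMul G L] (B : Subgroup G) (F₀ : Subfield L)
    (hFG : ∀ x : L, (∀ g : G, g • x = x) → x ∈ F₀)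
    (hdist : ∀ g : G, (∀ x ∈ F₀, g • x = x) → g ∈ B)
    (x : L) (hx : ∀ b ∈ B, b • x = x) : x ∈ F₀ := by
  classical
  let F : IntermediateField (FixedPoints.subfield G L) L :=
    { F₀ with
      algebraMap_mem' := fun r => hFG _ (fun g => r.2 g) }
  have hmem : ∀ y : L, y ∈ F ↔ y ∈ F₀ := fun y => Iff.rfl
  have hfix : fixingSubgroup G (F : Set L) ≤ B := by
    intro g hg
    apply hdist
    intro y hy
    exact (mem_fixingSubgroup_iff G).mp hg y ((hmem y).mpr hy)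
  have : IsGaloisGroup G (FixedPoints.subfield G L) L := IsGaloisGroup.fixedPoints G L
  have h1 : (FixedPoints.intermediateField (fixingSubgroup G (F : Set L)) :
      IntermediateField (FixedPoints.subfield G L) L) = F :=
    IsGaloisGroup.fixedPoints_fixingSubgroup G (FixedPoints.subfield G L) L F
  rw [← hmem, ← h1]
  rintro ⟨g, hg⟩
  exact hx g (hfix hg)

variable {E : Type*} [Field E] [CharZero E] {ι : E →+* ℂ} {M : ℕ} [NeZero M]

/-! ### `j(dτ)` -/

theorem iact_Gamma_le_Gamma0 {γ : SL(2, ℤ)} (hγ : γ ∈ CongruenceSubgroup.Gamma M) :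
    γ ∈ CongruenceSubgroup.Gamma0 M := by
  rw [CongruenceSubgroup.Gamma0_mem]
  exact (CongruenceSubgroup.Gamma_mem.mp hγ).2.2.1

theorem iact_infRoot_mul (b : ℤ) {d' c : ℕ} (hd' : 0 < d') (hc : 0 < c) (h : M = d' * c) :
    infRoot (b * c) M = infRoot b d' := by
  apply Units.ext
  rw [infRoot_coe, infRoot_coe]
  congr 1
  have h1 : (d' : ℂ) ≠ 0 := by exact_mod_cast hd'.ne'
  have h2 : (c : ℂ) ≠ 0 := by exact_mod_cast hc.ne'
  rw [h]
  push_cast
  field_simp

theorem compSL_Jd_rat (ζ : Eˣ) (hζ : Units.map (ι : E →* ℂ) ζ = infRoot 1 M) {d : ℕ}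
    (hd : d ∣ M) (γ : SL(2, ℤ)) : IActRat ι M (compSL γ (Jd d)) := by
  have hM : 0 < M := Nat.pos_of_ne_zero (NeZero.ne M)
  have hd0 : 0 < d := Nat.pos_of_dvd_of_pos hd hM
  obtain ⟨γ', a, d', b, ha, hd', had, h00, h01, h10, h11⟩ := inf_exists_hnf d hd0 γ
  have hd'M : d' ∣ M := (Dvd.intro_left a had).trans hd
  obtain ⟨c, hc⟩ := hd'M
  have hc0 : 0 < c := by
    rcases Nat.eq_zero_or_pos c with h | h
    · rw [h, mul_zero] at hc; omega
    · exact h
  haveI : NeZero (a * c) := ⟨(Nat.mul_pos ha hc0).ne'⟩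
  have h := inf_J_infAff_exp infExp_jFun (e := a * c) (N := M) b ha hd' hM (by rw [hc]; ring)
  refine ⟨qExpand E (a * c) (infTwist (ζ ^ (b * c)) (coeffEmb E jq)), ?_⟩
  have hroot : Units.map (ι : E →* ℂ) (ζ ^ (b * c)) = infRoot b d' := by
    rw [map_zpow, hζ, iact_infRoot_one_zpow, iact_infRoot_mul b hd' hc0 hc]
  have hser : coeffMap ι (qExpand E (a * c) (infTwist (ζ ^ (b * c)) (coeffEmb E jq)))
      = infGenExp (a * c) b d' := by
    rw [coeffMap_qExpand, iact_coeffMap_infTwist, iact_coeffMap_coeffEmb, hroot]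
    rfl
  rw [hser]
  refine h.congr fun τ => ?_
  show jFun (infAff a b d' τ) = jFun (infAff d 0 1 (γ • τ))
  rw [inf_aff_smul_eq hd0 ha hd' γ γ' h00 h01 h10 h11 τ, jFun_smul']

theorem Jd_mem_iactRing (ζ : Eˣ) (hζ : Units.map (ι : E →* ℂ) ζ = infRoot 1 M) {d : ℕ}
    (hd : d ∣ M) : Jd d ∈ iactRing ι M := by
  have hM : 0 < M := Nat.pos_of_ne_zero (NeZero.ne M)
  have hd0 : 0 < d := Nat.pos_of_dvd_of_pos hd hM
  refine ⟨mdiff_Jd hd0, fun γ hγ => ?_, fun γ => compSL_Jd_rat ζ hζ hd γ⟩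
  funext τ
  exact Jd_inv M d hd γ (iact_Gamma_le_Gamma0 hγ) τ

/-- `τ ↦ j(dτ)` as an element of `iactRing ι M`. -/
def iactJd (ζ : Eˣ) (hζ : Units.map (ι : E →* ℂ) ζ = infRoot 1 M) (d : ℕ) (hd : d ∣ M) :
    iactRing ι M := ⟨Jd d, Jd_mem_iactRing ζ hζ hd⟩

/-- `τ ↦ j(dτ)` as an element of `IActField ι M`. -/
def iactFJd (ζ : Eˣ) (hζ : Units.map (ι : E →* ℂ) ζ = infRoot 1 M) (d : ℕ) (hd : d ∣ M) :
    IActField ι M := algebraMap (iactRing ι M) (IActField ι M) (iactJd ζ hζ d hd)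

variable (ζ : Eˣ) (hζ : Units.map (ι : E →* ℂ) ζ = infRoot 1 M)

theorem iactJd_one : iactJd ζ hζ 1 (one_dvd M) = iactJ ι M :=
  Subtype.ext Jd_one

theorem iactFJd_one : iactFJd ζ hζ 1 (one_dvd M) = iactFJ ι M := by
  rw [iactFJd, iactJd_one, iactFJ]

theorem iactExp_Jd (d : ℕ) [NeZero d] (hd : d ∣ M) :
    iactExp ι M (iactJd ζ hζ d hd) = qExpand E M (qExpand E d (coeffEmb E jq)) := by
  have hM : 0 < M := Nat.pos_of_ne_zero (NeZero.ne M)
  have hd0 : 0 < d := Nat.pos_of_ne_zero (NeZero.ne d)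
  apply iactExp_eq
  have h := inf_J_mul_exp infExp_jFun hd0 hM
  rw [coeffMap_qExpand, coeffMap_qExpand, iact_coeffMap_coeffEmb, qExpand_qExpand]
  have e : qExpand ℂ (M * d) (coeffEmb ℂ jq) = qExpand ℂ (d * M) infJq :=
    qExpand_congr (Nat.mul_comm M d) _
  rw [e]
  exact h

theorem iactFieldExp_Jd (d : ℕ) [NeZero d] (hd : d ∣ M) :
    iactFieldExp ι M (iactFJd ζ hζ d hd) = qExpand E M (qExpand E d (coeffEmb E jq)) := by
  rw [iactFJd, iactFieldExp_algebraMap, iactExp_Jd]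

theorem iact_smul_Jd_of_mem_Gamma0 {γ : SL(2, ℤ)} (hγ : γ ∈ CongruenceSubgroup.Gamma0 M)
    (d : ℕ) (hd : d ∣ M) : γ • iactJd ζ hζ d hd = iactJd ζ hζ d hd := by
  apply Subtype.ext
  funext τ
  exact Jd_inv M d hd γ⁻¹ (inv_mem hγ) τ

theorem iact_mem_Gamma0_of_smul_JM {γ : SL(2, ℤ)}
    (h : γ • iactJd ζ hζ M dvd_rfl = iactJd ζ hζ M dvd_rfl) :
    γ ∈ CongruenceSubgroup.Gamma0 M := by
  have h1 : γ⁻¹ ∈ CongruenceSubgroup.Gamma0 M := by
    apply Jd_distinct M γ⁻¹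
    intro τ
    exact congrArg (fun f : iactRing ι M => (f : ℍ → ℂ) τ) h
  simpa using inv_mem h1

/-! ### I-F0: the invariants of `Γ₀(M)` -/

/-- The field `E(j(dτ) : d ∣ M)` inside `IActField ι M`. -/
def iactF0 : Subfield (IActField ι M) :=
  Subfield.closure (Set.range (iactFC ι M) ∪ {y | ∃ (d : ℕ) (hd : d ∣ M), y = iactFJd ζ hζ d hd})

theorem iactFC_mem_F0 (c : E) : iactFC ι M c ∈ iactF0 ζ hζ :=
  Subfield.subset_closure (Or.inl ⟨c, rfl⟩)

theorem iactFJd_mem_F0 (d : ℕ) (hd : d ∣ M) : iactFJd ζ hζ d hd ∈ iactF0 ζ hζ :=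
  Subfield.subset_closure (Or.inr ⟨d, hd, rfl⟩)

theorem iactFJ_mem_F0 : iactFJ ι M ∈ iactF0 ζ hζ := by
  rw [← iactFJd_one ζ hζ]
  exact iactFJd_mem_F0 ζ hζ 1 (one_dvd M)

theorem iact_eval₂_mem_F0 (P : Polynomial E) :
    Polynomial.eval₂ (iactFC ι M) (iactFJ ι M) P ∈ iactF0 ζ hζ := by
  rw [Polynomial.eval₂_eq_sum_range]
  refine sum_mem fun i _ => mul_mem (iactFC_mem_F0 ζ hζ _) (pow_mem (iactFJ_mem_F0 ζ hζ) i)

/-- **I-F0.** Every `Γ₀(M)`-invariant element of `IActField ι M` lies in `E(j(dτ) : d ∣ M)`. -/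
theorem iactB_inv (x : IActField ι M) (hx : ∀ b ∈ iactB ι M, b x = x) : x ∈ iactF0 ζ hζ := by
  haveI : Finite (iactG ι M) := iactG_finite
  refine iact_mem_of_fixed (G := iactG ι M) ((iactB ι M).subgroupOf (iactG ι M)) (iactF0 ζ hζ)
    ?_ ?_ x ?_
  · intro y hy
    obtain ⟨P, Q, -, rfl⟩ := iactG_inv y (fun g hg => hy ⟨g, hg⟩)
    exact div_mem (iact_eval₂_mem_F0 ζ hζ P) (iact_eval₂_mem_F0 ζ hζ Q)
  · rintro ⟨g, γ, rfl⟩ hg
    rw [Subgroup.mem_subgroupOf]
    refine ⟨γ, ?_, rfl⟩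
    apply iact_mem_Gamma0_of_smul_JM ζ hζ
    have h1 := hg _ (iactFJd_mem_F0 ζ hζ M dvd_rfl)
    have h2 : γ • iactFJd ζ hζ M dvd_rfl = iactFJd ζ hζ M dvd_rfl := h1
    rw [iactFJd, iact_smul_algebraMap] at h2
    exact IsFractionRing.injective (iactRing ι M) (IActField ι M) h2
  · rintro ⟨b, hbG⟩ hb
    rw [Subgroup.mem_subgroupOf] at hb
    exact hx b hb

end Fermat.Agent.S48.H828

end
end
-- ===== PACK-END S48/H828/IActJd.lean

-- ===== PACK-BEGIN S48/H648/AvRaise.lean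
section



/-!
# S48 / Tower A1 (helper648): level raising of avatars (AV-RAISE)

`K = M * d * k₀`, `ζ ∈ Eˣ` with `ι ζ = exp(2πi/K)`.

* `raiseFun d f = (τ ↦ f(dτ))`; `raiseFun_mem_iactRing` : `f ∈ H828.iactRing ι M` implies
  `raiseFun d f ∈ iactRing ι K` (holomorphic, `Γ(K)`-invariant, all `SL(2,ℤ)`-translates have
  `E`-rational expansions in `X_K = exp(2πiτ/K)`: Hermite normal form + `InfExp.comp_infAff`);
* `raiseRing : iactRing ι M →+* iactRing ι K`, `iactExp_raiseRing` :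
  `iactExp ι K (raise f) = qExpand E (d * d * k₀) (iactExp ι M f)`;
* `raiseField : IActField ι M →+* IActField ι K`, `iactFieldExp_raiseField`;
* `avatarField_levelRaise` : `F ∈ avatarField ι M → qExpand E d F ∈ avatarField ι K`
  (`d = 1`: change of level `M ∣ K`; `k₀ = 1`: the operator `V_d : q ↦ q^d`);
* `coeffEmb_mem_avatarField_sup` : if the generators of `F₀ ⊆ ℚ((q))` have avatars of level `M`,
  then all elements of `F₀ ⊔ V_p(F₀)` (e.g. `F1p M p = F1 M ⊔ V_p (F1 M)`) have avatars of level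
  `M * p`.
-/

set_option autoImplicit false
set_option linter.unusedSectionVars false
set_option linter.style.haveILetI false

noncomputable section

open ModularCurve HahnSeries UpperHalfPlane
open scoped MatrixGroups Manifold

namespace Fermat.Agent.S48.H648

open Fermat.Agent.S48.H828 Fermat.Agent.S24 Fermat.Agent.S24.H997 Fermat.Agent.S24.H624

/-- `τ ↦ f(dτ)`. -/
def raiseFun (d : ℕ) (f : ℍ → ℂ) : ℍ → ℂ := fun τ => f (infAff d 0 1 τ)

theorem raiseFun_apply (d : ℕ) (f : ℍ → ℂ) (τ : ℍ) : raiseFun d f τ = f (infAff d 0 1 τ) := rfl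

theorem raiseFun_add (d : ℕ) (f g : ℍ → ℂ) : raiseFun d (f + g) = raiseFun d f + raiseFun d g :=
  rfl

theorem raiseFun_mul (d : ℕ) (f g : ℍ → ℂ) : raiseFun d (f * g) = raiseFun d f * raiseFun d g :=
  rfl

theorem mdiff_raiseFun {d : ℕ} (hd : 0 < d) {f : ℍ → ℂ} (hf : MDiff f) :
    MDiff (raiseFun d f) := by
  rw [UpperHalfPlane.mdifferentiable_iff]
  have hj : DifferentiableOn ℂ (f ∘ ofComplex) {z : ℂ | 0 < z.im} :=
    UpperHalfPlane.mdifferentiable_iff.mp hf
  have hmul : DifferentiableOn ℂ (fun z : ℂ => (d : ℂ) * z) {z : ℂ | 0 < z.im} :=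
    (differentiable_id.const_mul (d : ℂ)).differentiableOn
  have hmaps : Set.MapsTo (fun z : ℂ => (d : ℂ) * z) {z : ℂ | 0 < z.im} {z : ℂ | 0 < z.im} := by
    intro z hz
    simp only [Set.mem_ofPred_eq] at hz ⊢
    have : ((d : ℂ) * z).im = d * z.im := by simp
    rw [this]
    have hd' : (0 : ℝ) < d := by exact_mod_cast hd
    positivity
  refine (hj.comp hmul hmaps).congr ?_
  intro z hz
  simp only [Set.mem_ofPred_eq] at hz
  simp only [Function.comp_apply, raiseFun]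
  congr 1
  apply UpperHalfPlane.ext
  rw [infAff_coe hd one_pos, ofComplex_apply_of_im_pos hz]
  have hz' : 0 < ((d : ℂ) * z).im := hmaps hz
  rw [ofComplex_apply_of_im_pos hz']
  simp

/-- `Γ(K)`-invariance of `f(dτ)` for `Γ(M)`-invariant `f`, `M d ∣ K`. -/
theorem raiseFun_compSL_of_mem_Gamma {M d K : ℕ} (hd : 0 < d) (hK : M * d ∣ K) {f : ℍ → ℂ}
    (hf : ∀ γ ∈ CongruenceSubgroup.Gamma M, compSL γ f = f) {γ : SL(2, ℤ)}
    (hγ : γ ∈ CongruenceSubgroup.Gamma K) : compSL γ (raiseFun d f) = raiseFun d f := by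
  obtain ⟨h00, h01, h10, h11⟩ := CongruenceSubgroup.Gamma_mem.mp hγ
  have hMK : (M : ℤ) ∣ (K : ℤ) := by exact_mod_cast (Dvd.intro _ rfl : M ∣ M * d).trans hK
  have hMdK : ((M * d : ℕ) : ℤ) ∣ (K : ℤ) := by exact_mod_cast hK
  have d00 : (K : ℤ) ∣ γ 0 0 - 1 := by
    have : ((γ 0 0 - 1 : ℤ) : ZMod K) = 0 := by push_cast; rw [h00]; ring
    exact (ZMod.intCast_zmod_eq_zero_iff_dvd _ _).mp this
  have d01 : (K : ℤ) ∣ γ 0 1 := (ZMod.intCast_zmod_eq_zero_iff_dvd _ _).mp h01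
  have d10 : (K : ℤ) ∣ γ 1 0 := (ZMod.intCast_zmod_eq_zero_iff_dvd _ _).mp h10
  have d11 : (K : ℤ) ∣ γ 1 1 - 1 := by
    have : ((γ 1 1 - 1 : ℤ) : ZMod K) = 0 := by push_cast; rw [h11]; ring
    exact (ZMod.intCast_zmod_eq_zero_iff_dvd _ _).mp this
  obtain ⟨r, hr⟩ : ((M * d : ℕ) : ℤ) ∣ γ 1 0 := hMdK.trans d10
  have hr' : γ 1 0 = (M : ℤ) * r * d := by rw [hr]; push_cast; ring
  have hdet := inf_sl_det γ
  let γ' : SL(2, ℤ) := ⟨!![γ 0 0, (d : ℤ) * γ 0 1; (M : ℤ) * r, γ 1 1], by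
    rw [Matrix.det_fin_two_of]
    rw [hr'] at hdet
    linear_combination hdet⟩
  have e00 : γ' 0 0 = γ 0 0 := rfl
  have e01 : γ' 0 1 = (d : ℤ) * γ 0 1 := rfl
  have e10 : γ' 1 0 = (M : ℤ) * r := rfl
  have e11 : γ' 1 1 = γ 1 1 := rfl
  have hγ' : γ' ∈ CongruenceSubgroup.Gamma M := by
    rw [CongruenceSubgroup.Gamma_mem, e00, e01, e10, e11]
    refine ⟨?_, ?_, ?_, ?_⟩
    · have : ((γ 0 0 - 1 : ℤ) : ZMod M) = 0 :=
        (ZMod.intCast_zmod_eq_zero_iff_dvd _ _).mpr (hMK.trans d00)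
      push_cast at this
      exact sub_eq_zero.mp this
    · rw [ZMod.intCast_zmod_eq_zero_iff_dvd]
      exact Dvd.dvd.mul_left (hMK.trans d01) _
    · rw [ZMod.intCast_zmod_eq_zero_iff_dvd]
      exact Dvd.intro _ rfl
    · have : ((γ 1 1 - 1 : ℤ) : ZMod M) = 0 :=
        (ZMod.intCast_zmod_eq_zero_iff_dvd _ _).mpr (hMK.trans d11)
      push_cast at this
      exact sub_eq_zero.mp this
  funext τ
  show f (infAff d 0 1 (γ • τ)) = f (infAff d 0 1 τ)
  have k00 : (d : ℤ) * γ 0 0 = γ' 0 0 * (d : ℕ) := by rw [e00]; ring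
  have k01 : (d : ℤ) * γ 0 1 = γ' 0 0 * (0 : ℤ) + γ' 0 1 * ((1 : ℕ) : ℤ) := by
    rw [e01, Nat.cast_one, mul_zero, zero_add, mul_one]
  have k10 : γ 1 0 = γ' 1 0 * (d : ℕ) := by rw [e10, hr']
  have k11 : γ 1 1 = γ' 1 0 * (0 : ℤ) + γ' 1 1 * ((1 : ℕ) : ℤ) := by
    rw [e11, Nat.cast_one, mul_zero, zero_add, mul_one]
  have key := inf_aff_smul_eq (d := d) (a := d) (d' := 1) (b := 0) hd hd one_pos γ γ'
    k00 k01 k10 k11 τ
  rw [key]
  exact congrFun (hf γ' hγ') (infAff d 0 1 τ)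

variable {E : Type*} [Field E] [CharZero E] {ι : E →+* ℂ}

/-- All `SL(2,ℤ)`-translates of `f(dτ)` have `E`-rational expansions in `X_K`. -/
theorem raiseFun_rat {M d K k₀ : ℕ} [NeZero M] [NeZero K] (hd : 0 < d) (hk₀ : 0 < k₀)
    (hK : K = M * d * k₀) (ζ : Eˣ) (hζ : Units.map (ι : E →* ℂ) ζ = infRoot 1 K)
    {f : ℍ → ℂ} (hf : ∀ γ : SL(2, ℤ), IActRat ι M (compSL γ f)) (γ : SL(2, ℤ)) :
    IActRat ι K (compSL γ (raiseFun d f)) := by
  have hM : 0 < M := Nat.pos_of_ne_zero (NeZero.ne M)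
  have hKpos : 0 < K := Nat.pos_of_ne_zero (NeZero.ne K)
  obtain ⟨γ', a, d', b, ha, hd', had, h00, h01, h10, h11⟩ := inf_exists_hnf d hd γ
  obtain ⟨φ, hφ⟩ := hf γ'
  -- `e * (d' * M) = a * K` with `e = a * a * k₀`
  haveI : NeZero (a * a * k₀) := ⟨(Nat.mul_pos (Nat.mul_pos ha ha) hk₀).ne'⟩
  have he : (a * a * k₀) * (d' * M) = a * K := by
    rw [hK, ← had]; ring
  have h := hφ.comp_infAff (e := a * a * k₀) (N := K) b ha hd' hM hKpos he
  -- the root of unity `exp(2πi b/(d' M))` as a power of `ζ`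
  have hc : K = (d' * M) * (a * k₀) := by rw [hK, ← had]; ring
  have hroot : Units.map (ι : E →* ℂ) (ζ ^ (b * ((a * k₀ : ℕ) : ℤ))) = infRoot b (d' * M) := by
    rw [map_zpow, hζ, iact_infRoot_one_zpow]
    exact iact_infRoot_mul b (Nat.mul_pos hd' hM) (Nat.mul_pos ha hk₀) hc
  refine ⟨qExpand E (a * a * k₀) (infTwist (ζ ^ (b * ((a * k₀ : ℕ) : ℤ))) φ), ?_⟩
  rw [coeffMap_qExpand, iact_coeffMap_infTwist, hroot]
  refine h.congr fun τ => ?_
  show compSL γ' f (infAff a b d' τ) = raiseFun d f (γ • τ)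
  rw [raiseFun_apply, inf_aff_smul_eq hd ha hd' γ γ' h00 h01 h10 h11 τ]
  rfl

theorem raiseFun_mem_iactRing {M d K k₀ : ℕ} [NeZero M] [NeZero K] (hd : 0 < d) (hk₀ : 0 < k₀)
    (hK : K = M * d * k₀) (ζ : Eˣ) (hζ : Units.map (ι : E →* ℂ) ζ = infRoot 1 K)
    {f : ℍ → ℂ} (hf : f ∈ iactRing ι M) : raiseFun d f ∈ iactRing ι K := by
  obtain ⟨h0, h1, h2⟩ := hf
  refine ⟨mdiff_raiseFun hd h0, fun γ hγ => ?_, fun γ => raiseFun_rat hd hk₀ hK ζ hζ h2 γ⟩
  exact raiseFun_compSL_of_mem_Gamma hd ⟨k₀, hK⟩ h1 hγ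

section Ring

variable {M d K k₀ : ℕ} [NeZero M] [NeZero K] (hd : 0 < d) (hk₀ : 0 < k₀)
  (hK : K = M * d * k₀) (ζ : Eˣ) (hζ : Units.map (ι : E →* ℂ) ζ = infRoot 1 K)

/-- `f ↦ f(dτ)` as a ring hom `iactRing ι M →+* iactRing ι K`. -/
def raiseRing : iactRing ι M →+* iactRing ι K where
  toFun f := ⟨raiseFun d f.1, raiseFun_mem_iactRing hd hk₀ hK ζ hζ f.2⟩
  map_one' := rfl
  map_mul' _ _ := rfl
  map_zero' := rfl
  map_add' _ _ := rfl

theorem raiseRing_apply (f : iactRing ι M) (τ : ℍ) :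
    ((raiseRing hd hk₀ hK ζ hζ f : iactRing ι K) : ℍ → ℂ) τ = (f : ℍ → ℂ) (infAff d 0 1 τ) := rfl

/-- The expansion of `f(dτ)` in `X_K` is `φ(X_K^{d·K/M})`. -/
theorem iactExp_raiseRing [NeZero (d * d * k₀)] (f : iactRing ι M) :
    iactExp ι K (raiseRing hd hk₀ hK ζ hζ f) = qExpand E (d * d * k₀) (iactExp ι M f) := by
  have hM : 0 < M := Nat.pos_of_ne_zero (NeZero.ne M)
  have hKpos : 0 < K := Nat.pos_of_ne_zero (NeZero.ne K)
  apply iactExp_eq
  have hφ := iactExp_spec (ι := ι) (M := M) f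
  have he : (d * d * k₀) * (1 * M) = d * K := by rw [hK]; ring
  have h := hφ.comp_infAff (e := d * d * k₀) (N := K) 0 hd one_pos hM hKpos he
  rw [infRoot_zero, infTwist_one] at h
  rw [coeffMap_qExpand]
  exact h

theorem raiseRing_injective [NeZero (d * d * k₀)] :
    Function.Injective (raiseRing (ι := ι) hd hk₀ hK ζ hζ) := by
  intro f g h
  apply iactExp_injective (ι := ι) (M := M)
  apply qExpand_injective (R := E) (d * d * k₀)
  rw [← iactExp_raiseRing hd hk₀ hK ζ hζ f, ← iactExp_raiseRing hd hk₀ hK ζ hζ g, h]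

/-- `f ↦ f(dτ)` on the fields. -/
def raiseField [NeZero (d * d * k₀)] : IActField ι M →+* IActField ι K :=
  IsFractionRing.lift (g := (algebraMap (iactRing ι K) (IActField ι K)).comp
    (raiseRing hd hk₀ hK ζ hζ))
    ((IsFractionRing.injective (iactRing ι K) (IActField ι K)).comp
      (raiseRing_injective hd hk₀ hK ζ hζ))

theorem raiseField_algebraMap [NeZero (d * d * k₀)] (f : iactRing ι M) :
    raiseField hd hk₀ hK ζ hζ (algebraMap (iactRing ι M) (IActField ι M) f)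
      = algebraMap (iactRing ι K) (IActField ι K) (raiseRing hd hk₀ hK ζ hζ f) :=
  IsFractionRing.lift_algebraMap _ f

theorem iactFieldExp_raiseField [NeZero (d * d * k₀)] (y : IActField ι M) :
    iactFieldExp ι K (raiseField hd hk₀ hK ζ hζ y)
      = qExpand E (d * d * k₀) (iactFieldExp ι M y) := by
  obtain ⟨a, b, hb, rfl⟩ := IsFractionRing.div_surjective (A := iactRing ι M) y
  rw [map_div₀, map_div₀, map_div₀, map_div₀, raiseField_algebraMap, raiseField_algebraMap,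
    iactFieldExp_algebraMap, iactFieldExp_algebraMap, iactFieldExp_algebraMap,
    iactFieldExp_algebraMap, iactExp_raiseRing, iactExp_raiseRing]

include hd hk₀ hK ζ hζ in
/-- **Level raising of avatars.** -/
theorem avatarField_levelRaise [NeZero d] {F : LaurentSeries E} (hF : F ∈ avatarField ι M) :
    qExpand E d F ∈ avatarField ι K := by
  haveI : NeZero (d * d * k₀) := ⟨(Nat.mul_pos (Nat.mul_pos hd hd) hk₀).ne'⟩
  obtain ⟨y, hy⟩ := mem_avatarField.1 hF
  refine mem_avatarField.2 ⟨raiseField hd hk₀ hK ζ hζ y, ?_⟩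
  rw [iactFieldExp_raiseField, hy, qExpand_qExpand, qExpand_qExpand]
  exact qExpand_congr (by rw [hK]; ring) F

end Ring

/-- Change of level `M ∣ K` (no substitution). -/
theorem avatarField_mono {M K k₀ : ℕ} [NeZero M] [NeZero K] (hk₀ : 0 < k₀) (hK : K = M * k₀)
    (ζ : Eˣ) (hζ : Units.map (ι : E →* ℂ) ζ = infRoot 1 K) {F : LaurentSeries E}
    (hF : F ∈ avatarField ι M) : F ∈ avatarField ι K := by
  have h := avatarField_levelRaise (d := 1) one_pos hk₀ (by rw [hK]; ring) ζ hζ hF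
  rwa [qExpand_one_apply] at h

/-- If the elements of `F₀` have avatars of level `M`, then the elements of the compositum
`F₀ ⊔ V_p(F₀)` have avatars of level `M * p`. -/
theorem coeffEmb_mem_avatarField_sup {M p : ℕ} [NeZero M] [NeZero p] [NeZero (M * p)]
    (ζ : Eˣ) (hζ : Units.map (ι : E →* ℂ) ζ = infRoot 1 (M * p))
    (F₀ : IntermediateField ℚ (LaurentSeries ℚ))
    (hF₀ : ∀ x ∈ F₀, coeffEmb E x ∈ avatarField ι M)
    (S : Set (LaurentSeries ℚ))
    (hS : S = (F₀ : Set (LaurentSeries ℚ)) ∪ (⇑(qExpand ℚ p) '' (F₀ : Set (LaurentSeries ℚ)))) :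
    ∀ x ∈ IntermediateField.adjoin ℚ S, coeffEmb E x ∈ avatarField ι (M * p) := by
  have hp : 0 < p := Nat.pos_of_ne_zero (NeZero.ne p)
  apply coeffEmb_mem_avatarField_of_adjoin
  intro s hs
  rw [hS] at hs
  rcases hs with hs | ⟨x, hx, rfl⟩
  · exact avatarField_mono hp rfl ζ hζ (hF₀ s hs)
  · have h := avatarField_levelRaise (d := p) (k₀ := 1) hp one_pos (by ring) ζ hζ (hF₀ x hx)
    have e : coeffEmb E (qExpand ℚ p x) = qExpand E p (coeffEmb E x) := by
      rw [coeffEmb, coeffMap_qExpand]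
    rw [e]
    exact h

end Fermat.Agent.S48.H648

end
end
-- ===== PACK-END S48/H648/AvRaise.lean

-- ===== PACK-BEGIN S48/H856/IgusaConc.lean
section



/-!
# S48 / RES / IGUSA1 — the CONCRETE `IgusaData` on helper828's full-level field (helper856)

`Ω := H828.IActField ι M` (`E` a field with `ι : E →+* ℂ`, `ζ_M ∈ E`), `ex := iactFieldExp`
(`X`-expansion, `X = q^{1/M}`), `𝒪` a discrete valuation subring of `E` with uniformiser `w₀`.

* `bdField`       : the `G`-stable subfield of all `f` such that every translate `g f` is a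
                    quotient of elements with bounded denominators (generic);
* `closure_le_bdField` : a subfield generated by a set whose translates have bounded denominators
                    lies in `bdField`;
* `iact_igusaData` : `IgusaData` for `Ffull := bdField`, `F0 := iactF0 = E(j_d : d ∣ M)`,
                    `V := gaussRing 𝒪 ex`, `G, B, t` = images of `SL₂(ℤ), Γ₀(M), T`;
                    ONLY hypothesis: `qep0` (node I-S28 = landed S18 `node_mod`, transported);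
* `iact_stable`   : the Gauss ring is stable under `SL₂(ℤ)` on `bdField`
                    (⟹ field `G_V` of `H588.StepCore` for the diamonds);
* `iact_qep_fin`  : the `q`-expansion principle for every subfield of `bdField`.
-/

set_option autoImplicit false
set_option linter.unusedSectionVars false

noncomputable section

open HahnSeries Polynomial ModularCurve

namespace Fermat.Agent.S48.H856

open Fermat.Agent.S18.Alg Fermat.Agent.S48.H828

/-! ### The field of elements all of whose translates have bounded denominators -/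

section BdField

variable {K : Type*} [Field K] {𝒪 : ValuationSubring K} {L : Type*} [Field L]
  {ex : L →+* LaurentSeries K} {w₀ : K} {w : L}

/-- The subfield of all `f` such that every translate `g f`, `g ∈ G`, is a quotient of elements
with bounded denominators. -/
def bdField (h : GaussHyp 𝒪 ex w₀ w) (G : Subgroup (L ≃+* L)) : Subfield L where
  carrier := {f | ∀ g ∈ G, HasBd 𝒪 ex w (g f)}
  mul_mem' := fun {a b} ha hb g hg => by rw [map_mul]; exact (ha g hg).mul (hb g hg)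
  one_mem' := fun g _ => by rw [map_one]; exact hasBd_of_isBd isBd_one
  add_mem' := fun {a b} ha hb g hg => by rw [map_add]; exact (ha g hg).add h (hb g hg)
  zero_mem' := fun g _ => by rw [map_zero]; exact hasBd_of_isBd isBd_zero
  neg_mem' := fun {a} ha g hg => by rw [map_neg]; exact (ha g hg).neg
  inv_mem' := fun a ha g hg => by rw [map_inv₀]; exact (ha g hg).inv

theorem mem_bdField {h : GaussHyp 𝒪 ex w₀ w} {G : Subgroup (L ≃+* L)} {f : L} :
    f ∈ bdField h G ↔ ∀ g ∈ G, HasBd 𝒪 ex w (g f) := Iff.rfl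

theorem hasBd_of_mem_bdField {h : GaussHyp 𝒪 ex w₀ w} {G : Subgroup (L ≃+* L)} {f : L}
    (hf : f ∈ bdField h G) : HasBd 𝒪 ex w f := by
  have := hf 1 G.one_mem
  simpa using this

theorem smul_mem_bdField {h : GaussHyp 𝒪 ex w₀ w} {G : Subgroup (L ≃+* L)} {f : L}
    (hf : f ∈ bdField h G) {g : L ≃+* L} (hg : g ∈ G) : g f ∈ bdField h G := by
  intro g' hg'
  have := hf (g' * g) (G.mul_mem hg' hg)
  simpa using this

/-- a set all of whose translates have bounded denominators generates a subfield of `bdField` -/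
theorem closure_le_bdField (h : GaussHyp 𝒪 ex w₀ w) (G : Subgroup (L ≃+* L)) {S : Set L}
    (hS : ∀ s ∈ S, ∀ g ∈ G, IsBd 𝒪 ex w (g s)) : Subfield.closure S ≤ bdField h G := by
  rw [Subfield.closure_le]
  intro s hs g hg
  exact hasBd_of_isBd (hS s hs g hg)

/-- constants have bounded denominators -/
theorem isBd_of_ex_eq_C (h : GaussHyp 𝒪 ex w₀ w) {f : L} {c : K}
    (hf : ex f = HahnSeries.C c) : IsBd 𝒪 ex w f := by
  by_cases hc : c = 0
  · refine ⟨0, ?_⟩
    rw [pow_zero, mul_one, hf, hc, map_zero]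
    exact isInt_zero
  obtain ⟨z, hz⟩ := h.disc.disc c hc
  have hw0 : 𝒪.valuation w₀ ≠ 0 := (Valuation.ne_zero_iff _).mpr h.disc.w_ne
  refine ⟨(-z).toNat, ?_⟩
  rw [map_mul, map_pow, hf, h.ex_w, ← map_pow, ← map_mul]
  apply isInt_C
  apply (𝒪.valuation_le_one_iff _).mp
  rw [map_mul, map_pow, hz, ← zpow_natCast, ← zpow_add₀ hw0]
  apply (zpow_le_one_iff_right_of_lt_one₀ h.disc.w_pos h.disc.w_lt).mpr
  have := Int.self_le_toNat (-z)
  omega

end BdField

/-! ### The `j`-expansion -/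

section JX

variable (E : Type*) [Field E] [CharZero E] (M : ℕ) [NeZero M]

theorem coeff_jq_eq_intCast (k : ℤ) : ∃ n : ℤ, jq.coeff k = (n : ℚ) := by
  rw [jq, HahnSeries.coeff_single_mul, one_mul]
  rcases lt_or_ge (k - -1) 0 with hk | hk
  · exact ⟨0, by rw [ofPowerSeries_coeff_of_neg _ hk]; simp⟩
  · obtain ⟨m, hm⟩ := Int.eq_ofNat_of_zero_le hk
    rw [hm, HahnSeries.ofPowerSeries_apply_coeff, jNumQ, PowerSeries.coeff_map]
    exact ⟨_, rfl⟩

theorem coeff_jq_neg_one : jq.coeff (-1) = 1 := by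
  rw [jq, HahnSeries.coeff_single_mul, one_mul]
  have : (-1 : ℤ) - -1 = ((0 : ℕ) : ℤ) := by norm_num
  rw [this, HahnSeries.ofPowerSeries_apply_coeff, PowerSeries.coeff_zero_eq_constantCoeff_apply,
    constantCoeff_jNumQ]

theorem coeff_jq_of_lt {k : ℤ} (hk : k < -1) : jq.coeff k = 0 := by
  rw [jq, HahnSeries.coeff_single_mul, one_mul]
  exact ofPowerSeries_coeff_of_neg _ (by omega)

theorem coeff_iactJX_mul (k : ℤ) :
    (iactJX E M).coeff ((M : ℤ) * k) = algebraMap ℚ E (jq.coeff k) := by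
  rw [iactJX, qExpand_coeff_mul, coeffEmb_coeff]

theorem coeff_iactJX_of_not_dvd {k : ℤ} (hk : ¬ (M : ℤ) ∣ k) : (iactJX E M).coeff k = 0 := by
  rw [iactJX, qExpand_coeff_of_not_dvd _ _ hk]

variable {E}

theorem isInt_iactJX (𝒪 : ValuationSubring E) : IsInt 𝒪 (iactJX E M) := by
  intro k
  by_cases hk : (M : ℤ) ∣ k
  · obtain ⟨m, rfl⟩ := hk
    rw [coeff_iactJX_mul]
    obtain ⟨n, hn⟩ := coeff_jq_eq_intCast m
    rw [hn]
    have : algebraMap ℚ E ((n : ℤ) : ℚ) = (n : E) := by simp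
    rw [this]
    exact intCast_mem 𝒪 n
  · rw [coeff_iactJX_of_not_dvd E M hk]
    exact 𝒪.zero_mem

variable (E)

theorem coeff_iactJX_neg : (iactJX E M).coeff (-(M : ℤ)) = 1 := by
  have : -(M : ℤ) = (M : ℤ) * (-1) := by ring
  rw [this, coeff_iactJX_mul, coeff_jq_neg_one, map_one]

theorem coeff_iactJX_of_lt {k : ℤ} (hk : k < -(M : ℤ)) : (iactJX E M).coeff k = 0 := by
  by_cases hd : (M : ℤ) ∣ k
  · obtain ⟨m, rfl⟩ := hd
    rw [coeff_iactJX_mul]
    have hM : (0 : ℤ) < M := by exact_mod_cast Nat.pos_of_ne_zero (NeZero.ne M)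
    have hm : m < -1 := by
      by_contra hcon
      rw [not_lt] at hcon
      nlinarith
    rw [coeff_jq_of_lt hm, map_zero]
  · exact coeff_iactJX_of_not_dvd E M hd

theorem iactJX_ne_zero : iactJX E M ≠ 0 := by
  intro h
  have := coeff_iactJX_neg E M
  rw [h, HahnSeries.coeff_zero] at this
  exact zero_ne_one this

theorem order_iactJX : (iactJX E M).order = -(M : ℤ) := by
  apply le_antisymm
  · apply HahnSeries.order_le_of_coeff_ne_zero
    rw [coeff_iactJX_neg]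
    exact one_ne_zero
  · by_contra hlt
    rw [not_le] at hlt
    exact iactJX_ne_zero E M (HahnSeries.coeff_order_eq_zero.mp (coeff_iactJX_of_lt E M hlt))

theorem leadingCoeff_iactJX : (iactJX E M).leadingCoeff = 1 := by
  rw [HahnSeries.leadingCoeff_eq, order_iactJX, coeff_iactJX_neg]

end JX

/-! ### The concrete `IgusaData` -/

section Conc

variable {E : Type*} [Field E] [CharZero E] {ι : E →+* ℂ} {M : ℕ} [NeZero M]
  (𝒪 : ValuationSubring E) {w₀ : E}

/-- the Gauss hypothesis on `IActField` -/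
theorem iact_gaussHyp (hd : IsDiscrete 𝒪 w₀) :
    GaussHyp 𝒪 (iactFieldExp ι M) w₀ (iactFC ι M w₀) :=
  ⟨hd, iactFieldExp_C w₀⟩

variable (ζ : Eˣ) (hζ : Units.map (ι : E →* ℂ) ζ = Fermat.Agent.S24.infRoot 1 M)

include hζ in
theorem iact_zeta_pow : (ζ : E) ^ M = 1 := by
  apply ι.injective
  have h0 : ι (ζ : E) = Complex.exp (2 * Real.pi * Complex.I * ((1 : ℤ) : ℂ) / M) := by
    have := congrArg Units.val hζ
    simpa using this
  have hM : (M : ℂ) ≠ 0 := by exact_mod_cast NeZero.ne M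
  rw [map_pow, map_one, h0, ← Complex.exp_nat_mul]
  have : (M : ℂ) * (2 * Real.pi * Complex.I * ((1 : ℤ) : ℂ) / M) = 2 * Real.pi * Complex.I := by
    field_simp
    push_cast
    ring
  rw [this, Complex.exp_two_pi_mul_I]

include hζ in
theorem iact_valuation_zeta : 𝒪.valuation ((ζ⁻¹ : Eˣ) : E) = 1 := by
  have h1 : 𝒪.valuation (ζ : E) ^ M = 1 := by rw [← map_pow, iact_zeta_pow ζ hζ, map_one]
  have hM : M ≠ 0 := NeZero.ne M
  have h2 : 𝒪.valuation (ζ : E) = 1 := by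
    rcases lt_trichotomy (𝒪.valuation (ζ : E)) 1 with h | h | h
    · exact absurd h1 (ne_of_lt (pow_lt_one₀ zero_le h hM))
    · exact h
    · exact absurd h1 (ne_of_gt (one_lt_pow₀ h hM))
  rw [Units.val_inv_eq_inv_val, map_inv₀, h2, inv_one]

include hζ in
/-- `T` acts on expansions by `X ↦ ζ⁻¹ X` -/
theorem iact_twist (f : IActField ι M) (k : ℤ) :
    (iactFieldExp ι M (iactT ι M f)).coeff k
      = ((ζ⁻¹ : Eˣ) : E) ^ k * (iactFieldExp ι M f).coeff k := by
  have h := iactFieldExp_T_smul ζ hζ f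
  have h1 : iactT ι M f = ModularGroup.T • f := rfl
  rw [h1, h, Fermat.Agent.S24.infTwist_coeff, Units.val_zpow_eq_zpow_val, mul_comm]

theorem iact_eval₂_mem_ratField (P : Polynomial E) :
    Polynomial.eval₂ (iactFC ι M) (iactFJ ι M) P
      ∈ ratField (iactFC ι M).fieldRange (iactFJ ι M) := by
  rw [Polynomial.eval₂_eq_sum_range]
  refine sum_mem fun i _ => mul_mem ?_ (pow_mem ?_ i)
  · exact Subfield.subset_closure (Or.inl ⟨_, rfl⟩)
  · exact Subfield.subset_closure (Or.inr rfl)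

/-- the full-level field with bounded denominators at all cusps -/
def iactBd (hd : IsDiscrete 𝒪 w₀) : Subfield (IActField ι M) :=
  bdField (iact_gaussHyp (ι := ι) (M := M) 𝒪 hd) (iactG ι M)

theorem iactFC_mem_iactBd (hd : IsDiscrete 𝒪 w₀) (c : E) :
    iactFC ι M c ∈ iactBd (ι := ι) (M := M) 𝒪 hd := by
  intro g hg
  rw [iactG_fix_C g hg]
  exact hasBd_of_isBd (isBd_of_ex_eq_C (iact_gaussHyp 𝒪 hd) (iactFieldExp_C c))

theorem iactFJ_mem_iactBd (hd : IsDiscrete 𝒪 w₀) :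
    iactFJ ι M ∈ iactBd (ι := ι) (M := M) 𝒪 hd := by
  intro g hg
  rw [iactG_fix_J g hg]
  exact hasBd_of_isBd (isBd_of_isInt (by rw [iactFieldExp_J]; exact isInt_iactJX M 𝒪))

/-- membership criterion: every `SL₂(ℤ)`-translate has an expansion with bounded denominators -/
theorem mem_iactBd_of_isBd (hd : IsDiscrete 𝒪 w₀) {f : IActField ι M}
    (h : ∀ γ : Matrix.SpecialLinearGroup (Fin 2) ℤ,
      IsBd 𝒪 (iactFieldExp ι M) (iactFC ι M w₀) (γ • f)) :
    f ∈ iactBd (ι := ι) (M := M) 𝒪 hd := by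
  rintro g ⟨γ, rfl⟩
  exact hasBd_of_isBd (h γ)

/-- a set of elements all of whose translates have bounded denominators generates a subfield of
`iactBd` -/
theorem closure_le_iactBd (hd : IsDiscrete 𝒪 w₀) {S : Set (IActField ι M)}
    (hS : ∀ s ∈ S, ∀ γ : Matrix.SpecialLinearGroup (Fin 2) ℤ,
      IsBd 𝒪 (iactFieldExp ι M) (iactFC ι M w₀) (γ • s)) :
    Subfield.closure S ≤ iactBd (ι := ι) (M := M) 𝒪 hd := by
  rw [Subfield.closure_le]
  exact fun s hs => mem_iactBd_of_isBd 𝒪 hd (hS s hs)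

/-- **The concrete `IgusaData`** on `IActField ι M`; the only hypothesis is `qep0`
(node I-S28: the `q`-expansion principle of `X₀(M)`, landed S18 `node_mod`, transported along
`q ↦ X^M`). -/
theorem iact_igusaData (hd : IsDiscrete 𝒪 w₀)
    (hqep0 : ∀ b ∈ chart (iactF0 ζ hζ) (𝒪.toSubring.map (iactFC ι M)) (iactFJ ι M),
      b * (iactFC ι M w₀)⁻¹ ∈ gaussRing 𝒪 (iactFieldExp ι M) →
        b * (iactFC ι M w₀)⁻¹ ∈ chart (iactF0 ζ hζ) (𝒪.toSubring.map (iactFC ι M))
          (iactFJ ι M)) :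
    IgusaData (iactFC ι M).fieldRange (iactF0 ζ hζ) (iactBd (ι := ι) (M := M) 𝒪 hd)
      (𝒪.toSubring.map (iactFC ι M)) (gaussRing 𝒪 (iactFieldExp ι M)) (iactFC ι M w₀)
      (iactFJ ι M) (iactG ι M) (iactB ι M) (iactT ι M) := by
  refine igusaData_of_expansion (iactFC ι M) iactFieldExp_C (iact_gaussHyp 𝒪 hd)
    (iactBd 𝒪 hd) (fun f hf => hasBd_of_mem_bdField hf) (iactFC_mem_iactBd 𝒪 hd)
    (iactFJ_mem_iactBd 𝒪 hd) (by rw [iactFieldExp_J]; exact isInt_iactJX M 𝒪)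
    (Nat.pos_of_ne_zero (NeZero.ne M)) (by rw [iactFieldExp_J]; exact order_iactJX E M)
    (by rw [iactFieldExp_J, leadingCoeff_iactJX, map_one]) (iactF0 ζ hζ) (iactG ι M)
    (iactB ι M) (iactT ι M) iactG_finite (fun g hg c => iactG_fix_C g hg c)
    (fun g hg => iactG_fix_J g hg) (fun g hg f hf => smul_mem_bdField hf hg) ?_ iactB_le
    iactT_mem iactT_normal iactT_gen (iact_valuation_zeta 𝒪 ζ hζ) (iact_twist ζ hζ)
    (fun f _ hf => iactB_inv ζ hζ f hf) hqep0
  intro f _ hf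
  obtain ⟨P, Q, -, rfl⟩ := iactG_inv f hf
  exact div_mem (iact_eval₂_mem_ratField P) (iact_eval₂_mem_ratField Q)

/-- **IGUSA1, stability**: on `iactBd`, the Gauss valuation ring is stable under `SL₂(ℤ)`;
in particular under the image of `Γ₀(M)` (the diamonds of `E·F₁(M)`). -/
theorem iact_stable (hd : IsDiscrete 𝒪 w₀)
    (hqep0 : ∀ b ∈ chart (iactF0 ζ hζ) (𝒪.toSubring.map (iactFC ι M)) (iactFJ ι M),
      b * (iactFC ι M w₀)⁻¹ ∈ gaussRing 𝒪 (iactFieldExp ι M) →
        b * (iactFC ι M w₀)⁻¹ ∈ chart (iactF0 ζ hζ) (𝒪.toSubring.map (iactFC ι M))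
          (iactFJ ι M))
    (γ : Matrix.SpecialLinearGroup (Fin 2) ℤ) {f : IActField ι M}
    (hf : f ∈ iactBd (ι := ι) (M := M) 𝒪 hd) (hfV : f ∈ gaussRing 𝒪 (iactFieldExp ι M)) :
    γ • f ∈ gaussRing 𝒪 (iactFieldExp ι M) :=
  (iact_igusaData 𝒪 ζ hζ hd hqep0).stable (iactRho ι M γ) ⟨γ, rfl⟩ f hf hfV

/-- **IGUSA1, `q`-expansion principle** for every subfield of `iactBd` (e.g. the image of
`E·F₁(M)`). -/
theorem iact_qep_fin (hd : IsDiscrete 𝒪 w₀)
    (hqep0 : ∀ b ∈ chart (iactF0 ζ hζ) (𝒪.toSubring.map (iactFC ι M)) (iactFJ ι M),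
      b * (iactFC ι M w₀)⁻¹ ∈ gaussRing 𝒪 (iactFieldExp ι M) →
        b * (iactFC ι M w₀)⁻¹ ∈ chart (iactF0 ζ hζ) (𝒪.toSubring.map (iactFC ι M))
          (iactFJ ι M))
    (Fc : Subfield (IActField ι M)) (hFc : Fc ≤ iactBd (ι := ι) (M := M) 𝒪 hd)
    (hwFc : iactFC ι M w₀ ∈ Fc) :
    ∀ b ∈ chart Fc (𝒪.toSubring.map (iactFC ι M)) (iactFJ ι M),
      b * (iactFC ι M w₀)⁻¹ ∈ gaussRing 𝒪 (iactFieldExp ι M) →
        b * (iactFC ι M w₀)⁻¹ ∈ chart Fc (𝒪.toSubring.map (iactFC ι M)) (iactFJ ι M) :=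
  (iact_igusaData 𝒪 ζ hζ hd hqep0).qep_fin Fc hFc hwFc

end Conc

end Fermat.Agent.S48.H856

end
end
-- ===== PACK-END S48/H856/IgusaConc.lean

-- ===== PACK-BEGIN S48/H76/IGen.lean
section




/-!
# S48 / Tower A1 / IGUSA1, node I-GEN (helper76): the division values in `H828.iactRing`

For a field `E` with `ι : E →+* ℂ` containing `ζ_M` (`hζ : ι ζ = exp(2πi/M)`):

* `iactP ζ hζ a : H828.iactRing ι M` : the avatar `pFun M a` of the division value `P_a`;
* `iactExp_iactP` : its `X`-expansion is `qExpand E M (F1.divGenC E M a)` (`a ≠ 0`);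
* `iactComp_iactP` : `P_a ∘ γ = P_{a γ₀₀}` for `γ ∈ Γ₀(M)` (and `smul_iactP`);
* `isBd_smul_iactP` : every `SL₂(ℤ)`-translate of `P_a` has an expansion with bounded
  denominators (explicit denominator `M^12 · ∏_c den κ_c`), for every discrete valuation subring
  `𝒪` of `E`; hence `iactP_mem_iactBd`.
-/

set_option autoImplicit false
set_option linter.unusedSectionVars false

open UpperHalfPlane EisensteinSeries ModularForm Filter Topology Complex CongruenceSubgroup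
open HahnSeries ModularCurve
open scoped Matrix MatrixGroups Manifold Real

noncomputable section

namespace Fermat.Agent.S48.H76

open Fermat.Agent.S29 Fermat.Agent.S24 Fermat.Agent.S24.H997 Fermat.Agent.S24.H624
open Fermat.Agent.S28 Fermat.Agent.S28.H748

local notation "𝕢" => Function.Periodic.qParam
local notation "Δ" => ModularForm.discriminant

/-! ### Bounded denominators of the coefficients -/

/-- A common denominator of the Bernoulli constants `κ_c`, `0 ≤ c < M`. -/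
def kDen (M k : ℕ) : ℕ := ∏ c ∈ Finset.range M, (kappaQ M (c : ℤ) k).den

theorem kDen_ne_zero (M k : ℕ) : kDen M k ≠ 0 :=
  Finset.prod_ne_zero_iff.mpr fun _ _ => Rat.den_ne_zero _

theorem kDen_mul_kappaQ (M k : ℕ) {c : ℕ} (hc : c ∈ Finset.range M) :
    ∃ z : ℤ, ((kDen M k : ℕ) : ℚ) * kappaQ M (c : ℤ) k = (z : ℚ) := by
  obtain ⟨r, hr⟩ : (kappaQ M (c : ℤ) k).den ∣ kDen M k :=
    Finset.dvd_prod_of_mem (fun c : ℕ => (kappaQ M (c : ℤ) k).den) hc
  refine ⟨(r : ℤ) * (kappaQ M (c : ℤ) k).num, ?_⟩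
  rw [hr]
  push_cast
  have h := Rat.den_mul_eq_num (kappaQ M (c : ℤ) k)
  rw [mul_comm ((kappaQ M (c : ℤ) k).den : ℚ) (r : ℚ), mul_assoc, h]

/-- The denominator of the expansions of the translates of the division values. -/
def bdDen (M k : ℕ) : ℕ := M ^ (k + 1) * kDen M k

theorem bdDen_ne_zero (M : ℕ) [NeZero M] (k : ℕ) : bdDen M k ≠ 0 :=
  Nat.mul_ne_zero (pow_ne_zero _ (NeZero.ne M)) (kDen_ne_zero M k)

theorem hatG_mem (M : ℕ) (S : Subring ℂ) (hζ : ∀ a : ℤ, zetaPow M a ∈ S) (g : ZMod M → ℂ)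
    (hg : ∀ b, g b ∈ S) (m : ℤ) : hatG M g m ∈ S := by
  unfold hatG
  exact S.sum_mem fun b _ => S.mul_mem (hg _) (hζ _)

/-- **Bounded denominators**: `bdDen · C_{k+1}⁻¹ · (n-th coefficient of G_w)` lies in every
subring containing the `M`-th roots of unity and the values of `w`. -/
theorem coefX_bd_mem (M : ℕ) [NeZero M] {k : ℕ} (hk : 1 ≤ k) (w : ZMod M → ZMod M → ℂ)
    (S : Subring ℂ) (hζ : ∀ a : ℤ, zetaPow M a ∈ S) (hw : ∀ x y, w x y ∈ S) (n : ℕ) :
    ((bdDen M k : ℕ) : ℂ) * ((divC k)⁻¹ * coefX M w k n) ∈ S := by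
  have hMne : (M : ℂ) ≠ 0 := Nat.cast_ne_zero.mpr (NeZero.ne M)
  have hdiv : divC k = lipConst M k * (M : ℂ) ^ (k + 1) := (lipConst_mul_pow M k).symm
  have hl : lipConst M k ≠ 0 := by
    intro h
    apply divC_ne_zero k
    rw [hdiv, h, zero_mul]
  unfold coefX bdDen
  by_cases hn : n = 0
  · rw [if_pos hn, constTerm_eq M hk]
    have e : (((M ^ (k + 1) * kDen M k : ℕ)) : ℂ) *
        ((divC k)⁻¹ * (normC M k * kappaW M w k)) =
        ∑ c ∈ Finset.range M, hatG M (w 0) (c : ℤ) *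
          (((kDen M k : ℕ) : ℂ) * ((kappaQ M (c : ℤ) k : ℚ) : ℂ)) := by
      unfold kappaW normC
      rw [hdiv, Finset.mul_sum, Finset.mul_sum, Finset.mul_sum, Finset.mul_sum]
      refine Finset.sum_congr rfl fun c _ => ?_
      push_cast
      field_simp
    rw [e]
    refine S.sum_mem fun c hc => S.mul_mem (hatG_mem M S hζ _ (hw 0) _) ?_
    obtain ⟨z, hz⟩ := kDen_mul_kappaQ M k hc
    have hz' : ((kDen M k : ℕ) : ℂ) * ((kappaQ M (c : ℤ) k : ℚ) : ℂ) = (z : ℂ) := by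
      have := congrArg (fun q : ℚ => (q : ℂ)) hz
      simpa using this
    rw [hz']
    exact intCast_mem S z
  · rw [if_neg hn]
    have e : (((M ^ (k + 1) * kDen M k : ℕ)) : ℂ) *
        ((divC k)⁻¹ * (lipConst M k * coefA M w k n)) =
        ((kDen M k : ℕ) : ℂ) * coefA M w k n := by
      rw [hdiv]
      push_cast
      field_simp
    rw [e]
    refine S.mul_mem (natCast_mem S _) ?_
    unfold coefA sigma2
    refine S.sum_mem fun x _ => S.mul_mem (S.pow_mem (natCast_mem S _) _)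
      (hatG_mem M S hζ _ ?_ _)
    intro b
    unfold symW
    exact S.add_mem (hw _ _) (S.mul_mem (S.pow_mem (S.neg_mem S.one_mem) _) (hw _ _))

/-! ### The expansions of the translates -/

/-- The `X`-expansion of `P_a ∘ γ`. -/
def pTransSeries (M : ℕ) [NeZero M] (γ : SL(2, ℤ)) (a : ZMod M) : LaurentSeries ℂ :=
  HahnSeries.C (divC 11)⁻¹ * yWSeries M (actW M γ (typeI M a))

theorem infExp_compSL_pFun (M : ℕ) [NeZero M] (γ : SL(2, ℤ)) (a : ZMod M) :
    InfExp M (compSL γ (pFun M a)) (pTransSeries M γ a) := by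
  have h1 := (InfExp.const (N := M) (divC 11)⁻¹).mul (infExp_yW M (actW M γ (typeI M a)))
  refine h1.congr fun τ => ?_
  have h := congrFun (compSL_yW M (typeI M a) γ) τ
  simp only [compSL_apply] at h
  simp only [compSL_apply, pFun, h]

theorem typeI_mem (M : ℕ) (a : ZMod M) (S : Subring ℂ) (x y : ZMod M) : typeI M a x y ∈ S := by
  unfold typeI
  split_ifs
  · exact S.one_mem
  · exact S.zero_mem

theorem actW_mem (M : ℕ) (γ : SL(2, ℤ)) (w : ZMod M → ZMod M → ℂ) (S : Subring ℂ)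
    (hw : ∀ x y, w x y ∈ S) (x y : ZMod M) : actW M γ w x y ∈ S := hw _ _

/-- **Bounded denominators for the translates of `P_a`**: `bdDen · (P_a ∘ γ)` has an expansion
with coefficients in every subring containing the `M`-th roots of unity. -/
theorem pTransSeries_bd (M : ℕ) [NeZero M] (γ : SL(2, ℤ)) (a : ZMod M) (S : Subring ℂ)
    (hζ : ∀ a : ℤ, zetaPow M a ∈ S) :
    HahnSeries.C ((bdDen M 11 : ℕ) : ℂ) * pTransSeries M γ a ∈ coeffSub S := by
  unfold pTransSeries yWSeries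
  rw [← mul_assoc, ← mul_assoc]
  refine (coeffSub S).mul_mem ?_ (qExpand_mem_coeffSub M (deltaInvSeriesC_mem_coeffSub S))
  intro n
  rw [← map_mul, HahnSeries.C_mul_eq_smul, HahnSeries.coeff_smul, smul_eq_mul]
  rcases lt_or_ge n 0 with hn | hn
  · rw [ofPowerSeries_coeff_of_neg ℂ _ hn, mul_zero]
    exact S.zero_mem
  · obtain ⟨m, rfl⟩ := Int.eq_ofNat_of_zero_le hn
    rw [HahnSeries.ofPowerSeries_apply_coeff, coefXSeries, PowerSeries.coeff_mk, mul_assoc]
    exact coefX_bd_mem M (by norm_num) _ S hζ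
      (actW_mem M γ _ S (typeI_mem M a S)) m

/-! ### Lifting series along `ι : E →+* ℂ` -/

section Lift

variable {E : Type*} [Field E] (ι : E →+* ℂ)

/-- A Laurent series over `ℂ` with coefficients in `ι(A)` comes from a Laurent series over `E`
with coefficients in `A`. -/
theorem exists_coeffMap_eq_of_mem_coeffSub (A : Subring E) (Φ : LaurentSeries ℂ)
    (h : Φ ∈ coeffSub (A.map ι)) :
    ∃ φ : LaurentSeries E, (∀ n, φ.coeff n ∈ A) ∧ coeffMap ι φ = Φ := by
  classical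
  have hch : ∀ n : ℤ, ∃ e : E, e ∈ A ∧ ι e = Φ.coeff n := fun n => by
    obtain ⟨e, he, hι⟩ := (Subring.mem_map).mp (h n)
    exact ⟨e, he, hι⟩
  choose e he hι using hch
  let f : ℤ → E := fun n => if Φ.coeff n = 0 then 0 else e n
  have hsupp : Function.support f ⊆ Φ.support := by
    intro n hn
    rw [Function.mem_support] at hn
    rw [HahnSeries.mem_support]
    intro h0
    apply hn
    show (if Φ.coeff n = 0 then 0 else e n) = 0
    rw [if_pos h0]
  refine ⟨⟨f, Φ.isPWO_support.mono hsupp⟩, fun n => ?_, ?_⟩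
  · show (if Φ.coeff n = 0 then 0 else e n) ∈ A
    split_ifs
    · exact A.zero_mem
    · exact he n
  · ext n
    rw [coeffMap_coeff]
    show ι (if Φ.coeff n = 0 then 0 else e n) = Φ.coeff n
    split_ifs with h0
    · rw [map_zero, h0]
    · exact hι n

end Lift

/-! ### The division values in `iactRing` -/

section Conc

open Fermat.Agent.S48.H828 Fermat.Agent.S48.H856 Fermat.Agent.S18.Alg

variable {E : Type*} [Field E] [CharZero E] {ι : E →+* ℂ} {M : ℕ} [NeZero M]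
variable (ζ : Eˣ) (hζ : Units.map (ι : E →* ℂ) ζ = Fermat.Agent.S24.infRoot 1 M)

omit [CharZero E] [NeZero M] in
include hζ in
theorem iota_zeta_zpow (a : ℤ) : ι ((ζ ^ a : Eˣ) : E) = zetaPow M a := by
  have h1 : ι (ζ : E) = Complex.exp (2 * π * Complex.I * (1 : ℤ) / M) := by
    have := congrArg Units.val hζ
    simpa using this
  rw [Units.val_zpow_eq_zpow_val, map_zpow₀, h1, ← Complex.exp_int_mul]
  unfold zetaPow
  congr 1
  push_cast
  ring

include hζ in
/-- the lift to `E` of the expansion of `bdDen · (P_a ∘ γ)`, with coefficients in any subring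
containing the powers of `ζ` -/
theorem exists_bd_lift (A : Subring E) (hA : ∀ a : ℤ, ((ζ ^ a : Eˣ) : E) ∈ A) (γ : SL(2, ℤ))
    (a : ZMod M) :
    ∃ φ : LaurentSeries E, (∀ n, φ.coeff n ∈ A) ∧
      coeffMap ι φ = HahnSeries.C ((bdDen M 11 : ℕ) : ℂ) * pTransSeries M γ a := by
  apply exists_coeffMap_eq_of_mem_coeffSub ι A
  apply pTransSeries_bd M γ a (A.map ι)
  intro b
  rw [← iota_zeta_zpow ζ hζ b]
  exact Subring.mem_map.mpr ⟨_, hA b, rfl⟩

include hζ in
theorem iactRat_compSL_pFun (γ : SL(2, ℤ)) (a : ZMod M) :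
    IActRat ι M (compSL γ (pFun M a)) := by
  obtain ⟨φ, -, hφ⟩ := exists_bd_lift ζ hζ ⊤ (fun _ => Subring.mem_top _) γ a
  have hD : ((bdDen M 11 : ℕ) : ℂ) ≠ 0 := Nat.cast_ne_zero.mpr (bdDen_ne_zero M 11)
  refine ⟨HahnSeries.C (((bdDen M 11 : ℕ) : E))⁻¹ * φ, ?_⟩
  have e : coeffMap ι (HahnSeries.C (((bdDen M 11 : ℕ) : E))⁻¹ * φ) = pTransSeries M γ a := by
    rw [map_mul, hφ, iact_coeffMap_C, ← mul_assoc, ← map_mul, map_inv₀, map_natCast ι,
      inv_mul_cancel₀ hD, map_one, one_mul]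
  rw [e]
  exact infExp_compSL_pFun M γ a

omit [CharZero E] [NeZero M] in
theorem Gamma_le_Gamma1' {γ : SL(2, ℤ)} (hγ : γ ∈ CongruenceSubgroup.Gamma M) :
    γ ∈ Gamma1 M := by
  rw [CongruenceSubgroup.Gamma_mem] at hγ
  rw [Gamma1_mem]
  exact ⟨hγ.1, hγ.2.2.2, hγ.2.2.1⟩

include hζ in
/-- **The avatar of `P_a` lies in `iactRing`.** -/
theorem pFun_mem_iactRing (a : ZMod M) : pFun M a ∈ iactRing ι M := by
  refine ⟨mdiff_pFun M a, fun γ hγ => ?_, fun γ => iactRat_compSL_pFun ζ hζ γ a⟩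
  funext τ
  exact pFun_smul_Gamma1 M a γ (Gamma_le_Gamma1' hγ) τ

/-- **The division value `P_a` as an element of `iactRing ι M`.** -/
def iactP (a : ZMod M) : iactRing ι M := ⟨pFun M a, pFun_mem_iactRing ζ hζ a⟩

@[simp] theorem iactP_coe (a : ZMod M) : ((iactP ζ hζ a : iactRing ι M) : ℍ → ℂ) = pFun M a := rfl

/-- **The `X`-expansion of `P_a`** is `P_a(X^M)`. -/
theorem iactExp_iactP {a : ZMod M} (ha : a ≠ 0) :
    iactExp ι M (iactP ζ hζ a) = qExpand E M (F1.divGenC E M a) := by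
  apply iactExp_eq
  rw [coeffMap_qExpand, F1.coeffMap_divGenC]
  exact infExp_level (infExp_pFun M ha)

/-- **Diamond law** in `iactRing`: `P_a ∘ γ = P_{a γ₀₀}` for `γ ∈ Γ₀(M)`. -/
theorem iactComp_iactP (a : ZMod M) {γ : SL(2, ℤ)} (hγ : γ ∈ Gamma0 M) :
    iactComp ι M γ (iactP ζ hζ a) = iactP ζ hζ (a * ((γ 0 0 : ℤ) : ZMod M)) :=
  Subtype.ext (compSL_pFun M a γ hγ)

/-- **Diamond law**, action form: `γ • P_a = P_{a γ₁₁}` for `γ ∈ Γ₀(M)`. -/
theorem smul_iactP (a : ZMod M) {γ : SL(2, ℤ)} (hγ : γ ∈ Gamma0 M) :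
    γ • iactP ζ hζ a = iactP ζ hζ (a * ((γ 1 1 : ℤ) : ZMod M)) := by
  rw [iact_smul_def, iactComp_iactP ζ hζ a (inv_mem hγ)]
  have e00 : ((γ⁻¹ : SL(2, ℤ)) 0 0 : ℤ) = γ 1 1 := by
    rw [Matrix.SpecialLinearGroup.SL2_inv_expl]; rfl
  rw [e00]

theorem smul_iactP_of_mem_Gamma1 (a : ZMod M) {γ : SL(2, ℤ)} (hγ : γ ∈ Gamma1 M) :
    γ • iactP ζ hζ a = iactP ζ hζ a := by
  rw [smul_iactP ζ hζ a (Gamma1_in_Gamma0 M hγ), ((Gamma1_mem M γ).mp hγ).2.1, mul_one]

theorem iactP_neg (a : ZMod M) : iactP ζ hζ (-a) = iactP ζ hζ a :=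
  Subtype.ext (pFun_neg M a)

/-! ### Bounded denominators -/

variable (𝒪 : ValuationSubring E) {w₀ : E}

include hζ in
theorem zeta_zpow_mem (a : ℤ) : ((ζ ^ a : Eˣ) : E) ∈ 𝒪.toSubring := by
  have h1 : 𝒪.valuation ((ζ⁻¹ : Eˣ) : E) = 1 := iact_valuation_zeta 𝒪 ζ hζ
  have h2 : 𝒪.valuation (ζ : E) = 1 := by
    have : 𝒪.valuation ((ζ : E) * ((ζ⁻¹ : Eˣ) : E)) = 1 := by
      rw [← Units.val_mul, mul_inv_cancel, Units.val_one, map_one]
    rwa [map_mul, h1, mul_one] at this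
  show ((ζ ^ a : Eˣ) : E) ∈ 𝒪
  rw [← 𝒪.valuation_le_one_iff, Units.val_zpow_eq_zpow_val, map_zpow₀, h2, one_zpow]

include hζ in
/-- **Integrality**: `bdDen · (γ • P_a)` has an `𝒪`-integral expansion, for EVERY `γ ∈ SL₂(ℤ)`
and every valuation subring `𝒪` of `E`. -/
theorem isInt_bdDen_smul_iactP (γ : SL(2, ℤ)) (a : ZMod M) :
    IsInt 𝒪 (HahnSeries.C (((bdDen M 11 : ℕ) : E)) * iactExp ι M (γ • iactP ζ hζ a)) := by
  obtain ⟨φ, hφA, hφ⟩ := exists_bd_lift ζ hζ 𝒪.toSubring (zeta_zpow_mem ζ hζ 𝒪) γ⁻¹ a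
  have h1 : InfExp M (compSL γ⁻¹ (pFun M a))
      (coeffMap ι (iactExp ι M (γ • iactP ζ hζ a))) := iactExp_spec (γ • iactP ζ hζ a)
  have h2 := (infExp_compSL_pFun M γ⁻¹ a).unique h1
  have h3 : coeffMap ι φ =
      coeffMap ι (HahnSeries.C (((bdDen M 11 : ℕ) : E)) * iactExp ι M (γ • iactP ζ hζ a)) := by
    rw [hφ, map_mul, iact_coeffMap_C, map_natCast ι, h2]
  rw [← inf_coeffMap_injective ι.injective h3]
  exact hφA

include hζ in
/-- **I-GEN**: every `SL₂(ℤ)`-translate of `P_a` has an expansion with bounded denominators. -/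
theorem isBd_smul_iactP (hd : IsDiscrete 𝒪 w₀) (γ : SL(2, ℤ)) (a : ZMod M) :
    IsBd 𝒪 (iactFieldExp ι M) (iactFC ι M w₀)
      (γ • algebraMap (iactRing ι M) (IActField ι M) (iactP ζ hζ a)) := by
  have hD : (((bdDen M 11 : ℕ) : E)) ≠ 0 := Nat.cast_ne_zero.mpr (bdDen_ne_zero M 11)
  set U := γ • algebraMap (iactRing ι M) (IActField ι M) (iactP ζ hζ a) with hU
  have e : U = iactFC ι M (((bdDen M 11 : ℕ) : E))⁻¹ *
      (iactFC ι M (((bdDen M 11 : ℕ) : E)) * U) := by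
    rw [← mul_assoc, ← map_mul, inv_mul_cancel₀ hD, map_one, one_mul]
  rw [e]
  refine IsBd.mul (isBd_of_ex_eq_C (iact_gaussHyp 𝒪 hd) (iactFieldExp_C _)) (isBd_of_isInt ?_)
  rw [map_mul, iactFieldExp_C, hU, iact_smul_algebraMap, iactFieldExp_algebraMap]
  exact isInt_bdDen_smul_iactP ζ hζ 𝒪 γ a

include hζ in
/-- `P_a` lies in the field `iactBd` of helper856's concrete `IgusaData`. -/
theorem iactP_mem_iactBd (hd : IsDiscrete 𝒪 w₀) (a : ZMod M) :
    algebraMap (iactRing ι M) (IActField ι M) (iactP ζ hζ a) ∈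
      iactBd (ι := ι) (M := M) 𝒪 hd :=
  mem_iactBd_of_isBd 𝒪 hd fun γ => isBd_smul_iactP ζ hζ 𝒪 hd γ a

end Conc

end Fermat.Agent.S48.H76

end
end
-- ===== PACK-END S48/H76/IGen.lean

-- ===== PACK-BEGIN S48/H828/IActMap.lean
section


/-!
# S48 / Tower A1 / IGUSA1, piece I-ACT (helper828), part 6: change of the field of constants

For `σ : E₁ →+* E₂` and `ι₂ : E₂ →+* ℂ` (so `ι₁ = ι₂ ∘ σ`):

* `iactRing_le`   : `iactRing (ι₂ ∘ σ) M ≤ iactRing ι₂ M`;
* `iactFieldMap`  : the induced field hom `IActField (ι₂ ∘ σ) M →+* IActField ι₂ M`, which is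
  `SL(2,ℤ)`-equivariant (`iactFieldMap_smul`) and compatible with expansions (`iactFieldExp_map`);
* `iactG_inv_of_mem_range`, `iactB_inv_of_mem_range` : the fields `G_inv`, `B_inv` of
  `H856.IgusaData` for `Ω = IActField ι₂ M` (e.g. `E₂ = Q̄`), `Ffull ≤` the `E₁`-rational elements
  (the range of `iactFieldMap`), `Ec =` the constants from `E₁`.
-/

set_option autoImplicit false
set_option linter.unusedSectionVars false

noncomputable section

open ModularCurve HahnSeries UpperHalfPlane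
open scoped MatrixGroups Manifold

namespace Fermat.Agent.S48.H828

open Fermat.Agent.S24 Fermat.Agent.S24.H997 Fermat.Agent.S24.H624 Fermat.Agent.S20.L1

variable {E₁ E₂ : Type*} [Field E₁] [Field E₂] [CharZero E₁] [CharZero E₂]
  (σ : E₁ →+* E₂) (ι₂ : E₂ →+* ℂ) (M : ℕ) [NeZero M]

theorem IActRat.map {f : ℍ → ℂ} (h : IActRat (ι₂.comp σ) M f) : IActRat ι₂ M f := by
  obtain ⟨φ, hφ⟩ := h
  exact ⟨coeffMap σ φ, by rw [coeffMap_coeffMap]; exact hφ⟩

theorem iactRing_le : iactRing (ι₂.comp σ) M ≤ iactRing ι₂ M :=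
  fun _ hf => ⟨hf.1, hf.2.1, fun γ => (hf.2.2 γ).map σ ι₂ M⟩

/-- The inclusion `iactRing (ι₂ ∘ σ) M → iactRing ι₂ M`. -/
def iactRingMap : iactRing (ι₂.comp σ) M →+* iactRing ι₂ M :=
  Subring.inclusion (iactRing_le σ ι₂ M)

variable {σ ι₂ M}

@[simp] theorem iactRingMap_coe (f : iactRing (ι₂.comp σ) M) :
    ((iactRingMap σ ι₂ M f : iactRing ι₂ M) : ℍ → ℂ) = (f : ℍ → ℂ) := rfl

theorem iactRingMap_injective : Function.Injective (iactRingMap σ ι₂ M) :=
  Subring.inclusion_injective _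

theorem iactExp_map (f : iactRing (ι₂.comp σ) M) :
    iactExp ι₂ M (iactRingMap σ ι₂ M f) = coeffMap σ (iactExp (ι₂.comp σ) M f) := by
  apply iactExp_eq
  rw [coeffMap_coeffMap]
  exact iactExp_spec f

theorem iactRingMap_smul (γ : SL(2, ℤ)) (f : iactRing (ι₂.comp σ) M) :
    iactRingMap σ ι₂ M (γ • f) = γ • iactRingMap σ ι₂ M f := rfl

theorem iactRingMap_C (c : E₁) :
    iactRingMap σ ι₂ M (iactC (ι₂.comp σ) M c) = iactC ι₂ M (σ c) := rfl

theorem iactRingMap_J : iactRingMap σ ι₂ M (iactJ (ι₂.comp σ) M) = iactJ ι₂ M := rfl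

variable (σ ι₂ M)

/-- The field hom `IActField (ι₂ ∘ σ) M →+* IActField ι₂ M`. -/
def iactFieldMap : IActField (ι₂.comp σ) M →+* IActField ι₂ M :=
  IsFractionRing.lift (K := IActField (ι₂.comp σ) M)
    (g := (algebraMap (iactRing ι₂ M) (IActField ι₂ M)).comp (iactRingMap σ ι₂ M))
    ((IsFractionRing.injective (iactRing ι₂ M) (IActField ι₂ M)).comp iactRingMap_injective)

variable {σ ι₂ M}

@[simp] theorem iactFieldMap_algebraMap (f : iactRing (ι₂.comp σ) M) :
    iactFieldMap σ ι₂ M (algebraMap (iactRing (ι₂.comp σ) M) (IActField (ι₂.comp σ) M) f)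
      = algebraMap (iactRing ι₂ M) (IActField ι₂ M) (iactRingMap σ ι₂ M f) :=
  IsFractionRing.lift_algebraMap _ f

theorem iactFieldMap_injective : Function.Injective (iactFieldMap σ ι₂ M) :=
  (iactFieldMap σ ι₂ M).injective

theorem iactFieldMap_smul (γ : SL(2, ℤ)) (x : IActField (ι₂.comp σ) M) :
    iactFieldMap σ ι₂ M (γ • x) = γ • iactFieldMap σ ι₂ M x := by
  obtain ⟨a, b, hb, rfl⟩ := IsFractionRing.div_surjective (A := iactRing (ι₂.comp σ) M) x
  rw [smul_div₀', iact_smul_algebraMap, iact_smul_algebraMap, map_div₀, map_div₀,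
    iactFieldMap_algebraMap, iactFieldMap_algebraMap, iactFieldMap_algebraMap,
    iactFieldMap_algebraMap, smul_div₀', iact_smul_algebraMap, iact_smul_algebraMap,
    iactRingMap_smul, iactRingMap_smul]

theorem iactFieldExp_map (x : IActField (ι₂.comp σ) M) :
    iactFieldExp ι₂ M (iactFieldMap σ ι₂ M x) = coeffMap σ (iactFieldExp (ι₂.comp σ) M x) := by
  obtain ⟨a, b, hb, rfl⟩ := IsFractionRing.div_surjective (A := iactRing (ι₂.comp σ) M) x
  rw [map_div₀, map_div₀, map_div₀, map_div₀, iactFieldMap_algebraMap, iactFieldMap_algebraMap,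
    iactFieldExp_algebraMap, iactFieldExp_algebraMap, iactFieldExp_algebraMap,
    iactFieldExp_algebraMap, iactExp_map, iactExp_map]

theorem iactFieldMap_C (c : E₁) :
    iactFieldMap σ ι₂ M (iactFC (ι₂.comp σ) M c) = iactFC ι₂ M (σ c) := by
  rw [iactFC, RingHom.comp_apply, iactFieldMap_algebraMap, iactRingMap_C]
  rfl

theorem iactFieldMap_J : iactFieldMap σ ι₂ M (iactFJ (ι₂.comp σ) M) = iactFJ ι₂ M := by
  rw [iactFJ, iactFieldMap_algebraMap, iactRingMap_J]
  rfl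

theorem iactFieldMap_eval₂ (P : Polynomial E₁) :
    iactFieldMap σ ι₂ M (Polynomial.eval₂ (iactFC (ι₂.comp σ) M) (iactFJ (ι₂.comp σ) M) P)
      = Polynomial.eval₂ ((iactFC ι₂ M).comp σ) (iactFJ ι₂ M) P := by
  rw [Polynomial.hom_eval₂, iactFieldMap_J]
  congr 1
  exact RingHom.ext fun c => iactFieldMap_C c

/-- A root of unity `ζ₁ ∈ E₁` gives one in `E₂`. -/
theorem iact_units_map_comp (ζ : E₁ˣ)
    (hζ : Units.map ((ι₂.comp σ : E₁ →+* ℂ) : E₁ →* ℂ) ζ = infRoot 1 M) :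
    Units.map (ι₂ : E₂ →* ℂ) (Units.map (σ : E₁ →* E₂) ζ) = infRoot 1 M := by
  rw [← hζ]
  exact Units.ext rfl

theorem iactFieldMap_Jd (ζ : E₁ˣ)
    (hζ : Units.map ((ι₂.comp σ : E₁ →+* ℂ) : E₁ →* ℂ) ζ = infRoot 1 M) (d : ℕ) (hd : d ∣ M) :
    iactFieldMap σ ι₂ M (iactFJd ζ hζ d hd)
      = iactFJd (Units.map (σ : E₁ →* E₂) ζ) (iact_units_map_comp ζ hζ) d hd := by
  rw [iactFJd, iactFieldMap_algebraMap]
  rfl

/-! ### the fields `G_inv`, `B_inv` for the `E₁`-rational elements of `IActField ι₂ M` -/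

theorem iact_eval₂_comp_mem_closure (S : Set (IActField ι₂ M)) (hJ : iactFJ ι₂ M ∈ S)
    (P : Polynomial E₁) :
    Polynomial.eval₂ ((iactFC ι₂ M).comp σ) (iactFJ ι₂ M) P
      ∈ Subfield.closure (Set.range ((iactFC ι₂ M).comp σ) ∪ S) := by
  have hJ' : iactFJ ι₂ M ∈ Subfield.closure (Set.range ((iactFC ι₂ M).comp σ) ∪ S) :=
    Subfield.subset_closure (Or.inr hJ)
  have hC : ∀ c : E₁, ((iactFC ι₂ M).comp σ) c
      ∈ Subfield.closure (Set.range ((iactFC ι₂ M).comp σ) ∪ S) :=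
    fun c => Subfield.subset_closure (Or.inl ⟨c, rfl⟩)
  rw [Polynomial.eval₂_eq_sum_range]
  exact sum_mem fun i _ => mul_mem (hC _) (pow_mem hJ' i)

/-- **`G_inv`.** A `G`-invariant `E₁`-rational element of `IActField ι₂ M` lies in `E₁(j)`. -/
theorem iactG_inv_of_mem_range (x : IActField ι₂ M) (hx : x ∈ (iactFieldMap σ ι₂ M).range)
    (hfix : ∀ g ∈ iactG ι₂ M, g x = x) :
    x ∈ Subfield.closure (Set.range ((iactFC ι₂ M).comp σ) ∪ {iactFJ ι₂ M}) := by
  obtain ⟨y, rfl⟩ := hx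
  have hy : ∀ g ∈ iactG (ι₂.comp σ) M, g y = y := by
    rintro g ⟨γ, rfl⟩
    apply iactFieldMap_injective (σ := σ) (ι₂ := ι₂)
    rw [iactRho_apply, iactFieldMap_smul]
    exact hfix _ ⟨γ, rfl⟩
  obtain ⟨P, Q, -, rfl⟩ := iactG_inv y hy
  rw [map_div₀, iactFieldMap_eval₂, iactFieldMap_eval₂]
  exact div_mem
    (iact_eval₂_comp_mem_closure ({iactFJ ι₂ M} : Set (IActField ι₂ M)) (Set.mem_singleton _) P)
    (iact_eval₂_comp_mem_closure ({iactFJ ι₂ M} : Set (IActField ι₂ M)) (Set.mem_singleton _) Q)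

/-- **`B_inv`.** A `Γ₀(M)`-invariant `E₁`-rational element of `IActField ι₂ M` lies in
`E₁(j(dτ) : d ∣ M)`. -/
theorem iactB_inv_of_mem_range (ζ : E₁ˣ)
    (hζ : Units.map ((ι₂.comp σ : E₁ →+* ℂ) : E₁ →* ℂ) ζ = infRoot 1 M)
    (x : IActField ι₂ M) (hx : x ∈ (iactFieldMap σ ι₂ M).range)
    (hfix : ∀ b ∈ iactB ι₂ M, b x = x) :
    x ∈ Subfield.closure (Set.range ((iactFC ι₂ M).comp σ) ∪
      {y | ∃ (d : ℕ) (hd : d ∣ M),
        y = iactFJd (Units.map (σ : E₁ →* E₂) ζ) (iact_units_map_comp ζ hζ) d hd}) := by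
  obtain ⟨y, rfl⟩ := hx
  have hy : ∀ b ∈ iactB (ι₂.comp σ) M, b y = y := by
    rintro g ⟨γ, hγ, rfl⟩
    apply iactFieldMap_injective (σ := σ) (ι₂ := ι₂)
    rw [iactRho_apply, iactFieldMap_smul]
    exact hfix _ ⟨γ, hγ, rfl⟩
  have h := iactB_inv ζ hζ y hy
  have hle : iactF0 ζ hζ ≤ (Subfield.closure (Set.range ((iactFC ι₂ M).comp σ) ∪
      {y | ∃ (d : ℕ) (hd : d ∣ M),
        y = iactFJd (Units.map (σ : E₁ →* E₂) ζ) (iact_units_map_comp ζ hζ) d hd})).comap
      (iactFieldMap σ ι₂ M) := by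
    unfold iactF0
    rw [Subfield.closure_le]
    rintro z (⟨c, rfl⟩ | ⟨d, hd, rfl⟩)
    · rw [SetLike.mem_coe, Subfield.mem_comap, iactFieldMap_C]
      exact Subfield.subset_closure (Or.inl ⟨c, rfl⟩)
    · rw [SetLike.mem_coe, Subfield.mem_comap, iactFieldMap_Jd]
      exact Subfield.subset_closure (Or.inr ⟨d, hd, rfl⟩)
  exact hle h

end Fermat.Agent.S48.H828

end
end
-- ===== PACK-END S48/H828/IActMap.lean

-- ===== PACK-BEGIN S48/H828/IActPhi.lean
section



/-!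
# S48 / Tower A1 / IGUSA1 (helper828), part 7: the comparison map `q ↦ X^M`

* `iact_exists_zeta` : `Q̄` contains `ζ` with `ιK ζ = exp(2πi/M)`;
* `iactPhi M : S18.Mod.Om M →+* IActField ιK M` : the field hom from the function field of
  `X₀(M)` over `Q̄` (Prelude `modularFunctionFieldBar M ⊆ Q̄((q))`) to the full-level field, with
  `iactFieldExp (iactPhi f) = f(X^M)` (`iactFieldExp_phi`);
* `iactPhi_algebraMap`, `iactPhi_jd` : it maps constants to constants and `j(q^d)` to `j(dτ)`.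
-/

set_option autoImplicit false
set_option linter.unusedSectionVars false

noncomputable section

open ModularCurve HahnSeries UpperHalfPlane
open scoped MatrixGroups Manifold

namespace Fermat.Agent.S48.H828

open Fermat.Agent.S24 Fermat.Agent.S24.H997 Fermat.Agent.S24.H624 Fermat.Agent.S20.L1
open Fermat.Agent.S18 Fermat.Agent.S18.Mod

variable (M : ℕ) [NeZero M]

/-- `Q̄` contains a root of unity mapping to `exp(2πi/M)`. -/
theorem iact_exists_zeta : ∃ ζ : Qbˣ, Units.map (ιK : Qb →* ℂ) ζ = infRoot 1 M := by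
  have hM0 : M ≠ 0 := NeZero.ne M
  obtain ⟨ξ, hξ⟩ := HasEnoughRootsOfUnity.exists_primitiveRoot Qb M
  have hξ' : IsPrimitiveRoot (ιK ξ) M := hξ.map_of_injective ιK_injective
  have hz : Complex.exp (2 * Real.pi * Complex.I / M) ^ M = 1 :=
    (Complex.isPrimitiveRoot_exp M hM0).pow_eq_one
  obtain ⟨i, -, hi⟩ := hξ'.eq_pow_of_pow_eq_one hz
  have hξ0 : ξ ≠ 0 := hξ.ne_zero hM0
  refine ⟨Units.mk0 (ξ ^ i) (pow_ne_zero i hξ0), ?_⟩
  apply Units.ext
  rw [infRoot_coe]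
  show ιK (ξ ^ i) = _
  rw [map_pow, hi]
  congr 1
  push_cast
  ring

/-- A chosen `ζ ∈ Q̄` with `ιK ζ = exp(2πi/M)`. -/
def iactZeta : Qbˣ := Classical.choose (iact_exists_zeta M)

theorem iactZeta_spec : Units.map (ιK : Qb →* ℂ) (iactZeta M) = infRoot 1 M :=
  Classical.choose_spec (iact_exists_zeta M)

/-- `j(dτ)` in `IActField ιK M`. -/
def iactJdQb (d : ℕ) (hd : d ∣ M) : IActField ιK M :=
  iactFJd (iactZeta M) (iactZeta_spec M) d hd

/-- The `X`-expansions of the elements of the full-level field, as a subfield of `Q̄((X))`. -/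
def iactRange : Subfield (LaurentSeries Qb) := (iactFieldExp ιK M).fieldRange

theorem iact_qExpand_mem_range (f : LaurentSeries Qb) (hf : f ∈ modularFunctionFieldBar M) :
    qExpand Qb M f ∈ iactRange M := by
  have hle : (modularFunctionFieldBar M).toSubfield ≤ (iactRange M).comap (qExpand Qb M) := by
    show Subfield.closure _ ≤ _
    rw [Subfield.closure_le]
    rintro x (⟨c, rfl⟩ | ⟨y, hy, rfl⟩)
    · rw [SetLike.mem_coe, Subfield.mem_comap, algebraMap_laurentSeries_eq_single]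
      refine ⟨iactFC ιK M c, ?_⟩
      rw [iactFieldExp_C]
      show HahnSeries.C c = qExpand Qb M (HahnSeries.single 0 c)
      rw [qExpand_single, mul_zero]
      rfl
    · rw [SetLike.mem_coe, Subfield.mem_comap]
      have hle2 : (modularFunctionFieldFull M).toSubfield ≤
          (iactRange M).comap ((qExpand Qb M).comp (coeffEmb Qb)) := by
        show Subfield.closure _ ≤ _
        rw [Subfield.closure_le]
        rintro z (⟨c, rfl⟩ | ⟨d, hdne, hd, rfl⟩)
        · rw [SetLike.mem_coe, Subfield.mem_comap, RingHom.comp_apply,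
            algebraMap_laurentSeries_eq_single, coeffEmb, coeffMap_single, qExpand_single,
            mul_zero]
          exact ⟨iactFC ιK M (algebraMap ℚ Qb c), by rw [iactFieldExp_C]; rfl⟩
        · rw [SetLike.mem_coe, Subfield.mem_comap, RingHom.comp_apply]
          refine ⟨iactJdQb M d hd, ?_⟩
          rw [iactJdQb, iactFieldExp_Jd, coeffEmb, coeffMap_qExpand]
      exact hle2 hy
  exact hle hf

/-- The ring hom `f ↦ f(X^M)` from the function field of `X₀(M)` into the range of the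
expansion map. -/
def iactPhiAux : Om M →+* (iactFieldExp ιK M).range :=
  ((qExpand Qb M).comp (modularFunctionFieldBar M).toSubring.subtype).codRestrict _
    (fun f => by
      obtain ⟨y, hy⟩ := iact_qExpand_mem_range M f.1 f.2
      exact ⟨y, hy⟩)

/-- **The comparison map** `q ↦ X^M`. -/
def iactPhi : Om M →+* IActField ιK M :=
  ((RingEquiv.ofBijective (iactFieldExp ιK M).rangeRestrict
      ⟨(iactFieldExp ιK M).rangeRestrict.injective,
        (iactFieldExp ιK M).rangeRestrict_surjective⟩).symm :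
      (iactFieldExp ιK M).range →+* IActField ιK M).comp (iactPhiAux M)

variable {M}

theorem iactFieldExp_phi (f : Om M) :
    iactFieldExp ιK M (iactPhi M f) = qExpand Qb M (f : LaurentSeries Qb) := by
  have h := (RingEquiv.ofBijective (iactFieldExp ιK M).rangeRestrict
      ⟨(iactFieldExp ιK M).rangeRestrict.injective,
        (iactFieldExp ιK M).rangeRestrict_surjective⟩).apply_symm_apply (iactPhiAux M f)
  have h2 := congrArg (fun z : (iactFieldExp ιK M).range => (z : LaurentSeries Qb)) h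
  exact h2

theorem iactPhi_eq_iff (f : Om M) (y : IActField ιK M) :
    iactPhi M f = y ↔ iactFieldExp ιK M y = qExpand Qb M (f : LaurentSeries Qb) := by
  constructor
  · rintro rfl
    exact iactFieldExp_phi f
  · intro h
    apply iactFieldExp_injective
    rw [iactFieldExp_phi, h]

theorem iactPhi_algebraMap (c : Qb) : iactPhi M (algebraMap Qb (Om M) c) = iactFC ιK M c := by
  rw [iactPhi_eq_iff, iactFieldExp_C]
  show HahnSeries.C c = qExpand Qb M (algebraMap Qb (LaurentSeries Qb) c)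
  rw [algebraMap_laurentSeries_eq_single, qExpand_single, mul_zero]
  rfl

theorem iactPhi_jd (d : ℕ) [NeZero d] (hd : d ∣ M) :
    iactPhi M (jd M d hd) = iactJdQb M d hd := by
  rw [iactPhi_eq_iff, iactJdQb, iactFieldExp_Jd]
  show _ = qExpand Qb M (coeffEmb Qb (qExpand ℚ d jq))
  rw [coeffEmb, coeffMap_qExpand]

theorem iactPhi_jOm : iactPhi M (jOm M) = iactFJ ιK M := by
  rw [jOm, iactPhi_jd, iactJdQb, iactFJd_one]

theorem iactPhi_injective : Function.Injective (iactPhi M) := (iactPhi M).injective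

end Fermat.Agent.S48.H828

end
end
-- ===== PACK-END S48/H828/IActPhi.lean

-- ===== PACK-BEGIN S48/H496/IF1.lean
section



/-!
# S48 / Tower A1 / A1-FF, piece I-F1 (helper496): the invariants of `Γ₁(M)`

On `Ω := H828.IActField ι M` (level-`M` modular functions, `E`-rational at all cusps, `ζ_M ∈ E`),
let `P : ZMod M → iactRing ι M` be ANY family of avatars of the division values with

* `hcomp` : `compSL g (P a) = P (a * g₀₀)` for `g ∈ Γ₀(M)`, `a ≠ 0`   (helper76 `Avatar`),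
* `hexp`  : `iactExp (P a) = qExpand M (F1.divGenC E M a)` for `a ≠ 0`  (helper668 bridge)
  (only used through `hinj : P a = P 1 → a = ± 1`).

Then

* `iactB1 ι M` := image of `Γ₁(M)` in `Ω ≃+* Ω`;  `iactF1 ζ hζ P := E(j(dτ) (d ∣ M), P_a (a ≠ 0))`;
* `iactB1_inv` (**I-F1**) : every `Γ₁(M)`-invariant element of `Ω` lies in `iactF1`;
* `iactB1_fix` : conversely every element of `iactF1` is `Γ₁(M)`-invariant;
* `iactB1_fixed_iff`, and the same with `hexp` instead of `hinj` (`…_of_exp`).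

Also `iactRho_neg` : `-γ` and `γ` act in the same way.
-/

set_option autoImplicit false
set_option linter.unusedSectionVars false

noncomputable section

open ModularCurve HahnSeries UpperHalfPlane
open scoped MatrixGroups Manifold

namespace Fermat.Agent.S48.H496

open Fermat.Agent.S24 Fermat.Agent.S24.H997 Fermat.Agent.S24.H624 Fermat.Agent.S20.L1
open Fermat.Agent.S48.H828

variable {E : Type*} [Field E] [CharZero E] {ι : E →+* ℂ} {M : ℕ} [NeZero M]

/-! ### `-γ` acts like `γ` -/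

theorem iact_neg_smul_ring (γ : SL(2, ℤ)) (f : iactRing ι M) : (-γ) • f = γ • f := by
  apply Subtype.ext
  funext τ
  rw [iact_smul_apply, iact_smul_apply]
  have h : (-γ)⁻¹ = -γ⁻¹ := by
    rw [eq_comm, eq_inv_iff_mul_eq_one]
    simp
  rw [h, ModularGroup.SL_neg_smul]

theorem iact_neg_smul (γ : SL(2, ℤ)) (x : IActField ι M) : (-γ) • x = γ • x := by
  obtain ⟨a, b, -, rfl⟩ := IsFractionRing.div_surjective (A := iactRing ι M) x
  rw [smul_div₀', smul_div₀', iact_smul_algebraMap, iact_smul_algebraMap, iact_smul_algebraMap,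
    iact_smul_algebraMap, iact_neg_smul_ring, iact_neg_smul_ring]

theorem iactRho_neg (γ : SL(2, ℤ)) : iactRho ι M (-γ) = iactRho ι M γ :=
  RingEquiv.ext fun x => iact_neg_smul γ x

/-! ### the group `B₁` and the field `F₁` -/

variable (ι M) in
/-- `B₁`: the image of `Γ₁(M)`. -/
def iactB1 : Subgroup (IActField ι M ≃+* IActField ι M) :=
  (CongruenceSubgroup.Gamma1 M).map (iactRho ι M)

theorem iact_Gamma1_le_Gamma0 {γ : SL(2, ℤ)} (hγ : γ ∈ CongruenceSubgroup.Gamma1 M) :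
    γ ∈ CongruenceSubgroup.Gamma0 M := by
  rw [CongruenceSubgroup.Gamma0_mem]
  exact (CongruenceSubgroup.Gamma1_mem M γ).mp hγ |>.2.2

theorem iactB1_le_B : iactB1 ι M ≤ iactB ι M := by
  rintro σ ⟨g, hg, rfl⟩
  exact ⟨g, iact_Gamma1_le_Gamma0 hg, rfl⟩

theorem iactB1_le_G : iactB1 ι M ≤ iactG ι M := iactB1_le_B.trans iactB_le

variable (ζ : Eˣ) (hζ : Units.map (ι : E →* ℂ) ζ = infRoot 1 M) (P : ZMod M → iactRing ι M)

/-- The field `E(j(dτ) (d ∣ M), P_a (a ≠ 0))` inside `IActField ι M`. -/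
def iactF1 : Subfield (IActField ι M) :=
  Subfield.closure ((iactF0 ζ hζ : Set (IActField ι M)) ∪
    {y | ∃ a : ZMod M, a ≠ 0 ∧ y = algebraMap (iactRing ι M) (IActField ι M) (P a)})

theorem iactF0_le_F1 : iactF0 ζ hζ ≤ iactF1 ζ hζ P :=
  fun _ hx => Subfield.subset_closure (Or.inl hx)

theorem iactP_mem_F1 {a : ZMod M} (ha : a ≠ 0) :
    algebraMap (iactRing ι M) (IActField ι M) (P a) ∈ iactF1 ζ hζ P :=
  Subfield.subset_closure (Or.inr ⟨a, ha, rfl⟩)

theorem iactFC_mem_F1 (c : E) : iactFC ι M c ∈ iactF1 ζ hζ P :=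
  iactF0_le_F1 ζ hζ P (iactFC_mem_F0 ζ hζ c)

theorem iactFJd_mem_F1 (d : ℕ) (hd : d ∣ M) : iactFJd ζ hζ d hd ∈ iactF1 ζ hζ P :=
  iactF0_le_F1 ζ hζ P (iactFJd_mem_F0 ζ hζ d hd)

/-! ### I-F1 -/

/-- **I-F1**, abstract separation form. -/
theorem iactB1_inv_of_sep
    (hsep : ∀ γ ∈ CongruenceSubgroup.Gamma0 M, (∀ a : ZMod M, a ≠ 0 → γ • P a = P a) →
      γ ∈ CongruenceSubgroup.Gamma1 M ∨ -γ ∈ CongruenceSubgroup.Gamma1 M)
    (x : IActField ι M) (hx : ∀ b ∈ iactB1 ι M, b x = x) : x ∈ iactF1 ζ hζ P := by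
  have : Finite (iactG ι M) := iactG_finite
  refine iact_mem_of_fixed (G := iactG ι M) ((iactB1 ι M).subgroupOf (iactG ι M))
    (iactF1 ζ hζ P) ?_ ?_ x ?_
  · intro y hy
    apply iactF0_le_F1 ζ hζ P
    exact iactB_inv ζ hζ y (fun b hb => hy ⟨b, iactB_le hb⟩)
  · rintro ⟨g, γ, rfl⟩ hg
    rw [Subgroup.mem_subgroupOf]
    have hγ0 : γ ∈ CongruenceSubgroup.Gamma0 M := by
      apply iact_mem_Gamma0_of_smul_JM ζ hζ
      have h1 := hg _ (iactFJd_mem_F1 ζ hζ P M dvd_rfl)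
      have h2 : γ • iactFJd ζ hζ M dvd_rfl = iactFJd ζ hζ M dvd_rfl := h1
      rw [iactFJd, iact_smul_algebraMap] at h2
      exact IsFractionRing.injective (iactRing ι M) (IActField ι M) h2
    have hfix : ∀ a : ZMod M, a ≠ 0 → γ • P a = P a := by
      intro a ha
      have h1 := hg _ (iactP_mem_F1 ζ hζ P ha)
      have h2 : γ • algebraMap (iactRing ι M) (IActField ι M) (P a)
          = algebraMap (iactRing ι M) (IActField ι M) (P a) := h1
      rw [iact_smul_algebraMap] at h2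
      exact IsFractionRing.injective (iactRing ι M) (IActField ι M) h2
    rcases hsep γ hγ0 hfix with h | h
    · exact ⟨γ, h, rfl⟩
    · exact ⟨-γ, h, iactRho_neg γ⟩
  · rintro ⟨b, hbG⟩ hb
    rw [Subgroup.mem_subgroupOf] at hb
    exact hx b hb

/-- the separation hypothesis from the transformation law under `Γ₀(M)` and distinctness. -/
theorem iact_sep_of_comp
    (hcomp : ∀ g ∈ CongruenceSubgroup.Gamma0 M, ∀ a : ZMod M, a ≠ 0 →
      compSL g (P a : ℍ → ℂ) = (P (a * ((g 0 0 : ℤ) : ZMod M)) : ℍ → ℂ))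
    (hinj : ∀ a : ZMod M, a ≠ 0 → P a = P 1 → a = 1 ∨ a = -1)
    (γ : SL(2, ℤ)) (hγ : γ ∈ CongruenceSubgroup.Gamma0 M)
    (hfix : ∀ a : ZMod M, a ≠ 0 → γ • P a = P a) :
    γ ∈ CongruenceSubgroup.Gamma1 M ∨ -γ ∈ CongruenceSubgroup.Gamma1 M := by
  have hc : ((γ 1 0 : ℤ) : ZMod M) = 0 := CongruenceSubgroup.Gamma0_mem.mp hγ
  have hdet : γ 0 0 * γ 1 1 - γ 0 1 * γ 1 0 = 1 := by
    have := γ.det_coe
    rw [Matrix.det_fin_two] at this
    exact this
  have hdet' : ((γ 0 0 : ℤ) : ZMod M) * ((γ 1 1 : ℤ) : ZMod M) = 1 := by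
    have := congrArg (fun z : ℤ => (z : ZMod M)) hdet
    simp only [Int.cast_sub, Int.cast_mul, Int.cast_one, hc, mul_zero, sub_zero] at this
    exact this
  by_cases h1 : (1 : ZMod M) = 0
  · -- `M = 1`: everything is in `Γ₁`
    left
    have hsub : ∀ x y : ZMod M, x = y := by
      intro x y
      rw [← mul_one x, ← mul_one y, h1, mul_zero, mul_zero]
    rw [CongruenceSubgroup.Gamma1_mem]
    exact ⟨hsub _ _, hsub _ _, hsub _ _⟩
  · have hu0 : ((γ 1 1 : ℤ) : ZMod M) ≠ 0 := by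
      intro h0
      rw [h0, mul_zero] at hdet'
      exact h1 hdet'.symm
    have hγinv : γ⁻¹ ∈ CongruenceSubgroup.Gamma0 M := inv_mem hγ
    have h00 : (γ⁻¹ : SL(2, ℤ)) 0 0 = γ 1 1 := by
      rw [Matrix.SpecialLinearGroup.SL2_inv_expl]
      rfl
    have hP : P ((γ 1 1 : ℤ) : ZMod M) = P 1 := by
      have e1 := hfix 1 h1
      have e2 : ((γ • P 1 : iactRing ι M) : ℍ → ℂ) = compSL γ⁻¹ (P 1 : ℍ → ℂ) := rfl
      have e3 := hcomp γ⁻¹ hγinv 1 h1
      rw [h00, one_mul] at e3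
      apply Subtype.ext
      rw [← e3, ← e2, e1]
    rcases hinj _ hu0 hP with h | h
    · left
      rw [CongruenceSubgroup.Gamma1_mem]
      refine ⟨?_, h, hc⟩
      rw [h, mul_one] at hdet'
      exact hdet'
    · right
      rw [CongruenceSubgroup.Gamma1_mem]
      have e00 : ((-γ : SL(2, ℤ)) 0 0 : ℤ) = -(γ 0 0) := rfl
      have e11 : ((-γ : SL(2, ℤ)) 1 1 : ℤ) = -(γ 1 1) := rfl
      have e10 : ((-γ : SL(2, ℤ)) 1 0 : ℤ) = -(γ 1 0) := rfl
      rw [e00, e11, e10]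
      push_cast
      rw [h] at hdet' ⊢
      rw [hc]
      refine ⟨?_, by ring, by ring⟩
      linear_combination hdet'

/-- distinctness from the `X`-expansions. -/
theorem iact_inj_of_exp
    (hexp : ∀ a : ZMod M, a ≠ 0 → iactExp ι M (P a) = qExpand E M (F1.divGenC E M a))
    (a b : ZMod M) (ha : a ≠ 0) (hb : b ≠ 0) (h : P a = P b) : a = b ∨ a = -b := by
  apply divGenC_injective E M a b
  apply qExpand_injective (R := E) M
  rw [← hexp a ha, ← hexp b hb, h]

/-- **I-F1.** Every `Γ₁(M)`-invariant element of `IActField ι M` lies in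
`E(j(dτ) (d ∣ M), P_a (a ≠ 0))`. -/
theorem iactB1_inv
    (hcomp : ∀ g ∈ CongruenceSubgroup.Gamma0 M, ∀ a : ZMod M, a ≠ 0 →
      compSL g (P a : ℍ → ℂ) = (P (a * ((g 0 0 : ℤ) : ZMod M)) : ℍ → ℂ))
    (hinj : ∀ a : ZMod M, a ≠ 0 → P a = P 1 → a = 1 ∨ a = -1)
    (x : IActField ι M) (hx : ∀ b ∈ iactB1 ι M, b x = x) : x ∈ iactF1 ζ hζ P :=
  iactB1_inv_of_sep ζ hζ P (iact_sep_of_comp P hcomp hinj) x hx

/-- **I-F1**, with the `X`-expansions as input. -/
theorem iactB1_inv_of_exp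
    (hcomp : ∀ g ∈ CongruenceSubgroup.Gamma0 M, ∀ a : ZMod M, a ≠ 0 →
      compSL g (P a : ℍ → ℂ) = (P (a * ((g 0 0 : ℤ) : ZMod M)) : ℍ → ℂ))
    (hexp : ∀ a : ZMod M, a ≠ 0 → iactExp ι M (P a) = qExpand E M (F1.divGenC E M a))
    (x : IActField ι M) (hx : ∀ b ∈ iactB1 ι M, b x = x) : x ∈ iactF1 ζ hζ P := by
  refine iactB1_inv ζ hζ P hcomp (fun a ha h => ?_) x hx
  by_cases h1 : (1 : ZMod M) = 0
  · left
    rw [← mul_one a, h1, mul_zero]
  · exact iact_inj_of_exp P hexp a 1 ha h1 h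

/-! ### the converse: `F₁` is fixed by `Γ₁(M)` -/

theorem iact_smul_P_of_mem_Gamma1
    (hcomp : ∀ g ∈ CongruenceSubgroup.Gamma0 M, ∀ a : ZMod M, a ≠ 0 →
      compSL g (P a : ℍ → ℂ) = (P (a * ((g 0 0 : ℤ) : ZMod M)) : ℍ → ℂ))
    {γ : SL(2, ℤ)} (hγ : γ ∈ CongruenceSubgroup.Gamma1 M) {a : ZMod M} (ha : a ≠ 0) :
    γ • P a = P a := by
  have hγinv : γ⁻¹ ∈ CongruenceSubgroup.Gamma1 M := inv_mem hγ
  have e3 := hcomp γ⁻¹ (iact_Gamma1_le_Gamma0 hγinv) a ha
  rw [((CongruenceSubgroup.Gamma1_mem M γ⁻¹).mp hγinv).1, mul_one] at e3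
  exact Subtype.ext e3

theorem iactB_fix_F0 (b : IActField ι M ≃+* IActField ι M) (hb : b ∈ iactB ι M)
    (x : IActField ι M) (hx : x ∈ iactF0 ζ hζ) : b x = x := by
  obtain ⟨γ, hγ, rfl⟩ := hb
  have hle : iactF0 ζ hζ ≤
      RingHom.eqLocusField ((iactRho ι M γ : IActField ι M ≃+* IActField ι M) :
        IActField ι M →+* IActField ι M) (RingHom.id _) := by
    rw [iactF0, Subfield.closure_le]
    rintro y (⟨c, rfl⟩ | ⟨d, hd, rfl⟩)
    · exact iactG_fix_C _ ⟨γ, rfl⟩ c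
    · show γ • iactFJd ζ hζ d hd = iactFJd ζ hζ d hd
      rw [iactFJd, iact_smul_algebraMap, iact_smul_Jd_of_mem_Gamma0 ζ hζ hγ]
  exact hle hx

theorem iactB1_fix
    (hcomp : ∀ g ∈ CongruenceSubgroup.Gamma0 M, ∀ a : ZMod M, a ≠ 0 →
      compSL g (P a : ℍ → ℂ) = (P (a * ((g 0 0 : ℤ) : ZMod M)) : ℍ → ℂ))
    (b : IActField ι M ≃+* IActField ι M) (hb : b ∈ iactB1 ι M)
    (x : IActField ι M) (hx : x ∈ iactF1 ζ hζ P) : b x = x := by
  have hbB : b ∈ iactB ι M := iactB1_le_B hb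
  obtain ⟨γ, hγ, rfl⟩ := hb
  have hle : iactF1 ζ hζ P ≤
      RingHom.eqLocusField ((iactRho ι M γ : IActField ι M ≃+* IActField ι M) :
        IActField ι M →+* IActField ι M) (RingHom.id _) := by
    rw [iactF1, Subfield.closure_le]
    rintro y (hy | ⟨a, ha, rfl⟩)
    · exact iactB_fix_F0 ζ hζ _ hbB y hy
    · show γ • algebraMap (iactRing ι M) (IActField ι M) (P a) = _
      rw [iact_smul_algebraMap, iact_smul_P_of_mem_Gamma1 P hcomp hγ ha]
      rfl
  exact hle hx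

/-- **The fixed field of `Γ₁(M)`** in `IActField ι M` is `E(j(dτ), P_a)`. -/
theorem iactB1_fixed_iff
    (hcomp : ∀ g ∈ CongruenceSubgroup.Gamma0 M, ∀ a : ZMod M, a ≠ 0 →
      compSL g (P a : ℍ → ℂ) = (P (a * ((g 0 0 : ℤ) : ZMod M)) : ℍ → ℂ))
    (hexp : ∀ a : ZMod M, a ≠ 0 → iactExp ι M (P a) = qExpand E M (F1.divGenC E M a))
    (x : IActField ι M) :
    x ∈ iactF1 ζ hζ P ↔ ∀ b ∈ iactB1 ι M, b x = x :=
  ⟨fun hx b hb => iactB1_fix ζ hζ P hcomp b hb x hx,
    fun hx => iactB1_inv_of_exp ζ hζ P hcomp hexp x hx⟩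

end Fermat.Agent.S48.H496

end
end
-- ===== PACK-END S48/H496/IF1.lean

-- ===== PACK-BEGIN S48/H496/F1Exp.lean
section


/-!
# S48 / Tower A1 / A1-FF (helper496): expansions of the `Γ₁(M)`-invariants (DICT1, `E`-rational form)

With the hypotheses of `IF1.lean` (avatars `P a ∈ iactRing ι M` of the division values with
`X`-expansion `qExpand M (F1.divGenC E M a)`):

* `iactFieldExp_mem_of_mem_F1` : the `X`-expansion of every element of `iactF1 = E(j_d, P_a)` is
  `y(X^M)` for some `y ∈ E · F1(M) = laurentBaseChange E (F1 M)`;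
* `dict1` : the same for every `Γ₁(M)`-invariant element of `IActField ι M`.
-/

set_option autoImplicit false
set_option linter.unusedSectionVars false

noncomputable section

open ModularCurve HahnSeries UpperHalfPlane
open scoped MatrixGroups Manifold

namespace Fermat.Agent.S48.H496

open Fermat.Agent.S24 Fermat.Agent.S24.H997 Fermat.Agent.S24.H624 Fermat.Agent.S20.L1
open Fermat.Agent.S48.H828

variable {E : Type*} [Field E] [CharZero E] {ι : E →+* ℂ} {M : ℕ} [NeZero M]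
variable (ζ : Eˣ) (hζ : Units.map (ι : E →* ℂ) ζ = infRoot 1 M) (P : ZMod M → iactRing ι M)

variable (E M) in
/-- The subfield `{y(X^M) : y ∈ E · F1(M)}` of `E((X))`. -/
def f1XField : Subfield (LaurentSeries E) :=
  (laurentBaseChange E (F1.F1 M)).toSubfield.map (qExpand E M)

theorem mem_f1XField {z : LaurentSeries E} :
    z ∈ f1XField E M ↔ ∃ y ∈ laurentBaseChange E (F1.F1 M), qExpand E M y = z := by
  rw [f1XField, Subfield.mem_map]
  rfl

theorem C_mem_f1XField (c : E) : HahnSeries.C c ∈ f1XField E M := by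
  rw [mem_f1XField]
  refine ⟨algebraMap E (LaurentSeries E) c, (laurentBaseChange E (F1.F1 M)).algebraMap_mem c, ?_⟩
  rw [F1.algebraMap_laurent_eq_single]
  exact qExpand_C (R := E) (N := M) c

theorem jd_mem_f1XField (d : ℕ) [NeZero d] (hd : d ∣ M) :
    qExpand E M (qExpand E d (coeffEmb E jq)) ∈ f1XField E M := by
  rw [mem_f1XField]
  refine ⟨qExpand E d (coeffEmb E jq), ?_, rfl⟩
  rw [F1.qExpand_coeffEmb]
  exact coeffEmb_mem_laurentBaseChange E (F1.jqd_mem_F1 M hd)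

theorem divGenC_mem_lbc {a : ZMod M} (ha : a ≠ 0) :
    F1.divGenC E M a ∈ laurentBaseChange E (F1.F1 M) := by
  have h : coeffEmb E (F1.divGen M a) = F1.divGenC E M a := by
    rw [coeffEmb, F1.divGen, F1.coeffMap_divGenC]
  rw [← h]
  exact coeffEmb_mem_laurentBaseChange E (F1.divGen_mem_F1 M ha)

theorem divGenC_mem_f1XField {a : ZMod M} (ha : a ≠ 0) :
    qExpand E M (F1.divGenC E M a) ∈ f1XField E M := by
  rw [mem_f1XField]
  exact ⟨_, divGenC_mem_lbc ha, rfl⟩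

theorem iactFieldExp_mem_of_mem_F0 (x : IActField ι M) (hx : x ∈ iactF0 ζ hζ) :
    iactFieldExp ι M x ∈ f1XField E M := by
  have hM : 0 < M := Nat.pos_of_ne_zero (NeZero.ne M)
  have hle : iactF0 ζ hζ ≤ (f1XField E M).comap (iactFieldExp ι M) := by
    rw [iactF0, Subfield.closure_le]
    rintro y (⟨c, rfl⟩ | ⟨d, hd, rfl⟩)
    · show iactFieldExp ι M (iactFC ι M c) ∈ f1XField E M
      rw [iactFieldExp_C]
      exact C_mem_f1XField c
    · show iactFieldExp ι M (iactFJd ζ hζ d hd) ∈ f1XField E M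
      have : NeZero d := ⟨(Nat.pos_of_dvd_of_pos hd hM).ne'⟩
      rw [iactFieldExp_Jd]
      exact jd_mem_f1XField d hd
  exact hle hx

/-- The `X`-expansion of an element of `E(j_d, P_a)` is `y(X^M)` with `y ∈ E · F1(M)`. -/
theorem iactFieldExp_mem_of_mem_F1
    (hexp : ∀ a : ZMod M, a ≠ 0 → iactExp ι M (P a) = qExpand E M (F1.divGenC E M a))
    (x : IActField ι M) (hx : x ∈ iactF1 ζ hζ P) :
    iactFieldExp ι M x ∈ f1XField E M := by
  have hle : iactF1 ζ hζ P ≤ (f1XField E M).comap (iactFieldExp ι M) := by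
    rw [iactF1, Subfield.closure_le]
    rintro y (hy | ⟨a, ha, rfl⟩)
    · exact iactFieldExp_mem_of_mem_F0 ζ hζ y hy
    · show iactFieldExp ι M (algebraMap (iactRing ι M) (IActField ι M) (P a)) ∈ f1XField E M
      rw [iactFieldExp_algebraMap, hexp a ha]
      exact divGenC_mem_f1XField ha
  exact hle hx

include ζ hζ in
/-- **DICT1, `E`-rational form.** The `X`-expansion of a `Γ₁(M)`-invariant element of
`IActField ι M` is `y(X^M)` for some `y ∈ E · F1(M)`. -/
theorem dict1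
    (hcomp : ∀ g ∈ CongruenceSubgroup.Gamma0 M, ∀ a : ZMod M, a ≠ 0 →
      compSL g (P a : ℍ → ℂ) = (P (a * ((g 0 0 : ℤ) : ZMod M)) : ℍ → ℂ))
    (hexp : ∀ a : ZMod M, a ≠ 0 → iactExp ι M (P a) = qExpand E M (F1.divGenC E M a))
    (x : IActField ι M) (hx : ∀ b ∈ iactB1 ι M, b x = x) :
    ∃ y ∈ laurentBaseChange E (F1.F1 M), qExpand E M y = iactFieldExp ι M x :=
  mem_f1XField.mp
    (iactFieldExp_mem_of_mem_F1 ζ hζ P hexp x (iactB1_inv_of_exp ζ hζ P hcomp hexp x hx))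

include ζ hζ in
/-- **DICT1 for holomorphic functions.** If `f ∈ iactRing ι M` is `Γ₁(M)`-invariant and has the
`q`-expansion `φ(X^M)`, then `φ ∈ E · F1(M)`. -/
theorem dict1_ring
    (hcomp : ∀ g ∈ CongruenceSubgroup.Gamma0 M, ∀ a : ZMod M, a ≠ 0 →
      compSL g (P a : ℍ → ℂ) = (P (a * ((g 0 0 : ℤ) : ZMod M)) : ℍ → ℂ))
    (hexp : ∀ a : ZMod M, a ≠ 0 → iactExp ι M (P a) = qExpand E M (F1.divGenC E M a))
    (f : iactRing ι M) (hf : ∀ γ ∈ CongruenceSubgroup.Gamma1 M, γ • f = f)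
    (φ : LaurentSeries E) (hφ : iactExp ι M f = qExpand E M φ) :
    φ ∈ laurentBaseChange E (F1.F1 M) := by
  obtain ⟨y, hy, hyx⟩ := dict1 ζ hζ P hcomp hexp (algebraMap (iactRing ι M) (IActField ι M) f)
    (by
      rintro b ⟨γ, hγ, rfl⟩
      show γ • algebraMap (iactRing ι M) (IActField ι M) f = _
      rw [iact_smul_algebraMap, hf γ hγ])
  rw [iactFieldExp_algebraMap, hφ] at hyx
  rw [← qExpand_injective (R := E) M hyx]
  exact hy

end Fermat.Agent.S48.H496

end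
end
-- ===== PACK-END S48/H496/F1Exp.lean

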