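import Fermat.Prelude.Def_FLTPrelim_Ramification
import Fermat.Agent.Pack.L1B.E2L3
import Fermat.Agent.Pack.L1B.E3L3
import Fermat.Agent.Pack.L1B.E1L1
import Fermat.Agent.Pack.L1B.E0L0
import Fermat.Agent.Pack.S44C.G0E7L1
import Fermat.Agent.Pack.L1.E5L3
import Fermat.Agent.Pack.S44C.G0E25L1
import Fermat.Agent.Pack.S44C.G0E19L0
import Fermat.Agent.Pack.S44C.G0E23L2
import Fermat.Agent.Pack.S44C.G0E23L0
import Fermat.Agent.Pack.S44C.G0E22L2
import Fermat.Agent.Pack.S44C.G0E21L3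
import Fermat.Agent.Pack.S44C.G0E16L1
import Fermat.Agent.Pack.L1B.E2L2
import Fermat.Agent.Pack.L1B.E3L1
import Fermat.Agent.Pack.S44C.G0E25L2
import Fermat.Agent.Pack.S44C.G0E27L2
import Fermat.Agent.Pack.S44C.G0E24L2
import Fermat.Agent.Pack.L1.E10L0

-- ===== PACK-BEGIN S48/Red1/Objects.lean
section





/-!
# S48 / RES (Tower A1), sub-tower A1-RED: the concrete models on `Ω' = Q̄ · F₀` (helper588)

GENERIC in the field `F₀ ⊆ ℚ((q))` (`F₀ = F1 M`, `F1p M 2`, `F1p M 3`, …).  For a subfield `E` of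
`Q̄` (a number field in the application) and a valuation subring `A` of `Q̄`:

* `cstG`, `exG`     : constants and `q`-expansion of `OmG F₀`;
* `embG`            : `F₀ → OmG F₀`;
* `FcT F₀ E`        : `E · F₀` (generated by the constants of `E` and the image of `F₀`);
* `VcT F₀ A E`      : the Gauss valuation ring of `FcT F₀ E` (`H248.VRing`);
* `IntGen F₀`       : `F₀` is generated over `ℚ` by series with INTEGER coefficients.

Results: coefficients of elements of `FcT F₀ E` lie in `E`; every element of `FcT F₀ E` is a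
quotient of integral series (`IntGen`); `E` is algebraically closed in `FcT F₀ E`;
`FcT F₀ E · Q̄ = Ω'`; monotonicity in `E`.
-/

set_option autoImplicit false

noncomputable section

namespace Fermat.Agent.S48.Red1

open ModularCurve AlgebraicCurve HahnSeries Fermat.Agent.S18 Fermat.Agent.S18.Alg
open Fermat.Agent.S48.H248

variable (F₀ : IntermediateField ℚ (LaurentSeries ℚ))

/-- The constants `Q̄ → Ω'`. -/
def cstG : Qb →+* OmG F₀ := algebraMap Qb (OmG F₀)

/-- The `q`-expansion `Ω' → Q̄((q))`. -/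
def exG : OmG F₀ →+* LaurentSeries Qb := algebraMap (OmG F₀) (LaurentSeries Qb)

@[simp] theorem exG_apply (f : OmG F₀) : exG F₀ f = (f : LaurentSeries Qb) := rfl

theorem exG_cstG (c : Qb) : exG F₀ (cstG F₀ c) = HahnSeries.C c := by
  show algebraMap Qb (LaurentSeries Qb) c = HahnSeries.C c
  rw [algebraMap_laurentSeries_eq_single]
  rfl

theorem cstG_eq (c : Qb) : cstG F₀ c = algebraMap Qb (OmG F₀) c := rfl

/-- `F₀ → Ω'`. -/
def embG : F₀ →+* OmG F₀ where
  toFun g := ⟨coeffEmb Qb (g : LaurentSeries ℚ), coeffEmb_mem_laurentBaseChange Qb g.2⟩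
  map_one' := Subtype.ext (map_one (coeffEmb Qb))
  map_mul' _ _ := Subtype.ext (map_mul (coeffEmb Qb) _ _)
  map_zero' := Subtype.ext (map_zero (coeffEmb Qb))
  map_add' _ _ := Subtype.ext (map_add (coeffEmb Qb) _ _)

@[simp] theorem coe_embG (g : F₀) :
    ((embG F₀ g : OmG F₀) : LaurentSeries Qb) = coeffEmb Qb (g : LaurentSeries ℚ) := rfl

/-- `E · F₀` inside `Ω'`. -/
def FcT (E : Subfield Qb) : Subfield (OmG F₀) :=
  Subfield.closure ((EcG E (cstG F₀) : Set (OmG F₀)) ∪ Set.range (embG F₀))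

/-- The Gauss valuation ring of `E · F₀`. -/
def VcT (A : ValuationSubring Qb) (E : Subfield Qb) : Subring (OmG F₀) :=
  VRing A E (exG F₀) (FcT F₀ E)

/-- `F₀` is generated over `ℚ` by series with integer coefficients. -/
def IntGen : Prop :=
  ∃ G₀ : Set (LaurentSeries ℤ),
    F₀ = IntermediateField.adjoin ℚ (⇑(coeffMap (Int.castRingHom ℚ)) '' G₀)

variable {F₀}

theorem EcG_le_FcT (E : Subfield Qb) : EcG E (cstG F₀) ≤ FcT F₀ E :=
  fun _ hy => Subfield.subset_closure (Or.inl hy)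

theorem cstG_mem_FcT {E : Subfield Qb} {c : Qb} (hc : c ∈ E) : cstG F₀ c ∈ FcT F₀ E :=
  EcG_le_FcT E ((mem_EcG_iff _).mpr ⟨c, hc, rfl⟩)

theorem embG_mem_FcT (E : Subfield Qb) (g : F₀) : embG F₀ g ∈ FcT F₀ E :=
  Subfield.subset_closure (Or.inr ⟨g, rfl⟩)

theorem FcT_mono {E E' : Subfield Qb} (h : E ≤ E') : FcT F₀ E ≤ FcT F₀ E' := by
  unfold FcT
  rw [Subfield.closure_le]
  rintro y (hy | hy)
  · obtain ⟨c, hc, rfl⟩ := (mem_EcG_iff _).mp hy
    exact cstG_mem_FcT (h hc)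
  · exact Subfield.subset_closure (Or.inr hy)

theorem isInt_mono {A : ValuationSubring Qb} {E E' : Subfield Qb} (h : E ≤ E')
    {F F' : Subfield (OmG F₀)} (hF : F ≤ F') {U : LaurentSeries A}
    (hU : _root_.Fermat.Agent.S48.H248.IsInt A E (exG F₀) F U) : _root_.Fermat.Agent.S48.H248.IsInt A E' (exG F₀) F' U :=
  ⟨fun n => h (hU.1 n), let ⟨f, hf, hfU⟩ := hU.2; ⟨f, hF hf, hfU⟩⟩

theorem VcT_mono (A : ValuationSubring Qb) {E E' : Subfield Qb} (h : E ≤ E') :
    VcT F₀ A E ≤ VcT F₀ A E' := by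
  rintro f ⟨hf, U₁, U₂, h₁, h₂, hr, hfU⟩
  exact ⟨FcT_mono h hf, U₁, U₂, isInt_mono h (FcT_mono h) h₁, isInt_mono h (FcT_mono h) h₂,
    hr, hfU⟩

/-! ### Coefficients -/

/-- The subfield of `Ω'` of series all of whose coefficients lie in `E`. -/
def coeffFieldG (F₀ : IntermediateField ℚ (LaurentSeries ℚ)) (E : Subfield Qb) :
    Subfield (OmG F₀) :=
  ((coeffMap (E.subtype)).fieldRange).comap (exG F₀)

theorem coeff_mem_of_mem_coeffFieldG {E : Subfield Qb} {f : OmG F₀}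
    (hf : f ∈ coeffFieldG F₀ E) (n : ℤ) : ((f : LaurentSeries Qb)).coeff n ∈ E := by
  obtain ⟨y, hy⟩ := hf
  have h : (f : LaurentSeries Qb) = coeffMap (E.subtype) y := hy.symm
  rw [h, coeffMap_coeff]
  exact (y.coeff n).2

theorem FcT_le_coeffFieldG (E : Subfield Qb) : FcT F₀ E ≤ coeffFieldG F₀ E := by
  unfold FcT
  rw [Subfield.closure_le]
  rintro y (hy | ⟨g, rfl⟩)
  · obtain ⟨c, hc, rfl⟩ := (mem_EcG_iff _).mp hy
    refine ⟨HahnSeries.single 0 ⟨c, hc⟩, ?_⟩
    rw [coeffMap_single]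
    show _ = exG F₀ (cstG F₀ c)
    rw [exG_cstG]
    rfl
  · refine ⟨coeffMap (algebraMap ℚ (↥E)) (g : LaurentSeries ℚ), ?_⟩
    rw [coeffMap_coeffMap]
    show _ = coeffEmb Qb (g : LaurentSeries ℚ)
    unfold coeffEmb
    exact coeffMap_congr (RingHom.ext fun c => rfl) _

/-- The `q`-expansion coefficients of the elements of `E · F₀` lie in `E`. -/
theorem coeff_mem_of_mem_FcT {E : Subfield Qb} {f : OmG F₀} (hf : f ∈ FcT F₀ E) (n : ℤ) :
    ((f : LaurentSeries Qb)).coeff n ∈ E :=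
  coeff_mem_of_mem_coeffFieldG (FcT_le_coeffFieldG E hf) n

/-! ### Quotients of integral series -/

theorem intCast_mem_valuationSubring (A : ValuationSubring Qb) (n : ℤ) : (n : Qb) ∈ A :=
  intCast_mem A n

/-- The image in `Ω'` of a series with integer coefficients is an integral series. -/
theorem isInt_of_intSeries (A : ValuationSubring Qb) (E : Subfield Qb) (X : LaurentSeries ℤ)
    (g : F₀) (hg : (g : LaurentSeries ℚ) = coeffMap (Int.castRingHom ℚ) X) :
    _root_.Fermat.Agent.S48.H248.IsInt A E (exG F₀) (FcT F₀ E) (coeffMap (Int.castRingHom A) X) ∧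
      exG F₀ (embG F₀ g) = ivInc A (coeffMap (Int.castRingHom A) X) := by
  have hval : exG F₀ (embG F₀ g) = ivInc A (coeffMap (Int.castRingHom A) X) := by
    show coeffEmb Qb (g : LaurentSeries ℚ) = _
    rw [hg]
    unfold coeffEmb ivInc
    rw [coeffMap_coeffMap, coeffMap_coeffMap]
    exact coeffMap_congr (RingHom.ext_int _ _) _
  refine ⟨⟨fun n => ?_, embG F₀ g, embG_mem_FcT E g, hval⟩, hval⟩
  rw [coeffMap_coeff]
  show (((Int.castRingHom A) (X.coeff n) : A) : Qb) ∈ E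
  have : (((Int.castRingHom A) (X.coeff n) : A) : Qb) = ((X.coeff n : ℤ) : Qb) := by
    simp
  rw [this]
  exact intCast_mem E _

/-- Every element of `E · F₀` is a quotient of integral series, if `F₀` is generated by series
with integer coefficients. -/
theorem isRatio_of_mem_FcT (hF₀ : IntGen F₀) (A : ValuationSubring Qb) (E : Subfield Qb)
    {f : OmG F₀} (hf : f ∈ FcT F₀ E) : IsRatio A E (exG F₀) (FcT F₀ E) f := by
  obtain ⟨G₀, hG₀⟩ := hF₀
  have hEF : ∀ c ∈ E, cstG F₀ c ∈ FcT F₀ E := fun c hc => cstG_mem_FcT hc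
  refine isRatio_of_mem_closure (cstG F₀) (exG_cstG F₀) hEF (Set.range (embG F₀)) ?_ hf
  rintro _ ⟨g, rfl⟩
  -- induction on `g ∈ F₀ = ℚ(G₀)`
  have key : ∀ z : LaurentSeries ℚ, ∀ hz : z ∈ F₀,
      IsRatio A E (exG F₀) (FcT F₀ E) (embG F₀ ⟨z, hz⟩) := by
    intro z hz
    have hz' : z ∈ IntermediateField.adjoin ℚ (⇑(coeffMap (Int.castRingHom ℚ)) '' G₀) := by
      rw [← hG₀]; exact hz
    induction hz' using IntermediateField.adjoin_induction with
    | mem y hy =>
      obtain ⟨X, -, rfl⟩ := hy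
      obtain ⟨h1, h2⟩ := isInt_of_intSeries A E X ⟨_, hz⟩ rfl
      exact isRatio_of_isInt h1 h2
    | algebraMap c =>
      have : embG F₀ ⟨algebraMap ℚ (LaurentSeries ℚ) c, hz⟩ = cstG F₀ (algebraMap ℚ Qb c) := by
        apply Subtype.ext
        show coeffEmb Qb (algebraMap ℚ (LaurentSeries ℚ) c) = algebraMap Qb (LaurentSeries Qb) _
        rw [algebraMap_laurentSeries_eq_single, algebraMap_laurentSeries_eq_single]
        unfold coeffEmb
        rw [coeffMap_single]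
      rw [this]
      refine isRatio_cst (cstG F₀) (exG_cstG F₀) hEF ?_
      rw [eq_ratCast]
      exact SubfieldClass.ratCast_mem E c
    | add y y' hy hy' ihy ihy' =>
      have hyF : y ∈ F₀ := by rw [hG₀]; exact hy
      have hyF' : y' ∈ F₀ := by rw [hG₀]; exact hy'
      have : embG F₀ ⟨y + y', hz⟩ = embG F₀ ⟨y, hyF⟩ + embG F₀ ⟨y', hyF'⟩ := by
        rw [← map_add]; rfl
      rw [this]
      exact (ihy hyF).add (ihy' hyF')
    | inv y hy ihy =>
      have hyF : y ∈ F₀ := by rw [hG₀]; exact hy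
      have : embG F₀ ⟨y⁻¹, hz⟩ = (embG F₀ ⟨y, hyF⟩)⁻¹ := by
        rw [← map_inv₀]; rfl
      rw [this]
      exact (ihy hyF).inv
    | mul y y' hy hy' ihy ihy' =>
      have hyF : y ∈ F₀ := by rw [hG₀]; exact hy
      have hyF' : y' ∈ F₀ := by rw [hG₀]; exact hy'
      have : embG F₀ ⟨y * y', hz⟩ = embG F₀ ⟨y, hyF⟩ * embG F₀ ⟨y', hyF'⟩ := by
        rw [← map_mul]; rfl
      rw [this]
      exact (ihy hyF).mul (ihy' hyF')
  exact key g.1 g.2

/-! ### The compositum -/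

theorem closure_FcT_union_LcG (E : Subfield Qb) :
    Subfield.closure ((FcT F₀ E : Set (OmG F₀)) ∪ (LcG F₀ : Set (OmG F₀))) = ⊤ := by
  rw [eq_top_iff]
  intro y _
  set C := Subfield.closure ((FcT F₀ E : Set (OmG F₀)) ∪ (LcG F₀ : Set (OmG F₀))) with hC
  have hle : (laurentBaseChange Qb F₀).toSubfield ≤ C.map (exG F₀) := by
    show Subfield.closure (Set.range (algebraMap Qb (LaurentSeries Qb)) ∪
      (⇑(coeffEmb Qb) '' (F₀ : Set (LaurentSeries ℚ)))) ≤ _
    rw [Subfield.closure_le]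
    rintro z (⟨c, rfl⟩ | ⟨g, hg, rfl⟩)
    · exact ⟨algebraMap Qb (OmG F₀) c, Subfield.subset_closure (Or.inr ⟨c, rfl⟩), rfl⟩
    · exact ⟨embG F₀ ⟨g, hg⟩, Subfield.subset_closure (Or.inl (embG_mem_FcT E _)), rfl⟩
  obtain ⟨y', hy', hyy⟩ := hle y.2
  have : y' = y := Subtype.ext hyy
  rw [← this]
  exact hy'

/-! ### `E` is algebraically closed in `E · F₀` -/

/-- An element of `Ω'` algebraic over the constants is a constant. -/
theorem exists_cst_of_isAlgebraic {f : OmG F₀} (hf : IsAlgebraic Qb f) :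
    ∃ c : Qb, cstG F₀ c = f := by
  have hint : IsIntegral Qb f := hf.isIntegral
  have hdeg : (minpoly Qb f).degree = 1 :=
    IsAlgClosed.degree_eq_one_of_irreducible Qb (minpoly.irreducible hint)
  have hmem := minpoly.mem_range_of_degree_eq_one Qb f hdeg
  obtain ⟨c, hc⟩ := hmem
  exact ⟨c, hc⟩

theorem isAlgebraic_Qb_of_isAlgebraic_EcG {E : Subfield Qb} {f : OmG F₀}
    (hf : IsAlgebraic (EcG E (cstG F₀)) f) : IsAlgebraic Qb f := by
  obtain ⟨P, hP0, hP⟩ := hf
  let e := H588.subfieldMapEquiv (cstG F₀) E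
  let ψ : ↥(EcG E (cstG F₀)) →+* Qb := E.subtype.comp (e.symm : ↥(E.map (cstG F₀)) →+* ↥E)
  have hψ : ∀ y, algebraMap Qb (OmG F₀) (ψ y) = (y : OmG F₀) := by
    intro y
    obtain ⟨c, rfl⟩ := e.surjective y
    show cstG F₀ (E.subtype (e.symm (e c))) = _
    rw [RingEquiv.symm_apply_apply]
    rfl
  refine ⟨P.map ψ, (Polynomial.map_ne_zero_iff ψ.injective).mpr hP0, ?_⟩
  rw [Polynomial.aeval_def, Polynomial.eval₂_map]
  rw [Polynomial.aeval_def] at hP
  have hcomp : (algebraMap Qb (OmG F₀)).comp ψ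
      = algebraMap (↥(EcG E (cstG F₀))) (OmG F₀) := RingHom.ext hψ
  rw [hcomp]
  exact hP

/-- **`E` is algebraically closed in `E · F₀`** (field `E_closed_in_F` of `GoodModel`). -/
theorem E_closed_FcT (E : Subfield Qb) :
    ∀ f ∈ FcT F₀ E, IsAlgebraic (EcG E (cstG F₀)) f → f ∈ EcG E (cstG F₀) := by
  intro f hf halg
  obtain ⟨c, rfl⟩ := exists_cst_of_isAlgebraic (isAlgebraic_Qb_of_isAlgebraic_EcG halg)
  refine (mem_EcG_iff _).mpr ⟨c, ?_, rfl⟩
  have h := coeff_mem_of_mem_FcT hf 0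
  have h2 : ((cstG F₀ c : OmG F₀) : LaurentSeries Qb) = HahnSeries.C c := exG_cstG F₀ c
  rw [h2, HahnSeries.C_apply, HahnSeries.coeff_single_same] at h
  exact h

end Fermat.Agent.S48.Red1

end
end
-- ===== PACK-END S48/Red1/Objects.lean

-- ===== PACK-BEGIN S18/H997/BranchField.lean
section








/-!
# S18 / node_mod, part G-BR (helper997): the branch fields of `Alg.GoodModel`

For the concrete objects of `Fermat/Agent/S18/Mod/Defs.lean` and EVERY admissible coordinate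
(`IsCoordinate M ℓ x S`: `x = j`, `S = {0, 1728}` for `ℓ ≥ 5`; `x = t₂`, `S = {0, -64}` for `ℓ = 3`;
`x = t₃`, `S = {0, -27}` for `ℓ = 2`), every intermediate field `E` of `ℚ̄/ℚ`:

* `S_mem`       : `∀ s ∈ S, s ∈ Rc M A E`
* `S_distinct`  : `∀ s ∈ S, ∀ t ∈ S, s ≠ t → (s - t)⁻¹ ∈ Rc M A E`
* `S_unit`      : `∀ s ∈ S, s ≠ 0 → s⁻¹ ∈ Rc M A E`
* `unramified`  : `∀ O : ValuationSubring (Om M), (∀ a ∈ Lc M, a ∈ O) → ∀ c ∈ Lc M, c ∉ S →
                    x - c ∈ O → (x - c)⁻¹ ∉ O → ∀ t ∈ O, t⁻¹ ∉ O → t * (x - c)⁻¹ ∈ O`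

exactly the four fields `S_mem S_distinct S_unit unramified` of `Alg.GoodModel`
(= `PartBr (Lc M) (Rc M A E) x S` of helper216's MOD assembly).  Main theorem: `branchFields`.
-/

set_option autoImplicit false
set_option linter.style.haveILetI false

noncomputable section

open AlgebraicCurve ModularCurve IntermediateField HahnSeries

namespace Fermat.Agent.S18.H997

open Fermat.Agent.S24 Fermat.Agent.S18 Fermat.Agent.S18.Mod

/-! ### Generic: place form ⟹ valuation-subring form -/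

section Generic

variable {K F : Type*} [Field K] [Field F] [Algebra K F] [IsAlgClosed K]

/-- If `y` has order `1` at every place where it vanishes, then `y` generates the maximal
ideal of every valuation subring of `F/K` in which it is a non-unit. -/
theorem unramified_of_ord {x₀ : F} (hx₀ : Transcendental K x₀) [FiniteDimensional K⟮x₀⟯ F]
    (y : F)
    (h : ∀ v : Place K F, 0 < v.ord y → v.ord y = 1)
    (O : ValuationSubring F) (hK : ∀ a : K, algebraMap K F a ∈ O)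
    (hmem : y ∈ O) (hinv : y⁻¹ ∉ O) (t : F) (ht : t ∈ O) (htinv : t⁻¹ ∉ O) :
    t * y⁻¹ ∈ O := by
  have hO : O ≠ ⊤ := fun h' => hinv (h' ▸ ValuationSubring.mem_top _)
  obtain ⟨v, rfl⟩ := Lib.RR.H443.exists_place_eq O hK hO hx₀
  have hy0 : y ≠ 0 := by
    rintro rfl
    rw [inv_zero] at hinv
    exact hinv (zero_mem _)
  have ht0 : t ≠ 0 := by
    rintro rfl
    rw [inv_zero] at htinv
    exact htinv (zero_mem _)
  have pos : ∀ z : F, z ∈ v.toValuationSubring → z⁻¹ ∉ v.toValuationSubring → 0 < v.ord z := by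
    intro z hz hzi
    have h1 : 0 ≤ v.ord z := (FF.mem_iff_ord_nonneg v).1 hz
    have h2 : ¬ 0 ≤ v.ord z⁻¹ := fun h' => hzi ((FF.mem_iff_ord_nonneg v).2 h')
    rw [Place.ord_inv] at h2
    omega
  have hy := pos y hmem hinv
  have hyt := pos t ht htinv
  rw [FF.mem_iff_ord_nonneg, Place.ord_mul v ht0 (inv_ne_zero hy0), Place.ord_inv, h v hy]
  omega

end Generic

/-! ### Constants -/

section Constants

variable (M : ℕ) (A : ValuationSubring Qb) (E : IntermediateField ℚ Qb)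

theorem mem_Rc_of_mem {a : Qb} (hA : a ∈ A) (hE : a ∈ E) :
    algebraMap Qb (Om M) a ∈ Rc M A E :=
  Subring.mem_map.2 ⟨a, ⟨hA, hE⟩, rfl⟩

theorem intCast_mem_Rc (n : ℤ) : ((n : Om M)) ∈ Rc M A E := by
  have h := mem_Rc_of_mem M A E (a := (n : Qb)) (intCast_mem A n) (intCast_mem E n)
  rwa [map_intCast] at h

variable {A} in
/-- an integer prime to `ℓ` is a unit of `A` -/
theorem inv_intCast_mem {ℓ : ℕ} (hA : A.LiesOverPrime ℓ) (n : ℤ)
    (hn : IsCoprime n (ℓ : ℤ)) : ((n : Qb))⁻¹ ∈ A := by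
  obtain ⟨a, b, hab⟩ := hn
  have hℓ : A.valuation ((ℓ : ℕ) : Qb) < 1 := A.mem_nonunits_iff.1 hA
  have hn1 : A.valuation (n : Qb) ≤ 1 := (A.valuation_le_one_iff _).2 (intCast_mem A n)
  have ha1 : A.valuation (a : Qb) ≤ 1 := (A.valuation_le_one_iff _).2 (intCast_mem A a)
  have hb1 : A.valuation (b : Qb) ≤ 1 := (A.valuation_le_one_iff _).2 (intCast_mem A b)
  rcases hn1.lt_or_eq with hlt | heq
  · exfalso
    have e : (1 : Qb) = (a : Qb) * n + (b : Qb) * ((ℓ : ℕ) : Qb) := by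
      have := congrArg (Int.cast : ℤ → Qb) hab
      push_cast at this
      rw [this]
    have h1 : A.valuation (1 : Qb) < 1 := by
      rw [e]
      refine lt_of_le_of_lt (A.valuation.map_add _ _) (max_lt ?_ ?_)
      · rw [map_mul]
        exact lt_of_le_of_lt (mul_le_of_le_one_left' ha1) hlt
      · rw [map_mul]
        exact lt_of_le_of_lt (mul_le_of_le_one_left' hb1) hℓ
    rw [map_one] at h1
    exact lt_irrefl _ h1
  · rw [← A.valuation_le_one_iff, map_inv₀, heq, inv_one]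

variable {A} in
theorem inv_intCast_mem_Rc {ℓ : ℕ} (hA : A.LiesOverPrime ℓ) (n : ℤ)
    (hn : IsCoprime n (ℓ : ℤ)) : ((n : Om M))⁻¹ ∈ Rc M A E := by
  have h := mem_Rc_of_mem M A E (a := ((n : Qb))⁻¹) (inv_intCast_mem hA n hn)
    (inv_mem (intCast_mem E n))
  rwa [map_inv₀, map_intCast] at h

end Constants

/-! ### The three fields on constants, for `S = {0, n}` -/

section SFields

variable (M : ℕ) {A : ValuationSubring Qb} (E : IntermediateField ℚ Qb) {ℓ : ℕ}
  (hA : A.LiesOverPrime ℓ) (n : ℤ) (hn : IsCoprime n (ℓ : ℤ))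
  (S : Finset (Om M)) (hS : ∀ s, s ∈ S ↔ s = 0 ∨ s = (n : Om M))

include hS in
theorem S_mem_of : ∀ s ∈ S, s ∈ Rc M A E := by
  intro s hs
  rcases (hS s).1 hs with rfl | rfl
  · exact zero_mem _
  · exact intCast_mem_Rc M A E n

include hA hn hS in
theorem S_unit_of : ∀ s ∈ S, s ≠ 0 → s⁻¹ ∈ Rc M A E := by
  intro s hs hs0
  rcases (hS s).1 hs with rfl | rfl
  · exact absurd rfl hs0
  · exact inv_intCast_mem_Rc M E hA n hn

include hA hn hS in
theorem S_distinct_of : ∀ s ∈ S, ∀ t ∈ S, s ≠ t → (s - t)⁻¹ ∈ Rc M A E := by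
  intro s hs t ht hst
  rcases (hS s).1 hs with rfl | rfl <;> rcases (hS t).1 ht with rfl | rfl
  · exact absurd rfl hst
  · rw [zero_sub, inv_neg]
    exact neg_mem (inv_intCast_mem_Rc M E hA n hn)
  · rw [sub_zero]
    exact inv_intCast_mem_Rc M E hA n hn
  · exact absurd rfl hst

end SFields

/-! ### The field `unramified` -/

section Unramified

variable (M : ℕ) [NeZero M]

theorem jOm_eq_jF : jOm M = jF M := by
  apply Subtype.ext
  show coeffEmb Qb (qExpand ℚ 1 jq) = coeffEmb Kbar jq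
  rw [qExpand_one_apply]

/-- the valuation-subring form of unramifiedness over `ℚ̄` for a coordinate `x` of `F_M` -/
theorem unramified_of (x : Om M) (n : ℤ) (S : Finset (Om M))
    (hS : ∀ s, s ∈ S ↔ s = 0 ∨ s = (n : Om M))
    (h : ∀ c : Kbar, c ≠ 0 → c ≠ (n : Kbar) → ∀ v : Place Kbar (FF M),
      0 < v.ord (x - algebraMap Kbar (FF M) c) → v.ord (x - algebraMap Kbar (FF M) c) = 1) :
    ∀ O : ValuationSubring (Om M), (∀ a ∈ Lc M, a ∈ O) → ∀ c ∈ Lc M, c ∉ S →
      x - c ∈ O → (x - c)⁻¹ ∉ O → ∀ t ∈ O, t⁻¹ ∉ O → t * (x - c)⁻¹ ∈ O := by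
  intro O hO c hc hcS hmem hinv t ht htinv
  obtain ⟨a, rfl⟩ := hc
  have ha0 : a ≠ 0 := by
    rintro rfl
    exact hcS ((hS _).2 (Or.inl (map_zero _)))
  have han : a ≠ (n : Kbar) := by
    rintro rfl
    exact hcS ((hS _).2 (Or.inr (map_intCast _ n)))
  haveI := Lib.X0Branch.finiteDimensional_FF M
  exact unramified_of_ord (K := Kbar) (F := FF M) (Lib.RR.H864.transcendental_jF M) _
    (h a ha0 han) O (fun b => hO _ ⟨b, rfl⟩) hmem hinv t ht htinv

end Unramified

/-! ### Main theorem -/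

/-- **G-BR**: the four branch fields of `Alg.GoodModel` for the concrete objects, for every
admissible coordinate and every intermediate field `E`. -/
theorem branchFields (M : ℕ) [NeZero M] {ℓ : ℕ} (hℓ : ℓ.Prime) (A : ValuationSubring Qb)
    (hA : A.LiesOverPrime ℓ) (x : Om M) (S : Finset (Om M)) (hx : IsCoordinate M ℓ x S)
    (E : IntermediateField ℚ Qb) :
    (∀ s ∈ S, s ∈ Rc M A E) ∧
    (∀ s ∈ S, ∀ t ∈ S, s ≠ t → (s - t)⁻¹ ∈ Rc M A E) ∧
    (∀ s ∈ S, s ≠ 0 → s⁻¹ ∈ Rc M A E) ∧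
    (∀ O : ValuationSubring (Om M), (∀ a ∈ Lc M, a ∈ O) → ∀ c ∈ Lc M, c ∉ S →
      x - c ∈ O → (x - c)⁻¹ ∉ O → ∀ t ∈ O, t⁻¹ ∉ O → t * (x - c)⁻¹ ∈ O) := by
  -- a uniform treatment: `S = {0, n}`, `n` prime to `ℓ`
  have key : ∀ n : ℤ, IsCoprime n (ℓ : ℤ) → (∀ s, s ∈ S ↔ s = 0 ∨ s = (n : Om M)) →
      (∀ c : Kbar, c ≠ 0 → c ≠ (n : Kbar) → ∀ v : Place Kbar (FF M),
        0 < v.ord (x - algebraMap Kbar (FF M) c) → v.ord (x - algebraMap Kbar (FF M) c) = 1) →
      (∀ s ∈ S, s ∈ Rc M A E) ∧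
      (∀ s ∈ S, ∀ t ∈ S, s ≠ t → (s - t)⁻¹ ∈ Rc M A E) ∧
      (∀ s ∈ S, s ≠ 0 → s⁻¹ ∈ Rc M A E) ∧
      (∀ O : ValuationSubring (Om M), (∀ a ∈ Lc M, a ∈ O) → ∀ c ∈ Lc M, c ∉ S →
        x - c ∈ O → (x - c)⁻¹ ∉ O → ∀ t ∈ O, t⁻¹ ∉ O → t * (x - c)⁻¹ ∈ O) :=
    fun n hn hS h => ⟨S_mem_of M E n S hS, S_distinct_of M E hA n hn S hS,
      S_unit_of M E hA n hn S hS, unramified_of M x n S hS h⟩
  rcases hx with ⟨h5, rfl, hS⟩ | ⟨⟨h3, hid, hS⟩ | ⟨h2, hid, hS⟩, -⟩
  · -- `x = j`, `S = {0, 1728}`, `ℓ ≥ 5`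
    have hcop : IsCoprime (1728 : ℤ) (ℓ : ℤ) := by
      have h2 : Nat.Coprime 2 ℓ := (Nat.coprime_primes Nat.prime_two hℓ).2 (by omega)
      have h3 : Nat.Coprime 3 ℓ := (Nat.coprime_primes Nat.prime_three hℓ).2 (by omega)
      have h : Nat.Coprime (2 ^ 6 * 3 ^ 3) ℓ :=
        Nat.Coprime.mul_left (Nat.Coprime.pow_left 6 h2) (Nat.Coprime.pow_left 3 h3)
      have := Nat.isCoprime_iff_coprime.2 h
      simpa using this
    refine key 1728 hcop (fun s => by rw [hS s]; norm_num) ?_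
    intro c hc0 hc1 v hv
    rw [jOm_eq_jF] at hv ⊢
    exact Lib.X0Branch.ord_sub_eq_one M c hc0 (by simpa using hc1) v hv
  · -- `x = t₂`, `S = {0, -64}`, `ℓ = 3`
    subst h3
    have hcop : IsCoprime (-64 : ℤ) ((3 : ℕ) : ℤ) := by
      rw [IsCoprime.neg_left_iff]
      have := Nat.isCoprime_iff_coprime.2 (by norm_num : Nat.Coprime 64 3)
      simpa using this
    refine key (-64) hcop (fun s => by rw [hS s]; norm_num) ?_
    intro c hc0 hc1 v hv
    rw [jOm_eq_jF] at hid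
    exact H558.ord_t2_sub_eq_one M x hid c hc0 (by simpa using hc1) v hv
  · -- `x = t₃`, `S = {0, -27}`, `ℓ = 2`
    subst h2
    have hcop : IsCoprime (-27 : ℤ) ((2 : ℕ) : ℤ) := by
      rw [IsCoprime.neg_left_iff]
      have := Nat.isCoprime_iff_coprime.2 (by norm_num : Nat.Coprime 27 2)
      simpa using this
    refine key (-27) hcop (fun s => by rw [hS s]; norm_num) ?_
    intro c hc0 hc1 v hv
    rw [jOm_eq_jF] at hid
    exact H558.ord_t3_sub_eq_one M x hid c hc0 (by simpa using hc1) v hv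

end Fermat.Agent.S18.H997

end
end
-- ===== PACK-END S18/H997/BranchField.lean

-- ===== PACK-BEGIN S18/H24/NodeMod.lean
section










/-!
# S18 / node_mod — FINAL WIRING (helper24, MOD-ASM)

`node_mod : ¬ ℓ ∣ M → A.LiesOverPrime ℓ → Mod.GoodModelStatement M ℓ A`, the exact type of
`Integ.node_mod` in helper18's skeleton v4c, assembled from the parts on main:

| part | source |
|---|---|
| G-R (DVR `A ∩ E`, uniformiser, perfect residue field) | `H456.ModR`, `H456.ModRes`, `H602.DVR` |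
| G-FLD (fields, coordinate, finiteness)                | `H456.ModBasic/ModFields/ModCoord`, `H24.Finite` |
| G-V (Gauss valuation ring)                            | `H24.GaussFields` |
| G-QEP at `x = j`                                      | `Mod.H216.NodeJ` |
| G-SEP at `x = j`                                      | `H576.Sep` |
| G-BR (all coordinates)                                | `H997.BranchField` |
| M3-T (transfer `j ↦ t₂, t₃`, `ℓ = 2, 3`)              | `H107.M3T` |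
| family/directedness                                   | `Mod.H216.Family` |
-/

set_option autoImplicit false

noncomputable section

namespace Fermat.Agent.S18.H24

open ModularCurve AlgebraicCurve HahnSeries Fermat.Agent.S18 Fermat.Agent.S18.Mod

variable (M : ℕ) [NeZero M] {ℓ : ℕ} (A : ValuationSubring Qb) (E : IntermediateField ℚ Qb)

/-- G-R at the concrete objects: a uniformiser of `A ∩ E` and the `R`-fields. -/
theorem exists_partR (hℓ : ℓ.Prime) (hA : A.LiesOverPrime ℓ) [FiniteDimensional ℚ E] :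
    ∃ w : Om M, Mod.H216.PartR (Ec M E) (Rc M A E) w := by
  haveI : IsDiscreteValuationRing (H602.RE A E) :=
    H602.isDiscreteValuationRing_RE A E hℓ.ne_zero hA
  obtain ⟨w, hw⟩ := H456.exists_isUnif (M := M) (A := A) (E := E)
  exact ⟨w, H456.field_R_le M A E, H456.field_R_total M A E, hw.mem, hw.ne_zero, hw.inv_not_mem,
    hw.gen, hw.discrete, H456.field_residue_perfect (M := M) A E hℓ hA hw⟩

/-- The `j`-model without the branch fields, for every `ℓ ∤ M` (also `ℓ = 2, 3`). -/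
theorem baseModel_j [Fact ℓ.Prime] (hℓM : ¬ ℓ ∣ M) (hA : A.LiesOverPrime ℓ)
    [FiniteDimensional ℚ E] {w : Om M} (hR : Mod.H216.PartR (Ec M E) (Rc M A E) w) :
    H107.BaseModel107 (Lc M) (Ec M E) (Fc M E) (Rc M A E) (Mod.H216.Vc M A E) w (jOm M) := by
  have hℓ : ℓ.Prime := Fact.out
  have hV := gv_fields (M := M) (A := A) (E := E) (Mod.H216.Vc M A E) (Mod.H216.coe_Vc M A E)
    hR.w_mem hR.w_ne_zero hR.w_inv_not_mem hR.w_gen hR.w_discrete (H456.hasIntExp_jOm M)
  have hQ := Mod.H216.partQepStatement_j A hℓM hA E inferInstance w hR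
  exact
    { charZero := H456.field_charZero M
      R_le := hR.R_le
      R_total := hR.R_total
      w_mem := hR.w_mem
      w_ne_zero := hR.w_ne_zero
      w_inv_not_mem := hR.w_inv_not_mem
      w_gen := hR.w_gen
      w_discrete := hR.w_discrete
      residue_perfect := hR.residue_perfect
      E_le_L := H456.field_E_le_L M E
      E_le_F := H456.field_E_le_F M E
      L_algebraic := H456.field_L_algebraic M E
      L_algClosed := H456.field_L_algClosed M
      E_closed_in_F := H456.field_E_closed_in_F M E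
      compositum := H456.field_compositum M E
      x_mem := H456.mem_Fc_of_hasIntExp M E (H456.hasIntExp_jOm M)
      x_transcendental := H456.transcendental_of_hasIntExp M (H456.hasIntExp_jOm M)
      finite := field_finite_j M E
      V_le := hV.1
      V_total := hV.2.1
      R_le_V := hV.2.2.1
      w_inv_not_mem_V := hV.2.2.2.2.1
      V_gen := hV.2.2.2.2.2.1
      x_mem_V := hV.2.2.2.1
      gauss := hV.2.2.2.2.2.2
      qep_fin := hQ.qep_fin
      qep_inf := hQ.qep_inf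
      separable := H576.field_separable_subring M hℓ hℓM hA E (Mod.H216.Vc M A E)
        (Mod.H216.coe_Vc M A E) hR.w_mem hR.w_gen }

/-- `GoodAt` for every admissible coordinate. -/
theorem goodAt_of_isCoordinate [Fact ℓ.Prime] (hℓM : ¬ ℓ ∣ M) (hA : A.LiesOverPrime ℓ)
    {x : Om M} {S : Finset (Om M)} (hx : IsCoordinate M ℓ x S) : Mod.H216.GoodAt M A x S := by
  have hℓ : ℓ.Prime := Fact.out
  intro E hE
  haveI := hE
  obtain ⟨w, hR⟩ := exists_partR M A E hℓ hA
  have hb := baseModel_j M A E hℓM hA hR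
  refine ⟨Mod.H216.Vc M A E, w, Mod.H216.coe_Vc M A E, ?_⟩
  by_cases h5 : 5 ≤ ℓ
  · have hxj : x = jOm M := by
      rcases hx with ⟨-, h, -⟩ | ⟨h | h, -⟩
      · exact h
      · omega
      · omega
    have hB := H997.branchFields M hℓ A hA x S hx E
    subst hxj
    exact hb.toGoodModel S hB.1 hB.2.1 hB.2.2.1 hB.2.2.2
  · have hV := gv_fields_of_isCoordinate (M := M) (A := A) (E := E) (Mod.H216.Vc M A E)
      (Mod.H216.coe_Vc M A E) hR.w_mem hR.w_ne_zero hR.w_inv_not_mem hR.w_gen hR.w_discrete hx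
    exact H107.goodModel_of_isCoordinate107 M A hA h5 hx E hb (H456.field_x_mem M E hx)
      hV.2.2.2.1 hV.2.2.2.2.2.2

/-- **NODE MOD** (exact type of `Integ.node_mod`, skeleton v4c): the concrete objects at level
`M` form a good family, for every admissible coordinate. -/
theorem node_mod {ℓ : ℕ} [Fact ℓ.Prime] (hℓM : ¬ ℓ ∣ M)
    (A : ValuationSubring Qb) (hA : A.LiesOverPrime ℓ) : Mod.GoodModelStatement M ℓ A :=
  Mod.H216.goodModelStatement_of_goodAt M ℓ A
    (fun _ _ hx => goodAt_of_isCoordinate M A hℓM hA hx)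

end Fermat.Agent.S18.H24

end
end
-- ===== PACK-END S18/H24/NodeMod.lean

-- ===== PACK-BEGIN S48/Red1/Transport.lean
section





/-!
# S48 / RES (Tower A1), sub-tower A1-RED: from the `Γ₀(M)`-models of S18 to the models on
`Ω' = Q̄ · F₀` (helper588)

`F₀ ⊇ modularFunctionFieldFull M`, `ι = iotaG : Om M → OmG F₀` the inclusion.  Images under `ι`
of the concrete objects of `S18/Mod/Defs.lean`, the uniformiser, descent to number fields and the
elementary properties of the Gauss ring `VcT` needed by the glue (`ConcreteFamily`).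
-/

set_option autoImplicit false

noncomputable section

namespace Fermat.Agent.S48.Red1

open ModularCurve AlgebraicCurve HahnSeries Fermat.Agent.S18 Fermat.Agent.S18.Alg
open Fermat.Agent.S18.Mod Fermat.Agent.S48.H248

variable (M : ℕ) (F₀ : IntermediateField ℚ (LaurentSeries ℚ))
  (hle : modularFunctionFieldFull M ≤ F₀)

/-- The inclusion `Ω = Q̄ · F_full(M) → Ω' = Q̄ · F₀`. -/
def iotaG : Om M →+* OmG F₀ := (Fermat.Agent.S48.F1.inclBar Qb hle).toRingHom

variable {M F₀}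

@[simp] theorem coe_iotaG (f : Om M) :
    ((iotaG M F₀ hle f : OmG F₀) : LaurentSeries Qb) = (f : LaurentSeries Qb) :=
  Fermat.Agent.S48.F1.coe_inclBar Qb hle f

theorem iotaG_algebraMap (c : Qb) : iotaG M F₀ hle (algebraMap Qb (Om M) c) = cstG F₀ c :=
  (Fermat.Agent.S48.F1.inclBar Qb hle).commutes c

theorem Lc_map_iotaG : (Lc M).map (iotaG M F₀ hle) = LcG F₀ := by
  ext y
  constructor
  · rintro ⟨_, ⟨c, rfl⟩, rfl⟩
    exact ⟨c, (iotaG_algebraMap hle c).symm⟩
  · rintro ⟨c, rfl⟩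
    exact ⟨algebraMap Qb (Om M) c, ⟨c, rfl⟩, iotaG_algebraMap hle c⟩

theorem Ec_map_iotaG (E : IntermediateField ℚ Qb) :
    (Ec M E).map (iotaG M F₀ hle) = EcG E.toSubfield (cstG F₀) := by
  ext y
  constructor
  · rintro ⟨_, ⟨c, hc, rfl⟩, rfl⟩
    exact (mem_EcG_iff _).mpr ⟨c, hc, (iotaG_algebraMap hle c).symm⟩
  · intro hy
    obtain ⟨c, hc, rfl⟩ := (mem_EcG_iff _).mp hy
    exact ⟨algebraMap Qb (Om M) c, ⟨c, hc, rfl⟩, iotaG_algebraMap hle c⟩

theorem Rc_map_iotaG (A : ValuationSubring Qb) (E : IntermediateField ℚ Qb) :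
    (Rc M A E).map (iotaG M F₀ hle) = RcG A E.toSubfield (cstG F₀) := by
  ext y
  constructor
  · rintro ⟨_, ⟨c, hc, rfl⟩, rfl⟩
    exact (mem_RcG_iff _).mpr ⟨c, hc.1, hc.2, (iotaG_algebraMap hle c).symm⟩
  · intro hy
    obtain ⟨c, hcA, hcE, rfl⟩ := (mem_RcG_iff _).mp hy
    exact ⟨algebraMap Qb (Om M) c, ⟨c, ⟨hcA, hcE⟩, rfl⟩, iotaG_algebraMap hle c⟩

theorem Ec_comap (E : IntermediateField ℚ Qb) :
    (Ec M E).comap (algebraMap Qb (Om M)) = E.toSubfield := by
  ext c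
  constructor
  · rintro ⟨c', hc', h⟩
    have : c' = c := (algebraMap Qb (Om M)).injective h
    exact this ▸ hc'
  · intro hc
    exact ⟨c, hc, rfl⟩

theorem iotaG_jd (d : ℕ) [NeZero d] (hd : d ∣ M) :
    iotaG M F₀ hle (jd M d hd) = embG F₀ ⟨qExpand ℚ d jq, hle (jqd_mem_full M hd)⟩ :=
  Subtype.ext (by rw [coe_iotaG]; rfl)

theorem Fc_map_le (E : IntermediateField ℚ Qb) :
    (Fc M E).map (iotaG M F₀ hle) ≤ FcT F₀ E.toSubfield := by
  rw [Subfield.map_le_iff_le_comap]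
  unfold Fc
  rw [Subfield.closure_le]
  rintro y (hy | hy)
  · obtain ⟨c, hc, rfl⟩ := hy
    show iotaG M F₀ hle _ ∈ FcT F₀ E.toSubfield
    rw [iotaG_algebraMap]
    exact cstG_mem_FcT hc
  · obtain ⟨d, hd, hdM, rfl⟩ := hy
    show iotaG M F₀ hle _ ∈ FcT F₀ E.toSubfield
    rw [iotaG_jd]
    exact embG_mem_FcT _ _

include hle in
theorem isInt_of_isIntE {A : ValuationSubring Qb} {E : IntermediateField ℚ Qb}
    {U : LaurentSeries A} (hU : IsIntE M A E U) :
    _root_.Fermat.Agent.S48.H248.IsInt A E.toSubfield (exG F₀) (FcT F₀ E.toSubfield) U := by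
  obtain ⟨h1, f, hf, hfU⟩ := hU
  exact ⟨h1, iotaG M F₀ hle f, Fc_map_le hle E ⟨f, hf, rfl⟩, by
    rw [exG_apply, coe_iotaG]; exact hfU⟩

theorem Vc_map_le (A : ValuationSubring Qb) (E : IntermediateField ℚ Qb) {f : Om M}
    (hf : f ∈ VcSet M A E) : iotaG M F₀ hle f ∈ VcT F₀ A E.toSubfield := by
  obtain ⟨hfF, U₁, U₂, h₁, h₂, hr, hfU⟩ := hf
  refine ⟨Fc_map_le hle E ⟨f, hfF, rfl⟩, U₁, U₂, isInt_of_isIntE hle h₁, isInt_of_isIntE hle h₂,
    hr, ?_⟩
  rw [exG_apply, coe_iotaG]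
  exact hfU

/-! ### The uniformiser -/

/-- The uniformiser of a `Γ₀(M)`-model is the image of a uniformiser `w₀` of `A ∩ E`. -/
theorem exists_isUnifG {A : ValuationSubring Qb} {E : IntermediateField ℚ Qb} {w : Om M}
    (hR : Mod.H216.PartR (Ec M E) (Rc M A E) w) :
    ∃ w₀ : Qb, algebraMap Qb (Om M) w₀ = w ∧ IsUnifG A E.toSubfield w₀ := by
  have hinj : Function.Injective (algebraMap Qb (Om M)) := (algebraMap Qb (Om M)).injective
  have hmem : ∀ c : Qb, algebraMap Qb (Om M) c ∈ Rc M A E ↔ c ∈ A ∧ c ∈ E := by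
    intro c
    constructor
    · rintro ⟨c', hc', h⟩
      have : c' = c := hinj h
      exact this ▸ hc'
    · intro hc
      exact ⟨c, hc, rfl⟩
  obtain ⟨w₀, hw₀, rfl⟩ := hR.w_mem
  refine ⟨w₀, rfl, hw₀.1, hw₀.2, ?_, ?_, ?_⟩
  · rintro rfl
    exact hR.w_ne_zero (map_zero _)
  · intro h
    apply hR.w_inv_not_mem
    rw [← map_inv₀, hmem]
    exact ⟨h, E.toSubfield.inv_mem hw₀.2⟩
  · intro c hcA hcE hc0
    obtain ⟨n, h1, h2⟩ := hR.w_discrete (algebraMap Qb (Om M) c) ((hmem c).mpr ⟨hcA, hcE⟩)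
      ((map_ne_zero _).mpr hc0)
    refine ⟨n, ?_, ?_⟩
    · rw [← map_inv₀, ← map_pow, ← map_mul, hmem] at h1
      exact h1.1
    · rw [← map_inv₀, ← map_pow, ← map_mul, ← map_inv₀, hmem] at h2
      exact h2.1

/-! ### Descent to number fields -/

variable (F₀) in
/-- **Descent.**  Every element of `Ω'` lies in `E · F₀` as soon as `E` contains a certain
finite set of constants. -/
theorem exists_finset_mem_FcT (f : OmG F₀) :
    ∃ T : Finset Qb, ∀ E : Subfield Qb, (∀ a ∈ T, a ∈ E) → f ∈ FcT F₀ E := by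
  classical
  have key : ∀ x : LaurentSeries Qb, x ∈ laurentBaseChange Qb F₀ →
      ∃ T : Finset Qb, ∀ E : Subfield Qb, (∀ a ∈ T, a ∈ E) →
        ∃ g ∈ FcT F₀ E, (g : LaurentSeries Qb) = x := by
    intro x hx
    rw [mem_laurentBaseChange_iff] at hx
    induction hx using Subfield.closure_induction with
    | mem y hy =>
        rcases hy with ⟨a, rfl⟩ | ⟨z, hz, rfl⟩
        · exact ⟨{a}, fun E hE => ⟨cstG F₀ a, cstG_mem_FcT (hE a (by simp)), rfl⟩⟩
        · exact ⟨∅, fun E _ => ⟨embG F₀ ⟨z, hz⟩, embG_mem_FcT E _, rfl⟩⟩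
    | one => exact ⟨∅, fun E _ => ⟨1, one_mem _, rfl⟩⟩
    | add x y _ _ hx hy =>
        obtain ⟨T₁, h₁⟩ := hx
        obtain ⟨T₂, h₂⟩ := hy
        refine ⟨T₁ ∪ T₂, fun E hE => ?_⟩
        obtain ⟨f, hf, hfx⟩ := h₁ E (fun a ha => hE a (Finset.mem_union_left _ ha))
        obtain ⟨g, hg, hgy⟩ := h₂ E (fun a ha => hE a (Finset.mem_union_right _ ha))
        exact ⟨f + g, add_mem hf hg, by rw [← hfx, ← hgy]; rfl⟩
    | neg x _ hx =>
        obtain ⟨T₁, h₁⟩ := hx
        refine ⟨T₁, fun E hE => ?_⟩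
        obtain ⟨f, hf, hfx⟩ := h₁ E hE
        exact ⟨-f, neg_mem hf, by rw [← hfx]; rfl⟩
    | inv x _ hx =>
        obtain ⟨T₁, h₁⟩ := hx
        refine ⟨T₁, fun E hE => ?_⟩
        obtain ⟨f, hf, hfx⟩ := h₁ E hE
        exact ⟨f⁻¹, inv_mem hf, by rw [← hfx]; rfl⟩
    | mul x y _ _ hx hy =>
        obtain ⟨T₁, h₁⟩ := hx
        obtain ⟨T₂, h₂⟩ := hy
        refine ⟨T₁ ∪ T₂, fun E hE => ?_⟩
        obtain ⟨f, hf, hfx⟩ := h₁ E (fun a ha => hE a (Finset.mem_union_left _ ha))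
        obtain ⟨g, hg, hgy⟩ := h₂ E (fun a ha => hE a (Finset.mem_union_right _ ha))
        exact ⟨f * g, mul_mem hf hg, by rw [← hfx, ← hgy]; rfl⟩
  obtain ⟨T, hT⟩ := key (f : LaurentSeries Qb) f.2
  refine ⟨T, fun E hE => ?_⟩
  obtain ⟨g, hg, hgf⟩ := hT E hE
  have : g = f := Subtype.ext hgf
  exact this ▸ hg

/-! ### Elementary properties of the Gauss ring -/

/-- `A`-integral elements of `E · F₀` lie in the Gauss ring. -/
theorem mem_VcT_of_coeff_mem {A : ValuationSubring Qb} {E : Subfield Qb} {f : OmG F₀}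
    (hf : f ∈ FcT F₀ E) (hA : ∀ n : ℤ, (f : LaurentSeries Qb).coeff n ∈ A) :
    f ∈ VcT F₀ A E := by
  obtain ⟨U, hU, hfU⟩ := exists_isInt_of_coeff_mem (ι := exG F₀) (E := E) hf hA
    (fun n => coeff_mem_of_mem_FcT hf n)
  exact mem_VSet_of_isInt hU hfU

/-- `A`-integral elements of `E · F₀` with nonzero reduction are units of the Gauss ring. -/
theorem inv_mem_VcT {A : ValuationSubring Qb} {E : Subfield Qb} {f : OmG F₀}
    (hf : f ∈ FcT F₀ E) (U : LaurentSeries A)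
    (hfU : (f : LaurentSeries Qb) = coeffMap A.subtype U)
    (hU : coeffMap (IsLocalRing.residue A) U ≠ 0) : f⁻¹ ∈ VcT F₀ A E := by
  have hUint : _root_.Fermat.Agent.S48.H248.IsInt A E (exG F₀) (FcT F₀ E) U := by
    refine ⟨fun n => ?_, f, hf, hfU⟩
    have := coeff_mem_of_mem_FcT hf n
    rw [hfU, coeffMap_coeff] at this
    exact this
  have hf0 : f ≠ 0 := by
    intro h0
    apply series_ne_zero_of_red_ne_zero hU
    rw [← hfU, h0]
    rfl
  refine ⟨inv_mem hf, 1, U, isInt_one, hUint, hU, ?_⟩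
  show ((f⁻¹ : OmG F₀) : LaurentSeries Qb) * coeffMap A.subtype U = coeffMap A.subtype 1
  rw [← hfU, map_one]
  have : ((f⁻¹ : OmG F₀) : LaurentSeries Qb) * (f : LaurentSeries Qb)
      = ((f⁻¹ * f : OmG F₀) : LaurentSeries Qb) := rfl
  rw [this, inv_mul_cancel₀ hf0]
  rfl

end Fermat.Agent.S48.Red1

end
end
-- ===== PACK-END S48/Red1/Transport.lean

-- ===== PACK-BEGIN S48/Red1/Asm.lean
section


/-!
# S48 / RES (Tower A1), sub-tower A1-RED: ASSEMBLY of the good family on `Ω' = Q̄ · F₀`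
(helper588)

GENERIC in `F₀ ⊇ modularFunctionFieldFull M` (`F₀ = F1 M`, `F1p M 2`, `F1p M 3`, …), generated by
series with integer coefficients (`IntGen F₀`).

**Leaves** (everything else is proved here from S18 `node_mod`):

* `TopLeaves F₀ A E w₀ j` (for the number fields `E ⊇ T₀`, `w₀` a uniformiser of `A ∩ E`), all at
  the coordinate `j`:
  - `finite`    : `E · F₀` is finite over `E(j)`;
  - `separable` : the residue field of the Gauss ring of `E · F₀` is separable over `κ(j̄)`;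
  - `qep_fin`, `qep_inf` : the `q`-expansion principle for `E · F₀` (node IGUSA1);
* `H107.BranchJ107 (LcG F₀) j` : `Ω' / Q̄(j)` is unramified outside `0, 1728, ∞`, `e ≤ 3` over `0`,
  `e ≤ 2` over `1728` (node A1-BR, `H648.j_inputs_of_embedding`).

**Result** `goodFamily_top` : for every prime `ℓ ∤ M`, every `A` over `ℓ` and every admissible
coordinate `x` of level `M` (`Mod.IsCoordinate M ℓ x S`: `j` for `ℓ ≥ 5`, `t₂` for `ℓ = 3`, `t₃` for
`ℓ = 2`) there is a good family on `Ω'` (coordinate `ι x`) which is concrete in the sense of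
`GlueGen.lean`; hence (`coreGen_top`) the Kummer core `CoreGen F₀ A m` for all primes `m ≠ ℓ`.
-/

set_option autoImplicit false

noncomputable section

namespace Fermat.Agent.S48.Red1

open ModularCurve AlgebraicCurve HahnSeries Fermat.Agent.S18 Fermat.Agent.S18.Alg
open Fermat.Agent.S18.Mod Fermat.Agent.S48.H248 Fermat.Agent.S18.H107 Fermat.Agent.S48.H588

/-- The leaves of the assembly at one number field `E` (see the module docstring). -/
structure TopLeaves (F₀ : IntermediateField ℚ (LaurentSeries ℚ)) (A : ValuationSubring Qb)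
    (E : Subfield Qb) (w₀ : Qb) (j : OmG F₀) : Prop where
  finite : ∃ s : Finset (OmG F₀), (s : Set (OmG F₀)) ⊆ FcT F₀ E ∧
    ∀ f ∈ FcT F₀ E, f ∈ Submodule.span (ratField (EcG E (cstG F₀)) j) (s : Set (OmG F₀))
  separable : ∀ f ∈ VcT F₀ A E, ∃ P : Polynomial (OmG F₀),
    (∀ i, P.coeff i ∈ polyRing (RcG A E (cstG F₀)) j) ∧
    P.eval f * (cstG F₀ w₀)⁻¹ ∈ VcT F₀ A E ∧ (Polynomial.derivative P).eval f ≠ 0 ∧
    ((Polynomial.derivative P).eval f)⁻¹ ∈ VcT F₀ A E
  qep_fin : ∀ b ∈ chart (FcT F₀ E) (RcG A E (cstG F₀)) j, b * (cstG F₀ w₀)⁻¹ ∈ VcT F₀ A E →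
    b * (cstG F₀ w₀)⁻¹ ∈ chart (FcT F₀ E) (RcG A E (cstG F₀)) j
  qep_inf : ∀ b ∈ chart (FcT F₀ E) (RcG A E (cstG F₀)) j⁻¹, b * (cstG F₀ w₀)⁻¹ ∈ VcT F₀ A E →
    b * (cstG F₀ w₀)⁻¹ ∈ chart (FcT F₀ E) (RcG A E (cstG F₀)) j⁻¹

variable {M : ℕ} {F₀ : IntermediateField ℚ (LaurentSeries ℚ)}
  (hle : modularFunctionFieldFull M ≤ F₀)

/-- The step `Ω → Ω'` at the coordinate `j`, from the leaves. -/
theorem stepQ_of_leaves (hF₀ : IntGen F₀) {A : ValuationSubring Qb}
    {E : IntermediateField ℚ Qb} {w₀ : Qb} (hunif : IsUnifG A E.toSubfield w₀)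
    (hL : TopLeaves F₀ A E.toSubfield w₀ (iotaG M F₀ hle (jOm M))) :
    StepQ (iotaG M F₀ hle) (Lc M) (Ec M E) (Fc M E) (Rc M A E) (Mod.H216.Vc M A E)
      (algebraMap Qb (Om M) w₀) (jOm M) (FcT F₀ E.toSubfield) (VcT F₀ A E.toSubfield) := by
  have hEF : ∀ c ∈ E.toSubfield, cstG F₀ c ∈ FcT F₀ E.toSubfield := fun c hc => cstG_mem_FcT hc
  refine
    { F_le := Fc_map_le hle E
      compositum := ?_
      E_closed := ?_
      finite := ?_
      V_le := VRing_le A E.toSubfield (exG F₀) (FcT F₀ E.toSubfield)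
      V_total := fun f hf => V_total (cstG F₀) (exG_cstG F₀) hEF hunif hf
        (isRatio_of_mem_FcT hF₀ A _ hf)
      V_le_V' := ?_
      w_inv_not_mem := ?_
      V_gen := ?_
      separable := ?_
      qep_fin := ?_
      qep_inf := ?_ }
  · rw [Lc_map_iotaG]
    exact closure_FcT_union_LcG _
  · rw [Ec_map_iotaG]
    exact E_closed_FcT _
  · rw [Ec_map_iotaG]
    exact hL.finite
  · rintro _ ⟨f, hf, rfl⟩
    exact Vc_map_le hle A E hf
  · rw [iotaG_algebraMap]
    exact w_inv_not_mem_VRing (cstG F₀) (exG_cstG F₀) hunif.ne_zero hunif.inv_not_mem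
  · rw [iotaG_algebraMap]
    exact fun f hf hinv => V_gen (cstG F₀) (exG_cstG F₀) hEF hunif hf hinv
  · rw [Rc_map_iotaG, iotaG_algebraMap]
    exact hL.separable
  · rw [Rc_map_iotaG, iotaG_algebraMap]
    exact hL.qep_fin
  · rw [Rc_map_iotaG, iotaG_algebraMap]
    exact hL.qep_inf

theorem mem_map_pair {Ω Ω' : Type*} [Field Ω] [Field Ω'] (ι : Ω →+* Ω') {S : Finset Ω} {a b : Ω}
    (hS : ∀ s, s ∈ S ↔ s = a ∨ s = b) (s : Ω') :
    s ∈ S.map ⟨ι, ι.injective⟩ ↔ s = ι a ∨ s = ι b := by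
  constructor
  · intro hs
    obtain ⟨s₀, hs₀, rfl⟩ := Finset.mem_map.mp hs
    rcases (hS s₀).mp hs₀ with rfl | rfl
    · exact Or.inl rfl
    · exact Or.inr rfl
  · rintro (rfl | rfl)
    · exact Finset.mem_map.mpr ⟨a, (hS a).mpr (Or.inl rfl), rfl⟩
    · exact Finset.mem_map.mpr ⟨b, (hS b).mpr (Or.inr rfl), rfl⟩

variable [NeZero M] {ℓ : ℕ} [Fact ℓ.Prime]

/-- **The `j`-model at the top** (without the branch fields), for every `ℓ ∤ M`. -/
theorem baseModel_top (hF₀ : IntGen F₀) (hℓM : ¬ ℓ ∣ M) {A : ValuationSubring Qb}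
    (hA : A.LiesOverPrime ℓ) {E : IntermediateField ℚ Qb} [FiniteDimensional ℚ E] {w₀ : Qb}
    (hR : Mod.H216.PartR (Ec M E) (Rc M A E) (algebraMap Qb (Om M) w₀))
    (hunif : IsUnifG A E.toSubfield w₀)
    (hL : TopLeaves F₀ A E.toSubfield w₀ (iotaG M F₀ hle (jOm M))) :
    BaseModel107 (LcG F₀) (EcG E.toSubfield (cstG F₀)) (FcT F₀ E.toSubfield)
      (RcG A E.toSubfield (cstG F₀)) (VcT F₀ A E.toSubfield) (cstG F₀ w₀)
      (iotaG M F₀ hle (jOm M)) := by
  have hb := Fermat.Agent.S18.H24.baseModel_j M A E hℓM hA hR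
  have h := baseModel_stepQ hb (stepQ_of_leaves hle hF₀ hunif hL)
  rwa [Lc_map_iotaG, Ec_map_iotaG, Rc_map_iotaG, iotaG_algebraMap] at h

/-- **The good model at the top**, for every admissible coordinate. -/
theorem goodModel_top (hF₀ : IntGen F₀) (hℓM : ¬ ℓ ∣ M) {A : ValuationSubring Qb}
    (hA : A.LiesOverPrime ℓ) {x : Om M} {S : Finset (Om M)} (hx : IsCoordinate M ℓ x S)
    {E : IntermediateField ℚ Qb} [FiniteDimensional ℚ E] {w₀ : Qb}
    (hg : GoodModel (Lc M) (Ec M E) (Fc M E) (Rc M A E) (Mod.H216.Vc M A E)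
      (algebraMap Qb (Om M) w₀) x S)
    (hL : TopLeaves F₀ A E.toSubfield w₀ (iotaG M F₀ hle (jOm M)))
    (hbr : BranchJ107 (LcG F₀) (iotaG M F₀ hle (jOm M))) :
    GoodModel (LcG F₀) (EcG E.toSubfield (cstG F₀)) (FcT F₀ E.toSubfield)
      (RcG A E.toSubfield (cstG F₀)) (VcT F₀ A E.toSubfield) (cstG F₀ w₀)
      (iotaG M F₀ hle x) (S.map ⟨iotaG M F₀ hle, (iotaG M F₀ hle).injective⟩) := by
  set ι := iotaG M F₀ hle with hι
  have hR : Mod.H216.PartR (Ec M E) (Rc M A E) (algebraMap Qb (Om M) w₀) :=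
    ⟨hg.R_le, hg.R_total, hg.w_mem, hg.w_ne_zero, hg.w_inv_not_mem, hg.w_gen, hg.w_discrete,
      hg.residue_perfect⟩
  obtain ⟨w₁, hw₁, hunif'⟩ := exists_isUnifG hR
  have hw₁' : w₁ = w₀ := (algebraMap Qb (Om M)).injective hw₁
  have hunif : IsUnifG A E.toSubfield w₀ := hw₁' ▸ hunif'
  have hb := baseModel_top hle hF₀ hℓM hA hR hunif hL
  have hVV : (Mod.H216.Vc M A E).map ι ≤ VcT F₀ A E.toSubfield := by
    rintro _ ⟨f, hf, rfl⟩
    exact Vc_map_le hle A E hf
  have hgauss : ∀ P : Polynomial (OmG F₀), (∀ i, P.coeff i ∈ RcG A E.toSubfield (cstG F₀)) →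
      (∃ i, P.coeff i ≠ 0 ∧ (P.coeff i)⁻¹ ∈ RcG A E.toSubfield (cstG F₀)) →
      (P.eval (ι x))⁻¹ ∈ VcT F₀ A E.toSubfield := by
    have h := gauss_stepQ (ι := ι) (baseModel_of_goodModel107 hg) hVV
    rwa [Rc_map_iotaG] at h
  have hxF : ι x ∈ FcT F₀ E.toSubfield := Fc_map_le hle E ⟨x, hg.x_mem, rfl⟩
  have hxV : ι x ∈ VcT F₀ A E.toSubfield := hVV ⟨x, hg.x_mem_V, rfl⟩
  have hRmem : ∀ r ∈ Rc M A E, ι r ∈ RcG A E.toSubfield (cstG F₀) := by
    intro r hr
    rw [← Rc_map_iotaG hle]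
    exact ⟨r, hr, rfl⟩
  rcases hx with ⟨h5, hxj, hS⟩ | ⟨h | h, -⟩
  · -- `ℓ ≥ 5`, `x = j`
    subst hxj
    refine hb.toGoodModel _ ?_ ?_ ?_ ?_
    · intro s hs
      obtain ⟨s₀, hs₀, rfl⟩ := Finset.mem_map.mp hs
      exact hRmem _ (hg.S_mem s₀ hs₀)
    · intro s hs t ht hst
      obtain ⟨s₀, hs₀, rfl⟩ := Finset.mem_map.mp hs
      obtain ⟨t₀, ht₀, rfl⟩ := Finset.mem_map.mp ht
      have hne : s₀ ≠ t₀ := fun he => hst (by rw [he])
      have := hRmem _ (hg.S_distinct s₀ hs₀ t₀ ht₀ hne)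
      simpa [map_inv₀, map_sub] using this
    · intro s hs hs0
      obtain ⟨s₀, hs₀, rfl⟩ := Finset.mem_map.mp hs
      have hne : s₀ ≠ 0 := fun he => hs0 (by simp [he])
      have := hRmem _ (hg.S_unit s₀ hs₀ hne)
      simpa [map_inv₀] using this
    · intro O hO c hc hcS h1 h2 t ht ht'
      have hmem := mem_map_pair ι hS
      have hc0 : c ≠ 0 := by
        rintro rfl
        exact hcS ((hmem 0).mpr (Or.inl (map_zero ι).symm))
      have hc1 : c ≠ 1728 := by
        rintro rfl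
        exact hcS ((hmem 1728).mpr (Or.inr (map_ofNat ι 1728).symm))
      have := hbr.generic O hO c hc hc0 hc1 h1 h2 t ht ht'
      rwa [pow_one] at this
  · -- `ℓ = 3`, `x = t₂`
    obtain ⟨hℓ3, hrel, hS⟩ := h
    have h2 : (2 : OmG F₀)⁻¹ ∈ RcG A E.toSubfield (cstG F₀) := by
      have h4 := inv_natCast_mem_Rc107 M A E hA 4 1 (by rw [hℓ3])
      have e : (2 : Om M)⁻¹ = 2 * ((4 : ℕ) : Om M)⁻¹ := by
        have := hg.charZero
        push_cast
        norm_num
      have h2' : (2 : Om M)⁻¹ ∈ Rc M A E := by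
        rw [e]
        exact (Rc M A E).mul_mem (ofNat_mem _ 2) h4
      have := hRmem _ h2'
      rwa [map_inv₀, map_ofNat] at this
    have hrel' : ι (jOm M) * (ι x) ^ 2 = (ι x + 256) ^ 3 := by
      have := congrArg ι hrel
      rwa [map_mul, map_pow, map_pow, map_add, map_ofNat] at this
    refine goodModel_t2_107 hb hbr hrel' hxF hxV h2 hgauss ?_
    intro s
    rw [mem_map_pair ι hS, map_zero, map_neg, map_ofNat]
  · -- `ℓ = 2`, `x = t₃`
    obtain ⟨hℓ2, hrel, hS⟩ := h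
    have h3 : (3 : OmG F₀)⁻¹ ∈ RcG A E.toSubfield (cstG F₀) := by
      have h3' := inv_natCast_mem_Rc107 M A E hA 3 1 (by rw [hℓ2])
      have := hRmem _ h3'
      rwa [map_inv₀, map_natCast] at this
    have hrel' : ι (jOm M) * (ι x) ^ 3 = (ι x + 27) * (ι x + 243) ^ 3 := by
      have := congrArg ι hrel
      rwa [map_mul, map_pow, map_mul, map_pow, map_add, map_add, map_ofNat, map_ofNat] at this
    refine goodModel_t3_107 hb hbr hrel' hxF hxV h3 hgauss ?_
    intro s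
    rw [mem_map_pair ι hS, map_zero, map_neg, map_ofNat]

/-- The function field and the Gauss ring at the top over a member of the S18 family. -/
def PhiT (M : ℕ) (F₀ : IntermediateField ℚ (LaurentSeries ℚ)) (A : ValuationSubring Qb)
    (p : Model (Om M)) : Subfield (OmG F₀) × Subring (OmG F₀) :=
  (FcT F₀ (p.1.comap (algebraMap Qb (Om M))), VcT F₀ A (p.1.comap (algebraMap Qb (Om M))))

omit [NeZero M] in
theorem PhiT_mono (A : ValuationSubring Qb) {p p' : Model (Om M)} (h : Model.le p p') :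
    (PhiT M F₀ A p).1 ≤ (PhiT M F₀ A p').1 ∧ (PhiT M F₀ A p).2 ≤ (PhiT M F₀ A p').2 := by
  have hc : p.1.comap (algebraMap Qb (Om M)) ≤ p'.1.comap (algebraMap Qb (Om M)) :=
    fun c hc => h.1 hc
  exact ⟨FcT_mono hc, VcT_mono A hc⟩

/-- **ASSEMBLY.**  The good family on `Ω' = Q̄ · F₀`, concrete in the sense of `GlueGen.lean`. -/
theorem goodFamily_top (hF₀ : IntGen F₀) (hℓM : ¬ ℓ ∣ M) (A : ValuationSubring Qb)
    (hA : A.LiesOverPrime ℓ) {x : Om M} {S : Finset (Om M)} (hx : IsCoordinate M ℓ x S)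
    (T₀ : Finset Qb)
    (hleaf : ∀ (E : IntermediateField ℚ Qb) (w₀ : Qb), FiniteDimensional ℚ E →
      (∀ a ∈ T₀, a ∈ E) → IsUnifG A E.toSubfield w₀ →
      TopLeaves F₀ A E.toSubfield w₀ (iotaG M F₀ hle (jOm M)))
    (hbr : BranchJ107 (LcG F₀) (iotaG M F₀ hle (jOm M))) :
    ∃ 𝓕' : Set (Model (OmG F₀)),
      GoodFamily (LcG F₀) (iotaG M F₀ hle x)
        (S.map ⟨iotaG M F₀ hle, (iotaG M F₀ hle).injective⟩) 𝓕' ∧
      ConcreteFamily F₀ A 𝓕' := by
  classical
  set ι := iotaG M F₀ hle with hι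
  obtain ⟨𝓕, hsub, hfam, hT⟩ := Mod.H216.node_mod M hℓM A hA x S hx
  set T₁ : Finset (Om M) := T₀.image (algebraMap Qb (Om M)) with hT₁
  have hfam₀ := goodFamily_restrict hfam T₁ (by
    intro a ha
    obtain ⟨c, -, rfl⟩ := Finset.mem_image.mp ha
    exact ⟨c, rfl⟩)
  set 𝓕₀ : Set (Model (Om M)) := {p | p ∈ 𝓕 ∧ ∀ a ∈ T₁, a ∈ p.1} with h𝓕₀
  -- the shape of the members
  have hshape : ∀ p ∈ 𝓕₀, ∃ (E : IntermediateField ℚ Qb) (w₀ : Qb), FiniteDimensional ℚ E ∧
      (∀ a ∈ T₀, a ∈ E) ∧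
      p = (Ec M E, Fc M E, Rc M A E, Mod.H216.Vc M A E, algebraMap Qb (Om M) w₀) := by
    rintro ⟨Ec', Fc', R', V', w⟩ ⟨hp, hpT⟩
    obtain ⟨E, hfd, h1, h2, h3, h4⟩ := hsub hp
    simp only at h1 h2 h3 h4 hpT
    subst h1 h2 h3
    have hV : V' = Mod.H216.Vc M A E := SetLike.coe_injective h4
    subst hV
    have hg := hfam.good _ hp
    obtain ⟨w₀, hw₀, rfl⟩ := hg.w_mem
    refine ⟨E, w₀, hfd, fun a ha => ?_, rfl⟩
    have := hpT _ (Finset.mem_image_of_mem _ ha)
    obtain ⟨c, hc, hca⟩ := this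
    have : c = a := (algebraMap Qb (Om M)).injective hca
    exact this ▸ hc
  have hlift : ∀ (E : IntermediateField ℚ Qb) (w₀ : Qb),
      liftModel ι (PhiT M F₀ A)
        (Ec M E, Fc M E, Rc M A E, Mod.H216.Vc M A E, algebraMap Qb (Om M) w₀)
      = (EcG E.toSubfield (cstG F₀), FcT F₀ E.toSubfield, RcG A E.toSubfield (cstG F₀),
          VcT F₀ A E.toSubfield, cstG F₀ w₀) := by
    intro E w₀
    unfold liftModel PhiT
    simp only
    rw [Ec_map_iotaG, Rc_map_iotaG, Ec_comap, iotaG_algebraMap]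
  refine ⟨liftModel ι (PhiT M F₀ A) '' 𝓕₀, ?_, ?_⟩
  · have h := goodFamily_lift (ι := ι) hfam₀ (PhiT M F₀ A) (ι x)
      (S.map ⟨ι, ι.injective⟩) ?_ (fun p _ p' _ hpp => PhiT_mono A hpp)
    · rwa [Lc_map_iotaG] at h
    · intro p hp
      obtain ⟨E, w₀, hfd, hET, rfl⟩ := hshape p hp
      have hg := hfam.good _ hp.1
      have hR : Mod.H216.PartR (Ec M E) (Rc M A E) (algebraMap Qb (Om M) w₀) :=
        ⟨hg.R_le, hg.R_total, hg.w_mem, hg.w_ne_zero, hg.w_inv_not_mem, hg.w_gen,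
          hg.w_discrete, hg.residue_perfect⟩
      obtain ⟨w₁, hw₁, hunif'⟩ := exists_isUnifG hR
      have hw₁' : w₁ = w₀ := (algebraMap Qb (Om M)).injective hw₁
      have hunif : IsUnifG A E.toSubfield w₀ := hw₁' ▸ hunif'
      have htop := goodModel_top hle hF₀ hℓM hA hx hg (hleaf E w₀ hfd hET hunif) hbr
      have e := hlift E w₀
      rw [Lc_map_iotaG]
      have e1 := congrArg (fun q : Model (OmG F₀) => q.1) e
      have e2 := congrArg (fun q : Model (OmG F₀) => q.2.1) e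
      have e3 := congrArg (fun q : Model (OmG F₀) => q.2.2.1) e
      have e4 := congrArg (fun q : Model (OmG F₀) => q.2.2.2.1) e
      have e5 := congrArg (fun q : Model (OmG F₀) => q.2.2.2.2) e
      simp only [liftModel] at e1 e2 e3 e4 e5
      rw [e1, e2, e3, e4, e5]
      exact htop
  · -- concreteness
    have hmem : ∀ p' ∈ liftModel ι (PhiT M F₀ A) '' 𝓕₀, ∃ (E : IntermediateField ℚ Qb)
        (w₀ : Qb), p' = (EcG E.toSubfield (cstG F₀), FcT F₀ E.toSubfield,
          RcG A E.toSubfield (cstG F₀), VcT F₀ A E.toSubfield, cstG F₀ w₀) := by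
      rintro _ ⟨p, hp, rfl⟩
      obtain ⟨E, w₀, -, -, rfl⟩ := hshape p hp
      exact ⟨E, w₀, hlift E w₀⟩
    refine
      { exists_member := ?_
        E_const := ?_
        R_iff := ?_
        coeff_mem := ?_
        int_mem_V := ?_
        unit_V := ?_ }
    · intro f g
      obtain ⟨Tf, hTf⟩ := exists_finset_mem_FcT F₀ f
      obtain ⟨Tg, hTg⟩ := exists_finset_mem_FcT F₀ g
      obtain ⟨E, V, w, hfd, hTE, hV, hmemF⟩ := hT (Tf ∪ Tg ∪ T₀)
      have hV' : V = Mod.H216.Vc M A E := SetLike.coe_injective hV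
      subst hV'
      have hp₀ : ((Ec M E, Fc M E, Rc M A E, Mod.H216.Vc M A E, w) : Model (Om M)) ∈ 𝓕₀ := by
        refine ⟨hmemF, fun a ha => ?_⟩
        obtain ⟨c, hc, rfl⟩ := Finset.mem_image.mp ha
        exact ⟨c, hTE c (Finset.mem_union_right _ hc), rfl⟩
      refine ⟨_, ⟨_, hp₀, rfl⟩, ?_, ?_⟩
      · show f ∈ FcT F₀ ((Ec M E).comap (algebraMap Qb (Om M)))
        rw [Ec_comap]
        exact hTf _ (fun a ha =>
          hTE a (Finset.mem_union_left _ (Finset.mem_union_left _ ha)))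
      · show g ∈ FcT F₀ ((Ec M E).comap (algebraMap Qb (Om M)))
        rw [Ec_comap]
        exact hTg _ (fun a ha =>
          hTE a (Finset.mem_union_left _ (Finset.mem_union_right _ ha)))
    · intro p' hp' e he
      obtain ⟨E, w₀, rfl⟩ := hmem p' hp'
      obtain ⟨c, -, hc⟩ := (mem_EcG_iff _).mp he
      exact ⟨c, hc⟩
    · intro p' hp' a
      obtain ⟨E, w₀, rfl⟩ := hmem p' hp'
      show cstG F₀ a ∈ RcG A E.toSubfield (cstG F₀) ↔ a ∈ A ∧ cstG F₀ a ∈ EcG E.toSubfield (cstG F₀)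
      rw [cst_mem_RcG_iff]
      constructor
      · rintro ⟨h1, h2⟩
        exact ⟨h1, (mem_EcG_iff _).mpr ⟨a, h2, rfl⟩⟩
      · rintro ⟨h1, h2⟩
        obtain ⟨c, hc, hca⟩ := (mem_EcG_iff _).mp h2
        have : c = a := (cstG F₀).injective hca
        exact ⟨h1, this ▸ hc⟩
    · intro p' hp' f hf n
      obtain ⟨E, w₀, rfl⟩ := hmem p' hp'
      exact (mem_EcG_iff _).mpr ⟨_, coeff_mem_of_mem_FcT hf n, rfl⟩
    · intro p' hp' f hf hA'
      obtain ⟨E, w₀, rfl⟩ := hmem p' hp'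
      exact mem_VcT_of_coeff_mem hf hA'
    · intro p' hp' f hf U hfU hU
      obtain ⟨E, w₀, rfl⟩ := hmem p' hp'
      exact inv_mem_VcT hf U hfU hU

end Fermat.Agent.S48.Red1

end
end
-- ===== PACK-END S48/Red1/Asm.lean

-- ===== PACK-BEGIN S48/H642/DictGen.lean
section



/-!
# Tower A1 / A1-KUM, leaf `k2` — piece DICT, generic form (helper642)

GENERIC port of `S29/H389/Dict.lean` (helper389) to helper332's generic package
(`S48/H332/Pkg*.lean`): places dictionary for ANY field `P.F = ℚ̄(S)` of modular functions for ANY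
group `Γ` carrying a generic analytic core `A : GenCore M Γ P` and the degree bound
`[F : ℚ̄(j)] ≤ |SL₂(ℤ)/Γ|`.

Main result `dvd_ord_of_analytic_pow_gen` : let `r, s ∈ ℚ̄[S]` be nonzero and let `h₁, h₂ ≠ 0` be
functions in the ring `Hol` of the core with `e(r) · h₂ ^ p = c · h₁ ^ p · e(s)` (`e` the bridge
`ℚ̄[S] → Hol`), such that the quotient `h₁ / h₂` is invariant under every `δ ∈ Γ` which has finite
order or trace `2`.  Then `p ∣ ord_v (r / s)` for EVERY place `v` of `P.F`.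
-/

set_option autoImplicit false
set_option linter.style.haveILetI false
set_option linter.unusedSectionVars false

noncomputable section

open AlgebraicCurve HahnSeries ModularCurve
open scoped MatrixGroups

namespace Fermat.Agent.S48.H642

open Fermat.Agent.S24 Fermat.Agent.S24.H997 Fermat.Agent.S48.H332 Fermat.Agent.S29.H389

variable {M : ℕ} [NeZero M] {Γ : Subgroup SL(2, ℤ)} {P : GenField}

/-- Iterating the rotation data: precomposition with `ε ^ n`. -/
theorem rot_iter_gen (B : GenBase M Γ P) (X : GenExpansion B) (ε : SL(2, ℤ))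
    (R : GenRotData B X ε) (n : ℕ) (h : B.Hol) :
    (X.E (B.compH (ε ^ n) h)).order = (X.E h).order ∧
      (X.E (B.compH (ε ^ n) h)).leadingCoeff
        = (R.ζ ^ (X.E h).order) ^ n * (X.E h).leadingCoeff := by
  induction n with
  | zero => simp [B.compH_one]
  | succ n ih =>
    have hstep : B.compH (ε ^ (n + 1)) h = B.compH ε (B.compH (ε ^ n) h) := by
      rw [pow_succ, B.compH_mul]
    have hr := R.rot (B.compH (ε ^ n) h)
    rw [hstep]
    refine ⟨by rw [hr.1, ih.1], ?_⟩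
    rw [hr.2, ih.1, ih.2, pow_succ]
    ring

/-! ### The local statement -/

/-- **DICT, local form (generic).**  For the local data built from an expansion with rotation
data, an analytic `p`-th power relation whose root is invariant under nice elements of `Γ`
forces `p ∣ ord_v` at every place over `t = 0`. -/
theorem dvd_ord_mkLocalData_gen (B : GenBase M Γ P) (X : GenExpansion B) (ε : SL(2, ℤ))
    (R : GenRotData B X ε) (t : P.F) (u : LaurentSeries ℂ)
    (ht : ∀ g : SL(2, ℤ), B.sigmaG X g t = u) (hu : u.order = (R.m : ℤ))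
    [Finite (XG Γ)] [FiniteDimensional ↥(IntermediateField.adjoin Kbar {t}) P.F]
    (hrank : Module.finrank ↥(IntermediateField.adjoin Kbar {t}) P.F = Nat.card (XG Γ))
    (hε : ∀ n : ℕ, Nice (ε ^ n))
    (p : ℕ) (r s : P.RG) (hr : r ≠ 0) (hs : s ≠ 0) (h₁ h₂ : B.Hol) (hh₁ : h₁ ≠ 0)
    (hh₂ : h₂ ≠ 0) (c : ℂ) (hc : c ≠ 0)
    (hrel : B.bridge r * h₂ ^ p = B.constH c * h₁ ^ p * B.bridge s)
    (hinv : ∀ δ : SL(2, ℤ), δ ∈ Γ → Nice δ →
      B.compH δ h₁ * h₂ = h₁ * B.compH δ h₂)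
    (v : Place Kbar P.F) (hv : 0 < v.ord t) :
    (p : ℤ) ∣ v.ord (P.inclRG r / P.inclRG s) := by
  classical
  set L := B.mkLocalData X ε R t u ht hu with hL
  obtain ⟨x, hx⟩ :=
    H117.exists_placeOf_eq L (IntermediateField.adjoin Kbar {t}) le_rfl hrank v hv
  obtain ⟨g, rfl⟩ := QuotientGroup.mk_surjective x
  have hσ : L.σ (g : XG Γ) = B.sigmaG X g := B.sigmaX_mk X g
  -- translated functions
  set h₁' := B.compH g⁻¹ h₁ with hh₁'
  set h₂' := B.compH g⁻¹ h₂ with hh₂'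
  have hE₁ : X.E h₁' ≠ 0 := by
    intro h0
    apply hh₁
    apply B.compH_injective g⁻¹
    apply X.inj
    rw [h0, map_zero, map_zero]
  have hE₂ : X.E h₂' ≠ 0 := by
    intro h0
    apply hh₂
    apply B.compH_injective g⁻¹
    apply X.inj
    rw [h0, map_zero, map_zero]
  set k₁ := (X.E h₁').order with hk₁
  set k₂ := (X.E h₂').order with hk₂
  -- the relation, expanded
  have hrel' : B.sigmaG X g (P.inclRG r) * (X.E h₂') ^ p
      = HahnSeries.C c * (X.E h₁') ^ p * B.sigmaG X g (P.inclRG s) := by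
    rw [B.sigmaG_inclRG, B.sigmaG_inclRG]
    have := congrArg (fun z => X.E (B.compH g⁻¹ z)) hrel
    simp only [map_mul, map_pow, B.compH_constH, X.const] at this
    exact this
  have hr' : P.inclRG r ≠ 0 := fun h => hr (P.inclRG_injective (by rw [h, map_zero]))
  have hs' : P.inclRG s ≠ 0 := fun h => hs (P.inclRG_injective (by rw [h, map_zero]))
  have hσr : B.sigmaG X g (P.inclRG r) ≠ 0 := (map_ne_zero _).mpr hr'
  have hσs : B.sigmaG X g (P.inclRG s) ≠ 0 := (map_ne_zero _).mpr hs'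
  have hC : (HahnSeries.C c : LaurentSeries ℂ) ≠ 0 := by
    intro h0
    apply hc
    have := congrArg (fun z : LaurentSeries ℂ => z.coeff 0) h0
    simpa using this
  have hord : (B.sigmaG X g (P.inclRG r / P.inclRG s)).order = (p : ℤ) * (k₁ - k₂) := by
    have h1 := congrArg HahnSeries.order hrel'
    rw [ls_order_mul hσr (pow_ne_zero p hE₂), ls_order_pow hE₂,
      ls_order_mul (mul_ne_zero hC (pow_ne_zero p hE₁)) hσs,
      ls_order_mul hC (pow_ne_zero p hE₁), ls_order_pow hE₁, ls_order_C] at h1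
    rw [map_div₀, div_eq_mul_inv, ls_order_mul hσr (inv_ne_zero hσs),
      RotRel.order_inv' hσs]
    linarith
  -- multiplicity
  have hmult := H117.order_eq L (g : XG Γ) (P.inclRG r / P.inclRG s)
  rw [hσ, hord, hx] at hmult
  -- orbit length
  have hfin := H117.finite_places_over L (IntermediateField.adjoin Kbar {t}) le_rfl hrank
  have hS : ∀ w : Place Kbar P.F, w ∈ hfin.toFinset ↔ 0 < w.ord t := fun w => by
    simp
  have hsum := H144.loc_fundamental_inequality L hfin.toFinset hS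
  obtain ⟨-, horb, -⟩ :=
    H117.localThm L (IntermediateField.adjoin Kbar {t}) le_rfl hrank hfin.toFinset hS hsum
  have hn := horb (g : XG Γ)
  rw [hx] at hn
  set n := Nat.card (MulAction.orbit (Subgroup.zpowers L.perm) (g : XG Γ)) with hn_def
  have hnpos : 0 < n := by
    have : (0 : ℤ) < n := by rw [hn]; exact hv
    exact_mod_cast this
  -- `perm ^ n` fixes `x`
  have hper : (L.perm ^ n) (g : XG Γ) = (g : XG Γ) := by
    letI : Fintype (MulAction.orbit (Subgroup.zpowers L.perm) (g : XG Γ)) :=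
      Fintype.ofFinite _
    have h1 : Function.minimalPeriod (L.perm • ·) (g : XG Γ) = n := by
      rw [MulAction.minimalPeriod_eq_card, hn_def, Nat.card_eq_fintype_card]
    have h2 := Function.isPeriodicPt_minimalPeriod (L.perm • ·) (g : XG Γ)
    rw [h1] at h2
    have h3 : ((L.perm • ·) : XG Γ → XG Γ) = ⇑L.perm := rfl
    rw [h3] at h2
    have h4 : (⇑L.perm)^[n] (g : XG Γ) = (g : XG Γ) := h2
    rw [Equiv.Perm.iterate_eq_pow] at h4
    exact h4
  -- the element `δ = g⁻¹ ε ^ n g` of `Γ`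
  have hperm_pow : (L.perm ^ n) (g : XG Γ) = (((ε⁻¹) ^ n * g : SL(2, ℤ)) : XG Γ) := by
    have h1 : L.perm = permG Γ ε⁻¹ := rfl
    rw [h1]
    have h2 : (permG Γ ε⁻¹) ^ n = permG Γ ((ε⁻¹) ^ n) := by
      unfold permG
      exact (map_pow (MulAction.toPermHom SL(2, ℤ) (XG Γ)) ε⁻¹ n).symm
    rw [h2]
    rfl
  have hδmem : g⁻¹ * ε ^ n * g ∈ Γ := by
    have h1 := hper
    rw [hperm_pow] at h1
    have h2 := QuotientGroup.eq.mp h1
    have h3 : ((ε⁻¹) ^ n * g)⁻¹ * g = g⁻¹ * ε ^ n * g := by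
      rw [mul_inv_rev, inv_pow, inv_inv]
    rwa [h3] at h2
  have hδnice : Nice (g⁻¹ * ε ^ n * g) := (hε n).conj g
  have hinv' := hinv _ hδmem hδnice
  -- transport by `g⁻¹`
  have hcomp : ∀ h : B.Hol, B.compH g⁻¹ (B.compH (g⁻¹ * ε ^ n * g) h)
      = B.compH (ε ^ n) (B.compH g⁻¹ h) := by
    intro h
    rw [← B.compH_mul, ← B.compH_mul]
    congr 1
    group
  have hrot : B.compH (ε ^ n) h₁' * h₂' = h₁' * B.compH (ε ^ n) h₂' := by
    have := congrArg (B.compH g⁻¹) hinv'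
    rw [map_mul, map_mul, hcomp, hcomp] at this
    exact this
  have hlc := congrArg (fun z => (X.E z).leadingCoeff) hrot
  simp only [map_mul, leadingCoeff_mul] at hlc
  rw [(rot_iter_gen B X ε R n h₁').2, (rot_iter_gen B X ε R n h₂').2] at hlc
  have hl₁ : (X.E h₁').leadingCoeff ≠ 0 := leadingCoeff_ne_zero.mpr hE₁
  have hl₂ : (X.E h₂').leadingCoeff ≠ 0 := leadingCoeff_ne_zero.mpr hE₂
  have hζ0 : R.ζ ≠ 0 := R.hζ.ne_zero R.m_pos.ne'
  have hζeq : (R.ζ ^ k₁) ^ n = (R.ζ ^ k₂) ^ n := by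
    have h1 : (R.ζ ^ k₁) ^ n * ((X.E h₁').leadingCoeff * (X.E h₂').leadingCoeff)
        = (R.ζ ^ k₂) ^ n * ((X.E h₁').leadingCoeff * (X.E h₂').leadingCoeff) := by
      linear_combination hlc
    exact mul_right_cancel₀ (mul_ne_zero hl₁ hl₂) h1
  have hζ1 : R.ζ ^ ((n : ℤ) * (k₁ - k₂)) = 1 := by
    have h1 : R.ζ ^ ((n : ℤ) * k₁) = R.ζ ^ ((n : ℤ) * k₂) := by
      rw [mul_comm (n : ℤ) k₁, mul_comm (n : ℤ) k₂, zpow_mul, zpow_mul, zpow_natCast,
        zpow_natCast]
      exact hζeq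
    rw [mul_sub, zpow_sub₀ hζ0, h1]
    exact div_self (zpow_ne_zero _ hζ0)
  have hdvd : ((R.m : ℕ) : ℤ) ∣ (n : ℤ) * (k₁ - k₂) := (R.hζ.zpow_eq_one_iff_dvd _).mp hζ1
  have hmm := H117.mult_mul_ord_t L (g : XG Γ)
  rw [hx, ← hn] at hmm
  have hLm : L.m = R.m := rfl
  rw [hLm] at hmm
  rw [← hmm] at hdvd
  have hn0 : (n : ℤ) ≠ 0 := by exact_mod_cast hnpos.ne'
  have hdvd' : (H117.mult L (g : XG Γ) : ℤ) ∣ (k₁ - k₂) := by
    rw [mul_comm] at hdvd
    exact (mul_dvd_mul_iff_left hn0).mp hdvd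
  obtain ⟨q, hq⟩ := hdvd'
  refine ⟨q, ?_⟩
  have hm0 : (H117.mult L (g : XG Γ) : ℤ) ≠ 0 := by
    exact_mod_cast (H117.mult_pos L (g : XG Γ)).ne'
  rw [hq] at hmult
  have : (H117.mult L (g : XG Γ) : ℤ) * ((p : ℤ) * q)
      = (H117.mult L (g : XG Γ) : ℤ) * v.ord (P.inclRG r / P.inclRG s) := by
    rw [← hmult]; ring
  exact (mul_left_cancel₀ hm0 this).symm

/-! ### The global statement -/

/-- **DICT (generic).**  Let `A` be a generic analytic core for `(M, Γ, P)` and assume the degree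
bound `[F : ℚ̄(j)] ≤ |SL₂(ℤ)/Γ|`; let `r, s ∈ ℚ̄[S]` be nonzero and `h₁, h₂ ∈ Hol` nonzero with
`e(r) · h₂ ^ p = c · h₁ ^ p · e(s)`, `c ≠ 0`, and suppose `h₁ / h₂` is invariant under every
element of `Γ` of finite order or of trace `2`.  Then `p` divides the order of `r / s` at EVERY
place of the function field `P.F`. -/
theorem dvd_ord_of_analytic_pow_gen (A : GenCore M Γ P)
    (hfd : FiniteDimensional ↥(IntermediateField.adjoin Kbar {P.jF}) P.F)
    (hle : Module.finrank ↥(IntermediateField.adjoin Kbar {P.jF}) P.F ≤ Nat.card (XG Γ))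
    (p : ℕ) (r s : P.RG) (hr : r ≠ 0)
    (hs : s ≠ 0) (h₁ h₂ : A.toGenBase.Hol) (hh₁ : h₁ ≠ 0) (hh₂ : h₂ ≠ 0) (c : ℂ) (hc : c ≠ 0)
    (hrel : A.toGenBase.bridge r * h₂ ^ p
      = A.toGenBase.constH c * h₁ ^ p * A.toGenBase.bridge s)
    (hinv : ∀ δ : SL(2, ℤ), δ ∈ Γ → Nice δ →
      A.toGenBase.compH δ h₁ * h₂ = h₁ * A.toGenBase.compH δ h₂)
    (v : Place Kbar P.F) :
    (p : ℤ) ∣ v.ord (P.inclRG r / P.inclRG s) := by
  classical
  haveI := hfd
  haveI : Finite (XG Γ) := A.finite_XG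
  have hrank : Module.finrank ↥(IntermediateField.adjoin Kbar {P.jF}) P.F
      = Nat.card (XG Γ) := le_antisymm hle A.card_le_finrank
  by_cases hj : 0 ≤ v.ord P.jF
  · haveI : Algebra.IsAlgebraic ↥(IntermediateField.adjoin Kbar {P.jF}) P.F :=
      Algebra.IsAlgebraic.of_finite _ _
    obtain ⟨a, ha⟩ := FF.exists_ord_sub_pos v P.jF hj
    obtain ⟨hfd', hfr⟩ :=
      finiteDimensional_and_finrank_of_eq (adjoin_sub_algebraMap Kbar P.jF a)
    haveI := hfd'
    have hr' := hfr.trans hrank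
    have key : ∀ (ε : SL(2, ℤ)) (Q : GenPointData A.toGenBase (ιK a) ε),
        (∀ n : ℕ, Nice (ε ^ n)) → (p : ℤ) ∣ v.ord (P.inclRG r / P.inclRG s) := fun ε Q hε =>
      dvd_ord_mkLocalData_gen A.toGenBase Q.X ε Q.R _ _ (fun g => A.sigmaG_sub Q g) Q.order_J
        hr' hε p r s hr hs h₁ h₂ hh₁ hh₂ c hc hrel hinv v ha
    by_cases h0 : a = 0
    · exact key (ModularGroup.S * ModularGroup.T) (by rw [h0, map_zero]; exact A.at0)
        nice_pow_ST
    · by_cases h1 : a = 1728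
      · refine key ModularGroup.S ?_ nice_pow_S
        have : ιK a = 1728 := by rw [h1]; exact map_ofNat ιK 1728
        rw [this]; exact A.at1728
      · exact key 1 (A.generic (ιK a)
          (fun h => h0 (ιK_injective (by rw [h, map_zero])))
          (fun h => h1 (ιK_injective (by rw [h]; exact (map_ofNat ιK 1728).symm))))
          nice_pow_one
  · have hjinv : 0 < v.ord (P.jF)⁻¹ := by
      rw [Place.ord_inv]
      omega
    obtain ⟨hfd', hfr⟩ := finiteDimensional_and_finrank_of_eq (adjoin_inv Kbar P.jF)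
    haveI := hfd'
    have hr' := hfr.trans hrank
    exact dvd_ord_mkLocalData_gen A.toGenBase A.toGenBase.qexpExpansion ModularGroup.T A.infRot
      (P.jF)⁻¹ (A.qexp A.toGenBase.JH)⁻¹
      (fun g => by rw [map_inv₀, GenBase.sigmaG_jF]; rfl)
      (by
        rw [RotRel.order_inv' A.toGenBase.qexp_JH_ne_zero, A.toGenBase.order_qexp_JH,
          neg_neg]
        rfl)
      hr' nice_pow_T p r s hr hs h₁ h₂ hh₁ hh₂ c hc hrel hinv v hjinv

end Fermat.Agent.S48.H642

end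
end
-- ===== PACK-END S48/H642/DictGen.lean

-- ===== PACK-BEGIN S48/H642/DictKum.lean
section



/-!
# Tower A1 / A1-KUM, leaf `k2` — DICT, Kummer-class form, generic (helper642)

GENERIC port of `S29/H389/DictKummer.lean`:

* `hasPrincipalDivisors_gen` : a generic field `P.F = ℚ̄(S)`, finite over `ℚ̄(j)`, has principal
  divisors (`j` is transcendental: its `q`-expansion has a pole);
* `exists_isKummerClass_of_analytic_pow_gen` : in the situation of `dvd_ord_of_analytic_pow_gen`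
  the function `f = r / s ∈ P.F` has a `p`-Kummer class in `Pic⁰(P.F)`.
-/

set_option autoImplicit false
set_option linter.style.haveILetI false
set_option linter.unusedSectionVars false

noncomputable section

open AlgebraicCurve HahnSeries ModularCurve
open scoped MatrixGroups

namespace Fermat.Agent.S48.H642

open Fermat.Agent.S24 Fermat.Agent.S24.H997 Fermat.Agent.S48.H332 Fermat.Agent.S29
  Fermat.Agent.S29.H389

variable {M : ℕ} [NeZero M] {Γ : Subgroup SL(2, ℤ)} {P : GenField}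

/-- `j` is not a constant. -/
theorem jF_not_mem_range_gen (P : GenField) : P.jF ∉ (algebraMap Kbar P.F).range := by
  rintro ⟨c, hc⟩
  have h1 : ((algebraMap Kbar P.F c : P.F) : LaurentSeries Kbar).coeff (-1)
      = ((P.jF : P.F) : LaurentSeries Kbar).coeff (-1) := by rw [hc]
  have h2 : ((algebraMap Kbar P.F c : P.F) : LaurentSeries Kbar)
      = algebraMap Kbar (LaurentSeries Kbar) c := rfl
  rw [h2, algebraMap_laurentSeries_eq_single] at h1
  have h3 : ((P.jF : P.F) : LaurentSeries Kbar) = coeffEmb Kbar jq := rfl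
  rw [h3, coeffEmb_coeff, coeff_jq_neg_one, map_one,
    HahnSeries.coeff_single_of_ne (by norm_num)] at h1
  exact zero_ne_one h1

/-- `j` is transcendental over `ℚ̄`. -/
theorem transcendental_jF_gen (P : GenField) : Transcendental Kbar P.jF :=
  FF.transcendental_of_not_mem_range (jF_not_mem_range_gen P)

/-- A generic field of modular functions, finite over `ℚ̄(j)`, has principal divisors. -/
theorem hasPrincipalDivisors_gen (P : GenField)
    [FiniteDimensional ↥(IntermediateField.adjoin Kbar {P.jF}) P.F] :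
    HasPrincipalDivisors Kbar P.F :=
  Fermat.Agent.Lib.RR.H864.hasPrincipalDivisors P.jF (transcendental_jF_gen P)

/-- **DICT, Kummer form (generic).** -/
theorem exists_isKummerClass_of_analytic_pow_gen (A : GenCore M Γ P)
    (hfd : FiniteDimensional ↥(IntermediateField.adjoin Kbar {P.jF}) P.F)
    (hle : Module.finrank ↥(IntermediateField.adjoin Kbar {P.jF}) P.F ≤ Nat.card (XG Γ))
    (p : ℕ) (hp : p ≠ 0)
    (r s : P.RG) (hr : r ≠ 0) (hs : s ≠ 0) (h₁ h₂ : A.toGenBase.Hol) (hh₁ : h₁ ≠ 0)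
    (hh₂ : h₂ ≠ 0) (c : ℂ) (hc : c ≠ 0)
    (hrel : A.toGenBase.bridge r * h₂ ^ p
      = A.toGenBase.constH c * h₁ ^ p * A.toGenBase.bridge s)
    (hinv : ∀ δ : SL(2, ℤ), δ ∈ Γ → Nice δ →
      A.toGenBase.compH δ h₁ * h₂ = h₁ * A.toGenBase.compH δ h₂) :
    ∃ x : Pic0 Kbar P.F, H455.IsKummerClass (p : ℤ) (P.inclRG r / P.inclRG s) x := by
  have hr' : P.inclRG r ≠ 0 := fun h => hr (P.inclRG_injective (by rw [h, map_zero]))
  have hs' : P.inclRG s ≠ 0 := fun h => hs (P.inclRG_injective (by rw [h, map_zero]))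
  have hf : P.inclRG r / P.inclRG s ≠ 0 := div_ne_zero hr' hs'
  haveI := hfd
  haveI := hasPrincipalDivisors_gen P
  obtain ⟨D₀, hD₀, hdeg₀⟩ :=
    HasPrincipalDivisors.exists_divisor (K := AlgebraicClosure ℚ) (P.inclRG r / P.inclRG s) hf
  obtain ⟨D, hdeg, hD⟩ := exists_divisor_div p hp D₀
    (fun v => by
      rw [hD₀ v]
      exact dvd_ord_of_analytic_pow_gen A hfd hle p r s hr hs h₁ h₂ hh₁ hh₂ c hc hrel hinv v)
    hdeg₀
  refine ⟨Pic0.mk ⟨D, hdeg⟩, hf, ⟨D, hdeg⟩, rfl, fun v => ?_⟩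
  rw [hD v, hD₀ v]

end Fermat.Agent.S48.H642

end
end
-- ===== PACK-END S48/H642/DictKum.lean

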