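import Mathlib
import Fermat.Agent.Pack.L1B.E3L1
import Fermat.Agent.Pack.S44C.G0E17L0
import Fermat.Agent.Pack.S44C.G0E6L2
import Fermat.Agent.Pack.L1B.E0L0
import Fermat.Agent.Pack.S44C.G0E24L3
import Fermat.Agent.Pack.S44C.G0E19L1
import Fermat.Agent.Pack.L1B.E3L2
import Fermat.Agent.Pack.L1B.E3L0
import Fermat.Agent.Pack.L1B.E3L3
import Fermat.Agent.Pack.L1B.E2L3
import Fermat.Agent.Pack.L1B.E1L1
import Fermat.Agent.Pack.S44C.G0E16L3
import Fermat.Agent.Pack.S44C.G0E17L2
import Fermat.Agent.Pack.S44C.G0E25L0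
import Fermat.Agent.Pack.L1B.E2L2
import Fermat.Agent.Pack.L1B.E0L2
import Fermat.Agent.Pack.L1.E10L0

-- ===== PACK-BEGIN S48/H150/F1Fin.lean
section







/-!
# S48 / Tower A1 / A1-FF, leaf FF-ALG + HI1 (helper150), part 2: finiteness and `CorrInputs`

Input (`DivRel M`): every division value `P_a = F1.divGen M a` (`a ≠ 0`) is a root of a nonzero
polynomial over `ℚ[j]` (proved in `HI1.lean` from the analytic avatar).

Output, for every field `L ⊇ ℚ` and all `M, p ≠ 0`:
* `exists_coord_F1L`  : `L·F1(M)` is finite over `L(j)`, `j` transcendental;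
* `exists_coord_F1pL` : `L·F1(M; p)` is finite over `L(j)`;
* `corrInputs_of_coord` : for `K` algebraically closed of characteristic `0`, ANY pair of
  `K`-algebra homomorphisms between two function fields of one variable satisfies `F1.CorrInputs`
  (generic engine `S29.H812`);
* `corrInputs_beta_alpha`, `corrInputs_alpha_beta` : `F1.CorrInputs` for `(beta1, alpha1)` and
  for `(alpha1, beta1)` over `ℚ̄`.
-/

set_option autoImplicit false
set_option linter.unusedSectionVars false
set_option linter.style.haveILetI false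

noncomputable section

open Polynomial ModularCurve IntermediateField AlgebraicCurve

namespace Fermat.Agent.S48.H150

open Fermat.Agent.S24 Fermat.Agent.S24.Deg457 Fermat.Agent.S48.F1

/-! ### generic field theory -/

section Generic

variable {K : Type*} [Field K]

/-- relation ⇒ integrality, inside an intermediate field `F ∋ J`. -/
theorem isIntegral_of_algRel (F : IntermediateField K (LaurentSeries K)) {J : LaurentSeries K}
    (hJF : J ∈ F) (hJ : ∀ t : K[X], t ≠ 0 → aeval J t ≠ 0) (y : F)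
    (hy : AlgRel K J (y : LaurentSeries K)) :
    IsIntegral K⟮(⟨J, hJF⟩ : F)⟯ y := by
  obtain ⟨Q, hQ0, hQ⟩ := hy
  have hinc : Function.Injective (algebraMap F (LaurentSeries K)) :=
    (algebraMap F (LaurentSeries K)).injective
  refine (isIntegral_and_natDegree_le_of_relation (K := K)
    (AdjoinSimple.gen K (⟨J, hJF⟩ : F)) ?_ y Q hQ0 Q.natDegree le_rfl ?_).1
  · intro t ht h0
    apply hJ t ht
    have h1 := congrArg (algebraMap ↥(K⟮(⟨J, hJF⟩ : F)⟯) F) h0
    rw [← aeval_algebraMap_apply, map_zero, AdjoinSimple.algebraMap_gen] at h1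
    have h2 := congrArg (algebraMap F (LaurentSeries K)) h1
    rw [← aeval_algebraMap_apply, map_zero] at h2
    exact h2
  · apply hinc
    rw [map_zero, Polynomial.hom_eval₂, AdjoinSimple.algebraMap_gen]
    have hcomp : (algebraMap F (LaurentSeries K)).comp
        ((aeval (⟨J, hJF⟩ : F) : K[X] →ₐ[K] F).toRingHom) = evJ J := by
      refine Polynomial.ringHom_ext ?_ ?_
      · intro c
        simp [evJ, ← IsScalarTower.algebraMap_apply]
      · simp [evJ]
    rw [hcomp]
    exact hQ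

/-- transitivity: `J'` algebraic over `K(J)` and `y` algebraic over `K(J')`. -/
theorem isIntegral_of_algRel_trans (F : IntermediateField K (LaurentSeries K))
    {J J' : LaurentSeries K} (hJF : J ∈ F) (hJ : ∀ t : K[X], t ≠ 0 → aeval J t ≠ 0)
    (hJ'F : J' ∈ F) (hJ' : ∀ t : K[X], t ≠ 0 → aeval J' t ≠ 0) (hJJ' : AlgRel K J J') (y : F)
    (hy : AlgRel K J' (y : LaurentSeries K)) :
    IsIntegral K⟮(⟨J, hJF⟩ : F)⟯ y := by
  set k : IntermediateField K F := K⟮(⟨J, hJF⟩ : F)⟯
  set j' : F := ⟨J', hJ'F⟩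
  have h1 : IsIntegral k j' := isIntegral_of_algRel F hJF hJ j' hJJ'
  have h2 : IsIntegral K⟮j'⟯ y := isIntegral_of_algRel F hJ'F hJ' y hy
  -- the finite extension `E = k(j')` of `k`
  set E : IntermediateField k F := IntermediateField.adjoin k {j'}
  haveI : FiniteDimensional k E := IntermediateField.adjoin.finiteDimensional h1
  have hle : K⟮j'⟯ ≤ E.restrictScalars K := by
    rw [IntermediateField.adjoin_le_iff]
    rintro x hx
    rw [Set.mem_singleton_iff] at hx
    subst hx
    exact IntermediateField.mem_adjoin_simple_self k j'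
  have h3 : IsIntegral E y := by
    let φ : K⟮j'⟯ →+* E := (IntermediateField.inclusion hle).toRingHom
    have := IsIntegral.map_of_comp_eq (R := K⟮j'⟯) (S := F) (T := E) (U := F) φ
      (RingHom.id F) (RingHom.ext fun x => rfl) h2
    simpa using this
  exact isIntegral_trans y h3

/-- a field generated over `K` by finitely many elements integral over a subfield `k ⊇ K` is
finite over `k`. -/
theorem finiteDimensional_of_adjoin_eq_top {F : Type*} [Field F] [Algebra K F]
    (k : IntermediateField K F) (T : Set F) (hT : T.Finite)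
    (htop : IntermediateField.adjoin K T = ⊤) (hint : ∀ t ∈ T, IsIntegral k t) :
    FiniteDimensional k F := by
  haveI : Finite T := hT.to_subtype
  have hfd : FiniteDimensional k (IntermediateField.adjoin k T) :=
    IntermediateField.finiteDimensional_adjoin hint
  have h1 : IntermediateField.adjoin k T = ⊤ := by
    rw [← IntermediateField.restrictScalars_eq_top_iff (K := K)]
    refine top_unique ?_
    rw [← htop, IntermediateField.adjoin_le_iff]
    exact fun t ht => IntermediateField.subset_adjoin k T ht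
  rw [h1] at hfd
  exact (IntermediateField.topEquiv (F := k) (E := F)).toLinearEquiv.finiteDimensional

/-- the generators generate. -/
theorem adjoin_preimage_eq_top (T : Set (LaurentSeries K)) :
    IntermediateField.adjoin K
      ((fun x : ↥(IntermediateField.adjoin K T) => (x : LaurentSeries K)) ⁻¹' T) = ⊤ := by
  apply IntermediateField.lift_injective
  rw [IntermediateField.lift_adjoin, IntermediateField.lift_top]
  congr 1
  ext x
  constructor
  · rintro ⟨y, hy, rfl⟩
    exact hy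
  · intro hx
    exact ⟨⟨x, IntermediateField.subset_adjoin K T hx⟩, hx, rfl⟩

theorem transcendental_of_aeval_ne_zero (F : IntermediateField K (LaurentSeries K))
    {J : LaurentSeries K} (hJF : J ∈ F) (hJ : ∀ t : K[X], t ≠ 0 → aeval J t ≠ 0) :
    Transcendental K (⟨J, hJF⟩ : F) := by
  rw [transcendental_iff]
  intro t ht
  by_contra h0
  apply hJ t h0
  have h2 := congrArg (algebraMap F (LaurentSeries K)) ht
  rw [← aeval_algebraMap_apply, map_zero] at h2
  exact h2

/-- **Finiteness criterion.**  A subfield of `K((q))` generated over `K` by a finite set `T` is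
finite over `K(J)` as soon as every generator is algebraic over `K(J)`, directly or through an
intermediate `J'`. -/
theorem exists_coord_of_gens {J J' : LaurentSeries K} (T : Set (LaurentSeries K))
    (hT : T.Finite) (hJT : J ∈ IntermediateField.adjoin K T)
    (hJ'T : J' ∈ IntermediateField.adjoin K T)
    (hJ : ∀ t : K[X], t ≠ 0 → aeval J t ≠ 0) (hJ' : ∀ t : K[X], t ≠ 0 → aeval J' t ≠ 0)
    (hJJ' : AlgRel K J J') (halg : ∀ t ∈ T, AlgRel K J t ∨ AlgRel K J' t) :
    ∃ x : IntermediateField.adjoin K T, Transcendental K x ∧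
      FiniteDimensional K⟮x⟯ (IntermediateField.adjoin K T) := by
  refine ⟨⟨J, hJT⟩, transcendental_of_aeval_ne_zero _ hJT hJ, ?_⟩
  have htop := adjoin_preimage_eq_top T
  have hfin : ((fun x : ↥(IntermediateField.adjoin K T) => (x : LaurentSeries K)) ⁻¹' T).Finite :=
    hT.preimage (Subtype.val_injective.injOn)
  refine finiteDimensional_of_adjoin_eq_top
    (K⟮(⟨J, hJT⟩ : ↥(IntermediateField.adjoin K T))⟯) _ hfin htop ?_
  intro t ht
  rcases halg (t : LaurentSeries K) ht with h | h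
  · exact isIntegral_of_algRel _ hJT hJ t h
  · exact isIntegral_of_algRel_trans _ hJT hJ hJ'T hJ' hJJ' t h

end Generic

/-! ### generic Hecke inputs -/

section HI

variable {K F F' : Type*} [Field K] [Field F] [Field F'] [Algebra K F] [Algebra K F']
  [IsAlgClosed K] [CharZero K]

/-- **Generic HI.**  Over an algebraically closed field of characteristic zero, any two
`K`-algebra homomorphisms between function fields of one variable satisfy `F1.CorrInputs`. -/
theorem corrInputs_of_coord (hF : ∃ x : F, Transcendental K x ∧ FiniteDimensional K⟮x⟯ F)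
    (hF' : ∃ x : F', Transcendental K x ∧ FiniteDimensional K⟮x⟯ F') (φ ψ : F →ₐ[K] F') :
    CorrInputs φ ψ := by
  obtain ⟨x', hx', hfin'⟩ := hF'
  haveI : FiniteDimensional K⟮x'⟯ F' := hfin'
  haveI hP : HasPrincipalDivisors K F' := Fermat.Agent.Lib.RR.H864.hasPrincipalDivisors x' hx'
  have hfinφ := Fermat.Agent.S29.H812.finiteAlong hF ⟨x', hx', hfin'⟩ φ
  have hfinψ := Fermat.Agent.S29.H812.finiteAlong hF ⟨x', hx', hfin'⟩ ψ
  have hφ := Fermat.Agent.S29.H812.isIntegral_of_finiteAlong hfinφ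
  have hψ := Fermat.Agent.S29.H812.isIntegral_of_finiteAlong hfinψ
  exact ⟨hφ, hψ, hP, hfinψ, Fermat.Agent.S29.H812.fundamentalIdentityAlong hF φ hfinφ hφ,
    Fermat.Agent.S29.H812.normFormulaAlong hF ψ hfinψ⟩

end HI

/-! ### the fields `F1 M` and `F1p M p` -/

/-- every division value is algebraic over `ℚ(j)`. -/
def DivRel (M : ℕ) : Prop := ∀ a : ZMod M, a ≠ 0 → AlgRel ℚ jq (divGen M a)

section F1

variable (L : Type*) [Field L] [Algebra ℚ L]

theorem JK_rat : JK ℚ = jq := by
  rw [JK, coeffEmb]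
  exact coeffMap_id jq

/-- `j(q^d)` is algebraic over `ℚ(j)` (S24). -/
theorem algRel_jqd (d : ℕ) [NeZero d] : AlgRel ℚ jq (qExpand ℚ d jq) := by
  have hmem : qExpand ℚ d jq ∈ AK ℚ d := by
    refine Algebra.subset_adjoin ⟨qExpand ℚ d jq, mem_divisorExpansions d dvd_rfl, ?_⟩
    rw [coeffEmb]
    exact coeffMap_id _
  obtain ⟨Q, hQ0, -, hQ⟩ := algDeg_of_mem_AK (algebraMap ℚ ℂ) (hyp_complex_card d) hmem
  rw [JK_rat] at hQ
  exact ⟨Q, hQ0, hQ⟩

theorem algRel_coeffEmb {J x : LaurentSeries ℚ} (h : AlgRel ℚ J x) :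
    AlgRel L (coeffEmb L J) (coeffEmb L x) :=
  h.coeffMap (algebraMap ℚ L)

theorem algRel_qExpand {K : Type*} [Field K] (p : ℕ) [NeZero p] {J x : LaurentSeries K}
    (h : AlgRel K J x) : AlgRel K (qExpand K p J) (qExpand K p x) := by
  obtain ⟨Q, hQ0, hQ⟩ := h
  exact ⟨Q, hQ0, by rw [eval₂_evJ_qExpand, hQ, map_zero]⟩

theorem aeval_coeffEmb_jq_ne_zero {t : L[X]} (ht : t ≠ 0) : aeval (coeffEmb L jq) t ≠ 0 :=
  aeval_JK_ne_zero L ht

theorem aeval_qExpand_ne_zero {K : Type*} [Field K] (p : ℕ) [NeZero p] {J : LaurentSeries K}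
    (hJ : ∀ t : K[X], t ≠ 0 → aeval J t ≠ 0) {t : K[X]} (ht : t ≠ 0) :
    aeval (qExpand K p J) t ≠ 0 := by
  have h := Polynomial.aeval_algHom_apply (qExpandAlgHomC K p) J t
  rw [qExpandAlgHomC_apply, qExpandAlgHomC_apply] at h
  rw [h, Ne, inf_qExpand_eq_zero_iff]
  exact hJ t ht

/-- the generators of `F1 M`. -/
def gensF1 (M : ℕ) : Set (LaurentSeries ℚ) := divisorExpansions M ∪ divGens M

theorem finite_divisorExpansions (M : ℕ) [NeZero M] : (divisorExpansions M).Finite := by
  classical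
  refine ((M.divisors : Set ℕ).toFinite.image
    (fun d => if h : d = 0 then (0 : LaurentSeries ℚ) else
      haveI : NeZero d := ⟨h⟩
      qExpand ℚ d jq)).subset ?_
  rintro x ⟨d, hne, hd, rfl⟩
  refine ⟨d, ?_, ?_⟩
  · exact Finset.mem_coe.mpr (Nat.mem_divisors.mpr ⟨hd, NeZero.ne M⟩)
  · simp only
    rw [dif_neg (NeZero.ne d)]

theorem finite_divGens (M : ℕ) [NeZero M] : (divGens M).Finite := by
  refine ((Set.finite_univ (α := ZMod M)).image (fun a => divGen M a)).subset ?_
  rintro x ⟨a, -, rfl⟩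
  exact ⟨a, Set.mem_univ _, rfl⟩

theorem finite_gensF1 (M : ℕ) [NeZero M] : (gensF1 M).Finite :=
  (finite_divisorExpansions M).union (finite_divGens M)

theorem F1_eq_adjoin (M : ℕ) : F1 M = IntermediateField.adjoin ℚ (gensF1 M) := rfl

theorem F1p_eq_adjoin (M p : ℕ) [NeZero p] :
    F1p M p = IntermediateField.adjoin ℚ (gensF1 M ∪ ⇑(qExpandₐ p) '' gensF1 M) := by
  rw [F1p, _root_.Fermat.Agent.S48.H150.F1_eq_adjoin, IntermediateField.adjoin_map, IntermediateField.adjoin_union]

theorem F1L_eq_adjoin (M : ℕ) :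
    F1L L M = IntermediateField.adjoin L (⇑(coeffEmb L) '' gensF1 M) := by
  rw [F1L, _root_.Fermat.Agent.S48.H150.F1_eq_adjoin]
  exact H368.laurentBaseChange_adjoin L _

theorem F1pL_eq_adjoin (M p : ℕ) [NeZero p] :
    F1pL L M p = IntermediateField.adjoin L
      (⇑(coeffEmb L) '' (gensF1 M ∪ ⇑(qExpandₐ p) '' gensF1 M)) := by
  rw [F1pL, _root_.Fermat.Agent.S48.H150.F1p_eq_adjoin]
  exact H368.laurentBaseChange_adjoin L _

variable {L}

theorem algRel_gensF1 {M : ℕ} (hP : DivRel M) {s : LaurentSeries ℚ} (hs : s ∈ gensF1 M) :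
    AlgRel ℚ jq s := by
  rcases hs with ⟨d, hne, -, rfl⟩ | ⟨a, ha, rfl⟩
  · haveI := hne
    exact algRel_jqd d
  · exact hP a ha

variable (L)

attribute [-instance] Fermat.Agent.Fast891.algLaurentBaseChange in /-- **`L·F1(M)` is a function field of one variable**: finite over `L(j)`. -/
theorem exists_coord_F1L (M : ℕ) [NeZero M] (hP : DivRel M) :
    ∃ x : F1L L M, Transcendental L x ∧ FiniteDimensional L⟮x⟯ (F1L L M) := by
  rw [F1L_eq_adjoin]
  have hJ : ∀ t : L[X], t ≠ 0 → aeval (coeffEmb L jq) t ≠ 0 := fun t ht =>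
    aeval_coeffEmb_jq_ne_zero L ht
  have hjmem : jq ∈ gensF1 M := by
    have h := mem_divisorExpansions M (one_dvd M)
    rw [qExpand_one_apply] at h
    exact Or.inl h
  have hJT : coeffEmb L jq ∈ IntermediateField.adjoin L (⇑(coeffEmb L) '' gensF1 M) :=
    IntermediateField.subset_adjoin L _ ⟨jq, hjmem, rfl⟩
  refine exists_coord_of_gens (J := coeffEmb L jq) (J' := coeffEmb L jq) _
    ((finite_gensF1 M).image _) hJT hJT hJ hJ
    (algRel_coeffEmb L (algRel_gensF1 hP hjmem)) ?_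
  rintro _ ⟨s, hs, rfl⟩
  exact Or.inl (algRel_coeffEmb L (algRel_gensF1 hP hs))

attribute [-instance] Fermat.Agent.Fast891.algLaurentBaseChange in /-- **`L·F1(M; p)` is a function field of one variable**: finite over `L(j)`. -/
theorem exists_coord_F1pL (M p : ℕ) [NeZero M] [NeZero p] (hP : DivRel M) :
    ∃ x : F1pL L M p, Transcendental L x ∧ FiniteDimensional L⟮x⟯ (F1pL L M p) := by
  rw [F1pL_eq_adjoin]
  have hJ : ∀ t : L[X], t ≠ 0 → aeval (coeffEmb L jq) t ≠ 0 := fun t ht =>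
    aeval_coeffEmb_jq_ne_zero L ht
  have hJ' : ∀ t : L[X], t ≠ 0 → aeval (coeffEmb L (qExpand ℚ p jq)) t ≠ 0 := by
    intro t ht
    rw [← qExpand_coeffEmb]
    exact aeval_qExpand_ne_zero p hJ ht
  have hjmem : jq ∈ gensF1 M := by
    have h := mem_divisorExpansions M (one_dvd M)
    rw [qExpand_one_apply] at h
    exact Or.inl h
  have hJT : coeffEmb L jq ∈ IntermediateField.adjoin L
      (⇑(coeffEmb L) '' (gensF1 M ∪ ⇑(qExpandₐ p) '' gensF1 M)) :=
    IntermediateField.subset_adjoin L _ ⟨jq, Or.inl hjmem, rfl⟩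
  have hJ'T : coeffEmb L (qExpand ℚ p jq) ∈ IntermediateField.adjoin L
      (⇑(coeffEmb L) '' (gensF1 M ∪ ⇑(qExpandₐ p) '' gensF1 M)) :=
    IntermediateField.subset_adjoin L _ ⟨qExpand ℚ p jq, Or.inr ⟨jq, hjmem, rfl⟩, rfl⟩
  refine exists_coord_of_gens (J := coeffEmb L jq) (J' := coeffEmb L (qExpand ℚ p jq)) _
    (((finite_gensF1 M).union ((finite_gensF1 M).image _)).image _) hJT hJ'T hJ hJ'
    (algRel_coeffEmb L (algRel_jqd p)) ?_
  rintro _ ⟨s, hs | ⟨s', hs', rfl⟩, rfl⟩
  · exact Or.inl (algRel_coeffEmb L (algRel_gensF1 hP hs))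
  · exact Or.inr (algRel_coeffEmb L (algRel_qExpand p (algRel_gensF1 hP hs')))

end F1

/-! ### `CorrInputs` for the degeneracy maps -/

section Corr

variable (L : Type*) [Field L] [Algebra ℚ L] [IsAlgClosed L] [CharZero L]

/-- **HI1** for `T_p = α_* β^*` (any `M, p ≠ 0`), from `DivRel M`. -/
theorem corrInputs_beta_alpha (M p : ℕ) [NeZero M] [NeZero p] (hP : DivRel M) :
    CorrInputs (beta1 L M p) (alpha1 L M p) :=
  corrInputs_of_coord (_root_.Fermat.Agent.S48.H150.exists_coord_F1L L M hP) (_root_.Fermat.Agent.S48.H150.exists_coord_F1pL L M p hP) _ _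

/-- **HI1** for the transposed correspondence `β_* α^*`. -/
theorem corrInputs_alpha_beta (M p : ℕ) [NeZero M] [NeZero p] (hP : DivRel M) :
    CorrInputs (alpha1 L M p) (beta1 L M p) :=
  corrInputs_of_coord (_root_.Fermat.Agent.S48.H150.exists_coord_F1L L M hP) (_root_.Fermat.Agent.S48.H150.exists_coord_F1pL L M p hP) _ _

end Corr

end Fermat.Agent.S48.H150

end
end
-- ===== PACK-END S48/H150/F1Fin.lean

-- ===== PACK-BEGIN S48/H150/HI1.lean
section




/-!
# S48 / Tower A1 / A1-FF, leaves FF-ALG + HI1 (helper150), part 3: the unconditional statements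

From helper76's analytic avatar `H76.pFun M a` of the division value `P_a`
(`infExp_pFun`, `pFun_mem_holN`, `pFun_smul_Gamma1`):

* `divRel M`            : every `P_a` is a root of a nonzero polynomial over `ℚ[j]`       (FF-ALG);
* `exists_coord_F1`, `exists_coord_F1p` : `L·F1(M)` and `L·F1(M; p)` are finite over `L(j)`,
  for EVERY field `L ⊇ ℚ`;  `ff1_F1`, `ff1_F1p` : they are `FF1` (RR library) over `L = L̄`;
* `corrInputs_hecke`    : `F1.CorrInputs (beta1 L M p) (alpha1 L M p)`, all `M, p ≠ 0`;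
* `corrInputs_heckeT`   : `F1.CorrInputs (alpha1 L M p) (beta1 L M p)`;
* `hi1 : H136.HI1Statement`                                                                (HI1);
* `heckeL_eq`, `heckeTL_eq` : `F1.heckeL`, `F1.heckeTL` ARE the Prelude correspondences.
-/

set_option autoImplicit false
set_option linter.style.haveILetI false

noncomputable section

open Polynomial ModularCurve UpperHalfPlane CongruenceSubgroup AlgebraicCurve IntermediateField
open scoped MatrixGroups

namespace Fermat.Agent.S48.H150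

open Fermat.Agent.S24 Fermat.Agent.S24.H997 Fermat.Agent.S48.H828 Fermat.Agent.S48.F1

theorem gamma_le_gamma1 {M : ℕ} {γ : SL(2, ℤ)} (hγ : γ ∈ Gamma M) : γ ∈ Gamma1 M := by
  rw [Gamma_mem] at hγ
  rw [Gamma1_mem]
  exact ⟨hγ.1, hγ.2.2.2, hγ.2.2.1⟩

/-- the avatar of `P_a` lies in `iactRing` over `ℂ`. -/
theorem pFun_mem_iactRing_C (M : ℕ) [NeZero M] (a : ZMod M) :
    H76.pFun M a ∈ iactRing (RingHom.id ℂ) M :=
  mem_iactRing_of_holN (H76.pFun_mem_holN M a) fun γ hγ =>
    funext fun τ => H76.pFun_smul_Gamma1 M a γ (gamma_le_gamma1 hγ) τ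

/-- **FF-ALG.**  Every division value `P_a` is a root of a nonzero polynomial over `ℚ[j]`. -/
theorem divRel (M : ℕ) [NeZero M] : DivRel M := fun a ha => by
  refine algRel_rat_of_infExp (pFun_mem_iactRing_C M a) ?_
  have h := H76.infExp_pFun M ha
  rwa [← coeffMap_divGenC (algebraMap ℚ ℂ), divGenC_rat] at h

section Field

variable (L : Type*) [Field L] [Algebra ℚ L]

/-- `L·F1(M)` is finite over `L(j)`. -/
theorem exists_coord_F1 (M : ℕ) [NeZero M] :
    ∃ x : F1L L M, Transcendental L x ∧ FiniteDimensional L⟮x⟯ (F1L L M) :=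
  _root_.Fermat.Agent.S48.H150.exists_coord_F1L L M (divRel M)

/-- `L·F1(M; p)` is finite over `L(j)`. -/
theorem exists_coord_F1p (M p : ℕ) [NeZero M] [NeZero p] :
    ∃ x : F1pL L M p, Transcendental L x ∧ FiniteDimensional L⟮x⟯ (F1pL L M p) :=
  _root_.Fermat.Agent.S48.H150.exists_coord_F1pL L M p (divRel M)

variable [IsAlgClosed L] [CharZero L]

/-- `L·F1(M)` is a function field of one variable in the sense of the RR library. -/
theorem ff1_F1 (M : ℕ) [NeZero M] : Fermat.Agent.Lib.RR.FF1 L (F1L L M) := by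
  obtain ⟨x, hx, hfin⟩ := exists_coord_F1 L M
  haveI := hfin
  exact Fermat.Agent.Lib.RR.H864.ff1 x hx

/-- `L·F1(M; p)` is a function field of one variable in the sense of the RR library. -/
theorem ff1_F1p (M p : ℕ) [NeZero M] [NeZero p] : Fermat.Agent.Lib.RR.FF1 L (F1pL L M p) := by
  obtain ⟨x, hx, hfin⟩ := exists_coord_F1p L M p
  haveI := hfin
  exact Fermat.Agent.Lib.RR.H864.ff1 x hx

/-- **HI1** for `T_p = α_* β^*`, every `M, p ≠ 0`. -/
theorem corrInputs_hecke (M p : ℕ) [NeZero M] [NeZero p] :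
    CorrInputs (beta1 L M p) (alpha1 L M p) :=
  corrInputs_beta_alpha L M p (divRel M)

/-- **HI1** for the transposed correspondence `β_* α^*`. -/
theorem corrInputs_heckeT (M p : ℕ) [NeZero M] [NeZero p] :
    CorrInputs (alpha1 L M p) (beta1 L M p) :=
  corrInputs_alpha_beta L M p (divRel M)

/-- `F1.heckeL` is the Prelude correspondence `α_* β^*`. -/
theorem heckeL_eq (M p : ℕ) [NeZero M] [NeZero p] :
    ∃ (hβ : (beta1 L M p).toRingHom.IsIntegral) (hα : (alpha1 L M p).toRingHom.IsIntegral)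
      (_ : HasPrincipalDivisors L (F1pL L M p)) (hfin : FiniteAlong L (alpha1 L M p))
      (hFI : FundamentalIdentityAlong L (beta1 L M p) hβ)
      (hN : NormFormulaAlong L (alpha1 L M p) hfin),
      heckeL L M p = Pic0.correspondence (beta1 L M p) (alpha1 L M p) hβ hα hFI hfin hN := by
  obtain ⟨hβ, hα, hP, hfin, hFI, hN⟩ := corrInputs_hecke L M p
  exact ⟨hβ, hα, hP, hfin, hFI, hN, corrOp_eq _ _ hβ hα hFI hfin hN⟩

/-- `F1.heckeTL` is the Prelude correspondence `β_* α^*`. -/
theorem heckeTL_eq (M p : ℕ) [NeZero M] [NeZero p] :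
    ∃ (hα : (alpha1 L M p).toRingHom.IsIntegral) (hβ : (beta1 L M p).toRingHom.IsIntegral)
      (_ : HasPrincipalDivisors L (F1pL L M p)) (hfin : FiniteAlong L (beta1 L M p))
      (hFI : FundamentalIdentityAlong L (alpha1 L M p) hα)
      (hN : NormFormulaAlong L (beta1 L M p) hfin),
      heckeTL L M p = Pic0.correspondence (alpha1 L M p) (beta1 L M p) hα hβ hFI hfin hN := by
  obtain ⟨hα, hβ, hP, hfin, hFI, hN⟩ := corrInputs_heckeT L M p
  exact ⟨hα, hβ, hP, hfin, hFI, hN, corrOp_eq _ _ hα hβ hFI hfin hN⟩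

end Field

/-- **HI1** (helper136's shape `H136.HI1Statement`). -/
theorem hi1 : H136.HI1Statement := fun M p _ hM _ _ => by
  haveI : NeZero M := ⟨hM⟩
  exact corrInputs_hecke Fermat.Agent.S18.Qb M p

end Fermat.Agent.S48.H150

end
end
-- ===== PACK-END S48/H150/HI1.lean

-- ===== PACK-BEGIN S48/H332/PkgTaylor.lean
section


/-!
# Tower A1 / A1-FF, piece PKG-GEN (helper332) — finite-point data from Taylor expansions

GENERIC port of `S24/Mod/H997Taylor.lean`: for a `GenBase` whose ring `Hol` consists of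
holomorphic functions and whose avatar of `j` is the `j`-function, the three point-data fields of
`GenCore` are constructed from helper624's Taylor/rotation package (`S24.H624`) and helper47's
local orders of `j` (`S24.M7.H47`).
-/

set_option autoImplicit false
set_option linter.style.haveILetI false
set_option linter.unusedVariables false

noncomputable section

open ModularCurve HahnSeries UpperHalfPlane ModularForm EisensteinSeries
open scoped MatrixGroups Manifold

namespace Fermat.Agent.S48.H332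

open Fermat.Agent.S24 Fermat.Agent.S24.H997
open Fermat.Agent.S24.H624 Fermat.Agent.S20.L1 Fermat.Agent.S24.M7.H47

variable {M : ℕ} [NeZero M] {Γ : Subgroup SL(2, ℤ)} {P : GenField}

/-- `Hol` consists of holomorphic functions and the avatar of `j` is the `j`-function. -/
structure GenBase.IsHolo (B : GenBase M Γ P) : Prop where
  mdiff : ∀ f ∈ B.Hol, f ∈ holoRing
  G_j : B.G jBar = jFun

namespace GenBase

variable (B : GenBase M Γ P) (hB : B.IsHolo)

/-- the inclusion `Hol → holoRing` -/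
def toHolo : B.Hol →+* holoRing where
  toFun h := ⟨h.1, hB.mdiff h.1 h.2⟩
  map_one' := rfl
  map_mul' _ _ := rfl
  map_zero' := rfl
  map_add' _ _ := rfl

theorem toHolo_injective : Function.Injective (B.toHolo hB) := by
  intro x y h
  exact Subtype.ext (congrArg (fun f : holoRing => (f : ℍ → ℂ)) h)

theorem toHolo_compH (ε : SL(2, ℤ)) (h : B.Hol) :
    B.toHolo hB (B.compH ε h) = ε⁻¹ • B.toHolo hB h := by
  apply Subtype.ext
  funext τ
  rw [smul_holoRing_apply, inv_inv]
  rfl

/-- the Taylor expansion at `τ₀` as a `GenExpansion` -/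
def taylorExpansion (τ₀ : ℍ) : GenExpansion B where
  E := (taylorLaurent τ₀).comp (B.toHolo hB)
  inj := (taylorLaurent_injective τ₀).comp (B.toHolo_injective hB)
  const c := by
    show HahnSeries.ofPowerSeries ℤ ℂ (taylorAt τ₀ (B.toHolo hB (B.constH c))) = HahnSeries.C c
    have : B.toHolo hB (B.constH c) = algebraMap ℂ holoRing c := rfl
    rw [this, AlgHom.commutes, PowerSeries.algebraMap_apply, Algebra.algebraMap_self,
      RingHom.id_apply, HahnSeries.ofPowerSeries_C]

theorem taylorExpansion_E (τ₀ : ℍ) (h : B.Hol) :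
    (B.taylorExpansion hB τ₀).E h
      = laurentAt τ₀ (algebraMap holoRing MerH (B.toHolo hB h)) :=
  (laurentAt_algebraMap τ₀ _).symm

/-- rotation data at a fixed point -/
def taylorRot {τ₀ : ℍ} {ε : SL(2, ℤ)} (hε : ε • τ₀ = τ₀) (m : ℕ) (hm : 0 < m)
    (hζ : IsPrimitiveRoot (rotFactor ε⁻¹ τ₀) m) :
    GenRotData B (B.taylorExpansion hB τ₀) ε where
  m := m
  m_pos := hm
  ζ := rotFactor ε⁻¹ τ₀
  hζ := hζ
  rot h := by
    have hfix : ε⁻¹ • τ₀ = τ₀ := inv_smul_of_fixed hε
    rw [taylorExpansion_E, taylorExpansion_E, toHolo_compH, ← smul_algebraMap_MerH]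
    exact laurentAt_smul_fixed_rotFactor hfix _

/-- trivial rotation data -/
def trivialRot (X : GenExpansion B) : GenRotData B X 1 where
  m := 1
  m_pos := one_pos
  ζ := 1
  hζ := IsPrimitiveRoot.one
  rot h := by
    rw [B.compH_one]
    exact ⟨rfl, by simp⟩

theorem taylor_order_J (τ₀ : ℍ) (a : ℂ) (ha : jFun τ₀ = a) (m : ℕ)
    (hord : analyticOrderAt (fun w : ℂ => jFun (ofComplex w) - jFun τ₀) (τ₀ : ℂ) = m) :
    ((B.taylorExpansion hB τ₀).E (B.JH - B.constH a)).order = (m : ℤ) := by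
  show (HahnSeries.ofPowerSeries ℤ ℂ (taylorAt τ₀ (B.toHolo hB _))).order = _
  apply order_ofPowerSeries
  rw [order_taylorAt, ordAt_def, ← hord]
  congr 1
  funext w
  show B.G jBar (ofComplex w) - a = _
  rw [hB.G_j, ha]

/-- the point data over a generic value -/
def genericPoint (a : ℂ) (h0 : a ≠ 0) (h1 : a ≠ 1728) : GenPointData B a 1 :=
  let τ₀ : ℍ := (jFun_surjective a).choose
  have hτ₀ : jFun τ₀ = a := (jFun_surjective a).choose_spec
  { X := B.taylorExpansion hB τ₀
    R := B.trivialRot _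
    order_J := by
      have h4 : E₄ τ₀ ≠ 0 := fun h => h0 (hτ₀ ▸ (jFun_eq_zero_iff τ₀).mpr h)
      have h6 : E₆ τ₀ ≠ 0 := fun h => h1 (hτ₀ ▸ (jFun_eq_1728_iff τ₀).mpr h)
      have := B.taylor_order_J hB τ₀ a hτ₀ 1
        (by exact_mod_cast analyticOrderAt_jFun_sub_generic h4 h6)
      exact this }

/-- the base point of the generic point data over `a` -/
def genericBase (a : ℂ) : ℍ := (jFun_surjective a).choose

theorem jFun_genericBase (a : ℂ) : jFun (genericBase a) = a := (jFun_surjective a).choose_spec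

theorem genericPoint_X (a : ℂ) (h0 : a ≠ 0) (h1 : a ≠ 1728) :
    (B.genericPoint hB a h0 h1).X = B.taylorExpansion hB (genericBase a) := rfl

/-- the point data over `1728` (at `i`, rotation by `S`) -/
def point1728 : GenPointData B 1728 ModularGroup.S where
  X := B.taylorExpansion hB UpperHalfPlane.I
  R := B.taylorRot hB (τ₀ := UpperHalfPlane.I) (ε := ModularGroup.S)
    Fermat.Agent.S24.H624.S_smul_I 2 two_pos
    (isPrimitiveRoot_rotFactor_two (inv_smul_of_fixed Fermat.Agent.S24.H624.S_smul_I)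
      (by rw [trace_inv_SL]; exact trace_S))
  order_J := by
    have := B.taylor_order_J hB UpperHalfPlane.I 1728 jFun_I 2
      (by exact_mod_cast analyticOrderAt_jFun_sub_of_E₆ _root_.Fermat.Agent.S24.M7.H47.E₆_I)
    exact this

/-- the point data over `0` (at `ρ`, rotation by `S * T`) -/
def point0 : GenPointData B 0 (ModularGroup.S * ModularGroup.T) where
  X := B.taylorExpansion hB rho
  R := B.taylorRot hB (τ₀ := rho) (ε := ModularGroup.S * ModularGroup.T)
    ST_smul_rho 3 (by norm_num)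
    (isPrimitiveRoot_rotFactor_three (inv_smul_of_fixed ST_smul_rho)
      (by rw [trace_inv_SL]; exact Or.inl trace_ST))
  order_J := by
    have := B.taylor_order_J hB rho 0 jFun_rho 3
      (by exact_mod_cast analyticOrderAt_jFun_sub_of_E₄ E₄_rho)
    exact this

/-- **`GenCore` from a holomorphic `GenBase` with `T`-shift.** -/
def toGenCore (ζ : ℂ) (hζ : IsPrimitiveRoot ζ M)
    (hshift : ∀ (h : B.Hol) (n : ℤ),
      (B.qexp (B.compH ModularGroup.T h)).coeff n = ζ ^ n * (B.qexp h).coeff n) :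
    GenCore M Γ P where
  toGenBase := B
  generic := B.genericPoint hB
  at1728 := B.point1728 hB
  at0 := B.point0 hB
  infζ := ζ
  inf_hζ := hζ
  inf_shift := hshift
  generic_m _ _ _ := rfl
  at1728_m := rfl
  at0_m := rfl

end GenBase

end Fermat.Agent.S48.H332

end
end
-- ===== PACK-END S48/H332/PkgTaylor.lean

-- ===== PACK-BEGIN S48/H332/PkgMain.lean
section


/-!
# Tower A1 / A1-FF, piece PKG-GEN (helper332) — the concrete generic package

`GenData M Γ P` = the analytic INPUT for a field `P.F = ℚ̄(S)` of modular functions for `Γ`: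
for every generator `s ∈ S` an avatar `G s ∈ S24.holN M` (holomorphic on `ℍ`, every
`SL₂(ℤ)`-translate has an expansion in `exp(2πiτ/M)`), `Γ`-invariant, with expansion `s(z^M)` at
`i∞`, the avatar of `j` being the `j`-function, and the avatars jointly distinguishing the cosets
of `Γ`.

OUTPUT: `GenData.core : GenCore M Γ P` (the generic analytic core, with `Hol = holN M`), hence
`GenData.package hfd hle : GenPackage M Γ P` from the degree bound
`[F : ℚ̄(j)] ≤ |SL₂(ℤ)/Γ|`, and `card_le_finrank` unconditionally.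
-/

set_option autoImplicit false
set_option linter.style.haveILetI false
set_option linter.unusedVariables false
set_option linter.unusedSectionVars false

noncomputable section

open ModularCurve HahnSeries UpperHalfPlane ModularForm EisensteinSeries
open scoped MatrixGroups Manifold Real

namespace Fermat.Agent.S48.H332

open Fermat.Agent.S24 Fermat.Agent.S24.H997
open Fermat.Agent.S24.H624 Fermat.Agent.S20.L1

/-- From the `q`-expansion (`q = exp(2πiτ)`) to the expansion in `z = exp(2πiτ/M)`. -/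
theorem infExp_level {f : ℍ → ℂ} {φ : LaurentSeries ℂ} (hf : InfExp 1 f φ) (M : ℕ) [NeZero M] :
    InfExp M f (qExpand ℂ M φ) := by
  have hM : 0 < M := Nat.pos_of_ne_zero (NeZero.ne M)
  have h := hf.comp_infAff (M := 1) (N := M) (a := 1) (d := 1) (e := M) 0 one_pos one_pos
    one_pos hM (by ring)
  rw [infRoot_zero, infTwist_one] at h
  refine h.congr fun τ => ?_
  congr 1
  apply UpperHalfPlane.ext
  rw [infAff_coe one_pos one_pos]
  simp

/-- From the `q`-expansion with coefficients in `ℚ̄` to the expansion `Φ M s`. -/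
theorem infExp_Φ {f : ℍ → ℂ} {s : LaurentSeries Kbar} (hf : InfExp 1 f (coeffMap ιK s))
    (M : ℕ) [NeZero M] : InfExp M f (HolBase.Φ M s) :=
  infExp_level hf M

/-- **Analytic input** for a field of modular functions for `Γ` generated by `P.S`. -/
structure GenData (M : ℕ) [NeZero M] (Γ : Subgroup SL(2, ℤ)) (P : GenField) where
  /-- the avatar of a generator -/
  G : LaurentSeries Kbar → ℍ → ℂ
  G_mem : ∀ s, s ∈ P.S → G s ∈ holN M
  G_j : G jBar = jFun
  G_inv : ∀ s, s ∈ P.S → ∀ g ∈ Γ, ∀ τ : ℍ, G s (g • τ) = G s τ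
  G_distinct : ∀ g : SL(2, ℤ), (∀ s, s ∈ P.S → ∀ τ : ℍ, G s (g • τ) = G s τ) → g ∈ Γ
  G_exp : ∀ s, s ∈ P.S → InfExp M (G s) (HolBase.Φ M s)

namespace GenData

variable {M : ℕ} [NeZero M] {Γ : Subgroup SL(2, ℤ)} {P : GenField} (D : GenData M Γ P)

/-- **The concrete `GenBase`**, with `Hol = holN M`. -/
def base : GenBase M Γ P where
  Hol := holN M
  const_mem := const_mem_holN M
  comp_mem := comp_mem_holN M
  G := D.G
  G_mem := D.G_mem
  G_j_inv g τ := by rw [D.G_j]; exact jFun_smul' g τ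
  G_inv := D.G_inv
  G_distinct := D.G_distinct
  qexp := (expInf M).comp (holToExp M)
  qexp_injective := expInf_injective.comp (holToExp_injective M)
  qexp_const c := (InfExp.const c).expInf_eq
  qexp_G s hs := (D.G_exp s hs).expInf_eq

@[simp] theorem base_Hol : D.base.Hol = holN M := rfl

theorem base_qexp_spec (h : D.base.Hol) : InfExp M (h : ℍ → ℂ) (D.base.qexp h) :=
  expInf_spec (holToExp M h)

theorem base_isHolo : D.base.IsHolo where
  mdiff f hf := hf.1
  G_j := D.G_j

theorem base_shift (h : D.base.Hol) (n : ℤ) :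
    (D.base.qexp (D.base.compH ModularGroup.T h)).coeff n
      = ((infRoot 1 M : ℂˣ) : ℂ) ^ n * (D.base.qexp h).coeff n := by
  have hf : InfExp M (h : ℍ → ℂ) (D.base.qexp h) := expInf_spec (holToExp M h)
  have hT := hf.comp_translate 1
  have hT' : InfExp M ((D.base.compH ModularGroup.T h : D.base.Hol) : ℍ → ℂ)
      (infTwist (infRoot 1 M) (D.base.qexp h)) := by
    refine hT.congr fun τ => ?_
    show (h : ℍ → ℂ) (infAff 1 1 1 τ) = (h : ℍ → ℂ) (ModularGroup.T • τ)
    rw [T_smul_eq_infAff]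
  have heq : D.base.qexp (D.base.compH ModularGroup.T h)
      = infTwist (infRoot 1 M) (D.base.qexp h) :=
    (expInf_spec (holToExp M (D.base.compH ModularGroup.T h))).unique hT'
  rw [heq, infTwist_coeff, Units.val_zpow_eq_zpow_val, mul_comm]

/-- **The generic analytic core exists.** -/
def core : GenCore M Γ P :=
  D.base.toGenCore D.base_isHolo _ (isPrimitiveRoot_infRoot M) D.base_shift

@[simp] theorem core_toGenBase : D.core.toGenBase = D.base := rfl

/-- `|SL₂(ℤ)/Γ| ≤ [F : ℚ̄(j)]`. -/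
theorem card_le_finrank (D : GenData M Γ P)
    [FiniteDimensional ↥(IntermediateField.adjoin Kbar {P.jF}) P.F] :
    Nat.card (XG Γ) ≤ Module.finrank ↥(IntermediateField.adjoin Kbar {P.jF}) P.F :=
  GenCore.card_le_finrank D.core

/-- **The generic modular package** from the analytic input and the degree bound. -/
def package (hfd : FiniteDimensional ↥(IntermediateField.adjoin Kbar {P.jF}) P.F)
    (hle : Module.finrank ↥(IntermediateField.adjoin Kbar {P.jF}) P.F ≤ Nat.card (XG Γ)) :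
    GenPackage M Γ P :=
  D.core.toPackage hfd hle

/-! ### The embeddings of the package, analytically -/

/-- the bridge sends `r ∈ ℚ̄[S]` to THE function in `holN M` with expansion `Φ r` at `i∞` -/
theorem infExp_bridge (r : P.RG) :
    InfExp M (D.base.bridge r : ℍ → ℂ) (HolBase.Φ M (r : LaurentSeries Kbar)) := by
  have h := D.base_qexp_spec (D.base.bridge r)
  rwa [D.base.qexp_bridge] at h

/-- the expansion at `i∞` of the `g`-th conjugate: `σ_g (r) = qexp (e r ∘ g⁻¹)` -/
theorem infExp_sigmaG (g : SL(2, ℤ)) (r : P.RG) :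
    InfExp M (compSL g⁻¹ (D.base.bridge r : ℍ → ℂ))
      (D.base.sigmaG D.base.qexpExpansion g (P.inclRG r)) := by
  rw [GenBase.sigmaG_inclRG]
  exact D.base_qexp_spec _

end GenData

end Fermat.Agent.S48.H332

end
end
-- ===== PACK-END S48/H332/PkgMain.lean

-- ===== PACK-BEGIN S48/H332/PkgDeg.lean
section




/-!
# Tower A1 / A1-FF, piece DEG-GEN (helper332) — the degree of `ℚ̄(S)` over `ℚ̄(j)`, unconditionally

For analytic input `D : GenData M Γ P` with `Γ` of finite index:

* `GenData.hypG`          : every element of `ℂ[S]` is a root of a monic polynomial of degree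
                            `|SL₂(ℤ)/Γ|` over `ℂ[j]` (conjugate product, inside the ring `holN M`);
* `GenData.degree_fields` : `F/ℚ̄(j)` is finite of degree `≤ |SL₂(ℤ)/Γ|`;
* `GenData.finrank_eq`    : `[F : ℚ̄(j)] = |SL₂(ℤ)/Γ|`;
* `GenData.pkg`           : the generic modular package `GenPackage M Γ P`, UNCONDITIONALLY.
-/

set_option autoImplicit false
set_option linter.style.haveILetI false
set_option linter.unusedVariables false
set_option linter.unusedSectionVars false

noncomputable section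

open ModularCurve HahnSeries UpperHalfPlane Polynomial
open scoped MatrixGroups Manifold Real

namespace Fermat.Agent.S48.H332

open Fermat.Agent.S24 Fermat.Agent.S24.H997 Fermat.Agent.S24.Deg457
open Fermat.Agent.S24.H624 Fermat.Agent.S20.L1

namespace GenData

variable {M : ℕ} [NeZero M] {Γ : Subgroup SL(2, ℤ)} {P : GenField} (D : GenData M Γ P)

/-- the generators over `ℂ` -/
def SC (P : GenField) : Set (LaurentSeries ℂ) := ⇑(coeffMap ιK) '' P.S

theorem JK_mem_SC : JK ℂ ∈ SC P :=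
  ⟨jBar, P.hj, coeffMap_JK ιK⟩

theorem jBar_eq_JK : jBar = JK Kbar := rfl

/-- constants as a ring hom `ℂ →+* Hol` -/
def constHom : ℂ →+* D.base.Hol where
  toFun c := D.base.constH c
  map_one' := rfl
  map_mul' _ _ := rfl
  map_zero' := rfl
  map_add' _ _ := rfl

/-- evaluation at a point as a ring hom `Hol →+* ℂ` -/
def evalHom (τ : ℍ) : D.base.Hol →+* ℂ where
  toFun h := (h : ℍ → ℂ) τ
  map_one' := rfl
  map_mul' _ _ := rfl
  map_zero' := rfl
  map_add' _ _ := rfl

theorem qExpand_algebraMap (c : ℂ) :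
    qExpand ℂ M (algebraMap ℂ (LaurentSeries ℂ) c) = HahnSeries.C c := by
  rw [algebraMap_laurentSeries_eq_single, qExpand_single, mul_zero]
  rfl

/-- every element of `ℂ[S]` is the expansion of a `Γ`-invariant element of `holN M` -/
theorem exists_hol_of_mem_adjoin {b : LaurentSeries ℂ} (hb : b ∈ Algebra.adjoin ℂ (SC P)) :
    ∃ h : D.base.Hol, (∀ γ ∈ Γ, ∀ τ : ℍ, (h : ℍ → ℂ) (γ • τ) = (h : ℍ → ℂ) τ) ∧
      D.base.qexp h = qExpand ℂ M b := by
  induction hb using Algebra.adjoin_induction with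
  | mem x hx =>
    obtain ⟨s, hs, rfl⟩ := hx
    exact ⟨D.base.GH hs, fun γ hγ τ => D.G_inv s hs γ hγ τ, D.base.qexp_GH hs⟩
  | algebraMap c =>
    refine ⟨D.base.constH c, fun _ _ _ => rfl, ?_⟩
    rw [qExpand_algebraMap]
    exact D.base.qexp_const c
  | add x y _ _ hx hy =>
    obtain ⟨f, hf, hfx⟩ := hx
    obtain ⟨g, hg, hgy⟩ := hy
    refine ⟨f + g, fun γ hγ τ => ?_, by rw [map_add, map_add, hfx, hgy]⟩
    show (f : ℍ → ℂ) (γ • τ) + (g : ℍ → ℂ) (γ • τ) = (f : ℍ → ℂ) τ + (g : ℍ → ℂ) τ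
    rw [hf γ hγ τ, hg γ hγ τ]
  | mul x y _ _ hx hy =>
    obtain ⟨f, hf, hfx⟩ := hx
    obtain ⟨g, hg, hgy⟩ := hy
    refine ⟨f * g, fun γ hγ τ => ?_, by rw [map_mul, map_mul, hfx, hgy]⟩
    show (f : ℍ → ℂ) (γ • τ) * (g : ℍ → ℂ) (γ • τ) = (f : ℍ → ℂ) τ * (g : ℍ → ℂ) τ
    rw [hf γ hγ τ, hg γ hγ τ]

theorem qexp_JH : D.base.qexp D.base.JH = qExpand ℂ M (JK ℂ) := by
  rw [GenBase.JH, GenBase.qexp_GH, ← coeffMap_JK ιK]
  rfl

theorem coe_JH : ((D.base.JH : D.base.Hol) : ℍ → ℂ) = jFun := D.G_j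

/-- the two ring homs `ℂ[X] → ℂ((z))` agree -/
theorem qexp_comp_eval₂ :
    (D.base.qexp).comp (Polynomial.eval₂RingHom D.constHom D.base.JH)
      = (qExpand ℂ M).comp (evJ (JK ℂ)) := by
  refine Polynomial.ringHom_ext ?_ ?_
  · intro c
    simp only [RingHom.coe_comp, Function.comp_apply, Polynomial.coe_eval₂RingHom,
      Polynomial.eval₂_C, evJ_apply, Polynomial.aeval_C]
    rw [qExpand_algebraMap]
    exact D.base.qexp_const c
  · simp only [RingHom.coe_comp, Function.comp_apply, Polynomial.coe_eval₂RingHom,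
      Polynomial.eval₂_X, evJ_apply, Polynomial.aeval_X]
    exact D.qexp_JH

theorem evalHom_comp_eval₂ (τ : ℍ) :
    (D.evalHom τ).comp (Polynomial.eval₂RingHom D.constHom D.base.JH)
      = Polynomial.evalRingHom (jFun τ) := by
  refine Polynomial.ringHom_ext ?_ ?_
  · intro c
    simp only [RingHom.coe_comp, Function.comp_apply, Polynomial.coe_eval₂RingHom,
      Polynomial.eval₂_C, Polynomial.coe_evalRingHom, Polynomial.eval_C]
    rfl
  · simp only [RingHom.coe_comp, Function.comp_apply, Polynomial.coe_eval₂RingHom,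
      Polynomial.eval₂_X, Polynomial.coe_evalRingHom, Polynomial.eval_X]
    show ((D.base.JH : D.base.Hol) : ℍ → ℂ) τ = jFun τ
    rw [D.coe_JH]

include D in
/-- **The interface hypothesis over `ℂ`**, unconditionally. -/
theorem hypG [Finite (XG Γ)] : HypG ℂ (SC P) (Nat.card (XG Γ)) := by
  intro b hb
  obtain ⟨h, hinv, hq⟩ := D.exists_hol_of_mem_adjoin hb
  letI : Fintype (SL(2, ℤ) ⧸ Γ) := Fintype.ofFinite _
  have hgood : IsGoodFor Γ (h : ℍ → ℂ) := isGoodFor_of_mem_holN (M := M) h.2 hinv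
  obtain ⟨Q, hQm, hQn, hQ⟩ := exists_gcharPoly_eval_eq_zero hgood
  refine ⟨Q, hQm, ?_, ?_⟩
  · rw [hQn, Nat.card_eq_fintype_card]
  · apply qExpand_injective (R := ℂ) M
    rw [map_zero, Polynomial.hom_eval₂, ← D.qexp_comp_eval₂, ← hq, ← Polynomial.hom_eval₂]
    have hz : Q.eval₂ (Polynomial.eval₂RingHom D.constHom D.base.JH) h = 0 := by
      apply Subtype.ext
      funext τ
      show D.evalHom τ (Q.eval₂ (Polynomial.eval₂RingHom D.constHom D.base.JH) h) = 0
      rw [Polynomial.hom_eval₂, D.evalHom_comp_eval₂, ← Polynomial.eval_map]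
      exact hQ τ
    rw [hz, map_zero]

include D in
/-- **The degree bound**: `F/ℚ̄(j)` is finite of degree `≤ |SL₂(ℤ)/Γ|`. -/
theorem degree_fields [Finite (XG Γ)] :
    FiniteDimensional ↥(IntermediateField.adjoin Kbar {P.jF}) P.F ∧
      Module.finrank ↥(IntermediateField.adjoin Kbar {P.jF}) P.F ≤ Nat.card (XG Γ) :=
  finiteDimensional_and_finrank_le_G ιK (S := P.S) P.hj P.F P.hF P.jF rfl _ D.hypG

include D in
theorem finiteDimensional [Finite (XG Γ)] :
    FiniteDimensional ↥(IntermediateField.adjoin Kbar {P.jF}) P.F :=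
  D.degree_fields.1

include D in
/-- **The degree**: `[F : ℚ̄(j)] = |SL₂(ℤ)/Γ|`. -/
theorem finrank_eq [Finite (XG Γ)] :
    Module.finrank ↥(IntermediateField.adjoin Kbar {P.jF}) P.F = Nat.card (XG Γ) :=
  haveI := D.finiteDimensional
  le_antisymm D.degree_fields.2 (GenCore.card_le_finrank D.core)

/-- **The generic modular package, unconditionally.** -/
def pkg [Finite (XG Γ)] : GenPackage M Γ P :=
  D.package D.degree_fields.1 D.degree_fields.2

end GenData

end Fermat.Agent.S48.H332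

end
end
-- ===== PACK-END S48/H332/PkgDeg.lean

-- ===== PACK-BEGIN Lib/Cheb/H221/QSum.lean
section







/-!
# CHEB-Q, piece Q-SUM: the quantitative prime sum in the class of `g` (helper221)

Situation of `Spec.CycStatement`; `c(p)` is the number of degree-one primes of `L^⟨g⟩` over `p`.
-/

set_option autoImplicit false

open NumberField IsDedekindDomain Filter Topology

namespace Fermat.Agent.Lib.Cheb.H221

set_option linter.unusedSectionVars false

/-- Q-SUM from the pieces (all hypotheses are interface statements). -/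
theorem cycSum_of_pieces (hEP : EulerProductStatement) (hDEG : TwistedPrimeSumStatement)
    (hABSQ : SpecQ.AbstractDirichletQStatement) (hALG : CycAlgStatement)
    (hZ : Spec.PrimeSumStatement) (hA : Spec.CountStatement) (hD : Spec.FrobStatement)
    (hM : Spec.FrobFiniteStatement) (hAN : Spec.DirichletLimitStatement) :
    SpecQ.CycSumStatement := by
  intro L _ _ _ m _ ζ hζ g hg
  classical
  obtain ⟨hord, B, hSUPP, hSPLIT, hNT, -⟩ := hALG hA hD hM L m ζ hζ g hg
  set a := hζ.autToPow ℚ g with ha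
  set c : Nat.Primes → ℝ := fun p => (Spec.primeCount (fixM L g) p : ℝ) with hc
  have hc0 : ∀ p, 0 ≤ c p := fun p => Nat.cast_nonneg _
  have hsumc : ∀ s : ℝ, 1 < s → s ≤ 2 →
      Summable (fun p : Nat.Primes => c p * (p : ℝ) ^ (-s)) :=
    fun s h1 _ => summable_primeCount (fixM L g) h1
  have hcne : ∀ p : Nat.Primes, c p ≠ 0 → Spec.primeCount (fixM L g) p ≠ 0 := by
    intro p hcp h
    apply hcp
    simp [hc, h]
  have hsupp : ∃ B : Finset ℕ, ∀ p : Nat.Primes, (p : ℕ) ∉ B → c p ≠ 0 →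
      ∃ u ∈ Subgroup.zpowers a, ((u : (ZMod m)ˣ) : ZMod m) = ((p : ℕ) : ZMod m) :=
    ⟨B, fun p hpB hcp => hSUPP p p.2 hpB (hcne p hcp)⟩
  have htot : ∃ C : ℝ, ∀ s : ℝ, 1 < s → s ≤ 2 →
      |(∑' p : Nat.Primes, c p * (p : ℝ) ^ (-s)) - Real.log (1 / (s - 1))| ≤ C :=
    hZ (fixM L g)
  have hone : ∃ C : ℝ, ∀ s : ℝ, 1 < s → s ≤ 2 →
      (Nat.card (Subgroup.zpowers a) : ℝ)⁻¹ * Real.log (1 / (s - 1)) - C ≤
        ∑' p : Nat.Primes, if ((p : ℕ) : ZMod m) = 1 then c p * (p : ℝ) ^ (-s) else 0 := by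
    obtain ⟨C', hC'⟩ := hZ (fixBot L)
    set CE : ℝ := ∑ p ∈ primesIn B, (Spec.primeCount (fixBot L) p : ℝ) with hCE
    have hn : (0 : ℝ) < Nat.card (Subgroup.zpowers a) := by exact_mod_cast Nat.card_pos
    refine ⟨(C' + CE) / Nat.card (Subgroup.zpowers a), fun s h1 h2 => ?_⟩
    set u : Nat.Primes → ℝ :=
      fun p => (Spec.primeCount (fixBot L) p : ℝ) * ((p : ℕ) : ℝ) ^ (-s) with hu
    set v : Nat.Primes → ℝ :=
      fun p => if ((p : ℕ) : ZMod m) = 1 then c p * ((p : ℕ) : ℝ) ^ (-s) else 0 with hv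
    have hpw : ∀ p : Nat.Primes, 0 ≤ (((p : ℕ) : ℝ)) ^ (-s) :=
      fun p => Real.rpow_nonneg (Nat.cast_nonneg _) _
    have hv0 : ∀ p, 0 ≤ v p := by
      intro p
      simp only [hv]
      split_ifs
      · exact mul_nonneg (hc0 p) (hpw p)
      · exact le_rfl
    have husum : Summable u := summable_primeCount (fixBot L) h1
    have hvsum : Summable v := by
      refine Summable.of_nonneg_of_le hv0 (fun p => ?_) (hsumc s h1 h2)
      simp only [hv]
      split_ifs
      · exact le_rfl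
      · exact mul_nonneg (hc0 p) (hpw p)
    have hdiff : ∀ p : Nat.Primes, p ∉ primesIn B →
        u p - (Nat.card (Subgroup.zpowers a) : ℝ) * v p = 0 := by
      intro p hp
      rw [mem_primesIn] at hp
      have h3 := hSPLIT p p.2 hp
      simp only [hu, hv, h3, hord, hc]
      split_ifs
      · push_cast
        ring
      · simp
    have h3 : (∑' p, u p) - (Nat.card (Subgroup.zpowers a) : ℝ) * ∑' p, v p =
        ∑ p ∈ primesIn B, (u p - (Nat.card (Subgroup.zpowers a) : ℝ) * v p) := by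
      rw [← tsum_mul_left, ← husum.tsum_sub (hvsum.mul_left _)]
      exact tsum_eq_sum hdiff
    have h4 : ∑ p ∈ primesIn B, (u p - (Nat.card (Subgroup.zpowers a) : ℝ) * v p) ≤ CE := by
      refine Finset.sum_le_sum fun p _ => ?_
      have h5 : u p ≤ (Spec.primeCount (fixBot L) p : ℝ) :=
        mul_le_of_le_one_right (Nat.cast_nonneg _) (rpow_neg_le_one p (by linarith))
      have h6 : 0 ≤ (Nat.card (Subgroup.zpowers a) : ℝ) * v p := mul_nonneg hn.le (hv0 p)
      linarith
    have h5 := hC' s h1 h2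
    rw [abs_le] at h5
    have h6 : Real.log (1 / (s - 1)) - (C' + CE) ≤
        (Nat.card (Subgroup.zpowers a) : ℝ) * ∑' p, v p := by
      have : (∑' p : Nat.Primes, (Spec.primeCount (fixBot L) p : ℝ) * (p : ℝ) ^ (-s)) =
          ∑' p, u p := rfl
      linarith [h5.1]
    have h7 : (Nat.card (Subgroup.zpowers a) : ℝ)⁻¹ * Real.log (1 / (s - 1)) -
        (C' + CE) / Nat.card (Subgroup.zpowers a) =
        (Real.log (1 / (s - 1)) - (C' + CE)) / Nat.card (Subgroup.zpowers a) := by
      field_simp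
    rw [h7, div_le_iff₀ hn, mul_comm]
    exact h6
  have hχ : ∀ χ : DirichletCharacter ℂ m,
      (∃ u ∈ Subgroup.zpowers a, χ ((u : (ZMod m)ˣ) : ZMod m) ≠ 1) →
      ∃ (Λ : ℝ → ℂ) (ℓ : ℂ) (C : ℝ), ContinuousOn Λ (Set.Ioi 1) ∧
        Tendsto (fun s => Complex.exp (Λ s)) (𝓝[>] 1) (𝓝 ℓ) ∧
        ∀ s : ℝ, 1 < s → s ≤ 2 →
          ‖Λ s - ∑' p : Nat.Primes, χ ((p : ℕ) : ZMod m) *
            ((c p * (p : ℝ) ^ (-s) : ℝ) : ℂ)‖ ≤ C := by
    rintro χ ⟨u, hu, hχu⟩
    have hχa : χ ((a : (ZMod m)ˣ) : ZMod m) ≠ 1 := by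
      intro h1
      apply hχu
      obtain ⟨k, rfl⟩ := Subgroup.mem_zpowers_iff.mp hu
      have h2 : χ.toUnitHom a = 1 := by
        ext
        rw [MulChar.coe_toUnitHom]
        simpa using h1
      have h3 : χ.toUnitHom (a ^ k) = 1 := by rw [map_zpow, h2, one_zpow]
      have h4 := congrArg Units.val h3
      rwa [MulChar.coe_toUnitHom] at h4
    obtain ⟨I, hI0, hI1⟩ := hNT χ hχa
    obtain ⟨ℓ, hℓ⟩ := hAN (fixM L g) m χ ⟨I, hI0, hI1⟩
    obtain ⟨CD, hCD⟩ := hDEG hZ (fixM L g) m χ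
    set Nn : HeightOneSpectrum (𝓞 (fixM L g)) → ℝ :=
      fun 𝔭 => (Ideal.absNorm 𝔭.asIdeal : ℝ) with hNn
    set cχ : HeightOneSpectrum (𝓞 (fixM L g)) → ℂ :=
      fun 𝔭 => χ (Ideal.absNorm 𝔭.asIdeal : ZMod m) with hcχdef
    have hN : ∀ 𝔭, 2 ≤ Nn 𝔭 := fun 𝔭 => by
      simp only [hNn]
      exact_mod_cast H761.two_le_absNorm (fixM L g) 𝔭
    have hsumN : ∀ s : ℝ, 1 < s → Summable (xs Nn s) :=
      fun s hs => H761.summable_primeSum (fixM L g) hs
    have hcχ : ∀ 𝔭, ‖cχ 𝔭‖ ≤ 1 := fun 𝔭 => DirichletCharacter.norm_le_one χ _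
    refine ⟨logEuler Nn cχ, ℓ, (∑' r, xs Nn 2 r) + CD,
      continuousOn_logEuler hN hsumN hcχ, ?_, ?_⟩
    · refine hℓ.congr' ?_
      filter_upwards [self_mem_nhdsWithin] with s hs
      exact (exp_logEuler_eq hN hsumN hcχ hs (hEP (fixM L g) m χ s hs)).symm
    · intro s h1 h2
      have e1 := norm_logEuler_sub_le hN hsumN hcχ h1
      have e2 := (hCD s h1 h2).2
      exact (norm_sub_le_norm_sub_add_norm_sub _ _ _).trans (add_le_add e1 e2)
  obtain ⟨C, hC⟩ := hABSQ m c hc0 hsumc (Subgroup.zpowers a) hsupp htot hone hχ a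
    (Subgroup.mem_zpowers a)
  refine ⟨C, fun s h1 h2 => ⟨hsumc s h1 h2, ?_⟩⟩
  have := hC s h1 h2
  rw [hord] at this
  exact this

/-- **Q-SUM**, unconditional. -/
theorem cycSum : SpecQ.CycSumStatement :=
  cycSum_of_pieces eulerProduct twistedPrimeSum abstractDirichletQ cycAlg
    H761.primeSum_statement H764.count H943.frobStatement frobFinite_main H44.dirichletLimit

end Fermat.Agent.Lib.Cheb.H221

end
-- ===== PACK-END Lib/Cheb/H221/QSum.lean

-- ===== PACK-BEGIN Lib/Cheb/ChebDensityOf.lean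
section








/-!
# CHEB-Q: the whole chain, conditional on the last open leaf Q-ALG (`SpecQ.CycCountStatement`)

    Q-SUM (H221) + Q-ALG ──► Q-CYC (O(1)-form, H993) ──► CROSS-Q (H968) ──► finite level
      ──► Q-SET (H993, with Q-DISJ H993) ──► Q-BR (H116) ──► client statements
-/

set_option autoImplicit false

namespace Fermat.Agent.Lib.Cheb

/-- finite level: primes with Frobenius class of `g` have lower density `≥ |C_g| / |G|` -/
theorem chebDensityFinite_of_cycCount (h : SpecQ.CycCountStatement) :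
    SpecQ.ChebDensityFiniteStatement :=
  H993.chebDensityFinite_of_968
    (Fermat.Agent.Lib.ChebQ.H968.crossDensity H943.frobStatement
      (H993.cycDensity968_of H221.cycSum h))

/-- finite level, arbitrary subsets of the Galois group -/
theorem chebDensitySet_of_cycCount (h : SpecQ.CycCountStatement) :
    SpecQ.ChebDensitySetStatement :=
  H993.chebDensitySetGlue H993.frobDisjoint (chebDensityFinite_of_cycCount h)

/-- client statement (`SpecQ` form) -/
theorem chebDensity_of_cycCount (h : SpecQ.CycCountStatement) : SpecQ.ChebDensityStatement :=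
  H116.bridgeDensitySet (chebDensitySet_of_cycCount h)

/-- client statement (`ChebQ.Spec` form, Deligne–Serre Lemma 8.4 input) -/
theorem chebDensityClient_of_cycCount (h : SpecQ.CycCountStatement) :
    Fermat.Agent.Lib.ChebQ.Spec.ChebDensityClientStatement :=
  H993.client968_of (chebDensity_of_cycCount h)

end Fermat.Agent.Lib.Cheb

end
-- ===== PACK-END Lib/Cheb/ChebDensityOf.lean

-- ===== PACK-BEGIN Lib/Cheb/ChebDensity.lean
section



/-!
# CHEB Tier 3 (CHEB-Q) END: the Chebotarev density theorem (lower Dirichlet density), unconditional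

Client statements (finite-sum Dirichlet densities, see `SpecQ.lean` and `DensityBasic.lean`):

* `chebDensity : SpecQ.ChebDensityStatement` — for `ρ : Gal(ℚ̄/ℚ) →* G` trivial on `Gal(ℚ̄/E)`,
  `E/ℚ` finite, any `C ⊆ G`, any finite `S`: the primes `p ∉ S` such that `ρ` is unramified at
  some valuation subring `A` over `p` and `ρ(τ) ∈ C` for some Frobenius `τ` at `A` have lower
  Dirichlet density at least `|C ∩ range ρ| / |range ρ|`.
* `chebDensityClient : ChebQ.Spec.ChebDensityClientStatement` — the same in the form used by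
  Deligne–Serre Lemma 8.4: a set `X` of upper density `≤ η` containing all primes with a
  Frobenius in `C` forces `|C ∩ range ρ| ≤ η |range ρ|`.
* `chebDensityFinite`, `chebDensitySet` — finite level (Galois number fields, `IsArithFrobAt`).

Pieces: AN (H44), EP/DEG (H163/H104), ALG (H221/H223/H281), Q-ABS (H776/H221/H163/H56),
Q-SUM (H221), Q-ALG (H56; 2nd copy H968), Q-CYC, Q-DISJ, Q-SET, adapters (H993), CROSS-Q (H968 on
H236), Q-BR (H116), Tier-1 pieces Z/A/D/M.
-/

set_option autoImplicit false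

namespace Fermat.Agent.Lib.Cheb

/-- Chebotarev density theorem, finite level. -/
theorem chebDensityFinite : SpecQ.ChebDensityFiniteStatement :=
  chebDensityFinite_of_cycCount H56.cycCount

/-- Chebotarev density theorem, finite level, arbitrary subsets of the Galois group. -/
theorem chebDensitySet : SpecQ.ChebDensitySetStatement :=
  chebDensitySet_of_cycCount H56.cycCount

/-- **Chebotarev density theorem** (lower Dirichlet density), client form over `ℚ̄`. -/
theorem chebDensity : SpecQ.ChebDensityStatement :=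
  chebDensity_of_cycCount H56.cycCount

/-- Chebotarev density theorem, client form of `ChebQ.Spec` (Deligne–Serre Lemma 8.4 input). -/
theorem chebDensityClient : Fermat.Agent.Lib.ChebQ.Spec.ChebDensityClientStatement :=
  chebDensityClient_of_cycCount H56.cycCount

end Fermat.Agent.Lib.Cheb

end
-- ===== PACK-END Lib/Cheb/ChebDensity.lean

-- ===== PACK-BEGIN S48/H428/NormSigma.lean
section




/-!
# S48 / RES (Tower A1) — NORMID1, part 5: the embeddings `σ_g` of `ℚ̄ · F1(M; p)` (helper428)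

* `F1pL_le_avatarFieldC` : every element of `ℚ̄ · F1p M p` has an avatar of level `M p`;
* `sigF M p g : ℚ̄ · F1p M p →+* ℂ((z))` : expansion of `(avatar) ∘ g`, `z = exp(2πiτ/(Mp))`;
* `sigF_alpha` : for `g ∈ Γ₁(M)`, `sigF g ∘ α = Φ_{Mp}`;
* `sigF_beta`  : for `diag(p,1) g = δ [[1,b],[0,p]]`, `g ∈ Γ₁(M)`, and a diamond automorphism
  `dia` for the unit `p`:  `sigF g (β y) = Φ_M ((dia y)(ζ_p^b u))`.
-/

set_option autoImplicit false
set_option linter.unusedSectionVars false
set_option linter.style.haveILetI false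

noncomputable section

open ModularCurve HahnSeries UpperHalfPlane AlgebraicCurve
open scoped MatrixGroups

namespace Fermat.Agent.S48.H428

open Fermat.Agent.S24 Fermat.Agent.S24.H997 Fermat.Agent.S48.F1 CongruenceSubgroup

variable (M p : ℕ) [NeZero M] [NeZero p] [NeZero (M * p)]

/-! ### Constants -/

theorem const_mem_avatarFieldC (L : ℕ) [NeZero L] (c : Kbar) :
    algebraMap Kbar (LaurentSeries Kbar) c ∈ avatarFieldC L :=
  mem_avatarFieldC_of_hol (A := fun _ => ιK c) (const_mem_holN L (ιK c))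
    (by rw [HolBase.Φ_algebraMap]; exact InfExp.const (ιK c))

theorem sigC_const (L : ℕ) [NeZero L] (g : SL(2, ℤ)) (c : Kbar)
    (h : algebraMap Kbar (LaurentSeries Kbar) c ∈ avatarFieldC L) :
    sigC L g ⟨_, h⟩ = HahnSeries.C (ιK c) :=
  sigC_of_hol h (A := fun _ => ιK c) (const_mem_holN L (ιK c))
    (by rw [HolBase.Φ_algebraMap]; exact InfExp.const (ιK c)) g
    (by
      have e : compSL g (fun _ : ℍ => ιK c) = fun _ => ιK c := rfl
      rw [e]
      exact InfExp.const (ιK c))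

/-! ### Membership -/

/-- The rational `q`-series whose base change to `ℚ̄` has an avatar of level `M p`. -/
def avQ : IntermediateField ℚ (LaurentSeries ℚ) :=
  ((avatarFieldC (M * p)).comap (coeffEmb Kbar)).toIntermediateField fun q => by
    show coeffEmb Kbar (algebraMap ℚ (LaurentSeries ℚ) q) ∈ avatarFieldC (M * p)
    rw [coeffEmb_algebraMap]
    exact const_mem_avatarFieldC (M * p) _

variable {M p} in
theorem mem_avQ {x : LaurentSeries ℚ} : x ∈ avQ M p ↔ coeffEmb Kbar x ∈ avatarFieldC (M * p) :=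
  Iff.rfl

theorem F1_le_avQ : F1 M ≤ avQ M p := by
  rw [F1, IntermediateField.adjoin_le_iff]
  rintro x (hx | hx)
  · obtain ⟨d, hne, hd, rfl⟩ := hx
    haveI := hne
    exact (isAv_jd M hd).mem
  · obtain ⟨a, ha, rfl⟩ := hx
    exact (isAv_divGen M ha).mem

theorem F1_map_le_avQ : (F1 M).map (qExpandₐ p) ≤ avQ M p := by
  rw [IntermediateField.map_le_iff_le_comap, F1, IntermediateField.adjoin_le_iff]
  rintro x (hx | hx)
  · obtain ⟨d, hne, hd, rfl⟩ := hx
    haveI := hne
    exact (isAv_jd M hd).mem_V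
  · obtain ⟨a, ha, rfl⟩ := hx
    exact (isAv_divGen M ha).mem_V

theorem F1p_le_avQ : F1p M p ≤ avQ M p :=
  sup_le (F1_le_avQ M p) (F1_map_le_avQ M p)

theorem F1pL_le_avatarFieldC :
    (laurentBaseChange Kbar (F1p M p)).toSubfield ≤ avatarFieldC (M * p) := by
  intro f hf
  have hf' : f ∈ Subfield.closure (Set.range (algebraMap Kbar (LaurentSeries Kbar)) ∪
      (⇑(coeffEmb Kbar) '' ((F1p M p : IntermediateField ℚ (LaurentSeries ℚ)) :
        Set (LaurentSeries ℚ)))) := hf
  revert hf'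
  apply (Subfield.closure_le (t := avatarFieldC (M * p))).2
  rintro y (⟨c, rfl⟩ | ⟨x, hx, rfl⟩)
  · exact const_mem_avatarFieldC (M * p) c
  · exact F1p_le_avQ M p hx

/-- The inclusion of `ℚ̄ · F1p M p` into the field of `q`-series with avatars. -/
def incAv : ↥(F1pL Kbar M p) →+* ↥(avatarFieldC (M * p)) :=
  Subfield.inclusion (F1pL_le_avatarFieldC M p)

variable {M p} in
@[simp] theorem coe_incAv (f : ↥(F1pL Kbar M p)) :
    ((incAv M p f : avatarFieldC (M * p)) : LaurentSeries Kbar) = (f : LaurentSeries Kbar) := rfl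

/-- The embedding `σ_g` of `ℚ̄ · F1p M p`: the expansion of `(avatar) ∘ g`. -/
def sigF (g : SL(2, ℤ)) : ↥(F1pL Kbar M p) →+* LaurentSeries ℂ :=
  (sigC (M * p) g).comp (incAv M p)

variable {M p} in
theorem sigF_eq (g : SL(2, ℤ)) (f : ↥(F1pL Kbar M p))
    (hf : (f : LaurentSeries Kbar) ∈ avatarFieldC (M * p)) :
    sigF M p g f = sigC (M * p) g ⟨(f : LaurentSeries Kbar), hf⟩ := rfl

variable {M p} in
theorem sigF_one (f : ↥(F1pL Kbar M p)) :
    sigF M p 1 f = HolBase.Φ (M * p) (f : LaurentSeries Kbar) := by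
  rw [sigF, RingHom.comp_apply, sigC_one, coe_incAv]

/-! ### Generators -/

variable {M p} in
theorem sigF_alpha_of_isAv {z : LaurentSeries ℚ} {A : ℍ → ℂ} (h : IsAv M z A) (g : SL(2, ℤ))
    (hg : compSL g A = A) (x0 : ↥(F1L Kbar M))
    (hx0 : (x0 : LaurentSeries Kbar) = coeffEmb Kbar z) :
    sigF M p g (alpha1 Kbar M p x0) = HolBase.Φ (M * p) (x0 : LaurentSeries Kbar) := by
  have hmem : coeffEmb Kbar z ∈ avatarFieldC (M * p) := h.mem
  have e : incAv M p (alpha1 Kbar M p x0) = ⟨coeffEmb Kbar z, hmem⟩ :=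
    Subtype.ext (by rw [coe_incAv, coe_alpha1, hx0])
  rw [sigF, RingHom.comp_apply, e, hx0]
  exact h.sig_fix g hg hmem

variable {M p} in
theorem sigF_beta_of_isAv {z z' : LaurentSeries ℚ} {A A' : ℍ → ℂ} (h : IsAv M z A)
    (h' : IsAv M z' A') (g δ : SL(2, ℤ)) (b : ℤ)
    (h00 : (p : ℤ) * g 0 0 = δ 0 0 * (1 : ℕ))
    (h01 : (p : ℤ) * g 0 1 = δ 0 0 * b + δ 0 1 * p)
    (h10 : g 1 0 = δ 1 0 * (1 : ℕ)) (h11 : g 1 1 = δ 1 0 * b + δ 1 1 * p)
    (hδ : compSL δ A = A') (x0 : ↥(F1L Kbar M))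
    (hx0 : (x0 : LaurentSeries Kbar) = coeffEmb Kbar z) :
    sigF M p g (beta1 Kbar M p x0)
      = qExpand ℂ M (infTwist (infRoot b p) (coeffEmb ℂ z')) := by
  have hmem : coeffEmb Kbar (qExpand ℚ p z) ∈ avatarFieldC (M * p) := h.mem_V
  have e : incAv M p (beta1 Kbar M p x0) = ⟨coeffEmb Kbar (qExpand ℚ p z), hmem⟩ :=
    Subtype.ext (by rw [coe_incAv, coe_beta1, hx0, qExpand_coeffEmb])
  rw [sigF, RingHom.comp_apply, e]
  exact h.sig_V h' g δ b h00 h01 h10 h11 hδ hmem

variable {M p} in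
theorem sigF_algebraMap (g : SL(2, ℤ)) (c : Kbar) :
    sigF M p g (algebraMap Kbar ↥(F1pL Kbar M p) c) = HahnSeries.C (ιK c) := by
  have hmem := const_mem_avatarFieldC (M * p) c
  have e : incAv M p (algebraMap Kbar ↥(F1pL Kbar M p) c)
      = ⟨algebraMap Kbar (LaurentSeries Kbar) c, hmem⟩ := Subtype.ext rfl
  rw [sigF, RingHom.comp_apply, e]
  exact sigC_const (M * p) g c hmem

/-- Ring homomorphisms out of `ℚ̄ · F1 M` agreeing on constants and on the generators agree. -/
theorem F1L_ringHom_ext {R : Type*} [DivisionRing R] (f g : ↥(F1L Kbar M) →+* R)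
    (hL : ∀ c : Kbar, f (algebraMap Kbar ↥(F1L Kbar M) c) = g (algebraMap Kbar ↥(F1L Kbar M) c))
    (hS : ∀ (x0 : ↥(F1L Kbar M)) (z : LaurentSeries ℚ), z ∈ divisorExpansions M ∪ divGens M →
      (x0 : LaurentSeries Kbar) = coeffEmb Kbar z → f x0 = g x0) :
    f = g :=
  lbc_ringHom_ext (L := Kbar) (S := divisorExpansions M ∪ divGens M) f g hL
    (fun z hz => hS _ z hz rfl)

/-! ### `σ_g ∘ α` -/

variable {M p} in
/-- For `g ∈ Γ₁(M)`, `σ_g` restricted to `α (ℚ̄ · F1 M)` is `Φ_{M p}`. -/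
theorem sigF_alpha {g : SL(2, ℤ)} (hg : g ∈ Gamma1 M) (y : ↥(F1L Kbar M)) :
    sigF M p g (alpha1 Kbar M p y) = HolBase.Φ (M * p) (y : LaurentSeries Kbar) := by
  have hg0 : g ∈ Gamma0 M := Gamma1_in_Gamma0 M hg
  have key := F1L_ringHom_ext M
    ((sigF M p g).comp (alpha1 Kbar M p).toRingHom)
    ((HolBase.Φ (M * p)).comp (F1L Kbar M).val.toRingHom) ?_ ?_
  · exact RingHom.congr_fun key y
  · intro c
    have e1 : ((sigF M p g).comp (alpha1 Kbar M p).toRingHom) (algebraMap Kbar _ c)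
        = sigF M p g (algebraMap Kbar ↥(F1pL Kbar M p) c) :=
      congrArg (sigF M p g) ((alpha1 Kbar M p).commutes c)
    have e2 : ((HolBase.Φ (M * p)).comp (F1L Kbar M).val.toRingHom) (algebraMap Kbar _ c)
        = HolBase.Φ (M * p) (algebraMap Kbar (LaurentSeries Kbar) c) := rfl
    rw [e1, e2, HolBase.Φ_algebraMap, sigF_algebraMap]
  · intro x0 z hz hx0
    have e1 : ((sigF M p g).comp (alpha1 Kbar M p).toRingHom) x0
        = sigF M p g (alpha1 Kbar M p x0) := rfl
    have e2 : ((HolBase.Φ (M * p)).comp (F1L Kbar M).val.toRingHom) x0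
        = HolBase.Φ (M * p) (x0 : LaurentSeries Kbar) := rfl
    rw [e1, e2]
    rcases hz with hz | hz
    · obtain ⟨d, hne, hd, rfl⟩ := hz
      haveI := hne
      have hJ : compSL g (Jd d) = Jd d := by
        funext τ
        exact Jd_inv M d hd g hg0 τ
      exact sigF_alpha_of_isAv (isAv_jd M hd) g hJ x0 hx0
    · obtain ⟨a, ha, rfl⟩ := hz
      have hP : compSL g (H76.pFun M a) = H76.pFun M a := by
        funext τ
        exact H76.pFun_smul_Gamma1 M a g hg τ
      exact sigF_alpha_of_isAv (isAv_divGen M ha) g hP x0 hx0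

/-! ### `σ_g ∘ β` -/

variable {M p} in
/-- For `g ∈ Γ₁(M)` with `diag(p,1) g = δ [[1,b],[0,p]]` and a diamond automorphism `dia` for the
unit `u ≡ p`: `σ_g (β y) = Φ_M ((dia y)(ζ_p^b u))`. -/
theorem sigF_beta {g δ : SL(2, ℤ)} {b : ℤ} (hδ0 : δ ∈ Gamma0 M)
    (hδp : ((δ 0 0 : ℤ) : ZMod M) = (p : ZMod M))
    (h00 : (p : ℤ) * g 0 0 = δ 0 0 * (1 : ℕ))
    (h01 : (p : ℤ) * g 0 1 = δ 0 0 * b + δ 0 1 * p)
    (h10 : g 1 0 = δ 1 0 * (1 : ℕ)) (h11 : g 1 1 = δ 1 0 * b + δ 1 1 * p)
    {u : (ZMod M)ˣ} (hu : (u : ZMod M) = (p : ZMod M))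
    {dia : ↥(F1L Kbar M) ≃ₐ[Kbar] ↥(F1L Kbar M)} (hdia : IsDiamond Kbar M u dia)
    (y : ↥(F1L Kbar M)) :
    sigF M p g (beta1 Kbar M p y)
      = qExpand ℂ M (infTwist (infRoot b p)
          (coeffMap ιK ((dia y : ↥(F1L Kbar M)) : LaurentSeries Kbar))) := by
  have key := F1L_ringHom_ext M
    ((sigF M p g).comp (beta1 Kbar M p).toRingHom)
    ((qExpand ℂ M).comp ((infTwist (infRoot b p)).comp ((coeffMap ιK).comp
      ((F1L Kbar M).val.toRingHom.comp (dia : ↥(F1L Kbar M) →+* ↥(F1L Kbar M)))))) ?_ ?_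
  · exact RingHom.congr_fun key y
  · intro c
    have e1 : ((sigF M p g).comp (beta1 Kbar M p).toRingHom) (algebraMap Kbar _ c)
        = sigF M p g (algebraMap Kbar ↥(F1pL Kbar M p) c) :=
      congrArg (sigF M p g) ((beta1 Kbar M p).commutes c)
    have e3 : ((algebraMap Kbar ↥(F1L Kbar M) c : ↥(F1L Kbar M)) : LaurentSeries Kbar)
        = HahnSeries.C c := by
      show algebraMap Kbar (LaurentSeries Kbar) c = _
      rw [algebraMap_laurentSeries_eq_single]
      rfl
    have e4 : coeffMap ιK (HahnSeries.C c) = HahnSeries.C (ιK c) := by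
      show coeffMap ιK (HahnSeries.single 0 c) = HahnSeries.single 0 (ιK c)
      exact coeffMap_single ιK 0 c
    have e2 : ((qExpand ℂ M).comp ((infTwist (infRoot b p)).comp ((coeffMap ιK).comp
        ((F1L Kbar M).val.toRingHom.comp (dia : ↥(F1L Kbar M) →+* ↥(F1L Kbar M))))))
          (algebraMap Kbar _ c) = HahnSeries.C (ιK c) := by
      show qExpand ℂ M (infTwist (infRoot b p) (coeffMap ιK
        ((dia (algebraMap Kbar ↥(F1L Kbar M) c) : ↥(F1L Kbar M)) : LaurentSeries Kbar))) = _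
      rw [AlgEquiv.commutes, e3, e4, infTwist_C, qExpand_C]
    rw [e1, e2, sigF_algebraMap]
  · intro x0 z hz hx0c
    show sigF M p g (beta1 Kbar M p x0) = qExpand ℂ M (infTwist (infRoot b p)
      (coeffMap ιK ((dia x0 : ↥(F1L Kbar M)) : LaurentSeries Kbar)))
    rcases hz with hz | hz
    · obtain ⟨d, hne, hd, rfl⟩ := hz
      haveI := hne
      -- the diamond fixes `j(q^d)`
      have hfix : dia x0 = x0 :=
        hdia.1 x0 (by
          rw [hx0c]
          exact coeffEmb_mem_laurentBaseChange Kbar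
            (IntermediateField.subset_adjoin ℚ _ (mem_divisorExpansions M hd)))
      rw [hfix, hx0c, coeffMap_ιK_coeffEmb_g]
      exact sigF_beta_of_isAv (isAv_jd M hd) (isAv_jd M hd) g δ b h00 h01 h10 h11
        (by funext τ; exact Jd_inv M d hd δ hδ0 τ) x0 hx0c
    · obtain ⟨a, ha, rfl⟩ := hz
      -- the diamond maps `P_a` to `P_{p a}`
      have hpa : (u : ZMod M) * a ≠ 0 := by
        intro h0
        exact ha (by simpa using congrArg (fun t => ((u⁻¹ : (ZMod M)ˣ) : ZMod M) * t) h0)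
      have hmap : ((dia x0 : ↥(F1L Kbar M)) : LaurentSeries Kbar)
          = coeffEmb Kbar (divGen M ((u : ZMod M) * a)) := by
        have h := hdia.2 a x0 ⟨coeffEmb Kbar (divGen M ((u : ZMod M) * a)),
              coeffEmb_mem_laurentBaseChange Kbar (divGen_mem_F1 M hpa)⟩ ha hx0c rfl
        rw [h]
      rw [hmap, coeffMap_ιK_coeffEmb_g]
      exact sigF_beta_of_isAv (isAv_divGen M ha) (isAv_divGen M hpa) g δ b h00 h01 h10 h11
        (by rw [H76.compSL_pFun M a δ hδ0, hδp, hu, mul_comm]) x0 hx0c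

end Fermat.Agent.S48.H428

end
end
-- ===== PACK-END S48/H428/NormSigma.lean

-- ===== PACK-BEGIN S48/H428/NormId1.lean
section





/-!
# S48 / RES (Tower A1) — NORMID1 (helper428): the norm identity for `F1(M; p) / α F1(M)`

`normId1_of_deg : DegAlpha1Statement → H136.NormId1Statement`, where the only remaining input is
the degree bound `[ℚ̄·F1(M; p) : α(ℚ̄·F1(M))] ≤ p + 1`.

The `p` embeddings are `σ_b = (expansion of (avatar) ∘ h_b)`, `h_b ∈ Γ₁(M)` with
`diag(p,1) h_b = δ_b [[1,b],[0,p]]`, `δ_b ∈ Γ₀(M)`, `(δ_b)₀₀ ≡ p`; the remaining one is `V_p`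
(handled inside `normIdG_of_embeddings_jq`).
-/

set_option autoImplicit false
set_option linter.unusedSectionVars false
set_option linter.style.haveILetI false

noncomputable section

open ModularCurve HahnSeries UpperHalfPlane AlgebraicCurve
open scoped MatrixGroups

namespace Fermat.Agent.S48.H428

open Fermat.Agent.S24 Fermat.Agent.S24.H997 Fermat.Agent.S48.F1 CongruenceSubgroup
open Fermat.Agent.S37

/-! ### The root of unity -/

/-- `ζ ∈ ℚ̄` with `ιK ζ = exp(2πi/p)`. -/
theorem exists_zeta_p (p : ℕ) [NeZero p] :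
    ∃ ζ : Kbar, IsPrimitiveRoot ζ p ∧ ιK ζ = ((infRoot 1 p : ℂˣ) : ℂ) := by
  have hp0 : p ≠ 0 := NeZero.ne p
  obtain ⟨ξ, hξ⟩ := HasEnoughRootsOfUnity.exists_primitiveRoot Kbar p
  have hξ' : IsPrimitiveRoot (ιK ξ) p := hξ.map_of_injective ιK_injective
  have hprim : IsPrimitiveRoot (Complex.exp (2 * Real.pi * Complex.I / p)) p :=
    Complex.isPrimitiveRoot_exp p hp0
  obtain ⟨i, -, hi⟩ := hξ'.eq_pow_of_pow_eq_one hprim.pow_eq_one
  refine ⟨ξ ^ i, ?_, ?_⟩
  · have h2 : IsPrimitiveRoot (ιK (ξ ^ i)) p := by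
      rw [map_pow, hi]
      exact hprim
    exact IsPrimitiveRoot.of_map_of_injective h2 ιK_injective
  · rw [map_pow, hi, infRoot_coe]
    congr 1
    push_cast
    ring

theorem infRoot_pow_g (b : ℤ) (n d : ℕ) : (infRoot b n) ^ d = infRoot ((d : ℤ) * b) n := by
  apply Units.ext
  rw [Units.val_pow_eq_pow_val, infRoot_coe, infRoot_coe, ← Complex.exp_nat_mul]
  congr 1
  push_cast
  ring

theorem infRoot_pow_self (b : ℤ) (n : ℕ) [NeZero n] : ((infRoot b n : ℂˣ) : ℂ) ^ n = 1 := by
  rw [infRoot_coe, ← Complex.exp_nat_mul]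
  have hn : (n : ℂ) ≠ 0 := by exact_mod_cast NeZero.ne n
  have e : (n : ℂ) * (2 * Real.pi * Complex.I * b / n) = (b : ℂ) * (2 * Real.pi * Complex.I) := by
    field_simp
  rw [e]
  exact Complex.exp_int_mul_two_pi_mul_I b

theorem tw_eq_infTwist_g {R : Type*} [CommRing R] (ℓ : ℕ) [NeZero ℓ] (u : Rˣ)
    (hu : (u : R) ^ ℓ = 1) (f : LaurentSeries R) :
    H340.tw ℓ (u : R) f = infTwist u f := by
  ext n
  rw [H340.tw_coeff, infTwist_coeff, mul_comm]
  congr 1
  have hℓ : (ℓ : ℤ) ≠ 0 := by exact_mod_cast NeZero.ne ℓ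
  have hu' : u ^ ℓ = 1 := Units.ext (by rw [Units.val_pow_eq_pow_val, hu, Units.val_one])
  unfold H340.zpw
  have h1 : n = n % (ℓ : ℤ) + (ℓ : ℤ) * (n / (ℓ : ℤ)) := (Int.emod_add_mul_ediv n ℓ).symm
  have h0 : 0 ≤ n % (ℓ : ℤ) := Int.emod_nonneg n hℓ
  have h2 : ((n % (ℓ : ℤ)).toNat : ℤ) = n % (ℓ : ℤ) := Int.toNat_of_nonneg h0
  have h3 : u ^ n = u ^ (n % (ℓ : ℤ)).toNat := by
    conv_lhs => rw [h1, zpow_add, zpow_mul, zpow_natCast, hu', one_zpow, mul_one, ← h2,
      zpow_natCast]
  rw [← Units.val_pow_eq_pow_val, ← h3]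

theorem coeffMap_tw_g {R S : Type*} [CommRing R] [CommRing S] (φ : R →+* S) (ℓ : ℕ) [NeZero ℓ]
    (ζ : R) (w : LaurentSeries R) :
    coeffMap φ (H340.tw ℓ ζ w) = H340.tw ℓ (φ ζ) (coeffMap φ w) := by
  ext n
  rw [coeffMap_coeff, H340.tw_coeff, H340.tw_coeff, coeffMap_coeff, map_mul]
  congr 1
  unfold H340.zpw
  rw [map_pow]

theorem coeffMap_tw_zeta {p : ℕ} [NeZero p] {ζ : Kbar}
    (hζ : ιK ζ = ((infRoot 1 p : ℂˣ) : ℂ)) (b : ℕ) (w : LaurentSeries Kbar) :
    coeffMap ιK (H340.tw p (ζ ^ b) w) = infTwist (infRoot (b : ℤ) p) (coeffMap ιK w) := by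
  rw [coeffMap_tw_g, map_pow, hζ]
  have e : ((infRoot 1 p : ℂˣ) : ℂ) ^ b = ((infRoot (b : ℤ) p : ℂˣ) : ℂ) := by
    rw [← Units.val_pow_eq_pow_val, infRoot_pow_g, mul_one]
  rw [e]
  exact tw_eq_infTwist_g p (infRoot (b : ℤ) p) (infRoot_pow_self _ p) _

/-! ### The statement -/

/-- **DEG**: `[ℚ̄·F1(M; p) : α (ℚ̄·F1(M))] ≤ p + 1`. -/
def DegAlpha1Statement : Prop :=
  ∀ (M p : ℕ) [NeZero p], M ≠ 0 → p.Prime → ¬ p ∣ M →
    finrankAlong Kbar (alpha1 Kbar M p) ≤ p + 1

section Pieces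

variable (M p : ℕ) [NeZero M] [NeZero p] [NeZero (M * p)]

variable {M p} in
theorem sigF_alpha_V {g : SL(2, ℤ)} (hg : g ∈ Gamma1 M) (y : ↥(F1L Kbar M)) :
    sigF M p g (alpha1 Kbar M p y) = HolBase.Φ M (qExpand Kbar p (y : LaurentSeries Kbar)) := by
  rw [sigF_alpha hg y, Φ_qExpand_g]

variable {M p} in
theorem sigF_beta_tw {g δ : SL(2, ℤ)} {b : ℕ} (hδ0 : δ ∈ Gamma0 M)
    (hδp : ((δ 0 0 : ℤ) : ZMod M) = (p : ZMod M))
    (h00 : (p : ℤ) * g 0 0 = δ 0 0 * (1 : ℕ))
    (h01 : (p : ℤ) * g 0 1 = δ 0 0 * ((b : ℕ) : ℤ) + δ 0 1 * p)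
    (h10 : g 1 0 = δ 1 0 * (1 : ℕ)) (h11 : g 1 1 = δ 1 0 * ((b : ℕ) : ℤ) + δ 1 1 * p)
    {u : (ZMod M)ˣ} (hu : (u : ZMod M) = (p : ZMod M))
    {dia : ↥(F1L Kbar M) ≃ₐ[Kbar] ↥(F1L Kbar M)} (hdia : IsDiamond Kbar M u dia)
    {ζ : Kbar} (hζ : ιK ζ = ((infRoot 1 p : ℂˣ) : ℂ))
    (y : ↥(F1L Kbar M)) :
    sigF M p g (beta1 Kbar M p y)
      = HolBase.Φ M (H340.tw p (ζ ^ b) ((dia y : ↥(F1L Kbar M)) : LaurentSeries Kbar)) := by
  rw [sigF_beta hδ0 hδp h00 h01 h10 h11 hu hdia y]
  have e : HolBase.Φ M (H340.tw p (ζ ^ b) ((dia y : ↥(F1L Kbar M)) : LaurentSeries Kbar))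
      = qExpand ℂ M (coeffMap ιK
          (H340.tw p (ζ ^ b) ((dia y : ↥(F1L Kbar M)) : LaurentSeries Kbar))) := rfl
  rw [e, coeffMap_tw_zeta hζ]

theorem diamond_fix_jq {u : (ZMod M)ˣ}
    {dia : ↥(F1L Kbar M) ≃ₐ[Kbar] ↥(F1L Kbar M)} (hdia : IsDiamond Kbar M u dia)
    (y : ↥(F1L Kbar M)) (hy : (y : LaurentSeries Kbar) = coeffEmb Kbar jq) : dia y = y := by
  refine hdia.1 y ?_
  rw [hy]
  refine coeffEmb_mem_laurentBaseChange Kbar ?_
  have h1 := jqd_mem_full (N := M) (one_dvd M)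
  rwa [qExpand_one_apply] at h1

end Pieces

/-- **NORMID1 at `(M; p)`** from the degree bound. -/
theorem normIdG_alpha1_of_deg (M p : ℕ) [NeZero p] (hM : M ≠ 0) (hp : p.Prime) (hpM : ¬ p ∣ M)
    (hfin : FiniteAlong Kbar (alpha1 Kbar M p))
    (hdeg : finrankAlong Kbar (alpha1 Kbar M p) ≤ p + 1) :
    H136.NormIdG (alpha1 Kbar M p) (beta1 Kbar M p) p (diamondAut Kbar M (unitOf M p)) := by
  haveI : NeZero M := ⟨hM⟩
  haveI : NeZero (M * p) := ⟨Nat.mul_ne_zero hM hp.ne_zero⟩
  have hcop : Nat.Coprime M p := ((Nat.Prime.coprime_iff_not_dvd hp).mpr hpM).symm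
  have hdia : IsDiamond Kbar M (unitOf M p) (diamondAut Kbar M (unitOf M p)) :=
    H848.isDiamond_diamondAut_848 M (unitOf M p)
  have hu : ((unitOf M p : (ZMod M)ˣ) : ZMod M) = (p : ZMod M) := coe_unitOf M hcop.symm
  obtain ⟨ζ, hζ, hζι⟩ := exists_zeta_p p
  choose h δ hh hδ0 hδp h00 h01 h10 h11 using fun b : Fin p => exists_rep1 hcop ((b : ℕ) : ℤ)
  have hα : ∀ y : ↥(F1L Kbar M), (F1pL Kbar M p).val.toRingHom (alpha1 Kbar M p y)
      = (y : LaurentSeries Kbar) := fun y => coe_alpha1 Kbar M p y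
  have hβ : ∀ y : ↥(F1L Kbar M), (F1pL Kbar M p).val.toRingHom (beta1 Kbar M p y)
      = qExpand Kbar p (y : LaurentSeries Kbar) := fun y => coe_beta1 Kbar M p y
  have hσα : ∀ (b : Fin p) (y : ↥(F1L Kbar M)), sigF M p (h b) (alpha1 Kbar M p y)
      = HolBase.Φ M (qExpand Kbar p (y : LaurentSeries Kbar)) :=
    fun b y => sigF_alpha_V (hh b) y
  have hσβ : ∀ (b : Fin p) (y : ↥(F1L Kbar M)), sigF M p (h b) (beta1 Kbar M p y)
      = HolBase.Φ M (H340.tw p (ζ ^ (b : ℕ))
          ((diamondAut Kbar M (unitOf M p) y : ↥(F1L Kbar M)) : LaurentSeries Kbar)) :=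
    fun b y => sigF_beta_tw (hδ0 b) (hδp b) (h00 b) (h01 b) (h10 b) (h11 b) hu hdia hζι y
  exact normIdG_of_embeddings_jq (alpha1 Kbar M p) (beta1 Kbar M p) hp
    (diamondAut Kbar M (unitOf M p)) (F1pL Kbar M p).val.toRingHom hα hβ hfin hdeg hζ
    (HolBase.Φ M) (fun b => sigF M p (h b)) hσα hσβ (jq_mem_F1 M) (diamond_fix_jq M hdia)

/-- **NORMID1** from the degree bound (finiteness: helper150's `hi1`). -/
theorem normId1_of_deg (hdeg : DegAlpha1Statement) : H136.NormId1Statement := by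
  intro M p _ hM hp hpM
  have hfin : FiniteAlong Kbar (alpha1 Kbar M p) := by
    obtain ⟨_, _, _, hfin, _⟩ := H150.hi1 M p hM hp hpM
    exact hfin
  exact normIdG_alpha1_of_deg M p hM hp hpM hfin (hdeg M p hM hp hpM)

end Fermat.Agent.S48.H428

end
end
-- ===== PACK-END S48/H428/NormId1.lean

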