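import Fermat.Agent.Pack.L1B.E3L0
import Fermat.Agent.Pack.S44C.G0E25L3
import Fermat.Agent.Pack.S44C.G0E27L3
import Fermat.Agent.Pack.L1B.E1L3
import Fermat.Agent.Pack.L1B.E3L3
import Fermat.Agent.Pack.S44C.G0E24L2
import Fermat.Agent.Pack.S44C.G0E26L2
import Fermat.Agent.Pack.S44C.G0E19L0
import Fermat.Agent.Pack.L1B.E0L3
import Fermat.Agent.Pack.S44C.G0E16L3
import Fermat.Agent.Pack.S44C.G0E26L3
import Fermat.Agent.Pack.L1B.E2L1
import Fermat.Agent.Pack.L1.E10L0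

-- ===== PACK-BEGIN S48/H556/RawES1Top.lean
section


/-!
# S48 / Tower A1 — RawES1 WITHOUT any reduction field (row-lead helper556)

helper136's generic engine `H136.eskG_inertia` / `H136.eskG_frob` is generic in the "reduction
field" `F_k ⊆ k((q))`.  Instantiating it with `F_k := ⊤` (all of `k((q))`) removes every statement
about the special fibre from the inputs of RawES1:

* `IsIntG (F1 M) A ⊤ U`  ⟺  `U ∈ A((q))` lies in `ℚ̄ · F1 M` and has nonzero reduction;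
* `StableG A ⊤` is trivial;
* `PGI1Top` is the Gauss normalisation `f = c · U₁ / U₂` (elementary: `F1 M` has generators with
  integral coefficients; NO CoreData, NO "degree does not drop", NO reduction membership);
* `Core1Top` is S18 GLUE verbatim (GoodFamily + `S18.H438.algMain`; the Gauss ring `VcSet` never
  mentions `F_k`);
* `DiamondInt1Top` = the diamond automorphism preserves the Gauss valuation (IGUSA1 `stable`).

`rawES1_of_inputs_top : Core1Top → PGI1Top → HI1Statement → DiamondInt1Top → NormId1Statement →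
    Res.RawES1Statement true`.

The statements with `F_k = F1C k M` of `H136/RawES1.lean` are NOT needed.
-/

set_option autoImplicit false
set_option linter.style.haveILetI false

noncomputable section

namespace Fermat.Agent.S48.H556

open ModularCurve AlgebraicCurve HahnSeries IsLocalRing
open Fermat.Agent.S18 (Qb)
open Fermat.Agent.S48.F1 Fermat.Agent.S48.Res Fermat.Agent.S48.H136

/-- The trivial reduction field: all of `k((q))`. -/
abbrev topK (A : ValuationSubring Qb) :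
    IntermediateField (ResidueField A) (LaurentSeries (ResidueField A)) := ⊤

theorem stableG_top (A : ValuationSubring Qb) : StableG A (topK A) :=
  fun _ _ _ => IntermediateField.mem_top

/-- An `A`-integral series lying in `ℚ̄ · F₀` with nonzero reduction is integral for `F_k = ⊤`. -/
theorem isIntG_top_iff {F₀ : IntermediateField ℚ (LaurentSeries ℚ)} {A : ValuationSubring Qb}
    {U : LaurentSeries A} :
    IsIntG F₀ A (topK A) U ↔
      coeffMap A.subtype U ∈ laurentBaseChange Qb F₀ ∧ coeffMap (residue A) U ≠ 0 :=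
  ⟨fun h => ⟨h.1, h.2.2⟩, fun h => ⟨h.1, IntermediateField.mem_top, h.2⟩⟩

/-- **CORE1 (top form)**: the Kummer core for `F1 M` at every place `A` above `p ∤ M ℓ`,
modulus `ℓ`, for ALL integral series with nonzero reduction. -/
def Core1Top : Prop :=
  ∀ (M ℓ p : ℕ), M ≠ 0 → ℓ.Prime → p.Prime → ¬ p ∣ M * ℓ →
    ∀ A : ValuationSubring Qb, A.LiesOverPrime p → CoreG (F1 M) A (topK A) ℓ

/-- **PGI1 (top form)**: every principal divisor of `ℚ̄ · F1 M` is generated by divisors of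
`A`-integral series with nonzero reduction (Gauss normalisation). -/
def PGI1Top : Prop :=
  ∀ (M p : ℕ), M ≠ 0 → p.Prime → ¬ p ∣ M →
    ∀ A : ValuationSubring Qb, A.LiesOverPrime p → PGIG (F1 M) A (topK A)

/-- **DIA-INT (top form)**: the diamond automorphism `δ_p` maps `A`-integral series with nonzero
reduction to `A`-integral series with nonzero reduction. -/
def DiamondInt1Top : Prop :=
  ∀ (M p : ℕ), M ≠ 0 → p.Prime → ¬ p ∣ M →
    ∀ A : ValuationSubring Qb, A.LiesOverPrime p →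
      ∀ (U : LaurentSeries A) (hU : IsIntG (F1 M) A (topK A) U),
        ∃ (W : LaurentSeries A) (hW : IsIntG (F1 M) A (topK A) W),
          toFG hW = diamondAut Qb M (unitOf M p) (toFG hU)

/-- **RawES1 from its five inputs, top form** (exact shape of `Res/Parts.lean`, `s = true`). -/
theorem rawES1_of_inputs_top (hcore : Core1Top) (hpgi : PGI1Top) (hHI : HI1Statement)
    (hdia : DiamondInt1Top) (hnid : NormId1Statement) : RawES1Statement true := by
  intro M ℓ p hM hℓ hp hpMℓ A hA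
  have hpM : ¬ p ∣ M := fun h => hpMℓ (Dvd.dvd.mul_right h ℓ)
  haveI : NeZero p := ⟨hp.ne_zero⟩
  have hC := hcore M ℓ p hM hℓ hp hpMℓ A hA
  have hP := hpgi M p hM hp hpM A hA
  have hst := stableG_top A
  refine ⟨eskG_inertia hℓ.ne_zero hC hP hst, ?_⟩
  intro σ hσ x hx
  obtain ⟨hβ, hα, hPD, hfin, hFI, hN⟩ := hHI M p hM hp hpM
  haveI := hPD
  have hδ : DiamondG (F1 M) A (topK A) (diamondAut Qb M (unitOf M p)) :=
    ⟨fun σ y => diamondAut_galois M (unitOf M p) σ y, hdia M p hM hp hpM A hA⟩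
  have h := eskG_frob hp hℓ.ne_zero hA hC hP hst (alpha1 Qb M p) (beta1 Qb M p) hα hβ hFI hfin hN
    (diamondAut Qb M (unitOf M p)) hδ (hnid M p hM hp hpM) σ hσ x hx
  have hT : hecke1 M p = (Pic0.correspondence (beta1 Qb M p) (alpha1 Qb M p) hβ hα hFI hfin
      hN).toIntLinearMap := by
    rw [hecke1_eq, heckeL, corrOp_eq (beta1 Qb M p) (alpha1 Qb M p) hβ hα hFI hfin hN]
  have hD : diamondS true M p (σ • σ • x)
      = σ • σ • (diamondAut Qb M (unitOf M p) • x) := by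
    show diamond1 M (unitOf M p) (σ • σ • x) = _
    rw [galois_smul_diamond1, galois_smul_diamond1, diamond1_apply, pic0_ofAlgAut_smul]
  rw [hD, hT]
  exact h

/-- The `F1C`-forms of helper136 follow from the top forms (so both adapters are usable). -/
theorem core1Statement_of_top (h : Core1Top) : Core1Statement := by
  intro M ℓ p hM hℓ hp hpMℓ A hA U₁ U₂ h₁ h₂ hred hdiv
  have h₁' : IsIntG (F1 M) A (topK A) U₁ := isIntG_top_iff.2 ⟨h₁.1, h₁.2.2⟩
  have h₂' : IsIntG (F1 M) A (topK A) U₂ := isIntG_top_iff.2 ⟨h₂.1, h₂.2.2⟩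
  exact h M ℓ p hM hℓ hp hpMℓ A hA U₁ U₂ h₁' h₂' hred hdiv

end Fermat.Agent.S48.H556

end
end
-- ===== PACK-END S48/H556/RawES1Top.lean

-- ===== PACK-BEGIN S48/H908/Core1Top.lean
section



/-!
# S48 / RES (Tower A1) / A1-RED — R6, route through the levels `2M`, `3M` (helper908)

`H556.Core1Top` (the input CORE of `H136.rawES1_of_valTop` / `H556.rawES1_of_val`) from

* `GoodCore1` : `CoreG (F1 M) A ⊤ ℓ` at the GOOD pairs `(M, p)` only
  (`5 ≤ p`, or `p = 3 ∧ 2 ∣ M`, or `p = 2 ∧ 3 ∣ M`: coordinates `j`, `t₂`, `t₃ ∈ F0(M) ≤ F1 M`);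
* `Core1.DegHyp` : `[ℚ̄·F1(M a) : ℚ̄·F1(M)] ∣ a² - 1` for a prime `a ∤ M` (used for `a = 2, 3`).

For `p = 3, 2 ∤ M` (resp. `p = 2, 3 ∤ M`) the core descends from the GOOD pair `(2M, 3)`
(resp. `(3M, 2)`) by the norm trick `Core1.coreG_of_le` along `F1 M ≤ F1 (2M)` (`Core1.F1_le_of_dvd`).
Only fields of the form `F1 M'` occur: NO `F1p M a`, NO pull-back data.
-/

set_option autoImplicit false

noncomputable section

namespace Fermat.Agent.S48.H908.Core1

open ModularCurve AlgebraicCurve HahnSeries IsLocalRing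
open Fermat.Agent.S18 (Qb)
open Fermat.Agent.S48.H136 (IsIntG toFG CoreG)
open Fermat.Agent.S48.F1

/-- The Kummer core at the good pairs `(M, p)`. -/
def GoodCore1 : Prop :=
  ∀ (M ℓ p : ℕ), M ≠ 0 → ℓ.Prime → p.Prime → ¬ p ∣ M → ¬ p ∣ ℓ → (p = 3 → 2 ∣ M) →
    (p = 2 → 3 ∣ M) → ∀ A : ValuationSubring Qb, A.LiesOverPrime p → CoreG (F1 M) A ⊤ ℓ

/-- MOD1 (minimal form) + FIN give the core at the good pairs. -/
theorem goodCore1_of_mod (hmod : Mod1Hyp) (hfin : FinHyp) : GoodCore1 :=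
  fun M ℓ p hM hℓ hp hpM hpℓ h3 h2 A hA => core1_good hmod hfin M ℓ p hM hℓ hp hpM hpℓ h3 h2 A hA

/-- The Kummer core at ALL pairs from the good pairs and the degrees. -/
theorem core1_top_of_good (hgood : GoodCore1) (hdeg : DegHyp) (M ℓ p : ℕ) (hM : M ≠ 0)
    (hℓ : ℓ.Prime) (hp : p.Prime) (hpMℓ : ¬ p ∣ M * ℓ) (A : ValuationSubring Qb)
    (hA : A.LiesOverPrime p) : CoreG (F1 M) A ⊤ ℓ := by
  have hpM : ¬ p ∣ M := fun h => hpMℓ (h.mul_right ℓ)
  have hpℓ : ¬ p ∣ ℓ := fun h => hpMℓ (h.mul_left M)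
  have hℓp : ℓ ≠ p := fun h => hpℓ (h ▸ dvd_rfl)
  by_cases h3 : p = 3
  · subst h3
    by_cases h2M : 2 ∣ M
    · exact hgood M ℓ 3 hM hℓ hp hpM hpℓ (fun _ => h2M) (fun h => by omega) A hA
    · have hM2 : M * 2 ≠ 0 := Nat.mul_ne_zero hM (by norm_num)
      have hp2 : ¬ 3 ∣ M * 2 := by
        intro h
        rcases (Nat.Prime.dvd_mul hp).mp h with h | h
        · exact hpM h
        · omega
      have hcore := hgood (M * 2) ℓ 3 hM2 hℓ hp hp2 hpℓ
        (fun _ => Dvd.intro_left M rfl) (fun h => by omega) A hA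
      refine core1_descend hdeg M 2 ℓ hM Nat.prime_two h2M ?_ A hcore
      have : (2 ^ 2 - 1 : ℕ) = 3 := by norm_num
      rw [this]
      exact (Nat.coprime_primes hp hℓ).mpr (Ne.symm hℓp)
  · by_cases h2 : p = 2
    · subst h2
      by_cases h3M : 3 ∣ M
      · exact hgood M ℓ 2 hM hℓ hp hpM hpℓ (fun h => by omega) (fun _ => h3M) A hA
      · have hM3 : M * 3 ≠ 0 := Nat.mul_ne_zero hM (by norm_num)
        have hp3 : ¬ 2 ∣ M * 3 := by
          intro h
          rcases (Nat.Prime.dvd_mul hp).mp h with h | h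
          · exact hpM h
          · omega
        have hcore := hgood (M * 3) ℓ 2 hM3 hℓ hp hp3 hpℓ
          (fun h => by omega) (fun _ => Dvd.intro_left M rfl) A hA
        refine core1_descend hdeg M 3 ℓ hM Nat.prime_three h3M ?_ A hcore
        have : (3 ^ 2 - 1 : ℕ) = 2 ^ 3 := by norm_num
        rw [this]
        exact Nat.Coprime.pow_left 3 ((Nat.coprime_primes hp hℓ).mpr (Ne.symm hℓp))
    · exact hgood M ℓ p hM hℓ hp hpM hpℓ (fun h => absurd h h3) (fun h => absurd h h2) A hA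

/-- **R6.**  `H556.Core1Top` from the core at the good pairs and the degrees. -/
theorem core1Top_of_good (hgood : GoodCore1) (hdeg : DegHyp) : Fermat.Agent.S48.H556.Core1Top :=
  fun M ℓ p hM hℓ hp hpMℓ A hA => core1_top_of_good hgood hdeg M ℓ p hM hℓ hp hpMℓ A hA

/-- **R6**, from MOD1 (minimal form), FIN and the degrees. -/
theorem core1Top_of_mod (hmod : Mod1Hyp) (hfin : FinHyp) (hdeg : DegHyp) :
    Fermat.Agent.S48.H556.Core1Top :=
  core1Top_of_good (goodCore1_of_mod hmod hfin) hdeg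

end Fermat.Agent.S48.H908.Core1

end
end
-- ===== PACK-END S48/H908/Core1Top.lean

-- ===== PACK-BEGIN S48/Kum/Defs.lean
section
/-
Tower A1 (row S48, RES) / sub-tower A1-KUM (the Kummer map) — FROZEN interface definitions.
Sub-architect: helper822.  Namespace `Fermat.Agent.S48.Kum`.
Do not edit; propose changes via a note kind='question' stmt='S48'.

GENERIC port of `Fermat/Agent/S29/M4b/Defs.lean`: the group `Γ ≤ SL(2,ℤ)` (for Tower A1:
`Γ₁(M)`) and the function field `F ⊆ ℚ̄((q))` (for Tower A1: `ℚ̄ · F₁(M)`) are PARAMETERS.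
For `Γ = Γ₀(N)`, `F = FF N` everything below is definitionally the S29 object.

* `IsGood Γ G`      : `G` holomorphic on `ℍ`, `Γ`-invariant, all `SL₂(ℤ)`-translates of at most
                      exponential growth (`S24.H648.goodRing N` for `Γ₀(N)`).
* `Realises Γ F u G`: `G` is good and its `q`-expansion at `i∞` is `u ∈ F` (coefficients embedded
                      by the fixed `Deg457.iotaC : ℚ̄ → ℂ`).
* `IsTwisted Γ p c U`: `U` holomorphic, not identically `0`, `U ∘ γ = ζ_p ^ c(γ) · U`, `U ^ p` good.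
* `IsKum Γ F p c x` : `x ∈ Pic⁰(F)` is the Kummer class of the character `c`.
* `IsParHom Γ c`    : `c` additive, zero on elements of trace `±2` and on torsion elements.
* `IsFactor`, `IsTransfer`, `IsTransferEx` : the transfer (cohomological Hecke operator) with
                      respect to an arbitrary finite family `A : I → GL₂(ℝ)` of coset
                      representatives.
-/


set_option autoImplicit false

noncomputable section

open ModularCurve AlgebraicCurve UpperHalfPlane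
open scoped MatrixGroups Manifold

namespace Fermat.Agent.S48.Kum

open Fermat.Agent.S24 Fermat.Agent.S29

/-- The type of function fields: intermediate fields `ℚ̄ ⊆ F ⊆ ℚ̄((q))`. -/
abbrev KF : Type := IntermediateField Kbar (LaurentSeries Kbar)

/-- `G` is a good function for `Γ`: holomorphic on `ℍ`, `Γ`-invariant, and every
`SL₂(ℤ)`-translate has at most exponential growth at `i∞`. -/
def IsGood (Γ : Subgroup SL(2, ℤ)) (G : ℍ → ℂ) : Prop :=
  MDifferentiable 𝓘(ℂ) 𝓘(ℂ) G ∧ (∀ γ ∈ Γ, ∀ τ : ℍ, G (γ • τ) = G τ) ∧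
    ∀ g : SL(2, ℤ), H648.ExpGrowth (fun τ => G (g • τ))

/-- `G : ℍ → ℂ` realises `u ∈ F`: `G` is good for `Γ` and its `q`-expansion at `i∞` is `u`. -/
def Realises (Γ : Subgroup SL(2, ℤ)) (F : KF) (u : F) (G : ℍ → ℂ) : Prop :=
  IsGood Γ G ∧ H708.qexpFun 1 G = coeffMap Deg457.iotaC ((u : F) : LaurentSeries Kbar)

/-- `U` transforms under `Γ` by the character `γ ↦ ζ_p ^ c(γ)`. -/
def HasChar (Γ : Subgroup SL(2, ℤ)) (p : ℕ) (c : Γ → ZMod p) (U : ℍ → ℂ) : Prop :=
  ∀ (γ : Γ) (τ : ℍ), U ((γ : SL(2, ℤ)) • τ) = M4b.zetaP p ^ (c γ).val * U τ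

/-- `U` is a twisted function of character `c`. -/
structure IsTwisted (Γ : Subgroup SL(2, ℤ)) (p : ℕ) (c : Γ → ZMod p) (U : ℍ → ℂ) : Prop where
  mdiff : MDifferentiable 𝓘(ℂ) 𝓘(ℂ) U
  ne_zero : ∃ τ : ℍ, U τ ≠ 0
  hasChar : HasChar Γ p c U
  pow_good : IsGood Γ (fun τ => U τ ^ p)

/-- **The Kummer relation.**  `x ∈ Pic⁰(F)` is the Kummer class of the character `c` of `Γ`:
`x = [D]`, `p • D = div f`, and after clearing poles by a `p`-th power `t ^ p` the function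
`f * t ^ p` is (the `q`-expansion of) the `p`-th power of a twisted function of character `c`. -/
def IsKum (Γ : Subgroup SL(2, ℤ)) (F : KF) (p : ℕ) (c : Γ → ZMod p) (x : Pic0 Kbar F) : Prop :=
  ∃ (f t : F) (U : ℍ → ℂ), t ≠ 0 ∧ H455.IsKummerClass (p : ℤ) f x ∧
    IsTwisted Γ p c U ∧ Realises Γ F (f * t ^ p) (fun τ => U τ ^ p)

/-- `c : Γ → A` is an additive character vanishing on all elements of trace `±2`
(cusp stabilisers, `-1`) and on all torsion (elliptic) elements. -/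
structure IsParHom (Γ : Subgroup SL(2, ℤ)) {A : Type*} [AddCommGroup A] (c : Γ → A) : Prop where
  map_mul : ∀ γ γ' : Γ, c (γ * γ') = c γ + c γ'
  parabolic : ∀ γ : Γ, (((γ : SL(2, ℤ)) : Matrix (Fin 2) (Fin 2) ℤ).trace = 2 ∨
    ((γ : SL(2, ℤ)) : Matrix (Fin 2) (Fin 2) ℤ).trace = -2) → c γ = 0
  elliptic : ∀ (γ : Γ) (n : ℕ), 0 < n → γ ^ n = 1 → c γ = 0

section Transfer

variable (Γ : Subgroup SL(2, ℤ)) {I : Type*}

/-- `A i * γ = δ * A j` in `GL₂(ℝ)`, with `(j, δ) = q`. -/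
def IsFactor (A : I → GL (Fin 2) ℝ) (γ : Γ) (i : I) (q : I × Γ) : Prop :=
  A i * Matrix.SpecialLinearGroup.mapGL ℝ (γ : SL(2, ℤ)) =
    Matrix.SpecialLinearGroup.mapGL ℝ ((q.2 : Γ) : SL(2, ℤ)) * A q.1

/-- `c'` is the transfer of `c` along the representatives `A`: `c'(γ) = ∑ᵢ c(δᵢ)` for EVERY
factorisation `Aᵢ γ = δᵢ A_{π i}`. -/
def IsTransfer [Fintype I] {B : Type*} [AddCommMonoid B] (A : I → GL (Fin 2) ℝ)
    (c c' : Γ → B) : Prop :=
  ∀ (γ : Γ) (π : I → I) (δ : I → Γ), (∀ i, IsFactor Γ A γ i (π i, δ i)) → c' γ = ∑ i, c (δ i)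

/-- Every `γ ∈ Γ` permutes the representatives `A`. -/
def HasFactors (A : I → GL (Fin 2) ℝ) : Prop :=
  ∀ γ : Γ, ∃ (π : Equiv.Perm I) (δ : I → Γ), ∀ i, IsFactor Γ A γ i (π i, δ i)

/-- Existential form of the transfer: for every `γ` there is SOME factorisation
`Aᵢ γ = δᵢ A_{π i}` (`π` a permutation) with `c'(γ) = ∑ᵢ c(δᵢ)`.
(`HasFactors` + `IsTransfer` imply `IsTransferEx`; this is the form used by the pieces.) -/
def IsTransferEx [Fintype I] {B : Type*} [AddCommMonoid B] (A : I → GL (Fin 2) ℝ)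
    (c c' : Γ → B) : Prop :=
  ∀ γ : Γ, ∃ (π : Equiv.Perm I) (δ : I → Γ),
    (∀ i, IsFactor Γ A γ i (π i, δ i)) ∧ c' γ = ∑ i, c (δ i)

theorem isTransferEx_of [Fintype I] {B : Type*} [AddCommMonoid B] {A : I → GL (Fin 2) ℝ}
    {c c' : Γ → B} (hfac : HasFactors Γ A) (htr : IsTransfer Γ A c c') :
    IsTransferEx Γ A c c' := fun γ => by
  obtain ⟨π, δ, h⟩ := hfac γ
  exact ⟨π, δ, h, htr γ π δ h⟩

end Transfer

end Fermat.Agent.S48.Kum

end
end
-- ===== PACK-END S48/Kum/Defs.lean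

-- ===== PACK-BEGIN S48/Kum/Top.lean
section
/-
Tower A1 (row S48, RES) / sub-tower A1-KUM (the Kummer map) — PIECES and TOP ASSEMBLY.
Sub-architect: helper822.  Namespace `Fermat.Agent.S48.Kum`.

GENERIC in the group `Γ ≤ SL(2,ℤ)` and the function field `F ⊆ ℚ̄((q))`; port of
`Fermat/Agent/S29/M4b/Top.lean`.  A piece is DONE when it proves one of the `Prop`s below for
`Γ = Γ₁(M)`, `F = ℚ̄·F₁(M)` (or generically).

* dictionary axioms (owners: A1-FF): `DictInter`, `DictMero`, `NormAn`, `DiaAn`;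
* pieces: `PieceK1`, `PieceK2`, `PieceK3`, `PieceUniq`, `PieceInj`, `PieceAdd`,
  `PieceHecke` (for a correspondence `C : Corr F` and representatives `A`),
  `PieceDia` (for a semilinear automorphism `δ` and `a` normalising `Γ`);
* assembly: `exists_kummerMap` (the map `κ`), `kummerMap_hecke`, `kummerMap_dia`.
-/


set_option autoImplicit false

noncomputable section

open ModularCurve AlgebraicCurve UpperHalfPlane
open scoped MatrixGroups Manifold

namespace Fermat.Agent.S48.Kum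

open Fermat.Agent.S24 Fermat.Agent.S29

/-! ### Correspondences and diamond automorphisms -/

/-- A correspondence on the curve with function field `F`: a second function field `F'` with two
`ℚ̄`-embeddings `φ ψ : F → F'` and the Prelude hypotheses needed to define
`Pic0.correspondence φ ψ = ψ_* φ^*`.  (Tower A1: `F' = ℚ̄·F₁(M;p)`, `ψ` = inclusion,
`φ` = `q ↦ q^p`.) -/
structure Corr (F : KF) where
  F' : Type
  [field : Field F']
  [alg : Algebra Kbar F']
  [hpd : HasPrincipalDivisors Kbar F']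
  φ : F →ₐ[Kbar] F'
  ψ : F →ₐ[Kbar] F'
  hφ : φ.toRingHom.IsIntegral
  hψ : ψ.toRingHom.IsIntegral
  hFI : FundamentalIdentityAlong Kbar φ hφ
  hfin : FiniteAlong Kbar ψ
  hN : NormFormulaAlong Kbar ψ hfin

attribute [instance] Corr.field Corr.alg Corr.hpd

/-- The operator `ψ_* φ^*` on `Pic⁰(F)`. -/
def Corr.op {F : KF} (C : Corr F) : Pic0 Kbar F →+ Pic0 Kbar F :=
  Pic0.correspondence C.φ C.ψ C.hφ C.hψ C.hFI C.hfin C.hN

/-- The norm map `u ↦ Norm_ψ (φ u)` on `F`. -/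
def Corr.norm {F : KF} (C : Corr F) (u : F) : F := H455.normAlong C.ψ (C.φ u)

/-- Conjugation by `a` on `Γ` (`a` normalises `Γ`). -/
def conjΓ (Γ : Subgroup SL(2, ℤ)) (a : SL(2, ℤ)) (ha : ∀ γ ∈ Γ, a * γ * a⁻¹ ∈ Γ) (γ : Γ) : Γ :=
  ⟨a * (γ : SL(2, ℤ)) * a⁻¹, ha γ γ.2⟩

/-! ### Dictionary axioms (inputs from A1-FF) -/

section Dict

variable (Γ : Subgroup SL(2, ℤ)) (F : KF)

/-- DICT-INTER: a good function whose `q`-expansion has coefficients in `ℚ̄` lies in `F`. -/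
def DictInter : Prop :=
  ∀ (G : ℍ → ℂ) (s : LaurentSeries Kbar), IsGood Γ G →
    H708.qexpFun 1 G = coeffMap Deg457.iotaC s → s ∈ F

/-- DICT-MERO: every element of `F` is a quotient of two realised elements. -/
def DictMero : Prop :=
  ∀ u : F, ∃ (u₁ u₂ : F) (G₁ G₂ : ℍ → ℂ), u₂ ≠ 0 ∧ u * u₂ = u₁ ∧
    Realises Γ F u₁ G₁ ∧ Realises Γ F u₂ G₂

/-- NORM-AN: the analytic norm formula for the correspondence `C` with representatives `A`:
if `G` realises `u` then `∏ᵢ G ∘ Aᵢ` realises `Norm_ψ (φ u)`. -/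
def NormAn {I : Type*} [Fintype I] (C : Corr F) (A : I → GL (Fin 2) ℝ) : Prop :=
  ∀ (u : F) (G : ℍ → ℂ), Realises Γ F u G →
    Realises Γ F (C.norm u) (fun τ => ∏ i, G (A i • τ))

/-- DIA-AN: the automorphism `δ` of `F` is composition with `a` on realisations. -/
def DiaAn (δ : SemilinearAut Kbar F) (a : SL(2, ℤ)) : Prop :=
  ∀ (u : F) (G : ℍ → ℂ), Realises Γ F u G → Realises Γ F (δ • u) (fun τ => G (a • τ))

end Dict

/-! ### The pieces -/

section Pieces

variable (Γ : Subgroup SL(2, ℤ)) (F : KF) (p : ℕ)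

/-- PIECE `K1` (twisted Eisenstein series). -/
def PieceK1 : Prop :=
  ∀ {c : Γ → ZMod p}, _root_.Fermat.Agent.S48.Kum.IsParHom Γ c → ∃ U : ℍ → ℂ, IsTwisted Γ p c U

/-- PIECE `K3` (descent `ℂ → ℚ̄`). -/
def PieceK3 : Prop :=
  ∀ {c : Γ → ZMod p}, _root_.Fermat.Agent.S48.Kum.IsParHom Γ c → ∀ {U : ℍ → ℂ}, IsTwisted Γ p c U →
    ∃ (U' : ℍ → ℂ) (u : F), IsTwisted Γ p c U' ∧ Realises Γ F u (fun τ => U' τ ^ p)

/-- PIECE `K2` (dictionary of places: `p ∣ ord_v u` for every place `v`). -/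
def PieceK2 : Prop :=
  ∀ {c : Γ → ZMod p}, _root_.Fermat.Agent.S48.Kum.IsParHom Γ c → ∀ {U : ℍ → ℂ} {u : F}, IsTwisted Γ p c U →
    Realises Γ F u (fun τ => U τ ^ p) → ∃ x : Pic0 Kbar F, H455.IsKummerClass (p : ℤ) u x

/-- PIECE `K4-UNIQ`. -/
def PieceUniq : Prop :=
  ∀ {c : Γ → ZMod p} {x x' : Pic0 Kbar F}, IsKum Γ F p c x → IsKum Γ F p c x' → x = x'

/-- PIECE `K4-INJ`. -/
def PieceInj : Prop :=
  ∀ {c : Γ → ZMod p}, IsKum Γ F p c (0 : Pic0 Kbar F) → c = 0

/-- PIECE `K4-ADD`. -/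
def PieceAdd : Prop :=
  ∀ {c c' : Γ → ZMod p} {x x' : Pic0 Kbar F},
    IsKum Γ F p c x → IsKum Γ F p c' x' → IsKum Γ F p (c + c') (x + x')

/-- PIECE `K4-HECKE` for the correspondence `C` and the representatives `A`. -/
def PieceHecke {I : Type*} [Fintype I] (C : Corr F) (A : I → GL (Fin 2) ℝ) : Prop :=
  ∀ {c c' : Γ → ZMod p}, IsTransferEx Γ A c c' →
    ∀ {x : Pic0 Kbar F}, IsKum Γ F p c x → IsKum Γ F p c' (C.op x)

/-- PIECE `K4-DIAMOND` for the automorphism `δ` and the normalising element `a`. -/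
def PieceDia (δ : SemilinearAut Kbar F) (a : SL(2, ℤ)) (ha : ∀ γ ∈ Γ, a * γ * a⁻¹ ∈ Γ) : Prop :=
  ∀ {c : Γ → ZMod p} {x : Pic0 Kbar F}, IsKum Γ F p c x →
    IsKum Γ F p (fun γ => c (conjΓ Γ a ha γ)) (δ • x)

end Pieces

/-! ### Assembly -/

section Assembly

variable {Γ : Subgroup SL(2, ℤ)} {F : KF} {p : ℕ}

theorem isKum_exists (h1 : PieceK1 Γ p) (h3 : PieceK3 Γ F p) (h2 : PieceK2 Γ F p)
    {c : Γ → ZMod p} (hc : _root_.Fermat.Agent.S48.Kum.IsParHom Γ c) : ∃ x : Pic0 Kbar F, IsKum Γ F p c x := by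
  obtain ⟨U, hU⟩ := h1 hc
  obtain ⟨U', u, hU', hu⟩ := h3 hc hU
  obtain ⟨x, hx⟩ := h2 hc hU' hu
  refine ⟨x, u, 1, U', one_ne_zero, hx, hU', ?_⟩
  simpa using hu

theorem isKum_torsion {c : Γ → ZMod p} {x : Pic0 Kbar F} (h : IsKum Γ F p c x) :
    (p : ℤ) • x = 0 := by
  obtain ⟨f, t, U, -, hx, -, -⟩ := h
  exact hx.zsmul_eq_zero

open Classical in
/-- The Kummer map: `κ c` is THE Kummer class of `c` (and `0` if there is none). -/
def kummerMap (Γ : Subgroup SL(2, ℤ)) (F : KF) (p : ℕ) (c : Γ → ZMod p) : Pic0 Kbar F :=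
  if h : ∃ x : Pic0 Kbar F, IsKum Γ F p c x then h.choose else 0

theorem isKum_kummerMap (h1 : PieceK1 Γ p) (h3 : PieceK3 Γ F p) (h2 : PieceK2 Γ F p)
    {c : Γ → ZMod p} (hc : _root_.Fermat.Agent.S48.Kum.IsParHom Γ c) : IsKum Γ F p c (kummerMap Γ F p c) := by
  have h := isKum_exists h1 h3 h2 hc
  rw [kummerMap, dif_pos h]
  exact h.choose_spec

theorem kummerMap_eq (hu : PieceUniq Γ F p) {c : Γ → ZMod p} {x : Pic0 Kbar F}
    (h : IsKum Γ F p c x) : kummerMap Γ F p c = x := by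
  have h' : ∃ x : Pic0 Kbar F, IsKum Γ F p c x := ⟨x, h⟩
  rw [kummerMap, dif_pos h']
  exact hu h'.choose_spec h

theorem kummerMap_torsion (c : Γ → ZMod p) : (p : ℤ) • kummerMap Γ F p c = 0 := by
  unfold kummerMap
  split_ifs with h
  · exact isKum_torsion h.choose_spec
  · exact smul_zero _

/-- **Output of sub-tower A1-KUM** for a fixed group, field and modulus, from the six basic
pieces: the Kummer map `κ = kummerMap Γ F p` is additive and injective on parabolic characters,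
takes values in the `p`-torsion, and `κ c` is characterised by the relation `IsKum`. -/
theorem exists_kummerMap (h1 : PieceK1 Γ p) (h3 : PieceK3 Γ F p) (h2 : PieceK2 Γ F p)
    (hu : PieceUniq Γ F p) (hi : PieceInj Γ F p) (ha : PieceAdd Γ F p) :
    (∀ c, _root_.Fermat.Agent.S48.Kum.IsParHom Γ c → IsKum Γ F p c (kummerMap Γ F p c)) ∧
    (∀ c, (p : ℤ) • kummerMap Γ F p c = 0) ∧
    (∀ c c', _root_.Fermat.Agent.S48.Kum.IsParHom Γ c → _root_.Fermat.Agent.S48.Kum.IsParHom Γ c' →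
      kummerMap Γ F p (c + c') = kummerMap Γ F p c + kummerMap Γ F p c') ∧
    (∀ c, _root_.Fermat.Agent.S48.Kum.IsParHom Γ c → kummerMap Γ F p c = 0 → c = 0) ∧
    (∀ c x, IsKum Γ F p c x → kummerMap Γ F p c = x) := by
  refine ⟨fun c hc => isKum_kummerMap h1 h3 h2 hc, kummerMap_torsion, fun c c' hc hc' => ?_,
    fun c hc h0 => ?_, fun c x h => kummerMap_eq hu h⟩
  · exact kummerMap_eq hu (ha (isKum_kummerMap h1 h3 h2 hc) (isKum_kummerMap h1 h3 h2 hc'))
  · have h := isKum_kummerMap h1 h3 h2 hc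
    rw [h0] at h
    exact hi h

/-- Hecke equivariance of the Kummer map: `κ c' = T (κ c)` whenever `c'` is the transfer of `c`
along the representatives `A` of the correspondence `C` (`T = C.op`). -/
theorem kummerMap_hecke (h1 : PieceK1 Γ p) (h3 : PieceK3 Γ F p) (h2 : PieceK2 Γ F p)
    (hu : PieceUniq Γ F p) {I : Type*} [Fintype I] (C : Corr F) (A : I → GL (Fin 2) ℝ)
    (hh : PieceHecke Γ F p C A)
    {c c' : Γ → ZMod p} (hc : _root_.Fermat.Agent.S48.Kum.IsParHom Γ c) (htr : IsTransferEx Γ A c c') :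
    kummerMap Γ F p c' = C.op (kummerMap Γ F p c) :=
  kummerMap_eq hu (hh htr (isKum_kummerMap h1 h3 h2 hc))

/-- Diamond equivariance of the Kummer map: `κ (c ∘ conj_a) = δ • κ c`. -/
theorem kummerMap_dia (h1 : PieceK1 Γ p) (h3 : PieceK3 Γ F p) (h2 : PieceK2 Γ F p)
    (hu : PieceUniq Γ F p) (δ : SemilinearAut Kbar F) (a : SL(2, ℤ))
    (ha : ∀ γ ∈ Γ, a * γ * a⁻¹ ∈ Γ) (hd : PieceDia Γ F p δ a ha)
    {c : Γ → ZMod p} (hc : _root_.Fermat.Agent.S48.Kum.IsParHom Γ c) :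
    kummerMap Γ F p (fun γ => c (conjΓ Γ a ha γ)) = δ • kummerMap Γ F p c :=
  kummerMap_eq hu (hd (isKum_kummerMap h1 h3 h2 hc))

end Assembly

end Fermat.Agent.S48.Kum

end
end
-- ===== PACK-END S48/Kum/Top.lean

-- ===== PACK-BEGIN S48/Kum/Basic.lean
section
/-
Tower A1 / A1-KUM (helper822): basic API for the frozen definitions of `Kum/Defs.lean`
(good functions, characters, realisations).  Generic port of `S29/M4b/H822/Basic.lean`.
-/




set_option autoImplicit false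

noncomputable section

open ModularCurve AlgebraicCurve UpperHalfPlane
open scoped MatrixGroups Manifold

namespace Fermat.Agent.S48.Kum

open Fermat.Agent.S24 Fermat.Agent.S29 Fermat.Agent.S29.M4b Fermat.Agent.S29.M4b.H822

/-! ### Good functions -/

section Good

variable {Γ : Subgroup SL(2, ℤ)}

theorem isGood_const (Γ : Subgroup SL(2, ℤ)) (c : ℂ) : IsGood Γ (fun _ => c) :=
  ⟨mdifferentiable_const, fun _ _ _ => rfl, fun _ => H648.expGrowth_const c⟩

theorem IsGood.mul {G H : ℍ → ℂ} (hG : IsGood Γ G) (hH : IsGood Γ H) : IsGood Γ (G * H) := by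
  obtain ⟨h1, h2, h3⟩ := hG
  obtain ⟨h1', h2', h3'⟩ := hH
  refine ⟨h1.mul h1', fun γ hγ τ => ?_, fun g => ?_⟩
  · show G (γ • τ) * H (γ • τ) = G τ * H τ
    rw [h2 γ hγ τ, h2' γ hγ τ]
  · exact (h3 g).mul (h3' g)

theorem IsGood.pow {G : ℍ → ℂ} (hG : IsGood Γ G) (n : ℕ) : IsGood Γ (G ^ n) := by
  induction n with
  | zero =>
    have : (G ^ 0 : ℍ → ℂ) = fun _ => (1 : ℂ) := by
      funext τ
      simp
    rw [this]
    exact isGood_const Γ 1
  | succ n ih =>
    rw [pow_succ]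
    exact ih.mul hG

theorem IsGood.mono {Γ' : Subgroup SL(2, ℤ)} {G : ℍ → ℂ} (h : IsGood Γ' G) (hle : Γ ≤ Γ') :
    IsGood Γ G :=
  ⟨h.1, fun γ hγ τ => h.2.1 γ (hle hγ) τ, h.2.2⟩

/-- A `Γ`-good function is good for the trivial level: it lies in `goodRing 0`
(`Γ₀(0) = {± T ^ n}`), provided `T ∈ Γ`. -/
theorem IsGood.periodic {G : ℍ → ℂ} (hG : IsGood Γ G) (hT : ModularGroup.T ∈ Γ) :
    Function.Periodic (G ∘ ofComplex) (1 : ℝ) := by
  intro w
  by_cases hw : 0 < Complex.im w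
  · have hw' : 0 < Complex.im (w + ((1 : ℝ) : ℂ)) := by simpa using hw
    simp only [Function.comp_apply, ofComplex_apply_of_im_pos hw', ofComplex_apply_of_im_pos hw]
    have h := hG.2.1 _ hT ⟨w, hw⟩
    rw [← h]
    congr 1
    apply UpperHalfPlane.ext
    rw [UpperHalfPlane.modular_T_smul, UpperHalfPlane.coe_vadd]
    simp [add_comm]
  · have hw0 : Complex.im w ≤ 0 := not_lt.mp hw
    have hw' : Complex.im (w + ((1 : ℝ) : ℂ)) ≤ 0 := by simpa using hw0
    simp only [Function.comp_apply]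
    rw [ofComplex_apply_of_im_nonpos hw', ofComplex_apply_of_im_nonpos hw0]

theorem IsGood.isMerInf {G : ℍ → ℂ} (hG : IsGood Γ G) (hT : ModularGroup.T ∈ Γ) :
    H708.IsMerInf 1 G := by
  refine ⟨hG.1, ?_, ?_⟩
  · have := hG.periodic hT
    simpa using this
  · have h := hG.2.2 1
    simp only [one_smul] at h
    exact H882.isBounded_mul_qh_pow_of_expGrowth h

theorem IsGood.hasQExp {G : ℍ → ℂ} (hG : IsGood Γ G) (hT : ModularGroup.T ∈ Γ) :
    H708.HasQExp 1 G (H708.qexpFun 1 G) :=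
  H708.HasQExp.of_isMerInf (hG.isMerInf hT)

/-- A holomorphic `Γ`-invariant function whose `p`-th power is good is good. -/
theorem isGood_of_pow {V : ℍ → ℂ} {p : ℕ} (hp : p ≠ 0)
    (hV : MDifferentiable 𝓘(ℂ) 𝓘(ℂ) V)
    (hinv : ∀ γ ∈ Γ, ∀ τ : ℍ, V (γ • τ) = V τ)
    (hpow : IsGood Γ (fun τ => V τ ^ p)) : IsGood Γ V :=
  ⟨hV, hinv, fun g => expGrowth_of_pow hp (hpow.2.2 g)⟩

end Good

/-! ### Characters -/

section Char

variable {Γ : Subgroup SL(2, ℤ)} {p : ℕ} [NeZero p]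

theorem hasChar_mul {c c' : Γ → ZMod p} {U U' : ℍ → ℂ}
    (h : _root_.Fermat.Agent.S48.Kum.HasChar Γ p c U) (h' : _root_.Fermat.Agent.S48.Kum.HasChar Γ p c' U') :
    _root_.Fermat.Agent.S48.Kum.HasChar Γ p (c + c') (fun τ => U τ * U' τ) := by
  intro γ τ
  show U _ * U' _ = _
  rw [h γ τ, h' γ τ, Pi.add_apply, zetaP_pow_val_add]
  ring

theorem hasChar_pow_invariant {c : Γ → ZMod p} {U : ℍ → ℂ}
    (h : _root_.Fermat.Agent.S48.Kum.HasChar Γ p c U) (γ : Γ) (τ : ℍ) :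
    U ((γ : SL(2, ℤ)) • τ) ^ p = U τ ^ p := by
  rw [h γ τ, mul_pow, ← pow_mul, mul_comm (c γ).val p, pow_mul, zetaP_pow_self, one_pow, one_mul]

end Char

/-! ### Realisations -/

section Realises

variable {Γ : Subgroup SL(2, ℤ)} {F : KF}

theorem Realises.isGood {u : F} {G : ℍ → ℂ} (h : _root_.Fermat.Agent.S48.Kum.Realises Γ F u G) : IsGood Γ G := h.1

theorem Realises.hasQExp (hT : ModularGroup.T ∈ Γ) {u : F} {G : ℍ → ℂ}
    (h : _root_.Fermat.Agent.S48.Kum.Realises Γ F u G) :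
    H708.HasQExp 1 G (coeffMap Deg457.iotaC ((u : F) : LaurentSeries Kbar)) :=
  ⟨h.1.isMerInf hT, h.2⟩

theorem realises_of_hasQExp {u : F} {G : ℍ → ℂ} (hG : IsGood Γ G)
    (h : H708.HasQExp 1 G (coeffMap Deg457.iotaC ((u : F) : LaurentSeries Kbar))) :
    _root_.Fermat.Agent.S48.Kum.Realises Γ F u G :=
  ⟨hG, h.2⟩

theorem Realises.mul (hT : ModularGroup.T ∈ Γ) {u v : F} {G H : ℍ → ℂ}
    (hu : _root_.Fermat.Agent.S48.Kum.Realises Γ F u G) (hv : _root_.Fermat.Agent.S48.Kum.Realises Γ F v H) : _root_.Fermat.Agent.S48.Kum.Realises Γ F (u * v) (G * H) := by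
  refine _root_.Fermat.Agent.S48.Kum.realises_of_hasQExp (hu.1.mul hv.1) ?_
  have := (hu.hasQExp hT).mul (hv.hasQExp hT)
  simpa using this

theorem Realises.pow (hT : ModularGroup.T ∈ Γ) {u : F} {G : ℍ → ℂ}
    (hu : _root_.Fermat.Agent.S48.Kum.Realises Γ F u G) (n : ℕ) : _root_.Fermat.Agent.S48.Kum.Realises Γ F (u ^ n) (G ^ n) := by
  refine _root_.Fermat.Agent.S48.Kum.realises_of_hasQExp (hu.1.pow n) ?_
  have := (hu.hasQExp hT).pow n
  simpa using this

/-- A realisation of a nonzero element is not the zero function. -/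
theorem Realises.ne_zero (hT : ModularGroup.T ∈ Γ) {u : F} {G : ℍ → ℂ}
    (h : _root_.Fermat.Agent.S48.Kum.Realises Γ F u G) (hu : u ≠ 0) : G ≠ 0 := by
  intro hG
  have h1 := ((h.hasQExp hT).eq_zero_iff).mpr hG
  have h2 : ((u : F) : LaurentSeries Kbar) = 0 :=
    coeffMap_iotaC_injective (by rw [h1, map_zero])
  exact hu (Subtype.ext h2)

/-- The realised element is determined by the function. -/
theorem Realises.unique_left {u v : F} {G : ℍ → ℂ} (hu : _root_.Fermat.Agent.S48.Kum.Realises Γ F u G)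
    (hv : _root_.Fermat.Agent.S48.Kum.Realises Γ F v G) : u = v := by
  apply Subtype.ext
  apply coeffMap_iotaC_injective
  rw [← hu.2, ← hv.2]

/-- The function is determined by the realised element. -/
theorem Realises.unique_right (hT : ModularGroup.T ∈ Γ) {u : F} {G H : ℍ → ℂ}
    (hG : _root_.Fermat.Agent.S48.Kum.Realises Γ F u G) (hH : _root_.Fermat.Agent.S48.Kum.Realises Γ F u H) : G = H :=
  (hG.hasQExp hT).eq_of_eq (hH.hasQExp hT)

end Realises

end Fermat.Agent.S48.Kum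

end
end
-- ===== PACK-END S48/Kum/Basic.lean

-- ===== PACK-BEGIN S48/H136/RawES1V.lean
section
/-
S48 / Tower A1 (helper136) — node A1-ES: the ADAPTER, version 2

    `rawES1_of_val : Core1Statement → Val1Statement → HI1Statement → NormId1Statement →
        Res.RawES1Statement true`

from the generic engine `ESKV.lean` to the frozen shape of `Fermat/Agent/S48/Res/Parts.lean`, for
`(F₀, F', F_k, δ) = (F1 M, ℚ̄·F1p M p, F1C k M, diamondAut (unitOf M p))`.

The FOUR inputs (all for primes `p ∤ M` and valuation subrings `A ⊆ ℚ̄` above `p`, `k = A/𝔪`):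

* `Core1Statement`   : the Kummer core `CoreG (F1 M) A (F1C k M) ℓ`, `ℓ ≠ p` prime   [A1-RED];
* `Val1Statement`    : `ValG (F1 M) A (F1C k M)`: every `f ≠ 0` in `ℚ̄·F1 M` is `c · u₁/u₂` with
                       `u₁ u₂` integral series (Gauss lemma; port of `S37/H700` `pgi`)  [A1-RED];
* `HI1Statement`     : `CorrInputs (beta1) (alpha1)`                                   [A1-FF];
* `NormId1Statement` : `Nm_α (β y) = V_p y · det (secMat p (δ_p y))`                   [A1-NORM].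

This REPLACES `rawES1_of_inputs` of `RawES1.lean`, whose input `DiamondInt1Statement` (the diamond
preserves series with integral `q`-expansion) is false for `p ≢ ±1` mod `M`; `PGI1Statement` is no
longer needed.
-/



set_option autoImplicit false
set_option linter.style.haveILetI false

noncomputable section

namespace Fermat.Agent.S48.H136

open ModularCurve AlgebraicCurve HahnSeries IsLocalRing
open Fermat.Agent.S18 (Qb)
open Fermat.Agent.S48.F1 Fermat.Agent.S48.Res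

/-- **VAL1**: every nonzero element of `ℚ̄ · F1 M` is a constant times a quotient of two integral
series, at every place `A` above a prime `p ∤ M`. -/
def Val1Statement : Prop :=
  ∀ (M p : ℕ), M ≠ 0 → p.Prime → ¬ p ∣ M →
    ∀ A : ValuationSubring Qb, A.LiesOverPrime p → ValG (F1 M) A (F1C (ResidueField A) M)

/-- **RawES1 from its four inputs** (exact shape of `Res/Parts.lean`, orientation `s = true`). -/
theorem rawES1_of_val (hcore : Core1Statement) (hval : Val1Statement) (hHI : HI1Statement)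
    (hnid : NormId1Statement) : RawES1Statement true := by
  intro M ℓ p hM hℓ hp hpMℓ A hA
  have hpM : ¬ p ∣ M := fun h => hpMℓ (Dvd.dvd.mul_right h ℓ)
  haveI : NeZero p := ⟨hp.ne_zero⟩
  have hC := hcore M ℓ p hM hℓ hp hpMℓ A hA
  have hV := hval M p hM hp hpM A hA
  have hst := stableG_F1C A M
  refine ⟨eskV_inertia hℓ.ne_zero hC hV hst, ?_⟩
  intro σ hσ x hx
  obtain ⟨hβ, hα, hPD, hfin, hFI, hN⟩ := hHI M p hM hp hpM
  haveI := hPD
  have h := eskV_frob hp hℓ.ne_zero hA hC hV hst (alpha1 Qb M p) (beta1 Qb M p) hα hβ hFI hfin hN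
    (diamondAut Qb M (unitOf M p)) (fun τ y => diamondAut_galois M (unitOf M p) τ y)
    (hnid M p hM hp hpM) σ hσ x hx
  have hT : hecke1 M p = (Pic0.correspondence (beta1 Qb M p) (alpha1 Qb M p) hβ hα hFI hfin
      hN).toIntLinearMap := by
    rw [hecke1_eq, heckeL, corrOp_eq (beta1 Qb M p) (alpha1 Qb M p) hβ hα hFI hfin hN]
  have hD : diamondS true M p (σ • σ • x)
      = σ • σ • (diamondAut Qb M (unitOf M p) • x) := by
    show diamond1 M (unitOf M p) (σ • σ • x) = _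
    rw [galois_smul_diamond1, galois_smul_diamond1, diamond1_apply, pic0_ofAlgAut_smul]
  rw [hD, hT]
  exact h

end Fermat.Agent.S48.H136

end
end
-- ===== PACK-END S48/H136/RawES1V.lean

-- ===== PACK-BEGIN S48/H68/RawES1Val.lean
section
/-
S48 / Tower A1 (helper68) — leaf VAL1 (= PGI1 in function form) CLOSED, and RawES1 from THREE inputs.

* `valG_top`  : for `F₀ = ℚ(S)`, `S` a set of series with integral coefficients, and every valuation
  subring `A ⊆ ℚ̄` over a prime: `H136.ValG F₀ A ⊤` (Gauss normalisation, `GaussNormal.lean`);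
* `val1Top`   : `H136.ValG (F1 M) A ⊤` for EVERY `M`, every prime `p` and every `A` over `p`
  (unconditional; no hypothesis `p ∤ M`);
* `rawES1_of_three : H556.Core1Top → H136.HI1Statement → H136.NormId1Statement →
    Res.RawES1Statement true`
  (helper136's engine v2 `eskV_inertia` / `eskV_frob` with reduction field `F_k := ⊤`).

So RawES1 needs ONLY: CORE1 (top form), HI1 (= `CorrInputs beta1 alpha1`), NORMID1.
No PGI / PGID / VAL / DIA-INT / reduction-field statement is left.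
-/




set_option autoImplicit false
set_option linter.style.haveILetI false

noncomputable section

namespace Fermat.Agent.S48.H68

open ModularCurve AlgebraicCurve HahnSeries IsLocalRing
open Fermat.Agent.S18 (Qb)
open Fermat.Agent.S48.F1 Fermat.Agent.S48.Res Fermat.Agent.S48.H136 Fermat.Agent.S48.H556

/-- **VAL (top form), generic**: Gauss normalisation in the vocabulary of helper136's engine. -/
theorem valG_top {S : Set (LaurentSeries ℚ)} (hS : IntegralGens S) (A : ValuationSubring Qb)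
    {ℓ : ℕ} (hℓ : ℓ ≠ 0) (hA : A.LiesOverPrime ℓ) :
    ValG (IntermediateField.adjoin ℚ S) A (topK A) := by
  intro f hf
  have hf0 : (f : LaurentSeries Qb) ≠ 0 := fun h => hf (Subtype.ext h)
  obtain ⟨c, U₁, U₂, hc, hm₁, hr₁, hm₂, hr₂, hrel⟩ := exists_gauss_normal hS A hℓ hA f.2 hf0
  refine ⟨c, U₁, U₂, isIntG_top_iff.2 ⟨hm₁, hr₁⟩, isIntG_top_iff.2 ⟨hm₂, hr₂⟩, hc, ?_⟩
  apply Subtype.ext
  show (f : LaurentSeries Qb) * coeffMap A.subtype U₂
    = algebraMap Qb (LaurentSeries Qb) c * coeffMap A.subtype U₁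
  rw [algebraMap_eq_C]
  exact hrel

/-- The generators `j(q^d)`, `P_a` of `F1 M` have integral coefficients. -/
theorem integralGens_F1 (M : ℕ) : IntegralGens (divisorExpansions M ∪ divGens M) := by
  rintro s (hs | hs)
  · obtain ⟨d, hd, -, rfl⟩ := hs
    haveI := hd
    refine ⟨qExpand ℤ d (jqModC ℤ), ?_⟩
    rw [Fermat.Agent.S37.H400.coeffMap_qExpand_h400, coeffMap_jqModC, jqModC_rat]
  · obtain ⟨a, -, rfl⟩ := hs
    exact ⟨divGenC ℤ M a, (coeffMap_divGenC (Int.castRingHom ℚ) M a).symm⟩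

/-- **VAL1 (top form), UNCONDITIONAL**: every nonzero element of `ℚ̄ · F1 M` is a constant times a
quotient of two `A`-integral series of `ℚ̄ · F1 M` with nonzero reduction. -/
theorem val1Top (M : ℕ) {p : ℕ} (hp : p.Prime) (A : ValuationSubring Qb)
    (hA : A.LiesOverPrime p) : ValG (F1 M) A (topK A) :=
  valG_top (integralGens_F1 M) A hp.ne_zero hA

/-- **RawES1 from THREE inputs**: CORE1 (top form), HI1 and NORMID1. -/
theorem rawES1_of_three (hcore : Core1Top) (hHI : HI1Statement) (hnid : NormId1Statement) :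
    RawES1Statement true := by
  intro M ℓ p hM hℓ hp hpMℓ A hA
  have hpM : ¬ p ∣ M := fun h => hpMℓ (Dvd.dvd.mul_right h ℓ)
  haveI : NeZero p := ⟨hp.ne_zero⟩
  have hC := hcore M ℓ p hM hℓ hp hpMℓ A hA
  have hV := val1Top M hp A hA
  have hst := stableG_top A
  refine ⟨eskV_inertia hℓ.ne_zero hC hV hst, ?_⟩
  intro σ hσ x hx
  obtain ⟨hβ, hα, hPD, hfin, hFI, hN⟩ := hHI M p hM hp hpM
  haveI := hPD
  have h := eskV_frob hp hℓ.ne_zero hA hC hV hst (alpha1 Qb M p) (beta1 Qb M p) hα hβ hFI hfin hN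
    (diamondAut Qb M (unitOf M p)) (fun τ y => diamondAut_galois M (unitOf M p) τ y)
    (hnid M p hM hp hpM) σ hσ x hx
  have hT : hecke1 M p = (Pic0.correspondence (beta1 Qb M p) (alpha1 Qb M p) hβ hα hFI hfin
      hN).toIntLinearMap := by
    rw [hecke1_eq, heckeL, corrOp_eq (beta1 Qb M p) (alpha1 Qb M p) hβ hα hFI hfin hN]
  have hD : diamondS true M p (σ • σ • x)
      = σ • σ • (diamondAut Qb M (unitOf M p) • x) := by
    show diamond1 M (unitOf M p) (σ • σ • x) = _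
    rw [galois_smul_diamond1, galois_smul_diamond1, diamond1_apply, pic0_ofAlgAut_smul]
  rw [hD, hT]
  exact h

end Fermat.Agent.S48.H68

end
end
-- ===== PACK-END S48/H68/RawES1Val.lean

-- ===== PACK-BEGIN S48/H332/KumGenChar.lean
section


/-!
# Tower A1 / A1-KUM / K1 — twisted functions for additive characters `Γ → ℤ/m`, generic `Γ`

For ANY subgroup `Γ ≤ SL(2,ℤ)` of level `M` (`HasLevel Γ M`, e.g. `Γ(M) ≤ Γ`) and any additive map
`c : Γ → ZMod m` (`m ≥ 1`) vanishing on all elements of trace `±2`: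

* `GIsParAdd.char` : the character `γ ↦ exp(2πi c(γ)/m)`;
* `GIsParAdd.tfun` : the twisted function `U_c = E^{χ_c}₁₂ / (cΔ)`;
* **`exists_twisted`** (generic piece K1): there is `U : ℍ → ℂ`, holomorphic, not identically zero,
  `U(γτ) = ζ_m ^ c(γ) · U(τ)` (`ζ_m = exp(2πi/m)`), `U ∈ holN M`, every `SL(2,ℤ)`-translate of
  `U` of exponential growth, and `U ^ m` good for `Γ`.
* `exists_twisted_Gamma1` : the same for `Γ₁(M)`, with the `q`-expansion at `i∞` (simple pole,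
  leading coefficient `1`).
-/

set_option autoImplicit false
set_option linter.unusedSectionVars false

noncomputable section

open UpperHalfPlane HahnSeries ModularCurve Complex
open scoped Real MatrixGroups Manifold

namespace Fermat.Agent.S48.H332

open Fermat.Agent.S24 Fermat.Agent.S24.H997 Fermat.Agent.S24.H624 Fermat.Agent.S24.H648
open Fermat.Agent.S29.H332

variable {Γ : Subgroup SL(2, ℤ)} {m : ℕ} [NeZero m]

/-- An additive character `Γ → ℤ/m` vanishing on the elements of trace `±2`. -/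
structure GIsParAdd (c : Γ → ZMod m) : Prop where
  map_mul : ∀ γ γ' : Γ, c (γ * γ') = c γ + c γ'
  parabolic : ∀ γ : Γ,
    ((γ : SL(2, ℤ)).1.trace = 2 ∨ (γ : SL(2, ℤ)).1.trace = -2) → c γ = 0

namespace GIsParAdd

variable {c c' : Γ → ZMod m}

theorem map_one (hc : GIsParAdd c) : c 1 = 0 := by
  have h := hc.map_mul 1 1
  rw [mul_one] at h
  exact left_eq_add.mp h

/-- The multiplicative character `γ ↦ exp(2πi c(γ)/m)`. -/
def char (hc : GIsParAdd c) : Γ →* ℂˣ :=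
  MonoidHom.toHomUnits
    { toFun := fun γ => ZMod.stdAddChar (c γ)
      map_one' := by rw [hc.map_one, AddChar.map_zero_eq_one]
      map_mul' := fun γ γ' => by rw [hc.map_mul, AddChar.map_add_eq_mul] }

@[simp]
theorem char_apply (hc : GIsParAdd c) (γ : Γ) :
    (hc.char γ : ℂ) = ZMod.stdAddChar (c γ) := rfl

theorem norm_char (hc : GIsParAdd c) (γ : Γ) : ‖(hc.char γ : ℂ)‖ = 1 := by
  rw [char_apply, ZMod.stdAddChar_apply]
  exact Circle.norm_coe _

theorem char_pow (hc : GIsParAdd c) (γ : Γ) : hc.char γ ^ m = 1 := by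
  apply Units.ext
  rw [Units.val_pow_eq_pow_val, char_apply, ← AddChar.map_nsmul_eq_pow, Units.val_one]
  have : m • c γ = 0 := by
    rw [nsmul_eq_mul]
    simp
  rw [this, AddChar.map_zero_eq_one]

theorem char_eq_one_iff (hc : GIsParAdd c) (γ : Γ) : hc.char γ = 1 ↔ c γ = 0 := by
  constructor
  · intro h
    have h1 : (hc.char γ : ℂ) = 1 := by rw [h, Units.val_one]
    rw [char_apply, ← AddChar.map_zero_eq_one (ZMod.stdAddChar (N := m))] at h1
    exact ZMod.injective_stdAddChar h1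
  · intro h
    apply Units.ext
    rw [char_apply, h, AddChar.map_zero_eq_one, Units.val_one]

theorem gParTriv (hc : GIsParAdd c) : GParTriv hc.char := by
  intro γ hγ
  rw [char_eq_one_iff]
  exact hc.parabolic γ hγ

theorem gEllTriv (hc : GIsParAdd c)
    (hell : ∀ (γ : Γ) (n : ℕ), 0 < n → γ ^ n = 1 → c γ = 0) :
    GEllTriv hc.char := by
  intro γ n hn hγ
  rw [char_eq_one_iff]
  exact hell γ n hn hγ

/-- Additive characters to `ℤ/m` kill the elements of finite order prime to `m`. -/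
theorem eq_zero_of_pow_eq_one (hc : GIsParAdd c) (γ : Γ) (n : ℕ) (hn : Nat.Coprime n m)
    (hγ : γ ^ n = 1) : c γ = 0 := by
  have hpow : ∀ k : ℕ, c (γ ^ k) = k • c γ := by
    intro k
    induction k with
    | zero => simpa using hc.map_one
    | succ k ih => rw [pow_succ, hc.map_mul, ih, succ_nsmul]
  have h1 : n • c γ = 0 := by rw [← hpow, hγ, hc.map_one]
  have h2 : m • c γ = 0 := by
    rw [nsmul_eq_mul]
    simp
  obtain ⟨a, b, hab⟩ : ∃ a b : ℤ, a * n + b * m = 1 := by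
    have := Int.gcd_eq_gcd_ab (n : ℤ) (m : ℤ)
    have hg : Int.gcd (n : ℤ) (m : ℤ) = 1 := by
      rw [Int.gcd_natCast_natCast]
      exact hn
    rw [hg] at this
    exact ⟨Int.gcdA n m, Int.gcdB n m, by push_cast at this; linarith⟩
  have : c γ = (a * n + b * m) • c γ := by rw [hab, one_smul]
  rw [this, add_smul, mul_smul, mul_smul, natCast_zsmul, natCast_zsmul, h1, h2]
  simp

theorem add (hc : GIsParAdd c) (hc' : GIsParAdd c') : GIsParAdd (c + c') where
  map_mul γ γ' := by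
    simp only [Pi.add_apply, hc.map_mul, hc'.map_mul]
    abel
  parabolic γ hγ := by
    simp only [Pi.add_apply, hc.parabolic γ hγ, hc'.parabolic γ hγ, add_zero]

theorem char_add (hc : GIsParAdd c) (hc' : GIsParAdd c') :
    (hc.add hc').char = hc.char * hc'.char := by
  ext γ
  simp [AddChar.map_add_eq_mul]

/-- The twisted function of an additive parabolic character. -/
def tfun (hc : GIsParAdd c) : ℍ → ℂ := gkfun Γ hc.char

/-- Its `q`-expansion at `i∞` (meaningful if `T ∈ Γ`). -/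
def texp (hc : GIsParAdd c) : LaurentSeries ℂ := gkexp Γ hc.char

theorem mdiff_tfun (hc : GIsParAdd c) : MDiff hc.tfun :=
  mdiff_gkfun hc.gParTriv hc.norm_char

theorem tfun_mem_holN {M : ℕ} [NeZero M] (hΓ : HasLevel Γ M) (hc : GIsParAdd c) :
    hc.tfun ∈ holN M :=
  gkfun_mem_holN hΓ hc.gParTriv hc.norm_char

theorem tfun_smul (hc : GIsParAdd c) (γ : Γ) (τ : ℍ) :
    hc.tfun ((γ : SL(2, ℤ)) • τ) = ZMod.stdAddChar (c γ) * hc.tfun τ :=
  gHasChar_gkfun hc.gParTriv γ τ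

theorem gHasChar_tfun (hc : GIsParAdd c) : GHasChar hc.char hc.tfun :=
  gHasChar_gkfun hc.gParTriv

theorem tfun_ne_zero (hc : GIsParAdd c) : hc.tfun ≠ 0 :=
  gkfun_ne_zero hc.gParTriv hc.norm_char

theorem exists_tfun_ne_zero (hc : GIsParAdd c) : ∃ τ : ℍ, hc.tfun τ ≠ 0 :=
  exists_gkfun_ne_zero hc.gParTriv hc.norm_char

theorem expGrowth_tfun {M : ℕ} [NeZero M] (hΓ : HasLevel Γ M) (hc : GIsParAdd c)
    (g : SL(2, ℤ)) : ExpGrowth (fun τ => hc.tfun (g • τ)) :=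
  expGrowth_gkfun hΓ hc.gParTriv hc.norm_char g

theorem tfun_pow_isGoodFor {M : ℕ} [NeZero M] (hΓ : HasLevel Γ M) (hc : GIsParAdd c) :
    IsGoodFor Γ (hc.tfun ^ m) :=
  gkfun_pow_isGoodFor hΓ hc.gParTriv hc.norm_char hc.char_pow

theorem hasQExp_tfun (hT : ModularGroup.T ∈ Γ) (hc : GIsParAdd c) :
    Fermat.Agent.S24.H708.HasQExp 1 hc.tfun hc.texp :=
  hasQExp_gkfun hT hc.gParTriv hc.norm_char

theorem infExp_tfun (hT : ModularGroup.T ∈ Γ) (hc : GIsParAdd c) :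
    InfExp 1 hc.tfun hc.texp :=
  infExp_gkfun hT hc.gParTriv hc.norm_char

theorem texp_order (hT : ModularGroup.T ∈ Γ) (hc : GIsParAdd c) : hc.texp.order = -1 :=
  (gkexp_eq hT hc.gParTriv hc.norm_char).1

theorem texp_leadingCoeff (hT : ModularGroup.T ∈ Γ) (hc : GIsParAdd c) :
    hc.texp.leadingCoeff = 1 :=
  (gkexp_eq hT hc.gParTriv hc.norm_char).2

theorem texp_ne_zero (hT : ModularGroup.T ∈ Γ) (hc : GIsParAdd c) : hc.texp ≠ 0 :=
  gkexp_ne_zero hT hc.gParTriv hc.norm_char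

end GIsParAdd

/-- `exp(2πi/m) ^ (a.val) = stdAddChar a`. -/
theorem exp_pow_val_eq_stdAddChar (a : ZMod m) :
    Complex.exp (2 * Real.pi * Complex.I / m) ^ a.val = ZMod.stdAddChar a := by
  have h := ZMod.stdAddChar_coe (N := m) (a.val : ℤ)
  rw [Int.cast_natCast, ZMod.natCast_zmod_val] at h
  rw [h, ← Complex.exp_nat_mul]
  congr 1
  push_cast
  ring

/-- **Generic piece K1.**  `Γ` any subgroup of `SL(2,ℤ)` of level `M`, `c : Γ → ℤ/m` additive and
zero on the elements of trace `±2`.  Then there is a twisted function of character `c`. -/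
theorem exists_twisted {M : ℕ} [NeZero M] (hΓ : HasLevel Γ M) {c : Γ → ZMod m}
    (hmul : ∀ γ γ' : Γ, c (γ * γ') = c γ + c γ')
    (hpar : ∀ γ : Γ,
      ((γ : SL(2, ℤ)).1.trace = 2 ∨ (γ : SL(2, ℤ)).1.trace = -2) → c γ = 0) :
    ∃ U : ℍ → ℂ, MDiff U ∧ (∃ τ : ℍ, U τ ≠ 0) ∧
      (∀ (γ : Γ) (τ : ℍ), U ((γ : SL(2, ℤ)) • τ)
        = Complex.exp (2 * Real.pi * Complex.I / m) ^ (c γ).val * U τ) ∧
      U ∈ holN M ∧ (∀ g : SL(2, ℤ), ExpGrowth (fun τ => U (g • τ))) ∧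
      IsGoodFor Γ (fun τ => U τ ^ m) := by
  have hc : GIsParAdd c := ⟨hmul, hpar⟩
  refine ⟨hc.tfun, hc.mdiff_tfun, hc.exists_tfun_ne_zero, fun γ τ => ?_, hc.tfun_mem_holN hΓ,
    hc.expGrowth_tfun hΓ, hc.tfun_pow_isGoodFor hΓ⟩
  rw [exp_pow_val_eq_stdAddChar]
  exact hc.tfun_smul γ τ

/-- **Generic piece K1 with `q`-expansion** (`T ∈ Γ`): moreover `U` has a `q`-expansion at `i∞`
(in `q = exp(2πiτ)`) with a simple pole and leading coefficient `1`. -/
theorem exists_twisted_qexp {M : ℕ} [NeZero M] (hΓ : HasLevel Γ M) (hT : ModularGroup.T ∈ Γ)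
    {c : Γ → ZMod m}
    (hmul : ∀ γ γ' : Γ, c (γ * γ') = c γ + c γ')
    (hpar : ∀ γ : Γ,
      ((γ : SL(2, ℤ)).1.trace = 2 ∨ (γ : SL(2, ℤ)).1.trace = -2) → c γ = 0) :
    ∃ (U : ℍ → ℂ) (φ : LaurentSeries ℂ), MDiff U ∧ (∃ τ : ℍ, U τ ≠ 0) ∧
      (∀ (γ : Γ) (τ : ℍ), U ((γ : SL(2, ℤ)) • τ)
        = Complex.exp (2 * Real.pi * Complex.I / m) ^ (c γ).val * U τ) ∧
      U ∈ holN M ∧ (∀ g : SL(2, ℤ), ExpGrowth (fun τ => U (g • τ))) ∧
      IsGoodFor Γ (fun τ => U τ ^ m) ∧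
      Fermat.Agent.S24.H708.HasQExp 1 U φ ∧ φ.order = -1 ∧ φ.leadingCoeff = 1 := by
  have hc : GIsParAdd c := ⟨hmul, hpar⟩
  refine ⟨hc.tfun, hc.texp, hc.mdiff_tfun, hc.exists_tfun_ne_zero, fun γ τ => ?_,
    hc.tfun_mem_holN hΓ, hc.expGrowth_tfun hΓ, hc.tfun_pow_isGoodFor hΓ, hc.hasQExp_tfun hT,
    hc.texp_order hT, hc.texp_leadingCoeff hT⟩
  rw [exp_pow_val_eq_stdAddChar]
  exact hc.tfun_smul γ τ

/-- **Piece K1 for `Γ₁(M)`.** -/
theorem exists_twisted_Gamma1 (M : ℕ) [NeZero M] {c : CongruenceSubgroup.Gamma1 M → ZMod m}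
    (hmul : ∀ γ γ' : CongruenceSubgroup.Gamma1 M, c (γ * γ') = c γ + c γ')
    (hpar : ∀ γ : CongruenceSubgroup.Gamma1 M,
      ((γ : SL(2, ℤ)).1.trace = 2 ∨ (γ : SL(2, ℤ)).1.trace = -2) → c γ = 0) :
    ∃ (U : ℍ → ℂ) (φ : LaurentSeries ℂ), MDiff U ∧ (∃ τ : ℍ, U τ ≠ 0) ∧
      (∀ (γ : CongruenceSubgroup.Gamma1 M) (τ : ℍ), U ((γ : SL(2, ℤ)) • τ)
        = Complex.exp (2 * Real.pi * Complex.I / m) ^ (c γ).val * U τ) ∧
      U ∈ holN M ∧ (∀ g : SL(2, ℤ), ExpGrowth (fun τ => U (g • τ))) ∧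
      IsGoodFor (CongruenceSubgroup.Gamma1 M) (fun τ => U τ ^ m) ∧
      Fermat.Agent.S24.H708.HasQExp 1 U φ ∧ φ.order = -1 ∧ φ.leadingCoeff = 1 :=
  exists_twisted_qexp (hasLevel_Gamma1 M) (T_mem_Gamma1 M) hmul hpar

end Fermat.Agent.S48.H332

end
end
-- ===== PACK-END S48/H332/KumGenChar.lean

-- ===== PACK-BEGIN S48/H332/LeafK1.lean
section



/-!
# Tower A1 / A1-KUM — LEAF `k1` (helper332)

`leafK1 : ∀ (M : ℕ) [NeZero M] (ℓ : ℕ), ℓ.Prime → Kum.PieceK1 (Gamma1 M) ℓ`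
= field `k1` of `Kum.Leaves` (`Fermat/Agent/S48/Kum/M4b1.lean`) VERBATIM, and the generic form
`pieceK1_of_hasLevel` for any subgroup `Γ` of level `M` and any modulus `p ≠ 0`.
-/

set_option autoImplicit false

noncomputable section

open ModularCurve AlgebraicCurve UpperHalfPlane CongruenceSubgroup
open scoped MatrixGroups Manifold

namespace Fermat.Agent.S48.H332

open Fermat.Agent.S24 Fermat.Agent.S29 Fermat.Agent.S48.Kum

/-- **Piece K1, generic**: `Γ` any subgroup of level `M` (all conjugates of `T ^ M` in `Γ`,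
e.g. `Γ(M) ≤ Γ`), `p ≠ 0`. -/
theorem pieceK1_of_hasLevel {Γ : Subgroup SL(2, ℤ)} {M : ℕ} [NeZero M] (hΓ : HasLevel Γ M)
    (p : ℕ) [NeZero p] : PieceK1 Γ p := by
  intro c hc
  obtain ⟨U, hm, hne, hchar, -, -, hgood⟩ := exists_twisted hΓ hc.map_mul hc.parabolic
  exact ⟨U, ⟨hm, hne, fun γ τ => hchar γ τ, hgood⟩⟩

/-- **LEAF `k1`** of `Kum.Leaves`, verbatim. -/
theorem leafK1 (M : ℕ) [NeZero M] (ℓ : ℕ) (hℓ : ℓ.Prime) : PieceK1 (Gamma1 M) ℓ :=
  haveI : NeZero ℓ := ⟨hℓ.ne_zero⟩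
  pieceK1_of_hasLevel (hasLevel_Gamma1 M) ℓ

end Fermat.Agent.S48.H332

end
end
-- ===== PACK-END S48/H332/LeafK1.lean

-- ===== PACK-BEGIN S29/H642/K2.lean
section






/-!
# S29 / layer M / M4b — PIECE `K2` (DICT), exact skeleton type (helper642)

`exists_isKummerClass_of_realised` : if `u ∈ FF N` is realised by `U ^ p`, `U` a twisted function
of a character `c : Γ₀(N) → ℤ/p` killing parabolic and finite-order elements, then `u` has a
`p`-Kummer class in `J₀(N)(ℚ̄)`.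

Route (direct, over `ℚ̄`): adapter to helper389's landed `H389.exists_isKummerClass_of_analytic_pow`
for the concrete analytic core `S24.H997.analyticCore N`:

* `K2_mem_holN` : `U ∈ holN N` (all `SL₂(ℤ)`-translates of `U` are `N`-periodic because `c` kills
  the parabolic elements, and of exponential growth because `U ^ p` is good);
* `K2_qexp_pow` : the expansion at `i∞` (in `q^{1/N}`) of `U ^ p` is `Φ N u`;
* the relation `e(r) = U ^ p · e(s)` in `Hol` for `u = r / s`, and invariance of `U` under the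
  elements of `Γ₀(N)` of finite order or trace `2`.
-/

set_option autoImplicit false
set_option linter.unusedSectionVars false
set_option linter.style.haveILetI false

noncomputable section

open ModularCurve AlgebraicCurve CongruenceSubgroup UpperHalfPlane HahnSeries
open scoped MatrixGroups Manifold Real

namespace Fermat.Agent.S29.H642

open Fermat.Agent.S24 Fermat.Agent.S24.H997 Fermat.Agent.S24.H648 Fermat.Agent.S24.H708
  Fermat.Agent.S29 Fermat.Agent.S29.M4b Fermat.Agent.S29.H332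

variable {N : ℕ} [NeZero N] {p : ℕ} [NeZero p]

/-! ### Growth -/

theorem K2_le_one_add_pow {x : ℝ} (hx : 0 ≤ x) {n : ℕ} (hn : n ≠ 0) : x ≤ 1 + x ^ n := by
  rcases le_or_gt x 1 with h | h
  · have : 0 ≤ x ^ n := pow_nonneg hx n
    linarith
  · have h1 : x ^ 1 ≤ x ^ n := pow_le_pow_right₀ h.le (Nat.one_le_iff_ne_zero.mpr hn)
    rw [pow_one] at h1
    linarith

/-- Exponential growth of a power gives exponential growth of the function. -/
theorem K2_expGrowth_of_pow {f : ℍ → ℂ} {n : ℕ} (hn : n ≠ 0)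
    (h : ExpGrowth (fun τ => f τ ^ n)) : ExpGrowth f := by
  obtain ⟨C, m, hC⟩ := h
  refine ⟨1 + |C|, m, fun τ hτ => ?_⟩
  have h1 := hC τ hτ
  rw [norm_pow] at h1
  have h2 := K2_le_one_add_pow (norm_nonneg (f τ)) hn
  have h3 : (1 : ℝ) ≤ Real.exp (2 * π * m * τ.im) := by
    apply Real.one_le_exp
    have := τ.im_pos
    positivity
  have h4 : C * Real.exp (2 * π * m * τ.im) ≤ |C| * Real.exp (2 * π * m * τ.im) :=
    mul_le_mul_of_nonneg_right (le_abs_self C) (Real.exp_pos _).le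
  calc ‖f τ‖ ≤ 1 + ‖f τ‖ ^ n := h2
    _ ≤ 1 + C * Real.exp (2 * π * m * τ.im) := by linarith
    _ ≤ Real.exp (2 * π * m * τ.im) + |C| * Real.exp (2 * π * m * τ.im) := by linarith
    _ = (1 + |C|) * Real.exp (2 * π * m * τ.im) := by ring

/-- Exponential growth gives a pole of finite order at `i∞` in the parameter `exp(2πiτ/N)`. -/
theorem K2_isBounded_mul_qh_pow {f : ℍ → ℂ} (hf : ExpGrowth f) :
    ∃ M : ℕ, IsBoundedAtImInfty (f * qh N ^ M) := by
  obtain ⟨C, m, h⟩ := hf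
  refine ⟨N * m, ?_⟩
  rw [UpperHalfPlane.isBoundedAtImInfty_iff]
  refine ⟨C, 1, fun τ hτ => ?_⟩
  have h1 := h τ hτ
  have hN : (N : ℝ) ≠ 0 := by exact_mod_cast NeZero.ne N
  have hq : ‖qh N τ‖ = Real.exp (-2 * π * τ.im / N) := norm_infZ_eq τ
  rw [Pi.mul_apply, Pi.pow_apply, norm_mul, norm_pow, hq, ← Real.exp_nat_mul]
  calc ‖f τ‖ * Real.exp (((N * m : ℕ) : ℝ) * (-2 * π * τ.im / N))
      ≤ C * Real.exp (2 * π * m * τ.im) * Real.exp (((N * m : ℕ) : ℝ) * (-2 * π * τ.im / N)) :=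
        mul_le_mul_of_nonneg_right h1 (Real.exp_pos _).le
    _ = C := by
        rw [mul_assoc, ← Real.exp_add]
        have : 2 * π * m * τ.im + ((N * m : ℕ) : ℝ) * (-2 * π * τ.im / N) = 0 := by
          push_cast
          field_simp
          ring
        rw [this, Real.exp_zero, mul_one]

/-! ### `U ∈ holN N` -/

theorem K2_hasCharacter {c : G0 N → ZMod p} (hc : IsParHom c) {U : ℍ → ℂ}
    (hU : IsTwisted N p c U) : HasCharacter (isParAdd_of_isParHom hc).char U := by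
  intro γ τ
  rw [IsParAdd.char_apply, ← zetaP_pow_val]
  exact hU.hasChar γ τ

theorem K2_mem_holN {c : G0 N → ZMod p} (hc : IsParHom c) {U : ℍ → ℂ}
    (hU : IsTwisted N p c U) : U ∈ holN N := by
  have hpa : IsParAdd c := isParAdd_of_isParHom hc
  have hchar := K2_hasCharacter hc hU
  refine ⟨hU.mdiff, fun g => ?_⟩
  have hol : MDiff (compSL g U) := mdifferentiable_comp_smul hU.mdiff g
  have hper : Function.Periodic (compSL g U ∘ ofComplex) (N : ℝ) :=
    hchar.periodic hpa.parTrivial g N (by simpa using conj_T_zpow_mem_Gamma0 N g 1)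
  have hgr : ExpGrowth (compSL g U) :=
    K2_expGrowth_of_pow (NeZero.ne p) (hU.pow_mem.2.2 g)
  have hmer : IsMerInf N (compSL g U) := ⟨hol, hper, K2_isBounded_mul_qh_pow hgr⟩
  exact ⟨qexpFun N (compSL g U), fun τ => (HasQExp.of_isMerInf hmer).hasSum τ⟩

/-! ### The expansion of `U ^ p` -/

theorem K2_iotaC_eq : Deg457.iotaC = ιK := rfl

/-- The expansion at `i∞` in `exp(2πiτ/N)` of a good function realising `u` is `Φ N u`. -/
theorem K2_infExp_of_realises {u : FF N} {G : ℍ → ℂ} (hu : Realises N u G) :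
    InfExp N G (HolBase.Φ N ((u : FF N) : LaurentSeries Kbar)) := by
  have h1 : HasQExp 1 G (coeffMap Deg457.iotaC ((u : FF N) : LaurentSeries Kbar)) := by
    have := H882.hasQExp_of_mem_goodRing hu.1
    rwa [hu.2] at this
  have h2 := HasQExp.of_period_mul N h1
  intro τ
  have h3 := HasQExp.hasSum h2 τ
  simp only [one_mul] at h3
  exact h3

/-! ### The piece -/

theorem K2_one_ne_zero : (1 : (holBase N).Hol) ≠ 0 := by
  intro h
  have := congrArg (fun f : (holBase N).Hol => (f : ℍ → ℂ) UpperHalfPlane.I) h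
  simp at this

/-- **PIECE `K2`** of the M4b skeleton (exact type): DICTIONARY over `ℚ̄`, hard direction. -/
theorem exists_isKummerClass_of_realised (N : ℕ) [NeZero N] (p : ℕ) [NeZero p]
    {c : G0 N → ZMod p} (hc : IsParHom c) {U : ℍ → ℂ}
    {u : FF N} (hU : IsTwisted N p c U) (hu : Realises N u (fun τ => U τ ^ p)) :
    ∃ x : JZero N, H455.IsKummerClass (p : ℤ) u x := by
  classical
  have hp : p ≠ 0 := NeZero.ne p
  let h₁ : (holBase N).Hol := ⟨U, K2_mem_holN hc hU⟩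
  have hh₁ : h₁ ≠ 0 := by
    obtain ⟨τ, hτ⟩ := hU.ne_zero
    intro h0
    apply hτ
    exact congrArg (fun f : (holBase N).Hol => (f : ℍ → ℂ) τ) h0
  -- the expansion of `U ^ p`
  have hq : (holBase N).qexp (h₁ ^ p) = HolBase.Φ N ((u : FF N) : LaurentSeries Kbar) := by
    have h1 := K2_infExp_of_realises hu
    have h2 : InfExp N (((holToExp N (h₁ ^ p) : expRing N)) : ℍ → ℂ)
        (expInf N (holToExp N (h₁ ^ p))) := expInf_spec _
    exact h2.unique' h1 (fun τ => rfl)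
  have hqne : (holBase N).qexp (h₁ ^ p) ≠ 0 := by
    rw [map_pow]
    refine pow_ne_zero _ ?_
    intro h0
    exact hh₁ ((holBase N).qexp_injective (h0.trans (map_zero _).symm))
  have hu0 : u ≠ 0 := by
    intro h0
    apply hqne
    rw [hq, h0]
    simp
  -- `u = r / s`
  obtain ⟨r, s, hs, hrs⟩ := exists_div_inclRN N u
  have hs' : inclRN N s ≠ 0 := fun h => hs (inclRN_injective N (by rw [h, map_zero]))
  have hr : r ≠ 0 := by
    intro h0
    apply hu0
    rw [hrs, h0, map_zero, zero_div]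
  have hmul : ((r : RN N) : LaurentSeries Kbar)
      = ((u : FF N) : LaurentSeries Kbar) * ((s : RN N) : LaurentSeries Kbar) := by
    have h1 : (inclRN N r : FF N) = u * inclRN N s := by
      rw [hrs, div_mul_cancel₀ _ hs']
    exact congrArg (fun f : FF N => (f : LaurentSeries Kbar)) h1
  have hrel : (holBase N).bridge r * (1 : (holBase N).Hol) ^ p
      = (holBase N).constH 1 * h₁ ^ p * (holBase N).bridge s := by
    apply (holBase N).qexp_injective
    have hc1 : (holBase N).qexp ((holBase N).constH 1) = 1 := by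
      have := (holBase N).qexp_const 1
      rw [map_one] at this
      exact this
    rw [one_pow, mul_one, map_mul, map_mul, hq, hc1, one_mul, HolBase.qexp_bridge,
      HolBase.qexp_bridge, ← map_mul, hmul]
  have hinv : ∀ δ : SL(2, ℤ), δ ∈ Gamma0 N → H389.Nice δ →
      (holBase N).compH δ h₁ * 1 = h₁ * (holBase N).compH δ 1 := by
    intro δ hδ hnice
    have hcδ : c ⟨δ, hδ⟩ = 0 := by
      rcases hnice with hfin | htr
      · obtain ⟨n, hn, hδn⟩ := isOfFinOrder_iff_pow_eq_one.1 hfin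
        exact hc.elliptic ⟨δ, hδ⟩ n hn (Subtype.ext hδn)
      · exact hc.parabolic ⟨δ, hδ⟩ (Or.inl htr)
    have h1 : (holBase N).compH δ h₁ = h₁ := by
      apply Subtype.ext
      funext τ
      show U (δ • τ) = U τ
      have := hU.hasChar ⟨δ, hδ⟩ τ
      rw [hcδ] at this
      simpa using this
    rw [h1, map_one]
  obtain ⟨x, hx⟩ := H389.exists_isKummerClass_of_analytic_pow (analyticCore N) p hp r s hr hs
    h₁ 1 hh₁ K2_one_ne_zero 1 one_ne_zero hrel hinv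
  exact ⟨x, by rw [hrs]; exact hx⟩

end Fermat.Agent.S29.H642

end
end
-- ===== PACK-END S29/H642/K2.lean

-- ===== PACK-BEGIN S29/M4b/H822/HeckeAct.lean
section
/-
S29 / M4b / K4-HECKE (helper822): the Möbius maps of the Hecke representatives
`heckeRep ℓ i` (`DefsM`) on `ℍ`, and the action identity coming from a Hecke factorisation
`heckeRep ℓ i * γ = δ * heckeRep ℓ j`.
-/



set_option autoImplicit false

noncomputable section

open ModularCurve AlgebraicCurve CongruenceSubgroup UpperHalfPlane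
open scoped MatrixGroups Manifold

namespace Fermat.Agent.S29.M4b.H822

open Fermat.Agent.S24 Fermat.Agent.S29 Fermat.Agent.S29.M4b

/-- The matrix identity `[[a,b],[0,d]]·γ = γ'·[[a',b'],[0,d']]` on the level of `ℍ`. -/
theorem infAff_smul_eq_gen {a d a' d' : ℕ} {b b' : ℤ} (ha : 0 < a) (hd : 0 < d) (ha' : 0 < a')
    (hd' : 0 < d') (γ γ' : SL(2, ℤ))
    (h00 : (a : ℤ) * γ 0 0 + b * γ 1 0 = γ' 0 0 * a')
    (h01 : (a : ℤ) * γ 0 1 + b * γ 1 1 = γ' 0 0 * b' + γ' 0 1 * d')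
    (h10 : (d : ℤ) * γ 1 0 = γ' 1 0 * a')
    (h11 : (d : ℤ) * γ 1 1 = γ' 1 0 * b' + γ' 1 1 * d') (τ : ℍ) :
    infAff a b d (γ • τ) = γ' • infAff a' b' d' τ := by
  apply UpperHalfPlane.ext
  rw [infAff_coe ha hd, inf_sl_smul_coe γ' (infAff a' b' d' τ), infAff_coe ha' hd',
    inf_sl_smul_coe γ τ]
  have hden := inf_sl_denom_ne_zero γ τ
  have hden' := inf_sl_denom_ne_zero γ' (infAff a' b' d' τ)
  rw [infAff_coe ha' hd'] at hden'
  have hd0 : (d : ℂ) ≠ 0 := by exact_mod_cast hd.ne'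
  have hd'0 : (d' : ℂ) ≠ 0 := by exact_mod_cast hd'.ne'
  have e00 : (a : ℂ) * ((γ 0 0 : ℤ) : ℂ) + (b : ℂ) * ((γ 1 0 : ℤ) : ℂ)
      = ((γ' 0 0 : ℤ) : ℂ) * a' := by exact_mod_cast h00
  have e01 : (a : ℂ) * ((γ 0 1 : ℤ) : ℂ) + (b : ℂ) * ((γ 1 1 : ℤ) : ℂ)
      = ((γ' 0 0 : ℤ) : ℂ) * b' + ((γ' 0 1 : ℤ) : ℂ) * d' := by exact_mod_cast h01
  have e10 : (d : ℂ) * ((γ 1 0 : ℤ) : ℂ) = ((γ' 1 0 : ℤ) : ℂ) * a' := by exact_mod_cast h10
  have e11 : (d : ℂ) * ((γ 1 1 : ℤ) : ℂ) = ((γ' 1 0 : ℤ) : ℂ) * b' + ((γ' 1 1 : ℤ) : ℂ) * d' := by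
    exact_mod_cast h11
  have hden'' : ((γ' 1 0 : ℤ) : ℂ) * (((a' : ℂ) * τ + b') / d') + ((γ' 1 1 : ℤ) : ℂ) =
      ((d : ℂ) * (((γ 1 0 : ℤ) : ℂ) * τ + ((γ 1 1 : ℤ) : ℂ))) / d' := by
    rw [mul_add, ← mul_assoc, e10, e11]
    field_simp
    ring
  have hnum : ((γ' 0 0 : ℤ) : ℂ) * (((a' : ℂ) * τ + b') / d') + ((γ' 0 1 : ℤ) : ℂ) =
      ((a : ℂ) * (((γ 0 0 : ℤ) : ℂ) * τ + ((γ 0 1 : ℤ) : ℂ))
        + (b : ℂ) * (((γ 1 0 : ℤ) : ℂ) * τ + ((γ 1 1 : ℤ) : ℂ))) / d' := by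
    have : (a : ℂ) * (((γ 0 0 : ℤ) : ℂ) * τ + ((γ 0 1 : ℤ) : ℂ))
        + (b : ℂ) * (((γ 1 0 : ℤ) : ℂ) * τ + ((γ 1 1 : ℤ) : ℂ))
        = ((a : ℂ) * ((γ 0 0 : ℤ) : ℂ) + (b : ℂ) * ((γ 1 0 : ℤ) : ℂ)) * τ
          + ((a : ℂ) * ((γ 0 1 : ℤ) : ℂ) + (b : ℂ) * ((γ 1 1 : ℤ) : ℂ)) := by ring
    rw [this, e00, e01]
    field_simp
    ring
  rw [hnum, hden'']
  generalize ((γ 0 0 : ℤ) : ℂ) * τ + ((γ 0 1 : ℤ) : ℂ) = X
  generalize ((γ 1 0 : ℤ) : ℂ) * τ + ((γ 1 1 : ℤ) : ℂ) = Y at hden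
  field_simp

/-- The Möbius map of the Hecke representative `heckeRep ℓ i`:
`none ↦ (τ ↦ ℓ τ)`, `some b ↦ (τ ↦ (τ + b) / ℓ)`. -/
def hAct (ℓ : ℕ) : Option (Fin ℓ) → ℍ → ℍ
  | none => infAff ℓ 0 1
  | some b => infAff 1 ((b : ℕ) : ℤ) ℓ

/-- The entries of `heckeRep ℓ i` as an upper triangular matrix `[[a, b], [0, d]]`. -/
def hA (ℓ : ℕ) : Option (Fin ℓ) → ℕ
  | none => ℓ
  | some _ => 1

def hB (ℓ : ℕ) : Option (Fin ℓ) → ℤ
  | none => 0
  | some b => ((b : ℕ) : ℤ)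

def hD (ℓ : ℕ) : Option (Fin ℓ) → ℕ
  | none => 1
  | some _ => ℓ

theorem hAct_eq (ℓ : ℕ) (i : Option (Fin ℓ)) : hAct ℓ i = infAff (hA ℓ i) (hB ℓ i) (hD ℓ i) := by
  cases i <;> rfl

theorem heckeRep_eq (ℓ : ℕ) (i : Option (Fin ℓ)) :
    heckeRep ℓ i = !![(hA ℓ i : ℤ), hB ℓ i; 0, (hD ℓ i : ℤ)] := by
  cases i <;> simp [heckeRep, hA, hB, hD]

theorem hA_pos {ℓ : ℕ} (hℓ : 0 < ℓ) (i : Option (Fin ℓ)) : 0 < hA ℓ i := by
  cases i <;> simp [hA, hℓ]

theorem hD_pos {ℓ : ℕ} (hℓ : 0 < ℓ) (i : Option (Fin ℓ)) : 0 < hD ℓ i := by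
  cases i <;> simp [hD, hℓ]

theorem hA_mul_hD (ℓ : ℕ) (i : Option (Fin ℓ)) : hA ℓ i * hD ℓ i = ℓ := by
  cases i <;> simp [hA, hD]

/-- **Action identity**: a Hecke factorisation `heckeRep ℓ i * γ = δ * heckeRep ℓ j` gives
`α_i (γ τ) = δ (α_j τ)` on `ℍ`. -/
theorem hAct_smul_of_factor {N ℓ : ℕ} (hℓ : 0 < ℓ) {γ : G0 N} {i j : Option (Fin ℓ)} {δ : G0 N}
    (h : IsHeckeFactor ℓ γ i (j, δ)) (τ : ℍ) :
    hAct ℓ i ((γ : SL(2, ℤ)) • τ) = (δ : SL(2, ℤ)) • hAct ℓ j τ := by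
  rw [hAct_eq, hAct_eq]
  unfold IsHeckeFactor at h
  rw [heckeRep_eq, heckeRep_eq] at h
  simp only [G0.mat] at h
  have e00 := congrFun (congrFun h 0) 0
  have e01 := congrFun (congrFun h 0) 1
  have e10 := congrFun (congrFun h 1) 0
  have e11 := congrFun (congrFun h 1) 1
  simp only [Matrix.mul_apply, Fin.sum_univ_two, Matrix.of_apply, Matrix.cons_val_zero,
    Matrix.cons_val_one, Matrix.cons_val', Matrix.cons_val_fin_one, zero_mul, mul_zero,
    zero_add, add_zero] at e00 e01 e10 e11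
  exact infAff_smul_eq_gen (hA_pos hℓ i) (hD_pos hℓ i) (hA_pos hℓ j) (hD_pos hℓ j) _ _
    e00 e01 e10 e11 τ

end Fermat.Agent.S29.M4b.H822

end
end
-- ===== PACK-END S29/M4b/H822/HeckeAct.lean

-- ===== PACK-BEGIN S29/M4b/H822/HeckeProd.lean
section
/-
S29 / M4b / K4-HECKE (helper822): the Hecke product `∏ᵢ G ∘ αᵢ` of a function on `ℍ`
(`αᵢ` = the Möbius maps of the Hecke representatives): holomorphy, character, invariance,
growth at all cusps (S24 `Inf` toolkit: Hermite normal form + affine substitution).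
-/





set_option autoImplicit false
set_option linter.unusedSectionVars false

noncomputable section

open ModularCurve AlgebraicCurve CongruenceSubgroup UpperHalfPlane
open scoped MatrixGroups Manifold

namespace Fermat.Agent.S29.M4b.H822

open Fermat.Agent.S24 Fermat.Agent.S24.H997 Fermat.Agent.S24.H648 Fermat.Agent.S29
  Fermat.Agent.S29.M4b

/-- The Hecke product `τ ↦ ∏ᵢ G (αᵢ τ)`. -/
def heckeProd (ℓ : ℕ) (G : ℍ → ℂ) : ℍ → ℂ := fun τ => ∏ i : Option (Fin ℓ), G (hAct ℓ i τ)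

theorem heckeProd_apply (ℓ : ℕ) (G : ℍ → ℂ) (τ : ℍ) :
    heckeProd ℓ G τ = ∏ i : Option (Fin ℓ), G (hAct ℓ i τ) := rfl

theorem heckeProd_pow (ℓ : ℕ) (G : ℍ → ℂ) (n : ℕ) :
    heckeProd ℓ (fun τ => G τ ^ n) = fun τ => heckeProd ℓ G τ ^ n := by
  funext τ
  simp only [heckeProd_apply]
  rw [Finset.prod_pow]

theorem mdiff_comp_hAct {ℓ : ℕ} (hℓ : 0 < ℓ) {G : ℍ → ℂ} (hG : MDifferentiable 𝓘(ℂ) 𝓘(ℂ) G)
    (i : Option (Fin ℓ)) : MDifferentiable 𝓘(ℂ) 𝓘(ℂ) (fun τ => G (hAct ℓ i τ)) := by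
  rw [hAct_eq]
  exact H564.mdiff_comp_infAff hG (hA_pos hℓ i) (hD_pos hℓ i) _

theorem mdiff_heckeProd {ℓ : ℕ} (hℓ : 0 < ℓ) {G : ℍ → ℂ} (hG : MDifferentiable 𝓘(ℂ) 𝓘(ℂ) G) :
    MDifferentiable 𝓘(ℂ) 𝓘(ℂ) (heckeProd ℓ G) := by
  have h : heckeProd ℓ G = ∏ i : Option (Fin ℓ), (fun τ => G (hAct ℓ i τ)) := by
    funext τ
    rw [heckeProd_apply, Finset.prod_apply]
  rw [h]
  exact MDifferentiable.prod fun i _ => mdiff_comp_hAct hℓ hG i

/-! ### Characters -/

theorem zetaP_pow_val_sum (p : ℕ) [NeZero p] {ι : Type*} (s : Finset ι) (a : ι → ZMod p) :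
    zetaP p ^ (∑ i ∈ s, a i).val = ∏ i ∈ s, zetaP p ^ (a i).val := by
  classical
  induction s using Finset.induction_on with
  | empty => simp
  | insert x s hx ih => rw [Finset.sum_insert hx, Finset.prod_insert hx, zetaP_pow_val_add, ih]

/-- **Character of the Hecke product**: if `U` has character `c` and `αᵢ γ = δᵢ α_{π i}` with
`π` a permutation, then `(∏ᵢ U ∘ αᵢ)(γ τ) = ζ ^ (∑ᵢ c δᵢ) · (∏ᵢ U ∘ αᵢ)(τ)`. -/
theorem heckeProd_smul {N p ℓ : ℕ} [NeZero p] (hℓ : 0 < ℓ) {c : G0 N → ZMod p} {U : ℍ → ℂ}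
    (hU : HasChar N p c U) (γ : G0 N) (π : Equiv.Perm (Option (Fin ℓ)))
    (δ : Option (Fin ℓ) → G0 N) (hfac : ∀ i, IsHeckeFactor ℓ γ i (π i, δ i)) (τ : ℍ) :
    heckeProd ℓ U ((γ : SL(2, ℤ)) • τ) = zetaP p ^ (∑ i, c (δ i)).val * heckeProd ℓ U τ := by
  rw [heckeProd_apply, heckeProd_apply, zetaP_pow_val_sum]
  have h1 : ∀ i : Option (Fin ℓ), U (hAct ℓ i ((γ : SL(2, ℤ)) • τ))
      = zetaP p ^ (c (δ i)).val * U (hAct ℓ (π i) τ) := by
    intro i
    rw [hAct_smul_of_factor hℓ (hfac i) τ]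
    exact hU (δ i) _
  rw [Finset.prod_congr rfl fun i _ => h1 i, Finset.prod_mul_distrib]
  congr 1
  exact Equiv.prod_comp π fun j => U (hAct ℓ j τ)

theorem hasChar_heckeProd {N p ℓ : ℕ} [NeZero p] (hℓ : 0 < ℓ) {c c' : G0 N → ZMod p} {U : ℍ → ℂ}
    (hU : HasChar N p c U)
    (hfac : ∀ γ : G0 N, ∃ (π : Equiv.Perm (Option (Fin ℓ))) (δ : Option (Fin ℓ) → G0 N),
      ∀ i, IsHeckeFactor ℓ γ i (π i, δ i))
    (hcc' : IsTransfer N ℓ c c') : HasChar N p c' (heckeProd ℓ U) := by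
  intro γ τ
  obtain ⟨π, δ, h⟩ := hfac γ
  rw [heckeProd_smul hℓ hU γ π δ h τ, hcc' γ π δ h]

/-- Invariance of the Hecke product of a `Γ₀(N)`-invariant function. -/
theorem heckeProd_invariant {N ℓ : ℕ} (hℓ : 0 < ℓ) {G : ℍ → ℂ}
    (hG : ∀ γ ∈ Gamma0 N, ∀ τ : ℍ, G (γ • τ) = G τ)
    (hfac : ∀ γ : G0 N, ∃ (π : Equiv.Perm (Option (Fin ℓ))) (δ : Option (Fin ℓ) → G0 N),
      ∀ i, IsHeckeFactor ℓ γ i (π i, δ i)) :
    ∀ γ ∈ Gamma0 N, ∀ τ : ℍ, heckeProd ℓ G (γ • τ) = heckeProd ℓ G τ := by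
  intro γ hγ τ
  obtain ⟨π, δ, h⟩ := hfac ⟨γ, hγ⟩
  rw [heckeProd_apply, heckeProd_apply]
  have h1 : ∀ i : Option (Fin ℓ), G (hAct ℓ i (γ • τ)) = G (hAct ℓ (π i) τ) := by
    intro i
    have := hAct_smul_of_factor hℓ (h i) τ
    rw [show (((⟨γ, hγ⟩ : G0 N) : SL(2, ℤ))) = γ from rfl] at this
    rw [this]
    exact hG _ (δ i).2 _
  rw [Finset.prod_congr rfl fun i _ => h1 i]
  exact Equiv.prod_comp π fun j => G (hAct ℓ j τ)

/-! ### Growth at all cusps -/

section Growth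

variable {N : ℕ} [NeZero N]

/-- A good function lies in S24's ring `holN N`. -/
theorem mem_holN_of_mem_goodRing {G : ℍ → ℂ} (hG : G ∈ goodRing N) : G ∈ holN N := by
  by_cases h0 : ∃ τ : ℍ, G τ ≠ 0
  · have hc : IsParHom (0 : G0 N → ZMod 1) :=
      ⟨fun _ _ => by simp, fun _ _ => rfl, fun _ _ _ _ => rfl⟩
    have hU : IsTwisted N 1 (0 : G0 N → ZMod 1) G := by
      refine ⟨hG.1, h0, fun γ τ => ?_, ?_⟩
      · have := hG.2.1 (γ : SL(2, ℤ)) γ.2 τ
        simpa using this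
      · simpa using hG
    exact H642.K2_mem_holN hc hU
  · push_neg at h0
    have : G = 0 := funext h0
    rw [this]
    exact (holN N).zero_mem

/-- An element of `holN M` (any `M`) which is `Γ₀(N)`-invariant lies in `goodRing N`. -/
theorem mem_goodRing_of_mem_holN' {M : ℕ} [NeZero M] {H : ℍ → ℂ} (hH : H ∈ holN M)
    (hinv : ∀ γ ∈ Gamma0 N, ∀ τ : ℍ, H (γ • τ) = H τ) : H ∈ goodRing N := by
  refine ⟨hH.1, hinv, fun g => ?_⟩
  obtain ⟨φ, hφ⟩ := hH.2 g
  exact H332.expGrowth_of_infExp hφ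

/-- `f ∈ holN N ⟹ (τ ↦ f (ℓ τ)) ∈ holN (N ℓ)`. -/
theorem comp_infAff_mem_holN {ℓ : ℕ} [NeZero ℓ] [NeZero (N * ℓ)] {f : ℍ → ℂ} (hf : f ∈ holN N) :
    (fun τ => f (infAff ℓ 0 1 τ)) ∈ holN (N * ℓ) := by
  have hℓ : 0 < ℓ := Nat.pos_of_ne_zero (NeZero.ne ℓ)
  have hN : 0 < N := Nat.pos_of_ne_zero (NeZero.ne N)
  refine ⟨H564.mdiff_comp_infAff hf.1 hℓ one_pos 0, fun g => ?_⟩
  obtain ⟨γ', a, d', b, ha, hd', had, h00, h01, h10, h11⟩ := inf_exists_hnf ℓ hℓ g
  obtain ⟨φ, hφ⟩ := hf.2 γ'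
  haveI : NeZero (a * a) := ⟨(Nat.mul_pos ha ha).ne'⟩
  have he : a * a * (d' * N) = a * (N * ℓ) := by
    rw [← had]; ring
  have h := hφ.comp_infAff (e := a * a) b ha hd' hN (Nat.mul_pos hN hℓ) he
  have h2 : compSL g (fun τ => f (infAff ℓ 0 1 τ))
      = fun τ => compSL γ' f (infAff a b d' τ) := by
    funext τ
    show f (infAff ℓ 0 1 (g • τ)) = f (γ' • infAff a b d' τ)
    rw [inf_aff_smul_eq hℓ ha hd' g γ' h00 h01 h10 h11 τ]
  rw [h2]
  exact h.mem_expRing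

/-- `f ∈ holN N ⟹ (τ ↦ f ((τ + b) / ℓ)) ∈ holN (N ℓ)`. -/
theorem comp_infAff_mem_holN' {ℓ : ℕ} [NeZero ℓ] [NeZero (N * ℓ)] {f : ℍ → ℂ} (hf : f ∈ holN N)
    (b : ℤ) : (fun τ => f (infAff 1 b ℓ τ)) ∈ holN (N * ℓ) := by
  have hℓ : 0 < ℓ := Nat.pos_of_ne_zero (NeZero.ne ℓ)
  let γ : SL(2, ℤ) := ⟨!![0, 1; -1, -b], by rw [Matrix.det_fin_two_of]; ring⟩
  let γ' : SL(2, ℤ) := ⟨!![0, 1; -1, 0], by rw [Matrix.det_fin_two_of]; ring⟩
  have key : ∀ τ : ℍ, infAff ℓ 0 1 (γ • τ) = γ' • infAff 1 b ℓ τ := by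
    intro τ
    refine infAff_smul_eq_gen hℓ one_pos one_pos hℓ γ γ' ?_ ?_ ?_ ?_ τ
    · simp [γ, γ']
    · simp [γ, γ']
    · simp [γ, γ']
    · simp [γ, γ']
  have h1 : compSL γ'⁻¹ f ∈ holN N := comp_mem_holN N γ'⁻¹ f hf
  have h2 := comp_infAff_mem_holN (ℓ := ℓ) h1
  have h3 := comp_mem_holN (N * ℓ) γ _ h2
  have e : (fun τ => f (infAff 1 b ℓ τ))
      = compSL γ (fun τ => compSL γ'⁻¹ f (infAff ℓ 0 1 τ)) := by
    funext τ
    show f (infAff 1 b ℓ τ) = f (γ'⁻¹ • infAff ℓ 0 1 (γ • τ))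
    rw [key τ, inv_smul_smul]
  rw [e]
  exact h3

theorem comp_hAct_mem_holN {ℓ : ℕ} [NeZero ℓ] [NeZero (N * ℓ)] {f : ℍ → ℂ} (hf : f ∈ holN N)
    (i : Option (Fin ℓ)) : (fun τ => f (hAct ℓ i τ)) ∈ holN (N * ℓ) := by
  cases i with
  | none => exact comp_infAff_mem_holN hf
  | some b => exact comp_infAff_mem_holN' hf _

theorem heckeProd_mem_holN {ℓ : ℕ} [NeZero ℓ] [NeZero (N * ℓ)] {f : ℍ → ℂ} (hf : f ∈ holN N) :
    heckeProd ℓ f ∈ holN (N * ℓ) := by
  have h : heckeProd ℓ f = ∏ i : Option (Fin ℓ), (fun τ => f (hAct ℓ i τ)) := by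
    funext τ
    rw [heckeProd_apply, Finset.prod_apply]
  rw [h]
  exact prod_mem fun i _ => comp_hAct_mem_holN hf i

/-- **Growth step of K4-HECKE**: the Hecke product of a good function is good. -/
theorem heckeProd_mem_goodRing {ℓ : ℕ} [NeZero ℓ] {G : ℍ → ℂ} (hG : G ∈ goodRing N)
    (hfac : ∀ γ : G0 N, ∃ (π : Equiv.Perm (Option (Fin ℓ))) (δ : Option (Fin ℓ) → G0 N),
      ∀ i, IsHeckeFactor ℓ γ i (π i, δ i)) :
    heckeProd ℓ G ∈ goodRing N := by
  haveI : NeZero (N * ℓ) := ⟨Nat.mul_ne_zero (NeZero.ne N) (NeZero.ne ℓ)⟩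
  exact mem_goodRing_of_mem_holN' (heckeProd_mem_holN (mem_holN_of_mem_goodRing hG))
    (heckeProd_invariant (Nat.pos_of_ne_zero (NeZero.ne ℓ)) hG.2.1 hfac)

end Growth

end Fermat.Agent.S29.M4b.H822

end
end
-- ===== PACK-END S29/M4b/H822/HeckeProd.lean

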