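import Fermat.Agent.Pack.L1B.E4L2
import Fermat.Agent.Pack.L1B.E0L0
import Fermat.Agent.Pack.L1B.E3L2
import Fermat.Agent.Pack.L1B.E3L0
import Fermat.Agent.Pack.L1B.E4L3
import Fermat.Agent.Pack.L1B.E2L1
import Fermat.Agent.Pack.L1B.E4L1
import Fermat.Agent.Pack.S44C.G0E24L2
import Fermat.Agent.Pack.S44C.G0E24L3
import Fermat.Agent.Pack.L1B.E3L3
import Fermat.Agent.Pack.S44C.G0E19L1
import Fermat.Agent.Pack.L1B.E4L0
import Fermat.Agent.Pack.L1.E10L0

-- ===== PACK-BEGIN S48/H332/PkgAvatar.lean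
section


/-!
# Tower A1 / A1-FF, piece PKG-GEN (helper332) — `GenData` from avatars

`GenData.ofAvatars`: to build the analytic input `GenData M Γ P` it suffices to give, for every
generator `s ∈ P.S`, SOME function `f ∈ holN M`, `Γ`-invariant, with expansion `s(z^M)` at `i∞`
(the avatar is then unique: `avatarOf`), and to check that an element of `SL₂(ℤ)` fixing all the
avatars lies in `Γ`.
-/

set_option autoImplicit false
set_option linter.style.haveILetI false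
set_option linter.unusedVariables false
set_option linter.unusedSectionVars false

noncomputable section

open ModularCurve HahnSeries UpperHalfPlane
open scoped MatrixGroups Manifold Real

namespace Fermat.Agent.S48.H332

open Fermat.Agent.S24 Fermat.Agent.S24.H997 Fermat.Agent.S24.Deg457
open Fermat.Agent.S24.H624 Fermat.Agent.S20.L1

/-- `f` is an avatar of the series `s ∈ ℚ̄((q))` at level `M`: `f ∈ holN M` with expansion
`s(z^M)` at `i∞` (`z = exp(2πiτ/M)`, coefficients embedded by `ιK`). -/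
def IsAvatar (M : ℕ) [NeZero M] (s : LaurentSeries Kbar) (f : ℍ → ℂ) : Prop :=
  f ∈ holN M ∧ InfExp M f (HolBase.Φ M s)

theorem IsAvatar.unique {M : ℕ} [NeZero M] {s : LaurentSeries Kbar} {f g : ℍ → ℂ}
    (hf : IsAvatar M s f) (hg : IsAvatar M s g) : f = g :=
  hf.2.fun_unique hg.2

/-- avatars from `q`-expansions -/
theorem IsAvatar.of_infExp_one {M : ℕ} [NeZero M] {s : LaurentSeries Kbar} {f : ℍ → ℂ}
    (hf : f ∈ holN M) (he : InfExp 1 f (coeffMap ιK s)) : IsAvatar M s f :=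
  ⟨hf, infExp_Φ he M⟩

open Classical in
/-- THE avatar of a series (`0` if there is none). -/
def avatarOf (M : ℕ) [NeZero M] (s : LaurentSeries Kbar) : ℍ → ℂ :=
  if h : ∃ f, IsAvatar M s f then h.choose else 0

theorem avatarOf_eq {M : ℕ} [NeZero M] {s : LaurentSeries Kbar} {f : ℍ → ℂ}
    (hf : IsAvatar M s f) : avatarOf M s = f := by
  have h : ∃ f, IsAvatar M s f := ⟨f, hf⟩
  rw [avatarOf, dif_pos h]
  exact h.choose_spec.unique hf

theorem isAvatar_avatarOf {M : ℕ} [NeZero M] {s : LaurentSeries Kbar}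
    (h : ∃ f, IsAvatar M s f) : IsAvatar M s (avatarOf M s) := by
  obtain ⟨f, hf⟩ := h
  rw [avatarOf_eq hf]
  exact hf

/-- the `j`-function is the avatar of `j` -/
theorem isAvatar_jFun (M : ℕ) [NeZero M] : IsAvatar M jBar jFun := by
  have h1 : Jd 1 ∈ holN M := Jd_mem_holN M 1 (one_dvd M)
  rw [Jd_one] at h1
  refine IsAvatar.of_infExp_one h1 ?_
  have h2 : coeffMap ιK jBar = infJq := coeffMap_JK ιK
  rw [h2]
  exact infExp_jFun

/-- the function `τ ↦ j(dτ)` is the avatar of `j(q^d)`, `d ∣ M` -/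
theorem isAvatar_Jd (M : ℕ) [NeZero M] (d : ℕ) [NeZero d] (hd : d ∣ M) :
    IsAvatar M (coeffEmb Kbar (qExpand ℚ d jq)) (Jd d) := by
  refine ⟨Jd_mem_holN M d hd, ?_⟩
  rw [(holBase M).Φ_gen d hd]
  exact expInf_spec (holToExp M ((holBase M).JH d hd))

/-- **`GenData` from avatars.** -/
def GenData.ofAvatars (M : ℕ) [NeZero M] (Γ : Subgroup SL(2, ℤ)) (P : GenField)
    (hav : ∀ s, s ∈ P.S → ∃ f, IsAvatar M s f ∧ ∀ g ∈ Γ, ∀ τ : ℍ, f (g • τ) = f τ)
    (hdist : ∀ g : SL(2, ℤ),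
      (∀ s, s ∈ P.S → ∀ f, IsAvatar M s f → ∀ τ : ℍ, f (g • τ) = f τ) → g ∈ Γ) :
    GenData M Γ P where
  G := avatarOf M
  G_mem s hs := by
    obtain ⟨f, hf, -⟩ := hav s hs
    rw [avatarOf_eq hf]
    exact hf.1
  G_j := avatarOf_eq (isAvatar_jFun M)
  G_inv s hs g hg τ := by
    obtain ⟨f, hf, hinv⟩ := hav s hs
    rw [avatarOf_eq hf]
    exact hinv g hg τ
  G_distinct g h := by
    apply hdist
    intro s hs f hf τ
    have := h s hs τ
    rwa [avatarOf_eq hf] at this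
  G_exp s hs := by
    obtain ⟨f, hf, -⟩ := hav s hs
    rw [avatarOf_eq hf]
    exact hf.2

theorem GenData.ofAvatars_G {M : ℕ} [NeZero M] {Γ : Subgroup SL(2, ℤ)} {P : GenField}
    (hav : ∀ s, s ∈ P.S → ∃ f, IsAvatar M s f ∧ ∀ g ∈ Γ, ∀ τ : ℍ, f (g • τ) = f τ)
    (hdist : ∀ g : SL(2, ℤ),
      (∀ s, s ∈ P.S → ∀ f, IsAvatar M s f → ∀ τ : ℍ, f (g • τ) = f τ) → g ∈ Γ)
    {s : LaurentSeries Kbar} {f : ℍ → ℂ} (hf : IsAvatar M s f) :
    (GenData.ofAvatars M Γ P hav hdist).G s = f :=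
  avatarOf_eq hf

end Fermat.Agent.S48.H332

end
end
-- ===== PACK-END S48/H332/PkgAvatar.lean

-- ===== PACK-BEGIN S48/H332/F1Inst.lean
section




/-!
# Tower A1 / A1-FF (helper332) — FF-ALG (degree) + DICT1-LOC for `F1 M`

The function field `ℚ̄·F1(M) = laurentBaseChange ℚ̄ (F1.F1 M)` of `X₁(M)` as an INSTANCE of the
generic package (`PkgDeg.lean`), with `Γ = ±Γ₁(M)` (`pmGamma1 M`), avatars `S24.H997.Jd d`
(of `j(q^d)`) and `H76.pFun M a` (of the division value `P_a`, helper76):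

* `f1Data M : GenData M (pmGamma1 M) (f1Field M)`;
* `f1_finiteDimensional`, `f1_finrank_eq : [ℚ̄·F1(M) : ℚ̄(j)] = [SL₂(ℤ) : ±Γ₁(M)]`;
* `f1Pkg M : GenPackage M (pmGamma1 M) (f1Field M)` — `LocalData` at every `j = a` and at `∞`.
-/

set_option autoImplicit false
set_option linter.style.haveILetI false
set_option linter.unusedVariables false
set_option linter.unusedSectionVars false

noncomputable section

open ModularCurve HahnSeries UpperHalfPlane CongruenceSubgroup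
open scoped MatrixGroups Manifold Real

namespace Fermat.Agent.S48.H332

open Fermat.Agent.S24 Fermat.Agent.S24.H997 Fermat.Agent.S24.Deg457
open Fermat.Agent.S24.H624 Fermat.Agent.S20.L1
open Fermat.Agent.S48.F1 Fermat.Agent.S48.H76

/-! ### The group `±Γ₁(M)` -/

theorem coe_zero_zero_mul_of_mem_Gamma0 {M : ℕ} {g h : SL(2, ℤ)} (hh : h ∈ Gamma0 M) :
    (((g * h) 0 0 : ℤ) : ZMod M) = ((g 0 0 : ℤ) : ZMod M) * ((h 0 0 : ℤ) : ZMod M) := by
  have h10 : ((h 1 0 : ℤ) : ZMod M) = 0 := Gamma0_mem.mp hh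
  have e : (g * h) 0 0 = g 0 0 * h 0 0 + g 0 1 * h 1 0 := by
    rw [Matrix.SpecialLinearGroup.coe_mul, Matrix.mul_apply, Fin.sum_univ_two]
  rw [e]
  push_cast
  rw [h10, mul_zero, add_zero]

theorem coe_mul_coe_eq_one_of_mem_Gamma0 {M : ℕ} {g : SL(2, ℤ)} (hg : g ∈ Gamma0 M) :
    ((g 0 0 : ℤ) : ZMod M) * ((g 1 1 : ℤ) : ZMod M) = 1 := by
  have h10 : ((g 1 0 : ℤ) : ZMod M) = 0 := Gamma0_mem.mp hg
  have h := Matrix.SpecialLinearGroup.det_coe g
  rw [Matrix.det_fin_two] at h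
  have h' := congrArg (fun z : ℤ => (z : ZMod M)) h
  simp only [Int.cast_sub, Int.cast_mul, Int.cast_one] at h'
  rw [h10, mul_zero, sub_zero] at h'
  exact h'

/-- The subgroup `±Γ₁(M) = {γ ∈ Γ₀(M) : γ₀₀ ≡ ±1 mod M}`. -/
def pmGamma1 (M : ℕ) : Subgroup SL(2, ℤ) where
  carrier := {g | g ∈ Gamma0 M ∧
    (((g 0 0 : ℤ) : ZMod M) = 1 ∨ ((g 0 0 : ℤ) : ZMod M) = -1)}
  mul_mem' := by
    rintro g h ⟨hg, hg1⟩ ⟨hh, hh1⟩
    refine ⟨mul_mem hg hh, ?_⟩
    rw [coe_zero_zero_mul_of_mem_Gamma0 hh]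
    rcases hg1 with h1 | h1 <;> rcases hh1 with h2 | h2 <;> rw [h1, h2] <;> simp
  one_mem' := ⟨one_mem _, Or.inl (by simp)⟩
  inv_mem' := by
    rintro g ⟨hg, hg1⟩
    refine ⟨inv_mem hg, ?_⟩
    have e00 : ((g⁻¹ : SL(2, ℤ)) 0 0 : ℤ) = g 1 1 := by
      rw [Matrix.SpecialLinearGroup.SL2_inv_expl]; rfl
    rw [e00]
    have hdet := coe_mul_coe_eq_one_of_mem_Gamma0 hg
    rcases hg1 with h1 | h1
    · left; rw [h1, one_mul] at hdet; exact hdet
    · right
      rw [h1] at hdet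
      have : ((g 1 1 : ℤ) : ZMod M) = -(-1 * ((g 1 1 : ℤ) : ZMod M)) := by ring
      rw [this, hdet]

theorem mem_pmGamma1 {M : ℕ} {g : SL(2, ℤ)} :
    g ∈ pmGamma1 M ↔ g ∈ Gamma0 M ∧
      (((g 0 0 : ℤ) : ZMod M) = 1 ∨ ((g 0 0 : ℤ) : ZMod M) = -1) := Iff.rfl

theorem pmGamma1_le_Gamma0 (M : ℕ) : pmGamma1 M ≤ Gamma0 M := fun _ h => h.1

theorem Gamma1_le_pmGamma1 (M : ℕ) : Gamma1 M ≤ pmGamma1 M := by
  intro g hg
  exact ⟨Gamma1_in_Gamma0 M hg, Or.inl ((Gamma1_mem M g).mp hg).1⟩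

theorem neg_one_mem_pmGamma1 (M : ℕ) : (-1 : SL(2, ℤ)) ∈ pmGamma1 M := by
  refine ⟨by rw [Gamma0_mem]; simp, Or.inr ?_⟩
  simp

/-- `g ∈ ±Γ₁(M)` iff `g ∈ Γ₁(M)` or `-g ∈ Γ₁(M)`. -/
theorem mem_pmGamma1_iff {M : ℕ} {g : SL(2, ℤ)} :
    g ∈ pmGamma1 M ↔ g ∈ Gamma1 M ∨ -g ∈ Gamma1 M := by
  constructor
  · rintro ⟨hg, h1 | h1⟩
    · left
      have hdet := coe_mul_coe_eq_one_of_mem_Gamma0 hg
      rw [h1, one_mul] at hdet
      exact (Gamma1_mem M g).mpr ⟨h1, hdet, Gamma0_mem.mp hg⟩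
    · right
      have hdet := coe_mul_coe_eq_one_of_mem_Gamma0 hg
      rw [h1] at hdet
      have h11 : ((g 1 1 : ℤ) : ZMod M) = -1 := by
        have : ((g 1 1 : ℤ) : ZMod M) = -(-1 * ((g 1 1 : ℤ) : ZMod M)) := by ring
        rw [this, hdet]
      refine (Gamma1_mem M (-g)).mpr ⟨?_, ?_, ?_⟩
      · simp [h1]
      · simp [h11]
      · have := Gamma0_mem.mp hg
        simp [this]
  · rintro (h | h)
    · exact Gamma1_le_pmGamma1 M h
    · have h2 := (pmGamma1 M).mul_mem (neg_one_mem_pmGamma1 M) (Gamma1_le_pmGamma1 M h)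
      have e : (-1 : SL(2, ℤ)) * -g = g := by simp
      rwa [e] at h2

instance finiteIndex_pmGamma1 (M : ℕ) [NeZero M] : (pmGamma1 M).FiniteIndex :=
  Subgroup.finiteIndex_of_le (Gamma1_le_pmGamma1 M)

instance finite_XG_pmGamma1 (M : ℕ) [NeZero M] : Finite (XG (pmGamma1 M)) :=
  Subgroup.finite_quotient_of_finiteIndex

/-! ### The field -/

/-- the rational generators of `F1 M` -/
def f1Gens (M : ℕ) : Set (LaurentSeries ℚ) := divisorExpansions M ∪ divGens M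

theorem jq_mem_f1Gens (M : ℕ) : jq ∈ f1Gens M := by
  have h := mem_divisorExpansions M (d := 1) (one_dvd M)
  rw [qExpand_one_apply] at h
  exact Or.inl h

/-- `ℚ̄·F1(M)` as a generic field. -/
def f1Field (M : ℕ) : GenField := GenField.ofRat (f1Gens M) (jq_mem_f1Gens M)

theorem f1Field_F (M : ℕ) : (f1Field M).F = laurentBaseChange Kbar (F1 M) := rfl

theorem f1Field_S (M : ℕ) : (f1Field M).S = ⇑(coeffEmb Kbar) '' f1Gens M := rfl

/-! ### The avatars -/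

theorem coeffMap_coeffEmb_divGen (M : ℕ) (a : ZMod M) :
    coeffMap ιK (coeffEmb Kbar (divGen M a)) = divGenC ℂ M a := by
  rw [coeffMap_coeffEmb', coeffEmb, ← divGenC_rat, coeffMap_divGenC]

/-- `pFun M a` is the avatar of `P_a`. -/
theorem isAvatar_pFun (M : ℕ) [NeZero M] {a : ZMod M} (ha : a ≠ 0) :
    IsAvatar M (coeffEmb Kbar (divGen M a)) (pFun M a) := by
  refine IsAvatar.of_infExp_one (pFun_mem_holN M a) ?_
  rw [coeffMap_coeffEmb_divGen]
  exact infExp_pFun M ha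

theorem pFun_smul_pmGamma1 (M : ℕ) [NeZero M] (a : ZMod M) (g : SL(2, ℤ))
    (hg : g ∈ pmGamma1 M) (τ : ℍ) : pFun M a (g • τ) = pFun M a τ := by
  have h := congrFun (compSL_pFun M a g hg.1) τ
  rw [compSL_apply] at h
  rw [h]
  rcases hg.2 with h1 | h1
  · rw [h1, mul_one]
  · rw [h1, mul_neg, mul_one, pFun_neg]

/-- every generator has a `±Γ₁(M)`-invariant avatar -/
theorem f1_avatars (M : ℕ) [NeZero M] (s : LaurentSeries Kbar) (hs : s ∈ (f1Field M).S) :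
    ∃ f, IsAvatar M s f ∧ ∀ g ∈ pmGamma1 M, ∀ τ : ℍ, f (g • τ) = f τ := by
  obtain ⟨x, hx, rfl⟩ := hs
  rcases hx with hx | hx
  · obtain ⟨d, hd0, hd, rfl⟩ := hx
    exact ⟨Jd d, isAvatar_Jd M d hd, fun g hg τ => Jd_inv M d hd g hg.1 τ⟩
  · obtain ⟨a, ha, rfl⟩ := hx
    exact ⟨pFun M a, isAvatar_pFun M ha, fun g hg τ => pFun_smul_pmGamma1 M a g hg τ⟩

/-- `P_a = P_b` as functions implies `a = ±b`. -/
theorem eq_or_eq_neg_of_pFun_eq (M : ℕ) [NeZero M] {a b : ZMod M} (ha : a ≠ 0) (hb : b ≠ 0)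
    (h : pFun M a = pFun M b) : a = b ∨ a = -b := by
  apply eq_or_eq_neg_of_divGenC_eq ℂ M ha hb
  exact (infExp_pFun M ha).unique' (infExp_pFun M hb) (fun τ => congrFun h τ)

/-- an element of `SL₂(ℤ)` fixing all the avatars lies in `±Γ₁(M)` -/
theorem f1_distinct (M : ℕ) [NeZero M] (g : SL(2, ℤ))
    (h : ∀ s, s ∈ (f1Field M).S → ∀ f, IsAvatar M s f → ∀ τ : ℍ, f (g • τ) = f τ) :
    g ∈ pmGamma1 M := by
  have hg0 : g ∈ Gamma0 M := by
    apply Jd_distinct M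
    have hM : (coeffEmb Kbar (qExpand ℚ M jq)) ∈ (f1Field M).S :=
      ⟨_, Or.inl (mem_divisorExpansions M dvd_rfl), rfl⟩
    exact h _ hM (Jd M) (isAvatar_Jd M M dvd_rfl)
  refine ⟨hg0, ?_⟩
  by_cases h1 : (1 : ZMod M) = 0
  · -- `M = 1`: `ZMod M` is trivial
    left
    have hsub : ∀ x y : ZMod M, x = y := by
      intro x y
      rw [← mul_one x, ← mul_one y, h1, mul_zero, mul_zero]
    exact hsub _ _
  · set u : ZMod M := ((g 0 0 : ℤ) : ZMod M) with hu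
    have hu0 : u ≠ 0 := by
      intro h0
      have hdet := coe_mul_coe_eq_one_of_mem_Gamma0 hg0
      rw [← hu, h0, zero_mul] at hdet
      exact h1 hdet.symm
    have hP : (coeffEmb Kbar (divGen M 1)) ∈ (f1Field M).S :=
      ⟨_, Or.inr (divGen_mem_divGens M h1), rfl⟩
    have hfix := h _ hP (pFun M 1) (isAvatar_pFun M h1)
    have hcomp := compSL_pFun M 1 g hg0
    rw [one_mul, ← hu] at hcomp
    have heq : pFun M u = pFun M 1 := by
      rw [← hcomp]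
      funext τ
      exact hfix τ
    exact eq_or_eq_neg_of_pFun_eq M hu0 h1 heq

/-! ### The instance -/

/-- **The analytic input for `ℚ̄·F1(M)`**, `Γ = ±Γ₁(M)`. -/
def f1Data (M : ℕ) [NeZero M] : GenData M (pmGamma1 M) (f1Field M) :=
  GenData.ofAvatars M (pmGamma1 M) (f1Field M) (f1_avatars M) (f1_distinct M)

/-- the avatar of `P_a` in `f1Data` is `pFun M a` -/
theorem f1Data_G_divGen (M : ℕ) [NeZero M] {a : ZMod M} (ha : a ≠ 0) :
    (f1Data M).G (coeffEmb Kbar (divGen M a)) = pFun M a :=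
  avatarOf_eq (isAvatar_pFun M ha)

/-- the avatar of `j(q^d)` in `f1Data` is `τ ↦ j(dτ)` -/
theorem f1Data_G_Jd (M : ℕ) [NeZero M] (d : ℕ) [NeZero d] (hd : d ∣ M) :
    (f1Data M).G (coeffEmb Kbar (qExpand ℚ d jq)) = Jd d :=
  avatarOf_eq (isAvatar_Jd M d hd)

/-- **The generic modular package of `ℚ̄·F1(M)`.** -/
def f1Pkg (M : ℕ) [NeZero M] : GenPackage M (pmGamma1 M) (f1Field M) := (f1Data M).pkg

/-- `j` as an element of `ℚ̄·F1(M)`. -/
def f1J (M : ℕ) : ↥(laurentBaseChange Kbar (F1 M)) := (f1Field M).jF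

theorem coe_f1J (M : ℕ) : ((f1J M : ↥(laurentBaseChange Kbar (F1 M))) : LaurentSeries Kbar)
    = coeffEmb Kbar jq := rfl

/-- **FF-ALG (finiteness)**: `ℚ̄·F1(M)` is finite over `ℚ̄(j)`. -/
theorem f1_finiteDimensional (M : ℕ) [NeZero M] :
    FiniteDimensional ↥(IntermediateField.adjoin Kbar {f1J M})
      ↥(laurentBaseChange Kbar (F1 M)) :=
  (f1Data M).finiteDimensional

/-- **FF-ALG (degree)**: `[ℚ̄·F1(M) : ℚ̄(j)] = [SL₂(ℤ) : ±Γ₁(M)]`. -/
theorem f1_finrank_eq (M : ℕ) [NeZero M] :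
    Module.finrank ↥(IntermediateField.adjoin Kbar {f1J M}) ↥(laurentBaseChange Kbar (F1 M))
      = Nat.card (SL(2, ℤ) ⧸ pmGamma1 M) :=
  (f1Data M).finrank_eq

/-- **DICT1-LOC (finite points)**: local uniformisation data of `ℚ̄·F1(M)` over `j = a`. -/
def f1DataFin (M : ℕ) [NeZero M] (a : Kbar) :
    LocalData Kbar ↥(laurentBaseChange Kbar (F1 M)) ℂ (SL(2, ℤ) ⧸ pmGamma1 M)
      (f1J M - algebraMap Kbar ↥(laurentBaseChange Kbar (F1 M)) a) :=
  (f1Pkg M).dataFin a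

/-- **DICT1-LOC (cusps)**: local uniformisation data of `ℚ̄·F1(M)` over `j = ∞`. -/
def f1DataInf (M : ℕ) [NeZero M] :
    LocalData Kbar ↥(laurentBaseChange Kbar (F1 M)) ℂ (SL(2, ℤ) ⧸ pmGamma1 M) (f1J M)⁻¹ :=
  (f1Pkg M).dataInf

end Fermat.Agent.S48.H332

end
end
-- ===== PACK-END S48/H332/F1Inst.lean

-- ===== PACK-BEGIN S48/H248/DegF1.lean
section




/-!
# S48 / Tower A1 / A1-RED leaf DEG (helper248), part 2: the two FF hypotheses of `H908.Core1.core1`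

* `finHyp : H908.Core1.FinHyp`  — `ℚ̄·F1(M)` is a function field in one variable
  (adapter from `H332.f1_finiteDimensional`, `H332.f1DataInf`);
* `degHyp : H908.Core1.DegHyp`  — `[ℚ̄·F1(M a) : ℚ̄·F1(M)] ∣ a² - 1` for a prime `a ∤ M`
  (`H332.f1_finrank_eq` at the levels `M` and `M a`, the tower law over `ℚ̄(j)`, and the group
  theory of `DegGroup.lean`: `[±Γ₁(M) : ±Γ₁(M a)] ∣ [Γ₁(M) : Γ₁(M a)] ∣ a² - 1`);
* `core1_of_mod : Mod1Hyp → CoreG (F1 M) A Fk ℓ` — `H908.Core1.core1` with both plugged in.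
-/

set_option autoImplicit false
set_option linter.style.haveILetI false

noncomputable section

open ModularCurve HahnSeries CongruenceSubgroup IntermediateField
open scoped MatrixGroups

namespace Fermat.Agent.S48.H248

open Fermat.Agent.S18 (Qb)
open Fermat.Agent.S48.F1 Fermat.Agent.S48.H332 Fermat.Agent.S48.H908.Core1

/-! ### `[±Γ₁(M) : ±Γ₁(M a)]` divides `a² - 1` -/

/-- `{±1}` is normal in `SL₂(ℤ)`. -/
theorem normal_zpowers_neg_one : (Subgroup.zpowers (-1 : SL(2, ℤ))).Normal := by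
  refine ⟨fun n hn g => ?_⟩
  obtain ⟨k, rfl⟩ := Subgroup.mem_zpowers_iff.mp hn
  have hc : Commute g (-1 : SL(2, ℤ)) := by
    show g * -1 = -1 * g
    simp
  rw [(hc.zpow_right k).eq, mul_inv_cancel_right]
  exact hn

theorem Gamma1_mul_le_left {M a : ℕ} (h : Nat.Coprime M a) : Gamma1 (M * a) ≤ Gamma1 M := by
  rw [Gamma1_mul_eq h]
  exact inf_le_right

theorem pmGamma1_mul_le {M a : ℕ} (h : Nat.Coprime M a) : pmGamma1 (M * a) ≤ pmGamma1 M := by
  intro g hg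
  rcases mem_pmGamma1_iff.mp hg with h1 | h1
  · exact mem_pmGamma1_iff.mpr (Or.inl (Gamma1_mul_le_left h h1))
  · exact mem_pmGamma1_iff.mpr (Or.inr (Gamma1_mul_le_left h h1))

/-- **`[±Γ₁(M) : ±Γ₁(M a)]` divides `a² - 1`** for a prime `a ∤ M`. -/
theorem relIndex_pmGamma1_mul_dvd {M a : ℕ} (ha : a.Prime) (haM : ¬ a ∣ M) :
    (pmGamma1 (M * a)).relIndex (pmGamma1 M) ∣ a ^ 2 - 1 := by
  haveI := normal_zpowers_neg_one
  refine dvd_trans (relIndex_dvd_of_normal (Subgroup.zpowers (-1 : SL(2, ℤ)))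
    (G₁ := Gamma1 M) (G₁' := Gamma1 (M * a)) ?_ (Gamma1_le_pmGamma1 _) (Gamma1_le_pmGamma1 _) ?_)
    (relIndex_Gamma1_mul_dvd ha haM)
  · exact (Subgroup.zpowers_le).mpr (neg_one_mem_pmGamma1 _)
  · intro g hg
    rcases mem_pmGamma1_iff.mp hg with h | h
    · exact ⟨1, one_mem _, by simpa using h⟩
    · exact ⟨-1, Subgroup.mem_zpowers _, by simpa using h⟩

/-! ### The degree over `ℚ̄(j)` -/

/-- `ℚ̄(j) ⊆ ℚ̄((q))`. -/
def jField : IntermediateField Qb (LaurentSeries Qb) :=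
  IntermediateField.adjoin Qb {coeffEmb Qb jq}

theorem jField_le (M : ℕ) : jField ≤ laurentBaseChange Qb (F1 M) := by
  rw [jField, IntermediateField.adjoin_le_iff]
  rintro x hx
  rw [Set.mem_singleton_iff] at hx
  rw [hx]
  exact coeffEmb_mem_laurentBaseChange Qb (jq_mem_F1 M)

/-- `[ℚ̄·F1(M) : ℚ̄(j)] = [SL₂(ℤ) : ±Γ₁(M)]`, as a relative degree inside `ℚ̄((q))`. -/
theorem relfinrank_jField (M : ℕ) [NeZero M] :
    jField.relfinrank (laurentBaseChange Qb (F1 M)) = (pmGamma1 M).index := by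
  rw [Subgroup.index_eq_card, ← f1_finrank_eq M]
  have h1 : (IntermediateField.adjoin Qb {f1J M}).map (laurentBaseChange Qb (F1 M)).val
      = jField := by
    rw [IntermediateField.adjoin_map, Set.image_singleton]
    rfl
  have h2 : (⊤ : IntermediateField Qb ↥(laurentBaseChange Qb (F1 M))).map
      (laurentBaseChange Qb (F1 M)).val = laurentBaseChange Qb (F1 M) := by
    rw [← AlgHom.fieldRange_eq_map, IntermediateField.fieldRange_val]
  have h3 := IntermediateField.relfinrank_map_map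
    (A := IntermediateField.adjoin Qb {f1J M})
    (B := (⊤ : IntermediateField Qb ↥(laurentBaseChange Qb (F1 M))))
    (laurentBaseChange Qb (F1 M)).val
  rw [h1, h2, IntermediateField.relfinrank_top_right] at h3
  exact h3

/-! ### The two hypotheses -/

theorem exists_algebraMap_eq_of_isAlgebraic248 {K F : Type*} [Field K] [Field F] [Algebra K F]
    [IsAlgClosed K] {x : F} (hx : IsAlgebraic K x) : ∃ c : K, algebraMap K F c = x := by
  have hint : IsIntegral K x := hx.isIntegral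
  refine ⟨-(minpoly K x).coeff 0, ?_⟩
  have hq : (minpoly K x).leadingCoeff = 1 := minpoly.monic hint
  have h : (minpoly K x).degree = 1 :=
    IsAlgClosed.degree_eq_one_of_irreducible K (minpoly.irreducible hint)
  have : Polynomial.aeval x (minpoly K x) = 0 := minpoly.aeval K x
  rw [Polynomial.eq_X_add_C_of_degree_eq_one h, hq, Polynomial.C_1, one_mul,
    Polynomial.aeval_add, Polynomial.aeval_X, Polynomial.aeval_C,
    add_eq_zero_iff_eq_neg] at this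
  exact (map_neg (algebraMap K F) ((minpoly K x).coeff 0)).symm ▸ this.symm

theorem not_mem_range_of_localData248 {K F C X : Type*} [Field K] [Field F] [Algebra K F]
    [Field C] [Nonempty X] {t : F} (d : Fermat.Agent.S24.LocalData K F C X t) (c : K) :
    t ≠ algebraMap K F c := by
  intro h
  obtain ⟨x⟩ := ‹Nonempty X›
  have h1 := d.σ_t_order x
  have h3 : d.σ x t = HahnSeries.C (d.ι c) := (congrArg (d.σ x) h).trans (d.σ_const x c)
  rw [h3] at h1
  have h2 : (HahnSeries.C (d.ι c) : LaurentSeries C).order = 0 := by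
    rw [HahnSeries.C_apply]
    by_cases hc : d.ι c = 0
    · simp [hc]
    · exact HahnSeries.order_single hc
  rw [h2] at h1
  have := d.m_pos
  omega

/-- An element with local data at its inverse is transcendental over an algebraically closed
field of constants (inlined from `S24/Alg.lean`, to keep the import closure small). -/
theorem transcendental_of_localData_inv248 {K F C X : Type*} [Field K] [Field F] [Algebra K F]
    [IsAlgClosed K] [Field C] [Nonempty X] (j : F)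
    (d : Fermat.Agent.S24.LocalData K F C X j⁻¹) : Transcendental K j := by
  intro halg
  obtain ⟨c, hc⟩ := exists_algebraMap_eq_of_isAlgebraic248 halg
  refine not_mem_range_of_localData248 d c⁻¹ ?_
  rw [map_inv₀, hc]

/-- **FinHyp** of `H908.Core1.core1`. -/
theorem finHyp : FinHyp := by
  intro M hM
  haveI : NeZero M := ⟨hM⟩
  have : Nonempty (SL(2, ℤ) ⧸ pmGamma1 M) := ⟨((1 : SL(2, ℤ)) : SL(2, ℤ) ⧸ pmGamma1 M)⟩
  exact ⟨f1J M, transcendental_of_localData_inv248 (f1J M) (f1DataInf M),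
    f1_finiteDimensional M⟩

/-- **DegHyp** of `H908.Core1.core1`. -/
theorem degHyp : DegHyp := by
  intro M a hM ha haM
  haveI : NeZero M := ⟨hM⟩
  haveI : NeZero (M * a) := ⟨Nat.mul_ne_zero hM ha.ne_zero⟩
  have hcop : Nat.Coprime M a := ((Nat.Prime.coprime_iff_not_dvd ha).mpr haM).symm
  have hle : laurentBaseChange Qb (F1 M) ≤ laurentBaseChange Qb (F1 (M * a)) :=
    lbc_mono Qb (F1_le_of_dvd (Dvd.intro a rfl))
  have ht := IntermediateField.relfinrank_mul_relfinrank (jField_le M) hle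
  rw [relfinrank_jField, relfinrank_jField] at ht
  have hidx := Subgroup.relIndex_mul_index (pmGamma1_mul_le hcop)
  have hne : (pmGamma1 M).index ≠ 0 := Subgroup.FiniteIndex.index_ne_zero
  have hd : (laurentBaseChange Qb (F1 M)).relfinrank (laurentBaseChange Qb (F1 (M * a)))
      = (pmGamma1 (M * a)).relIndex (pmGamma1 M) := by
    apply Nat.eq_of_mul_eq_mul_left (Nat.pos_of_ne_zero hne)
    rw [ht, ← hidx, mul_comm]
  rw [hd]
  exact relIndex_pmGamma1_mul_dvd ha haM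

/-- **CORE1 from MOD1 alone**: `H908.Core1.core1` with `FinHyp` and `DegHyp` discharged. -/
theorem core1_of_mod (hmod : Mod1Hyp) (M ℓ p : ℕ) (hM : M ≠ 0)
    (hℓ : ℓ.Prime) (hp : p.Prime) (hpMℓ : ¬ p ∣ M * ℓ) (A : ValuationSubring Qb)
    (hA : A.LiesOverPrime p)
    (Fk : IntermediateField (IsLocalRing.ResidueField A)
      (LaurentSeries (IsLocalRing.ResidueField A))) :
    Fermat.Agent.S48.H136.CoreG (F1 M) A Fk ℓ :=
  core1 hmod finHyp degHyp M ℓ p hM hℓ hp hpMℓ A hA Fk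

end Fermat.Agent.S48.H248

end
end
-- ===== PACK-END S48/H248/DegF1.lean

-- ===== PACK-BEGIN S48/Kum/K4.lean
section
/-
Tower A1 / A1-KUM (helper822): the pieces `K4-ADD`, `K4-INJ`, `K4-UNIQ` of the Kummer map,
GENERIC in `(Γ, F)`, from the dictionary axioms `DictInter`, `DictMero` and the constant-field
property of `F`.  Generic port of `S29/M4b/H822/{K4Basic,K4Uniq}.lean`.
-/



set_option autoImplicit false

noncomputable section

open ModularCurve AlgebraicCurve UpperHalfPlane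
open scoped MatrixGroups Manifold

namespace Fermat.Agent.S48.Kum

open Fermat.Agent.S24 Fermat.Agent.S29 Fermat.Agent.S29.M4b Fermat.Agent.S29.M4b.H822

/-- CONST: an element of `F` without zeros and poles is a constant. -/
def DictConst (F : KF) : Prop :=
  ∀ u : F, u ≠ 0 → (∀ v : Place Kbar F, v.ord u = 0) → ∃ a : Kbar, u = algebraMap Kbar F a

variable {Γ : Subgroup SL(2, ℤ)} {F : KF} {p : ℕ}

/-- PIECE `K4-ADD`: additivity of the Kummer relation. -/
theorem isKum_add [NeZero p] (hT : ModularGroup.T ∈ Γ) {c c' : Γ → ZMod p}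
    {x x' : Pic0 Kbar F} (h : _root_.Fermat.Agent.S48.Kum.IsKum Γ F p c x) (h' : _root_.Fermat.Agent.S48.Kum.IsKum Γ F p c' x') :
    _root_.Fermat.Agent.S48.Kum.IsKum Γ F p (c + c') (x + x') := by
  obtain ⟨f, t, U, ht, hx, hU, hr⟩ := h
  obtain ⟨f', t', U', ht', hx', hU', hr'⟩ := h'
  have hfun : (fun τ => (U τ * U' τ) ^ p) = (fun τ => U τ ^ p) * (fun τ => U' τ ^ p) := by
    funext τ
    simp [mul_pow]
  have hreal : _root_.Fermat.Agent.S48.Kum.Realises Γ F (f * f' * (t * t') ^ p) (fun τ => (U τ * U' τ) ^ p) := by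
    have h1 := hr.mul hT hr'
    rw [hfun]
    have h2 : f * f' * (t * t') ^ p = f * t ^ p * (f' * t' ^ p) := by ring
    rw [h2]
    exact h1
  refine ⟨f * f', t * t', fun τ => U τ * U' τ, mul_ne_zero ht ht', hx.add hx', ?_, hreal⟩
  refine ⟨hU.mdiff.mul hU'.mdiff, ?_, _root_.Fermat.Agent.S48.Kum.hasChar_mul hU.hasChar hU'.hasChar, hreal.1⟩
  have hne : f * f' * (t * t') ^ p ≠ 0 :=
    mul_ne_zero (mul_ne_zero hx.ne_zero hx'.ne_zero) (pow_ne_zero _ (mul_ne_zero ht ht'))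
  obtain ⟨τ, hτ⟩ := exists_ne_zero_of_ne_zero (hreal.ne_zero hT hne)
  refine ⟨τ, fun h0 => hτ ?_⟩
  show (U τ * U' τ) ^ p = 0
  rw [h0, zero_pow (NeZero.ne p)]

/-- PIECE `K4-INJ`: only the trivial character has Kummer class `0`. -/
theorem isKum_zero_right [NeZero p] (hT : ModularGroup.T ∈ Γ) (hmero : DictMero Γ F)
    (hconst : DictConst F) {c : Γ → ZMod p} (h : _root_.Fermat.Agent.S48.Kum.IsKum Γ F p c (0 : Pic0 Kbar F)) : c = 0 := by
  obtain ⟨f, t, U, ht, hx, hU, hr⟩ := h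
  have hp0 : (p : ℤ) ≠ 0 := by exact_mod_cast NeZero.ne p
  have hpn : p ≠ 0 := NeZero.ne p
  obtain ⟨g, hg, hfg⟩ := (hx.eq_zero_iff hp0).mp rfl
  have hf0 := hx.ne_zero
  -- `f / g ^ p` is a constant
  have hu : ∀ v : Place Kbar F, v.ord (f / g ^ p) = 0 := by
    intro v
    have hpow : v.ord (g ^ p) = (p : ℤ) * v.ord g := by
      rw [← zpow_natCast, Place.ord_zpow]
    rw [div_eq_mul_inv, Place.ord_mul v hf0 (inv_ne_zero (pow_ne_zero _ hg)), Place.ord_inv,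
      hpow, hfg v]
    ring
  obtain ⟨a0, ha0⟩ := hconst (f / g ^ p) (div_ne_zero hf0 (pow_ne_zero _ hg)) hu
  obtain ⟨b0, hb0⟩ := IsAlgClosed.exists_pow_nat_eq a0 (Nat.pos_of_ne_zero hpn)
  -- `f * t ^ p = v ^ p`
  set v : F := algebraMap Kbar F b0 * g * t with hv
  have hvp : v ^ p = f * t ^ p := by
    have h1 : f = algebraMap Kbar F a0 * g ^ p := by
      rw [← ha0, div_mul_cancel₀ _ (pow_ne_zero _ hg)]
    rw [hv, mul_pow, mul_pow, ← map_pow, hb0, ← h1]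
  have hv0 : v ≠ 0 := by
    intro h0
    have : f * t ^ p = 0 := by rw [← hvp, h0, zero_pow hpn]
    exact (mul_ne_zero hf0 (pow_ne_zero _ ht)) this
  -- `v = A / B` with `A, B` realised
  obtain ⟨A, B, GA, GB, hB0, hvAB, hGA, hGB⟩ := hmero v
  have hA0 : A ≠ 0 := by
    rw [← hvAB]
    exact mul_ne_zero hv0 hB0
  have h3 : f * t ^ p * B ^ p = A ^ p := by
    rw [← hvp, ← mul_pow, hvAB]
  have h1 : _root_.Fermat.Agent.S48.Kum.Realises Γ F (A ^ p) ((fun τ => U τ ^ p) * GB ^ p) := by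
    have := hr.mul hT (hGB.pow hT p)
    rwa [h3] at this
  have h4 : (fun τ => U τ ^ p) * GB ^ p = GA ^ p := h1.unique_right hT (hGA.pow hT p)
  have h5 : ∀ τ : ℍ, (U τ * GB τ) ^ p = GA τ ^ p := by
    intro τ
    have := congrFun h4 τ
    simp only [Pi.mul_apply, Pi.pow_apply] at this
    rw [mul_pow]
    exact this
  obtain ⟨τ₀, hτ₀⟩ := exists_ne_zero_of_ne_zero (hGA.ne_zero hT hA0)
  have hUB0 : U τ₀ * GB τ₀ ≠ 0 := by
    intro h0
    have := h5 τ₀
    rw [h0, zero_pow hpn] at this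
    exact hτ₀ (pow_eq_zero_iff hpn |>.mp this.symm)
  set z : ℂ := U τ₀ * GB τ₀ / GA τ₀ with hz
  have hzp : z ^ p = 1 := by
    rw [hz, div_pow, h5 τ₀, div_self (pow_ne_zero _ hτ₀)]
  have hGAmd : MDifferentiable 𝓘(ℂ) 𝓘(ℂ) GA := hGA.1.1
  have hGBmd : MDifferentiable 𝓘(ℂ) 𝓘(ℂ) GB := hGB.1.1
  have hEq : (fun τ => U τ * GB τ) = fun τ => z * GA τ := by
    refine H751.eq_of_pow_eq_UHP (hU.mdiff.mul hGBmd) (mdifferentiable_const.mul hGAmd) hpn
      (fun τ => ?_) (τ₀ := τ₀) ?_ hUB0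
    · show (U τ * GB τ) ^ p = (z * GA τ) ^ p
      rw [mul_pow z, hzp, one_mul, h5 τ]
    · show U τ₀ * GB τ₀ = z * GA τ₀
      rw [hz, div_mul_cancel₀ _ hτ₀]
  funext γ
  have hinvA : GA ((γ : SL(2, ℤ)) • τ₀) = GA τ₀ := hGA.1.2.1 _ γ.2 τ₀
  have hinvB : GB ((γ : SL(2, ℤ)) • τ₀) = GB τ₀ := hGB.1.2.1 _ γ.2 τ₀
  have e1 := congrFun hEq ((γ : SL(2, ℤ)) • τ₀)
  have e2 := congrFun hEq τ₀
  rw [hinvA, hinvB, ← e2, hU.hasChar γ τ₀] at e1
  have e3 : (zetaP p ^ (c γ).val - 1) * (U τ₀ * GB τ₀) = 0 := by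
    linear_combination e1
  rcases mul_eq_zero.mp e3 with h | h
  · exact (zetaP_pow_val_eq_one_iff p (c γ)).mp (sub_eq_zero.mp h)
  · exact absurd h hUB0

/-- PIECE `K4-UNIQ`: the Kummer class of a character is unique. -/
theorem isKum_unique [NeZero p] (hT : ModularGroup.T ∈ Γ) (hinter : DictInter Γ F)
    {c : Γ → ZMod p} {x x' : Pic0 Kbar F}
    (h : _root_.Fermat.Agent.S48.Kum.IsKum Γ F p c x) (h' : _root_.Fermat.Agent.S48.Kum.IsKum Γ F p c x') : x = x' := by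
  obtain ⟨f, t, U, ht, hx, hU, hr⟩ := h
  obtain ⟨f', t', U', ht', hx', hU', hr'⟩ := h'
  have hpn : p ≠ 0 := NeZero.ne p
  have hp0 : (p : ℤ) ≠ 0 := by exact_mod_cast hpn
  have hp1 : p - 1 + 1 = p := Nat.sub_add_cancel (Nat.pos_of_ne_zero hpn)
  -- the invariant function `V = U * U' ^ (p - 1)`
  set V : ℍ → ℂ := fun τ => U τ * U' τ ^ (p - 1) with hVdef
  set w : F := f * t ^ p * (f' * t' ^ p) ^ (p - 1) with hw
  have hVpow : (fun τ => V τ ^ p) = (fun τ => U τ ^ p) * (fun τ => U' τ ^ p) ^ (p - 1) := by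
    funext τ
    simp only [hVdef, Pi.mul_apply, Pi.pow_apply, mul_pow]
    rw [← pow_mul, ← pow_mul, mul_comm (p - 1) p]
  have hWreal : _root_.Fermat.Agent.S48.Kum.Realises Γ F w (fun τ => V τ ^ p) := by
    rw [hVpow]
    exact hr.mul hT (hr'.pow hT (p - 1))
  have hVmd : MDifferentiable 𝓘(ℂ) 𝓘(ℂ) V := hU.mdiff.mul (hU'.mdiff.pow (p - 1))
  have hVinv : ∀ γ ∈ Γ, ∀ τ : ℍ, V (γ • τ) = V τ := by
    intro γ hγ τ
    have e1 := hU.hasChar ⟨γ, hγ⟩ τ
    have e2 := hU'.hasChar ⟨γ, hγ⟩ τ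
    simp only at e1 e2
    show U (γ • τ) * U' (γ • τ) ^ (p - 1) = U τ * U' τ ^ (p - 1)
    rw [e1, e2, mul_pow]
    have e3 : zetaP p ^ (c ⟨γ, hγ⟩).val * (zetaP p ^ (c ⟨γ, hγ⟩).val) ^ (p - 1) = 1 := by
      rw [← pow_succ', hp1, ← pow_mul, mul_comm, pow_mul, zetaP_pow_self, one_pow]
    linear_combination (U τ * U' τ ^ (p - 1)) * e3
  have hVgood : IsGood Γ V := isGood_of_pow hpn hVmd hVinv hWreal.1
  -- its `q`-expansion `s`
  set s : LaurentSeries ℂ := H708.qexpFun 1 V with hsdef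
  have hsQ : H708.HasQExp 1 V s := hVgood.hasQExp hT
  have hsp : s ^ p = coeffMap Deg457.iotaC ((w : F) : LaurentSeries Kbar) := by
    have h1 := hsQ.pow p
    have h2 : V ^ p = fun τ => V τ ^ p := rfl
    rw [h2] at h1
    exact h1.unique (hWreal.hasQExp hT)
  -- descent of `s` to `ℚ̄`
  letI : Algebra Kbar ℂ := algKbarC
  have hys : coeffMap Deg457.iotaC (H32.coeffDown (k := Kbar) s) = s :=
    H32.coeffMap_coeffDown (k := Kbar) (Ω := ℂ) (fun n => coeff_mem_range_of_pow_eq hsp n)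
  set y : LaurentSeries Kbar := H32.coeffDown (k := Kbar) s with hydef
  have hy : y ∈ F := hinter V y hVgood hys.symm
  set vv : F := ⟨y, hy⟩ with hvv
  have hvvp : vv ^ p = w := by
    apply Subtype.ext
    apply coeffMap_iotaC_injective
    show coeffMap Deg457.iotaC (((vv ^ p : F) : F) : LaurentSeries Kbar) = _
    rw [← hsp, ← hys]
    simp only [SubmonoidClass.coe_pow, map_pow]
    rfl
  -- `f * f' ^ (p - 1)` is a `p`-th power
  have hf0 := hx.ne_zero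
  have hf0' := hx'.ne_zero
  have hd0 : t * t' ^ (p - 1) ≠ 0 := mul_ne_zero ht (pow_ne_zero _ ht')
  set g : F := vv / (t * t' ^ (p - 1)) with hg
  have hgp : g ^ p = f * f' ^ (p - 1) := by
    rw [hg, div_pow, hvvp, hw]
    rw [div_eq_iff (pow_ne_zero _ hd0)]
    have e1 : (t' ^ p) ^ (p - 1) = (t' ^ (p - 1)) ^ p := by
      rw [← pow_mul, ← pow_mul, mul_comm]
    rw [mul_pow, mul_pow, e1]
    ring
  have hg0 : g ≠ 0 := by
    intro h0
    rw [h0, zero_pow hpn] at hgp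
    exact (mul_ne_zero hf0 (pow_ne_zero _ hf0')) hgp.symm
  have hsum : H455.IsKummerClass (p : ℤ) (f * f' ^ (p - 1)) (x + (p - 1) • x') :=
    hx.add (isKummerClass_pow hx' (p - 1))
  have hzero : x + (p - 1) • x' = 0 := by
    refine (hsum.eq_zero_iff hp0).mpr ⟨g, hg0, fun v => ?_⟩
    rw [← hgp, ← zpow_natCast, Place.ord_zpow]
  have hpx' : (p : ℤ) • x' = 0 := hx'.zsmul_eq_zero
  have h5 : (p - 1) • x' + x' = 0 := by
    rw [← succ_nsmul, hp1, ← natCast_zsmul]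
    exact hpx'
  have h6 : x - x' = 0 := by
    have : x - x' = (x + (p - 1) • x') - ((p - 1) • x' + x') := by abel
    rw [this, hzero, h5, sub_zero]
  exact sub_eq_zero.mp h6

/-! ### The pieces, in the shape of `Kum/Top.lean` -/

theorem pieceAdd (hT : ModularGroup.T ∈ Γ) (hp : p ≠ 0) : _root_.Fermat.Agent.S48.Kum.PieceAdd Γ F p := by
  haveI : NeZero p := ⟨hp⟩
  intro c c' x x' h h'
  exact _root_.Fermat.Agent.S48.Kum.isKum_add hT h h'

theorem pieceInj (hT : ModularGroup.T ∈ Γ) (hmero : DictMero Γ F) (hconst : DictConst F)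
    (hp : p ≠ 0) : _root_.Fermat.Agent.S48.Kum.PieceInj Γ F p := by
  haveI : NeZero p := ⟨hp⟩
  intro c h
  exact _root_.Fermat.Agent.S48.Kum.isKum_zero_right hT hmero hconst h

theorem pieceUniq (hT : ModularGroup.T ∈ Γ) (hinter : DictInter Γ F) (hp : p ≠ 0) :
    _root_.Fermat.Agent.S48.Kum.PieceUniq Γ F p := by
  haveI : NeZero p := ⟨hp⟩
  intro c x x' h h'
  exact _root_.Fermat.Agent.S48.Kum.isKum_unique hT hinter h h'

end Fermat.Agent.S48.Kum

end
end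
-- ===== PACK-END S48/Kum/K4.lean

-- ===== PACK-BEGIN S48/Kum/Hecke.lean
section
/-
Tower A1 / A1-KUM (helper822): the pieces `K4-HECKE` and `K4-DIAMOND` of the Kummer map,
GENERIC in `(Γ, F)`, from the analytic norm formula `NormAn` resp. the diamond formula `DiaAn`.
Generic port of `S29/M4b/H822/Hecke*.lean`.
-/



set_option autoImplicit false

noncomputable section

open ModularCurve AlgebraicCurve UpperHalfPlane
open scoped MatrixGroups Manifold

namespace Fermat.Agent.S48.Kum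

open Fermat.Agent.S24 Fermat.Agent.S29 Fermat.Agent.S29.M4b Fermat.Agent.S29.M4b.H822

variable {Γ : Subgroup SL(2, ℤ)} {F : KF} {p : ℕ}

/-! ### The norm on `F` -/

theorem Corr.norm_mul (C : Corr F) (u v : F) : C.norm (u * v) = C.norm u * C.norm v := by
  unfold Corr.norm
  rw [map_mul, H455.normAlong_mul]

theorem Corr.norm_pow (C : Corr F) (u : F) (n : ℕ) : C.norm (u ^ n) = C.norm u ^ n := by
  unfold Corr.norm
  rw [map_pow, H455.normAlong_pow]

theorem Corr.norm_ne_zero (C : Corr F) {u : F} (hu : u ≠ 0) : C.norm u ≠ 0 :=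
  H455.normAlong_ne_zero C.ψ C.hfin ((map_ne_zero C.φ).mpr hu)

theorem Corr.isKummerClass (C : Corr F) {n : ℤ} {f : F} {x : Pic0 Kbar F}
    (hx : H455.IsKummerClass n f x) : H455.IsKummerClass n (C.norm f) (C.op x) :=
  hx.correspondence C.φ C.ψ C.hφ C.hψ C.hFI C.hfin C.hN

/-! ### The Hecke product of a twisted function -/

section Product

variable {I : Type*} [Fintype I]

theorem SL_smul_eq_mapGL_smul (γ : SL(2, ℤ)) (τ : ℍ) :
    γ • τ = (Matrix.SpecialLinearGroup.mapGL ℝ γ) • τ := rfl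

/-- The transformation law of the Hecke product. -/
theorem hasChar_prod [NeZero p] {A : I → GL (Fin 2) ℝ}
    {c c' : Γ → ZMod p} (htr : IsTransferEx Γ A c c') {U : ℍ → ℂ} (hU : _root_.Fermat.Agent.S48.Kum.HasChar Γ p c U) :
    _root_.Fermat.Agent.S48.Kum.HasChar Γ p c' (fun τ => ∏ i, U (A i • τ)) := by
  intro γ τ
  obtain ⟨π, δ, hδ, hc'⟩ := htr γ
  have h1 : ∀ i, U (A i • ((γ : SL(2, ℤ)) • τ)) =
      zetaP p ^ (c (δ i)).val * U (A (π i) • τ) := by
    intro i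
    have e : A i • ((γ : SL(2, ℤ)) • τ) = ((δ i : Γ) : SL(2, ℤ)) • (A (π i) • τ) := by
      rw [SL_smul_eq_mapGL_smul, SL_smul_eq_mapGL_smul, ← mul_smul, ← mul_smul]
      have := hδ i
      unfold IsFactor at this
      rw [this]
    rw [e, hU (δ i) (A (π i) • τ)]
  show ∏ i, U (A i • ((γ : SL(2, ℤ)) • τ)) = zetaP p ^ (c' γ).val * ∏ i, U (A i • τ)
  rw [Finset.prod_congr rfl (fun i _ => h1 i), Finset.prod_mul_distrib,
    Equiv.prod_comp π (fun j => U (A j • τ))]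
  congr 1
  rw [hc']
  -- `∏ ζ ^ (c (δ i)).val = ζ ^ (∑ c (δ i)).val`
  have key : ∀ s : Finset I, ∏ i ∈ s, zetaP p ^ (c (δ i)).val =
      zetaP p ^ (∑ i ∈ s, c (δ i)).val := by
    classical
    intro s
    induction s using Finset.induction_on with
    | empty => simp
    | insert a s ha ih =>
      rw [Finset.prod_insert ha, Finset.sum_insert ha, ih, zetaP_pow_val_add]
  exact key Finset.univ

theorem mdiff_prod {A : I → GL (Fin 2) ℝ} (hdet : ∀ i, 0 < (A i).det.val) {U : ℍ → ℂ}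
    (hU : MDifferentiable 𝓘(ℂ) 𝓘(ℂ) U) :
    MDifferentiable 𝓘(ℂ) 𝓘(ℂ) (fun τ => ∏ i, U (A i • τ)) := by
  classical
  have key : ∀ s : Finset I, MDifferentiable 𝓘(ℂ) 𝓘(ℂ) (fun τ => ∏ i ∈ s, U (A i • τ)) := by
    intro s
    induction s using Finset.induction_on with
    | empty => simpa using (mdifferentiable_const : MDifferentiable 𝓘(ℂ) 𝓘(ℂ) fun _ : ℍ => (1 : ℂ))
    | insert a s ha ih =>
      have h1 : MDifferentiable 𝓘(ℂ) 𝓘(ℂ) (fun τ : ℍ => U (A a • τ)) :=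
        hU.comp (UpperHalfPlane.mdifferentiable_smul (hdet a))
      have : (fun τ => ∏ i ∈ insert a s, U (A i • τ)) =
          (fun τ : ℍ => U (A a • τ)) * (fun τ => ∏ i ∈ s, U (A i • τ)) := by
        funext τ
        rw [Finset.prod_insert ha]
        rfl
      rw [this]
      exact h1.mul ih
  exact key Finset.univ

end Product

/-! ### The pieces -/

/-- PIECE `K4-HECKE` from the analytic norm formula. -/
theorem pieceHecke_of_normAn (hT : ModularGroup.T ∈ Γ) (hp : p ≠ 0) {I : Type*} [Fintype I]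
    (C : Corr F) (A : I → GL (Fin 2) ℝ) (hdet : ∀ i, 0 < (A i).det.val)
    (hN : NormAn Γ F C A) : _root_.Fermat.Agent.S48.Kum.PieceHecke Γ F p C A := by
  haveI : NeZero p := ⟨hp⟩
  intro c c' htr x h
  obtain ⟨f, t, U, ht, hx, hU, hr⟩ := h
  have hfun : (fun τ => (∏ i, U (A i • τ)) ^ p) = fun τ => ∏ i, (fun σ => U σ ^ p) (A i • τ) := by
    funext τ
    rw [Finset.prod_pow]
  have hreal : _root_.Fermat.Agent.S48.Kum.Realises Γ F (C.norm f * C.norm t ^ p) (fun τ => (∏ i, U (A i • τ)) ^ p) := by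
    have h1 := hN (f * t ^ p) (fun τ => U τ ^ p) hr
    rw [C.norm_mul, C.norm_pow] at h1
    rw [hfun]
    exact h1
  refine ⟨C.norm f, C.norm t, fun τ => ∏ i, U (A i • τ), C.norm_ne_zero ht,
    C.isKummerClass hx, ?_, hreal⟩
  refine ⟨mdiff_prod hdet hU.mdiff, ?_, hasChar_prod htr hU.hasChar, hreal.1⟩
  have hne : C.norm f * C.norm t ^ p ≠ 0 :=
    mul_ne_zero (C.norm_ne_zero hx.ne_zero) (pow_ne_zero _ (C.norm_ne_zero ht))
  obtain ⟨τ, hτ⟩ := exists_ne_zero_of_ne_zero (hreal.ne_zero hT hne)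
  refine ⟨τ, fun h0 => hτ ?_⟩
  show (∏ i, U (A i • τ)) ^ p = 0
  rw [h0, zero_pow hp]

/-- PIECE `K4-DIAMOND` from the diamond formula. -/
theorem pieceDia_of_diaAn (hT : ModularGroup.T ∈ Γ) (hp : p ≠ 0) (δ : SemilinearAut Kbar F)
    (a : SL(2, ℤ)) (ha : ∀ γ ∈ Γ, a * γ * a⁻¹ ∈ Γ) (hD : DiaAn Γ F δ a) :
    PieceDia Γ F p δ a ha := by
  haveI : NeZero p := ⟨hp⟩
  intro c x h
  obtain ⟨f, t, U, ht, hx, hU, hr⟩ := h
  have hreal : _root_.Fermat.Agent.S48.Kum.Realises Γ F (δ • f * (δ • t) ^ p) (fun τ => U (a • τ) ^ p) := by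
    have h1 := hD (f * t ^ p) (fun τ => U τ ^ p) hr
    rwa [smul_mul', smul_pow'] at h1
  have ht' : δ • t ≠ 0 := by
    rw [SemilinearAut.smul_def]
    exact (map_ne_zero _).mpr ht
  have hf' : δ • f ≠ 0 := by
    rw [SemilinearAut.smul_def]
    exact (map_ne_zero _).mpr hx.ne_zero
  refine ⟨δ • f, δ • t, fun τ => U (a • τ), ht', hx.smul δ, ?_, hreal⟩
  refine ⟨?_, ?_, ?_, hreal.1⟩
  · have h1 : MDifferentiable 𝓘(ℂ) 𝓘(ℂ) (fun τ : ℍ => (Matrix.SpecialLinearGroup.mapGL ℝ a) • τ) :=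
      UpperHalfPlane.mdifferentiable_smul (by simp)
    exact hU.mdiff.comp h1
  · have hne : δ • f * (δ • t) ^ p ≠ 0 := mul_ne_zero hf' (pow_ne_zero _ ht')
    obtain ⟨τ, hτ⟩ := exists_ne_zero_of_ne_zero (hreal.ne_zero hT hne)
    refine ⟨τ, fun h0 => hτ ?_⟩
    show U (a • τ) ^ p = 0
    rw [h0, zero_pow hp]
  · intro γ τ
    show U (a • ((γ : SL(2, ℤ)) • τ)) = zetaP p ^ (c (conjΓ Γ a ha γ)).val * U (a • τ)
    have e : a • ((γ : SL(2, ℤ)) • τ) = ((conjΓ Γ a ha γ : Γ) : SL(2, ℤ)) • (a • τ) := by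
      show a • ((γ : SL(2, ℤ)) • τ) = (a * (γ : SL(2, ℤ)) * a⁻¹) • (a • τ)
      rw [← mul_smul, ← mul_smul, mul_assoc, mul_assoc, inv_mul_cancel, mul_one]
    rw [e, hU.hasChar (conjΓ Γ a ha γ) (a • τ)]

end Fermat.Agent.S48.Kum

end
end
-- ===== PACK-END S48/Kum/Hecke.lean

-- ===== PACK-BEGIN S48/Kum/M4b1.lean
section
/-
Tower A1 / A1-KUM (helper822): ASSEMBLY of `Res.M4b1Statement` (the Kummer map for `Γ₁(M)` with
its Hecke and diamond equivariance, `Fermat/Agent/S48/Res/PartsOcc.lean`) from the LEAVES of the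
sub-tower, via the generic Kummer theory of `Kum/{Top,K4,Hecke}.lean`.

  `m4b1_of_leaves : Leaves → Res.M4b1Statement`

`Leaves` (all for `Γ = Γ₁(M)`, `F = F1Bar M = ℚ̄·F₁(M)`):
* `k1`, `k2`, `k3`      : the pieces `PieceK1`, `PieceK2`, `PieceK3`;
* `inter`, `mero`, `const` : the dictionary axioms `DictInter`, `DictMero`, `DictConst`;
* `corr`               : `F1.CorrInputs (beta1) (alpha1)` (so that `hecke1 = α_* β^*`);
* `norm`               : the analytic norm formula `NormAn1 M p` for the representatives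
                         `repA x = σ_p⁻¹ · H548.heckeRep1 x` of `Γ₁ diag(p,1) Γ₁`;
* `dia`                : the diamond formula `DiaAn` for `diamondAut p` and `σ_p⁻¹`.
-/





set_option autoImplicit false

noncomputable section

open CongruenceSubgroup ModularCurve AlgebraicCurve ModularCurve.Period UpperHalfPlane
open scoped MatrixGroups Manifold OnePoint

namespace Fermat.Agent.S48.Kum

open Fermat.Agent.S24 Fermat.Agent.S29 Fermat.Agent.S48.F1 Fermat.Agent.S48.Res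
  Fermat.Agent.S48.H548 Matrix.SpecialLinearGroup

/-! ### Characters of `Γ₁(M)` as functions -/

section OfHom

variable {M : ℕ} {A : Type*} [AddCommGroup A]

/-- The function `Γ₁(M) → A` underlying an additive character. -/
def ofHom (c : Additive (Gamma1 M) →+ A) : Gamma1 M → A := fun γ => c (Additive.ofMul γ)

@[simp] theorem ofHom_apply (c : Additive (Gamma1 M) →+ A) (γ : Gamma1 M) :
    ofHom c γ = c (Additive.ofMul γ) := rfl

theorem ofHom_add (c c' : Additive (Gamma1 M) →+ A) : ofHom (c + c') = ofHom c + ofHom c' := rfl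

theorem eq_zero_of_ofHom {c : Additive (Gamma1 M) →+ A} (h : ofHom c = 0) : c = 0 := by
  ext γ
  exact congrFun h (Additive.toMul γ)

theorem isParHom_ofHom {c : Additive (Gamma1 M) →+ A} (h : IsPar1 c) :
    _root_.Fermat.Agent.S48.Kum.IsParHom (Gamma1 M) (ofHom c) where
  map_mul γ γ' := by
    show c (Additive.ofMul (γ * γ')) = _
    rw [ofMul_mul, map_add]
    rfl
  parabolic γ hγ := h.1 γ (by rcases hγ with h | h <;> rw [h] <;> norm_num)
  elliptic γ n hn hγ := h.2 γ (isOfFinOrder_iff_pow_eq_one.mpr ⟨n, hn, hγ⟩)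

theorem trace_conj_SL (a g : SL(2, ℤ)) :
    ((a * g * a⁻¹ : SL(2, ℤ)) : Matrix (Fin 2) (Fin 2) ℤ).trace
      = (g : Matrix (Fin 2) (Fin 2) ℤ).trace := by
  have h1 : ((a * g * a⁻¹ : SL(2, ℤ)) : Matrix (Fin 2) (Fin 2) ℤ)
      = a.1 * g.1 * (a⁻¹ : SL(2, ℤ)).1 := by
    simp
  rw [h1, Matrix.trace_mul_comm, ← mul_assoc]
  have h2 : (a⁻¹ : SL(2, ℤ)).1 * a.1 = 1 := by
    rw [← Matrix.SpecialLinearGroup.coe_mul, inv_mul_cancel, Matrix.SpecialLinearGroup.coe_one]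
  rw [h2, one_mul]

theorem isPar1_diaHom1 [NeZero M] (a : SL(2, ℤ)) (ha : a ∈ Gamma0 M)
    {c : Additive (Gamma1 M) →+ A} (h : IsPar1 c) : IsPar1 (diaHom1 a ha A c) := by
  refine ⟨fun γ hγ => ?_, fun γ hγ => ?_⟩
  · rw [diaHom1_apply]
    refine h.1 _ ?_
    rw [coe_conj1, trace_conj_SL]
    exact hγ
  · rw [diaHom1_apply]
    refine h.2 _ ?_
    exact (conj1 a ha).isOfFinOrder hγ

end OfHom

/-! ### `T ∈ Γ₁(M)` -/

theorem T_mem_Gamma1 (M : ℕ) : ModularGroup.T ∈ Gamma1 M := by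
  rw [Gamma1_mem]
  simp [ModularGroup.T]

/-! ### The representatives of the adjugate double coset -/

section Rep

variable {M : ℕ} [NeZero M] {p : ℕ} [Fact p.Prime]

/-- The representatives `σ_p⁻¹ · heckeRep1 x` (`x ∈ ℙ¹(𝔽_p)`) of `Γ₁(M) \ Γ₁(M) diag(p,1) Γ₁(M)`:
`repA ∞ = diag(p, 1)`, `repA j = σ_p⁻¹ (1 j; 0 p)`. -/
def repA (hpM : ¬ p ∣ M) (x : OnePoint (ZMod p)) : GL (Fin 2) ℝ :=
  mapGL ℝ (sigmaP M p hpM)⁻¹ * heckeRep1 hpM x

theorem det_repA_pos (hpM : ¬ p ∣ M) (x : OnePoint (ZMod p)) :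
    0 < (repA hpM x).det.val := by
  show 0 < ((repA hpM x : GL (Fin 2) ℝ) : Matrix (Fin 2) (Fin 2) ℝ).det
  unfold repA
  rw [Matrix.GeneralLinearGroup.coe_mul, Matrix.det_mul]
  have h1 : ((mapGL ℝ (sigmaP M p hpM)⁻¹ : GL (Fin 2) ℝ) : Matrix (Fin 2) (Fin 2) ℝ).det = 1 :=
    Fermat.Agent.S21.H381.det_coe_SL _
  rw [h1, one_mul]
  exact det_heckeRep1_pos hpM x

theorem sigmaP_inv_conj_mem (hpM : ¬ p ∣ M) :
    ∀ γ ∈ Gamma1 M, (sigmaP M p hpM)⁻¹ * γ * ((sigmaP M p hpM)⁻¹)⁻¹ ∈ Gamma1 M := fun γ hγ =>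
  conj_mem_Gamma1 _ ((Gamma0 M).inv_mem (sigmaP_mem hpM)) ⟨γ, hγ⟩

/-- The transfer along `repA` of `c ∘ conj σ_p` is `T_p c = heckeHom1 p c`. -/
theorem isTransferEx_repA (hpM : ¬ p ∣ M) {B : Type*} [AddCommGroup B]
    (c : Additive (Gamma1 M) →+ B) :
    IsTransferEx (Gamma1 M) (repA hpM)
      (ofHom (diaHom1 (sigmaP M p hpM) (sigmaP_mem hpM) B c))
      (ofHom (heckeHom1 p hpM B c)) := by
  intro γ
  refine ⟨permOf1 γ, fun x => conjΓ (Gamma1 M) (sigmaP M p hpM)⁻¹ (sigmaP_inv_conj_mem hpM)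
    (trf1 hpM γ x), fun x => ?_, ?_⟩
  · show repA hpM x * mapGL ℝ (γ : SL(2, ℤ)) =
      mapGL ℝ ((sigmaP M p hpM)⁻¹ * ((trf1 hpM γ x : Gamma1 M) : SL(2, ℤ)) *
        ((sigmaP M p hpM)⁻¹)⁻¹) * repA hpM (permOf1 γ x)
    unfold repA
    rw [mul_assoc, trf1_spec hpM γ x, permOf1_apply, inv_inv, map_mul, map_mul, map_inv]
    group
  · rw [ofHom_apply, heckeHom1_apply]
    refine Finset.sum_congr rfl fun x _ => ?_
    rw [ofHom_apply, diaHom1_apply]
    congr 2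
    apply Subtype.ext
    rw [coe_conj1]
    show (trf1 hpM γ x : SL(2, ℤ)) = sigmaP M p hpM * ((sigmaP M p hpM)⁻¹ *
      ((trf1 hpM γ x : Gamma1 M) : SL(2, ℤ)) * ((sigmaP M p hpM)⁻¹)⁻¹) * (sigmaP M p hpM)⁻¹
    rw [inv_inv]
    group

end Rep

/-! ### The leaves -/

local notation "Qbar" => AlgebraicClosure ℚ

/-- NORM-AN for `Γ₁(M)`: if `G` realises `u ∈ ℚ̄·F₁(M)` then `∏ₓ G ∘ repA x` realises
`Norm_α (β u)` (`α` = inclusion, `β = (q ↦ q^p)`, into `ℚ̄·F₁(M;p)`). -/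
def NormAn1 (M : ℕ) [NeZero M] (p : ℕ) [Fact p.Prime] (hpM : ¬ p ∣ M) : Prop :=
  haveI : NeZero p := ⟨(Fact.out : p.Prime).ne_zero⟩
  ∀ (u : F1Bar M) (G : ℍ → ℂ), Realises (Gamma1 M) (F1Bar M) u G →
    Realises (Gamma1 M) (F1Bar M) (H455.normAlong (alpha1 Qbar M p) (beta1 Qbar M p u))
      (fun τ => ∏ x, G (repA hpM x • τ))

/-- DIA-AN for `Γ₁(M)`: `diamondAut p` is composition with `σ_p⁻¹` on realisations. -/
def DiaAn1 (M : ℕ) [NeZero M] (p : ℕ) [Fact p.Prime] (hpM : ¬ p ∣ M) : Prop :=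
  DiaAn (Gamma1 M) (F1Bar M) (SemilinearAut.ofAlgAut (diamondAut Qbar M (unitOf M p)))
    (sigmaP M p hpM)⁻¹

/-- The leaves of sub-tower A1-KUM. -/
structure Leaves : Prop where
  k1 : ∀ (M : ℕ) [NeZero M] (ℓ : ℕ), ℓ.Prime → PieceK1 (Gamma1 M) ℓ
  k2 : ∀ (M : ℕ) [NeZero M] (ℓ : ℕ), ℓ.Prime → PieceK2 (Gamma1 M) (F1Bar M) ℓ
  k3 : ∀ (M : ℕ) [NeZero M] (ℓ : ℕ), ℓ.Prime → PieceK3 (Gamma1 M) (F1Bar M) ℓ
  inter : ∀ (M : ℕ) [NeZero M], DictInter (Gamma1 M) (F1Bar M)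
  mero : ∀ (M : ℕ) [NeZero M], DictMero (Gamma1 M) (F1Bar M)
  const : ∀ (M : ℕ) [NeZero M], DictConst (F1Bar M)
  corr : ∀ (M : ℕ) [NeZero M] (p : ℕ) [Fact p.Prime], ¬ p ∣ M →
    haveI : NeZero p := ⟨(Fact.out : p.Prime).ne_zero⟩
    CorrInputs (beta1 Qbar M p) (alpha1 Qbar M p)
  norm : ∀ (M : ℕ) [NeZero M] (p : ℕ) [Fact p.Prime] (hpM : ¬ p ∣ M), NormAn1 M p hpM
  dia : ∀ (M : ℕ) [NeZero M] (p : ℕ) [Fact p.Prime] (hpM : ¬ p ∣ M), DiaAn1 M p hpM

/-! ### The assembly -/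

section Assembly

variable {M : ℕ} [NeZero M]

/-- The correspondence `T_p = α_* β^*` of `J₁(M)` as a `Corr`. -/
def corrOf (p : ℕ) [NeZero p] (hC : CorrInputs (beta1 Qbar M p) (alpha1 Qbar M p)) :
    Corr (F1Bar M) where
  F' := F1pL Qbar M p
  hpd := hC.snd.snd.fst
  φ := beta1 Qbar M p
  ψ := alpha1 Qbar M p
  hφ := hC.fst
  hψ := hC.snd.fst
  hFI := hC.snd.snd.snd.snd.1
  hfin := hC.snd.snd.snd.fst
  hN := hC.snd.snd.snd.snd.2

omit [NeZero M] in
theorem corrOf_op (p : ℕ) [NeZero p] (hC : CorrInputs (beta1 Qbar M p) (alpha1 Qbar M p))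
    (x : J1 M) : (corrOf p hC).op x = hecke1 M p x := by
  rw [hecke1_eq]
  show _ = heckeL Qbar M p x
  unfold heckeL corrOp
  rw [dif_pos hC]
  rfl

/-- The Kummer map of `Γ₁(M)` with values in `J₁(M)[ℓ]`. -/
def kappa1 (M ℓ : ℕ) (c : Additive (Gamma1 M) →+ ZMod ℓ) : J1T M ℓ :=
  ⟨kummerMap (Gamma1 M) (F1Bar M) ℓ (ofHom c),
    Pic0.mem_torsion.mpr (kummerMap_torsion (ofHom c))⟩

@[simp] theorem coe_kappa1 (M ℓ : ℕ) (c : Additive (Gamma1 M) →+ ZMod ℓ) :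
    ((kappa1 M ℓ c : J1T M ℓ) : J1 M) = kummerMap (Gamma1 M) (F1Bar M) ℓ (ofHom c) := rfl

end Assembly

/-- **Sub-tower A1-KUM**: `Res.M4b1Statement` from the leaves. -/
theorem m4b1_of_leaves (L : Leaves) : Res.M4b1Statement := by
  intro M ℓ _ hℓ
  have hT := T_mem_Gamma1 M
  have hℓ0 : ℓ ≠ 0 := hℓ.ne_zero
  have h1 : PieceK1 (Gamma1 M) ℓ := L.k1 M ℓ hℓ
  have h2 : PieceK2 (Gamma1 M) (F1Bar M) ℓ := L.k2 M ℓ hℓ
  have h3 : PieceK3 (Gamma1 M) (F1Bar M) ℓ := L.k3 M ℓ hℓ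
  have hu : PieceUniq (Gamma1 M) (F1Bar M) ℓ := pieceUniq hT (L.inter M) hℓ0
  have hi : PieceInj (Gamma1 M) (F1Bar M) ℓ := pieceInj hT (L.mero M) (L.const M) hℓ0
  have ha : PieceAdd (Gamma1 M) (F1Bar M) ℓ := pieceAdd hT hℓ0
  obtain ⟨hK, -, hadd, hinj, -⟩ := exists_kummerMap h1 h3 h2 hu hi ha
  refine ⟨kappa1 M ℓ, fun c c' hc hc' => ?_, fun c hc h0 => ?_, fun p _ hpM _ c hc => ⟨?_, ?_⟩⟩
  · apply Subtype.ext
    rw [AddSubgroup.coe_add, coe_kappa1, coe_kappa1, coe_kappa1, ofHom_add]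
    exact hadd _ _ (isParHom_ofHom hc) (isParHom_ofHom hc')
  · have h0' : kummerMap (Gamma1 M) (F1Bar M) ℓ (ofHom c) = 0 := by
      have := congrArg (fun x : J1T M ℓ => (x : J1 M)) h0
      simpa using this
    exact eq_zero_of_ofHom (hinj _ (isParHom_ofHom hc) h0')
  · -- Hecke
    haveI : NeZero p := ⟨(Fact.out : p.Prime).ne_zero⟩
    have hC := L.corr M p hpM
    have hN : NormAn (Gamma1 M) (F1Bar M) (corrOf p hC) (repA hpM) := L.norm M p hpM
    have hh : PieceHecke (Gamma1 M) (F1Bar M) ℓ (corrOf p hC) (repA hpM) :=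
      pieceHecke_of_normAn hT hℓ0 (corrOf p hC) (repA hpM) (det_repA_pos hpM) hN
    have hpar := isParHom_ofHom (isPar1_diaHom1 (sigmaP M p hpM) (sigmaP_mem hpM) hc)
    have key := kummerMap_hecke h1 h3 h2 hu (corrOf p hC) (repA hpM) hh hpar
      (isTransferEx_repA hpM c)
    apply Subtype.ext
    rw [coe_heckeT, coe_kappa1, coe_kappa1, key, corrOf_op]
  · -- diamond
    have hD : DiaAn1 M p hpM := L.dia M p hpM
    have hd : PieceDia (Gamma1 M) (F1Bar M) ℓ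
        (SemilinearAut.ofAlgAut (diamondAut Qbar M (unitOf M p))) (sigmaP M p hpM)⁻¹
        (sigmaP_inv_conj_mem hpM) :=
      pieceDia_of_diaAn (p := ℓ) hT hℓ0
        (SemilinearAut.ofAlgAut (diamondAut Qbar M (unitOf M p))) (sigmaP M p hpM)⁻¹
        (sigmaP_inv_conj_mem hpM) hD
    have hpar := isParHom_ofHom (isPar1_diaHom1 (sigmaP M p hpM) (sigmaP_mem hpM) hc)
    have key := kummerMap_dia h1 h3 h2 hu _ _ (sigmaP_inv_conj_mem hpM) hd hpar
    have hfun : (fun γ => ofHom (diaHom1 (sigmaP M p hpM) (sigmaP_mem hpM) (ZMod ℓ) c)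
        (conjΓ (Gamma1 M) (sigmaP M p hpM)⁻¹ (sigmaP_inv_conj_mem hpM) γ)) = ofHom c := by
      funext γ
      rw [ofHom_apply, diaHom1_apply, ofHom_apply]
      congr 2
      apply Subtype.ext
      rw [coe_conj1]
      show sigmaP M p hpM * ((sigmaP M p hpM)⁻¹ * (γ : SL(2, ℤ)) * ((sigmaP M p hpM)⁻¹)⁻¹) *
        (sigmaP M p hpM)⁻¹ = γ
      rw [inv_inv]
      group
    rw [hfun] at key
    apply Subtype.ext
    rw [coe_diamondT, coe_kappa1, coe_kappa1, diamond1_apply, key]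

end Fermat.Agent.S48.Kum

end
end
-- ===== PACK-END S48/Kum/M4b1.lean

-- ===== PACK-BEGIN S48/H642/K2Gen.lean
section






/-!
# Tower A1 / A1-KUM — leaf `k2` = `Kum.PieceK2`, GENERIC form (helper642)

`pieceK2_of_genData` : let `D : GenData M Γ' P` be analytic input (helper332, `S48/H332/Pkg*`) for
the field `P.F = ℚ̄(S)` of modular functions for a group `Γ'` of finite index, and let `Γ ≤ Γ'` be
a subgroup of level `M` containing `T` with `Γ' ⊆ ±Γ`.  Then `Kum.PieceK2 Γ P.F p` holds for every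
`p ≠ 0`: if `u ∈ P.F` is realised by `U ^ p`, `U` a twisted function of a character
`c : Γ → ℤ/p` killing parabolic and finite-order elements, then `u` has a `p`-Kummer class in
`Pic⁰(P.F)`.

(Tower A1: `Γ = Γ₁(M)`, `Γ' = ±Γ₁(M)`, `P.F = ℚ̄·F₁(M)`.)

Route: adapter to `exists_isKummerClass_of_analytic_pow_gen` (`DictKum.lean`, generic port of
helper389's DICT) for the core `D.core` (`Hol = holN M`), with degree bound `D.degree_fields`.
-/

set_option autoImplicit false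
set_option linter.unusedSectionVars false
set_option linter.unusedVariables false
set_option linter.style.haveILetI false

noncomputable section

open ModularCurve AlgebraicCurve UpperHalfPlane HahnSeries
open scoped MatrixGroups Manifold Real

namespace Fermat.Agent.S48.H642

open Fermat.Agent.S24 Fermat.Agent.S24.H997 Fermat.Agent.S24.H648 Fermat.Agent.S24.H708
  Fermat.Agent.S29 Fermat.Agent.S48.H332 Fermat.Agent.S48.Kum

variable {M : ℕ} [NeZero M] {Γ Γ' : Subgroup SL(2, ℤ)} {P : GenField} {p : ℕ}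

/-! ### Invariance of a twisted function under nice elements -/

/-- A twisted function of a parabolic character is invariant under every `δ ∈ Γ` with
`c δ = 0`. -/
theorem K2g_invariant_of_char_zero {c : Γ → ZMod p} {U : ℍ → ℂ} (hU : HasChar Γ p c U)
    (γ : Γ) (hγ : c γ = 0) (τ : ℍ) : U ((γ : SL(2, ℤ)) • τ) = U τ := by
  have := hU γ τ
  rw [hγ] at this
  simpa using this

/-- The character vanishes on the nice elements of `±Γ`. -/
theorem K2g_invariant_of_nice {c : Γ → ZMod p} (hc : IsParHom Γ c) {U : ℍ → ℂ}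
    (hU : HasChar Γ p c U) {δ : SL(2, ℤ)} (hδ : δ ∈ Γ ∨ -δ ∈ Γ) (hnice : H389.Nice δ)
    (τ : ℍ) : U (δ • τ) = U τ := by
  rcases hδ with hδ | hδ
  · refine K2g_invariant_of_char_zero hU ⟨δ, hδ⟩ ?_ τ
    rcases hnice with hfin | htr
    · obtain ⟨n, hn, hδn⟩ := isOfFinOrder_iff_pow_eq_one.1 hfin
      exact hc.elliptic ⟨δ, hδ⟩ n hn (Subtype.ext hδn)
    · exact hc.parabolic ⟨δ, hδ⟩ (Or.inl htr)
  · have h1 : δ • τ = (-δ) • τ := by rw [ModularGroup.SL_neg_smul]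
    rw [h1]
    refine K2g_invariant_of_char_zero hU ⟨-δ, hδ⟩ ?_ τ
    rcases hnice with hfin | htr
    · obtain ⟨n, hn, hδn⟩ := isOfFinOrder_iff_pow_eq_one.1 hfin
      refine hc.elliptic ⟨-δ, hδ⟩ (2 * n) (by omega) (Subtype.ext ?_)
      show (-δ) ^ (2 * n) = 1
      rw [pow_mul, neg_sq, ← pow_mul, mul_comm, pow_mul, hδn, one_pow]
    · refine hc.parabolic ⟨-δ, hδ⟩ (Or.inr ?_)
      show ((-δ : SL(2, ℤ)) : Matrix (Fin 2) (Fin 2) ℤ).trace = -2
      rw [Matrix.SpecialLinearGroup.coe_neg, Matrix.trace_neg, htr]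

/-! ### `U ∈ holN M` -/

theorem K2g_mem_holN (hp : p ≠ 0)
    (hlev : ∀ g : SL(2, ℤ), g * ModularGroup.T ^ ((M : ℕ) : ℤ) * g⁻¹ ∈ Γ)
    {c : Γ → ZMod p} (hc : IsParHom Γ c) {U : ℍ → ℂ}
    (hU : IsTwisted Γ p c U) : U ∈ holN M := by
  refine ⟨hU.mdiff, fun g => ?_⟩
  have hol : MDiff (compSL g U) := mdifferentiable_comp_smul hU.mdiff g
  have hvadd : ∀ τ : ℍ, compSL g U ((((M : ℕ) : ℤ) : ℝ) +ᵥ τ) = compSL g U τ := by
    intro τ
    rw [← UpperHalfPlane.modular_T_zpow_smul]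
    have h1 : g • (ModularGroup.T ^ ((M : ℕ) : ℤ) • τ)
        = (g * ModularGroup.T ^ ((M : ℕ) : ℤ) * g⁻¹) • (g • τ) := by
      rw [← mul_smul, ← mul_smul, mul_assoc, mul_assoc, inv_mul_cancel, mul_one]
    simp only [compSL_apply]
    rw [h1]
    exact K2g_invariant_of_char_zero hU.hasChar ⟨_, hlev g⟩
      (hc.parabolic ⟨_, hlev g⟩ (Or.inl (H332.trace_conj_T_zpow g _))) (g • τ)
  have hper : Function.Periodic (compSL g U ∘ ofComplex) (M : ℝ) :=
    H332.periodic_comp_ofComplex_of_vadd hvadd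
  have hgr : ExpGrowth (compSL g U) :=
    H642.K2_expGrowth_of_pow hp (hU.pow_good.2.2 g)
  have hmer : IsMerInf M (compSL g U) := ⟨hol, hper, H642.K2_isBounded_mul_qh_pow hgr⟩
  exact ⟨qexpFun M (compSL g U), fun τ => (HasQExp.of_isMerInf hmer).hasSum τ⟩

/-! ### The expansion of a realisation -/

/-- The expansion at `i∞` in `exp(2πiτ/M)` of a good function realising `u` is `Φ M u`. -/
theorem K2g_infExp_of_realises (hT : ModularGroup.T ∈ Γ) {F : KF} {u : F} {G : ℍ → ℂ}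
    (hu : Realises Γ F u G) :
    InfExp M G (HolBase.Φ M ((u : F) : LaurentSeries Kbar)) := by
  have h1 : HasQExp 1 G (coeffMap Deg457.iotaC ((u : F) : LaurentSeries Kbar)) :=
    hu.hasQExp hT
  have h2 := HasQExp.of_period_mul M h1
  intro τ
  have h3 := HasQExp.hasSum h2 τ
  simp only [one_mul] at h3
  exact h3

/-! ### The piece -/

theorem K2g_one_ne_zero (D : GenData M Γ' P) : (1 : D.core.toGenBase.Hol) ≠ 0 := by
  intro h
  have := congrArg (fun f : D.core.toGenBase.Hol => (f : ℍ → ℂ) UpperHalfPlane.I) h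
  simp at this

/-- **Leaf `k2`, generic**: `Kum.PieceK2 Γ P.F p` from analytic input `GenData M Γ' P` for a group
`Γ'` of finite index with `Γ' ⊆ ±Γ`, `Γ` of level `M` containing `T`. -/
theorem pieceK2_of_genData (D : GenData M Γ' P) [Finite (XG Γ')]
    (hΓ' : ∀ δ : SL(2, ℤ), δ ∈ Γ' → δ ∈ Γ ∨ -δ ∈ Γ)
    (hlev : ∀ g : SL(2, ℤ), g * ModularGroup.T ^ ((M : ℕ) : ℤ) * g⁻¹ ∈ Γ)
    (hT : ModularGroup.T ∈ Γ) (hp : p ≠ 0) : PieceK2 Γ P.F p := by
  classical
  intro c hc U u hU hu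
  set B := D.core.toGenBase with hB
  let h₁ : B.Hol := ⟨U, K2g_mem_holN hp hlev hc hU⟩
  have hh₁ : h₁ ≠ 0 := by
    obtain ⟨τ, hτ⟩ := hU.ne_zero
    intro h0
    apply hτ
    exact congrArg (fun f : B.Hol => (f : ℍ → ℂ) τ) h0
  -- the expansion of `U ^ p`
  have hq : B.qexp (h₁ ^ p) = HolBase.Φ M ((u : P.F) : LaurentSeries Kbar) := by
    have h1 : InfExp M (fun τ => U τ ^ p) (HolBase.Φ M ((u : P.F) : LaurentSeries Kbar)) :=
      K2g_infExp_of_realises hT hu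
    have h2 : InfExp M (((h₁ ^ p : B.Hol)) : ℍ → ℂ) (B.qexp (h₁ ^ p)) :=
      D.base_qexp_spec (h₁ ^ p)
    exact h2.unique' h1 (fun τ => rfl)
  have hqne : B.qexp (h₁ ^ p) ≠ 0 := by
    rw [map_pow]
    refine pow_ne_zero _ ?_
    intro h0
    exact hh₁ (B.qexp_injective (h0.trans (map_zero _).symm))
  have hu0 : u ≠ 0 := by
    intro h0
    apply hqne
    rw [hq, h0]
    simp
  -- `u = r / s`
  obtain ⟨r, s, hs, hrs⟩ := P.exists_div_inclRG u
  have hs' : P.inclRG s ≠ 0 := fun h => hs (P.inclRG_injective (by rw [h, map_zero]))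
  have hr : r ≠ 0 := by
    intro h0
    apply hu0
    rw [hrs, h0, map_zero, zero_div]
  have hmul : ((r : P.RG) : LaurentSeries Kbar)
      = ((u : P.F) : LaurentSeries Kbar) * ((s : P.RG) : LaurentSeries Kbar) := by
    have h1 : (P.inclRG r : P.F) = u * P.inclRG s := by
      rw [hrs, div_mul_cancel₀ _ hs']
    exact congrArg (fun f : P.F => (f : LaurentSeries Kbar)) h1
  have hrel : B.bridge r * (1 : B.Hol) ^ p = B.constH 1 * h₁ ^ p * B.bridge s := by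
    apply B.qexp_injective
    have hc1 : B.qexp (B.constH 1) = 1 := by
      have := B.qexp_const 1
      rw [map_one] at this
      exact this
    rw [one_pow, mul_one, map_mul, map_mul, hq, hc1, one_mul, GenBase.qexp_bridge,
      GenBase.qexp_bridge, ← map_mul, hmul]
  have hinv : ∀ δ : SL(2, ℤ), δ ∈ Γ' → H389.Nice δ →
      B.compH δ h₁ * 1 = h₁ * B.compH δ 1 := by
    intro δ hδ hnice
    have h1 : B.compH δ h₁ = h₁ := by
      apply Subtype.ext
      funext τ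
      show U (δ • τ) = U τ
      exact K2g_invariant_of_nice hc hU.hasChar (hΓ' δ hδ) hnice τ
    rw [h1, map_one]
  obtain ⟨x, hx⟩ := exists_isKummerClass_of_analytic_pow_gen D.core D.degree_fields.1
    D.degree_fields.2 p hp r s hr hs h₁ 1 hh₁ (K2g_one_ne_zero D) 1 one_ne_zero hrel hinv
  exact ⟨x, by rw [hrs]; exact hx⟩

end Fermat.Agent.S48.H642

end
end
-- ===== PACK-END S48/H642/K2Gen.lean

-- ===== PACK-BEGIN S48/H642/K2.lean
section




/-!
# Tower A1 / A1-KUM — leaf `k2` of `Kum.Leaves` (helper642)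

`k2 : ∀ M ℓ, ℓ.Prime → Kum.PieceK2 (Gamma1 M) (F1.F1Bar M) ℓ`, VERBATIM the field `k2` of
`Fermat.Agent.S48.Kum.Leaves` (`Kum/M4b1.lean`), UNCONDITIONAL:

if `u ∈ ℚ̄·F₁(M)` is realised by `U ^ ℓ`, `U` a twisted function of a character
`c : Γ₁(M) → ℤ/ℓ` killing parabolic and finite-order elements, then `u` has an `ℓ`-Kummer class in
`J₁(M)(ℚ̄) = Pic⁰(ℚ̄·F₁(M))`.

= `pieceK2_of_genData` (generic DICT, `K2Gen.lean`) for helper332's analytic input
`H332.f1Data M : GenData M (±Γ₁(M)) (f1Field M)`.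
-/

set_option autoImplicit false

noncomputable section

open ModularCurve AlgebraicCurve CongruenceSubgroup
open scoped MatrixGroups

namespace Fermat.Agent.S48.H642

open Fermat.Agent.S48.H332 Fermat.Agent.S48.Kum

/-- **Leaf `k2`** of sub-tower A1-KUM (exact type of `Kum.Leaves.k2`). -/
theorem k2 (M : ℕ) [NeZero M] (ℓ : ℕ) (hℓ : ℓ.Prime) :
    PieceK2 (Gamma1 M) (Fermat.Agent.S48.F1.F1Bar M) ℓ :=
  pieceK2_of_genData (f1Data M) (fun _ hδ => mem_pmGamma1_iff.mp hδ)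
    (fun g => (hasLevel_Gamma1 M).conj_T_pow g) (Fermat.Agent.S48.H332.T_mem_Gamma1 M)
    hℓ.ne_zero

end Fermat.Agent.S48.H642

end
end
-- ===== PACK-END S48/H642/K2.lean

-- ===== PACK-BEGIN S48/H102/DictConst.lean
section
/-
Tower A1 / A1-KUM (helper102): the leaf `const` of `Kum.Leaves`:
`DictConst (F1Bar M)` — an element of `ℚ̄·F1(M)` without zeros and poles is a constant.

Adapter: `S18.H564.exists_const_of_forall_ord_eq_zero` (generic CONST_F) applied to the coordinate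
`j` of `ℚ̄·F1(M)`, with helper332's FF-ALG instance (`H332.f1_finiteDimensional`, `f1DataInf`).
-/




set_option autoImplicit false

noncomputable section

open ModularCurve AlgebraicCurve IntermediateField
open scoped MatrixGroups

namespace Fermat.Agent.S48.H102

open Fermat.Agent.S24 Fermat.Agent.S29 Fermat.Agent.S48.F1 Fermat.Agent.S48.Kum
open Fermat.Agent.S48.H332

/-- `j` is transcendental over `ℚ̄` in `ℚ̄·F1(M)`. -/
theorem transcendental_f1J (M : ℕ) [NeZero M] : Transcendental Kbar (f1J M) := by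
  have : Nonempty (SL(2, ℤ) ⧸ pmGamma1 M) := ⟨((1 : SL(2, ℤ)) : SL(2, ℤ) ⧸ pmGamma1 M)⟩
  exact Fermat.Agent.S24.transcendental_of_localData_inv (f1J M) (f1DataInf M)

/-- **Leaf `const` of `Kum.Leaves`**: `DictConst (F1Bar M)`. -/
theorem dictConst_F1Bar (M : ℕ) [NeZero M] : DictConst (F1Bar M) := by
  intro u _ hu
  haveI := f1_finiteDimensional M
  exact Fermat.Agent.S18.H564.exists_const_of_forall_ord_eq_zero (f1J M) (transcendental_f1J M) u hu

/-- The field `const` of `Kum.Leaves`, verbatim. -/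
theorem leaves_const : ∀ (M : ℕ) [NeZero M], DictConst (F1Bar M) :=
  fun M _ => dictConst_F1Bar M

end Fermat.Agent.S48.H102

end
end
-- ===== PACK-END S48/H102/DictConst.lean

-- ===== PACK-BEGIN S48/H528/DiaAn.lean
section




/-!
# S48 / Tower A1 / A1-KUM, leaf `dia` (helper528): the diamond formula `DiaAn1`

`Kum.DiaAn1 M p hpM`: if `G` realises `u ∈ ℚ̄·F₁(M)` then `G ∘ σ_p⁻¹` realises `diamondAut p • u`.

* `exists_frac_of_gens`   (algebra, generic): every element of `L·ℚ(S)` is a quotient of two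
  elements of any subring-like predicate containing the constants and the generators;
* `diaAn_of_gens`         (generic in `Γ`, `S`, `δ`, `a`): `DiaAn` holds as soon as it holds on the
  generators `S`;
* `diaAn1_of_isDiamond`   : `DiaAn1 M p hpM` from the existence of the diamond automorphism
  (`FF-DIA`, owner helper848), using the avatars `jFun ∘ (d·)` (S24) and `H76.pFun` (helper76);
* `diaAn1`                : `DiaAn1 M p hpM`, unconditional (with `H848.exists_isDiamond`).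
-/

set_option autoImplicit false

noncomputable section

open ModularCurve AlgebraicCurve UpperHalfPlane CongruenceSubgroup
open scoped MatrixGroups Manifold

namespace Fermat.Agent.S48.H528

open Fermat.Agent.S24 Fermat.Agent.S29 Fermat.Agent.S29.M4b Fermat.Agent.S29.M4b.H822
  Fermat.Agent.S48.Kum Fermat.Agent.S48.F1

/-! ### Fractions of generators -/

section Frac

variable {L : Type*} [Field L] [Algebra ℚ L] {S : Set (LaurentSeries ℚ)}

/-- The subfield of quotients `u₁ / u₂` with `P u₁`, `P u₂`. -/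
def fracField (P : laurentBaseChange L (IntermediateField.adjoin ℚ S) → Prop)
    (hC : ∀ a : L, P (algebraMap L _ a))
    (hadd : ∀ u v, P u → P v → P (u + v)) (hmul : ∀ u v, P u → P v → P (u * v)) :
    Subfield (LaurentSeries L) where
  carrier := {x | ∃ u₁ u₂ : laurentBaseChange L (IntermediateField.adjoin ℚ S),
    P u₁ ∧ P u₂ ∧ u₂ ≠ 0 ∧ x * (u₂ : LaurentSeries L) = (u₁ : LaurentSeries L)}
  one_mem' := by
    have h1 : P 1 := by simpa using hC 1
    exact ⟨1, 1, h1, h1, one_ne_zero, by simp⟩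
  zero_mem' := by
    have h1 : P 1 := by simpa using hC 1
    have h0 : P 0 := by simpa using hC 0
    exact ⟨0, 1, h0, h1, one_ne_zero, by simp⟩
  mul_mem' := by
    rintro x y ⟨u₁, u₂, h1, h2, hne, hx⟩ ⟨v₁, v₂, k1, k2, kne, hy⟩
    refine ⟨u₁ * v₁, u₂ * v₂, hmul _ _ h1 k1, hmul _ _ h2 k2, mul_ne_zero hne kne, ?_⟩
    push_cast
    rw [← hx, ← hy]
    ring
  add_mem' := by
    rintro x y ⟨u₁, u₂, h1, h2, hne, hx⟩ ⟨v₁, v₂, k1, k2, kne, hy⟩
    refine ⟨u₁ * v₂ + v₁ * u₂, u₂ * v₂, hadd _ _ (hmul _ _ h1 k2) (hmul _ _ k1 h2),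
      hmul _ _ h2 k2, mul_ne_zero hne kne, ?_⟩
    push_cast
    rw [← hx, ← hy]
    ring
  neg_mem' := by
    rintro x ⟨u₁, u₂, h1, h2, hne, hx⟩
    have hm1 : P (-1) := by simpa using hC (-1)
    refine ⟨-1 * u₁, u₂, hmul _ _ hm1 h1, h2, hne, ?_⟩
    push_cast
    rw [← hx]
    ring
  inv_mem' := by
    rintro x ⟨u₁, u₂, h1, h2, hne, hx⟩
    by_cases hx0 : x = 0
    · have h1' : P 1 := by simpa using hC 1
      have h0 : P 0 := by simpa using hC 0
      exact ⟨0, 1, h0, h1', one_ne_zero, by simp [hx0]⟩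
    · have hu2 : (u₂ : LaurentSeries L) ≠ 0 := fun h => hne (Subtype.ext h)
      have hu1 : u₁ ≠ 0 := by
        intro h
        rw [h] at hx
        exact (mul_ne_zero hx0 hu2) hx
      refine ⟨u₂, u₁, h2, h1, hu1, ?_⟩
      rw [← hx]
      field_simp

theorem coeffEmb_algebraMap_h528 (q : ℚ) :
    coeffEmb L (algebraMap ℚ (LaurentSeries ℚ) q) =
      algebraMap L (LaurentSeries L) (algebraMap ℚ L q) := by
  rw [algebraMap_laurent_eq_single, algebraMap_laurent_eq_single, coeffEmb, coeffMap_single]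

/-- **Fraction induction**: if `P` holds for the constants and the generators and is stable under
`+` and `*`, then every element of `L·ℚ(S)` is a quotient `u₁ / u₂` with `P u₁`, `P u₂`. -/
theorem exists_frac_of_gens (P : laurentBaseChange L (IntermediateField.adjoin ℚ S) → Prop)
    (hC : ∀ a : L, P (algebraMap L _ a))
    (hS : ∀ (z : LaurentSeries ℚ) (hz : z ∈ S),
      P ⟨coeffEmb L z, coeffEmb_mem_laurentBaseChange L (IntermediateField.subset_adjoin ℚ S hz)⟩)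
    (hadd : ∀ u v, P u → P v → P (u + v)) (hmul : ∀ u v, P u → P v → P (u * v))
    (u : laurentBaseChange L (IntermediateField.adjoin ℚ S)) :
    ∃ u₁ u₂ : laurentBaseChange L (IntermediateField.adjoin ℚ S),
      P u₁ ∧ P u₂ ∧ u₂ ≠ 0 ∧ u * u₂ = u₁ := by
  set T := fracField P hC hadd hmul with hT
  have h1 : P 1 := by simpa using hC 1
  have hconst : ∀ a : L, algebraMap L (LaurentSeries L) a ∈ T := fun a =>
    ⟨algebraMap L _ a, 1, hC a, h1, one_ne_zero, by simp⟩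
  have key : ∀ z : LaurentSeries ℚ, z ∈ IntermediateField.adjoin ℚ S → coeffEmb L z ∈ T := by
    intro z hz
    induction hz using IntermediateField.adjoin_induction with
    | mem x hx =>
        exact ⟨⟨coeffEmb L x, coeffEmb_mem_laurentBaseChange L
          (IntermediateField.subset_adjoin ℚ S hx)⟩, 1, hS x hx, h1, one_ne_zero, by simp⟩
    | algebraMap q =>
        rw [coeffEmb_algebraMap_h528]
        exact hconst _
    | add x y _ _ ihx ihy =>
        rw [map_add]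
        exact T.add_mem ihx ihy
    | inv x _ ihx =>
        rw [map_inv₀]
        exact T.inv_mem ihx
    | mul x y _ _ ihx ihy =>
        rw [map_mul]
        exact T.mul_mem ihx ihy
  have hu : (u : LaurentSeries L) ∈ T := by
    have hu' := u.2
    rw [mem_laurentBaseChange_iff] at hu'
    refine (Subfield.closure_le (t := T)).mpr ?_ hu'
    rintro x (⟨a, rfl⟩ | ⟨z, hz, rfl⟩)
    · exact hconst a
    · exact key z hz
  obtain ⟨u₁, u₂, h1, h2, hne, hx⟩ := hu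
  exact ⟨u₁, u₂, h1, h2, hne, Subtype.ext hx⟩

end Frac

/-! ### Good functions and realisations: additions to the API of `Kum/Basic.lean` -/

section Good

variable {Γ : Subgroup SL(2, ℤ)} {F : KF}

theorem isGood_add_h528 {G H : ℍ → ℂ} (hG : IsGood Γ G) (hH : IsGood Γ H) :
    IsGood Γ (G + H) := by
  obtain ⟨h1, h2, h3⟩ := hG
  obtain ⟨h1', h2', h3'⟩ := hH
  refine ⟨h1.add h1', fun γ hγ τ => ?_, fun g => ?_⟩
  · show G (γ • τ) + H (γ • τ) = G τ + H τ
    rw [h2 γ hγ τ, h2' γ hγ τ]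
  · exact (h3 g).add (h3' g)

theorem realises_add_h528 (hT : ModularGroup.T ∈ Γ) {u v : F} {G H : ℍ → ℂ}
    (hu : _root_.Fermat.Agent.S48.Kum.Realises Γ F u G) (hv : _root_.Fermat.Agent.S48.Kum.Realises Γ F v H) : _root_.Fermat.Agent.S48.Kum.Realises Γ F (u + v) (G + H) := by
  refine _root_.Fermat.Agent.S48.Kum.realises_of_hasQExp (isGood_add_h528 hu.1 hv.1) ?_
  have := (hu.hasQExp hT).add (hv.hasQExp hT)
  simpa using this

theorem realises_const_h528 (Γ : Subgroup SL(2, ℤ)) (F : KF) (c : Kbar) :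
    _root_.Fermat.Agent.S48.Kum.Realises Γ F (algebraMap Kbar F c) (fun _ => Deg457.iotaC c) := by
  refine _root_.Fermat.Agent.S48.Kum.realises_of_hasQExp (isGood_const Γ _) ?_
  have h := H708.HasQExp.const 1 (Deg457.iotaC c)
  have e : coeffMap Deg457.iotaC ((algebraMap Kbar F c : F) : LaurentSeries Kbar)
      = HahnSeries.C (Deg457.iotaC c) := by
    have e1 : ((algebraMap Kbar F c : F) : LaurentSeries Kbar)
        = algebraMap Kbar (LaurentSeries Kbar) c := rfl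
    rw [e1, algebraMap_laurent_eq_single, coeffMap_single]
    rfl
  rw [e]
  exact h

/-- Composition of a good function with an element normalising `Γ` is good. -/
theorem isGood_comp_h528 {G : ℍ → ℂ} (hG : IsGood Γ G) (a : SL(2, ℤ))
    (ha : ∀ γ ∈ Γ, a * γ * a⁻¹ ∈ Γ) : IsGood Γ (fun τ => G (a • τ)) := by
  obtain ⟨h1, h2, h3⟩ := hG
  refine ⟨?_, fun γ hγ τ => ?_, fun g => ?_⟩
  · have h : MDifferentiable 𝓘(ℂ) 𝓘(ℂ)
        (fun τ : ℍ => (Matrix.SpecialLinearGroup.mapGL ℝ a) • τ) :=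
      UpperHalfPlane.mdifferentiable_smul (by simp)
    exact h1.comp h
  · show G (a • (γ • τ)) = G (a • τ)
    have e : a • (γ • τ) = (a * γ * a⁻¹) • (a • τ) := by
      rw [← mul_smul, ← mul_smul, mul_assoc, mul_assoc, inv_mul_cancel, mul_one]
    rw [e, h2 _ (ha γ hγ)]
  · have e : (fun τ : ℍ => G (a • (g • τ))) = fun τ => G ((a * g) • τ) := by
      funext τ
      rw [mul_smul]
    show H648.ExpGrowth (fun τ : ℍ => G (a • (g • τ)))
    rw [e]
    exact h3 (a * g)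

end Good

/-! ### The generic diamond formula -/

section Generic

variable {Γ : Subgroup SL(2, ℤ)} {S : Set (LaurentSeries ℚ)}

/-- The field `ℚ̄·ℚ(S)`. -/
abbrev FS (S : Set (LaurentSeries ℚ)) : KF :=
  laurentBaseChange Kbar (IntermediateField.adjoin ℚ S)

/-- **DIA-AN from the generators.**  Let `F = ℚ̄·ℚ(S)`, `δ` a `ℚ̄`-automorphism of `F` and
`a ∈ SL₂(ℤ)` normalising `Γ`.  If every generator `z ∈ S` is realised by some `G_z` such that
`G_z ∘ a` realises `δ z`, then `G ∘ a` realises `δ u` for EVERY realisation `G` of any `u ∈ F`. -/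
theorem diaAn_of_gens (hT : ModularGroup.T ∈ Γ)
    (δ : FS S ≃ₐ[Kbar] FS S)
    (a : SL(2, ℤ)) (ha : ∀ γ ∈ Γ, a * γ * a⁻¹ ∈ Γ)
    (hS : ∀ (z : LaurentSeries ℚ) (hz : z ∈ S), ∃ G : ℍ → ℂ,
      _root_.Fermat.Agent.S48.Kum.Realises Γ (FS S)
        ⟨coeffEmb Kbar z,
          coeffEmb_mem_laurentBaseChange Kbar (IntermediateField.subset_adjoin ℚ S hz)⟩ G ∧
      _root_.Fermat.Agent.S48.Kum.Realises Γ (FS S)
        (δ ⟨coeffEmb Kbar z,
          coeffEmb_mem_laurentBaseChange Kbar (IntermediateField.subset_adjoin ℚ S hz)⟩)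
        (fun τ => G (a • τ))) :
    DiaAn Γ (FS S) (SemilinearAut.ofAlgAut δ) a := by
  -- the predicate
  let P : FS S → Prop := fun u => ∃ G : ℍ → ℂ,
    _root_.Fermat.Agent.S48.Kum.Realises Γ (FS S) u G ∧ _root_.Fermat.Agent.S48.Kum.Realises Γ (FS S) (δ u) (fun τ => G (a • τ))
  have hC : ∀ c : Kbar, P (algebraMap Kbar (FS S) c) := by
    intro c
    refine ⟨fun _ => Deg457.iotaC c, realises_const_h528 Γ (FS S) c, ?_⟩
    rw [AlgEquiv.commutes]
    exact realises_const_h528 Γ (FS S) c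
  have hadd : ∀ u v, P u → P v → P (u + v) := by
    rintro u v ⟨G, hG, hG'⟩ ⟨H, hH, hH'⟩
    refine ⟨G + H, realises_add_h528 hT hG hH, ?_⟩
    rw [map_add]
    exact realises_add_h528 hT hG' hH'
  have hmul : ∀ u v, P u → P v → P (u * v) := by
    rintro u v ⟨G, hG, hG'⟩ ⟨H, hH, hH'⟩
    refine ⟨G * H, hG.mul hT hH, ?_⟩
    rw [map_mul]
    exact hG'.mul hT hH'
  intro u G hu
  obtain ⟨u₁, u₂, ⟨G₁, h₁, h₁'⟩, ⟨G₂, h₂, h₂'⟩, hne, hmulu⟩ :=
    exists_frac_of_gens P hC hS hadd hmul u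
  -- `G * G₂ = G₁`
  have e : G * G₂ = G₁ := by
    have h := hu.mul hT h₂
    rw [hmulu] at h
    exact h.unique_right hT h₁
  have hgood : IsGood Γ (fun τ => G (a • τ)) := isGood_comp_h528 hu.1 a ha
  refine ⟨hgood, ?_⟩
  have hq := hgood.hasQExp hT
  have hq2 := h₂'.hasQExp hT
  have hq1 := h₁'.hasQExp hT
  have hprod : (fun τ : ℍ => G (a • τ)) * (fun τ => G₂ (a • τ)) = fun τ => G₁ (a • τ) := by
    funext τ
    have := congrFun e (a • τ)
    exact this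
  have hq12 := hq.mul hq2
  rw [hprod] at hq12
  have heq := hq12.unique hq1
  -- cancel
  have hδ : δ u * δ u₂ = δ u₁ := by rw [← map_mul, hmulu]
  have hδ' : coeffMap Deg457.iotaC ((δ u : FS S) : LaurentSeries Kbar) *
      coeffMap Deg457.iotaC ((δ u₂ : FS S) : LaurentSeries Kbar) =
      coeffMap Deg457.iotaC ((δ u₁ : FS S) : LaurentSeries Kbar) := by
    rw [← map_mul, ← hδ]
    rfl
  have hne' : coeffMap Deg457.iotaC ((δ u₂ : FS S) : LaurentSeries Kbar) ≠ 0 := by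
    intro h0
    have h1 : ((δ u₂ : FS S) : LaurentSeries Kbar) = 0 :=
      coeffMap_iotaC_injective (by rw [h0, map_zero])
    have h2 : δ u₂ = 0 := Subtype.ext h1
    exact hne ((map_eq_zero_iff δ δ.injective).mp h2)
  show H708.qexpFun 1 (fun τ => G (a • τ)) =
    coeffMap Deg457.iotaC (((SemilinearAut.ofAlgAut δ • u : FS S)) : LaurentSeries Kbar)
  rw [SemilinearAut.ofAlgAut_smul]
  exact mul_right_cancel₀ hne' (heq.trans hδ'.symm)

end Generic

/-! ### The generators of `ℚ̄·F₁(M)` and their avatars -/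

section Concrete

open Fermat.Agent.S48.H76 Fermat.Agent.S48.H548

theorem coeffMap_iotaC_coeffEmb_h528 (z : LaurentSeries ℚ) :
    coeffMap Deg457.iotaC (coeffEmb Kbar z) = coeffEmb ℂ z := by
  rw [coeffEmb, coeffMap_coeffMap]
  exact coeffMap_congr (RingHom.ext fun c => by simp) z

variable (M : ℕ) [NeZero M]

omit [NeZero M] in
/-- `τ ↦ j(dτ)` realises `j(q^d)` (`d ∣ M`) for `Γ₁(M)`. -/
theorem realises_jd_h528 {d : ℕ} [NeZero d] (hd : d ∣ M)
    (hmem : coeffEmb Kbar (qExpand ℚ d jq) ∈ F1Bar M) :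
    _root_.Fermat.Agent.S48.Kum.Realises (Gamma1 M) (F1Bar M) ⟨coeffEmb Kbar (qExpand ℚ d jq), hmem⟩
      (fun τ => JFun.jFun (Deg457.scaleH d τ)) := by
  have hgood : IsGood (Gamma0 M) (fun τ => JFun.jFun (Deg457.scaleH d τ)) :=
    H648.jFun_scale_mem_goodRing M d (Nat.pos_of_ne_zero (NeZero.ne d)) hd (Deg457.scaleH d)
      (Deg457.coe_scaleH d)
  refine _root_.Fermat.Agent.S48.Kum.realises_of_hasQExp (hgood.mono (Gamma1_in_Gamma0 M)) ?_
  show H708.HasQExp 1 _ (coeffMap Deg457.iotaC (coeffEmb Kbar (qExpand ℚ d jq)))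
  rw [coeffMap_iotaC_coeffEmb_h528]
  exact Deg457.hasQExp_jFun_scale d

omit [NeZero M] in
theorem jd_comp_Gamma0_h528 {d : ℕ} [NeZero d] (hd : d ∣ M) (a : SL(2, ℤ)) (ha : a ∈ Gamma0 M) :
    (fun τ => JFun.jFun (Deg457.scaleH d (a • τ))) = fun τ => JFun.jFun (Deg457.scaleH d τ) := by
  have hgood : IsGood (Gamma0 M) (fun τ => JFun.jFun (Deg457.scaleH d τ)) :=
    H648.jFun_scale_mem_goodRing M d (Nat.pos_of_ne_zero (NeZero.ne d)) hd (Deg457.scaleH d)
      (Deg457.coe_scaleH d)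
  funext τ
  exact hgood.2.1 a ha τ

/-- `pFun M b` is good for `Γ₁(M)`. -/
theorem isGood_pFun_h528 (b : ZMod M) : IsGood (Gamma1 M) (pFun M b) := by
  refine ⟨mdiff_pFun M b, fun γ hγ τ => pFun_smul_Gamma1 M b γ hγ τ, fun g => ?_⟩
  obtain ⟨φ, hφ⟩ := (pFun_mem_holN M b).2 g
  exact Fermat.Agent.S29.H332.expGrowth_of_infExp hφ

/-- `pFun M b` realises the division value `P_b`. -/
theorem realises_pFun_h528 {b : ZMod M} (hb : b ≠ 0)
    (hmem : coeffEmb Kbar (divGen M b) ∈ F1Bar M) :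
    _root_.Fermat.Agent.S48.Kum.Realises (Gamma1 M) (F1Bar M) ⟨coeffEmb Kbar (divGen M b), hmem⟩ (pFun M b) := by
  refine _root_.Fermat.Agent.S48.Kum.realises_of_hasQExp (isGood_pFun_h528 M b) ?_
  show H708.HasQExp 1 _ (coeffMap Deg457.iotaC (coeffEmb Kbar (divGen M b)))
  rw [coeffMap_iotaC_coeffEmb_h528]
  have e : coeffEmb ℂ (divGen M b) = divGenC ℂ M b := by
    rw [divGen, coeffEmb, coeffMap_divGenC]
  rw [e]
  exact Fermat.Agent.S29.H332.hasQExp_of_infExp (mdiff_pFun M b) (infExp_pFun M hb)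

variable {M} in
theorem sigmaP_inv_mem_h528 {p : ℕ} [Fact p.Prime] (hpM : ¬ p ∣ M) :
    (sigmaP M p hpM)⁻¹ ∈ Gamma0 M :=
  (Gamma0 M).inv_mem (sigmaP_mem hpM)

variable {M} in
theorem sigmaP_inv_upper_h528 {p : ℕ} [Fact p.Prime] (hpM : ¬ p ∣ M) :
    ((((sigmaP M p hpM)⁻¹ : SL(2, ℤ)) 0 0 : ℤ) : ZMod M) = (p : ZMod M) := by
  have e : (((sigmaP M p hpM)⁻¹ : SL(2, ℤ)) 0 0 : ℤ) = (sigmaP M p hpM) 1 1 := by
    rw [Matrix.SpecialLinearGroup.SL2_inv_expl]
    rfl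
  rw [e, sigmaP_lower hpM]

/-- **Leaf `dia` of A1-KUM** from the existence of the diamond automorphism (FF-DIA). -/
theorem diaAn1_of_isDiamond (p : ℕ) [Fact p.Prime] (hpM : ¬ p ∣ M)
    (hdia : ∃ σ : F1L Kbar M ≃ₐ[Kbar] F1L Kbar M, IsDiamond Kbar M (unitOf M p) σ) :
    DiaAn1 M p hpM := by
  have hD := isDiamond_diamondAut Kbar M (unitOf M p) hdia
  have hcop : Nat.Coprime p M := (Nat.Prime.coprime_iff_not_dvd Fact.out).mpr hpM
  have hunit : ((unitOf M p : (ZMod M)ˣ) : ZMod M) = (p : ZMod M) := coe_unitOf M hcop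
  refine diaAn_of_gens (Γ := Gamma1 M) (S := divisorExpansions M ∪ divGens M)
    (T_mem_Gamma1 M) (diamondAut Kbar M (unitOf M p)) (sigmaP M p hpM)⁻¹
    (sigmaP_inv_conj_mem hpM) ?_
  rintro z (⟨d, hd0, hd, rfl⟩ | ⟨b, hb, rfl⟩)
  · -- `j(q^d)`
    have hmem : coeffEmb Kbar (qExpand ℚ d jq) ∈ F1Bar M :=
      coeffEmb_mem_laurentBaseChange Kbar (jqd_mem_F1 M hd)
    refine ⟨fun τ => JFun.jFun (Deg457.scaleH d τ), realises_jd_h528 M hd hmem, ?_⟩
    have hfix : diamondAut Kbar M (unitOf M p) ⟨coeffEmb Kbar (qExpand ℚ d jq), hmem⟩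
        = ⟨coeffEmb Kbar (qExpand ℚ d jq), hmem⟩ :=
      hD.1 _ (coeffEmb_mem_laurentBaseChange Kbar (jqd_mem_full M hd))
    have hcomp := jd_comp_Gamma0_h528 M hd (sigmaP M p hpM)⁻¹ (sigmaP_inv_mem_h528 hpM)
    show _root_.Fermat.Agent.S48.Kum.Realises (Gamma1 M) (F1Bar M)
      (diamondAut Kbar M (unitOf M p) ⟨coeffEmb Kbar (qExpand ℚ d jq), hmem⟩)
      (fun τ => JFun.jFun (Deg457.scaleH d ((sigmaP M p hpM)⁻¹ • τ)))
    rw [hfix, hcomp]
    exact realises_jd_h528 M hd hmem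
  · -- `P_b`
    have hmem : coeffEmb Kbar (divGen M b) ∈ F1Bar M :=
      coeffEmb_mem_laurentBaseChange Kbar (divGen_mem_F1 M hb)
    have hpb : (unitOf M p : ZMod M) * b ≠ 0 := by
      intro h
      exact hb ((Units.mul_right_eq_zero (unitOf M p)).mp h)
    have hmem' : coeffEmb Kbar (divGen M ((unitOf M p : ZMod M) * b)) ∈ F1Bar M :=
      coeffEmb_mem_laurentBaseChange Kbar (divGen_mem_F1 M hpb)
    refine ⟨pFun M b, realises_pFun_h528 M hb hmem, ?_⟩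
    have hmove : diamondAut Kbar M (unitOf M p) ⟨coeffEmb Kbar (divGen M b), hmem⟩
        = ⟨coeffEmb Kbar (divGen M ((unitOf M p : ZMod M) * b)), hmem'⟩ :=
      hD.2 b _ _ hb rfl rfl
    have hcomp : (fun τ => pFun M b ((sigmaP M p hpM)⁻¹ • τ))
        = pFun M ((unitOf M p : ZMod M) * b) := by
      have h := compSL_pFun M b (sigmaP M p hpM)⁻¹ (sigmaP_inv_mem_h528 hpM)
      rw [sigmaP_inv_upper_h528 hpM, ← hunit, mul_comm] at h
      exact h
    show _root_.Fermat.Agent.S48.Kum.Realises (Gamma1 M) (F1Bar M)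
      (diamondAut Kbar M (unitOf M p) ⟨coeffEmb Kbar (divGen M b), hmem⟩)
      (fun τ => pFun M b ((sigmaP M p hpM)⁻¹ • τ))
    rw [hmove, hcomp]
    exact realises_pFun_h528 M hpb hmem'

/-- **Leaf `dia` of sub-tower A1-KUM** (`Kum.Leaves.dia`), unconditional:
if `G` realises `u ∈ ℚ̄·F₁(M)` then `G ∘ σ_p⁻¹` realises `diamondAut p • u`. -/
theorem diaAn1 (p : ℕ) [Fact p.Prime] (hpM : ¬ p ∣ M) : DiaAn1 M p hpM :=
  diaAn1_of_isDiamond M p hpM (Fermat.Agent.S48.H848.exists_isDiamond M (unitOf M p))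

end Concrete

end Fermat.Agent.S48.H528

end
end
-- ===== PACK-END S48/H528/DiaAn.lean

-- ===== PACK-BEGIN S48/H882/K3Leaf.lean
section






/-!
# Tower A1 / A1-KUM — leaf `k3` for `(Γ₁(M), F1Bar M)` from DFROM + DTO (helper882)

* GENERIC adapter `kum_pieceK3_of` : `H882.pieceK3G` in the frozen shape `Kum.PieceK3 Γ F p`
  (characters `c : Γ → ZMod p`, `ζ_p ^ c(γ)`), from GEN, MERO, DFROM, DTO.
* INSTANCE `(Γ₁(M), F1 M)`:
  - `genData_f1 M  : GenData (Gamma1 M) (F1 M) (f1Gens M)`   (avatars `j(dτ)`, `H76.pFun M a`);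
  - `meroG_f1 M    : MeroG (Gamma1 M) (F1 M)`                (from `H332.f1_finrank_eq`);
  - `dictInter_f1 M : Kum.DictInter (Gamma1 M) (F1Bar M)`    (= leaf `inter`, UNCONDITIONAL);
  - `dictMero_f1 M  : Kum.DictMero (Gamma1 M) (F1Bar M)`     (= leaf `mero`, UNCONDITIONAL);
  - `pieceK3_f1_of` : DFROM + DTO for `(Γ₁(M), F1 M)` ⟹ `Kum.PieceK3 (Gamma1 M) (F1Bar M) ℓ`
    (= leaf `k3`; the two inputs are owned by helper282).
-/

set_option autoImplicit false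
set_option linter.style.haveILetI false
set_option linter.unusedSectionVars false

noncomputable section

open UpperHalfPlane ModularGroup CongruenceSubgroup Polynomial ModularCurve AlgebraicCurve
open scoped MatrixGroups Manifold Modular Real

namespace Fermat.Agent.S48.H882

open Fermat.Agent.S24 Fermat.Agent.S24.H648 Fermat.Agent.S24.H708 Fermat.Agent.S24.Deg457
open Fermat.Agent.S29 Fermat.Agent.S48.F1

/-! ### The generic adapter to the frozen `Kum` shapes -/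

section Adapter

variable {Γ : Subgroup SL(2, ℤ)} {p : ℕ} [NeZero p]

theorem zetaP_pow_self_eq (p : ℕ) [NeZero p] : M4b.zetaP p ^ p = 1 := by
  unfold M4b.zetaP
  rw [← Complex.exp_nat_mul]
  have hp : (p : ℂ) ≠ 0 := Nat.cast_ne_zero.mpr (NeZero.ne p)
  rw [mul_div_cancel₀ _ hp]
  exact Complex.exp_two_pi_mul_I

theorem zetaP_ne_zero' (p : ℕ) : M4b.zetaP p ≠ 0 := by
  unfold M4b.zetaP
  exact Complex.exp_ne_zero _

theorem zetaP_pow_val_add (a b : ZMod p) :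
    M4b.zetaP p ^ (a + b).val = M4b.zetaP p ^ a.val * M4b.zetaP p ^ b.val := by
  rw [ZMod.val_add, ← pow_eq_pow_mod _ (zetaP_pow_self_eq p), pow_add]

/-- The multiplicative character `γ ↦ ζ_p ^ c(γ)` of an additive character `c`. -/
def charOf (c : Γ → ZMod p) (hc : ∀ γ γ' : Γ, c (γ * γ') = c γ + c γ') : Γ →* ℂˣ :=
  MonoidHom.toHomUnits
    { toFun := fun γ => M4b.zetaP p ^ (c γ).val
      map_one' := by
        have h1 : c 1 = 0 := by
          have h := hc 1 1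
          rw [mul_one] at h
          exact left_eq_add.mp h
        rw [h1, ZMod.val_zero, pow_zero]
      map_mul' := fun γ γ' => by rw [hc, zetaP_pow_val_add] }

theorem charOf_apply (c : Γ → ZMod p) (hc : ∀ γ γ' : Γ, c (γ * γ') = c γ + c γ') (γ : Γ) :
    ((charOf c hc γ : ℂˣ) : ℂ) = M4b.zetaP p ^ (c γ).val := rfl

theorem goodG_iff_isGood {G : ℍ → ℂ} : GoodG Γ G ↔ Kum.IsGood Γ G := Iff.rfl

theorem isTwistedG_of_kum {c : Γ → ZMod p} (hc : ∀ γ γ' : Γ, c (γ * γ') = c γ + c γ')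
    {U : ℍ → ℂ} (hU : Kum.IsTwisted Γ p c U) : IsTwistedG Γ p (charOf c hc) U :=
  ⟨hU.mdiff, hU.ne_zero, fun γ τ => by rw [charOf_apply]; exact hU.hasChar γ τ, hU.pow_good⟩

theorem kum_isTwisted_of {c : Γ → ZMod p} (hc : ∀ γ γ' : Γ, c (γ * γ') = c γ + c γ')
    {U : ℍ → ℂ} (hU : IsTwistedG Γ p (charOf c hc) U) : Kum.IsTwisted Γ p c U :=
  ⟨hU.mdiff, hU.ne_zero, fun γ τ => by rw [← charOf_apply c hc]; exact hU.hasChar γ τ,
    hU.pow_good⟩

omit [NeZero p] in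
theorem trace_T_eq_two : (ModularGroup.T : SL(2, ℤ)).1.trace = 2 := by
  simp [ModularGroup.T]

/-- **PIECE K3 in the frozen shape `Kum.PieceK3`, GENERIC in `(Γ, F₀)`**, from GEN, MERO, DFROM
and DTO (for all twisted functions of parabolic characters). -/
theorem kum_pieceK3_of (Γ : Subgroup SL(2, ℤ)) [Finite (SL(2, ℤ) ⧸ Γ)]
    (hT : ModularGroup.T ∈ Γ) (F₀ : IntermediateField ℚ (LaurentSeries ℚ)) (hj : jq ∈ F₀)
    {S : Set (LaurentSeries ℚ)} (hgen : GenData Γ F₀ S) (hmero : MeroG Γ F₀)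
    (p : ℕ) [NeZero p] (hd : DFromG Γ F₀ p)
    (hdto : ∀ {c : Γ → ZMod p}, Kum.IsParHom Γ c → ∀ {U : ℍ → ℂ}, Kum.IsTwisted Γ p c U →
      DToG F₀ p U) :
    Kum.PieceK3 Γ (laurentBaseChange Kbar F₀) p := by
  intro c hc U hU
  have hχT : charOf c hc.map_mul ⟨ModularGroup.T, hT⟩ = 1 := by
    apply Units.ext
    rw [charOf_apply, Units.val_one, hc.parabolic ⟨ModularGroup.T, hT⟩ (Or.inl trace_T_eq_two),
      ZMod.val_zero, pow_zero]
  obtain ⟨U', u, hU', hu⟩ := pieceK3G Γ hT F₀ hj hgen hmero p hd hχT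
    (isTwistedG_of_kum hc.map_mul hU) (hdto hc hU)
  exact ⟨U', u, kum_isTwisted_of hc.map_mul hU', hu⟩

/-- **DICT-INTER, generic**: from MERO and the landed `S29.H882.mem_laurentBaseChange_of_coeffMap_mem`. -/
theorem kum_dictInter_of {Γ : Subgroup SL(2, ℤ)} {F₀ : IntermediateField ℚ (LaurentSeries ℚ)}
    (hmero : MeroG Γ F₀) : Kum.DictInter Γ (laurentBaseChange Kbar F₀) := by
  intro G s hG hq
  have h := hmero G hG
  rw [hq] at h
  exact Fermat.Agent.S29.H882.mem_laurentBaseChange_of_coeffMap_mem iotaC F₀ h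

/-- **DICT-MERO, generic**: from GEN. -/
theorem kum_dictMero_of {Γ : Subgroup SL(2, ℤ)} {F₀ : IntermediateField ℚ (LaurentSeries ℚ)}
    {S : Set (LaurentSeries ℚ)} (hgen : GenData Γ F₀ S) :
    Kum.DictMero Γ (laurentBaseChange Kbar F₀) := by
  intro u
  obtain ⟨r, hr, s, hs, hs0, hrs⟩ := exists_div_AKG Kbar hgen.le_adjoin u.2
  obtain ⟨G₁, hG₁, hq₁⟩ := hgen.coeffMap_mem_goodQG iotaC hr
  obtain ⟨G₂, hG₂, hq₂⟩ := hgen.coeffMap_mem_goodQG iotaC hs
  refine ⟨⟨r, AKG_le_laurentBaseChange Kbar hgen.subset hr⟩,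
    ⟨s, AKG_le_laurentBaseChange Kbar hgen.subset hs⟩, G₁, G₂, ?_, ?_,
    ⟨hG₁, hq₁.qexpFun_eq⟩, ⟨hG₂, hq₂.qexpFun_eq⟩⟩
  · exact fun h => hs0 (congrArg Subtype.val h)
  · apply Subtype.ext
    show (u : LaurentSeries Kbar) * s = r
    rw [hrs, div_mul_cancel₀ _ hs0]

end Adapter

/-! ### The instance `(Γ₁(M), F1 M)` -/

section F1

open Fermat.Agent.S48.H332 Fermat.Agent.S48.H76

variable (M : ℕ) [NeZero M]

theorem finite_quot_Gamma1 : Finite (SL(2, ℤ) ⧸ Gamma1 M) :=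
  Subgroup.finite_quotient_of_finiteIndex

theorem T_mem_Gamma1' : ModularGroup.T ∈ Gamma1 M := by
  rw [Gamma1_mem]
  simp [ModularGroup.T]

theorem coeffEmb_divGen_eq (a : ZMod M) : coeffEmb ℂ (divGen M a) = divGenC ℂ M a := by
  rw [coeffEmb, ← divGenC_rat, coeffMap_divGenC]

/-- **GEN** for `(Γ₁(M), F1 M)`. -/
theorem genData_f1 : _root_.Fermat.Agent.S48.H882.GenData (Gamma1 M) (F1 M) (f1Gens M) where
  subset := fun s hs => IntermediateField.subset_adjoin ℚ _ hs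
  le_adjoin := le_refl _
  real := by
    rintro s (hs | hs)
    · -- `j(q^d)`: good for `Γ₀(M)`
      have h1 : coeffEmb ℂ s ∈ AK ℂ M := Algebra.subset_adjoin ⟨s, hs, rfl⟩
      obtain ⟨f, hf, hq⟩ := Fermat.Agent.S29.H882.AK_le_goodQ M h1
      exact ⟨f, GoodG.mono (Γ' := Gamma0 M) hf (Gamma1_in_Gamma0 M), hq⟩
    · -- `P_a`: the avatar `pFun M a`
      obtain ⟨a, ha, rfl⟩ := hs
      refine ⟨pFun M a, isGoodFor_of_mem_holN (pFun_mem_holN M a)
        (fun γ hγ τ => pFun_smul_Gamma1 M a γ hγ τ), ?_⟩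
      rw [coeffEmb_divGen_eq]
      exact Fermat.Agent.S29.H332.hasQExp_of_infExp (mdiff_pFun M a) (infExp_pFun M ha)

theorem pm_Gamma1 : ∀ g ∈ pmGamma1 M, g ∈ Gamma1 M ∨ -g ∈ Gamma1 M := by
  intro g hg
  exact mem_pmGamma1_iff.mp hg

/-- **MERO** for `(Γ₁(M), F1 M)`: the `q`-expansion of every good function for `Γ₁(M)` lies in
`ℂ·F1(M)`. -/
theorem meroG_f1 : MeroG (Gamma1 M) (F1 M) := by
  haveI := f1_finiteDimensional M
  exact meroG_of_pm (Γ' := pmGamma1 M) (pm_Gamma1 M) (T_mem_Gamma1' M) (genData_f1 M)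
    (jq_mem_F1 M) (f1J M) (coe_f1J M) (f1_finrank_eq M).ge

/-- **Leaf `inter`** of `Kum.Leaves`. -/
theorem dictInter_f1 : Kum.DictInter (Gamma1 M) (F1Bar M) :=
  kum_dictInter_of (meroG_f1 M)

/-- **Leaf `mero`** of `Kum.Leaves`. -/
theorem dictMero_f1 : Kum.DictMero (Gamma1 M) (F1Bar M) :=
  kum_dictMero_of (genData_f1 M)

/-- **Leaf `k3`** of `Kum.Leaves`, from DFROM and DTO for `(Γ₁(M), F1 M)`. -/
theorem pieceK3_f1_of (ℓ : ℕ) (hℓ : ℓ.Prime) (hd : DFromG (Gamma1 M) (F1 M) ℓ)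
    (hdto : ∀ {c : Gamma1 M → ZMod ℓ}, Kum.IsParHom (Gamma1 M) c → ∀ {U : ℍ → ℂ},
      Kum.IsTwisted (Gamma1 M) ℓ c U → DToG (F1 M) ℓ U) :
    Kum.PieceK3 (Gamma1 M) (F1Bar M) ℓ :=
  haveI : NeZero ℓ := ⟨hℓ.ne_zero⟩
  haveI := finite_quot_Gamma1 M
  kum_pieceK3_of (Gamma1 M) (T_mem_Gamma1' M) (F1 M) (jq_mem_F1 M) (genData_f1 M) (meroG_f1 M) ℓ
    hd hdto

end F1

end Fermat.Agent.S48.H882

end
end
-- ===== PACK-END S48/H882/K3Leaf.lean

-- ===== PACK-BEGIN S48/H548/KumHP.lean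
section




/-!
# S48 / RES, Kum1 (helper548): analytic core of K4-HECKE / K4-DIAMOND on `Γ₁(M)`

For a function `U : ℍ → ℂ` with a character `χ` on `Γ₁(M)` (`U (γ τ) = χ(γ) U(τ)`):

* `heckeProd1 hpM U = ∏ₓ U ∘ heckeRep1 x` has character `trfChar1 hpM χ = (γ ↦ ∏ₓ χ(trf1 γ x))`
  (`heckeProd1_smul`); for `χ = ζ ^ c`, `c : Γ₁(M) → ℤ/m`, this is `ζ ^ (heckeHom1 c)`
  (`heckeProd1_smul_zmod`);
* `U ∘ a`, `a ∈ Γ₀(M)`, has character `χ ∘ conj1 a` (`compSL_smul_conj1`), i.e. `ζ ^ (diaHom1 a c)`;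
* holomorphy (`mdiff_heckeProd1`), growth at all cusps (`heckeProd1_mem_holN`: `holN M → holN (M p)`),
  non-vanishing (`heckeProd1_ne_zero`), invariance (`heckeProd1_invariant`).
-/

set_option autoImplicit false
set_option linter.unusedSectionVars false
set_option linter.deprecated false

noncomputable section

namespace Fermat.Agent.S48.H548

open CongruenceSubgroup ModularCurve UpperHalfPlane Matrix.SpecialLinearGroup ModularForm
open Fermat.Agent.S24 Fermat.Agent.S24.H997 Fermat.Agent.S24.H624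
open scoped Manifold MatrixGroups OnePoint

variable {M : ℕ} [NeZero M] {p : ℕ} [Fact p.Prime]

/-! ### The action identity -/

/-- `α_x (γ τ) = t_x (α_{γ x} τ)`. -/
theorem heckeRep1_smul_smul (hpM : ¬ p ∣ M) (γ : Gamma1 M) (x : OnePoint (ZMod p)) (τ : ℍ) :
    heckeRep1 hpM x • ((γ : SL(2, ℤ)) • τ)
      = ((trf1 hpM γ x : Gamma1 M) : SL(2, ℤ)) • (heckeRep1 hpM (permOf1 γ x) • τ) := by
  rw [SL_smul_eq_mapGL_smul548, SL_smul_eq_mapGL_smul548, ← mul_smul, ← mul_smul,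
    trf1_spec hpM γ x]
  rfl

/-! ### The transfer of a character -/

/-- The (multiplicative) transfer of a character of `Γ₁(M)`: `γ ↦ ∏ₓ χ (trf1 γ x)`. -/
def trfChar1 (hpM : ¬ p ∣ M) {A : Type*} [CommGroup A] (χ : Gamma1 M →* A) : Gamma1 M →* A where
  toFun γ := ∏ x : OnePoint (ZMod p), χ (trf1 hpM γ x)
  map_one' := by simp [trf1_one]
  map_mul' γ γ' := by
    simp only [trf1_mul, map_mul, Finset.prod_mul_distrib]
    congr 1
    exact Equiv.prod_comp (permOf1 γ) (fun y ↦ χ (trf1 hpM γ' y))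

theorem trfChar1_apply (hpM : ¬ p ∣ M) {A : Type*} [CommGroup A] (χ : Gamma1 M →* A)
    (γ : Gamma1 M) : trfChar1 hpM χ γ = ∏ x : OnePoint (ZMod p), χ (trf1 hpM γ x) := rfl

/-! ### The Hecke product -/

/-- The Hecke product `τ ↦ ∏ₓ U (α_x τ)`, `α_x = heckeRep1 x`. -/
def heckeProd1 (hpM : ¬ p ∣ M) (U : ℍ → ℂ) : ℍ → ℂ :=
  fun τ ↦ ∏ x : OnePoint (ZMod p), U (heckeRep1 hpM x • τ)

theorem heckeProd1_apply (hpM : ¬ p ∣ M) (U : ℍ → ℂ) (τ : ℍ) :
    heckeProd1 hpM U τ = ∏ x : OnePoint (ZMod p), U (heckeRep1 hpM x • τ) := rfl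

theorem heckeProd1_pow (hpM : ¬ p ∣ M) (U : ℍ → ℂ) (n : ℕ) :
    heckeProd1 hpM (fun τ ↦ U τ ^ n) = fun τ ↦ heckeProd1 hpM U τ ^ n := by
  funext τ
  simp only [heckeProd1_apply]
  rw [Finset.prod_pow]

theorem heckeProd1_mul (hpM : ¬ p ∣ M) (U V : ℍ → ℂ) :
    heckeProd1 hpM (fun τ ↦ U τ * V τ) = fun τ ↦ heckeProd1 hpM U τ * heckeProd1 hpM V τ := by
  funext τ
  simp only [heckeProd1_apply]
  rw [Finset.prod_mul_distrib]

theorem heckeProd1_one (hpM : ¬ p ∣ M) : heckeProd1 (M := M) hpM (fun _ ↦ (1 : ℂ)) = fun _ ↦ 1 := by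
  funext τ
  simp [heckeProd1_apply]

/-- **Character of the Hecke product** (general character `χ : Γ₁(M) → ℂˣ`). -/
theorem heckeProd1_smul (hpM : ¬ p ∣ M) (χ : Gamma1 M →* ℂˣ) {U : ℍ → ℂ}
    (hU : ∀ (γ : Gamma1 M) (τ : ℍ), U ((γ : SL(2, ℤ)) • τ) = (χ γ : ℂ) * U τ)
    (γ : Gamma1 M) (τ : ℍ) :
    heckeProd1 hpM U ((γ : SL(2, ℤ)) • τ) = (trfChar1 hpM χ γ : ℂ) * heckeProd1 hpM U τ := by
  rw [heckeProd1_apply, heckeProd1_apply, trfChar1_apply, Units.coe_prod]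
  have h1 : ∀ x : OnePoint (ZMod p), U (heckeRep1 hpM x • ((γ : SL(2, ℤ)) • τ))
      = (χ (trf1 hpM γ x) : ℂ) * U (heckeRep1 hpM (permOf1 γ x) • τ) := by
    intro x
    rw [heckeRep1_smul_smul hpM γ x τ]
    exact hU _ _
  rw [Finset.prod_congr rfl fun x _ ↦ h1 x, Finset.prod_mul_distrib]
  congr 1
  exact Equiv.prod_comp (permOf1 γ) (fun y ↦ U (heckeRep1 hpM y • τ))

/-- Invariance of the Hecke product of a `Γ₁(M)`-invariant function. -/
theorem heckeProd1_invariant (hpM : ¬ p ∣ M) {G : ℍ → ℂ}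
    (hG : ∀ (γ : Gamma1 M) (τ : ℍ), G ((γ : SL(2, ℤ)) • τ) = G τ)
    (γ : Gamma1 M) (τ : ℍ) :
    heckeProd1 hpM G ((γ : SL(2, ℤ)) • τ) = heckeProd1 hpM G τ := by
  have h := heckeProd1_smul hpM (1 : Gamma1 M →* ℂˣ) (U := G)
    (fun γ τ ↦ by rw [hG γ τ]; simp) γ τ
  rw [h, trfChar1_apply]
  simp

/-! ### Characters `ζ ^ c`, `c : Γ₁(M) → ℤ/m` -/

theorem pow_val_add548 {m : ℕ} [NeZero m] {ζ : ℂ} (hζ : ζ ^ m = 1) (a b : ZMod m) :
    ζ ^ (a + b).val = ζ ^ a.val * ζ ^ b.val := by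
  have key : ∀ n : ℕ, ζ ^ (n % m) = ζ ^ n := fun n ↦ by
    conv_rhs => rw [← Nat.mod_add_div n m, pow_add, pow_mul, hζ, one_pow, mul_one]
  rw [ZMod.val_add, key, pow_add]

theorem pow_val_sum548 {m : ℕ} [NeZero m] {ζ : ℂ} (hζ : ζ ^ m = 1) {ι : Type*} (s : Finset ι)
    (a : ι → ZMod m) : ζ ^ (∑ i ∈ s, a i).val = ∏ i ∈ s, ζ ^ (a i).val := by
  classical
  induction s using Finset.induction_on with
  | empty => simp
  | insert x s hx ih => rw [Finset.sum_insert hx, Finset.prod_insert hx, pow_val_add548 hζ, ih]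

/-- **Character of the Hecke product**, characters `ζ ^ c`: if `U` has character `ζ ^ c` then
the Hecke product has character `ζ ^ (T_p c)`, `T_p = heckeHom1`. -/
theorem heckeProd1_smul_zmod (hpM : ¬ p ∣ M) {m : ℕ} [NeZero m] {ζ : ℂ} (hζ : ζ ^ m = 1)
    (c : Additive (Gamma1 M) →+ ZMod m) {U : ℍ → ℂ}
    (hU : ∀ (γ : Gamma1 M) (τ : ℍ),
      U ((γ : SL(2, ℤ)) • τ) = ζ ^ (c (Additive.ofMul γ)).val * U τ)
    (γ : Gamma1 M) (τ : ℍ) :
    heckeProd1 hpM U ((γ : SL(2, ℤ)) • τ)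
      = ζ ^ (heckeHom1 p hpM (ZMod m) c (Additive.ofMul γ)).val * heckeProd1 hpM U τ := by
  rw [heckeProd1_apply, heckeProd1_apply, heckeHom1_apply, pow_val_sum548 hζ]
  have h1 : ∀ x : OnePoint (ZMod p), U (heckeRep1 hpM x • ((γ : SL(2, ℤ)) • τ))
      = ζ ^ (c (Additive.ofMul (trf1 hpM γ x))).val * U (heckeRep1 hpM (permOf1 γ x) • τ) := by
    intro x
    rw [heckeRep1_smul_smul hpM γ x τ]
    exact hU _ _
  rw [Finset.prod_congr rfl fun x _ ↦ h1 x, Finset.prod_mul_distrib]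
  congr 1
  exact Equiv.prod_comp (permOf1 γ) (fun y ↦ U (heckeRep1 hpM y • τ))

/-! ### Diamond twists -/

/-- **Character of a diamond twist** (general character). -/
theorem compSL_smul_conj1 (a : SL(2, ℤ)) (ha : a ∈ Gamma0 M) {A : Type*} (χ : Gamma1 M → A)
    (mulA : A → ℂ → ℂ) {U : ℍ → ℂ}
    (hU : ∀ (γ : Gamma1 M) (τ : ℍ), U ((γ : SL(2, ℤ)) • τ) = mulA (χ γ) (U τ))
    (γ : Gamma1 M) (τ : ℍ) :
    compSL a U ((γ : SL(2, ℤ)) • τ) = mulA (χ (conj1 a ha γ)) (compSL a U τ) := by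
  show U (a • ((γ : SL(2, ℤ)) • τ)) = mulA (χ (conj1 a ha γ)) (U (a • τ))
  rw [← hU (conj1 a ha γ) (a • τ), coe_conj1, ← mul_smul, ← mul_smul]
  congr 2
  group

/-- **Character of a diamond twist**, characters `ζ ^ c`: `U ∘ a` has character
`ζ ^ (⟨a⟩ c)`, `⟨a⟩ = diaHom1 a`. -/
theorem compSL_smul_zmod (a : SL(2, ℤ)) (ha : a ∈ Gamma0 M) {m : ℕ} {ζ : ℂ}
    (c : Additive (Gamma1 M) →+ ZMod m) {U : ℍ → ℂ}
    (hU : ∀ (γ : Gamma1 M) (τ : ℍ),
      U ((γ : SL(2, ℤ)) • τ) = ζ ^ (c (Additive.ofMul γ)).val * U τ)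
    (γ : Gamma1 M) (τ : ℍ) :
    compSL a U ((γ : SL(2, ℤ)) • τ)
      = ζ ^ (diaHom1 a ha (ZMod m) c (Additive.ofMul γ)).val * compSL a U τ := by
  rw [diaHom1_apply]
  exact compSL_smul_conj1 a ha (fun γ ↦ c (Additive.ofMul γ)) (fun z w ↦ ζ ^ z.val * w) hU γ τ

/-! ### Holomorphy and growth -/

/-- The Möbius map of `heckeRep p x` as an affine substitution. -/
theorem heckeRep_smul_eq_infAff (x : OnePoint (ZMod p)) :
    ∃ (a : ℕ) (b : ℤ) (d : ℕ), 0 < a ∧ 0 < d ∧ ((a = p ∧ b = 0 ∧ d = 1) ∨ (a = 1 ∧ d = p)) ∧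
      ∀ τ : ℍ, heckeRep p x • τ = infAff a b d τ := by
  have hp : 0 < p := (Fact.out : p.Prime).pos
  have hp0 : p ≠ 0 := hp.ne'
  induction x using OnePoint.rec with
  | infty =>
    refine ⟨p, 0, 1, hp, one_pos, Or.inl ⟨rfl, rfl, rfl⟩, fun τ ↦ ?_⟩
    apply UpperHalfPlane.ext
    show ((ModularForm.heckeDiagMatrix p • τ : ℍ) : ℂ) = ((infAff p 0 1 τ : ℍ) : ℂ)
    rw [ModularForm.coe_heckeDiagMatrix_smul hp0, infAff_coe hp one_pos]
    simp
  | coe j =>
    refine ⟨1, (j.val : ℤ), p, one_pos, hp, Or.inr ⟨rfl, rfl⟩, fun τ ↦ ?_⟩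
    apply UpperHalfPlane.ext
    show ((ModularForm.heckeMatrix p j.val • τ : ℍ) : ℂ) = ((infAff 1 (j.val : ℤ) p τ : ℍ) : ℂ)
    rw [ModularForm.coe_heckeMatrix_smul hp0, infAff_coe one_pos hp]
    simp

theorem heckeRep1_smul (hpM : ¬ p ∣ M) (x : OnePoint (ZMod p)) (τ : ℍ) :
    heckeRep1 hpM x • τ = sigTw hpM x • (heckeRep p x • τ) := by
  unfold heckeRep1
  rw [mul_smul]
  rfl

theorem mdiff_comp_heckeRep1 (hpM : ¬ p ∣ M) {U : ℍ → ℂ} (hU : MDifferentiable 𝓘(ℂ) 𝓘(ℂ) U)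
    (x : OnePoint (ZMod p)) :
    MDifferentiable 𝓘(ℂ) 𝓘(ℂ) (fun τ ↦ U (heckeRep1 hpM x • τ)) := by
  obtain ⟨a, b, d, ha, hd, -, h⟩ := heckeRep_smul_eq_infAff (p := p) x
  have h1 : MDifferentiable 𝓘(ℂ) 𝓘(ℂ) (compSL (sigTw hpM x) U) := (precompSL _ ⟨U, hU⟩).2
  have h2 : (fun τ ↦ U (heckeRep1 hpM x • τ)) = fun τ ↦ compSL (sigTw hpM x) U (infAff a b d τ) := by
    funext τ
    rw [heckeRep1_smul, h τ]
    rfl
  rw [h2]
  exact H564.mdiff_comp_infAff h1 ha hd b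

theorem mdiff_heckeProd1 (hpM : ¬ p ∣ M) {U : ℍ → ℂ} (hU : MDifferentiable 𝓘(ℂ) 𝓘(ℂ) U) :
    MDifferentiable 𝓘(ℂ) 𝓘(ℂ) (heckeProd1 hpM U) := by
  have h : heckeProd1 hpM U = ∏ x : OnePoint (ZMod p), (fun τ ↦ U (heckeRep1 hpM x • τ)) := by
    funext τ
    rw [heckeProd1_apply, Finset.prod_apply]
  rw [h]
  exact MDifferentiable.prod fun x _ ↦ mdiff_comp_heckeRep1 hpM hU x

theorem comp_heckeRep1_mem_holN (hpM : ¬ p ∣ M) [NeZero (M * p)] {U : ℍ → ℂ} (hU : U ∈ holN M)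
    (x : OnePoint (ZMod p)) : (fun τ ↦ U (heckeRep1 hpM x • τ)) ∈ holN (M * p) := by
  have : NeZero p := ⟨(Fact.out : p.Prime).ne_zero⟩
  obtain ⟨a, b, d, ha, hd, hcase, h⟩ := heckeRep_smul_eq_infAff (p := p) x
  have h1 : compSL (sigTw hpM x) U ∈ holN M := comp_mem_holN M _ U hU
  have h2 : (fun τ ↦ U (heckeRep1 hpM x • τ)) = fun τ ↦ compSL (sigTw hpM x) U (infAff a b d τ) := by
    funext τ
    rw [heckeRep1_smul, h τ]
    rfl
  rw [h2]
  rcases hcase with ⟨rfl, rfl, rfl⟩ | ⟨rfl, rfl⟩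
  · exact Fermat.Agent.S29.M4b.H822.comp_infAff_mem_holN h1
  · exact Fermat.Agent.S29.M4b.H822.comp_infAff_mem_holN' h1 b

/-- **Growth of the Hecke product**: `holN M → holN (M p)`. -/
theorem heckeProd1_mem_holN (hpM : ¬ p ∣ M) [NeZero (M * p)] {U : ℍ → ℂ} (hU : U ∈ holN M) :
    heckeProd1 hpM U ∈ holN (M * p) := by
  have h : heckeProd1 hpM U = ∏ x : OnePoint (ZMod p), (fun τ ↦ U (heckeRep1 hpM x • τ)) := by
    funext τ
    rw [heckeProd1_apply, Finset.prod_apply]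
  rw [h]
  exact prod_mem fun x _ ↦ comp_heckeRep1_mem_holN hpM hU x

/-- All `SL₂(ℤ)`-translates of the Hecke product of an element of `holN M` have at most
exponential growth. -/
theorem heckeProd1_expGrowth (hpM : ¬ p ∣ M) {U : ℍ → ℂ} (hU : U ∈ holN M) (g : SL(2, ℤ)) :
    Fermat.Agent.S24.H648.ExpGrowth (fun τ ↦ heckeProd1 hpM U (g • τ)) := by
  have : NeZero (M * p) := ⟨Nat.mul_ne_zero (NeZero.ne M) (Fact.out : p.Prime).ne_zero⟩
  obtain ⟨φ, hφ⟩ := (heckeProd1_mem_holN hpM hU).2 g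
  exact Fermat.Agent.S29.H332.expGrowth_of_infExp hφ

/-! ### Non-vanishing -/

theorem heckeProd1_ne_zero (hpM : ¬ p ∣ M) {U : ℍ → ℂ} (hU : MDifferentiable 𝓘(ℂ) 𝓘(ℂ) U)
    (h0 : ∃ τ : ℍ, U τ ≠ 0) : ∃ τ : ℍ, heckeProd1 hpM U τ ≠ 0 := by
  by_contra hcon
  simp only [not_exists, not_not] at hcon
  let f : OnePoint (ZMod p) → holoRing := fun x ↦
    ⟨fun τ ↦ U (heckeRep1 hpM x • τ), mdiff_comp_heckeRep1 hpM hU x⟩
  have hprod : ∏ x : OnePoint (ZMod p), f x = 0 := by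
    apply Subtype.ext
    funext τ
    rw [SubmonoidClass.coe_finset_prod, Finset.prod_apply]
    exact hcon τ
  obtain ⟨x, -, hx⟩ := Finset.prod_eq_zero_iff.mp hprod
  obtain ⟨τ, hτ⟩ := h0
  apply hτ
  have h1 : ∀ τ' : ℍ, U (heckeRep1 hpM x • τ') = 0 := fun τ' ↦
    congrFun (congrArg Subtype.val hx) τ'
  have h2 := h1 ((heckeRep1 hpM x)⁻¹ • τ)
  rwa [smul_inv_smul] at h2

end Fermat.Agent.S48.H548

end
end
-- ===== PACK-END S48/H548/KumHP.lean

-- ===== PACK-BEGIN S48/H548/NormGood.lean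
section





/-!
# S48 / RES, Kum leaf `norm` (helper548): the GOODNESS half of `NormAn1`

* `mem_holN_of_isGood` : a good function for a group `Γ` of level `M` (`H332.HasLevel Γ M`, e.g.
  `Γ₁(M)`) lies in the S24 ring `holN M` (expansions in `exp(2πiτ/M)` at ALL cusps);
* `prod_repA_eq_heckeProd1` : `∏ₓ G ∘ repA x = heckeProd1 (G ∘ σ_p⁻¹)`;
* `isGood_prod_repA` : if `G` is good for `Γ₁(M)` then so is `τ ↦ ∏ₓ G (repA x • τ)`
  (`repA x = σ_p⁻¹ · heckeRep1 x` the representatives of `Kum/M4b1.lean`);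
* `realises_prod_repA_of_qexp` : hence `NormAn1` is reduced to the equality of `q`-expansions.
-/

set_option autoImplicit false
set_option linter.unusedSectionVars false

noncomputable section

namespace Fermat.Agent.S48.H548

open CongruenceSubgroup ModularCurve UpperHalfPlane Matrix.SpecialLinearGroup
open Fermat.Agent.S24 Fermat.Agent.S24.H997 Fermat.Agent.S24.H624 Fermat.Agent.S24.H648
  Fermat.Agent.S24.H708 Fermat.Agent.S48.Kum Fermat.Agent.S48.F1
open scoped Manifold MatrixGroups OnePoint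

/-- A good function for a group of level `M` lies in `holN M`. -/
theorem mem_holN_of_isGood {Γ : Subgroup SL(2, ℤ)} {M : ℕ} [NeZero M]
    (hΓ : Fermat.Agent.S48.H332.HasLevel Γ M) {G : ℍ → ℂ} (hG : IsGood Γ G) : G ∈ holN M := by
  have hchar : Fermat.Agent.S48.H332.GHasChar (1 : Γ →* ℂˣ) G := by
    intro γ τ
    rw [hG.2.1 γ γ.2 τ]
    simp
  have hpar : Fermat.Agent.S48.H332.GParTriv (1 : Γ →* ℂˣ) := fun _ _ => rfl
  refine ⟨hG.1, fun g => ?_⟩
  have hol : MDifferentiable 𝓘(ℂ) 𝓘(ℂ) (compSL g G) := mdifferentiable_comp_smul hG.1 g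
  have hper : Function.Periodic (compSL g G ∘ ofComplex) (M : ℝ) :=
    hchar.periodic hpar g M (hΓ.conj_T_pow g)
  have hgr : ExpGrowth (compSL g G) := hG.2.2 g
  have hmer : IsMerInf M (compSL g G) :=
    ⟨hol, hper, Fermat.Agent.S29.H642.K2_isBounded_mul_qh_pow hgr⟩
  exact ⟨qexpFun M (compSL g G), fun τ => (HasQExp.of_isMerInf hmer).hasSum τ⟩

variable {M : ℕ} [NeZero M] {p : ℕ} [Fact p.Prime]

theorem repA_smul (hpM : ¬ p ∣ M) (x : OnePoint (ZMod p)) (τ : ℍ) :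
    repA hpM x • τ = (sigmaP M p hpM)⁻¹ • (heckeRep1 hpM x • τ) := by
  unfold repA
  rw [mul_smul]
  rfl

/-- `∏ₓ G ∘ repA x = heckeProd1 (G ∘ σ_p⁻¹)`. -/
theorem prod_repA_eq_heckeProd1 (hpM : ¬ p ∣ M) (G : ℍ → ℂ) :
    (fun τ => ∏ x, G (repA hpM x • τ)) = heckeProd1 hpM (compSL (sigmaP M p hpM)⁻¹ G) := by
  funext τ
  rw [heckeProd1_apply]
  exact Finset.prod_congr rfl fun x _ => by rw [repA_smul]; rfl

/-- Composition with an element of `Γ₀(M)` preserves goodness for `Γ₁(M)`. -/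
theorem isGood_compSL (a : SL(2, ℤ)) (ha : a ∈ Gamma0 M) {G : ℍ → ℂ}
    (hG : IsGood (Gamma1 M) G) : IsGood (Gamma1 M) (compSL a G) := by
  refine ⟨mdifferentiable_comp_smul hG.1 a, fun γ hγ τ => ?_, fun g => ?_⟩
  · show G (a • (γ • τ)) = G (a • τ)
    have h1 : a • (γ • τ) = (a * γ * a⁻¹) • (a • τ) := by
      rw [← mul_smul, ← mul_smul]
      congr 1
      group
    rw [h1]
    exact hG.2.1 _ (conj_mem_Gamma1 a ha ⟨γ, hγ⟩) _
  · have h := hG.2.2 (a * g)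
    refine (funext fun τ => ?_ : (fun τ => compSL a G (g • τ)) = fun τ => G ((a * g) • τ)) ▸ h
    show G (a • (g • τ)) = G ((a * g) • τ)
    rw [mul_smul]

/-- **Goodness half of `NormAn1`.** -/
theorem isGood_prod_repA (hpM : ¬ p ∣ M) {G : ℍ → ℂ} (hG : IsGood (Gamma1 M) G) :
    IsGood (Gamma1 M) (fun τ => ∏ x, G (repA hpM x • τ)) := by
  rw [prod_repA_eq_heckeProd1]
  have hs : (sigmaP M p hpM)⁻¹ ∈ Gamma0 M := (Gamma0 M).inv_mem (sigmaP_mem hpM)
  have hG' : IsGood (Gamma1 M) (compSL (sigmaP M p hpM)⁻¹ G) := isGood_compSL _ hs hG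
  have hmem : compSL (sigmaP M p hpM)⁻¹ G ∈ holN M :=
    mem_holN_of_isGood (Fermat.Agent.S48.H332.hasLevel_Gamma1 M) hG'
  refine ⟨mdiff_heckeProd1 hpM hG'.1, fun γ hγ τ => ?_, fun g => ?_⟩
  · exact heckeProd1_invariant hpM (fun γ τ => hG'.2.1 γ γ.2 τ) ⟨γ, hγ⟩ τ
  · exact heckeProd1_expGrowth hpM hmem g

/-- `NormAn1` reduced to the equality of `q`-expansions. -/
theorem realises_prod_repA_of_qexp (hpM : ¬ p ∣ M) {G : ℍ → ℂ} (hG : IsGood (Gamma1 M) G)
    (v : F1Bar M)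
    (hq : qexpFun 1 (fun τ => ∏ x, G (repA hpM x • τ))
      = coeffMap Deg457.iotaC ((v : F1Bar M) : LaurentSeries Kbar)) :
    Realises (Gamma1 M) (F1Bar M) v (fun τ => ∏ x, G (repA hpM x • τ)) :=
  ⟨isGood_prod_repA hpM hG, hq⟩

end Fermat.Agent.S48.H548

end
end
-- ===== PACK-END S48/H548/NormGood.lean

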