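import Fermat.Agent.Pack.L1B.E3L2
import Fermat.Agent.Pack.L1B.E4L0
import Fermat.Agent.Pack.L1B.E0L0
import Fermat.Agent.Pack.L1B.E4L1
import Fermat.Agent.Pack.L1B.E0L3
import Fermat.Agent.Pack.L1B.E2L2
import Fermat.Agent.Pack.L1.E10L0

-- ===== PACK-BEGIN S48/H668/F1Avatar.lean
section





/-!
# S48 / Tower A1 — BRIDGE `F1 → IACT` (helper668): the function field of `X₁(M)` inside the
full-level field

`E` a field of characteristic `0` with `ι : E →+* ℂ` and `ζ ∈ Eˣ`, `ι ζ = e^{2πi/M}`.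

* `iactRat_of_mem_coeffSub`  : an expansion with coefficients in `ι(E)` is `E`-rational;
* `yW_smul_mem_iactRing`     : for every periodic weight `w` with values in `ι(E)` the normalised
                               Eisenstein quotient `C₁₂⁻¹ · G_w / Δ` lies in `H828.iactRing ι M`
                               (holomorphic, `Γ(M)`-invariant, `E`-rational at EVERY cusp);
* `pAv ζ hζ a : iactRing ι M` : the avatar `H76.pFun M a` of the division value `P_a`;
  `iactExp_pAv`              : its `X`-expansion is `P_a(X^M)`;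
  `smul_pAv`                 : `γ • pAv a = pAv (a · γ₁₁)` for `γ ∈ Γ₀(M)`;
* `coeffEmb_mem_avatarField_F1` : every element of `F1 M` has an avatar, hence (helper648's
                               `H648.baseChangeEmb`) the embedding
  `f1Emb ζ hζ : E · F1 M →+* IActField ι M`, `iactFieldExp (f1Emb f) = f(X^M)`;
* `smul_f1Emb`               : **diamonds = action of `Γ₀(M)`**: for `γ ∈ Γ₀(M)` and the diamond
                               automorphism `σ` of `d = γ₁₁`, `γ • f1Emb f = f1Emb (σ f)`.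
-/

set_option autoImplicit false
set_option linter.unusedSectionVars false

noncomputable section

open ModularCurve HahnSeries UpperHalfPlane CongruenceSubgroup
open scoped MatrixGroups Manifold

namespace Fermat.Agent.S48.H668

open Fermat.Agent.S24 Fermat.Agent.S24.H997 Fermat.Agent.S24.H624
open Fermat.Agent.S28 Fermat.Agent.S28.H748
open Fermat.Agent.S48.H76 Fermat.Agent.S48.H828 Fermat.Agent.S48.H648 Fermat.Agent.S48.F1

variable {E : Type*} [Field E] [CharZero E] (ι : E →+* ℂ) (M : ℕ) [NeZero M]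

/-! ### Rational expansions -/

/-- A complex Laurent series with coefficients in `ι(E)` is the image of a series over `E`. -/
theorem exists_coeffMap_eq {Φ : LaurentSeries ℂ} (h : Φ ∈ coeffSub ι.range) :
    ∃ φ : LaurentSeries E, coeffMap ι φ = Φ := by
  classical
  have hc : ∀ n : ℤ, ∃ e : E, ι e = Φ.coeff n ∧ (Φ.coeff n = 0 → e = 0) := by
    intro n
    by_cases h0 : Φ.coeff n = 0
    · exact ⟨0, by rw [map_zero, h0], fun _ => rfl⟩
    · obtain ⟨e, he⟩ := h n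
      exact ⟨e, he, fun h1 => absurd h1 h0⟩
  choose c hc1 hc2 using hc
  have hsupp : Function.support c ⊆ Φ.support := by
    intro n hn
    rw [Function.mem_support] at hn
    rw [HahnSeries.mem_support]
    exact fun h0 => hn (hc2 n h0)
  refine ⟨⟨c, Φ.isPWO_support.mono hsupp⟩, ?_⟩
  ext n
  rw [coeffMap_coeff]
  exact hc1 n

variable {ι M}

theorem iactRat_of_mem_coeffSub {f : ℍ → ℂ} {Φ : LaurentSeries ℂ} (h : InfExp M f Φ)
    (hΦ : Φ ∈ coeffSub ι.range) : IActRat ι M f := by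
  obtain ⟨φ, hφ⟩ := exists_coeffMap_eq ι hΦ
  exact ⟨φ, by rw [hφ]; exact h⟩

/-! ### The root of unity -/

theorem zetaPow_mem_range (ζ : Eˣ) (hζ : Units.map (ι : E →* ℂ) ζ = infRoot 1 M) (a : ℤ) :
    zetaPow M a ∈ ι.range := by
  refine ⟨((ζ ^ a : Eˣ) : E), ?_⟩
  have h1 : ι ((ζ ^ a : Eˣ) : E) = ((Units.map (ι : E →* ℂ) ζ ^ a : ℂˣ) : ℂ) := by
    rw [← map_zpow]
    rfl
  rw [h1, hζ, infRoot_zpow_coe]
  unfold zetaPow
  rw [← Complex.exp_int_mul]
  congr 1
  push_cast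
  ring

theorem natCast_inv_mem_range (n : ℕ) : ((n : ℂ))⁻¹ ∈ ι.range :=
  ⟨((n : E))⁻¹, by rw [map_inv₀, map_natCast]⟩

theorem ratCast_mem_range (q : ℚ) : ((q : ℚ) : ℂ) ∈ ι.range :=
  ⟨(q : E), map_ratCast ι q⟩

/-! ### Eisenstein quotients in `iactRing` -/

/-- The normalised expansion `C₁₂⁻¹ · yWSeries` has coefficients in `ι(E)`. -/
theorem yWSeries_mem_coeffSub (ζ : Eˣ) (hζ : Units.map (ι : E →* ℂ) ζ = infRoot 1 M)
    (w : ZMod M → ZMod M → ℂ) (hw : ∀ x y, w x y ∈ ι.range) :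
    HahnSeries.C (divC 11)⁻¹ * yWSeries M w ∈ coeffSub ι.range := by
  have hM : (M : ℂ) ≠ 0 := Nat.cast_ne_zero.mpr (NeZero.ne M)
  unfold yWSeries
  rw [← mul_assoc]
  refine (coeffSub _).mul_mem ?_ (qExpand_mem_coeffSub M (deltaInvSeriesC_mem_coeffSub _))
  intro n
  rw [HahnSeries.C_mul_eq_smul, HahnSeries.coeff_smul, smul_eq_mul]
  by_cases hn : 0 ≤ n
  · obtain ⟨m, rfl⟩ := Int.eq_ofNat_of_zero_le hn
    rw [HahnSeries.ofPowerSeries_apply_coeff]
    have h1 := coefX_mem M (k := 11) (by norm_num) w ι.range (zetaPow_mem_range ζ hζ)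
      (natCast_inv_mem_range M) (fun c => ratCast_mem_range _) hw m
    have e : (divC 11)⁻¹ * PowerSeries.coeff m (coefXSeries M w 11) =
        ((M : ℂ)⁻¹) ^ 11 * ((normC M 11)⁻¹ * coefX M w 11 m) := by
      have h2 : divC 11 = normC M 11 * (M : ℂ) ^ 11 := by
        rw [← lipConst_mul_pow M 11]
        unfold normC
        ring
      have h3 := normC_ne_zero M 11
      rw [h2, coefXSeries, PowerSeries.coeff_mk]
      field_simp
    rw [e]
    exact ι.range.mul_mem (ι.range.pow_mem (natCast_inv_mem_range M) _) h1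
  · rw [ModularCurve.ofPowerSeries_coeff_of_neg _ (by omega), mul_zero]
    exact ι.range.zero_mem

theorem infExp_smul_yW (w : ZMod M → ZMod M → ℂ) :
    InfExp M (fun τ => (divC 11)⁻¹ * yW M w τ) (HahnSeries.C (divC 11)⁻¹ * yWSeries M w) :=
  (InfExp.const (divC 11)⁻¹).mul (infExp_yW M w)

theorem actW_mem_range {w : ZMod M → ZMod M → ℂ} (hw : ∀ x y, w x y ∈ ι.range) (γ : SL(2, ℤ))
    (x y : ZMod M) : actW M γ w x y ∈ ι.range :=
  hw _ _

theorem compSL_smul_yW (w : ZMod M → ZMod M → ℂ) (γ : SL(2, ℤ)) :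
    compSL γ (fun τ => (divC 11)⁻¹ * yW M w τ) = fun τ => (divC 11)⁻¹ * yW M (actW M γ w) τ := by
  funext τ
  have h := congrFun (compSL_yW M w γ) τ
  simp only [compSL_apply] at h ⊢
  rw [h]

theorem actW_of_mem_Gamma (w : ZMod M → ZMod M → ℂ) {γ : SL(2, ℤ)} (hγ : γ ∈ Gamma M) :
    actW M γ w = w := by
  have hγ' : γ⁻¹ ∈ Gamma M := inv_mem hγ
  rw [Gamma_mem] at hγ'
  obtain ⟨h00, h01, h10, h11⟩ := hγ'
  funext x y
  unfold actW
  rw [h00, h01, h10, h11]
  simp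

/-- **Every normalised Eisenstein quotient `C₁₂⁻¹ G_w/Δ` with `E`-rational weight lies in
`iactRing ι M`.** -/
theorem yW_smul_mem_iactRing (ζ : Eˣ) (hζ : Units.map (ι : E →* ℂ) ζ = infRoot 1 M)
    (w : ZMod M → ZMod M → ℂ) (hw : ∀ x y, w x y ∈ ι.range) :
    (fun τ => (divC 11)⁻¹ * yW M w τ) ∈ iactRing ι M := by
  refine ⟨mdifferentiable_const.mul (mdiff_yW M w), fun γ hγ => ?_, fun γ => ?_⟩
  · rw [compSL_smul_yW, actW_of_mem_Gamma w hγ]
  · rw [compSL_smul_yW]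
    exact iactRat_of_mem_coeffSub (infExp_smul_yW _)
      (yWSeries_mem_coeffSub ζ hζ _ (actW_mem_range hw γ))

/-! ### The avatars of the division values -/

theorem typeI_mem_range (a x y : ZMod M) : typeI M a x y ∈ ι.range := by
  unfold typeI
  split_ifs
  · exact ι.range.one_mem
  · exact ι.range.zero_mem

theorem pFun_mem_iactRing (ζ : Eˣ) (hζ : Units.map (ι : E →* ℂ) ζ = infRoot 1 M) (a : ZMod M) :
    pFun M a ∈ iactRing ι M :=
  yW_smul_mem_iactRing ζ hζ (typeI M a) (typeI_mem_range a)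

/-- The avatar of `P_a` as an element of `iactRing ι M`. -/
def pAv (ζ : Eˣ) (hζ : Units.map (ι : E →* ℂ) ζ = infRoot 1 M) (a : ZMod M) : iactRing ι M :=
  ⟨pFun M a, _root_.Fermat.Agent.S48.H668.pFun_mem_iactRing ζ hζ a⟩

variable (ζ : Eˣ) (hζ : Units.map (ι : E →* ℂ) ζ = infRoot 1 M)

@[simp]
theorem coe_pAv (a : ZMod M) : ((pAv ζ hζ a : iactRing ι M) : ℍ → ℂ) = pFun M a := rfl

/-- The `X`-expansion of the avatar is `P_a(X^M)`. -/
theorem iactExp_pAv {a : ZMod M} (ha : a ≠ 0) :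
    iactExp ι M (pAv ζ hζ a) = qExpand E M (divGenC E M a) := by
  apply iactExp_eq
  rw [coeffMap_qExpand, coeffMap_divGenC]
  exact infExp_level (infExp_pFun M ha)

/-- `γ • pAv a = pAv (a · γ₁₁)` for `γ ∈ Γ₀(M)`. -/
theorem smul_pAv {γ : SL(2, ℤ)} (hγ : γ ∈ Gamma0 M) (a : ZMod M) :
    γ • pAv ζ hζ a = pAv ζ hζ (a * ((γ 1 1 : ℤ) : ZMod M)) := by
  apply Subtype.ext
  funext τ
  rw [iact_smul_apply]
  have h := congrFun (compSL_pFun M a γ⁻¹ (inv_mem hγ)) τ
  rw [compSL_apply] at h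
  show pFun M a (γ⁻¹ • τ) = pFun M (a * ((γ 1 1 : ℤ) : ZMod M)) τ
  rw [h]
  congr 3
  rw [Matrix.SpecialLinearGroup.coe_inv, Matrix.adjugate_fin_two]
  rfl

/-! ### `F1 M` inside the avatar field -/

include ζ hζ in
theorem divGen_mem_avatarField {a : ZMod M} (ha : a ≠ 0) :
    coeffEmb E (divGen M a) ∈ avatarField ι M := by
  have e : coeffEmb E (divGen M a) = divGenC E M a := coeffMap_divGenC (algebraMap ℚ E) M a
  rw [e]
  exact mem_avatarField_of_ring (pAv ζ hζ a) (iactExp_pAv ζ hζ ha)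

include ζ hζ in
theorem jqd_mem_avatarField {d : ℕ} [NeZero d] (hd : d ∣ M) :
    coeffEmb E (qExpand ℚ d jq) ∈ avatarField ι M := by
  rw [← qExpand_coeffEmb]
  exact ⟨iactFJd ζ hζ d hd, iactFieldExp_Jd ζ hζ d hd⟩

include ζ hζ in
/-- **Every element of `F1 M` has an avatar in the full-level field.** -/
theorem coeffEmb_mem_avatarField_F1 :
    ∀ x ∈ F1 M, coeffEmb E x ∈ avatarField ι M := by
  refine coeffEmb_mem_avatarField_of_adjoin (divisorExpansions M ∪ divGens M) ?_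
  rintro s (⟨d, hd0, hd, rfl⟩ | ⟨a, ha, rfl⟩)
  · exact jqd_mem_avatarField ζ hζ hd
  · exact divGen_mem_avatarField ζ hζ ha

/-- **The bridge** `E · F1 M →+* IActField ι M`, `f(q) ↦ f(X^M)`. -/
def f1Emb : F1L E M →+* IActField ι M :=
  baseChangeEmb ι M (F1 M) (coeffEmb_mem_avatarField_F1 ζ hζ)

@[simp]
theorem iactFieldExp_f1Emb (f : F1L E M) :
    iactFieldExp ι M (f1Emb ζ hζ f) = qExpand E M (f : LaurentSeries E) :=
  iactFieldExp_baseChangeEmb _ _ f

theorem f1Emb_eq_iff (f : F1L E M) (y : IActField ι M) :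
    f1Emb ζ hζ f = y ↔ iactFieldExp ι M y = qExpand E M (f : LaurentSeries E) :=
  baseChangeEmb_eq_iff _ _ f y

theorem f1Emb_injective : Function.Injective (f1Emb ζ hζ) :=
  (f1Emb ζ hζ).injective

theorem f1Emb_algebraMap (c : E) : f1Emb ζ hζ (algebraMap E (F1L E M) c) = iactFC ι M c :=
  baseChangeEmb_algebraMap _ _ c

theorem f1Emb_divGen {a : ZMod M} (ha : a ≠ 0) (x : F1L E M)
    (hx : (x : LaurentSeries E) = coeffEmb E (divGen M a)) :
    f1Emb ζ hζ x = algebraMap (iactRing ι M) (IActField ι M) (pAv ζ hζ a) := by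
  rw [f1Emb_eq_iff, iactFieldExp_algebraMap, iactExp_pAv ζ hζ ha, hx]
  congr 1
  exact (coeffMap_divGenC (algebraMap ℚ E) M a).symm

theorem f1Emb_jqd {d : ℕ} [NeZero d] (hd : d ∣ M) (x : F1L E M)
    (hx : (x : LaurentSeries E) = coeffEmb E (qExpand ℚ d jq)) :
    f1Emb ζ hζ x = iactFJd ζ hζ d hd := by
  rw [f1Emb_eq_iff, iactFieldExp_Jd, hx, qExpand_coeffEmb]

/-! ### Diamonds = the action of `Γ₀(M)` -/

omit [CharZero E] [NeZero M] in
/-- Ring homomorphisms out of `E · F1 M` are determined on the constants and on the generators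
`j(q^d)`, `P_a`. -/
theorem f1L_ringHom_ext [Algebra ℚ E] {R : Type*} [DivisionRing R] (f g : F1L E M →+* R)
    (hL : ∀ a : E, f (algebraMap E _ a) = g (algebraMap E _ a))
    (hJ : ∀ (d : ℕ) [NeZero d] (hd : d ∣ M),
      f ⟨coeffEmb E (qExpand ℚ d jq), coeffEmb_mem_laurentBaseChange E (jqd_mem_F1 M hd)⟩ =
      g ⟨coeffEmb E (qExpand ℚ d jq), coeffEmb_mem_laurentBaseChange E (jqd_mem_F1 M hd)⟩)
    (hP : ∀ (a : ZMod M) (ha : a ≠ 0),
      f ⟨coeffEmb E (divGen M a), coeffEmb_mem_laurentBaseChange E (divGen_mem_F1 M ha)⟩ =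
      g ⟨coeffEmb E (divGen M a), coeffEmb_mem_laurentBaseChange E (divGen_mem_F1 M ha)⟩) :
    f = g :=
  lbc_ringHom_ext (L := E) (S := divisorExpansions M ∪ divGens M) f g hL (by
    rintro z (⟨d, hd0, hd, rfl⟩ | ⟨a, ha, rfl⟩)
    · exact hJ d hd
    · exact hP a ha)

/-- **Diamond operators are the action of `Γ₀(M)`**: if `γ ∈ Γ₀(M)` has lower right entry `≡ d`
and `σ` is the diamond automorphism of `d` (`P_a ↦ P_{da}`), then `γ • f1Emb f = f1Emb (σ f)`. -/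
theorem smul_f1Emb {γ : SL(2, ℤ)} (hγ : γ ∈ Gamma0 M) (d : (ZMod M)ˣ)
    (hd : (d : ZMod M) = ((γ 1 1 : ℤ) : ZMod M)) (σ : F1L E M ≃ₐ[E] F1L E M)
    (hσ : IsDiamond E M d σ) (f : F1L E M) :
    γ • f1Emb ζ hζ f = f1Emb ζ hζ (σ f) := by
  have key := f1L_ringHom_ext
    (((MulSemiringAction.toRingHom SL(2, ℤ) (IActField ι M) γ)).comp (f1Emb ζ hζ))
    ((f1Emb ζ hζ).comp (σ : F1L E M →+* F1L E M)) ?_ ?_ ?_
  · exact congrArg (fun φ => φ f) key
  · intro a
    simp only [RingHom.comp_apply, MulSemiringAction.toRingHom_apply, RingHom.coe_coe,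
      AlgEquiv.commutes]
    rw [f1Emb_algebraMap]
    exact iactG_fix_C _ ⟨γ, rfl⟩ a
  · intro d' _ hd'
    simp only [RingHom.comp_apply, MulSemiringAction.toRingHom_apply, RingHom.coe_coe]
    have hmem : coeffEmb E (qExpand ℚ d' jq) ∈
        laurentBaseChange E (modularFunctionFieldFull M) :=
      coeffEmb_mem_laurentBaseChange E
        (IntermediateField.subset_adjoin ℚ _ (mem_divisorExpansions M hd'))
    rw [hσ.1 _ hmem, f1Emb_jqd ζ hζ hd' _ rfl, iactFJd, iact_smul_algebraMap,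
      iact_smul_Jd_of_mem_Gamma0 ζ hζ hγ]
  · intro a ha
    simp only [RingHom.comp_apply, MulSemiringAction.toRingHom_apply, RingHom.coe_coe]
    have hda : (d : ZMod M) * a ≠ 0 := fun h0 => ha (by
      have := congrArg (fun t => ((d⁻¹ : (ZMod M)ˣ) : ZMod M) * t) h0
      simpa using this)
    have hσa := hσ.2 a
      ⟨coeffEmb E (divGen M a), coeffEmb_mem_laurentBaseChange E (divGen_mem_F1 M ha)⟩
      ⟨coeffEmb E (divGen M ((d : ZMod M) * a)),
        coeffEmb_mem_laurentBaseChange E (divGen_mem_F1 M hda)⟩ ha rfl rfl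
    rw [f1Emb_divGen ζ hζ ha _ rfl, hσa, f1Emb_divGen ζ hζ hda _ rfl, iact_smul_algebraMap,
      smul_pAv ζ hζ hγ, ← hd, mul_comm]

end Fermat.Agent.S48.H668

end
end
-- ===== PACK-END S48/H668/F1Avatar.lean

-- ===== PACK-BEGIN S48/H668/F1Bd.lean
section



/-!
# S48 / Tower A1 / A1-RED leaf R4b2 (helper668): the image of `E · F1 M` in the full-level
field has bounded denominators at every cusp

`E` a field of characteristic `0` with `ι : E →+* ℂ`, `ζ ∈ Eˣ`, `ι ζ = e^{2πi/M}`, `𝒪` a discrete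
valuation subring of `E` with uniformiser `w₀`.

* `isInt_smul_iactJd`       : every `SL₂(ℤ)`-translate of `j(dτ)`, `d ∣ M`, has an `𝒪`-INTEGRAL
                              `X`-expansion (`= jq(ζ^k X^n)`);
* `iactFJd_mem_iactBd`, `iactF0_le_iactBd` : `E(j(dτ) : d ∣ M) ≤ H856.iactBd`;
* `lbc_mem_induction`       : generic induction principle for `laurentBaseChange L (adjoin ℚ S)`;
* `f1Emb_mem_iactBd`        : **`f1Emb (E · F1 M) ≤ H856.iactBd`**;
* `f1Emb_diamond_mem_gaussRing` : **the diamond automorphisms of `E · F1 M` preserve the Gauss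
                              valuation ring** (given the `q`-expansion principle `qep0` of the base
                              `X₀(M)`, hypothesis of `H856.iact_stable`).
-/

set_option autoImplicit false
set_option linter.unusedSectionVars false

noncomputable section

open ModularCurve HahnSeries UpperHalfPlane CongruenceSubgroup
open scoped MatrixGroups Manifold

namespace Fermat.Agent.S48.H668

open Fermat.Agent.S24 Fermat.Agent.S24.H997 Fermat.Agent.S24.H624 Fermat.Agent.S20.L1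
open Fermat.Agent.S28 Fermat.Agent.S28.H748
open Fermat.Agent.S48.H76 Fermat.Agent.S48.H828 Fermat.Agent.S48.H648 Fermat.Agent.S48.F1
open Fermat.Agent.S48.H856 Fermat.Agent.S18.Alg

/-! ### A generic induction principle -/

/-- A ring homomorphism from `L · ℚ(S)` to a field maps into a subfield `K` as soon as it maps the
constants and the generators into `K`. -/
theorem lbc_mem_induction {L : Type*} [Field L] [Algebra ℚ L] {S : Set (LaurentSeries ℚ)}
    {R : Type*} [Field R]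
    (φ : laurentBaseChange L (IntermediateField.adjoin ℚ S) →+* R) (K : Subfield R)
    (hL : ∀ a : L, φ (algebraMap L _ a) ∈ K)
    (hS : ∀ (z : LaurentSeries ℚ) (hz : z ∈ S),
      φ ⟨coeffEmb L z, coeffEmb_mem_laurentBaseChange L (IntermediateField.subset_adjoin ℚ S hz)⟩
        ∈ K)
    (f : laurentBaseChange L (IntermediateField.adjoin ℚ S)) : φ f ∈ K := by
  have key : ∀ (z : LaurentSeries ℚ) (hz : z ∈ IntermediateField.adjoin ℚ S),
      φ ⟨coeffEmb L z, coeffEmb_mem_laurentBaseChange L hz⟩ ∈ K := by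
    intro z hz
    induction hz using IntermediateField.adjoin_induction with
    | mem x hx => exact hS x hx
    | algebraMap q =>
        have h1 : (⟨coeffEmb L (algebraMap ℚ (LaurentSeries ℚ) q),
            coeffEmb_mem_laurentBaseChange L
              ((IntermediateField.adjoin ℚ S).algebraMap_mem q)⟩ :
              laurentBaseChange L (IntermediateField.adjoin ℚ S))
            = algebraMap L _ (algebraMap ℚ L q) :=
          Subtype.ext (coeffEmb_algebraMap q)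
        rw [h1]
        exact hL _
    | add x y hx hy ihx ihy =>
        have h1 : (⟨coeffEmb L (x + y), coeffEmb_mem_laurentBaseChange L (add_mem hx hy)⟩ :
            laurentBaseChange L (IntermediateField.adjoin ℚ S))
            = ⟨coeffEmb L x, coeffEmb_mem_laurentBaseChange L hx⟩
              + ⟨coeffEmb L y, coeffEmb_mem_laurentBaseChange L hy⟩ :=
          Subtype.ext (map_add (coeffEmb L) x y)
        rw [h1, map_add]
        exact K.add_mem ihx ihy
    | inv x hx ihx =>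
        have h1 : (⟨coeffEmb L x⁻¹, coeffEmb_mem_laurentBaseChange L (inv_mem hx)⟩ :
            laurentBaseChange L (IntermediateField.adjoin ℚ S))
            = (⟨coeffEmb L x, coeffEmb_mem_laurentBaseChange L hx⟩ :
                laurentBaseChange L (IntermediateField.adjoin ℚ S))⁻¹ :=
          Subtype.ext (map_inv₀ (coeffEmb L) x)
        rw [h1, map_inv₀]
        exact K.inv_mem ihx
    | mul x y hx hy ihx ihy =>
        have h1 : (⟨coeffEmb L (x * y), coeffEmb_mem_laurentBaseChange L (mul_mem hx hy)⟩ :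
            laurentBaseChange L (IntermediateField.adjoin ℚ S))
            = ⟨coeffEmb L x, coeffEmb_mem_laurentBaseChange L hx⟩
              * ⟨coeffEmb L y, coeffEmb_mem_laurentBaseChange L hy⟩ :=
          Subtype.ext (map_mul (coeffEmb L) x y)
        rw [h1, map_mul]
        exact K.mul_mem ihx ihy
  have key2 : ∀ (x : LaurentSeries L)
      (hx : x ∈ laurentBaseChange L (IntermediateField.adjoin ℚ S)), φ ⟨x, hx⟩ ∈ K := by
    intro x hx
    induction hx using IntermediateField.adjoin_induction with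
    | mem x hx =>
        obtain ⟨z, hz, rfl⟩ := hx
        exact key z hz
    | algebraMap a => exact hL a
    | add x y hx hy ihx ihy =>
        have h1 : (⟨x + y, add_mem hx hy⟩ : laurentBaseChange L (IntermediateField.adjoin ℚ S))
            = ⟨x, hx⟩ + ⟨y, hy⟩ := rfl
        rw [h1, map_add]
        exact K.add_mem ihx ihy
    | inv x hx ihx =>
        have h1 : (⟨x⁻¹, inv_mem hx⟩ : laurentBaseChange L (IntermediateField.adjoin ℚ S))
            = (⟨x, hx⟩ : laurentBaseChange L (IntermediateField.adjoin ℚ S))⁻¹ := rfl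
        rw [h1, map_inv₀]
        exact K.inv_mem ihx
    | mul x y hx hy ihx ihy =>
        have h1 : (⟨x * y, mul_mem hx hy⟩ : laurentBaseChange L (IntermediateField.adjoin ℚ S))
            = ⟨x, hx⟩ * ⟨y, hy⟩ := rfl
        rw [h1, map_mul]
        exact K.mul_mem ihx ihy
  exact key2 f.1 f.2

variable {E : Type*} [Field E] [CharZero E] {ι : E →+* ℂ} {M : ℕ} [NeZero M]
variable (ζ : Eˣ) (hζ : Units.map (ι : E →* ℂ) ζ = infRoot 1 M)

/-! ### The translates of `j(dτ)` -/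

include hζ in
/-- The expansion of a translate of `j(dτ)` is `jq(ζ^k X^n)`. -/
theorem exists_infExp_compSL_Jd {d : ℕ} (hd : d ∣ M) (γ : SL(2, ℤ)) :
    ∃ (n : ℕ) (_ : NeZero n) (k : ℤ),
      InfExp M (compSL γ (Jd d))
        (coeffMap ι (qExpand E n (infTwist (ζ ^ k) (coeffEmb E jq)))) := by
  have hM : 0 < M := Nat.pos_of_ne_zero (NeZero.ne M)
  have hd0 : 0 < d := Nat.pos_of_dvd_of_pos hd hM
  obtain ⟨γ', a, d', b, ha, hd', had, h00, h01, h10, h11⟩ := inf_exists_hnf d hd0 γ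
  have hd'M : d' ∣ M := (Dvd.intro_left a had).trans hd
  obtain ⟨c, hc⟩ := hd'M
  have hc0 : 0 < c := by
    rcases Nat.eq_zero_or_pos c with h | h
    · rw [h, mul_zero] at hc; omega
    · exact h
  have hne : NeZero (a * c) := ⟨(Nat.mul_pos ha hc0).ne'⟩
  have h := inf_J_infAff_exp infExp_jFun (e := a * c) (N := M) b ha hd' hM (by rw [hc]; ring)
  refine ⟨a * c, hne, b * c, ?_⟩
  have hroot : Units.map (ι : E →* ℂ) (ζ ^ (b * c)) = infRoot b d' := by
    rw [map_zpow, hζ, iact_infRoot_one_zpow, iact_infRoot_mul b hd' hc0 hc]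
  have hser : coeffMap ι (qExpand E (a * c) (infTwist (ζ ^ (b * c)) (coeffEmb E jq)))
      = infGenExp (a * c) b d' := by
    rw [coeffMap_qExpand, iact_coeffMap_infTwist, iact_coeffMap_coeffEmb, hroot]
    rfl
  rw [hser]
  refine h.congr fun τ => ?_
  show jFun (infAff a b d' τ) = jFun (infAff d 0 1 (γ • τ))
  rw [inf_aff_smul_eq hd0 ha hd' γ γ' h00 h01 h10 h11 τ, jFun_smul']

variable (𝒪 : ValuationSubring E) {w₀ : E}

include hζ in
theorem isInt_twist_jq (n : ℕ) [NeZero n] (k : ℤ) :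
    IsInt 𝒪 (qExpand E n (infTwist (ζ ^ k) (coeffEmb E jq))) := by
  intro m
  by_cases hm : (n : ℤ) ∣ m
  · obtain ⟨r, rfl⟩ := hm
    rw [qExpand_coeff_mul, infTwist_coeff, coeffEmb_coeff]
    refine 𝒪.mul_mem _ _ ?_ ?_
    · obtain ⟨z, hz⟩ := coeff_jq_eq_intCast r
      rw [hz]
      have : algebraMap ℚ E ((z : ℤ) : ℚ) = (z : E) := by simp
      rw [this]
      exact intCast_mem 𝒪 z
    · rw [← zpow_mul]
      exact zeta_zpow_mem ζ hζ 𝒪 _
  · rw [qExpand_coeff_of_not_dvd _ _ hm]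
    exact 𝒪.zero_mem

include hζ in
/-- **Every translate of `j(dτ)` has an integral expansion.** -/
theorem isInt_smul_iactJd (γ : SL(2, ℤ)) {d : ℕ} (hd : d ∣ M) :
    IsInt 𝒪 (iactExp ι M (γ • iactJd ζ hζ d hd)) := by
  obtain ⟨n, hn, k, h⟩ := exists_infExp_compSL_Jd (ι := ι) ζ hζ hd γ⁻¹
  have h1 : InfExp M (compSL γ⁻¹ (Jd d))
      (coeffMap ι (iactExp ι M (γ • iactJd ζ hζ d hd))) := iactExp_spec (γ • iactJd ζ hζ d hd)
  have h2 := inf_coeffMap_injective ι.injective (h.unique h1)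
  rw [← h2]
  exact isInt_twist_jq ζ hζ 𝒪 n k

include hζ in
theorem isBd_smul_iactFJd (_hd : IsDiscrete 𝒪 w₀) (γ : SL(2, ℤ)) {d : ℕ} (hdM : d ∣ M) :
    IsBd 𝒪 (iactFieldExp ι M) (iactFC ι M w₀) (γ • iactFJd ζ hζ d hdM) := by
  refine isBd_of_isInt ?_
  rw [iactFJd, iact_smul_algebraMap, iactFieldExp_algebraMap]
  exact isInt_smul_iactJd ζ hζ 𝒪 γ hdM

include hζ in
/-- `j(dτ)` lies in the field `iactBd` of helper856's concrete `IgusaData`. -/
theorem iactFJd_mem_iactBd (hd : IsDiscrete 𝒪 w₀) {d : ℕ} (hdM : d ∣ M) :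
    iactFJd ζ hζ d hdM ∈ iactBd (ι := ι) (M := M) 𝒪 hd :=
  mem_iactBd_of_isBd 𝒪 hd fun γ => isBd_smul_iactFJd ζ hζ 𝒪 hd γ hdM

include hζ in
/-- `E(j(dτ) : d ∣ M) ≤ iactBd`. -/
theorem iactF0_le_iactBd (hd : IsDiscrete 𝒪 w₀) :
    iactF0 ζ hζ ≤ iactBd (ι := ι) (M := M) 𝒪 hd := by
  rw [iactF0, Subfield.closure_le]
  rintro y (⟨c, rfl⟩ | ⟨d, hdM, rfl⟩)
  · exact iactFC_mem_iactBd 𝒪 hd c
  · exact iactFJd_mem_iactBd ζ hζ 𝒪 hd hdM

/-! ### The image of `E · F1 M` -/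

theorem pAv_eq_iactP (a : ZMod M) : pAv ζ hζ a = iactP ζ hζ a := Subtype.ext rfl

omit [CharZero E] [NeZero M] in
/-- Induction principle for `E · F1 M`: a ring homomorphism to a field maps into a subfield `K`
as soon as it maps the constants and the generators `j(q^d)`, `P_a` into `K`. -/
theorem f1L_mem_induction [Algebra ℚ E] {R : Type*} [Field R] (φ : F1L E M →+* R)
    (K : Subfield R)
    (hL : ∀ a : E, φ (algebraMap E _ a) ∈ K)
    (hJ : ∀ (d : ℕ) [NeZero d] (hd : d ∣ M),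
      φ ⟨coeffEmb E (qExpand ℚ d jq), coeffEmb_mem_laurentBaseChange E (jqd_mem_F1 M hd)⟩ ∈ K)
    (hP : ∀ (a : ZMod M) (ha : a ≠ 0),
      φ ⟨coeffEmb E (divGen M a), coeffEmb_mem_laurentBaseChange E (divGen_mem_F1 M ha)⟩ ∈ K)
    (f : F1L E M) : φ f ∈ K :=
  lbc_mem_induction (L := E) (S := divisorExpansions M ∪ divGens M) φ K hL (by
    rintro z (⟨d, hd0, hd, rfl⟩ | ⟨a, ha, rfl⟩)
    · exact hJ d hd
    · exact hP a ha) f

include hζ in
/-- **R4b2**: the image of `E · F1 M` in the full-level field lies in `iactBd`. -/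
theorem f1Emb_mem_iactBd (hd : IsDiscrete 𝒪 w₀) (f : F1L E M) :
    f1Emb ζ hζ f ∈ iactBd (ι := ι) (M := M) 𝒪 hd := by
  refine f1L_mem_induction (f1Emb ζ hζ) (iactBd (ι := ι) (M := M) 𝒪 hd) ?_ ?_ ?_ f
  · intro a
    rw [f1Emb_algebraMap]
    exact iactFC_mem_iactBd 𝒪 hd a
  · intro d _ hdM
    rw [f1Emb_jqd ζ hζ hdM _ rfl]
    exact iactFJd_mem_iactBd ζ hζ 𝒪 hd hdM
  · intro a ha
    rw [f1Emb_divGen ζ hζ ha _ rfl, pAv_eq_iactP]
    exact iactP_mem_iactBd ζ hζ 𝒪 hd a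

include hζ in
theorem f1Emb_fieldRange_le_iactBd (hd : IsDiscrete 𝒪 w₀) :
    (f1Emb ζ hζ).fieldRange ≤ iactBd (ι := ι) (M := M) 𝒪 hd := by
  rintro _ ⟨f, rfl⟩
  exact f1Emb_mem_iactBd ζ hζ 𝒪 hd f

/-- **G_V in avatar form**: the diamond automorphisms of `E · F1 M` preserve the Gauss valuation
ring of the `X`-expansion (`γ ∈ Γ₀(M)` any matrix with lower right entry `≡ d`). -/
theorem f1Emb_diamond_mem_gaussRing (hd : IsDiscrete 𝒪 w₀)
    (hqep0 : ∀ b ∈ chart (iactF0 ζ hζ) (𝒪.toSubring.map (iactFC ι M)) (iactFJ ι M),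
      b * (iactFC ι M w₀)⁻¹ ∈ gaussRing 𝒪 (iactFieldExp ι M) →
        b * (iactFC ι M w₀)⁻¹ ∈ chart (iactF0 ζ hζ) (𝒪.toSubring.map (iactFC ι M))
          (iactFJ ι M))
    {γ : SL(2, ℤ)} (hγ : γ ∈ Gamma0 M) (d : (ZMod M)ˣ)
    (hdγ : (d : ZMod M) = ((γ 1 1 : ℤ) : ZMod M)) (σ : F1L E M ≃ₐ[E] F1L E M)
    (hσ : IsDiamond E M d σ) (f : F1L E M)
    (hf : f1Emb ζ hζ f ∈ gaussRing 𝒪 (iactFieldExp ι M)) :
    f1Emb ζ hζ (σ f) ∈ gaussRing 𝒪 (iactFieldExp ι M) := by
  rw [← smul_f1Emb ζ hζ hγ d hdγ σ hσ f]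
  exact iact_stable 𝒪 ζ hζ hd hqep0 γ (f1Emb_mem_iactBd ζ hζ 𝒪 hd f) hf

end Fermat.Agent.S48.H668

end
end
-- ===== PACK-END S48/H668/F1Bd.lean

-- ===== PACK-BEGIN S48/H828/IActQep.lean
section





/-!
# S48 / Tower A1 / IGUSA1 (helper828), part 8b: node I-S28 on `IActField` — the field `qep0`

`E` an intermediate field of `Q̄/ℚ`, finite over `ℚ`, containing `ζ_M`; `A` a valuation subring
of `Q̄` above `ℓ ∤ M`.  Coefficient field `↥E`, embedding `ιK ∘ (E ↪ Q̄)`, valuation subring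
`iactO A E = A ∩ E` of `↥E`.

* `iactSig E : ↥E →+* Q̄`, `iactO A E : ValuationSubring ↥E`;
* `iact_exists_isDiscrete` : a uniformiser `w₀` of `A ∩ E` (from S18 `exists_partR`),
  `IsDiscrete (iactO A E) w₀`;
* `iact_F0_map`, `iact_R_map` : the `Γ₀(M)`-field `iactF0` over `E` and the S18 field `Fc M E`
  have the same image in `IActField ιK M` (roof `iactPhi`, `iactFieldMap`);
* `iact_mem_gaussRing_of_mem_Vc` : the S18 Gauss ring `Vc M A E` lands in `gaussRing`;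
* `iact_qep0` : **the hypothesis `hqep0` of `H856.iact_igusaData`, verbatim**;
* `iact_igusaData_closed`, `iact_stable_closed`, `iact_qep_fin_closed` : the conclusions of
  `H856.IgusaConc` without hypotheses.
-/

set_option autoImplicit false
set_option linter.unusedSectionVars false

noncomputable section

open ModularCurve HahnSeries UpperHalfPlane AlgebraicCurve
open scoped MatrixGroups Manifold

namespace Fermat.Agent.S48.H828

open Fermat.Agent.S24 Fermat.Agent.S24.H997 Fermat.Agent.S24.H624 Fermat.Agent.S20.L1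
open Fermat.Agent.S18 Fermat.Agent.S18.Mod Fermat.Agent.S18.Alg Fermat.Agent.S48.H856

/-! ### generalities on valuation subrings -/

theorem iact_valuation_eq_one {K : Type*} [Field K] (𝒪 : ValuationSubring K) {c : K}
    (hc0 : c ≠ 0) (hc : c ∈ 𝒪) (hc' : c⁻¹ ∈ 𝒪) : 𝒪.valuation c = 1 := by
  have h1 : 𝒪.valuation c ≤ 1 := (𝒪.valuation_le_one_iff c).mpr hc
  have h2 : 𝒪.valuation c⁻¹ ≤ 1 := (𝒪.valuation_le_one_iff _).mpr hc'
  have h0 : 𝒪.valuation c ≠ 0 := (Valuation.ne_zero_iff _).mpr hc0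
  rw [map_inv₀, inv_le_one₀ (zero_lt_iff.mpr h0)] at h2
  exact le_antisymm h1 h2

variable (M : ℕ) [NeZero M] (A : ValuationSubring Qb) (E : IntermediateField ℚ Qb)

/-- The inclusion `E → Q̄`. -/
def iactSig : ↥E →+* Qb := algebraMap ↥E Qb

theorem iactSig_apply (c : ↥E) : iactSig E c = (c : Qb) := rfl

/-- `A ∩ E` as a valuation subring of `E`. -/
def iactO : ValuationSubring ↥E := A.comap (iactSig E)

theorem mem_iactO {c : ↥E} : c ∈ iactO A E ↔ (c : Qb) ∈ A := Iff.rfl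

theorem iact_algebraMap_injective : Function.Injective (algebraMap Qb (Om M)) :=
  (algebraMap Qb (Om M)).injective

theorem iact_algebraMap_mem_Rc {c : Qb} :
    algebraMap Qb (Om M) c ∈ Rc M A E ↔ c ∈ A ∧ c ∈ E := by
  constructor
  · rintro ⟨d, hd, hdc⟩
    rw [← iact_algebraMap_injective M hdc]
    exact hd
  · intro h
    exact ⟨c, h, rfl⟩

theorem iact_algebraMap_mem_Ec {c : Qb} :
    algebraMap Qb (Om M) c ∈ Ec M E ↔ c ∈ E := by
  constructor
  · rintro ⟨d, hd, hdc⟩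
    rw [← iact_algebraMap_injective M hdc]
    exact hd
  · intro h
    exact ⟨c, h, rfl⟩

/-- From the S18 field `G-R`: a uniformiser of `A ∩ E` in `↥E`. -/
theorem iact_isDiscrete_of_partR {w : Om M} (hR : Mod.H216.PartR (Ec M E) (Rc M A E) w) :
    ∃ w₀ : ↥E, algebraMap Qb (Om M) (w₀ : Qb) = w ∧ IsDiscrete (iactO A E) w₀ := by
  obtain ⟨c, ⟨hcA, hcE⟩, hcw⟩ := hR.w_mem
  have hc0 : c ≠ 0 := by
    rintro rfl
    rw [map_zero] at hcw
    exact hR.w_ne_zero hcw.symm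
  refine ⟨⟨c, hcE⟩, hcw, ?_, ?_, ?_⟩
  · -- valuation < 1
    have hle : (iactO A E).valuation ⟨c, hcE⟩ ≤ 1 :=
      ((iactO A E).valuation_le_one_iff _).mpr hcA
    refine lt_of_le_of_ne hle fun h1 => ?_
    have h2 : (iactO A E).valuation (⟨c, hcE⟩ : ↥E)⁻¹ ≤ 1 := by
      rw [map_inv₀, h1, inv_one]
    have h3 : (⟨c, hcE⟩ : ↥E)⁻¹ ∈ iactO A E := ((iactO A E).valuation_le_one_iff _).mp h2
    have h4 : c⁻¹ ∈ A := by
      have := (mem_iactO A E).mp h3
      simpa using this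
    apply hR.w_inv_not_mem
    rw [← hcw, ← map_inv₀]
    exact (iact_algebraMap_mem_Rc M A E).mpr ⟨h4, E.inv_mem hcE⟩
  · intro h
    exact hc0 (congrArg Subtype.val h)
  · -- discreteness
    have key : ∀ y : ↥E, y ≠ 0 → y ∈ iactO A E →
        ∃ n : ℕ, (iactO A E).valuation y = (iactO A E).valuation ⟨c, hcE⟩ ^ n := by
      intro y hy hyO
      have hr : algebraMap Qb (Om M) (y : Qb) ∈ Rc M A E :=
        (iact_algebraMap_mem_Rc M A E).mpr ⟨hyO, y.2⟩
      have hr0 : algebraMap Qb (Om M) (y : Qb) ≠ 0 := by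
        rw [Ne, map_eq_zero]
        exact fun h => hy (Subtype.ext h)
      obtain ⟨n, hn1, hn2⟩ := hR.w_discrete _ hr hr0
      have e1 : algebraMap Qb (Om M) (y : Qb) * w⁻¹ ^ n
          = algebraMap Qb (Om M) ((y : Qb) * c⁻¹ ^ n) := by
        rw [map_mul, map_pow, map_inv₀, hcw]
      rw [e1] at hn1 hn2
      rw [← map_inv₀] at hn2
      have h1 := ((iact_algebraMap_mem_Rc M A E).mp hn1).1
      have h2 := ((iact_algebraMap_mem_Rc M A E).mp hn2).1
      set u : ↥E := y * (⟨c, hcE⟩ : ↥E)⁻¹ ^ n with hu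
      have hu_val : (u : Qb) = (y : Qb) * c⁻¹ ^ n := by
        rw [hu]; push_cast; rfl
      have hw0 : (⟨c, hcE⟩ : ↥E) ≠ 0 := fun h => hc0 (congrArg Subtype.val h)
      have hu0 : u ≠ 0 := mul_ne_zero hy (pow_ne_zero n (inv_ne_zero hw0))
      have huO : u ∈ iactO A E := by
        rw [mem_iactO, hu_val]; exact h1
      have huO' : u⁻¹ ∈ iactO A E := by
        rw [mem_iactO]
        have : ((u⁻¹ : ↥E) : Qb) = ((y : Qb) * c⁻¹ ^ n)⁻¹ := by
          push_cast; rw [hu_val]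
        rw [this]; exact h2
      have hv := iact_valuation_eq_one (iactO A E) hu0 huO huO'
      have hvw : (iactO A E).valuation ⟨c, hcE⟩ ≠ 0 := (Valuation.ne_zero_iff _).mpr hw0
      refine ⟨n, ?_⟩
      rw [hu, map_mul, map_pow, map_inv₀] at hv
      rw [inv_pow] at hv
      exact (mul_inv_eq_one₀ (pow_ne_zero n hvw)).mp hv
    intro y hy
    rcases (iactO A E).mem_or_inv_mem y with h | h
    · obtain ⟨n, hn⟩ := key y hy h
      exact ⟨n, by rw [hn, zpow_natCast]⟩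
    · obtain ⟨n, hn⟩ := key y⁻¹ (inv_ne_zero hy) h
      refine ⟨-(n : ℤ), ?_⟩
      rw [map_inv₀] at hn
      rw [zpow_neg, zpow_natCast, ← hn, inv_inv]

variable {M A E}

/-! ### the roof `Om M --iactPhi--> IActField ιK M <--iactFieldMap-- IActField (ιK ∘ σ) M` -/

variable (ζ : (↥E)ˣ)
  (hζ : Units.map ((ιK.comp (iactSig E) : ↥E →+* ℂ) : ↥E →* ℂ) ζ = infRoot 1 M)

theorem iact_theta_C (c : ↥E) :
    iactFieldMap (iactSig E) ιK M (iactFC (ιK.comp (iactSig E)) M c)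
      = iactPhi M (algebraMap Qb (Om M) (c : Qb)) := by
  rw [iactPhi_algebraMap, iactFieldMap_C]
  rfl

theorem iact_theta_Jd (d : ℕ) [NeZero d] (hd : d ∣ M) :
    iactFieldMap (iactSig E) ιK M (iactFJd ζ hζ d hd) = iactPhi M (jd M d hd) := by
  rw [iactPhi_jd, iactFieldMap_Jd]
  rfl

theorem iact_theta_J :
    iactFieldMap (iactSig E) ιK M (iactFJ (ιK.comp (iactSig E)) M) = iactPhi M (jOm M) := by
  rw [iactPhi_jOm, iactFieldMap_J]

/-- The `Γ₀(M)`-field over `E` and the S18 field `Fc M E` have the same image. -/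
theorem iact_F0_map :
    (iactF0 ζ hζ).map (iactFieldMap (iactSig E) ιK M) = (Fc M E).map (iactPhi M) := by
  have hM : M ≠ 0 := NeZero.ne M
  unfold iactF0 Fc
  rw [RingHom.map_field_closure, RingHom.map_field_closure]
  apply le_antisymm
  · rw [Subfield.closure_le]
    rintro y ⟨x, hx | hx, rfl⟩
    · obtain ⟨c, rfl⟩ := hx
      apply Subfield.subset_closure
      exact ⟨algebraMap Qb (Om M) (c : Qb), Or.inl ((iact_algebraMap_mem_Ec M E).mpr c.2),
        (iact_theta_C c).symm⟩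
    · obtain ⟨d, hd, rfl⟩ := hx
      have hd0 : NeZero d := ⟨fun h => hM (by rw [h] at hd; exact Nat.eq_zero_of_zero_dvd hd)⟩
      apply Subfield.subset_closure
      exact ⟨jd M d hd, Or.inr ⟨d, inferInstance, hd, rfl⟩, (iact_theta_Jd ζ hζ d hd).symm⟩
  · rw [Subfield.closure_le]
    rintro y ⟨x, hx | hx, rfl⟩
    · obtain ⟨c, hc, rfl⟩ := hx
      apply Subfield.subset_closure
      exact ⟨iactFC (ιK.comp (iactSig E)) M ⟨c, hc⟩, Or.inl ⟨_, rfl⟩, iact_theta_C ⟨c, hc⟩⟩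
    · obtain ⟨d, hd0, hd, rfl⟩ := hx
      apply Subfield.subset_closure
      exact ⟨iactFJd ζ hζ d hd, Or.inr ⟨d, hd, rfl⟩, iact_theta_Jd ζ hζ d hd⟩

/-- The rings of constants `A ∩ E` have the same image. -/
theorem iact_R_map :
    (((iactO A E).toSubring.map (iactFC (ιK.comp (iactSig E)) M)).map
      (iactFieldMap (iactSig E) ιK M)) = (Rc M A E).map (iactPhi M) := by
  ext y
  constructor
  · rintro ⟨x, ⟨c, hc, rfl⟩, rfl⟩
    exact ⟨algebraMap Qb (Om M) (c : Qb), (iact_algebraMap_mem_Rc M A E).mpr ⟨hc, c.2⟩,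
      (iact_theta_C c).symm⟩
  · rintro ⟨x, ⟨c, ⟨hcA, hcE⟩, rfl⟩, rfl⟩
    exact ⟨iactFC (ιK.comp (iactSig E)) M ⟨c, hcE⟩, ⟨⟨c, hcE⟩, hcA, rfl⟩, iact_theta_C ⟨c, hcE⟩⟩

/-- Every element of `Fc M E` has a (unique) preimage in `iactF0`. -/
theorem iact_exists_of_mem_Fc {f : Om M} (hf : f ∈ Fc M E) :
    ∃ g ∈ iactF0 ζ hζ, iactFieldMap (iactSig E) ιK M g = iactPhi M f := by
  have h1 : iactPhi M f ∈ (Fc M E).map (iactPhi M) := ⟨f, hf, rfl⟩
  rw [← iact_F0_map ζ hζ] at h1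
  obtain ⟨g, hg, hgf⟩ := h1
  exact ⟨g, hg, hgf⟩

/-- The coefficients of the expansion of an element over `E`, in terms of the `q`-series. -/
theorem iact_coeff_of_roof {f : Om M} {g : IActField (ιK.comp (iactSig E)) M}
    (hg : iactFieldMap (iactSig E) ιK M g = iactPhi M f) :
    coeffMap (iactSig E) (iactFieldExp (ιK.comp (iactSig E)) M g)
      = qExpand Qb M (f : LaurentSeries Qb) := by
  rw [← iactFieldExp_map, hg, iactFieldExp_phi]

theorem iact_isInt_of_roof {f : Om M} {g : IActField (ιK.comp (iactSig E)) M}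
    (hg : iactFieldMap (iactSig E) ιK M g = iactPhi M f) {U : LaurentSeries A}
    (hU : (f : LaurentSeries Qb) = coeffMap A.subtype U) :
    _root_.Fermat.Agent.S48.H856.IsInt (iactO A E) (iactFieldExp (ιK.comp (iactSig E)) M g) := by
  intro k
  have h := congrArg (fun s : LaurentSeries Qb => s.coeff k) (iact_coeff_of_roof hg)
  simp only [coeffMap_coeff] at h
  show iactSig E _ ∈ A
  rw [h, hU]
  by_cases hk : (M : ℤ) ∣ k
  · obtain ⟨m, rfl⟩ := hk
    rw [qExpand_coeff_mul, coeffMap_coeff]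
    exact (U.coeff m).2
  · rw [qExpand_coeff_of_not_dvd M _ hk]
    exact A.zero_mem

theorem iact_isPrim_of_roof {f : Om M} {g : IActField (ιK.comp (iactSig E)) M}
    (hg : iactFieldMap (iactSig E) ιK M g = iactPhi M f) {U : LaurentSeries A}
    (hU : (f : LaurentSeries Qb) = coeffMap A.subtype U)
    (hne : coeffMap (IsLocalRing.residue A) U ≠ 0) :
    IsPrim (iactO A E) (iactFieldExp (ιK.comp (iactSig E)) M g) := by
  refine ⟨iact_isInt_of_roof hg hU, ?_⟩
  have h1 : ∃ n : ℤ, IsLocalRing.residue A (U.coeff n) ≠ 0 := by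
    by_contra hcon
    simp only [not_exists, not_not] at hcon
    apply hne
    ext n
    rw [coeffMap_coeff, hcon n, HahnSeries.coeff_zero]
  obtain ⟨n, hn⟩ := h1
  have hunit : IsUnit (U.coeff n) := by
    by_contra hnu
    exact hn ((IsLocalRing.residue_eq_zero_iff _).mpr ((IsLocalRing.mem_maximalIdeal _).mpr hnu))
  refine ⟨(M : ℤ) * n, ?_⟩
  have h := congrArg (fun s : LaurentSeries Qb => s.coeff ((M : ℤ) * n)) (iact_coeff_of_roof hg)
  simp only [coeffMap_coeff] at h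
  rw [hU, qExpand_coeff_mul, coeffMap_coeff] at h
  set c := (iactFieldExp (ιK.comp (iactSig E)) M g).coeff ((M : ℤ) * n) with hc
  have hcv : (c : Qb) = ((U.coeff n : A) : Qb) := h
  have hu0 : ((U.coeff n : A) : Qb) ≠ 0 := by
    intro h0
    have : U.coeff n = 0 := Subtype.ext h0
    rw [this] at hunit
    exact not_isUnit_zero hunit
  have hc0 : c ≠ 0 := by
    intro h0
    rw [h0] at hcv
    exact hu0 hcv.symm
  have hcO : c ∈ iactO A E := by
    rw [mem_iactO, hcv]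
    exact (U.coeff n).2
  have hcO' : c⁻¹ ∈ iactO A E := by
    rw [mem_iactO]
    have : ((c⁻¹ : ↥E) : Qb) = (((U.coeff n : A) : Qb))⁻¹ := by
      push_cast; rw [hcv]
    rw [this]
    obtain ⟨v, hv⟩ := hunit
    have hv1 : ((v⁻¹ : Aˣ) : A) * U.coeff n = 1 := by rw [← hv]; exact v.inv_mul
    have hv2 : (((v⁻¹ : Aˣ) : A) : Qb) * ((U.coeff n : A) : Qb) = 1 := by
      have := congrArg (fun a : A => (a : Qb)) hv1
      simpa using this
    rw [← eq_inv_of_mul_eq_one_left hv2]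
    exact ((v⁻¹ : Aˣ) : A).2
  exact iact_valuation_eq_one (iactO A E) hc0 hcO hcO'

include ζ hζ in
/-- **Easy inclusion**: the S18 Gauss ring of `Fc M E` lands in the Gauss ring of
`IActField` over `E`. -/
theorem iact_mem_gaussRing_of_mem_Vc {f : Om M} (hf : f ∈ Mod.H216.Vc M A E)
    {g : IActField (ιK.comp (iactSig E)) M}
    (hg : iactFieldMap (iactSig E) ιK M g = iactPhi M f) :
    g ∈ gaussRing (iactO A E) (iactFieldExp (ιK.comp (iactSig E)) M) := by
  obtain ⟨-, U₁, U₂, ⟨-, f₁, hf₁, hf₁U⟩, ⟨-, f₂, hf₂, hf₂U⟩, hne, heq⟩ := hf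
  have hmul : f * f₂ = f₁ := by
    apply Subtype.ext
    show (f : LaurentSeries Qb) * (f₂ : LaurentSeries Qb) = (f₁ : LaurentSeries Qb)
    rw [hf₁U, hf₂U]
    exact heq
  obtain ⟨g₁, -, hg₁⟩ := iact_exists_of_mem_Fc ζ hζ hf₁
  obtain ⟨g₂, -, hg₂⟩ := iact_exists_of_mem_Fc ζ hζ hf₂
  refine ⟨g₁, g₂, iact_isInt_of_roof hg₁ hf₁U, iact_isPrim_of_roof hg₂ hf₂U hne, ?_⟩
  apply (iactFieldMap (iactSig E) ιK M).injective
  rw [map_mul, hg, hg₁, hg₂, ← map_mul, hmul]

/-! ### I-S28: the hypothesis `qep0` -/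

/-- **I-S28 on `IActField`**: the hypothesis `hqep0` of `H856.iact_igusaData`, for every
uniformiser coming from the S18 field `G-R`. -/
theorem iact_qep0_of_partR {ℓ : ℕ} [Fact ℓ.Prime] (hℓM : ¬ ℓ ∣ M) (hA : A.LiesOverPrime ℓ)
    [FiniteDimensional ℚ E] {w : Om M} (hR : Mod.H216.PartR (Ec M E) (Rc M A E) w)
    {w₀ : ↥E} (hw : algebraMap Qb (Om M) (w₀ : Qb) = w) (hd : IsDiscrete (iactO A E) w₀) :
    ∀ b ∈ chart (iactF0 ζ hζ)
        ((iactO A E).toSubring.map (iactFC (ιK.comp (iactSig E)) M))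
        (iactFJ (ιK.comp (iactSig E)) M),
      b * (iactFC (ιK.comp (iactSig E)) M w₀)⁻¹
          ∈ gaussRing (iactO A E) (iactFieldExp (ιK.comp (iactSig E)) M) →
        b * (iactFC (ιK.comp (iactSig E)) M w₀)⁻¹
          ∈ chart (iactF0 ζ hζ)
            ((iactO A E).toSubring.map (iactFC (ιK.comp (iactSig E)) M))
            (iactFJ (ιK.comp (iactSig E)) M) := by
  have hb := H24.baseModel_j M A E hℓM hA hR
  refine iact_qep_roof (iactPhi M) (iactFieldMap (iactSig E) ιK M) (iact_F0_map ζ hζ)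
    iact_R_map iact_theta_J ?_ (hb.E_le_F (hb.R_le hb.w_mem)) hb.V_total hb.V_gen
    (fun f hf g hg => iact_mem_gaussRing_of_mem_Vc ζ hζ hf hg)
    (iact_gaussHyp (ι := ιK.comp (iactSig E)) (M := M) (iactO A E) hd).w_inv_notMem hb.qep_fin
  rw [iact_theta_C, hw]

/-- **I-S28 on `IActField`**, existential form: there is a uniformiser `w₀` of `A ∩ E` for which
the hypothesis `hqep0` of `H856.iact_igusaData` holds. -/
theorem iact_qep0 {ℓ : ℕ} [Fact ℓ.Prime] (hℓM : ¬ ℓ ∣ M) (hA : A.LiesOverPrime ℓ)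
    [FiniteDimensional ℚ E] :
    ∃ w₀ : ↥E, ∃ _ : IsDiscrete (iactO A E) w₀,
      ∀ b ∈ chart (iactF0 ζ hζ)
          ((iactO A E).toSubring.map (iactFC (ιK.comp (iactSig E)) M))
          (iactFJ (ιK.comp (iactSig E)) M),
        b * (iactFC (ιK.comp (iactSig E)) M w₀)⁻¹
            ∈ gaussRing (iactO A E) (iactFieldExp (ιK.comp (iactSig E)) M) →
          b * (iactFC (ιK.comp (iactSig E)) M w₀)⁻¹
            ∈ chart (iactF0 ζ hζ)
              ((iactO A E).toSubring.map (iactFC (ιK.comp (iactSig E)) M))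
              (iactFJ (ιK.comp (iactSig E)) M) := by
  obtain ⟨w, hR⟩ := H24.exists_partR M A E (Fact.out : ℓ.Prime) hA
  obtain ⟨w₀, hw, hd⟩ := iact_isDiscrete_of_partR M A E hR
  exact ⟨w₀, hd, iact_qep0_of_partR ζ hζ hℓM hA hR hw hd⟩

/-! ### the conclusions of `H856.IgusaConc`, without hypotheses -/

/-- **IGUSA1, closed form**: there is a uniformiser `w₀` of `A ∩ E` such that the concrete
`IgusaData` on `IActField` over `E` holds. -/
theorem iact_igusaData_closed {ℓ : ℕ} [Fact ℓ.Prime] (hℓM : ¬ ℓ ∣ M) (hA : A.LiesOverPrime ℓ)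
    [FiniteDimensional ℚ E] :
    ∃ w₀ : ↥E, ∃ hd : IsDiscrete (iactO A E) w₀,
      IgusaData (iactFC (ιK.comp (iactSig E)) M).fieldRange (iactF0 ζ hζ)
        (iactBd (ι := ιK.comp (iactSig E)) (M := M) (iactO A E) hd)
        ((iactO A E).toSubring.map (iactFC (ιK.comp (iactSig E)) M))
        (gaussRing (iactO A E) (iactFieldExp (ιK.comp (iactSig E)) M))
        (iactFC (ιK.comp (iactSig E)) M w₀) (iactFJ (ιK.comp (iactSig E)) M)
        (iactG (ιK.comp (iactSig E)) M) (iactB (ιK.comp (iactSig E)) M)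
        (iactT (ιK.comp (iactSig E)) M) := by
  obtain ⟨w₀, hd, hq⟩ := iact_qep0 ζ hζ hℓM hA
  exact ⟨w₀, hd, iact_igusaData (iactO A E) ζ hζ hd hq⟩

include ζ hζ in
/-- **IGUSA1, stability, closed form**: the Gauss ring of `IActField` over `E` is stable under
`SL₂(ℤ)` on the elements with bounded denominators. -/
theorem iact_stable_closed {ℓ : ℕ} [Fact ℓ.Prime] (hℓM : ¬ ℓ ∣ M) (hA : A.LiesOverPrime ℓ)
    [FiniteDimensional ℚ E] :
    ∃ w₀ : ↥E, ∃ hd : IsDiscrete (iactO A E) w₀,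
      ∀ (γ : SL(2, ℤ)) (f : IActField (ιK.comp (iactSig E)) M),
        f ∈ iactBd (ι := ιK.comp (iactSig E)) (M := M) (iactO A E) hd →
        f ∈ gaussRing (iactO A E) (iactFieldExp (ιK.comp (iactSig E)) M) →
        γ • f ∈ gaussRing (iactO A E) (iactFieldExp (ιK.comp (iactSig E)) M) := by
  obtain ⟨w₀, hd, hq⟩ := iact_qep0 ζ hζ hℓM hA
  exact ⟨w₀, hd, fun γ f hf hfV => iact_stable (iactO A E) ζ hζ hd hq γ hf hfV⟩

/-! ### the root of unity -/

/-- If `E ∋ ζ_M` then `↥E` carries the root of unity required by `H856.IgusaConc`. -/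
theorem iact_exists_zeta_of_mem (M : ℕ) [NeZero M] (E : IntermediateField ℚ Qb)
    (h : ((iactZeta M : Qbˣ) : Qb) ∈ E) :
    ∃ ζ : (↥E)ˣ,
      Units.map ((ιK.comp (iactSig E) : ↥E →+* ℂ) : ↥E →* ℂ) ζ = infRoot 1 M := by
  have h0 : (⟨((iactZeta M : Qbˣ) : Qb), h⟩ : ↥E) ≠ 0 := by
    intro h1
    exact (iactZeta M).ne_zero (congrArg Subtype.val h1)
  refine ⟨Units.mk0 _ h0, ?_⟩
  rw [← iactZeta_spec M]
  exact Units.ext rfl

/-- Every finite set of algebraic numbers lies in a number field containing `ζ_M`. -/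
theorem iact_exists_field (M : ℕ) [NeZero M] (T : Finset Qb) :
    ∃ E : IntermediateField ℚ Qb, FiniteDimensional ℚ E ∧ (∀ a ∈ T, a ∈ E) ∧
      ((iactZeta M : Qbˣ) : Qb) ∈ E := by
  classical
  refine ⟨IntermediateField.adjoin ℚ ((insert ((iactZeta M : Qbˣ) : Qb) T : Finset Qb) : Set Qb),
    ?_, fun a ha => ?_, ?_⟩
  · exact IntermediateField.finiteDimensional_adjoin
      (fun x _ => (AlgebraicClosure.isAlgebraic ℚ).isAlgebraic x |>.isIntegral)
  · exact IntermediateField.subset_adjoin ℚ _ (by simp [ha])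
  · exact IntermediateField.subset_adjoin ℚ _ (by simp)

end Fermat.Agent.S48.H828

end
end
-- ===== PACK-END S48/H828/IActQep.lean

-- ===== PACK-BEGIN S48/H828/IActTop.lean
section





/-!
# S48 / Tower A1 / A1-RED (helper828), part 9b: the leaves `qep_fin`, `qep_inf` of
`Red1.TopLeaves` (node IGUSA1 transported to `Ω' = Q̄ · F₀`)

`E` a number field in `Q̄` containing `ζ_M`, `A` a valuation subring of `Q̄` above `ℓ ∤ M`,
`w₀` a uniformiser of `A ∩ E` (`H248.IsUnifG`).  Roof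

  `OmG F₀ --baseChangeEmb (Q̄)--> IActField ιK M <--iactFieldMap-- IActField (ιK ∘ σ) M`

* `iact_qep_pull`        : the `q`-expansion principle is pulled back along a roof;
* `iact_exists_FcT_of_mem`, `iact_exists_lbc_of_mem_FcT` : `E · F₀ ⊆ Q̄((q))` is the image of
  `laurentBaseChange ↥E F₀` under `coeffMap σ`;
* `iact_FcT_map`, `iact_RcG_map` : compatibility of the fields and the rings of constants;
* `iact_mem_gaussRing_of_mem_VcT` : `VcT F₀ A E` lands in `gaussRing (A ∩ E)`;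
* `iact_partR_of_isUnifG` : the S18 field `G-R` for ANY uniformiser of `A ∩ E`;
* `iact_top_qep`         : `qep_fin ∧ qep_inf` of `Red1.TopLeaves F₀ A E w₀ j`, for every `F₀`
  with avatars in the full-level field whose translates have bounded denominators;
* `iact_topLeaves_qep_F1`: the instance `F₀ = F1 M` (**fields `qep_fin`, `qep_inf` of
  `Red1.TopLeaves (F1 M) A E w₀ j`, VERBATIM**).
-/

set_option autoImplicit false
set_option linter.unusedSectionVars false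

noncomputable section

open ModularCurve HahnSeries UpperHalfPlane AlgebraicCurve
open scoped MatrixGroups Manifold

namespace Fermat.Agent.S48.H828

open Fermat.Agent.S24 Fermat.Agent.S24.H997 Fermat.Agent.S24.H624 Fermat.Agent.S20.L1
open Fermat.Agent.S18 Fermat.Agent.S18.Mod Fermat.Agent.S18.Alg Fermat.Agent.S48.H856
open Fermat.Agent.S48.Red1 Fermat.Agent.S48.H648 Fermat.Agent.S48.F1

/-! ### pull-back of the `q`-expansion principle along a roof -/

section Pull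

variable {Ω₁ Ω₂ Ω₃ : Type*} [Field Ω₁] [Field Ω₂] [Field Ω₃]
  (φ : Ω₁ →+* Ω₂) (θ : Ω₃ →+* Ω₂)
  {F₁ : Subfield Ω₁} {R₁ V₁ : Subring Ω₁} {w₁ x₁ : Ω₁}
  {F₃ : Subfield Ω₃} {R₃ V₃ : Subring Ω₃} {w₃ x₃ : Ω₃}

theorem iact_qep_pull (hF : F₁.map φ = F₃.map θ) (hR : R₁.map φ = R₃.map θ)
    (hx : φ x₁ = θ x₃) (hw : φ w₁ = θ w₃)
    (hV : ∀ f ∈ V₁, ∀ g : Ω₃, θ g = φ f → g ∈ V₃)
    (hq : ∀ b ∈ chart F₃ R₃ x₃, b * w₃⁻¹ ∈ V₃ → b * w₃⁻¹ ∈ chart F₃ R₃ x₃) :
    ∀ b ∈ chart F₁ R₁ x₁, b * w₁⁻¹ ∈ V₁ → b * w₁⁻¹ ∈ chart F₁ R₁ x₁ := by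
  intro b hb hbV
  have h1 : φ b ∈ chart (F₃.map θ) (R₃.map θ) (θ x₃) := by
    rw [← hF, ← hR, ← hx]
    exact (iact_map_mem_chart_iff φ F₁ R₁ x₁ b).mpr hb
  obtain ⟨b₃, hb₃, hbb⟩ := iact_exists_of_mem_chart_map θ F₃ R₃ x₃ h1
  have h2 : θ (b₃ * w₃⁻¹) = φ (b * w₁⁻¹) := by
    rw [map_mul, map_mul, map_inv₀, map_inv₀, hw, hbb]
  have h3 : b₃ * w₃⁻¹ ∈ V₃ := hV _ hbV _ h2
  have h4 := hq b₃ hb₃ h3
  have h5 : φ (b * w₁⁻¹) ∈ chart (F₁.map φ) (R₁.map φ) (φ x₁) := by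
    rw [← h2, hF, hR, hx]
    exact (iact_map_mem_chart_iff θ F₃ R₃ x₃ _).mpr h4
  exact (iact_map_mem_chart_iff φ F₁ R₁ x₁ _).mp h5

end Pull

/-! ### integrality of expansions over `E` read off over `Q̄` -/

section Coeff

variable {M : ℕ} [NeZero M] {A : ValuationSubring Qb} {E : IntermediateField ℚ Qb}

theorem iact_isInt_of_coeffMap {s : LaurentSeries ↥E} {U : LaurentSeries A}
    (h : coeffMap (iactSig E) s = qExpand Qb M (coeffMap A.subtype U)) :
    H856.IsInt (iactO A E) s := by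
  intro k
  have hk := congrArg (fun t : LaurentSeries Qb => t.coeff k) h
  simp only [coeffMap_coeff] at hk
  show iactSig E _ ∈ A
  rw [hk]
  by_cases hd : (M : ℤ) ∣ k
  · obtain ⟨m, rfl⟩ := hd
    rw [qExpand_coeff_mul, coeffMap_coeff]
    exact (U.coeff m).2
  · rw [qExpand_coeff_of_not_dvd M _ hd]
    exact A.zero_mem

theorem iact_isPrim_of_coeffMap {s : LaurentSeries ↥E} {U : LaurentSeries A}
    (h : coeffMap (iactSig E) s = qExpand Qb M (coeffMap A.subtype U))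
    (hne : coeffMap (IsLocalRing.residue A) U ≠ 0) :
    H856.IsPrim (iactO A E) s := by
  refine ⟨iact_isInt_of_coeffMap h, ?_⟩
  have h1 : ∃ n : ℤ, IsLocalRing.residue A (U.coeff n) ≠ 0 := by
    by_contra hcon
    simp only [not_exists, not_not] at hcon
    apply hne
    ext n
    rw [coeffMap_coeff, hcon n, HahnSeries.coeff_zero]
  obtain ⟨n, hn⟩ := h1
  have hunit : IsUnit (U.coeff n) := by
    by_contra hnu
    exact hn ((IsLocalRing.residue_eq_zero_iff _).mpr ((IsLocalRing.mem_maximalIdeal _).mpr hnu))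
  refine ⟨(M : ℤ) * n, ?_⟩
  have hk := congrArg (fun t : LaurentSeries Qb => t.coeff ((M : ℤ) * n)) h
  simp only [coeffMap_coeff] at hk
  rw [qExpand_coeff_mul, coeffMap_coeff] at hk
  set c := s.coeff ((M : ℤ) * n) with hc
  have hcv : (c : Qb) = ((U.coeff n : A) : Qb) := hk
  have hu0 : ((U.coeff n : A) : Qb) ≠ 0 := by
    intro h0
    have : U.coeff n = 0 := Subtype.ext h0
    rw [this] at hunit
    exact not_isUnit_zero hunit
  have hc0 : c ≠ 0 := by
    intro h0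
    rw [h0] at hcv
    exact hu0 hcv.symm
  have hcO : c ∈ iactO A E := by
    rw [mem_iactO, hcv]
    exact (U.coeff n).2
  have hcO' : c⁻¹ ∈ iactO A E := by
    rw [mem_iactO]
    have : ((c⁻¹ : ↥E) : Qb) = (((U.coeff n : A) : Qb))⁻¹ := by
      push_cast; rw [hcv]
    rw [this]
    obtain ⟨v, hv⟩ := hunit
    have hv1 : ((v⁻¹ : Aˣ) : A) * U.coeff n = 1 := by rw [← hv]; exact v.inv_mul
    have hv2 : (((v⁻¹ : Aˣ) : A) : Qb) * ((U.coeff n : A) : Qb) = 1 := by
      have := congrArg (fun a : A => (a : Qb)) hv1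
      simpa using this
    rw [← eq_inv_of_mul_eq_one_left hv2]
    exact ((v⁻¹ : Aˣ) : A).2
  exact iact_valuation_eq_one (iactO A E) hc0 hcO hcO'

end Coeff

/-! ### the S18 field `G-R` for any uniformiser -/

section Unif

variable (M : ℕ) [NeZero M] (A : ValuationSubring Qb) (E : IntermediateField ℚ Qb)

theorem iact_partR_of_isUnifG {ℓ : ℕ} (hℓ : ℓ.Prime) (hA : A.LiesOverPrime ℓ)
    [FiniteDimensional ℚ E] {w₀ : Qb} (hunif : H248.IsUnifG A E.toSubfield w₀) :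
    Mod.H216.PartR (Ec M E) (Rc M A E) (algebraMap Qb (Om M) w₀) := by
  obtain ⟨w', hR'⟩ := H24.exists_partR M A E hℓ hA
  have hmem : ∀ c : Qb, algebraMap Qb (Om M) c ∈ Rc M A E ↔ c ∈ A ∧ c ∈ E :=
    fun c => iact_algebraMap_mem_Rc M A E
  have hgen : ∀ r ∈ Rc M A E, r⁻¹ ∉ Rc M A E → r * (algebraMap Qb (Om M) w₀)⁻¹ ∈ Rc M A E := by
    rintro _ ⟨c, ⟨hcA, hcE⟩, rfl⟩ hrinv
    have h1 : c⁻¹ ∉ A := fun h => hrinv (by
      rw [← map_inv₀]
      exact (hmem _).mpr ⟨h, E.inv_mem hcE⟩)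
    have h2 := hunif.gen c hcA hcE h1
    rw [← map_inv₀, ← map_mul]
    exact (hmem _).mpr ⟨h2, E.mul_mem hcE (E.inv_mem hunif.mem_E)⟩
  have hw0 : algebraMap Qb (Om M) w₀ ≠ 0 := (map_ne_zero _).mpr hunif.ne_zero
  have hu : w' * (algebraMap Qb (Om M) w₀)⁻¹ ∈ Rc M A E :=
    hgen w' hR'.w_mem hR'.w_inv_not_mem
  refine ⟨hR'.R_le, hR'.R_total, (hmem _).mpr ⟨hunif.mem_A, hunif.mem_E⟩, hw0, ?_, hgen, ?_, ?_⟩
  · intro h
    rw [← map_inv₀] at h
    exact hunif.inv_not_mem ((hmem _).mp h).1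
  · rintro _ ⟨c, ⟨hcA, hcE⟩, rfl⟩ hr0
    have hc0 : c ≠ 0 := fun h => hr0 (by rw [h, map_zero])
    obtain ⟨n, h1, h2⟩ := hunif.discrete c hcA hcE hc0
    have hE1 : c * w₀⁻¹ ^ n ∈ E := E.mul_mem hcE (pow_mem (E.inv_mem hunif.mem_E) n)
    refine ⟨n, ?_, ?_⟩
    · rw [← map_inv₀, ← map_pow, ← map_mul]
      exact (hmem _).mpr ⟨h1, hE1⟩
    · rw [← map_inv₀, ← map_pow, ← map_mul, ← map_inv₀]
      exact (hmem _).mpr ⟨h2, E.inv_mem hE1⟩
  · obtain ⟨p, hp, hpw, hall⟩ := hR'.residue_perfect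
    refine ⟨p, hp, ?_, fun r hr => ?_⟩
    · have e : (p : Om M) * (algebraMap Qb (Om M) w₀)⁻¹
          = ((p : Om M) * w'⁻¹) * (w' * (algebraMap Qb (Om M) w₀)⁻¹) := by
        field_simp [hR'.w_ne_zero]
      rw [e]
      exact (Rc M A E).mul_mem hpw hu
    · obtain ⟨s, hs, hrs⟩ := hall r hr
      refine ⟨s, hs, ?_⟩
      have e : (r - s ^ p) * (algebraMap Qb (Om M) w₀)⁻¹
          = ((r - s ^ p) * w'⁻¹) * (w' * (algebraMap Qb (Om M) w₀)⁻¹) := by
        field_simp [hR'.w_ne_zero]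
      rw [e]
      exact (Rc M A E).mul_mem hrs hu

end Unif

/-! ### the roof for `Ω' = Q̄ · F₀` -/

section Roof

variable {M : ℕ} [NeZero M] {A : ValuationSubring Qb} {E : IntermediateField ℚ Qb}
  {F₀ : IntermediateField ℚ (LaurentSeries ℚ)}

theorem iact_coeffMap_sig_coeffEmb (x : LaurentSeries ℚ) :
    coeffMap (iactSig E) (coeffEmb ↥E x) = coeffEmb Qb x := by
  ext k
  rw [coeffMap_coeff, coeffEmb_coeff, coeffEmb_coeff]
  exact (IsScalarTower.algebraMap_apply ℚ ↥E Qb (x.coeff k)).symm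

theorem iact_coeffMap_sig_algebraMap (c : ↥E) :
    coeffMap (iactSig E) (algebraMap ↥E (LaurentSeries ↥E) c)
      = algebraMap Qb (LaurentSeries Qb) (c : Qb) := by
  rw [algebraMap_laurentSeries_eq_single, algebraMap_laurentSeries_eq_single, coeffMap_single]
  rfl

/-- Avatars over `E` give avatars over `Q̄`. -/
theorem iact_avatar_Qb
    (hE : ∀ x ∈ F₀, coeffEmb ↥E x ∈ avatarField (ιK.comp (iactSig E)) M) :
    ∀ x ∈ F₀, coeffEmb Qb x ∈ avatarField ιK M := by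
  intro x hx
  obtain ⟨y, hy⟩ := mem_avatarField.mp (hE x hx)
  refine mem_avatarField.mpr ⟨iactFieldMap (iactSig E) ιK M y, ?_⟩
  rw [iactFieldExp_map, hy, coeffMap_qExpand, iact_coeffMap_sig_coeffEmb]

variable (hE : ∀ x ∈ F₀, coeffEmb ↥E x ∈ avatarField (ιK.comp (iactSig E)) M)

/-- The two bridges are compatible with `coeffMap σ`. -/
theorem iact_theta_baseChange (h : ↥(laurentBaseChange ↥E F₀)) (g : OmG F₀)
    (hgh : (g : LaurentSeries Qb) = coeffMap (iactSig E) (h : LaurentSeries ↥E)) :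
    iactFieldMap (iactSig E) ιK M (baseChangeEmb (ιK.comp (iactSig E)) M F₀ hE h)
      = baseChangeEmb ιK M F₀ (iact_avatar_Qb hE) g := by
  symm
  rw [baseChangeEmb_eq_iff, iactFieldExp_map, iactFieldExp_baseChangeEmb, hgh, coeffMap_qExpand]

/-- `laurentBaseChange ↥E F₀` maps into `E · F₀ ⊆ Q̄((q))` under `coeffMap σ`. -/
theorem iact_exists_FcT_of_mem (h : LaurentSeries ↥E) (hh : h ∈ laurentBaseChange ↥E F₀) :
    ∃ g : OmG F₀, g ∈ FcT F₀ E.toSubfield ∧
      (g : LaurentSeries Qb) = coeffMap (iactSig E) h := by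
  unfold laurentBaseChange at hh
  induction hh using IntermediateField.adjoin_induction with
  | mem x hx =>
    obtain ⟨z, hz, rfl⟩ := hx
    exact ⟨embG F₀ ⟨z, hz⟩, embG_mem_FcT _ _, by rw [coe_embG, iact_coeffMap_sig_coeffEmb]⟩
  | algebraMap c =>
    refine ⟨cstG F₀ (c : Qb), cstG_mem_FcT c.2, ?_⟩
    rw [iact_coeffMap_sig_algebraMap]
    rfl
  | add x y _ _ hx hy =>
    obtain ⟨g₁, hg₁, e₁⟩ := hx
    obtain ⟨g₂, hg₂, e₂⟩ := hy
    refine ⟨g₁ + g₂, add_mem hg₁ hg₂, ?_⟩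
    rw [map_add, ← e₁, ← e₂]
    rfl
  | inv x _ hx =>
    obtain ⟨g₁, hg₁, e₁⟩ := hx
    refine ⟨g₁⁻¹, inv_mem hg₁, ?_⟩
    rw [map_inv₀, ← e₁]
    rfl
  | mul x y _ _ hx hy =>
    obtain ⟨g₁, hg₁, e₁⟩ := hx
    obtain ⟨g₂, hg₂, e₂⟩ := hy
    refine ⟨g₁ * g₂, mul_mem hg₁ hg₂, ?_⟩
    rw [map_mul, ← e₁, ← e₂]
    rfl

/-- `E · F₀ ⊆ Q̄((q))` is in the image of `laurentBaseChange ↥E F₀` under `coeffMap σ`. -/
theorem iact_exists_lbc_of_mem_FcT (g : OmG F₀) (hg : g ∈ FcT F₀ E.toSubfield) :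
    ∃ h : ↥(laurentBaseChange ↥E F₀),
      (g : LaurentSeries Qb) = coeffMap (iactSig E) (h : LaurentSeries ↥E) := by
  unfold FcT at hg
  induction hg using Subfield.closure_induction with
  | mem x hx =>
    rcases hx with hx | ⟨z, rfl⟩
    · obtain ⟨c, hc, rfl⟩ := (H248.mem_EcG_iff _).mp hx
      refine ⟨algebraMap ↥E ↥(laurentBaseChange ↥E F₀) ⟨c, hc⟩, ?_⟩
      have : ((algebraMap ↥E ↥(laurentBaseChange ↥E F₀) ⟨c, hc⟩ :
          ↥(laurentBaseChange ↥E F₀)) : LaurentSeries ↥E)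
          = algebraMap ↥E (LaurentSeries ↥E) ⟨c, hc⟩ := rfl
      rw [this, iact_coeffMap_sig_algebraMap]
      rfl
    · exact ⟨⟨coeffEmb ↥E (z : LaurentSeries ℚ), coeffEmb_mem_laurentBaseChange ↥E z.2⟩, by
        rw [coe_embG, iact_coeffMap_sig_coeffEmb]⟩
  | one => exact ⟨1, by simp⟩
  | add x y _ _ hx hy =>
    obtain ⟨h₁, e₁⟩ := hx
    obtain ⟨h₂, e₂⟩ := hy
    refine ⟨h₁ + h₂, ?_⟩
    show (x : LaurentSeries Qb) + (y : LaurentSeries Qb) = _
    rw [e₁, e₂, ← map_add]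
    rfl
  | neg x _ hx =>
    obtain ⟨h₁, e₁⟩ := hx
    refine ⟨-h₁, ?_⟩
    show -(x : LaurentSeries Qb) = _
    rw [e₁, ← map_neg]
    rfl
  | inv x _ hx =>
    obtain ⟨h₁, e₁⟩ := hx
    refine ⟨h₁⁻¹, ?_⟩
    show (x : LaurentSeries Qb)⁻¹ = _
    rw [e₁, ← map_inv₀]
    rfl
  | mul x y _ _ hx hy =>
    obtain ⟨h₁, e₁⟩ := hx
    obtain ⟨h₂, e₂⟩ := hy
    refine ⟨h₁ * h₂, ?_⟩
    show (x : LaurentSeries Qb) * (y : LaurentSeries Qb) = _
    rw [e₁, e₂, ← map_mul]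
    rfl

/-- The field `E · F₀` and the image of the bridge over `E` have the same image. -/
theorem iact_FcT_map :
    (FcT F₀ E.toSubfield).map (baseChangeEmb ιK M F₀ (iact_avatar_Qb hE))
      = ((baseChangeEmb (ιK.comp (iactSig E)) M F₀ hE).fieldRange).map
          (iactFieldMap (iactSig E) ιK M) := by
  ext y
  constructor
  · rintro ⟨g, hg, rfl⟩
    obtain ⟨h, e⟩ := iact_exists_lbc_of_mem_FcT g hg
    exact ⟨_, ⟨h, rfl⟩, iact_theta_baseChange hE h g e⟩
  · rintro ⟨_, ⟨h, rfl⟩, rfl⟩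
    obtain ⟨g, hg, e⟩ := iact_exists_FcT_of_mem (h : LaurentSeries ↥E) h.2
    exact ⟨g, hg, (iact_theta_baseChange hE h g e).symm⟩

theorem iact_baseChange_cstG (c : Qb) :
    baseChangeEmb ιK M F₀ (iact_avatar_Qb hE) (cstG F₀ c) = iactFC ιK M c :=
  baseChangeEmb_algebraMap F₀ (iact_avatar_Qb hE) c

/-- The rings of constants `A ∩ E` have the same image. -/
theorem iact_RcG_map :
    (H248.RcG A E.toSubfield (cstG F₀)).map (baseChangeEmb ιK M F₀ (iact_avatar_Qb hE))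
      = (((iactO A E).toSubring.map (iactFC (ιK.comp (iactSig E)) M)).map
          (iactFieldMap (iactSig E) ιK M)) := by
  ext y
  constructor
  · rintro ⟨r, hr, rfl⟩
    obtain ⟨c, hcA, hcE, rfl⟩ := (H248.mem_RcG_iff _).mp hr
    refine ⟨iactFC (ιK.comp (iactSig E)) M ⟨c, hcE⟩, ⟨⟨c, hcE⟩, hcA, rfl⟩, ?_⟩
    rw [iactFieldMap_C, iact_baseChange_cstG hE]
    rfl
  · rintro ⟨_, ⟨c, hc, rfl⟩, rfl⟩
    refine ⟨cstG F₀ (c : Qb), (H248.mem_RcG_iff _).mpr ⟨(c : Qb), hc, c.2, rfl⟩, ?_⟩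
    rw [iactFieldMap_C, iact_baseChange_cstG hE]
    rfl

theorem iact_baseChange_j (hle : modularFunctionFieldFull M ≤ F₀) :
    baseChangeEmb ιK M F₀ (iact_avatar_Qb hE) (iotaG M F₀ hle (jOm M))
      = iactFieldMap (iactSig E) ιK M (iactFJ (ιK.comp (iactSig E)) M) := by
  rw [iactFieldMap_J, baseChangeEmb_eq_iff, iactFieldExp_J, coe_iotaG]
  show iactJX Qb M = qExpand Qb M (coeffEmb Qb (qExpand ℚ 1 jq))
  rw [qExpand_one_apply]
  rfl

/-- **Easy inclusion**: the Gauss ring `VcT F₀ A E` lands in the Gauss ring of `IActField`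
over `E`. -/
theorem iact_mem_gaussRing_of_mem_VcT {g : OmG F₀} (hg : g ∈ VcT F₀ A E.toSubfield)
    {f : IActField (ιK.comp (iactSig E)) M}
    (hf : iactFieldMap (iactSig E) ιK M f = baseChangeEmb ιK M F₀ (iact_avatar_Qb hE) g) :
    f ∈ gaussRing (iactO A E) (iactFieldExp (ιK.comp (iactSig E)) M) := by
  obtain ⟨-, U₁, U₂, ⟨-, g₁, hg₁, e₁⟩, ⟨-, g₂, hg₂, e₂⟩, hne, heq⟩ := hg
  have hmul : g * g₂ = g₁ := by
    apply Subtype.ext
    show (g : LaurentSeries Qb) * (g₂ : LaurentSeries Qb) = (g₁ : LaurentSeries Qb)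
    have e₁' : (g₁ : LaurentSeries Qb) = coeffMap A.subtype U₁ := e₁
    have e₂' : (g₂ : LaurentSeries Qb) = coeffMap A.subtype U₂ := e₂
    rw [e₁', e₂']
    exact heq
  obtain ⟨h₁, k₁⟩ := iact_exists_lbc_of_mem_FcT g₁ hg₁
  obtain ⟨h₂, k₂⟩ := iact_exists_lbc_of_mem_FcT g₂ hg₂
  have t₁ := iact_theta_baseChange hE h₁ g₁ k₁
  have t₂ := iact_theta_baseChange hE h₂ g₂ k₂
  have c₁ : coeffMap (iactSig E)
      (iactFieldExp (ιK.comp (iactSig E)) M (baseChangeEmb (ιK.comp (iactSig E)) M F₀ hE h₁))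
      = qExpand Qb M (coeffMap A.subtype U₁) := by
    rw [iactFieldExp_baseChangeEmb, coeffMap_qExpand, ← k₁]
    exact congrArg _ e₁
  have c₂ : coeffMap (iactSig E)
      (iactFieldExp (ιK.comp (iactSig E)) M (baseChangeEmb (ιK.comp (iactSig E)) M F₀ hE h₂))
      = qExpand Qb M (coeffMap A.subtype U₂) := by
    rw [iactFieldExp_baseChangeEmb, coeffMap_qExpand, ← k₂]
    exact congrArg _ e₂
  refine ⟨_, _, iact_isInt_of_coeffMap c₁, iact_isPrim_of_coeffMap c₂ hne, ?_⟩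
  apply (iactFieldMap (iactSig E) ιK M).injective
  rw [map_mul, hf, t₁, t₂, ← map_mul, hmul]

end Roof

/-! ### the leaves `qep_fin`, `qep_inf` -/

section Main

variable {M : ℕ} [NeZero M] {A : ValuationSubring Qb} {E : IntermediateField ℚ Qb}
  {F₀ : IntermediateField ℚ (LaurentSeries ℚ)}

/-- **The leaves `qep_fin`, `qep_inf` of `Red1.TopLeaves`**, for every `F₀` with avatars in the
full-level field (over `E`) all of whose translates have bounded denominators. -/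
theorem iact_top_qep (hle : modularFunctionFieldFull M ≤ F₀) (ζ : (↥E)ˣ)
    (hζ : Units.map ((ιK.comp (iactSig E) : ↥E →+* ℂ) : ↥E →* ℂ) ζ = infRoot 1 M)
    (hE : ∀ x ∈ F₀, coeffEmb ↥E x ∈ avatarField (ιK.comp (iactSig E)) M)
    (hbd : ∀ (w₁ : ↥E) (hd : IsDiscrete (iactO A E) w₁),
      (baseChangeEmb (ιK.comp (iactSig E)) M F₀ hE).fieldRange
        ≤ iactBd (ι := ιK.comp (iactSig E)) (M := M) (iactO A E) hd)
    {ℓ : ℕ} [Fact ℓ.Prime] (hℓM : ¬ ℓ ∣ M) (hA : A.LiesOverPrime ℓ) [FiniteDimensional ℚ E]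
    {w₀ : Qb} (hunif : H248.IsUnifG A E.toSubfield w₀) :
    (∀ b ∈ chart (FcT F₀ E.toSubfield) (H248.RcG A E.toSubfield (cstG F₀))
        (iotaG M F₀ hle (jOm M)),
      b * (cstG F₀ w₀)⁻¹ ∈ VcT F₀ A E.toSubfield →
        b * (cstG F₀ w₀)⁻¹ ∈ chart (FcT F₀ E.toSubfield) (H248.RcG A E.toSubfield (cstG F₀))
          (iotaG M F₀ hle (jOm M))) ∧
    (∀ b ∈ chart (FcT F₀ E.toSubfield) (H248.RcG A E.toSubfield (cstG F₀))
        (iotaG M F₀ hle (jOm M))⁻¹,
      b * (cstG F₀ w₀)⁻¹ ∈ VcT F₀ A E.toSubfield →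
        b * (cstG F₀ w₀)⁻¹ ∈ chart (FcT F₀ E.toSubfield) (H248.RcG A E.toSubfield (cstG F₀))
          (iotaG M F₀ hle (jOm M))⁻¹) := by
  have hR := iact_partR_of_isUnifG M A E (Fact.out : ℓ.Prime) hA hunif
  obtain ⟨w₁, hw₁, hd⟩ := iact_isDiscrete_of_partR M A E hR
  have hw₁' : (w₁ : Qb) = w₀ := iact_algebraMap_injective M hw₁
  have hq0 := iact_qep0_of_partR ζ hζ hℓM hA hR hw₁ hd
  have hI := iact_igusaData (iactO A E) ζ hζ hd hq0
  have hFc := hbd w₁ hd
  have hw₃ : iactFC (ιK.comp (iactSig E)) M w₁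
      ∈ (baseChangeEmb (ιK.comp (iactSig E)) M F₀ hE).fieldRange :=
    ⟨algebraMap ↥E ↥(laurentBaseChange ↥E F₀) w₁, baseChangeEmb_algebraMap F₀ hE w₁⟩
  have hw : baseChangeEmb ιK M F₀ (iact_avatar_Qb hE) (cstG F₀ w₀)
      = iactFieldMap (iactSig E) ιK M (iactFC (ιK.comp (iactSig E)) M w₁) := by
    rw [iactFieldMap_C, iact_baseChange_cstG hE, ← hw₁']
    rfl
  have hx := iact_baseChange_j hE hle
  constructor
  · exact iact_qep_pull (baseChangeEmb ιK M F₀ (iact_avatar_Qb hE))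
      (iactFieldMap (iactSig E) ιK M) (iact_FcT_map hE) (iact_RcG_map hE) hx hw
      (fun g hg f hf => iact_mem_gaussRing_of_mem_VcT hE hg hf)
      (hI.qep_fin _ hFc hw₃)
  · have hx' : baseChangeEmb ιK M F₀ (iact_avatar_Qb hE) (iotaG M F₀ hle (jOm M))⁻¹
        = iactFieldMap (iactSig E) ιK M (iactFJ (ιK.comp (iactSig E)) M)⁻¹ := by
      rw [map_inv₀, map_inv₀, hx]
    exact iact_qep_pull (baseChangeEmb ιK M F₀ (iact_avatar_Qb hE))
      (iactFieldMap (iactSig E) ιK M) (iact_FcT_map hE) (iact_RcG_map hE) hx' hw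
      (fun g hg f hf => iact_mem_gaussRing_of_mem_VcT hE hg hf)
      (iact_igusa_qep_inf hI _ hFc hw₃)

/-- **Fields `qep_fin`, `qep_inf` of `Red1.TopLeaves (F1 M) A E w₀ j`, VERBATIM**, for every
number field `E ∋ ζ_M`, every `A` above `ℓ ∤ M` and every uniformiser `w₀` of `A ∩ E`. -/
theorem iact_topLeaves_qep_F1 {ℓ : ℕ} [Fact ℓ.Prime] (hℓM : ¬ ℓ ∣ M) (hA : A.LiesOverPrime ℓ)
    [FiniteDimensional ℚ E] (hζE : ((iactZeta M : Qbˣ) : Qb) ∈ E)
    {w₀ : Qb} (hunif : H248.IsUnifG A E.toSubfield w₀)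
    (hle : modularFunctionFieldFull M ≤ F1 M) :
    (∀ b ∈ chart (FcT (F1 M) E.toSubfield) (H248.RcG A E.toSubfield (cstG (F1 M)))
        (iotaG M (F1 M) hle (jOm M)),
      b * (cstG (F1 M) w₀)⁻¹ ∈ VcT (F1 M) A E.toSubfield →
        b * (cstG (F1 M) w₀)⁻¹ ∈ chart (FcT (F1 M) E.toSubfield)
          (H248.RcG A E.toSubfield (cstG (F1 M))) (iotaG M (F1 M) hle (jOm M))) ∧
    (∀ b ∈ chart (FcT (F1 M) E.toSubfield) (H248.RcG A E.toSubfield (cstG (F1 M)))
        (iotaG M (F1 M) hle (jOm M))⁻¹,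
      b * (cstG (F1 M) w₀)⁻¹ ∈ VcT (F1 M) A E.toSubfield →
        b * (cstG (F1 M) w₀)⁻¹ ∈ chart (FcT (F1 M) E.toSubfield)
          (H248.RcG A E.toSubfield (cstG (F1 M))) (iotaG M (F1 M) hle (jOm M))⁻¹) := by
  obtain ⟨ζ, hζ⟩ := iact_exists_zeta_of_mem M E hζE
  exact iact_top_qep hle ζ hζ (H668.coeffEmb_mem_avatarField_F1 ζ hζ)
    (fun w₁ hd => H668.f1Emb_fieldRange_le_iactBd ζ hζ (iactO A E) hd) hℓM hA hunif

/-- **`Red1.TopLeaves (F1 M) A E w₀ j` from its two remaining fields** `finite`, `separable`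
(the fields `qep_fin`, `qep_inf` are `iact_topLeaves_qep_F1`). -/
theorem iact_topLeaves_F1_of {ℓ : ℕ} [Fact ℓ.Prime] (hℓM : ¬ ℓ ∣ M) (hA : A.LiesOverPrime ℓ)
    [FiniteDimensional ℚ E] (hζE : ((iactZeta M : Qbˣ) : Qb) ∈ E)
    {w₀ : Qb} (hunif : H248.IsUnifG A E.toSubfield w₀)
    (hle : modularFunctionFieldFull M ≤ F1 M)
    (hfin : ∃ s : Finset (OmG (F1 M)), (s : Set (OmG (F1 M))) ⊆ FcT (F1 M) E.toSubfield ∧
      ∀ f ∈ FcT (F1 M) E.toSubfield, f ∈ Submodule.span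
        (ratField (H248.EcG E.toSubfield (cstG (F1 M))) (iotaG M (F1 M) hle (jOm M)))
        (s : Set (OmG (F1 M))))
    (hsep : ∀ f ∈ VcT (F1 M) A E.toSubfield, ∃ P : Polynomial (OmG (F1 M)),
      (∀ i, P.coeff i ∈ polyRing (H248.RcG A E.toSubfield (cstG (F1 M)))
        (iotaG M (F1 M) hle (jOm M))) ∧
      P.eval f * (cstG (F1 M) w₀)⁻¹ ∈ VcT (F1 M) A E.toSubfield ∧
      (Polynomial.derivative P).eval f ≠ 0 ∧
      ((Polynomial.derivative P).eval f)⁻¹ ∈ VcT (F1 M) A E.toSubfield) :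
    TopLeaves (F1 M) A E.toSubfield w₀ (iotaG M (F1 M) hle (jOm M)) :=
  { finite := hfin
    separable := hsep
    qep_fin := (iact_topLeaves_qep_F1 hℓM hA hζE hunif hle).1
    qep_inf := (iact_topLeaves_qep_F1 hℓM hA hζE hunif hle).2 }

end Main

end Fermat.Agent.S48.H828


end
end
-- ===== PACK-END S48/H828/IActTop.lean

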