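import Fermat.Agent.Pack.L1B.E1L0
import Fermat.Agent.Pack.L1B.E2L3
import Fermat.Agent.Pack.L1B.E2L0
import Fermat.Agent.Pack.L1B.E2L1
import Fermat.Agent.Pack.L1B.E4L2
import Fermat.Agent.Pack.L1B.E3L1
import Fermat.Agent.Pack.L1B.E3L2
import Fermat.Agent.Pack.L1B.E4L0
import Fermat.Agent.Pack.L1B.E4L3
import Fermat.Agent.Pack.S44C.G0E19L1
import Fermat.Agent.Pack.S44C.G0E23L2
import Fermat.Agent.Pack.S43MC.G0E6L1
import Fermat.Agent.Pack.S44C.G0E17L0
import Fermat.Agent.Pack.S44C.G0E27L1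
import Fermat.Agent.Pack.S44C.G0E26L1
import Fermat.Agent.Pack.S44C.G0E28L1
import Fermat.Agent.Pack.L1.E10L0

-- ===== PACK-BEGIN S48/Top/Chain.lean
section













/-!
# S48 — the chain with every landed input discharged (helper948, row deputy)

`s48_of_int_res` (and `s48_of_val_res`): the frozen statement S48 follows from the TWO
remaining inputs

* `Top.EigenConjStatement`  (P1 = INT: rational structure of `S₁(Γ₁(N))`, conjugate eigenforms),
* `Top.ResidualStatement`   (P2 + P3 = TOWER A1: mod-`ℓ` Galois representations).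

Discharged here: RANKIN (`H308.rankin`), FI (`H428.finiteImage`), LIFT (`H528.liftStatement`),
CHEB-Q (`Lib.Cheb.chebDensity`), and the glue pieces VAL (`H308.values`), MAT
(`H108.residualMat`), BND (`H108.boundedImage`), CLIFT (`H468.complexLiftPiece`),
EXA / TWO / IRR (`H948`), END.
-/

set_option autoImplicit false

namespace Fermat.Agent.S48.Top

/-- S48 from `ValuesStatement` (the only consequence of INT used by the row) and RES. -/
theorem s48_of_val_res (hVal : ValuesStatement) (hRes : ResidualStatement) :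
    S48Statement :=
  endPiece
    (Fermat.Agent.S48.H948.exactPiece
      (Fermat.Agent.S48.H948.exactAwayPiece
        (Fermat.Agent.S48.H468.complexLiftPiece
          (Fermat.Agent.S48.H108.boundedImage (Fermat.Agent.S48.H108.residualMat hRes) hVal
            Fermat.Agent.Lib.Cheb.chebDensity Fermat.Agent.S48.H428.finiteImage)
          Fermat.Agent.S48.H528.liftStatement))
      Fermat.Agent.Lib.Cheb.chebDensity)
    (Fermat.Agent.S48.H948.irreduciblePiece Fermat.Agent.S48.H308.rankin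
      Fermat.Agent.Lib.Cheb.chebDensity)

/-- The exceptional-set statement VAL from INT alone. -/
theorem values_of_int (hConj : EigenConjStatement) : ValuesStatement :=
  Fermat.Agent.S48.H308.values Fermat.Agent.S48.H308.rankin hConj

/-- S48 from the two remaining inputs INT and RES. -/
theorem s48_of_int_res (hConj : EigenConjStatement) (hRes : ResidualStatement) :
    S48Statement :=
  s48_of_val_res (values_of_int hConj) hRes

end Fermat.Agent.S48.Top

end
-- ===== PACK-END S48/Top/Chain.lean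

-- ===== PACK-BEGIN S48/Top/ResultOf.lean
section



/-!
# Row S48 (Deligne–Serre): the final chain, `ResidualStatement → S48Statement`

All inputs of the row except the residual representations (`Top.ResidualStatement`,
tower A1) are closed on main:

* `H128.eigenConj : Top.EigenConjStatement` (input P1 = INT: the Hecke eigenvalues are
  algebraic integers and the eigen-property is stable under conjugation),
* `Top.s48_of_int_res : EigenConjStatement → ResidualStatement → S48Statement`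
  (`Top/Chain.lean`: Rankin bound, values, residual matrices, bounded image, complex lift,
  exactness away from a finite set, exactness, irreducibility, end piece).

Hence the frozen statement S48 follows from `Top.ResidualStatement` alone:

  `Fermat.Agent.S48.Top.result_of_residual : ResidualStatement → S48Statement`.

`S48Statement` is the frozen statement verbatim, so `Fermat/Agent/S48.lean` is

  `theorem result … := Top.result_of_residual <residual> N ε f hf₁ hT`.
-/

set_option autoImplicit false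

namespace Fermat.Agent.S48.Top

/-- The values piece, unconditionally: for an eigenform `f` of weight one, the Hecke
eigenvalues `a_p` (`p ∤ N`) take finitely many values, up to a set of primes of arbitrarily
small upper density. -/
theorem values_unconditional : ValuesStatement :=
  values_of_int Fermat.Agent.S48.H128.eigenConj

/-- **The final chain of row S48.**  The frozen statement S48 (Deligne–Serre) follows from
the existence of the residual representations (`ResidualStatement`, tower A1). -/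
theorem result_of_residual (hRes : ResidualStatement) : S48Statement :=
  s48_of_int_res Fermat.Agent.S48.H128.eigenConj hRes

end Fermat.Agent.S48.Top

end
-- ===== PACK-END S48/Top/ResultOf.lean

-- ===== PACK-BEGIN S48/Top/ResultOfTwo.lean
section




/-!
# Row S48 (Deligne–Serre): the frozen statement from the TWO open inputs of Tower A1 (helper948)

`result_of_two : Res.RawES1Statement true → Res.M4b1Statement → S48Statement`

* `Res.RawES1Statement true` (`S48/Res/Parts.lean`): raw Eichler–Shimura with diamond on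
  `J₁(M)(ℚ̄)[ℓ]` (sub-tower A1-ES + A1-RED);
* `Res.M4b1Statement` (`S48/Res/PartsOcc.lean`): the Kummer map
  `Hom_par(Γ₁(M), 𝔽_ℓ) → J₁(M)(ℚ̄)[ℓ]` with its Hecke and diamond equivariance (sub-tower A1-KUM,
  `Kum.m4b1_of_leaves`).

The cohomology side is CLOSED: `H451.eigenclass1 : Res.Eigenclass1Statement` (from
`H948.cohStatement`), so NO further input (in particular no `Res.CohEigStatement`) is needed:
the chain is `result_of_residual ∘ Res.residual_of_three`.
-/

set_option autoImplicit false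

namespace Fermat.Agent.S48.Top

/-- **Row S48 from RawES1 and M4b1.** -/
theorem result_of_two (hES : Fermat.Agent.S48.Res.RawES1Statement true)
    (hK : Fermat.Agent.S48.Res.M4b1Statement) : S48Statement :=
  result_of_residual
    (Fermat.Agent.S48.Res.residual_of_three hES Fermat.Agent.S48.H451.eigenclass1 hK)

end Fermat.Agent.S48.Top

end
-- ===== PACK-END S48/Top/ResultOfTwo.lean

-- ===== PACK-BEGIN S48/H496/Inter1.lean
section










/-!
# S48 / Tower A1 / A1-KUM leaf `inter` (helper496): `DictInter (Γ₁(M)) (ℚ̄·F₁(M))`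

A good function for `Γ₁(M)` (holomorphic, invariant, all translates of exponential growth) whose
`q`-expansion has coefficients in `ℚ̄` has its `q`-expansion in `ℚ̄ · F1(M)`.

Route: over `E = ℂ` (`ι = id`) a good function and the avatars `H76.pFun M a` lie in
`H828.iactRing id M`; by I-F1 (`IF1.lean`, `F1Exp.lean`) a `Γ₁(M)`-invariant element has its
expansion in `ℂ · F1(M)`; descent `ℂ → ℚ̄` is `S29.H882.mem_laurentBaseChange_of_coeffMap_mem`.

* `exists_infExp_of_periodic` : holomorphic + `M`-periodic + exponential growth ⇒ `X`-expansion;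
* `mem_holN_of_isGood` : good functions for `Γ₁(M)` lie in `S24.H997.holN M`;
* `qexp_mem_of_isGood` : the `ℂ`-form of DICT1;
* `dictInter1` : `Kum.DictInter (Gamma1 M) (F1.F1Bar M)` VERBATIM.
-/

set_option autoImplicit false
set_option linter.unusedSectionVars false

noncomputable section

open ModularCurve HahnSeries UpperHalfPlane CongruenceSubgroup
open scoped MatrixGroups Manifold

namespace Fermat.Agent.S48.H496

open Fermat.Agent.S24 Fermat.Agent.S24.H997 Fermat.Agent.S24.H624 Fermat.Agent.S20.L1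
open Fermat.Agent.S48.H828 Fermat.Agent.S29 Fermat.Agent.S48.H76

local notation "Δ" => ModularForm.discriminant

variable {M : ℕ} [NeZero M]

/-! ### expansions from growth -/

/-- A holomorphic function on `ℍ`, periodic of period `M` and of at most exponential growth, has
a Laurent expansion in `X = exp(2πiτ/M)`. -/
theorem exists_infExp_of_periodic {F : ℍ → ℂ} (hol : MDiff F)
    (hper : ∀ τ : ℍ, F (((M : ℤ) : ℝ) +ᵥ τ) = F τ) (hgr : H648.ExpGrowth F) :
    ∃ φ : LaurentSeries ℂ, InfExp M F φ := by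
  obtain ⟨C, m, hC⟩ := hgr
  have hN : (0 : ℝ) < M := by exact_mod_cast Nat.pos_of_ne_zero (NeZero.ne M)
  have hbd0 : IsBoundedAtImInfty (fun τ => F τ * Δ τ ^ m) :=
    H108.isBoundedAtImInfty_mul_discriminant_pow_of_exp_growth ⟨C, 1, hC⟩
  set F' : ℍ → ℂ := fun τ => Δ τ ^ m * F τ with hF'
  have hbd : IsBoundedAtImInfty F' := by
    have e : F' = fun τ => F τ * Δ τ ^ m := by
      funext τ
      simp only [hF']
      ring
    rw [e]
    exact hbd0
  have hFhol : MDiff F' := (H332.mdiff_delta_pow m).mul hol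
  have hFper : Function.Periodic (F' ∘ ofComplex) (M : ℝ) := by
    intro z
    have h1 := H332.periodic_comp_ofComplex_of_vadd (f := F) (N := M) hper z
    have h2 := H332.periodic_comp_ofComplex_of_vadd (f := Δ) (N := M)
      (fun τ => H332.delta_vadd M τ) z
    simp only [Function.comp_apply, hF'] at h1 h2 ⊢
    rw [h1, h2]
  have hsum := fun τ => UpperHalfPlane.hasSum_qExpansion hN hFper hFhol hbd τ
  have hP : InfPExp M F' (UpperHalfPlane.qExpansion (M : ℝ) F') := by
    intro τ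
    simpa [infZ, smul_eq_mul] using hsum τ
  have hE : InfExp M F' (HahnSeries.ofPowerSeries ℤ ℂ (UpperHalfPlane.qExpansion (M : ℝ) F')) := by
    have := hP.infExp 0
    simp only [zpow_zero, one_mul] at this
    have e : (HahnSeries.single (0 : ℤ) (1 : ℂ)) = 1 := rfl
    rwa [e, one_mul] at this
  have hDinv : InfExp M (fun τ => (Δ τ)⁻¹ ^ m)
      (qExpand ℂ M Fermat.Agent.S28.H568.dInvS ^ m) :=
    Fermat.Agent.S28.H568.InfExp.pow' (H332.infExp_deltaInv M) m
  have e : ∀ τ, (Δ τ)⁻¹ ^ m * F' τ = F τ := by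
    intro τ
    simp only [hF']
    have hΔ : Δ τ ≠ 0 := ModularForm.discriminant_ne_zero τ
    rw [← mul_assoc, ← mul_pow, inv_mul_cancel₀ hΔ, one_pow, one_mul]
  have h := hDinv.mul hE
  exact ⟨_, h.congr e⟩

/-! ### good functions for `Γ₁(M)` -/

theorem Gamma_le_Gamma1_496 {γ : SL(2, ℤ)} (hγ : γ ∈ Gamma M) : γ ∈ Gamma1 M := by
  rw [Gamma_mem] at hγ
  rw [Gamma1_mem]
  exact ⟨hγ.1, hγ.2.2.2, hγ.2.2.1⟩

theorem T_zpow_mem_Gamma_496 (M : ℕ) : ModularGroup.T ^ (M : ℤ) ∈ Gamma M := by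
  rw [Gamma_mem, ModularGroup.coe_T_zpow]
  simp

theorem compSL_vadd_of_invariant {G : ℍ → ℂ}
    (hinv : ∀ γ ∈ Gamma1 M, ∀ τ : ℍ, G (γ • τ) = G τ) (g : SL(2, ℤ)) (τ : ℍ) :
    compSL g G (((M : ℤ) : ℝ) +ᵥ τ) = compSL g G τ := by
  have hn : g * ModularGroup.T ^ (M : ℤ) * g⁻¹ ∈ Gamma M :=
    (CongruenceSubgroup.Gamma_normal M).conj_mem _ (T_zpow_mem_Gamma_496 M) g
  have h := hinv _ (Gamma_le_Gamma1_496 hn) (g • τ)
  rw [← UpperHalfPlane.modular_T_zpow_smul]
  show G (g • (ModularGroup.T ^ (M : ℤ) • τ)) = G (g • τ)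
  rw [← h, ← mul_smul, ← mul_smul]
  congr 2
  group

/-- A good function for `Γ₁(M)` lies in the S24 ring `holN M`. -/
theorem mem_holN_of_isGood {G : ℍ → ℂ} (hG : Kum.IsGood (Gamma1 M) G) : G ∈ holN M := by
  refine ⟨hG.1, fun g => ?_⟩
  have hol : MDiff (compSL g G) := (precompSL g ⟨G, hG.1⟩).2
  exact exists_infExp_of_periodic hol (compSL_vadd_of_invariant hG.2.1 g) (hG.2.2 g)

/-! ### the ring `iactRing id M` over `ℂ` -/

theorem mem_iactRing_id {f : ℍ → ℂ} (hf : f ∈ holN M)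
    (hinv : ∀ γ ∈ Gamma1 M, ∀ τ : ℍ, f (γ • τ) = f τ) : f ∈ iactRing (RingHom.id ℂ) M := by
  refine ⟨hf.1, fun γ hγ => ?_, fun γ => ?_⟩
  · funext τ
    exact hinv γ (Gamma_le_Gamma1_496 hγ) τ
  · obtain ⟨φ, hφ⟩ := hf.2 γ
    exact ⟨φ, by rw [coeffMap_id]; exact hφ⟩

variable (M) in
/-- The avatars `P_a` as elements of `iactRing id M`. -/
def pAvC (a : ZMod M) : iactRing (RingHom.id ℂ) M :=
  ⟨pFun M a, mem_iactRing_id (pFun_mem_holN M a) (fun γ hγ τ => pFun_smul_Gamma1 M a γ hγ τ)⟩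

theorem pAvC_comp (g : SL(2, ℤ)) (hg : g ∈ Gamma0 M) (a : ZMod M) (_ : a ≠ 0) :
    compSL g (pAvC M a : ℍ → ℂ) = (pAvC M (a * ((g 0 0 : ℤ) : ZMod M)) : ℍ → ℂ) :=
  compSL_pFun M a g hg

theorem pAvC_exp (a : ZMod M) (ha : a ≠ 0) :
    iactExp (RingHom.id ℂ) M (pAvC M a) = qExpand ℂ M (F1.divGenC ℂ M a) := by
  apply iactExp_eq
  rw [coeffMap_id]
  exact Fermat.Agent.S28.H748.infExp_level (infExp_pFun M ha)

theorem infRoot_id_496 :
    Units.map ((RingHom.id ℂ : ℂ →+* ℂ) : ℂ →* ℂ) (infRoot 1 M) = infRoot 1 M :=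
  Units.ext rfl

/-! ### DICT1 over `ℂ` and over `ℚ̄` -/

/-- **DICT1, `ℂ`-form**: the `q`-expansion of a good function for `Γ₁(M)` lies in `ℂ · F1(M)`. -/
theorem qexp_mem_of_isGood {G : ℍ → ℂ} (hG : Kum.IsGood (Gamma1 M) G) :
    H708.qexpFun 1 G ∈ laurentBaseChange ℂ (F1.F1 M) := by
  have hT : ModularGroup.T ∈ Gamma1 M := by
    rw [Gamma1_mem]
    simp [ModularGroup.T]
  have hq := hG.hasQExp hT
  have hmem : G ∈ iactRing (RingHom.id ℂ) M := mem_iactRing_id (mem_holN_of_isGood hG) hG.2.1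
  refine dict1_ring (ι := RingHom.id ℂ) (infRoot 1 M) infRoot_id_496 (pAvC M) pAvC_comp pAvC_exp
    ⟨G, hmem⟩ ?_ (H708.qexpFun 1 G) ?_
  · intro γ hγ
    apply Subtype.ext
    funext τ
    rw [iact_smul_apply]
    exact hG.2.1 γ⁻¹ (inv_mem hγ) τ
  · apply iactExp_eq
    rw [coeffMap_id]
    exact Fermat.Agent.S29.H282.infExp_level_of_hasQExp hq

/-- **Kum leaf `inter`**, verbatim. -/
theorem dictInter1 (M : ℕ) [NeZero M] : Kum.DictInter (Gamma1 M) (F1.F1Bar M) := by
  intro G s hG hs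
  have h := qexp_mem_of_isGood hG
  rw [hs] at h
  exact Fermat.Agent.S29.H882.mem_laurentBaseChange_of_coeffMap_mem Deg457.iotaC (F1.F1 M) h

end Fermat.Agent.S48.H496

end
end
-- ===== PACK-END S48/H496/Inter1.lean

-- ===== PACK-BEGIN S48/H282/PkgK.lean
section



/-!
# Tower A1 / A1-KUM, K3 inputs (helper282) — the generic package over ANY coefficient field

helper332's PKG-GEN (`S48/H332/Pkg*.lean`) attaches to analytic input
`D : GenData M Γ (GenField.ofRat S₀ hj)` (avatars in `holN M` of a set `S₀ ∋ j` of RATIONAL Laurent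
series, invariant under `Γ`, separating the cosets of `Γ`) the `LocalData` of the field
`ℚ̄·ℚ(S₀)` over `ℚ̄`.  Here the SAME analytic input is used to produce the `LocalData` of

  `FGK K S₀ = laurentBaseChange K (ℚ(S₀))`

over ANY field `K` with an embedding `ι : K →+* ℂ` (the case needed for K3 is `K = ℂ`), exactly as
`S29/H282/{FracK,BridgeK,LocalK,CoreK,DegK}` did for `Γ₀(N)`:

* `RGK`, `inclRGK`, `liftGK`                    : the polynomial ring `K[S₀]` and its fraction field;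
* `bridgeGK`                                    : `K[S₀] →+* Hol`, `qexp (e r) = ΦK ι M r`;
* `sigmaGG`, `sigmaXG`, `mkLocalDataG`          : the embeddings and `LocalData` from an expansion;
* `dataInfG`, `dataFinG`                        : the local data at `∞` and over every `a : K`;
* `finiteDimensional_adjoin_jGK`, `finrank_adjoin_jGK` : `[FGK : K(j)] = [SL₂(ℤ) : Γ]`.
-/

set_option autoImplicit false
set_option linter.style.haveILetI false
set_option linter.unusedVariables false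
set_option linter.unusedSectionVars false

noncomputable section

open ModularCurve HahnSeries UpperHalfPlane IntermediateField
open scoped MatrixGroups

namespace Fermat.Agent.S48.H282

open Fermat.Agent.S24 Fermat.Agent.S24.H997 Fermat.Agent.S24.Deg457
open Fermat.Agent.S48.H332
open Fermat.Agent.S29.H282 (ΦK ΦK_injective ΦK_coeff ΦK_algebraMap ι_algebraMap epsAt)

/-! ### The field and its polynomial ring -/

section Frac

variable (K : Type*) [Field K] [Algebra ℚ K] (S₀ : Set (LaurentSeries ℚ))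

/-- The generators `S₀`, with coefficients in `K`. -/
def gensK : Set (LaurentSeries K) := ⇑(coeffEmb K) '' S₀

/-- The field `K·ℚ(S₀) ⊆ K((q))` (as a type). -/
abbrev FGK : Type _ := ↥(laurentBaseChange K (IntermediateField.adjoin ℚ S₀))

/-- `K·ℚ(S₀)` is generated over `K` by `S₀`. -/
theorem fgK_eq_adjoin :
    laurentBaseChange K (IntermediateField.adjoin ℚ S₀)
      = IntermediateField.adjoin K (gensK K S₀) := by
  apply le_antisymm
  · rw [laurentBaseChange, IntermediateField.adjoin_le_iff]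
    rintro _ ⟨x, hx, rfl⟩
    have hx' : x ∈ IntermediateField.adjoin ℚ S₀ := hx
    induction hx' using IntermediateField.adjoin_induction with
    | mem y hy => exact IntermediateField.subset_adjoin K _ ⟨y, hy, rfl⟩
    | algebraMap c =>
        have h : coeffEmb K (algebraMap ℚ (LaurentSeries ℚ) c)
            = algebraMap K (LaurentSeries K) (algebraMap ℚ K c) := by
          rw [coeffEmb, coeffMap_algebraMap']
        show coeffEmb K (algebraMap ℚ (LaurentSeries ℚ) c) ∈ _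
        rw [h]
        exact IntermediateField.algebraMap_mem _ _
    | add y z _ _ hy hz =>
        show coeffEmb K (y + z) ∈ _
        rw [map_add]
        exact add_mem (hy (by assumption)) (hz (by assumption))
    | inv y _ hy =>
        show coeffEmb K (y⁻¹) ∈ _
        rw [map_inv₀]
        exact inv_mem (hy (by assumption))
    | mul y z _ _ hy hz =>
        show coeffEmb K (y * z) ∈ _
        rw [map_mul]
        exact mul_mem (hy (by assumption)) (hz (by assumption))
  · rw [laurentBaseChange]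
    exact IntermediateField.adjoin.mono _ _ _
      (Set.image_mono (IntermediateField.subset_adjoin ℚ _))

/-- The polynomial ring `K[S₀] ⊆ K((q))`. -/
abbrev RGK : Subalgebra K (LaurentSeries K) := Algebra.adjoin K (gensK K S₀)

theorem RGK_le :
    RGK K S₀ ≤ (laurentBaseChange K (IntermediateField.adjoin ℚ S₀)).toSubalgebra := by
  rw [fgK_eq_adjoin]
  exact IntermediateField.algebra_adjoin_le_adjoin K (gensK K S₀)

/-- The inclusion `K[S₀] → K·ℚ(S₀)`. -/
def inclRGK : RGK K S₀ →ₐ[K] FGK K S₀ := Subalgebra.inclusion (RGK_le K S₀)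

@[simp] theorem coe_inclRGK (r : RGK K S₀) :
    ((inclRGK K S₀ r : FGK K S₀) : LaurentSeries K) = r := rfl

theorem inclRGK_injective : Function.Injective (inclRGK K S₀) :=
  Subalgebra.inclusion_injective (RGK_le K S₀)

theorem exists_div_inclRGK (f : FGK K S₀) :
    ∃ r t : RGK K S₀, t ≠ 0 ∧ f = inclRGK K S₀ r / inclRGK K S₀ t := by
  have hf : (f : LaurentSeries K) ∈ IntermediateField.adjoin K (gensK K S₀) := by
    rw [← fgK_eq_adjoin]; exact f.2
  obtain ⟨r, hr, s, hs, h⟩ := IntermediateField.mem_adjoin_iff_div.mp hf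
  by_cases hs0 : s = 0
  · refine ⟨0, 1, one_ne_zero, ?_⟩
    apply Subtype.ext
    rw [h, hs0, div_zero]
    simp
  · refine ⟨⟨r, hr⟩, ⟨s, hs⟩, fun h0 => hs0 (congrArg Subtype.val h0), ?_⟩
    apply Subtype.ext
    rw [h]
    simp

variable {S₀}

/-- A generator as an element of `K[S₀]`. -/
def genRK {s : LaurentSeries ℚ} (hs : s ∈ S₀) : RGK K S₀ :=
  ⟨coeffEmb K s, Algebra.subset_adjoin ⟨s, hs, rfl⟩⟩

/-- The `j`-function as an element of `K·ℚ(S₀)`. -/
def jGK (hj : jq ∈ S₀) : FGK K S₀ :=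
  ⟨coeffEmb K jq, coeffEmb_mem_laurentBaseChange K (IntermediateField.subset_adjoin ℚ S₀ hj)⟩

theorem inclRGK_genRK_j (hj : jq ∈ S₀) : inclRGK K S₀ (genRK K hj) = jGK K hj := rfl

theorem coe_jGK (hj : jq ∈ S₀) : ((jGK K hj : FGK K S₀) : LaurentSeries K) = JK K := rfl

section Lift

variable {K}
variable {L : Type*} [Field L]

/-- Extension of an injective ring hom `K[S₀] →+* L` to the fraction field `K·ℚ(S₀)`. -/
def liftGK (s : RGK K S₀ →+* L) (hs : Function.Injective s) : FGK K S₀ →+* L :=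
  letI : Algebra (RGK K S₀) (FGK K S₀) := (inclRGK K S₀).toRingHom.toAlgebra
  haveI : FaithfulSMul (RGK K S₀) (FGK K S₀) :=
    (faithfulSMul_iff_algebraMap_injective _ _).mpr (inclRGK_injective K S₀)
  haveI : IsFractionRing (RGK K S₀) (FGK K S₀) :=
    IsFractionRing.of_field _ _ fun z => by
      obtain ⟨r, t, -, h⟩ := exists_div_inclRGK K S₀ z
      exact ⟨r, t, h⟩
  IsFractionRing.lift hs

theorem liftGK_inclRGK (s : RGK K S₀ →+* L) (hs : Function.Injective s) (r : RGK K S₀) :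
    liftGK s hs (inclRGK K S₀ r) = s r := by
  let _ : Algebra (RGK K S₀) (FGK K S₀) := (inclRGK K S₀).toRingHom.toAlgebra
  have : FaithfulSMul (RGK K S₀) (FGK K S₀) :=
    (faithfulSMul_iff_algebraMap_injective _ _).mpr (inclRGK_injective K S₀)
  have : IsFractionRing (RGK K S₀) (FGK K S₀) :=
    IsFractionRing.of_field _ _ fun z => by
      obtain ⟨r, t, -, h⟩ := exists_div_inclRGK K S₀ z
      exact ⟨r, t, h⟩
  exact IsFractionRing.lift_algebraMap hs r

theorem liftGK_div (s : RGK K S₀ →+* L) (hs : Function.Injective s) (r t : RGK K S₀) :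
    liftGK s hs (inclRGK K S₀ r / inclRGK K S₀ t) = s r / s t := by
  rw [map_div₀, liftGK_inclRGK, liftGK_inclRGK]

theorem liftGK_algebraMap (s : RGK K S₀ →+* L) (hs : Function.Injective s) (c : K) :
    liftGK s hs (algebraMap K (FGK K S₀) c) = s (algebraMap K (RGK K S₀) c) := by
  rw [← liftGK_inclRGK s hs]
  congr 1

end Lift

end Frac

/-! ### The bridge -/

section Bridge

variable {K : Type*} [Field K] [Algebra ℚ K] (ι : K →+* ℂ)
variable {S₀ : Set (LaurentSeries ℚ)} {hj : jq ∈ S₀}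
variable {M : ℕ} [NeZero M] {Γ : Subgroup SL(2, ℤ)} (B : GenBase M Γ (GenField.ofRat S₀ hj))

/-- membership of a rational generator in the generating set of `GenField.ofRat` -/
theorem mem_ofRat_S {s : LaurentSeries ℚ} (hs : s ∈ S₀) :
    coeffEmb Kbar s ∈ (GenField.ofRat S₀ hj).S := ⟨s, hs, rfl⟩

/-- the avatar of a rational generator as an element of `Hol` -/
def GHQ {s : LaurentSeries ℚ} (hs : s ∈ S₀) : B.Hol := B.GH (mem_ofRat_S (hj := hj) hs)

theorem compH_GHQ_of_mem {s : LaurentSeries ℚ} (hs : s ∈ S₀) {g : SL(2, ℤ)} (hg : g ∈ Γ) :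
    B.compH g (GHQ B hs) = GHQ B hs :=
  B.compH_GH_of_mem _ hg

theorem GHQ_j : GHQ B hj = B.JH := rfl

theorem ΦK_genG {s : LaurentSeries ℚ} (hs : s ∈ S₀) :
    ΦK ι M (coeffEmb K s) = B.qexp (GHQ B hs) := by
  rw [GHQ, B.qexp_GH]
  show qExpand ℂ M (coeffMap ι (coeffEmb K s)) = qExpand ℂ M (coeffMap ιK (coeffEmb Kbar s))
  rw [coeffMap_coeffEmb', coeffMap_coeffEmb']

theorem ΦK_mem_rangeG {r : LaurentSeries K} (hr : r ∈ RGK K S₀) : ΦK ι M r ∈ B.qexp.range := by
  induction hr using Algebra.adjoin_induction with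
  | mem x hx =>
      obtain ⟨y, hy, rfl⟩ := hx
      exact ⟨GHQ B hy, (ΦK_genG ι B hy).symm⟩
  | algebraMap c =>
      exact ⟨B.constH (ι c), by rw [ΦK_algebraMap]; exact B.qexp_const _⟩
  | add _ _ _ _ hx hy => rw [map_add]; exact add_mem hx hy
  | mul _ _ _ _ hx hy => rw [map_mul]; exact mul_mem hx hy

/-- The bridge `e : K[S₀] →+* Hol`. -/
def bridgeGK : RGK K S₀ →+* B.Hol :=
  (B.qexpEquiv.symm : B.qexp.range →+* B.Hol).comp
    (((ΦK ι M).comp (RGK K S₀).val.toRingHom).codRestrict B.qexp.range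
      fun r => ΦK_mem_rangeG ι B r.2)

theorem qexp_bridgeGK (r : RGK K S₀) :
    B.qexp (bridgeGK ι B r) = ΦK ι M (r : LaurentSeries K) := by
  have h := B.qexpEquiv.apply_symm_apply
    ((((ΦK ι M).comp (RGK K S₀).val.toRingHom).codRestrict B.qexp.range
      fun r => ΦK_mem_rangeG ι B r.2) r)
  exact congrArg Subtype.val h

theorem bridgeGK_injective : Function.Injective (bridgeGK ι B) := by
  intro r r' h
  apply Subtype.ext
  apply ΦK_injective ι (N := M)
  rw [← qexp_bridgeGK, ← qexp_bridgeGK, h]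

theorem bridgeGK_algebraMap (c : K) :
    bridgeGK ι B (algebraMap K (RGK K S₀) c) = B.constH (ι c) := by
  apply B.qexp_injective
  rw [qexp_bridgeGK]
  show ΦK ι M (algebraMap K (LaurentSeries K) c) = _
  rw [ΦK_algebraMap]
  exact (B.qexp_const _).symm

theorem bridgeGK_genRK {s : LaurentSeries ℚ} (hs : s ∈ S₀) :
    bridgeGK ι B (genRK K hs) = GHQ B hs := by
  apply B.qexp_injective
  rw [qexp_bridgeGK]
  exact ΦK_genG ι B hs

theorem bridgeGK_genRK_j : bridgeGK ι B (genRK K hj) = B.JH := bridgeGK_genRK ι B hj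

/-- Every `e r` is `Γ`-invariant. -/
theorem compH_bridgeGK_of_mem {g : SL(2, ℤ)} (hg : g ∈ Γ) (r : RGK K S₀) :
    B.compH g (bridgeGK ι B r) = bridgeGK ι B r := by
  obtain ⟨r, hr⟩ := r
  induction hr using Algebra.adjoin_induction with
  | mem x hx =>
      obtain ⟨y, hy, rfl⟩ := hx
      have : (⟨coeffEmb K y, Algebra.subset_adjoin ⟨y, hy, rfl⟩⟩ : RGK K S₀) = genRK K hy := rfl
      rw [this, bridgeGK_genRK]
      exact compH_GHQ_of_mem B hy hg
  | algebraMap c =>
      have : (⟨algebraMap K (LaurentSeries K) c, Subalgebra.algebraMap_mem _ c⟩ : RGK K S₀)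
          = algebraMap K (RGK K S₀) c := rfl
      rw [this, bridgeGK_algebraMap]
      rfl
  | add x y hx hy ihx ihy =>
      have : (⟨x + y, add_mem hx hy⟩ : RGK K S₀) = ⟨x, hx⟩ + ⟨y, hy⟩ := rfl
      rw [this, RingHom.map_add, RingHom.map_add, ihx, ihy]
  | mul x y hx hy ihx ihy =>
      have : (⟨x * y, mul_mem hx hy⟩ : RGK K S₀) = ⟨x, hx⟩ * ⟨y, hy⟩ := rfl
      rw [this, RingHom.map_mul, RingHom.map_mul, ihx, ihy]

end Bridge

/-! ### `LocalData` from an expansion with rotation data -/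

section Local

variable {K : Type*} [Field K] [Algebra ℚ K] (ι : K →+* ℂ)
variable {S₀ : Set (LaurentSeries ℚ)} {hj : jq ∈ S₀}
variable {M : ℕ} [NeZero M] {Γ : Subgroup SL(2, ℤ)} (B : GenBase M Γ (GenField.ofRat S₀ hj))
variable (X : GenExpansion B)

/-- the ring hom `K[S₀] → ℂ((z))`, `r ↦ E (e r ∘ g⁻¹)` -/
def sGG (g : SL(2, ℤ)) : RGK K S₀ →+* LaurentSeries ℂ :=
  X.E.comp ((B.compH g⁻¹).comp (bridgeGK ι B))

theorem sGG_apply (g : SL(2, ℤ)) (r : RGK K S₀) :
    sGG ι B X g r = X.E (B.compH g⁻¹ (bridgeGK ι B r)) := rfl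

theorem sGG_injective (g : SL(2, ℤ)) : Function.Injective (sGG ι B X g) :=
  X.inj.comp ((B.compH_injective g⁻¹).comp (bridgeGK_injective ι B))

/-- the embedding `K·ℚ(S₀) → ℂ((z))` attached to `g` -/
def sigmaGG (g : SL(2, ℤ)) : FGK K S₀ →+* LaurentSeries ℂ :=
  liftGK (sGG ι B X g) (sGG_injective ι B X g)

theorem sigmaGG_inclRGK (g : SL(2, ℤ)) (r : RGK K S₀) :
    sigmaGG ι B X g (inclRGK K S₀ r) = X.E (B.compH g⁻¹ (bridgeGK ι B r)) :=
  liftGK_inclRGK _ _ r

theorem sigmaGG_algebraMap (g : SL(2, ℤ)) (c : K) :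
    sigmaGG ι B X g (algebraMap K (FGK K S₀) c) = HahnSeries.C (ι c) := by
  rw [sigmaGG, liftGK_algebraMap, sGG_apply, bridgeGK_algebraMap, GenBase.compH_constH, X.const]

theorem sigmaGG_jGK (g : SL(2, ℤ)) :
    sigmaGG ι B X g (jGK K hj) = X.E B.JH := by
  rw [← inclRGK_genRK_j, sigmaGG_inclRGK, bridgeGK_genRK_j, GenBase.compH_JH]

theorem sGG_mul_of_mem (g : SL(2, ℤ)) {δ : SL(2, ℤ)} (hδ : δ ∈ Γ) :
    sGG ι B X (g * δ) = sGG ι B X g := by
  ext1 r
  rw [sGG_apply, sGG_apply, mul_inv_rev, GenBase.compH_mul,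
    compH_bridgeGK_of_mem ι B (inv_mem hδ)]

theorem sigmaGG_mul_of_mem (g : SL(2, ℤ)) {δ : SL(2, ℤ)}
    (hδ : δ ∈ Γ) : sigmaGG ι B X (g * δ) = sigmaGG ι B X g := by
  unfold sigmaGG
  congr 1
  exact sGG_mul_of_mem ι B X g hδ

theorem sigmaGG_eq_of_mk_eq {g g' : SL(2, ℤ)}
    (h : (g : XG Γ) = (g' : XG Γ)) : sigmaGG ι B X g = sigmaGG ι B X g' := by
  have hmem : g⁻¹ * g' ∈ Γ := QuotientGroup.eq.mp h
  have := sigmaGG_mul_of_mem ι B X g hmem
  rw [mul_inv_cancel_left] at this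
  exact this.symm

/-- the embedding attached to a coset -/
def sigmaXG (x : XG Γ) : FGK K S₀ →+* LaurentSeries ℂ := sigmaGG ι B X (Quotient.out x)

theorem sigmaXG_mk (g : SL(2, ℤ)) : sigmaXG ι B X (g : XG Γ) = sigmaGG ι B X g :=
  sigmaGG_eq_of_mk_eq ι B X (QuotientGroup.out_eq' _)

theorem sigmaXG_injective : Function.Injective (sigmaXG (K := K) ι B X) := by
  intro x y hxy
  obtain ⟨g, rfl⟩ := QuotientGroup.mk_surjective x
  obtain ⟨g', rfl⟩ := QuotientGroup.mk_surjective y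
  rw [sigmaXG_mk, sigmaXG_mk] at hxy
  apply QuotientGroup.eq.mpr
  apply B.G_distinct
  rintro _ ⟨s, hs, rfl⟩ τ
  have h1 := congrArg (fun σ => σ (inclRGK K S₀ (genRK K hs))) hxy
  simp only [sigmaGG_inclRGK, bridgeGK_genRK] at h1
  have h2 := X.inj h1
  have h3 := congrArg (fun h : B.Hol => (h : ℍ → ℂ) (g' • τ)) h2
  simp only [GenBase.compH_apply] at h3
  rw [← mul_smul, ← mul_smul, inv_mul_cancel, one_smul] at h3
  exact h3

theorem rotRel_sigmaGG (ε : SL(2, ℤ)) (R : GenRotData B X ε) (g : SL(2, ℤ)) (f : FGK K S₀) :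
    RotRel R.ζ (sigmaGG ι B X g f) (sigmaGG ι B X (ε⁻¹ * g) f) := by
  have hζ : R.ζ ≠ 0 := R.hζ.ne_zero R.m_pos.ne'
  obtain ⟨r, t, -, rfl⟩ := exists_div_inclRGK K S₀ f
  rw [map_div₀, map_div₀]
  have key : ∀ r : RGK K S₀, RotRel R.ζ (sigmaGG ι B X g (inclRGK K S₀ r))
      (sigmaGG ι B X (ε⁻¹ * g) (inclRGK K S₀ r)) := by
    intro r
    rw [sigmaGG_inclRGK, sigmaGG_inclRGK, mul_inv_rev, inv_inv, GenBase.compH_mul]
    exact R.rot _
  exact (key r).div hζ (key t)

/-- `LocalData` from an expansion with rotation data. -/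
def mkLocalDataG (ε : SL(2, ℤ)) (R : GenRotData B X ε) (t : FGK K S₀) (u : LaurentSeries ℂ)
    (ht : ∀ g : SL(2, ℤ), sigmaGG ι B X g t = u) (hu : u.order = (R.m : ℤ)) :
    LocalData K (FGK K S₀) ℂ (XG Γ) t where
  m := R.m
  m_pos := R.m_pos
  ζ := R.ζ
  hζ := R.hζ
  ι := ι
  perm := permG Γ ε⁻¹
  σ := sigmaXG ι B X
  σ_inj := sigmaXG_injective ι B X
  σ_const x c := sigmaGG_algebraMap ι B X _ c
  σ_t_eq x y := by
    show sigmaGG ι B X _ t = sigmaGG ι B X _ t
    rw [ht, ht]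
  σ_t_order x := by
    show (sigmaGG ι B X _ t).order = _
    rw [ht, hu]
  σ_perm_order x f := by
    obtain ⟨g, rfl⟩ := QuotientGroup.mk_surjective x
    have h : permG Γ ε⁻¹ (g : XG Γ) = ((ε⁻¹ * g : SL(2, ℤ)) : XG Γ) := rfl
    rw [h, sigmaXG_mk, sigmaXG_mk]
    exact (rotRel_sigmaGG ι B X ε R g f).1
  σ_perm_leadingCoeff x f := by
    obtain ⟨g, rfl⟩ := QuotientGroup.mk_surjective x
    have h : permG Γ ε⁻¹ (g : XG Γ) = ((ε⁻¹ * g : SL(2, ℤ)) : XG Γ) := rfl
    rw [h, sigmaXG_mk, sigmaXG_mk]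
    exact (rotRel_sigmaGG ι B X ε R g f).2

@[simp] theorem mkLocalDataG_perm (ε : SL(2, ℤ)) (R : GenRotData B X ε) (t : FGK K S₀)
    (u : LaurentSeries ℂ) (ht : ∀ g : SL(2, ℤ), sigmaGG ι B X g t = u)
    (hu : u.order = (R.m : ℤ)) :
    (mkLocalDataG ι B X ε R t u ht hu).perm = permG Γ ε⁻¹ := rfl

@[simp] theorem mkLocalDataG_σ (ε : SL(2, ℤ)) (R : GenRotData B X ε) (t : FGK K S₀)
    (u : LaurentSeries ℂ) (ht : ∀ g : SL(2, ℤ), sigmaGG ι B X g t = u)
    (hu : u.order = (R.m : ℤ)) :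
    (mkLocalDataG ι B X ε R t u ht hu).σ = sigmaXG ι B X := rfl

@[simp] theorem mkLocalDataG_m (ε : SL(2, ℤ)) (R : GenRotData B X ε) (t : FGK K S₀)
    (u : LaurentSeries ℂ) (ht : ∀ g : SL(2, ℤ), sigmaGG ι B X g t = u)
    (hu : u.order = (R.m : ℤ)) :
    (mkLocalDataG ι B X ε R t u ht hu).m = R.m := rfl

end Local

/-! ### The local data at every point -/

section Core

variable {K : Type*} [Field K] [Algebra ℚ K] (ι : K →+* ℂ)
variable {S₀ : Set (LaurentSeries ℚ)} {hj : jq ∈ S₀}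
variable {M : ℕ} [NeZero M] {Γ : Subgroup SL(2, ℤ)} (A : GenCore M Γ (GenField.ofRat S₀ hj))

/-- the local data at `∞` -/
def dataInfG : LocalData K (FGK K S₀) ℂ (XG Γ) (jGK K hj)⁻¹ :=
  mkLocalDataG ι A.toGenBase A.toGenBase.qexpExpansion ModularGroup.T A.infRot (jGK K hj)⁻¹
    (A.qexp A.toGenBase.JH)⁻¹
    (fun g => by rw [map_inv₀, sigmaGG_jGK]; rfl)
    (by
      rw [RotRel.order_inv' A.toGenBase.qexp_JH_ne_zero, A.toGenBase.order_qexp_JH, neg_neg]
      rfl)

theorem sigmaGG_sub {a : K} {ε : SL(2, ℤ)} (Q : GenPointData A.toGenBase (ι a) ε)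
    (g : SL(2, ℤ)) :
    sigmaGG ι A.toGenBase Q.X g (jGK K hj - algebraMap K (FGK K S₀) a)
      = Q.X.E (A.toGenBase.JH - A.toGenBase.constH (ι a)) := by
  rw [map_sub, sigmaGG_jGK, sigmaGG_algebraMap, map_sub, Q.X.const]

/-- the local data attached to point data over `a` -/
def dataOfPointG {a : K} {ε : SL(2, ℤ)} (Q : GenPointData A.toGenBase (ι a) ε) :
    LocalData K (FGK K S₀) ℂ (XG Γ) (jGK K hj - algebraMap K (FGK K S₀) a) :=
  mkLocalDataG ι A.toGenBase Q.X ε Q.R _ _ (fun g => sigmaGG_sub ι A Q g) Q.order_J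

/-- all the embeddings `σ_x` agree on `K(j)` -/
theorem sigmaXG_eq_on_adjoin (X : GenExpansion A.toGenBase) (x y : XG Γ) {f : FGK K S₀}
    (hf : f ∈ IntermediateField.adjoin K {jGK K hj}) :
    sigmaXG ι A.toGenBase X x f = sigmaXG ι A.toGenBase X y f := by
  induction hf using IntermediateField.adjoin_induction with
  | mem z hz =>
      rw [Set.mem_singleton_iff] at hz
      subst hz
      show sigmaGG ι A.toGenBase X _ (jGK K hj) = sigmaGG ι A.toGenBase X _ (jGK K hj)
      rw [sigmaGG_jGK, sigmaGG_jGK]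
  | algebraMap c =>
      show sigmaGG ι A.toGenBase X _ _ = sigmaGG ι A.toGenBase X _ _
      rw [sigmaGG_algebraMap, sigmaGG_algebraMap]
  | add z w _ _ hz hw => rw [map_add, map_add, hz, hw]
  | inv z _ hz => rw [map_inv₀, map_inv₀, hz]
  | mul z w _ _ hz hw => rw [map_mul, map_mul, hz, hw]

include ι A in
/-- lower bound for the degree: `|SL₂(ℤ)/Γ| ≤ [K·ℚ(S₀) : K(j)]`. -/
theorem card_le_finrankG
    [FiniteDimensional ↥(IntermediateField.adjoin K {jGK K hj}) (FGK K S₀)] :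
    Nat.card (XG Γ) ≤ Module.finrank ↥(IntermediateField.adjoin K {jGK K hj}) (FGK K S₀) := by
  classical
  set E := IntermediateField.adjoin K {jGK K hj} with hE
  let X := A.toGenBase.qexpExpansion
  let x0 : XG Γ := ((1 : SL(2, ℤ)) : XG Γ)
  let ψ : ↥E →+* LaurentSeries ℂ :=
    (sigmaXG ι A.toGenBase X x0).comp (algebraMap ↥E (FGK K S₀))
  letI : Algebra ↥E (LaurentSeries ℂ) := ψ.toAlgebra
  let a : XG Γ → (FGK K S₀ →ₐ[↥E] LaurentSeries ℂ) := fun x =>
    { sigmaXG ι A.toGenBase X x with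
      commutes' := fun y => sigmaXG_eq_on_adjoin ι A X x x0 y.2 }
  have ha : Function.Injective a := by
    intro x y hxy
    apply sigmaXG_injective ι A.toGenBase X
    refine RingHom.ext fun f => ?_
    exact congrArg (fun φ : FGK K S₀ →ₐ[↥E] LaurentSeries ℂ => φ f) hxy
  haveI : Module.Free ↥E (FGK K S₀) := Module.Free.of_divisionRing ↥E (FGK K S₀)
  haveI : Module.Finite ↥E (FGK K S₀) := ‹FiniteDimensional ↥E (FGK K S₀)›
  haveI : Finite (FGK K S₀ →ₐ[↥E] LaurentSeries ℂ) :=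
    Finite.algHom ↥E (FGK K S₀) (LaurentSeries ℂ)
  calc Nat.card (XG Γ) ≤ Nat.card (FGK K S₀ →ₐ[↥E] LaurentSeries ℂ) :=
        Nat.card_le_card_of_injective a ha
    _ ≤ Module.finrank ↥E (FGK K S₀) := card_algHom_le_finrank ↥E (FGK K S₀) (LaurentSeries ℂ)

/-- the point data over the point `a` -/
def pointAtG (a : K) : GenPointData A.toGenBase (ι a) (epsAt ι a) :=
  letI := Classical.propDecidable
  if h0 : ι a = 0 then by
    rw [epsAt, if_pos h0, h0]; exact A.at0
  else if h1 : ι a = 1728 then by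
    rw [epsAt, if_neg h0, if_pos h1, h1]; exact A.at1728
  else by
    rw [epsAt, if_neg h0, if_neg h1]; exact A.generic (ι a) h0 h1

/-- the local data over a finite point `a : K` -/
def dataFinG (a : K) :
    LocalData K (FGK K S₀) ℂ (XG Γ) (jGK K hj - algebraMap K (FGK K S₀) a) :=
  dataOfPointG ι A (pointAtG ι A a)

theorem dataFinG_perm (a : K) : (dataFinG ι A a).perm = permG Γ (epsAt ι a)⁻¹ := rfl

theorem dataFinG_σ (a : K) :
    (dataFinG ι A a).σ = sigmaXG ι A.toGenBase (pointAtG ι A a).X := rfl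

theorem dataFinG_m (a : K) : (dataFinG ι A a).m = (pointAtG ι A a).R.m := rfl

theorem dataInfG_perm : (dataInfG (K := K) ι A).perm = permG Γ ModularGroup.T⁻¹ := rfl

theorem dataInfG_σ :
    (dataInfG (K := K) ι A).σ = sigmaXG ι A.toGenBase A.toGenBase.qexpExpansion := rfl

theorem dataInfG_m : (dataInfG (K := K) ι A).m = M := rfl

end Core

/-! ### The degree -/

section Deg

variable {K : Type*} [Field K] [Algebra ℚ K] (ι : K →+* ℂ)
variable {S₀ : Set (LaurentSeries ℚ)} {hj : jq ∈ S₀}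
variable {M : ℕ} [NeZero M] {Γ : Subgroup SL(2, ℤ)} (D : GenData M Γ (GenField.ofRat S₀ hj))

theorem coeffMap_image_gensK :
    ⇑(coeffMap ι) '' gensK K S₀ = GenData.SC (GenField.ofRat S₀ hj) := by
  ext x
  constructor
  · rintro ⟨_, ⟨s, hs, rfl⟩, rfl⟩
    refine ⟨coeffEmb Kbar s, ⟨s, hs, rfl⟩, ?_⟩
    rw [coeffMap_coeffEmb', coeffMap_coeffEmb']
  · rintro ⟨_, ⟨s, hs, rfl⟩, rfl⟩
    refine ⟨coeffEmb K s, ⟨s, hs, rfl⟩, ?_⟩
    rw [coeffMap_coeffEmb', coeffMap_coeffEmb']

include ι D in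
/-- **Degree bound**: `[K·ℚ(S₀) : K(j)] ≤ [SL₂(ℤ) : Γ]`. -/
theorem finiteDimensional_and_finrank_leG [Finite (XG Γ)] :
    FiniteDimensional ↥(IntermediateField.adjoin K {jGK K hj}) (FGK K S₀) ∧
      Module.finrank ↥(IntermediateField.adjoin K {jGK K hj}) (FGK K S₀) ≤ Nat.card (XG Γ) := by
  haveI : CharZero K := algebraRat.charZero K
  have hyp : HypG ℂ (⇑(coeffMap ι) '' gensK K S₀) (Nat.card (XG Γ)) := by
    rw [coeffMap_image_gensK ι (hj := hj)]
    exact D.hypG
  exact finiteDimensional_and_finrank_le_G ι (S := gensK K S₀) ⟨jq, hj, rfl⟩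
    (laurentBaseChange K (IntermediateField.adjoin ℚ S₀)) (fgK_eq_adjoin K S₀) (jGK K hj) rfl
    _ hyp

include ι D in
theorem finiteDimensional_adjoin_jGK [Finite (XG Γ)] :
    FiniteDimensional ↥(IntermediateField.adjoin K {jGK K hj}) (FGK K S₀) :=
  (finiteDimensional_and_finrank_leG ι D).1

include ι D in
/-- **The degree**: `[K·ℚ(S₀) : K(j)] = [SL₂(ℤ) : Γ]`. -/
theorem finrank_adjoin_jGK [Finite (XG Γ)] :
    Module.finrank ↥(IntermediateField.adjoin K {jGK K hj}) (FGK K S₀) = Nat.card (XG Γ) := by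
  haveI := finiteDimensional_adjoin_jGK ι D
  exact le_antisymm (finiteDimensional_and_finrank_leG ι D).2 (card_le_finrankG ι D.core)

end Deg

end Fermat.Agent.S48.H282

end
end
-- ===== PACK-END S48/H282/PkgK.lean

-- ===== PACK-BEGIN S48/H282/DictK.lean
section



/-!
# Tower A1 / A1-KUM, K3 inputs (helper282) — the places dictionary of `K·ℚ(S₀)`, generic

Generic port (ANY `Γ`, ANY set `S₀ ∋ j` of rational generators with analytic input
`D : GenData M Γ (GenField.ofRat S₀ hj)`, ANY algebraically closed `K` with `ι : K →+* ℂ`) of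
`S29/H282/{Rot,Dict,DictEasy}`:

* `IsAvatarG`                : `h : Hol` is an analytic avatar of `f : FGK K S₀`;
* `exists_placeOf_eqG`       : every place of `K·ℚ(S₀) / K` is induced by one of the embeddings of
                               `dataInfG` or `dataFinG a`;
* `dvd_ord_of_isAvatar_powG` : (**DICT-hard**) `f` with avatar `h ^ m`, `h` invariant under the
                               special elements of `Γ` ⟹ `m ∣ ord_w f` at every place `w`;
* `IsAvatarG.exists_ordAt_eq_mul` : (**DICT-easy**) `m ∣ ord_w f` at every place ⟹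
                               `m ∣ ord_τ h` at every `τ` with `j(τ) ∈ ι(K)`.
-/

set_option autoImplicit false
set_option linter.style.haveILetI false
set_option linter.unusedVariables false
set_option linter.unusedSectionVars false

noncomputable section

open ModularCurve HahnSeries UpperHalfPlane AlgebraicCurve IntermediateField
open scoped MatrixGroups Manifold

namespace Fermat.Agent.S48.H282

open Fermat.Agent.S24 Fermat.Agent.S24.H997 Fermat.Agent.S24.Deg457 Fermat.Agent.S24.H624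
open Fermat.Agent.S20.L1
open Fermat.Agent.S48.H332
open Fermat.Agent.S29.H282 (ΦK ΦK_injective ΦK_coeff ΦK_algebraMap ι_algebraMap epsAt
  IsSpecialElt isSpecialElt_T_pow isSpecialElt_epsAt_pow card_orbit_eq_ord_t perm_pow_ord_t_apply)

/-! ### Iterating the rotation relation -/

section Rot

variable {M : ℕ} [NeZero M] {Γ : Subgroup SL(2, ℤ)} {P : GenField}
variable (B : GenBase M Γ P) (X : GenExpansion B)

theorem compH_pow_succG (ε : SL(2, ℤ)) (i : ℕ) (H : B.Hol) :
    B.compH (ε ^ (i + 1)) H = B.compH ε (B.compH (ε ^ i) H) := by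
  rw [pow_succ, GenBase.compH_mul]

/-- iterating the rotation relation -/
theorem rot_iterateG (ε : SL(2, ℤ)) (R : GenRotData B X ε) (H : B.Hol) (i : ℕ) :
    (X.E (B.compH (ε ^ i) H)).order = (X.E H).order ∧
      (X.E (B.compH (ε ^ i) H)).leadingCoeff
        = (R.ζ ^ (X.E H).order) ^ i * (X.E H).leadingCoeff := by
  induction i with
  | zero => simp [GenBase.compH_one]
  | succ n ih =>
    have h := R.rot (B.compH (ε ^ n) H)
    rw [compH_pow_succG]
    refine ⟨by rw [h.1, ih.1], ?_⟩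
    rw [h.2, ih.1, ih.2, pow_succ]
    ring

/-- **Key divisibility.**  If `H` is invariant under `ε ^ e`, then the order `m` of the rotation
divides `e * ord (E H)`. -/
theorem rot_dvd_of_compH_pow_eqG (ε : SL(2, ℤ)) (R : GenRotData B X ε) (H : B.Hol) (e : ℕ)
    (hH : B.compH (ε ^ e) H = H) : (R.m : ℤ) ∣ (e : ℤ) * (X.E H).order := by
  by_cases h0 : X.E H = 0
  · rw [h0, order_zero, mul_zero]
    exact dvd_zero _
  · have hlc : (X.E H).leadingCoeff ≠ 0 := leadingCoeff_ne_zero.mpr h0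
    have h := (rot_iterateG B X ε R H e).2
    rw [hH] at h
    have h1 : (R.ζ ^ (X.E H).order) ^ e = 1 := by
      have : (R.ζ ^ (X.E H).order) ^ e * (X.E H).leadingCoeff = 1 * (X.E H).leadingCoeff := by
        rw [one_mul]; exact h.symm
      exact mul_right_cancel₀ hlc this
    have h2 : R.ζ ^ ((X.E H).order * (e : ℤ)) = 1 := by
      rw [zpow_mul, zpow_natCast]
      exact h1
    have h3 := (R.hζ.zpow_eq_one_iff_dvd _).mp h2
    rwa [mul_comm] at h3

end Rot

/-! ### Avatars -/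

section Avatar

variable {K : Type*} [Field K] [Algebra ℚ K] (ι : K →+* ℂ)
variable {S₀ : Set (LaurentSeries ℚ)} {hj : jq ∈ S₀}
variable {M : ℕ} [NeZero M] {Γ : Subgroup SL(2, ℤ)} (B : GenBase M Γ (GenField.ofRat S₀ hj))

/-- `h : Hol` is an analytic avatar of `f : FGK K S₀`: the expansion of `h` at `i∞` (in the
variable `q^{1/M}`) is the Laurent series `f` (coefficients mapped by `ι`). -/
def IsAvatarG (f : FGK K S₀) (h : B.Hol) : Prop := B.qexp h = ΦK ι M (f : LaurentSeries K)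

variable {ι B}

theorem isAvatarG_inclRGK (r : RGK K S₀) : IsAvatarG ι B (inclRGK K S₀ r) (bridgeGK ι B r) :=
  qexp_bridgeGK ι B r

theorem IsAvatarG.unique {f : FGK K S₀} {h h' : B.Hol} (hav : IsAvatarG ι B f h)
    (hav' : IsAvatarG ι B f h') : h = h' :=
  B.qexp_injective (hav.trans hav'.symm)

theorem IsAvatarG.injective {f f' : FGK K S₀} {h : B.Hol} (hav : IsAvatarG ι B f h)
    (hav' : IsAvatarG ι B f' h) : f = f' :=
  Subtype.ext (ΦK_injective ι (hav.symm.trans hav'))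

theorem isAvatarG_zero : IsAvatarG ι B (0 : FGK K S₀) 0 := by
  show B.qexp 0 = ΦK ι M ((0 : FGK K S₀) : LaurentSeries K)
  simp

theorem isAvatarG_one : IsAvatarG ι B (1 : FGK K S₀) 1 := by
  show B.qexp 1 = ΦK ι M ((1 : FGK K S₀) : LaurentSeries K)
  simp

theorem IsAvatarG.mul {f f' : FGK K S₀} {h h' : B.Hol} (hav : IsAvatarG ι B f h)
    (hav' : IsAvatarG ι B f' h') : IsAvatarG ι B (f * f') (h * h') := by
  show B.qexp (h * h') = ΦK ι M ((f * f' : FGK K S₀) : LaurentSeries K)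
  rw [map_mul, hav, hav', ← map_mul]
  rfl

theorem IsAvatarG.add {f f' : FGK K S₀} {h h' : B.Hol} (hav : IsAvatarG ι B f h)
    (hav' : IsAvatarG ι B f' h') : IsAvatarG ι B (f + f') (h + h') := by
  show B.qexp (h + h') = ΦK ι M ((f + f' : FGK K S₀) : LaurentSeries K)
  rw [map_add, hav, hav', ← map_add]
  rfl

theorem IsAvatarG.pow {f : FGK K S₀} {h : B.Hol} (hav : IsAvatarG ι B f h) (n : ℕ) :
    IsAvatarG ι B (f ^ n) (h ^ n) := by
  induction n with
  | zero => simpa using isAvatarG_one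
  | succ n ih => rw [pow_succ, pow_succ]; exact ih.mul hav

theorem IsAvatarG.eq_zero_iff {f : FGK K S₀} {h : B.Hol} (hav : IsAvatarG ι B f h) :
    h = 0 ↔ f = 0 :=
  ⟨fun h0 => hav.injective (h0 ▸ isAvatarG_zero), fun f0 => hav.unique (f0 ▸ isAvatarG_zero)⟩

/-- clearing denominators: `h * e(t) = e(r)` when `f = r / t` -/
theorem IsAvatarG.mul_bridgeGK {f : FGK K S₀} {h : B.Hol} (hav : IsAvatarG ι B f h)
    {r t : RGK K S₀} (ht : t ≠ 0) (hf : f = inclRGK K S₀ r / inclRGK K S₀ t) :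
    h * bridgeGK ι B t = bridgeGK ι B r := by
  have ht' : inclRGK K S₀ t ≠ 0 := fun h0 =>
    ht (inclRGK_injective K S₀ (h0.trans (map_zero _).symm))
  have h1 : f * inclRGK K S₀ t = inclRGK K S₀ r := by
    rw [hf, div_mul_cancel₀ _ ht']
  exact (hav.mul (isAvatarG_inclRGK t)).unique (h1 ▸ isAvatarG_inclRGK r)

/-- **The embeddings in terms of the avatar**: `σ_g f = E (h ∘ g⁻¹)`. -/
theorem IsAvatarG.sigmaGG_eq {f : FGK K S₀} {h : B.Hol} (hav : IsAvatarG ι B f h)
    (X : GenExpansion B) (g : SL(2, ℤ)) : sigmaGG ι B X g f = X.E (B.compH g⁻¹ h) := by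
  obtain ⟨r, t, ht, hf⟩ := exists_div_inclRGK K S₀ f
  have hmul := hav.mul_bridgeGK ht hf
  have ht' : X.E (B.compH g⁻¹ (bridgeGK ι B t)) ≠ 0 := by
    intro h0
    apply ht
    apply sGG_injective ι B X g
    rw [sGG_apply, h0, map_zero]
  rw [hf, map_div₀, sigmaGG_inclRGK, sigmaGG_inclRGK, ← hmul, map_mul, map_mul,
    mul_div_assoc, div_self ht', mul_one]

theorem IsAvatarG.sigmaXG_mk_eq {f : FGK K S₀} {h : B.Hol} (hav : IsAvatarG ι B f h)
    (X : GenExpansion B) (g : SL(2, ℤ)) :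
    sigmaXG ι B X (g : XG Γ) f = X.E (B.compH g⁻¹ h) := by
  rw [sigmaXG_mk]
  exact hav.sigmaGG_eq X g

end Avatar

/-! ### The dictionary, hard direction -/

section Dict

variable {K : Type*} [Field K] [Algebra ℚ K] (ι : K →+* ℂ)
variable {S₀ : Set (LaurentSeries ℚ)} {hj : jq ∈ S₀}
variable {M : ℕ} [NeZero M] {Γ : Subgroup SL(2, ℤ)}

theorem permG_pow_apply (γ : SL(2, ℤ)) (e : ℕ) (g : SL(2, ℤ)) :
    (permG Γ γ ^ e) (g : XG Γ) = ((γ ^ e * g : SL(2, ℤ)) : XG Γ) := by
  induction e with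
  | zero => simp
  | succ n ih =>
    rw [pow_succ', Equiv.Perm.mul_apply, ih, pow_succ', mul_assoc]
    rfl

/-- if `perm_{ε⁻¹} ^ e` fixes the coset of `g` then `g⁻¹ ε ^ e g ∈ Γ` -/
theorem conj_mem_of_permG_pow_apply_eq {ε g : SL(2, ℤ)} {e : ℕ}
    (h : (permG Γ ε⁻¹ ^ e) (g : XG Γ) = (g : XG Γ)) :
    g⁻¹ * ε ^ e * g ∈ Γ := by
  rw [permG_pow_apply] at h
  have h1 := QuotientGroup.eq.mp h
  have h2 : ((ε⁻¹) ^ e * g)⁻¹ * g = g⁻¹ * ε ^ e * g := by
    rw [mul_inv_rev, inv_pow, inv_inv]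
  rwa [h2] at h1

variable (B : GenBase M Γ (GenField.ofRat S₀ hj))

/-- `h` is invariant under the special elements (finite order or trace `2`) of `Γ` -/
def IsUnramifiedG (h : B.Hol) : Prop :=
  ∀ γ : SL(2, ℤ), γ ∈ Γ → IsSpecialElt γ → B.compH γ h = h

variable {B}

theorem IsUnramifiedG.compH_pow_eq {h : B.Hol} (hinv : IsUnramifiedG B h) {ε g : SL(2, ℤ)}
    {e : ℕ} (hε : IsSpecialElt (ε ^ e)) (hmem : g⁻¹ * ε ^ e * g ∈ Γ) :
    B.compH (ε ^ e) (B.compH g⁻¹ h) = B.compH g⁻¹ h := by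
  have h1 := hinv _ hmem (hε.conj g)
  rw [← GenBase.compH_mul]
  have h2 : g⁻¹ * ε ^ e = (g⁻¹ * ε ^ e * g) * g⁻¹ := by group
  rw [h2, GenBase.compH_mul, h1]

variable [IsAlgClosed K] [Finite (XG Γ)]

/-- **DICT-hard, local form**: for local data constructed from an expansion with rotation data for
`ε` (all of whose powers are special), the order at every place `placeOf x` of a function with
avatar `h ^ m`, `h` unramified, is divisible by `m`. -/
theorem dvd_ord_placeOf_mkLocalDataG (X : GenExpansion B) (ε : SL(2, ℤ)) (R : GenRotData B X ε)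
    (t : FGK K S₀) (u : LaurentSeries ℂ) (ht : ∀ g : SL(2, ℤ), sigmaGG ι B X g t = u)
    (hu : u.order = (R.m : ℤ))
    (E : IntermediateField K (FGK K S₀)) (hE : E ≤ K⟮t⟯) [FiniteDimensional E (FGK K S₀)]
    (hrank : Module.finrank E (FGK K S₀) = Nat.card (XG Γ))
    (hε : ∀ e : ℕ, IsSpecialElt (ε ^ e))
    {h : B.Hol} (hinv : IsUnramifiedG B h) {f : FGK K S₀} {m : ℕ}
    (hav : IsAvatarG ι B f (h ^ m)) (x : XG Γ) :
    (m : ℤ) ∣ (H117.placeOf (mkLocalDataG ι B X ε R t u ht hu) x).ord f := by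
  haveI : CharZero K := algebraRat.charZero K
  set L := mkLocalDataG ι B X ε R t u ht hu with hL
  obtain ⟨g, rfl⟩ := QuotientGroup.mk_surjective x
  set w := H117.placeOf L (g : XG Γ) with hw
  set e : ℕ := (w.ord t).toNat with he
  have hpos : 0 < w.ord t := H117.ord_t_pos L _
  have hecast : (e : ℤ) = w.ord t := Int.toNat_of_nonneg hpos.le
  have he0 : (e : ℤ) ≠ 0 := by rw [hecast]; exact hpos.ne'
  -- the orbit
  have hfix : (permG Γ ε⁻¹ ^ e) (g : XG Γ) = (g : XG Γ) :=
    perm_pow_ord_t_apply L E hE hrank (g : XG Γ)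
  have hmem := conj_mem_of_permG_pow_apply_eq hfix
  -- the rotation
  set H : B.Hol := B.compH g⁻¹ h with hH
  have hHinv : B.compH (ε ^ e) H = H := hinv.compH_pow_eq (hε e) hmem
  have hdvd : (R.m : ℤ) ∣ (e : ℤ) * (X.E H).order := rot_dvd_of_compH_pow_eqG B X ε R H e hHinv
  -- the multiplicity
  have hmult : (H117.mult L (g : XG Γ) : ℤ) * w.ord t = (R.m : ℤ) := H117.mult_mul_ord_t L _
  have hk0 : (H117.mult L (g : XG Γ) : ℤ) ≠ 0 := by
    exact_mod_cast (H117.mult_pos L (g : XG Γ)).ne'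
  have hdvd2 : (H117.mult L (g : XG Γ) : ℤ) ∣ (X.E H).order := by
    rw [← hmult, ← hecast, mul_comm] at hdvd
    exact (mul_dvd_mul_iff_left he0).mp hdvd
  obtain ⟨k, hk⟩ := hdvd2
  -- the order of `f`
  have hσ : L.σ (g : XG Γ) f = X.E H ^ m := by
    show sigmaXG ι B X (g : XG Γ) f = _
    rw [hav.sigmaXG_mk_eq X g, map_pow, map_pow]
  have hord : (L.σ (g : XG Γ) f).order = (m : ℤ) * (X.E H).order := by
    rw [hσ, HahnSeries.order_pow, nsmul_eq_mul]
  have h1 := H117.order_eq L (g : XG Γ) f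
  rw [hord, hk] at h1
  refine ⟨k, ?_⟩
  have h2 : (H117.mult L (g : XG Γ) : ℤ) * w.ord f = (H117.mult L (g : XG Γ) : ℤ) * (m * k) := by
    rw [← h1]; ring
  exact mul_left_cancel₀ hk0 h2

omit [IsAlgClosed K] [Finite (XG Γ)] in
theorem adjoin_jGK_le_sub (a : K) :
    K⟮jGK K hj⟯ ≤ K⟮jGK K hj - algebraMap K (FGK K S₀) a⟯ := by
  rw [IntermediateField.adjoin_le_iff, Set.singleton_subset_iff]
  have h := add_mem
    (IntermediateField.mem_adjoin_simple_self K (jGK K hj - algebraMap K (FGK K S₀) a))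
    (IntermediateField.algebraMap_mem K⟮jGK K hj - algebraMap K (FGK K S₀) a⟯ a)
  rwa [sub_add_cancel] at h

omit [IsAlgClosed K] [Finite (XG Γ)] in
theorem adjoin_jGK_le_inv : K⟮jGK K hj⟯ ≤ K⟮(jGK K hj)⁻¹⟯ := by
  rw [IntermediateField.adjoin_le_iff, Set.singleton_subset_iff]
  have h := inv_mem (IntermediateField.mem_adjoin_simple_self K (jGK K hj)⁻¹)
  rwa [inv_inv] at h

variable (D : GenData M Γ (GenField.ofRat S₀ hj))

/-- **Every place of `K·ℚ(S₀) / K` is analytic**: it is induced by an embedding `σ_x` of the local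
data at `∞` or over a finite point `a`. -/
theorem exists_placeOf_eqG (w : Place K (FGK K S₀)) :
    (∃ x : XG Γ, H117.placeOf (dataInfG ι D.core) x = w) ∨
      ∃ (a : K) (x : XG Γ), H117.placeOf (dataFinG ι D.core a) x = w := by
  haveI : CharZero K := algebraRat.charZero K
  haveI := finiteDimensional_adjoin_jGK ι D
  have hrank := finrank_adjoin_jGK ι D
  rcases sub_exists_point (jGK K hj) w with h | ⟨a, ha⟩
  · left
    have h' : 0 < w.ord (jGK K hj)⁻¹ := by
      rw [Place.ord_inv]; omega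
    exact H117.exists_placeOf_eq (dataInfG ι D.core) K⟮jGK K hj⟯ adjoin_jGK_le_inv hrank w h'
  · right
    exact ⟨a, H117.exists_placeOf_eq (dataFinG ι D.core a) K⟮jGK K hj⟯ (adjoin_jGK_le_sub a)
      hrank w ha⟩

variable {ι D}

/-- **DICT-hard.**  Let `f` be an element of `K·ℚ(S₀)` whose analytic avatar is `h ^ m`, where
`h : Hol` is invariant under all special elements (finite order or trace `2`) of `Γ`.  Then
`m ∣ ord_w f` for every place `w` of `K·ℚ(S₀) / K`. -/
theorem dvd_ord_of_isAvatar_powG {h : D.base.Hol} (hinv : IsUnramifiedG D.base h)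
    {f : FGK K S₀} {m : ℕ} (hav : IsAvatarG ι D.base f (h ^ m))
    (w : Place K (FGK K S₀)) : (m : ℤ) ∣ w.ord f := by
  haveI := finiteDimensional_adjoin_jGK ι D
  have hrank := finrank_adjoin_jGK ι D
  rcases exists_placeOf_eqG ι D w with ⟨x, rfl⟩ | ⟨a, x, rfl⟩
  · exact dvd_ord_placeOf_mkLocalDataG ι D.base.qexpExpansion ModularGroup.T D.core.infRot
      (jGK K hj)⁻¹ (D.base.qexp D.base.JH)⁻¹
      (fun g => by rw [map_inv₀, sigmaGG_jGK]; rfl)
      (by
        rw [RotRel.order_inv' D.base.qexp_JH_ne_zero, D.base.order_qexp_JH, neg_neg]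
        rfl)
      K⟮jGK K hj⟯ adjoin_jGK_le_inv hrank isSpecialElt_T_pow hinv hav x
  · exact dvd_ord_placeOf_mkLocalDataG ι (pointAtG ι D.core a).X (epsAt ι a)
      (pointAtG ι D.core a).R
      (jGK K hj - algebraMap K (FGK K S₀) a) _
      (fun g => sigmaGG_sub ι D.core (pointAtG ι D.core a) g) (pointAtG ι D.core a).order_J
      K⟮jGK K hj⟯ (adjoin_jGK_le_sub a) hrank (isSpecialElt_epsAt_pow ι a) hinv hav x

end Dict

/-! ### The dictionary, easy direction -/

section Easy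

variable {K : Type*} [Field K] [Algebra ℚ K] (ι : K →+* ℂ)
variable {S₀ : Set (LaurentSeries ℚ)} {hj : jq ∈ S₀}
variable {M : ℕ} [NeZero M] {Γ : Subgroup SL(2, ℤ)} (B : GenBase M Γ (GenField.ofRat S₀ hj))
variable (hB : B.IsHolo)

/-- the embedding "Taylor expansion at `τ` of the avatar" -/
def sigmaTauG (τ : ℍ) : FGK K S₀ →+* LaurentSeries ℂ :=
  sigmaGG ι B (B.taylorExpansion hB τ) 1

variable {ι B}

theorem IsAvatarG.sigmaTauG_eq {f : FGK K S₀} {h : B.Hol} (hav : IsAvatarG ι B f h) (τ : ℍ) :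
    sigmaTauG ι B hB τ f = (B.taylorExpansion hB τ).E h := by
  rw [sigmaTauG, hav.sigmaGG_eq, inv_one, B.compH_one]

theorem order_taylorExpansionG {h : B.Hol} (hh : h ≠ 0) (τ : ℍ) :
    ((B.taylorExpansion hB τ).E h).order = ((ordAt τ (h : ℍ → ℂ)).toNat : ℤ) := by
  have h0 : B.toHolo hB h ≠ 0 := fun h1 =>
    hh (B.toHolo_injective hB (h1.trans (map_zero _).symm))
  rw [GenBase.taylorExpansion_E, order_laurentAt_algebraMap τ h0]
  rfl

theorem IsAvatarG.order_sigmaTauG {f : FGK K S₀} {h : B.Hol} (hav : IsAvatarG ι B f h)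
    (hh : h ≠ 0) (τ : ℍ) :
    (sigmaTauG ι B hB τ f).order = ((ordAt τ (h : ℍ → ℂ)).toNat : ℤ) := by
  rw [hav.sigmaTauG_eq hB τ, order_taylorExpansionG hB hh τ]

variable (ι B)

theorem eord_sigmaTauG_const (τ : ℍ) (c : K) :
    0 ≤ H117.eord (sigmaTauG ι B hB τ) (algebraMap K (FGK K S₀) c) := by
  show 0 ≤ (sigmaGG ι B (B.taylorExpansion hB τ) 1 (algebraMap K (FGK K S₀) c)).order
  rw [sigmaGG_algebraMap, HahnSeries.order_C]

theorem JH_sub_constH_ne_zero (c : ℂ) : B.JH - B.constH c ≠ 0 := by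
  intro h0
  have h1 : B.JH = B.constH c := sub_eq_zero.mp h0
  have h2 := B.order_qexp_JH
  rw [h1] at h2
  have h3 : (B.qexp (B.constH c)).order = 0 := by
    show (B.qexp ⟨_, B.const_mem c⟩).order = 0
    rw [B.qexp_const, HahnSeries.order_C]
  rw [h3] at h2
  have hN : (0 : ℤ) < M := by exact_mod_cast Nat.pos_of_ne_zero (NeZero.ne M)
  omega

theorem sigmaTauG_jGK_sub (τ : ℍ) (a : K) :
    sigmaTauG ι B hB τ (jGK K hj - algebraMap K (FGK K S₀) a)
      = (B.taylorExpansion hB τ).E (B.JH - B.constH (ι a)) := by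
  rw [sigmaTauG, map_sub, sigmaGG_jGK, sigmaGG_algebraMap, map_sub,
    (B.taylorExpansion hB τ).const]

theorem exists_eord_sigmaTauG_ne_zero (τ : ℍ) (a : K) (ha : ι a = jFun τ) :
    ∃ t : FGK K S₀, H117.eord (sigmaTauG ι B hB τ) t ≠ 0 := by
  refine ⟨jGK K hj - algebraMap K (FGK K S₀) a, ?_⟩
  show (sigmaTauG ι B hB τ (jGK K hj - algebraMap K (FGK K S₀) a)).order ≠ 0
  rw [sigmaTauG_jGK_sub, order_taylorExpansionG hB (JH_sub_constH_ne_zero B (ι a)) τ]
  have hne := JH_sub_constH_ne_zero B (ι a)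
  set g : B.Hol := B.JH - B.constH (ι a) with hg
  have hmd : MDiff (g : ℍ → ℂ) := hB.mdiff _ g.2
  have hg0 : (g : ℍ → ℂ) ≠ 0 := fun h => hne (Subtype.ext h)
  have htop : ordAt τ (g : ℍ → ℂ) ≠ ⊤ := ordAt_ne_top hmd hg0 τ
  have hval : (g : ℍ → ℂ) τ = 0 := by
    show B.G jBar τ - ι a = 0
    rw [hB.G_j, ha, sub_self]
  have hz : ordAt τ (g : ℍ → ℂ) ≠ 0 := fun h => (ordAt_eq_zero_iff hmd τ).mp h hval
  intro h0
  have h1 : (ordAt τ (g : ℍ → ℂ)).toNat = 0 := by exact_mod_cast h0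
  rcases (ENat.toNat_eq_zero).mp h1 with h | h
  · exact hz h
  · exact htop h

/-- **The place of `K·ℚ(S₀) / K` at a point `τ ∈ ℍ`** with `j(τ) = ι a`. -/
def placeAtTauG (τ : ℍ) (a : K) (ha : ι a = jFun τ) : Place K (FGK K S₀) :=
  H117.placeOfEmb (sigmaTauG ι B hB τ) (eord_sigmaTauG_const ι B hB τ)
    (exists_eord_sigmaTauG_ne_zero ι B hB τ a ha)

theorem exists_mult_placeAtTauG (τ : ℍ) (a : K) (ha : ι a = jFun τ) :
    ∃ k : ℕ, 0 < k ∧ ∀ f : FGK K S₀,
      (sigmaTauG ι B hB τ f).order = k * (placeAtTauG ι B hB τ a ha).ord f :=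
  H117.exists_mult (sigmaTauG ι B hB τ) _ _

variable {ι B}

/-- `ord_τ h = k · ord_w f` for the avatar `h` of `f`. -/
theorem IsAvatarG.exists_ordAt_eq {f : FGK K S₀} {h : B.Hol} (hav : IsAvatarG ι B f h)
    (hh : h ≠ 0) (τ : ℍ) (a : K) (ha : ι a = jFun τ) :
    ∃ k : ℕ, 0 < k ∧
      ((ordAt τ (h : ℍ → ℂ)).toNat : ℤ) = k * (placeAtTauG ι B hB τ a ha).ord f := by
  obtain ⟨k, hk, hkf⟩ := exists_mult_placeAtTauG ι B hB τ a ha
  exact ⟨k, hk, by rw [← hkf f, hav.order_sigmaTauG hB hh τ]⟩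

include hB in
/-- **DICT-easy.**  If `m ∣ ord_w f` at every place `w` of `K·ℚ(S₀) / K`, then `m` divides the
order of vanishing of the avatar `h` of `f` at every `τ ∈ ℍ` with `j(τ) ∈ ι(K)`. -/
theorem IsAvatarG.exists_ordAt_eq_mul {f : FGK K S₀} {h : B.Hol} (hav : IsAvatarG ι B f h)
    (hh : h ≠ 0) {m : ℕ} (hdvd : ∀ w : Place K (FGK K S₀), (m : ℤ) ∣ w.ord f)
    (τ : ℍ) (a : K) (ha : ι a = jFun τ) :
    ∃ k : ℕ, ordAt τ (h : ℍ → ℂ) = ((m * k : ℕ) : ℕ∞) := by
  obtain ⟨k, -, hk⟩ := hav.exists_ordAt_eq hB hh τ a ha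
  have hmd : MDiff (h : ℍ → ℂ) := hB.mdiff _ h.2
  have hh0 : (h : ℍ → ℂ) ≠ 0 := fun h0 => hh (Subtype.ext h0)
  have htop : ordAt τ (h : ℍ → ℂ) ≠ ⊤ := ordAt_ne_top hmd hh0 τ
  have h1 : (m : ℤ) ∣ ((ordAt τ (h : ℍ → ℂ)).toNat : ℤ) := by
    rw [hk]
    exact Dvd.dvd.mul_left (hdvd _) _
  obtain ⟨l, hl⟩ := Int.natCast_dvd_natCast.mp h1
  refine ⟨l, ?_⟩
  rw [← hl, ENat.natCast_toNat htop]

end Easy

end Fermat.Agent.S48.H282

end
end
-- ===== PACK-END S48/H282/DictK.lean

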