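import Fermat.Agent.Pack.L1B.E4L1
import Fermat.Agent.Pack.S44C.G0E24L0
import Fermat.Agent.Pack.L1B.E3L0
import Fermat.Agent.Pack.S43MC.G0E20L3
import Fermat.Agent.Pack.L1B.E4L0
import Fermat.Agent.Pack.L1B.E0L0
import Fermat.Agent.Pack.L1B.E4L3
import Fermat.Agent.Pack.L1B.E3L2
import Fermat.Agent.Pack.S44C.G0E24L3
import Fermat.Agent.Pack.S44C.G0E19L0
import Fermat.Agent.Pack.L1B.E2L2
import Fermat.Agent.Pack.L1B.E4L2
import Fermat.Agent.Pack.L1B.E2L1
import Fermat.Agent.Pack.S44C.G0E16L3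
import Fermat.Agent.Pack.L1.E10L0

-- ===== PACK-BEGIN S48/Red1/Core.lean
section



/-!
# S48 / RES (Tower A1), sub-tower A1-RED: the Kummer core `CoreGen F₀ A m` from the leaves
(helper588)

`coreGen_top` : `goodFamily_top` (`Asm.lean`) + generic glue (`GlueGen.lean`) + S18 ALG
(`H438.algMain`, valid for every field and every good family).

`coreG_body_of_coreGen` : `CoreGen F₀ A m` implies `H136.CoreG F₀ A Fk m` for EVERY reduction
field `Fk` — stated here in unfolded form, without importing `H136` (the statement is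
definitionally the body of `H136.CoreG`).
-/

set_option autoImplicit false

noncomputable section

namespace Fermat.Agent.S48.Red1

open ModularCurve AlgebraicCurve HahnSeries Fermat.Agent.S18 Fermat.Agent.S18.Alg
open Fermat.Agent.S18.Mod Fermat.Agent.S48.H248 Fermat.Agent.S18.H107

variable {M : ℕ} [NeZero M] {F₀ : IntermediateField ℚ (LaurentSeries ℚ)}
  (hle : modularFunctionFieldFull M ≤ F₀) {ℓ : ℕ} [Fact ℓ.Prime]

/-- **CORE from the leaves**, for every prime `ℓ ∤ M` which has a coordinate of level `M`, every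
`A` over `ℓ` and every prime `m ≠ ℓ`. -/
theorem coreGen_top (hF₀ : IntGen F₀) (hℓM : ¬ ℓ ∣ M) (A : ValuationSubring Qb)
    (hA : A.LiesOverPrime ℓ) {x : Om M} {S : Finset (Om M)} (hx : IsCoordinate M ℓ x S)
    [FiniteDimensional (IntermediateField.adjoin Qb {iotaG M F₀ hle x}) (OmG F₀)]
    (T₀ : Finset Qb)
    (hleaf : ∀ (E : IntermediateField ℚ Qb) (w₀ : Qb), FiniteDimensional ℚ E →
      (∀ a ∈ T₀, a ∈ E) → IsUnifG A E.toSubfield w₀ →
      TopLeaves F₀ A E.toSubfield w₀ (iotaG M F₀ hle (jOm M)))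
    (hbr : BranchJ107 (LcG F₀) (iotaG M F₀ hle (jOm M)))
    (m : ℕ) (hmp : m.Prime) (hm : ¬ ℓ ∣ m) : CoreGen F₀ A m := by
  obtain ⟨𝓕', hfam, hc⟩ := goodFamily_top hle hF₀ hℓM A hA hx T₀ hleaf hbr
  exact coreGen_of_family (Fact.out : ℓ.Prime) A hA hfam hc
    (Fermat.Agent.S18.H438.algMain _ _ _ _) m hmp hm

/-- `CoreGen` implies the core of the generic Eichler–Shimura engine (`H136.CoreG F₀ A Fk m`,
unfolded) for every reduction field `Fk`. -/
theorem coreG_body_of_coreGen {F₀ : IntermediateField ℚ (LaurentSeries ℚ)}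
    {A : ValuationSubring Qb} {m : ℕ} (h : CoreGen F₀ A m)
    (Fk : IntermediateField (IsLocalRing.ResidueField A)
      (LaurentSeries (IsLocalRing.ResidueField A))) :
    ∀ (U₁ U₂ : LaurentSeries A)
      (h₁ : coeffMap A.subtype U₁ ∈ laurentBaseChange Qb F₀ ∧
        coeffMap (IsLocalRing.residue A) U₁ ∈ Fk ∧ coeffMap (IsLocalRing.residue A) U₁ ≠ 0)
      (h₂ : coeffMap A.subtype U₂ ∈ laurentBaseChange Qb F₀ ∧
        coeffMap (IsLocalRing.residue A) U₂ ∈ Fk ∧ coeffMap (IsLocalRing.residue A) U₂ ≠ 0),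
      coeffMap (IsLocalRing.residue A) U₁ = coeffMap (IsLocalRing.residue A) U₂ →
      (∀ v : Place Qb (laurentBaseChange Qb F₀),
        (m : ℤ) ∣ v.ord (⟨_, h₁.1⟩ : laurentBaseChange Qb F₀)
          - v.ord (⟨_, h₂.1⟩ : laurentBaseChange Qb F₀)) →
      ∃ (c : Qb) (y : laurentBaseChange Qb F₀), c ≠ 0 ∧ y ≠ 0 ∧
        (⟨_, h₁.1⟩ : laurentBaseChange Qb F₀)
          = algebraMap Qb (laurentBaseChange Qb F₀) c * y ^ m
            * (⟨_, h₂.1⟩ : laurentBaseChange Qb F₀) :=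
  fun U₁ U₂ h₁ h₂ hred hdiv => h U₁ U₂ h₁.1 h₂.1 h₂.2.2 hred hdiv

end Fermat.Agent.S48.Red1

end
end
-- ===== PACK-END S48/Red1/Core.lean

-- ===== PACK-BEGIN S48/Red1/Mod1.lean
section




/-!
# S48 / RES (Tower A1), sub-tower A1-RED, node R4: the MOD deliverable for `F1 M` (helper588)

Adapter from the assembly `Red1/Asm.lean` (`goodFamily_top`) to helper908's target
`H908.Core1.Mod1Hyp` (`S48/H908/CoreF1.lean`; `core1 : Mod1Hyp → FinHyp → DegHyp → CoreG …`).

* `intGen_F1`                 : `F1 M` is generated by series with integer coefficients;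
* `hasGoodFamilyMin_of_family`: `GoodFamily + ConcreteFamily ⟹ H908.Core1.HasGoodFamilyMin`;
* `LeavesF1`, `BranchF1`      : the leaves of `Asm.lean` for `F₀ = F1 M`;
* `mod1Hyp_of_leaves`         : `LeavesF1 → BranchF1 → H908.Core1.Mod1Hyp`.
-/

set_option autoImplicit false

noncomputable section

namespace Fermat.Agent.S48.Red1

open ModularCurve AlgebraicCurve HahnSeries Fermat.Agent.S18 Fermat.Agent.S18.Alg
open Fermat.Agent.S18.Mod Fermat.Agent.S48.H248 Fermat.Agent.S18.H107 Fermat.Agent.S48.F1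

/-- `coeffMap` commutes with `q ↦ q^n`. -/
theorem coeffMap_qExpand_red1 {R S : Type*} [CommRing R] [CommRing S] (f : R →+* S) (n : ℕ)
    [NeZero n] (x : LaurentSeries R) :
    coeffMap f (qExpand R n x) = qExpand S n (coeffMap f x) := by
  ext k
  by_cases hk : (n : ℤ) ∣ k
  · obtain ⟨m, rfl⟩ := hk
    rw [coeffMap_coeff, qExpand_coeff_mul, qExpand_coeff_mul, coeffMap_coeff]
  · rw [coeffMap_coeff, qExpand_coeff_of_not_dvd n _ hk, qExpand_coeff_of_not_dvd n _ hk,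
      map_zero]

/-- `F1 M` is generated over `ℚ` by series with integer coefficients. -/
theorem intGen_F1 (M : ℕ) : IntGen (F1 M) := by
  refine ⟨{X | (∃ (d : ℕ) (_ : NeZero d), d ∣ M ∧ X = qExpand ℤ d (jqModC ℤ)) ∨
    ∃ a : ZMod M, a ≠ 0 ∧ X = divGenC ℤ M a}, ?_⟩
  unfold F1
  congr 1
  ext y
  constructor
  · rintro (⟨d, hd, hdM, rfl⟩ | ⟨a, ha, rfl⟩)
    · refine ⟨qExpand ℤ d (jqModC ℤ), Or.inl ⟨d, hd, hdM, rfl⟩, ?_⟩
      rw [coeffMap_qExpand_red1, coeffMap_jqModC]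
      rfl
    · refine ⟨divGenC ℤ M a, Or.inr ⟨a, ha, rfl⟩, ?_⟩
      rw [coeffMap_divGenC]
      rfl
  · rintro ⟨X, (⟨d, hd, hdM, rfl⟩ | ⟨a, ha, rfl⟩), rfl⟩
    · left
      refine ⟨d, hd, hdM, ?_⟩
      rw [coeffMap_qExpand_red1, coeffMap_jqModC]
      rfl
    · right
      refine ⟨a, ha, ?_⟩
      rw [coeffMap_divGenC]
      rfl

/-- Adapter: a concrete good family is a minimal MOD deliverable in the sense of helper908. -/
theorem hasGoodFamilyMin_of_family {F₀ : IntermediateField ℚ (LaurentSeries ℚ)} {ℓ : ℕ}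
    (hℓ : ℓ.Prime) (A : ValuationSubring Qb) (hA : A.LiesOverPrime ℓ) {x : OmG F₀}
    {S : Finset (OmG F₀)} {𝓕 : Set (Model (OmG F₀))}
    (hfam : GoodFamily (LcG F₀) x S 𝓕) (hc : ConcreteFamily F₀ A 𝓕)
    (Fk : IntermediateField (IsLocalRing.ResidueField A)
      (LaurentSeries (IsLocalRing.ResidueField A))) (m : ℕ) (hm : ¬ ℓ ∣ m) :
    Fermat.Agent.S48.H908.Core1.HasGoodFamilyMin F₀ A Fk m x S := by
  refine ⟨𝓕, hfam, fun U₁ U₂ h₁ h₂ hred => ?_⟩
  obtain ⟨p, hp, hf₁, hf₂⟩ := hc.exists_member ⟨_, h₁.1⟩ ⟨_, h₂.1⟩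
  have hgood := hfam.good p hp
  have hmR : ((m : OmG F₀))⁻¹ ∈ p.2.2.1 := by
    have h1 : ((m : Qb))⁻¹ ∈ A :=
      Fermat.Agent.S18.H965.natCast_inv_mem_valuationSubring hℓ A hA hm
    have h2 : algebraMap Qb (OmG F₀) ((m : Qb))⁻¹ = ((m : OmG F₀))⁻¹ := by
      rw [map_inv₀, map_natCast]
    rw [← h2]
    refine (hc.R_iff _ hp _).mpr ⟨h1, ?_⟩
    rw [h2]
    exact inv_mem (natCast_mem _ m)
  exact ⟨p, hp, hmR, div_mem hf₁ hf₂,
    sub_one_mul_inv_mem_V hc hp hgood.w_mem hgood.w_ne_zero (fun r hr => hgood.R_le hr)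
      hgood.E_le_F hgood.w_gen h₁.1 h₂.1 h₂.2.2 hred hf₁ hf₂⟩

/-- **Leaves for `F1 M`**: `TopLeaves` at all number fields containing a finite set `T₀` of
constants (e.g. `ζ_M`), for all `p ∤ M` and `A` over `p`. -/
def LeavesF1 : Prop :=
  ∀ (M p : ℕ) [NeZero M], p.Prime → ¬ p ∣ M → ∀ A : ValuationSubring Qb, A.LiesOverPrime p →
    ∃ T₀ : Finset Qb, ∀ (E : IntermediateField ℚ Qb) (w₀ : Qb), FiniteDimensional ℚ E →
      (∀ a ∈ T₀, a ∈ E) → IsUnifG A E.toSubfield w₀ →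
      TopLeaves (F1 M) A E.toSubfield w₀ (iotaG M (F1 M) (full_le_F1 M) (jOm M))

/-- **Branch leaf for `F1 M`**: `ℚ̄·F1(M) / ℚ̄(j)` is unramified outside `0, 1728, ∞`, with `e ≤ 3`
over `0` and `e ≤ 2` over `1728`. -/
def BranchF1 : Prop :=
  ∀ (M : ℕ) [NeZero M], BranchJ107 (LcG (F1 M)) (iotaG M (F1 M) (full_le_F1 M) (jOm M))

/-- **R4 for `F1 M`**: the MOD deliverable at the good levels, from the leaves. -/
theorem mod1Hyp_of_leaves (hL : LeavesF1) (hB : BranchF1) :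
    Fermat.Agent.S48.H908.Core1.Mod1Hyp := by
  intro M p hM hp hpM h3 h2 A hA m _ hpm
  have : NeZero M := ⟨hM⟩
  have : Fact p.Prime := ⟨hp⟩
  obtain ⟨x, S, hx⟩ := Fermat.Agent.S18.H634.node_coord M hpM h3 h2
  obtain ⟨T₀, hleaf⟩ := hL M p hp hpM A hA
  obtain ⟨𝓕', hfam, hc⟩ :=
    goodFamily_top (full_le_F1 M) (intGen_F1 M) hpM A hA hx T₀ hleaf (hB M)
  exact ⟨_, _, hasGoodFamilyMin_of_family hp A hA hfam hc ⊤ m hpm⟩

end Fermat.Agent.S48.Red1

end
end
-- ===== PACK-END S48/Red1/Mod1.lean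

-- ===== PACK-BEGIN S48/H648/AvF1.lean
section



/-!
# S48 / Tower A1 (helper648): avatars for `F1 M`, `F1p M p` and the branch fields of
`GoodModel` for their base changes

INPUT (I-GEN, helper76): for every `a ≠ 0` an element of `H828.iactRing ι M` whose `X`-expansion
is `P_a(X^M)`, i.e. `qExpand E M (F1.divGenC E M a)` — hypothesis `HasDivAvatars ι M`.

OUTPUT
* `F1_le_avatarIF`  : every element of `F1 M` has an avatar of level `M`;
* `F1p_le_avatarIF` : every element of `F1p M p = F1 M ⊔ V_p (F1 M)` has an avatar of level `M * p`;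
* `unramified_j_F1`, `unramified_j_F1p`, `unramified_t2_F1p`, `unramified_t3_F1p` : the field
  `unramified` of `S18.Alg.GoodModel` for `Ω = laurentBaseChange E (F1 M)` resp.
  `laurentBaseChange E (F1p M p)`, `Lc = (algebraMap E Ω).fieldRange`, coordinates `j`, `t₂`, `t₃`.
-/

set_option autoImplicit false
set_option linter.unusedSectionVars false
set_option linter.style.haveILetI false

noncomputable section

open ModularCurve HahnSeries UpperHalfPlane
open scoped MatrixGroups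

namespace Fermat.Agent.S48.H648

open Fermat.Agent.S48.H828 Fermat.Agent.S24 Fermat.Agent.S48.F1

variable {E : Type*} [Field E] [CharZero E] (ι : E →+* ℂ)

/-- The rational `q`-series with an avatar of level `K` over `E`, as an intermediate field. -/
def avatarIF (K : ℕ) [NeZero K] : IntermediateField ℚ (LaurentSeries ℚ) :=
  { (avatarField ι K).comap (coeffEmb E) with
    algebraMap_mem' := fun c => by
      show coeffEmb E (algebraMap ℚ (LaurentSeries ℚ) c) ∈ avatarField ι K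
      have : coeffEmb E (algebraMap ℚ (LaurentSeries ℚ) c)
          = HahnSeries.C (algebraMap ℚ E c) := by
        rw [algebraMap_apply_eq_single, coeffEmb, coeffMap_single]
        rfl
      rw [this]
      exact C_mem_avatarField _ }

variable {ι}

theorem mem_avatarIF {K : ℕ} [NeZero K] {x : LaurentSeries ℚ} :
    x ∈ avatarIF ι K ↔ coeffEmb E x ∈ avatarField ι K := Iff.rfl

/-- I-GEN: the division values `P_a` have avatars in `iactRing ι M`. -/
def HasDivAvatars (ι : E →+* ℂ) (M : ℕ) [NeZero M] : Prop :=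
  ∀ a : ZMod M, a ≠ 0 → ∃ g : iactRing ι M, iactExp ι M g = qExpand E M (divGenC E M a)

theorem divGen_mem_avatarIF {M : ℕ} [NeZero M] (hP : HasDivAvatars ι M) {a : ZMod M}
    (ha : a ≠ 0) : divGen M a ∈ avatarIF ι M := by
  obtain ⟨g, hg⟩ := hP a ha
  rw [mem_avatarIF]
  have e : coeffEmb E (divGen M a) = divGenC E M a := coeffMap_divGenC _ M a
  rw [e]
  exact mem_avatarField_of_ring g hg

theorem jqd_mem_avatarIF {M : ℕ} [NeZero M] (ζ : Eˣ)
    (hζ : Units.map (ι : E →* ℂ) ζ = infRoot 1 M) {d : ℕ} [NeZero d] (hd : d ∣ M) :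
    qExpand ℚ d jq ∈ avatarIF ι M := by
  rw [mem_avatarIF]
  refine mem_avatarField.2 ⟨iactFJd ζ hζ d hd, ?_⟩
  rw [iactFieldExp_Jd, coeffEmb, coeffMap_qExpand]

/-- Every element of `F1 M` has an avatar of level `M`. -/
theorem F1_le_avatarIF {M : ℕ} [NeZero M] (ζ : Eˣ)
    (hζ : Units.map (ι : E →* ℂ) ζ = infRoot 1 M) (hP : HasDivAvatars ι M) :
    F1 M ≤ avatarIF ι M := by
  rw [F1, IntermediateField.adjoin_le_iff]
  rintro x (⟨d, hd0, hd, rfl⟩ | ⟨a, ha, rfl⟩)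
  · exact jqd_mem_avatarIF ζ hζ hd
  · exact divGen_mem_avatarIF hP ha

/-- `avatarIF` grows with the level. -/
theorem avatarIF_mono {M K k₀ : ℕ} [NeZero M] [NeZero K] (hk₀ : 0 < k₀) (hK : K = M * k₀)
    (ζ : Eˣ) (hζ : Units.map (ι : E →* ℂ) ζ = infRoot 1 K) : avatarIF ι M ≤ avatarIF ι K :=
  fun _ hx => avatarField_mono hk₀ hK ζ hζ hx

/-- `V_p` maps `avatarIF ι M` into `avatarIF ι (M * p)`. -/
theorem map_qExpand_avatarIF_le {M p : ℕ} [NeZero M] [NeZero p] [NeZero (M * p)] (ζ : Eˣ)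
    (hζ : Units.map (ι : E →* ℂ) ζ = infRoot 1 (M * p)) :
    (avatarIF ι M).map (qExpandₐ p) ≤ avatarIF ι (M * p) := by
  have hp : 0 < p := Nat.pos_of_ne_zero (NeZero.ne p)
  rintro _ ⟨x, hx, rfl⟩
  rw [mem_avatarIF]
  have h := avatarField_levelRaise (d := p) (k₀ := 1) hp one_pos (by ring) ζ hζ
    (mem_avatarIF.1 hx)
  have e : coeffEmb E (qExpand ℚ p x) = qExpand E p (coeffEmb E x) := by
    rw [coeffEmb, coeffMap_qExpand]
  show coeffEmb E (qExpand ℚ p x) ∈ avatarField ι (M * p)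
  rw [e]
  exact h

/-- The `M`-th root of unity `ζ^p` from an `M p`-th root of unity. -/
theorem infRoot_pow_of_mul {M p : ℕ} [NeZero M] [NeZero p] (ζ : Eˣ)
    (hζ : Units.map (ι : E →* ℂ) ζ = infRoot 1 (M * p)) :
    Units.map (ι : E →* ℂ) (ζ ^ p) = infRoot 1 M := by
  have hM : 0 < M := Nat.pos_of_ne_zero (NeZero.ne M)
  have hp : 0 < p := Nat.pos_of_ne_zero (NeZero.ne p)
  haveI : NeZero (M * p) := ⟨(Nat.mul_pos hM hp).ne'⟩
  rw [map_pow, hζ, ← zpow_natCast, iact_infRoot_one_zpow]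
  have := iact_infRoot_mul (M := M * p) 1 hM hp rfl
  rwa [one_mul] at this

/-- Every element of `F1p M p` has an avatar of level `M * p`. -/
theorem F1p_le_avatarIF {M p : ℕ} [NeZero M] [NeZero p] [NeZero (M * p)] (ζ : Eˣ)
    (hζ : Units.map (ι : E →* ℂ) ζ = infRoot 1 (M * p)) (hP : HasDivAvatars ι M) :
    F1p M p ≤ avatarIF ι (M * p) := by
  have hp : 0 < p := Nat.pos_of_ne_zero (NeZero.ne p)
  have h1 : F1 M ≤ avatarIF ι M := F1_le_avatarIF (ζ ^ p) (infRoot_pow_of_mul ζ hζ) hP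
  rw [F1p]
  refine sup_le (h1.trans (avatarIF_mono hp rfl ζ hζ)) ?_
  exact (IntermediateField.map_mono _ h1).trans (map_qExpand_avatarIF_le ζ hζ)

/-! ### The branch fields -/

section Branch

variable {M : ℕ} [NeZero M] (ζ : Eˣ) (hP : HasDivAvatars ι M)

include hP in
/-- **`GoodModel.unramified` for `Ω = E·F1(M)`, coordinate `j`, `S = {0, 1728}`.** -/
theorem unramified_j_F1 (hζ : Units.map (ι : E →* ℂ) ζ = infRoot 1 M)
    [CharZero ↥(laurentBaseChange E (F1 M))]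
    (jΩ : ↥(laurentBaseChange E (F1 M))) (hj : (jΩ : LaurentSeries E) = coeffEmb E jq)
    (O : ValuationSubring ↥(laurentBaseChange E (F1 M)))
    (hO : ∀ a ∈ (algebraMap E ↥(laurentBaseChange E (F1 M))).fieldRange, a ∈ O)
    (c : ↥(laurentBaseChange E (F1 M)))
    (hc : c ∈ (algebraMap E ↥(laurentBaseChange E (F1 M))).fieldRange)
    (hc0 : c ≠ 0) (hc1 : c ≠ 1728) (h1 : jΩ - c ∈ O) (h2 : (jΩ - c)⁻¹ ∉ O)
    (t : ↥(laurentBaseChange E (F1 M))) (ht : t ∈ O) (ht' : t⁻¹ ∉ O) :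
    t * (jΩ - c)⁻¹ ∈ O :=
  unramified_j_laurentBaseChange (ι := ι) (M := M) (F1 M)
    (fun _ hx => F1_le_avatarIF ζ hζ hP hx) jΩ hj O hO c hc hc0 hc1 h1 h2 t ht ht'

variable {p : ℕ} [NeZero p] [NeZero (M * p)]
  (hζ : Units.map (ι : E →* ℂ) ζ = infRoot 1 (M * p))
  [CharZero ↥(laurentBaseChange E (F1p M p))]

include ζ hP hζ

/-- **`GoodModel.unramified` for `Ω = E·F1(M; p)`, coordinate `j`.** -/
theorem unramified_j_F1p
    (jΩ : ↥(laurentBaseChange E (F1p M p))) (hj : (jΩ : LaurentSeries E) = coeffEmb E jq)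
    (O : ValuationSubring ↥(laurentBaseChange E (F1p M p)))
    (hO : ∀ a ∈ (algebraMap E ↥(laurentBaseChange E (F1p M p))).fieldRange, a ∈ O)
    (c : ↥(laurentBaseChange E (F1p M p)))
    (hc : c ∈ (algebraMap E ↥(laurentBaseChange E (F1p M p))).fieldRange)
    (hc0 : c ≠ 0) (hc1 : c ≠ 1728) (h1 : jΩ - c ∈ O) (h2 : (jΩ - c)⁻¹ ∉ O)
    (t : ↥(laurentBaseChange E (F1p M p))) (ht : t ∈ O) (ht' : t⁻¹ ∉ O) :
    t * (jΩ - c)⁻¹ ∈ O :=
  unramified_j_laurentBaseChange (ι := ι) (M := M * p) (F1p M p)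
    (fun _ hx => F1p_le_avatarIF ζ hζ hP hx) jΩ hj O hO c hc hc0 hc1 h1 h2 t ht ht'

/-- **`GoodModel.unramified` for `Ω = E·F1(M; p)`, coordinate `t₂`, `S = {0, -64}`.** -/
theorem unramified_t2_F1p
    (jΩ x : ↥(laurentBaseChange E (F1p M p))) (hj : (jΩ : LaurentSeries E) = coeffEmb E jq)
    (hjx : jΩ * x ^ 2 = (x + 256) ^ 3)
    (O : ValuationSubring ↥(laurentBaseChange E (F1p M p)))
    (hO : ∀ a ∈ (algebraMap E ↥(laurentBaseChange E (F1p M p))).fieldRange, a ∈ O)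
    (c : ↥(laurentBaseChange E (F1p M p)))
    (hc : c ∈ (algebraMap E ↥(laurentBaseChange E (F1p M p))).fieldRange)
    (hc0 : c ≠ 0) (hc64 : c ≠ -64) (h1 : x - c ∈ O) (h2 : (x - c)⁻¹ ∉ O)
    (t : ↥(laurentBaseChange E (F1p M p))) (ht : t ∈ O) (ht' : t⁻¹ ∉ O) :
    t * (x - c)⁻¹ ∈ O :=
  unramified_t2_laurentBaseChange (ι := ι) (M := M * p) (F1p M p)
    (fun _ hx => F1p_le_avatarIF ζ hζ hP hx) jΩ x hj hjx O hO c hc hc0 hc64 h1 h2 t ht ht'

/-- **`GoodModel.unramified` for `Ω = E·F1(M; p)`, coordinate `t₃`, `S = {0, -27}`.** -/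
theorem unramified_t3_F1p
    (jΩ x : ↥(laurentBaseChange E (F1p M p))) (hj : (jΩ : LaurentSeries E) = coeffEmb E jq)
    (hjx : jΩ * x ^ 3 = (x + 27) * (x + 243) ^ 3)
    (O : ValuationSubring ↥(laurentBaseChange E (F1p M p)))
    (hO : ∀ a ∈ (algebraMap E ↥(laurentBaseChange E (F1p M p))).fieldRange, a ∈ O)
    (c : ↥(laurentBaseChange E (F1p M p)))
    (hc : c ∈ (algebraMap E ↥(laurentBaseChange E (F1p M p))).fieldRange)
    (hc0 : c ≠ 0) (hc27 : c ≠ -27) (h1 : x - c ∈ O) (h2 : (x - c)⁻¹ ∉ O)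
    (t : ↥(laurentBaseChange E (F1p M p))) (ht : t ∈ O) (ht' : t⁻¹ ∉ O) :
    t * (x - c)⁻¹ ∈ O :=
  unramified_t3_laurentBaseChange (ι := ι) (M := M * p) (F1p M p)
    (fun _ hx => F1p_le_avatarIF ζ hζ hP hx) jΩ x hj hjx O hO c hc hc0 hc27 h1 h2 t ht ht'

end Branch

end Fermat.Agent.S48.H648

end
end
-- ===== PACK-END S48/H648/AvF1.lean

-- ===== PACK-BEGIN S48/H149/Mero1.lean
section
/-
S48 / Tower A1 (RES) / sub-tower A1-KUM, leaf `mero` (helper149).

  `dictMero1 (M : ℕ) [NeZero M] : Kum.DictMero (Gamma1 M) (F1.F1Bar M)`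

Every element `u` of the function field `ℚ̄ · F₁(M) ⊆ ℚ̄((q))` of `X₁(M)` is a quotient
`u = u₁ / u₂` of two elements which are REALISED by good functions for `Γ₁(M)`.

Proof (port of `S29.M4b.H503.exists_good_div`, done over `ℚ̄` instead of `ℂ`).
`F₁(M) = ℚ(j(q^d) (d ∣ M), P_a (a ≠ 0))`, so `ℚ̄ · F₁(M)` is generated as a FIELD over `ℚ̄` by the
(embedded) generators, hence every element is a quotient of two elements of the `ℚ̄`-ALGEBRA
generated by them.  The realised series form a `ℚ̄`-subalgebra (`realSub M`) containing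
* the `j(q^d)`, `d ∣ M`  (good for `Γ₀(M)`: `S29.H882.AK_le_goodQ`), and
* the division values `P_a`  (avatar `S48.H76.pFun M a`, helper76).
-/






set_option autoImplicit false

noncomputable section

open ModularCurve AlgebraicCurve CongruenceSubgroup UpperHalfPlane IntermediateField
open scoped MatrixGroups Manifold

namespace Fermat.Agent.S48.H149

open Fermat.Agent.S24 Fermat.Agent.S29 Fermat.Agent.S48

/-! ### Generators of the base-changed field -/

section Gens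

variable (L : Type*) [Field L] [Algebra ℚ L]

/-- The generators `j(q^d)` (`d ∣ M`) and `P_a` (`a ≠ 0`) of `L · F₁(M)`, as Laurent series over
`L`. -/
def gens1 (M : ℕ) : Set (LaurentSeries L) :=
  ⇑(coeffEmb L) '' (divisorExpansions M ∪ F1.divGens M)

theorem coeffEmb_mem_adjoin_gens1 (M : ℕ) {y : LaurentSeries ℚ} (hy : y ∈ F1.F1 M) :
    coeffEmb L y ∈ IntermediateField.adjoin L (gens1 L M) := by
  unfold F1.F1 at hy
  refine IntermediateField.adjoin_induction ℚ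
    (p := fun y _ => coeffEmb L y ∈ IntermediateField.adjoin L (gens1 L M)) ?_ ?_ ?_ ?_ ?_ hy
  · intro x hx
    exact IntermediateField.subset_adjoin L _ ⟨x, hx, rfl⟩
  · intro c
    have : coeffEmb L (algebraMap ℚ (LaurentSeries ℚ) c)
        = algebraMap L (LaurentSeries L) (algebraMap ℚ L c) := by
      rw [coeffEmb, Deg457.coeffMap_algebraMap']
    rw [this]
    exact IntermediateField.algebraMap_mem _ _
  · intro x y _ _ hx hy
    rw [map_add]; exact add_mem hx hy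
  · intro x _ hx
    rw [map_inv₀]; exact inv_mem hx
  · intro x y _ _ hx hy
    rw [map_mul]; exact mul_mem hx hy

/-- The base-changed function field `L · F₁(M)` is generated over `L` by the generators. -/
theorem F1L_le_adjoin_gens1 (M : ℕ) :
    F1.F1L L M ≤ IntermediateField.adjoin L (gens1 L M) := by
  rw [F1.F1L, laurentBaseChange, IntermediateField.adjoin_le_iff]
  rintro _ ⟨y, hy, rfl⟩
  exact coeffEmb_mem_adjoin_gens1 L M hy

theorem gens1_subset_F1L (M : ℕ) : gens1 L M ⊆ (F1.F1L L M : Set (LaurentSeries L)) := by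
  rintro _ ⟨y, hy, rfl⟩
  exact coeffEmb_mem_laurentBaseChange L (IntermediateField.subset_adjoin ℚ _ hy)

end Gens

/-! ### Good functions for `Γ₁(M)` -/

theorem T_mem_Gamma1_h149 (M : ℕ) : ModularGroup.T ∈ Gamma1 M := by
  rw [Gamma1_mem]
  simp [ModularGroup.T]

theorem isGood_add_h149 {Γ : Subgroup SL(2, ℤ)} {G H : ℍ → ℂ} (hG : Kum.IsGood Γ G)
    (hH : Kum.IsGood Γ H) : Kum.IsGood Γ (G + H) := by
  obtain ⟨h1, h2, h3⟩ := hG
  obtain ⟨h1', h2', h3'⟩ := hH
  refine ⟨h1.add h1', fun γ hγ τ => ?_, fun g => ?_⟩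
  · show G (γ • τ) + H (γ • τ) = G τ + H τ
    rw [h2 γ hγ τ, h2' γ hγ τ]
  · exact (h3 g).add (h3' g)

/-- A good function of level `Γ₀(M)` is good for `Γ₁(M)`. -/
theorem isGood_Gamma1_of_mem_goodRing {M : ℕ} {f : ℍ → ℂ} (hf : f ∈ H648.goodRing M) :
    Kum.IsGood (Gamma1 M) f :=
  Kum.IsGood.mono (Γ' := Gamma0 M) hf (Gamma1_in_Gamma0 M)

/-- The avatar `pFun M a` of the division value `P_a` is good for `Γ₁(M)`. -/
theorem isGood_pFun (M : ℕ) [NeZero M] (a : ZMod M) : Kum.IsGood (Gamma1 M) (H76.pFun M a) := by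
  have hf := H76.pFun_mem_holN M a
  refine ⟨hf.1, fun γ hγ τ => H76.pFun_smul_Gamma1 M a γ hγ τ, fun g => ?_⟩
  obtain ⟨φ, hφ⟩ := hf.2 g
  exact H332.expGrowth_of_infExp hφ

/-! ### The algebra of realised series -/

/-- The `ℚ̄`-subalgebra of `ℚ̄((q))` of the elements of `ℚ̄ · F₁(M)` which are `q`-expansions of
good functions for `Γ₁(M)`. -/
def realSub (M : ℕ) [NeZero M] : Subalgebra Kbar (LaurentSeries Kbar) where
  carrier := {x | x ∈ F1.F1Bar M ∧
    ∃ G : ℍ → ℂ, Kum.IsGood (Gamma1 M) G ∧ H708.HasQExp 1 G (coeffMap Deg457.iotaC x)}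
  mul_mem' := by
    rintro a b ⟨ha, G, hG, hGa⟩ ⟨hb, H, hH, hHb⟩
    refine ⟨mul_mem ha hb, G * H, hG.mul hH, ?_⟩
    rw [map_mul]
    exact hGa.mul hHb
  add_mem' := by
    rintro a b ⟨ha, G, hG, hGa⟩ ⟨hb, H, hH, hHb⟩
    refine ⟨add_mem ha hb, G + H, isGood_add_h149 hG hH, ?_⟩
    rw [map_add]
    exact hGa.add hHb
  algebraMap_mem' := fun c => by
    refine ⟨(F1.F1Bar M).algebraMap_mem c, fun _ => Deg457.iotaC c,
      Kum.isGood_const _ _, ?_⟩
    have : coeffMap Deg457.iotaC (algebraMap Kbar (LaurentSeries Kbar) c)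
        = HahnSeries.C (Deg457.iotaC c) := by
      rw [Deg457.coeffMap_algebraMap', algebraMap_laurentSeries_eq_single]
      rfl
    rw [this]
    exact H708.HasQExp.const 1 _

theorem mem_realSub {M : ℕ} [NeZero M] {x : LaurentSeries Kbar} :
    x ∈ realSub M ↔ x ∈ F1.F1Bar M ∧
      ∃ G : ℍ → ℂ, Kum.IsGood (Gamma1 M) G ∧ H708.HasQExp 1 G (coeffMap Deg457.iotaC x) :=
  Iff.rfl

/-- The generators are realised. -/
theorem gens1_subset_realSub (M : ℕ) [NeZero M] :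
    gens1 Kbar M ⊆ (realSub M : Set (LaurentSeries Kbar)) := by
  rintro _ ⟨y, hy, rfl⟩
  refine ⟨gens1_subset_F1L Kbar M ⟨y, hy, rfl⟩, ?_⟩
  rw [Deg457.coeffMap_coeffEmb']
  rcases hy with hy | ⟨a, ha, rfl⟩
  · -- `j(q^d)`
    have h1 : coeffEmb ℂ y ∈ Deg457.AK ℂ M := Algebra.subset_adjoin ⟨y, hy, rfl⟩
    obtain ⟨f, hf, hfq⟩ := H882.AK_le_goodQ M h1
    exact ⟨f, isGood_Gamma1_of_mem_goodRing hf, hfq⟩
  · -- `P_a`
    refine ⟨H76.pFun M a, isGood_pFun M a, ?_⟩
    have h := H332.hasQExp_of_infExp (N := 1) (H76.mdiff_pFun M a) (H76.infExp_pFun M ha)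
    have e : coeffEmb ℂ (F1.divGen M a) = F1.divGenC ℂ M a := by
      rw [F1.divGen, coeffEmb, F1.coeffMap_divGenC]
    rw [e]
    exact h

theorem adjoin_gens1_le_realSub (M : ℕ) [NeZero M] :
    Algebra.adjoin Kbar (gens1 Kbar M) ≤ realSub M :=
  Algebra.adjoin_le (gens1_subset_realSub M)

/-! ### The leaf -/

/-- **Leaf `mero` of A1-KUM**: every element of `ℚ̄ · F₁(M)` is a quotient of two realised
elements. -/
theorem dictMero1 (M : ℕ) [NeZero M] : Kum.DictMero (Gamma1 M) (F1.F1Bar M) := by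
  intro u
  have h2 := F1L_le_adjoin_gens1 Kbar M u.2
  rw [IntermediateField.mem_adjoin_iff_div] at h2
  obtain ⟨r, hr, s, hs, hrs⟩ := h2
  obtain ⟨hrF, G₁, hG₁, hq₁⟩ := adjoin_gens1_le_realSub M hr
  obtain ⟨hsF, G₂, hG₂, hq₂⟩ := adjoin_gens1_le_realSub M hs
  by_cases hs0 : s = 0
  · -- then `u = 0`; use `u₁ = 0`, `u₂ = 1`
    have hu0 : u = 0 := by
      apply Subtype.ext
      rw [hrs, hs0, div_zero]
      rfl
    refine ⟨0, 1, 0, 1, one_ne_zero, by rw [hu0, zero_mul], ?_, ?_⟩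
    · refine Kum.realises_of_hasQExp ?_ ?_
      · exact Kum.isGood_const _ 0
      · have := H708.HasQExp.zero 1
        simpa using this
    · refine Kum.realises_of_hasQExp ?_ ?_
      · exact Kum.isGood_const _ 1
      · have := H708.HasQExp.one 1
        simpa using this
  · refine ⟨⟨r, hrF⟩, ⟨s, hsF⟩, G₁, G₂, ?_, ?_, ?_, ?_⟩
    · intro h
      exact hs0 (congrArg Subtype.val h)
    · apply Subtype.ext
      show (u : LaurentSeries Kbar) * s = r
      rw [hrs, div_mul_cancel₀ _ hs0]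
    · exact Kum.realises_of_hasQExp hG₁ hq₁
    · exact Kum.realises_of_hasQExp hG₂ hq₂

end Fermat.Agent.S48.H149

end
end
-- ===== PACK-END S48/H149/Mero1.lean

-- ===== PACK-BEGIN S48/Kum/An.lean
section
/-
Tower A1 / A1-KUM (helper822): the ANALYTIC REALISATION `an : F →+* MerH`, GENERIC in `(Γ, F)`,
constructed from the dictionary axiom `DictMero Γ F` (every element of `F` is a quotient of two
realised elements).  `MerH = Frac (holomorphic functions on ℍ)` (S24).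

* `an hT hmero : F →+* MerH`;
* `an_eq_of_realises`  : `Realises Γ F u G → an u = [G]`;
* `realises_of_an_eq`  : `IsGood Γ G → an u = [G] → Realises Γ F u G`.
(Generic version of `S29.H452.an` + `S29.M4b.H822.{an_eq_of_realises, realises_of_an_eq}`.)
-/




set_option autoImplicit false

noncomputable section

open ModularCurve AlgebraicCurve UpperHalfPlane
open scoped MatrixGroups Manifold

namespace Fermat.Agent.S48.Kum

open Fermat.Agent.S24 Fermat.Agent.S24.H624 Fermat.Agent.S29 Fermat.Agent.S29.M4b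
  Fermat.Agent.S29.M4b.H822

variable {Γ : Subgroup SL(2, ℤ)} {F : KF}

/-! ### More on good functions and realisations -/

theorem IsGood.add {G H : ℍ → ℂ} (hG : IsGood Γ G) (hH : IsGood Γ H) : IsGood Γ (G + H) := by
  obtain ⟨h1, h2, h3⟩ := hG
  obtain ⟨h1', h2', h3'⟩ := hH
  refine ⟨h1.add h1', fun γ hγ τ => ?_, fun g => ?_⟩
  · show G (γ • τ) + H (γ • τ) = G τ + H τ
    rw [h2 γ hγ τ, h2' γ hγ τ]
  · exact (h3 g).add (h3' g)

theorem Realises.add (hT : ModularGroup.T ∈ Γ) {u v : F} {G H : ℍ → ℂ}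
    (hu : _root_.Fermat.Agent.S48.Kum.Realises Γ F u G) (hv : _root_.Fermat.Agent.S48.Kum.Realises Γ F v H) : _root_.Fermat.Agent.S48.Kum.Realises Γ F (u + v) (G + H) := by
  refine realises_of_hasQExp (hu.1.add hv.1) ?_
  have := (hu.hasQExp hT).add (hv.hasQExp hT)
  simpa using this

theorem coeffMap_iotaC_algebraMap (c : Kbar) :
    coeffMap Deg457.iotaC (algebraMap Kbar (LaurentSeries Kbar) c) = HahnSeries.C (Deg457.iotaC c) := by
  rw [algebraMap_laurentSeries_eq_single, coeffMap_single]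
  rfl

/-- Constants are realised by constant functions. -/
theorem realises_algebraMap (Γ : Subgroup SL(2, ℤ)) (F : KF) (c : Kbar) :
    _root_.Fermat.Agent.S48.Kum.Realises Γ F (algebraMap Kbar F c) (fun _ => Deg457.iotaC c) := by
  refine realises_of_hasQExp (isGood_const Γ _) ?_
  have h := H708.HasQExp.const 1 (Deg457.iotaC c)
  have e : (((algebraMap Kbar F c : F)) : LaurentSeries Kbar)
      = algebraMap Kbar (LaurentSeries Kbar) c := rfl
  rw [e, coeffMap_iotaC_algebraMap]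
  exact h

theorem realises_one (Γ : Subgroup SL(2, ℤ)) (F : KF) : _root_.Fermat.Agent.S48.Kum.Realises Γ F (1 : F) (fun _ => (1 : ℂ)) := by
  have h := realises_algebraMap Γ F 1
  simpa using h

theorem realises_zero (Γ : Subgroup SL(2, ℤ)) (F : KF) : _root_.Fermat.Agent.S48.Kum.Realises Γ F (0 : F) (fun _ => (0 : ℂ)) := by
  have h := realises_algebraMap Γ F 0
  simpa using h

/-! ### The class of a good function in `MerH` -/

/-- The class in `MerH` of a holomorphic function. -/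
def merOf (G : ℍ → ℂ) (hG : MDifferentiable 𝓘(ℂ) 𝓘(ℂ) G) : MerH :=
  algebraMap holoRing MerH ⟨G, hG⟩

theorem merOf_injective {G H : ℍ → ℂ} {hG : MDifferentiable 𝓘(ℂ) 𝓘(ℂ) G}
    {hH : MDifferentiable 𝓘(ℂ) 𝓘(ℂ) H} (h : merOf G hG = merOf H hH) : G = H := by
  have := IsFractionRing.injective holoRing MerH h
  exact congrArg Subtype.val this

theorem merOf_mul {G H : ℍ → ℂ} (hG : MDifferentiable 𝓘(ℂ) 𝓘(ℂ) G)
    (hH : MDifferentiable 𝓘(ℂ) 𝓘(ℂ) H) :
    merOf (G * H) (hG.mul hH) = merOf G hG * merOf H hH := by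
  unfold merOf
  rw [← map_mul]
  rfl

theorem merOf_add {G H : ℍ → ℂ} (hG : MDifferentiable 𝓘(ℂ) 𝓘(ℂ) G)
    (hH : MDifferentiable 𝓘(ℂ) 𝓘(ℂ) H) :
    merOf (G + H) (hG.add hH) = merOf G hG + merOf H hH := by
  unfold merOf
  rw [← map_add]
  rfl

theorem merOf_ne_zero {G : ℍ → ℂ} (hG : MDifferentiable 𝓘(ℂ) 𝓘(ℂ) G) (h : G ≠ 0) :
    merOf G hG ≠ 0 := by
  intro h0
  apply h
  have h1 : merOf G hG = merOf (0 : ℍ → ℂ) (mdifferentiable_const (c := (0 : ℂ))) := by
    rw [h0]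
    unfold merOf
    have : (⟨(0 : ℍ → ℂ), mdifferentiable_const (c := (0 : ℂ))⟩ : holoRing) = 0 := rfl
    rw [this, map_zero]
  exact merOf_injective h1

theorem merOf_congr {G H : ℍ → ℂ} (hG : MDifferentiable 𝓘(ℂ) 𝓘(ℂ) G) (e : G = H) :
    merOf G hG = merOf H (e ▸ hG) := by
  subst e
  rfl

/-! ### The analytic realisation -/

section An

variable (hT : ModularGroup.T ∈ Γ) (hmero : DictMero Γ F)

theorem exists_pair (hmero : DictMero Γ F) (u : F) :
    ∃ p : (ℍ → ℂ) × (ℍ → ℂ), ∃ u₁ u₂ : F, u₂ ≠ 0 ∧ u * u₂ = u₁ ∧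
      _root_.Fermat.Agent.S48.Kum.Realises Γ F u₁ p.1 ∧ _root_.Fermat.Agent.S48.Kum.Realises Γ F u₂ p.2 := by
  obtain ⟨u₁, u₂, G₁, G₂, h2, h, hr1, hr2⟩ := hmero u
  exact ⟨(G₁, G₂), u₁, u₂, h2, h, hr1, hr2⟩

/-- The underlying function of `an`. -/
def anFun (hmero : DictMero Γ F) (u : F) : MerH :=
  merOf (exists_pair hmero u).choose.1
      (exists_pair hmero u).choose_spec.choose_spec.choose_spec.2.2.1.1.1 /
    merOf (exists_pair hmero u).choose.2
      (exists_pair hmero u).choose_spec.choose_spec.choose_spec.2.2.2.1.1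

include hT in
/-- The defining property of `anFun`: `an u · [G₂] = [G₁]` for EVERY presentation `u = u₁/u₂`
with `u_i` realised by `G_i`. -/
theorem anFun_spec {u u₁ u₂ : F} {G₁ G₂ : ℍ → ℂ} (h2 : u₂ ≠ 0) (h : u * u₂ = u₁)
    (hr1 : _root_.Fermat.Agent.S48.Kum.Realises Γ F u₁ G₁) (hr2 : _root_.Fermat.Agent.S48.Kum.Realises Γ F u₂ G₂) :
    anFun hmero u * merOf G₂ hr2.1.1 = merOf G₁ hr1.1.1 := by
  obtain ⟨v₁, v₂, hv2, hv, hs1, hs2⟩ := (exists_pair hmero u).choose_spec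
  set H₁ := (exists_pair hmero u).choose.1
  set H₂ := (exists_pair hmero u).choose.2
  have hH2 : merOf H₂ hs2.1.1 ≠ 0 := merOf_ne_zero _ (hs2.ne_zero hT hv2)
  -- `u₁ v₂ = v₁ u₂`
  have e : u₁ * v₂ = v₁ * u₂ := by rw [← h, ← hv]; ring
  have hfun : G₁ * H₂ = H₁ * G₂ := by
    have r1 := hr1.mul hT hs2
    have r2 := hs1.mul hT hr2
    rw [e] at r1
    exact r1.unique_right hT r2
  have hmer : merOf G₁ hr1.1.1 * merOf H₂ hs2.1.1 = merOf H₁ hs1.1.1 * merOf G₂ hr2.1.1 := by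
    rw [← merOf_mul, ← merOf_mul]
    exact merOf_congr _ hfun
  show merOf H₁ _ / merOf H₂ _ * merOf G₂ hr2.1.1 = merOf G₁ hr1.1.1
  rw [div_mul_eq_mul_div, div_eq_iff hH2, ← hmer]

include hT in
theorem anFun_mul (u v : F) : anFun hmero (u * v) = anFun hmero u * anFun hmero v := by
  obtain ⟨u₁, u₂, G₁, G₂, hu2, hu, hr1, hr2⟩ := hmero u
  obtain ⟨v₁, v₂, H₁, H₂, hv2, hv, hs1, hs2⟩ := hmero v
  have h1 := anFun_spec hT hmero hu2 hu hr1 hr2
  have h2 := anFun_spec hT hmero hv2 hv hs1 hs2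
  have e : u * v * (u₂ * v₂) = u₁ * v₁ := by rw [← hu, ← hv]; ring
  have h3 := anFun_spec hT hmero (mul_ne_zero hu2 hv2) e (hr1.mul hT hs1) (hr2.mul hT hs2)
  have hG2 : merOf G₂ hr2.1.1 ≠ 0 := merOf_ne_zero _ (hr2.ne_zero hT hu2)
  have hH2 : merOf H₂ hs2.1.1 ≠ 0 := merOf_ne_zero _ (hs2.ne_zero hT hv2)
  have h3' : anFun hmero (u * v) * (merOf G₂ hr2.1.1 * merOf H₂ hs2.1.1)
      = merOf G₁ hr1.1.1 * merOf H₁ hs1.1.1 := by
    rw [← merOf_mul, ← merOf_mul]
    exact h3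
  apply mul_right_cancel₀ (mul_ne_zero hG2 hH2)
  rw [h3', ← h1, ← h2]
  ring

include hT in
theorem anFun_add (u v : F) : anFun hmero (u + v) = anFun hmero u + anFun hmero v := by
  obtain ⟨u₁, u₂, G₁, G₂, hu2, hu, hr1, hr2⟩ := hmero u
  obtain ⟨v₁, v₂, H₁, H₂, hv2, hv, hs1, hs2⟩ := hmero v
  have h1 := anFun_spec hT hmero hu2 hu hr1 hr2
  have h2 := anFun_spec hT hmero hv2 hv hs1 hs2
  have e : (u + v) * (u₂ * v₂) = u₁ * v₂ + v₁ * u₂ := by rw [← hu, ← hv]; ring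
  have h3 := anFun_spec hT hmero (mul_ne_zero hu2 hv2) e
    ((hr1.mul hT hs2).add hT (hs1.mul hT hr2)) (hr2.mul hT hs2)
  have hG2 : merOf G₂ hr2.1.1 ≠ 0 := merOf_ne_zero _ (hr2.ne_zero hT hu2)
  have hH2 : merOf H₂ hs2.1.1 ≠ 0 := merOf_ne_zero _ (hs2.ne_zero hT hv2)
  have h3' : anFun hmero (u + v) * (merOf G₂ hr2.1.1 * merOf H₂ hs2.1.1)
      = merOf G₁ hr1.1.1 * merOf H₂ hs2.1.1 + merOf H₁ hs1.1.1 * merOf G₂ hr2.1.1 := by
    rw [← merOf_mul, ← merOf_mul, ← merOf_mul, ← merOf_add]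
    exact h3
  apply mul_right_cancel₀ (mul_ne_zero hG2 hH2)
  rw [h3', ← h1, ← h2]
  ring

include hT in
theorem anFun_of_realises {u : F} {G : ℍ → ℂ} (hu : _root_.Fermat.Agent.S48.Kum.Realises Γ F u G) :
    anFun hmero u = merOf G hu.1.1 := by
  have h := anFun_spec hT hmero (one_ne_zero) (mul_one u) hu (realises_one Γ F)
  have h1 : merOf (fun _ : ℍ => (1 : ℂ)) (realises_one Γ F).1.1 = 1 := by
    unfold merOf
    have : (⟨fun _ : ℍ => (1 : ℂ), (realises_one Γ F).1.1⟩ : holoRing) = 1 := rfl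
    rw [this, map_one]
  rwa [h1, mul_one] at h

/-- **The analytic realisation** `F →+* MerH`. -/
def an : F →+* MerH where
  toFun := anFun hmero
  map_one' := by
    rw [anFun_of_realises hT hmero (realises_one Γ F)]
    unfold merOf
    have : (⟨fun _ : ℍ => (1 : ℂ), (realises_one Γ F).1.1⟩ : holoRing) = 1 := rfl
    rw [this, map_one]
  map_mul' := anFun_mul hT hmero
  map_zero' := by
    rw [anFun_of_realises hT hmero (realises_zero Γ F)]
    unfold merOf
    have : (⟨fun _ : ℍ => (0 : ℂ), (realises_zero Γ F).1.1⟩ : holoRing) = 0 := rfl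
    rw [this, map_zero]
  map_add' := anFun_add hT hmero

theorem an_injective : Function.Injective (an hT hmero) := (an hT hmero).injective

/-- **Realised ⟹ analytic.** -/
theorem an_eq_of_realises {u : F} {G : ℍ → ℂ} (hu : _root_.Fermat.Agent.S48.Kum.Realises Γ F u G) :
    an hT hmero u = merOf G hu.1.1 :=
  anFun_of_realises hT hmero hu

/-- **Analytic ⟹ realised.** -/
theorem realises_of_an_eq {u : F} {G : ℍ → ℂ} (hG : IsGood Γ G)
    (h : an hT hmero u = merOf G hG.1) : _root_.Fermat.Agent.S48.Kum.Realises Γ F u G := by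
  obtain ⟨u₁, u₂, G₁, G₂, hu2, hu, hr1, hr2⟩ := hmero u
  have h1 : an hT hmero u * merOf G₂ hr2.1.1 = merOf G₁ hr1.1.1 :=
    anFun_spec hT hmero hu2 hu hr1 hr2
  rw [h, ← merOf_mul] at h1
  have hfun : G * G₂ = G₁ := merOf_injective h1
  -- compare `q`-expansions
  have hQ := hG.hasQExp hT
  have hQ2 := hr2.hasQExp hT
  have hQ1 := hr1.hasQExp hT
  have hprod := hQ.mul hQ2
  rw [hfun] at hprod
  have e1 := hprod.unique hQ1
  have hι2 : coeffMap Deg457.iotaC ((u₂ : F) : LaurentSeries Kbar) ≠ 0 := by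
    intro h0
    apply hu2
    apply Subtype.ext
    exact coeffMap_iotaC_injective (h0.trans (map_zero _).symm)
  refine ⟨hG, ?_⟩
  apply mul_right_cancel₀ hι2
  rw [e1, ← map_mul]
  congr 1
  exact (congrArg (fun f : F => (f : LaurentSeries Kbar)) hu).symm

end An

end Fermat.Agent.S48.Kum

end
end
-- ===== PACK-END S48/Kum/An.lean

-- ===== PACK-BEGIN S48/Kum/Mero.lean
section
/-
Tower A1 / A1-KUM (helper822): `DictMero` is a FIELD-CLOSURE property, GENERIC.

`IsMero Γ F u` : `u ∈ F` is a quotient of two realised elements.  The `IsMero` elements form an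
intermediate field `meroField hT ≤ F`; hence `DictMero Γ F` holds as soon as `F` is generated
(as a field, over `ℚ̄`) by `IsMero` elements (`dictMero_of_le`, `dictMero_of_adjoin`).
-/


set_option autoImplicit false

noncomputable section

open ModularCurve AlgebraicCurve UpperHalfPlane
open scoped MatrixGroups Manifold

namespace Fermat.Agent.S48.Kum

open Fermat.Agent.S24 Fermat.Agent.S29

variable {Γ : Subgroup SL(2, ℤ)} {F : KF}

/-- `u ∈ F` is a quotient of two realised elements. -/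
def IsMero (Γ : Subgroup SL(2, ℤ)) (F : KF) (u : F) : Prop :=
  ∃ (u₁ u₂ : F) (G₁ G₂ : ℍ → ℂ), u₂ ≠ 0 ∧ u * u₂ = u₁ ∧
    Realises Γ F u₁ G₁ ∧ Realises Γ F u₂ G₂

theorem dictMero_iff : DictMero Γ F ↔ ∀ u : F, IsMero Γ F u := Iff.rfl

theorem IsMero.of_realises {u : F} {G : ℍ → ℂ} (h : Realises Γ F u G) : IsMero Γ F u :=
  ⟨u, 1, G, fun _ => 1, one_ne_zero, mul_one u, h, realises_one Γ F⟩

theorem isMero_algebraMap (Γ : Subgroup SL(2, ℤ)) (F : KF) (c : Kbar) :
    IsMero Γ F (algebraMap Kbar F c) :=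
  IsMero.of_realises (realises_algebraMap Γ F c)

theorem IsMero.mul (hT : ModularGroup.T ∈ Γ) {u v : F} (hu : IsMero Γ F u)
    (hv : IsMero Γ F v) : IsMero Γ F (u * v) := by
  obtain ⟨u₁, u₂, G₁, G₂, h2, h, r1, r2⟩ := hu
  obtain ⟨v₁, v₂, H₁, H₂, k2, k, s1, s2⟩ := hv
  refine ⟨u₁ * v₁, u₂ * v₂, _, _, mul_ne_zero h2 k2, ?_, r1.mul hT s1, r2.mul hT s2⟩
  rw [← h, ← k]
  ring

theorem IsMero.add (hT : ModularGroup.T ∈ Γ) {u v : F} (hu : IsMero Γ F u)
    (hv : IsMero Γ F v) : IsMero Γ F (u + v) := by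
  obtain ⟨u₁, u₂, G₁, G₂, h2, h, r1, r2⟩ := hu
  obtain ⟨v₁, v₂, H₁, H₂, k2, k, s1, s2⟩ := hv
  refine ⟨u₁ * v₂ + v₁ * u₂, u₂ * v₂, _, _, mul_ne_zero h2 k2, ?_,
    (r1.mul hT s2).add hT (s1.mul hT r2), r2.mul hT s2⟩
  rw [← h, ← k]
  ring

theorem IsMero.neg (hT : ModularGroup.T ∈ Γ) {u : F} (hu : IsMero Γ F u) :
    IsMero Γ F (-u) := by
  have h := (isMero_algebraMap Γ F (-1)).mul hT hu
  rwa [map_neg, map_one, neg_one_mul] at h

theorem IsMero.inv {u : F} (hu : IsMero Γ F u) : IsMero Γ F u⁻¹ := by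
  obtain ⟨u₁, u₂, G₁, G₂, h2, h, r1, r2⟩ := hu
  by_cases h0 : u = 0
  · rw [h0, inv_zero]
    exact IsMero.of_realises (realises_zero Γ F)
  · have h1 : u₁ ≠ 0 := by
      rw [← h]
      exact mul_ne_zero h0 h2
    refine ⟨u₂, u₁, G₂, G₁, h1, ?_, r2, r1⟩
    rw [← h]
    field_simp

/-- `IsMero` only depends on the underlying Laurent series. -/
theorem IsMero.congr {u v : F} (hu : IsMero Γ F u) (e : (u : LaurentSeries Kbar) = v) :
    IsMero Γ F v := by
  have : u = v := Subtype.ext e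
  rwa [← this]

/-- The field of `IsMero` elements. -/
def meroField (hT : ModularGroup.T ∈ Γ) (F : KF) : KF where
  carrier := {x | ∃ h : x ∈ F, IsMero Γ F ⟨x, h⟩}
  mul_mem' := by
    rintro x y ⟨hx, mx⟩ ⟨hy, my⟩
    exact ⟨mul_mem hx hy, (mx.mul hT my).congr rfl⟩
  one_mem' := ⟨one_mem F, (IsMero.of_realises (realises_one Γ F)).congr rfl⟩
  add_mem' := by
    rintro x y ⟨hx, mx⟩ ⟨hy, my⟩
    exact ⟨add_mem hx hy, (mx.add hT my).congr rfl⟩
  zero_mem' := ⟨zero_mem F, (IsMero.of_realises (realises_zero Γ F)).congr rfl⟩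
  algebraMap_mem' c := ⟨F.algebraMap_mem c, (isMero_algebraMap Γ F c).congr rfl⟩
  inv_mem' := by
    rintro x ⟨hx, mx⟩
    exact ⟨inv_mem hx, mx.inv.congr rfl⟩

theorem mem_meroField (hT : ModularGroup.T ∈ Γ) {x : LaurentSeries Kbar} :
    x ∈ meroField hT F ↔ ∃ h : x ∈ F, IsMero Γ F ⟨x, h⟩ := Iff.rfl

theorem meroField_le (hT : ModularGroup.T ∈ Γ) : meroField hT F ≤ F := fun _ hx => hx.1

/-- `DictMero` from `F ≤ meroField`. -/
theorem dictMero_of_le (hT : ModularGroup.T ∈ Γ) (h : F ≤ meroField hT F) : DictMero Γ F := by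
  intro u
  obtain ⟨_, hu⟩ := h u.2
  exact hu

theorem le_meroField_of_dictMero (hT : ModularGroup.T ∈ Γ) (h : DictMero Γ F) :
    F ≤ meroField hT F := fun x hx => ⟨hx, h ⟨x, hx⟩⟩

/-- A realised Laurent series of `F` lies in `meroField`. -/
theorem mem_meroField_of_realises (hT : ModularGroup.T ∈ Γ) {u : F} {G : ℍ → ℂ}
    (h : Realises Γ F u G) : (u : LaurentSeries Kbar) ∈ meroField hT F :=
  ⟨u.2, IsMero.of_realises h⟩

/-- Transport of realisations along an inclusion of groups and a map of fields which is the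
identity on Laurent series. -/
theorem Realises.transport {Γ' : Subgroup SL(2, ℤ)} {F' : KF} (hle : Γ' ≤ Γ) {u : F} {G : ℍ → ℂ}
    (h : Realises Γ F u G) (u' : F') (e : (u' : LaurentSeries Kbar) = u) :
    Realises Γ' F' u' G :=
  ⟨h.1.mono hle, by rw [e]; exact h.2⟩

end Fermat.Agent.S48.Kum

end
end
-- ===== PACK-END S48/Kum/Mero.lean

-- ===== PACK-BEGIN S48/Kum/Norm.lean
section
/-
Tower A1 / A1-KUM (helper822): the ANALYTIC NORM FORMULA, GENERIC.

`normAn_of_embeddings`: let `Γ' ≤ Γ`, `F`, `F'` function fields with `DictMero`, `ψ φ : F → F'`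
(`ψ` "the inclusion", `φ` "`q ↦ q^p`") compatible with realisations (`ψ u` realised by `G`, `φ u` by
`G ∘ B`), `γ x ∈ Γ` (`x : I`) coset representatives with `|I| = [F' : F]` which are separated by
one realised element of `F'`, and `A x` matrices with `G ∘ (B γ_x) = G ∘ A x` for good `G`.
Then  `G realises u  ⟹  ∏ₓ G ∘ A x realises Norm_ψ (φ u)`   (provided the product is good).

(Generic version of `S29.H452.an_normAlong_beta` + `S29.M4b.H822.realises_heckeNorm`.)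
-/



set_option autoImplicit false
set_option linter.style.haveILetI false

noncomputable section

open ModularCurve AlgebraicCurve UpperHalfPlane
open scoped MatrixGroups Manifold

namespace Fermat.Agent.S48.Kum

open Fermat.Agent.S24 Fermat.Agent.S24.H624 Fermat.Agent.S29 Fermat.Agent.S29.M4b
  Fermat.Agent.S29.M4b.H822 Fermat.Agent.S29.H452 Matrix.SpecialLinearGroup

variable {Γ Γ' : Subgroup SL(2, ℤ)} {F F' : KF}

/-- Two ring homs out of `F` into a field which agree on realised elements are equal. -/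
theorem ringHom_ext_of_realised (hT : ModularGroup.T ∈ Γ) (hmero : DictMero Γ F)
    {L : Type*} [Field L] (f g : F →+* L)
    (h : ∀ (u : F) (G : ℍ → ℂ), _root_.Fermat.Agent.S48.Kum.Realises Γ F u G → f u = g u) : f = g := by
  ext u
  obtain ⟨u₁, u₂, G₁, G₂, hu2, hu, hr1, hr2⟩ := hmero u
  have h1 := h u₁ G₁ hr1
  have h2 := h u₂ G₂ hr2
  have hf2 : f u₂ ≠ 0 := (map_ne_zero f).mpr hu2
  apply mul_right_cancel₀ hf2
  rw [← map_mul, hu, h1, h2, ← map_mul, hu]

theorem merGL_merOf (g : GL (Fin 2) ℝ) (hg : 0 < g.det.val) (G : ℍ → ℂ)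
    (hG : MDifferentiable 𝓘(ℂ) 𝓘(ℂ) G) :
    merGL g hg (merOf G hG) = merOf (fun τ => G (g • τ)) (hG.comp (mdifferentiable_smul hg)) := by
  unfold merOf
  rw [merGL_algebraMap]
  rfl

theorem merOf_prod {I : Type*} [Fintype I] (G : I → ℍ → ℂ)
    (hG : ∀ i, MDifferentiable 𝓘(ℂ) 𝓘(ℂ) (G i))
    (hP : MDifferentiable 𝓘(ℂ) 𝓘(ℂ) (fun τ => ∏ i, G i τ)) :
    merOf (fun τ => ∏ i, G i τ) hP = ∏ i, merOf (G i) (hG i) := by
  unfold merOf
  rw [← map_prod]
  congr 1
  apply Subtype.ext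
  funext τ
  rw [SubmonoidClass.coe_finset_prod, Finset.prod_apply]

instance charZero_KF (F : KF) : CharZero F :=
  charZero_of_injective_algebraMap (algebraMap Kbar F).injective

/-- **The analytic norm formula (generic).** -/
theorem normAn_of_embeddings (hT' : ModularGroup.T ∈ Γ') (hle : Γ' ≤ Γ)
    (hmero : DictMero Γ F) (hmero' : DictMero Γ' F')
    (φ ψ : F →ₐ[Kbar] F')
    (hψ : ∀ (u : F) (G : ℍ → ℂ), _root_.Fermat.Agent.S48.Kum.Realises Γ F u G → _root_.Fermat.Agent.S48.Kum.Realises Γ' F' (ψ u) G)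
    (B : GL (Fin 2) ℝ) (hB : 0 < B.det.val)
    (hφ : ∀ (u : F) (G : ℍ → ℂ), _root_.Fermat.Agent.S48.Kum.Realises Γ F u G →
      _root_.Fermat.Agent.S48.Kum.Realises Γ' F' (φ u) (fun τ => G (B • τ)))
    {I : Type*} [Fintype I] [Nonempty I] (γ : I → SL(2, ℤ)) (hγ : ∀ x, γ x ∈ Γ)
    (A : I → GL (Fin 2) ℝ)
    (hA : ∀ (x : I) (G : ℍ → ℂ), IsGood Γ G → ∀ τ : ℍ, G (B • (γ x • τ)) = G (A x • τ))
    (hcard : Fintype.card I = (letI := algebraAlong ψ; Module.finrank F F'))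
    (hdist : ∃ (w : F') (W : ℍ → ℂ), _root_.Fermat.Agent.S48.Kum.Realises Γ' F' w W ∧
      ∀ x y : I, (∀ τ : ℍ, W (γ x • τ) = W (γ y • τ)) → x = y)
    (hgood : ∀ G : ℍ → ℂ, IsGood Γ G → IsGood Γ (fun τ => ∏ x, G (A x • τ)))
    (u : F) (G : ℍ → ℂ) (hu : _root_.Fermat.Agent.S48.Kum.Realises Γ F u G) :
    _root_.Fermat.Agent.S48.Kum.Realises Γ F (H455.normAlong ψ (φ u)) (fun τ => ∏ x, G (A x • τ)) := by
  classical
  have hT : ModularGroup.T ∈ Γ := hle hT'
  letI := algebraAlong ψ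
  have hdetγ : ∀ x, 0 < (mapGL ℝ (γ x) : GL (Fin 2) ℝ).det.val := fun x => det_coe_SL_pos (γ x)
  -- the embeddings
  let τ : I → (F' →+* MerH) := fun x =>
    ((merGL (mapGL ℝ (γ x)) (hdetγ x) : MerH ≃+* MerH) : MerH →+* MerH).comp (an hT' hmero')
  have hτ_real : ∀ (x : I) (w : F') (W : ℍ → ℂ) (hw : _root_.Fermat.Agent.S48.Kum.Realises Γ' F' w W),
      τ x w = merOf (fun t => W (γ x • t))
        (hw.1.1.comp (mdifferentiable_smul (hdetγ x))) := by
    intro x w W hw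
    show merGL _ _ (an hT' hmero' w) = _
    rw [an_eq_of_realises hT' hmero' hw, merGL_merOf]
    rfl
  have hτ : ∀ x, (τ x).comp (algebraMap F F') = an hT hmero := by
    intro x
    apply ringHom_ext_of_realised hT hmero
    intro v V hv
    show τ x (ψ v) = _
    rw [hτ_real x (ψ v) V (hψ v V hv), an_eq_of_realises hT hmero hv]
    apply merOf_congr
    funext t
    exact hv.1.2.1 _ (hγ x) t
  have hinj : Function.Injective τ := by
    intro x y hxy
    obtain ⟨w, W, hw, hsep⟩ := hdist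
    apply hsep
    have h1 := RingHom.congr_fun hxy w
    rw [hτ_real x w W hw, hτ_real y w W hw] at h1
    exact fun t => congrFun (merOf_injective h1) t
  have hfd : FiniteDimensional F F' := by
    apply Module.finite_of_finrank_pos
    rw [← hcard]
    exact Fintype.card_pos
  have hsep : Algebra.IsSeparable F F' := Algebra.IsSeparable.of_integral F F'
  have key := H455.norm_eq_prod_of_injective (an hT hmero) τ hτ hinj hcard (φ u)
  have hP := hgood G hu.1
  have hmd : ∀ x : I, MDifferentiable 𝓘(ℂ) 𝓘(ℂ) (fun t : ℍ => G (A x • t)) := by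
    intro x
    have h1 : MDifferentiable 𝓘(ℂ) 𝓘(ℂ) (fun t : ℍ => G (B • (γ x • t))) :=
      (hu.1.1.comp (mdifferentiable_smul hB)).comp (mdifferentiable_smul (hdetγ x))
    have e : (fun t : ℍ => G (A x • t)) = fun t : ℍ => G (B • (γ x • t)) :=
      funext fun t => (hA x G hu.1 t).symm
    rw [e]
    exact h1
  refine realises_of_an_eq hT hmero hP ?_
  show an hT hmero (Algebra.norm F (φ u)) = _
  rw [key, merOf_prod (fun x t => G (A x • t)) hmd hP.1]
  refine Finset.prod_congr rfl fun x _ => ?_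
  rw [hτ_real x (φ u) _ (hφ u G hu)]
  apply merOf_congr
  funext t
  exact hA x G hu.1 t

end Fermat.Agent.S48.Kum

end
end
-- ===== PACK-END S48/Kum/Norm.lean

-- ===== PACK-BEGIN S48/F1/Raise.lean
section




/-!
# S48 / Tower A1, node A1-FF (helper168) — RAISING THE LEVEL of a generic analytic datum

`D : GenData M Γ P` (helper332's generic analytic input for the field `P.F = ℚ̄(S)` of modular
functions for `Γ`, avatars in `S24.holN M`).  For `p ≥ 1`:

* `raiseS P p = S ∪ {s(q^p) : s ∈ S}`, the generators of the field of level `(Γ; p)`;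
* `raiseData D p F' hF' hconj : GenData (M * p) (Γ ⊓ Γ₀(p)) (raiseField P p F' hF')`
  with avatars `G s` (`s ∈ S`) and `τ ↦ G s (p τ)`.

The only hypothesis `hconj` says that `Γ ∩ Γ₀(p)` is carried into `Γ` by conjugation with
`diag(p, 1)`; it holds for `Γ = ±Γ₁(M)` (`p ∤ M` is not even needed for that).

Consequently (generic engine, `H332.GenData.finrank_eq`, `.pkg`) the field `ℚ̄(S, S(q^p))` has
degree `[SL₂(ℤ) : Γ ∩ Γ₀(p)]` over `ℚ̄(j)` and carries the whole local dictionary: NO second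
analytic instance is needed for `F1p M p`.
-/

set_option autoImplicit false
set_option linter.style.haveILetI false
set_option linter.unusedSectionVars false

noncomputable section

open ModularCurve HahnSeries UpperHalfPlane
open scoped MatrixGroups Manifold Real

namespace Fermat.Agent.S48.F1

open Fermat.Agent.S24 Fermat.Agent.S24.H997 Fermat.Agent.S48.H332

/-! ### `holN` and change of level -/

section HolN

variable {N : ℕ} [NeZero N]

/-- An expansion in `exp(2πiτ/N)` is an expansion in `exp(2πiτ/(Nℓ))`. -/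
theorem infExp_raise {f : ℍ → ℂ} {φ : LaurentSeries ℂ} (hf : InfExp N f φ) (ℓ : ℕ) [NeZero ℓ] :
    InfExp (N * ℓ) f (qExpand ℂ ℓ φ) := by
  have hN : 0 < N := Nat.pos_of_ne_zero (NeZero.ne N)
  have hℓ : 0 < ℓ := Nat.pos_of_ne_zero (NeZero.ne ℓ)
  have h := hf.comp_infAff (N := N * ℓ) (a := 1) (d := 1) (e := ℓ) 0 one_pos one_pos hN
    (Nat.mul_pos hN hℓ) (by ring)
  rw [infRoot_zero, infTwist_one] at h
  refine h.congr fun τ => ?_
  rw [infAff_one_zero_one]

/-- `holN N ⊆ holN (N ℓ)`. -/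
theorem mem_holN_raise {f : ℍ → ℂ} (hf : f ∈ holN N) (ℓ : ℕ) [NeZero ℓ] [NeZero (N * ℓ)] :
    f ∈ holN (N * ℓ) := by
  refine ⟨hf.1, fun g => ?_⟩
  obtain ⟨φ, hφ⟩ := hf.2 g
  exact (infExp_raise hφ ℓ).mem_expRing

/-- `f ∈ holN N ⟹ (τ ↦ f (ℓ τ)) ∈ holN (N ℓ)`. -/
theorem comp_scale_mem_holN {f : ℍ → ℂ} (hf : f ∈ holN N) (ℓ : ℕ) [NeZero ℓ] [NeZero (N * ℓ)] :
    (fun τ => f (infAff ℓ 0 1 τ)) ∈ holN (N * ℓ) := by
  have hℓ : 0 < ℓ := Nat.pos_of_ne_zero (NeZero.ne ℓ)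
  have hN : 0 < N := Nat.pos_of_ne_zero (NeZero.ne N)
  refine ⟨H564.mdiff_comp_infAff hf.1 hℓ one_pos 0, fun g => ?_⟩
  obtain ⟨γ', a, d', b, ha, hd', had, h00, h01, h10, h11⟩ := inf_exists_hnf ℓ hℓ g
  obtain ⟨φ, hφ⟩ := hf.2 γ'
  haveI : NeZero (a * a) := ⟨(Nat.mul_pos ha ha).ne'⟩
  have he : a * a * (d' * N) = a * (N * ℓ) := by
    rw [← had]; ring
  have h := hφ.comp_infAff (e := a * a) b ha hd' hN (Nat.mul_pos hN hℓ) he
  have h2 : compSL g (fun τ => f (infAff ℓ 0 1 τ))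
      = fun τ => compSL γ' f (infAff a b d' τ) := by
    funext τ
    show f (infAff ℓ 0 1 (g • τ)) = f (γ' • infAff a b d' τ)
    rw [inf_aff_smul_eq hℓ ha hd' g γ' h00 h01 h10 h11 τ]
  rw [h2]
  exact h.mem_expRing

/-- The expansion of `τ ↦ f (ℓ τ)`. -/
theorem infExp_comp_scale {f : ℍ → ℂ} {φ : LaurentSeries ℂ} (hf : InfExp N f φ) (ℓ : ℕ)
    [NeZero ℓ] : InfExp (N * ℓ) (fun τ => f (infAff ℓ 0 1 τ)) (qExpand ℂ (ℓ * ℓ) φ) := by
  have hN : 0 < N := Nat.pos_of_ne_zero (NeZero.ne N)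
  have hℓ : 0 < ℓ := Nat.pos_of_ne_zero (NeZero.ne ℓ)
  haveI : NeZero (ℓ * ℓ) := ⟨(Nat.mul_pos hℓ hℓ).ne'⟩
  have h := hf.comp_infAff (N := N * ℓ) (a := ℓ) (d := 1) (e := ℓ * ℓ) 0 hℓ one_pos hN
    (Nat.mul_pos hN hℓ) (by ring)
  rw [infRoot_zero, infTwist_one] at h
  exact h

/-- An element of `holN N` is determined by its expansion at `i∞`. -/
theorem eq_of_infExp_holN {f g : ℍ → ℂ} {φ : LaurentSeries ℂ} (hf : f ∈ holN N)
    (hg : g ∈ holN N) (h1 : InfExp N f φ) (h2 : InfExp N g φ) : f = g := by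
  have hinj : Function.Injective ((expInf N).comp (holToExp N)) :=
    expInf_injective.comp (holToExp_injective N)
  have e1 : (expInf N).comp (holToExp N) ⟨f, hf⟩ = φ := h1.expInf_eq
  have e2 : (expInf N).comp (holToExp N) ⟨g, hg⟩ = φ := h2.expInf_eq
  exact congrArg Subtype.val (hinj (e1.trans e2.symm))

end HolN

/-! ### Coefficient maps and `q ↦ q^p` -/

theorem coeffMap_qExpand_raise {R S : Type*} [CommRing R] [CommRing S] (f : R →+* S) (n : ℕ)
    [NeZero n] (x : LaurentSeries R) :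
    coeffMap f (qExpand R n x) = qExpand S n (coeffMap f x) := by
  ext k
  by_cases hk : (n : ℤ) ∣ k
  · obtain ⟨m, rfl⟩ := hk
    rw [coeffMap_coeff, qExpand_coeff_mul, qExpand_coeff_mul, coeffMap_coeff]
  · rw [coeffMap_coeff, qExpand_coeff_of_not_dvd n _ hk, qExpand_coeff_of_not_dvd n _ hk,
      map_zero]

/-- `Φ_{Mp}(s) = (Φ_M s)(z^p)`. -/
theorem Φ_raise (M p : ℕ) [NeZero M] [NeZero p] [NeZero (M * p)] (s : LaurentSeries Kbar) :
    HolBase.Φ (M * p) s = qExpand ℂ p (HolBase.Φ M s) := by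
  show qExpand ℂ (M * p) (coeffMap ιK s) = qExpand ℂ p (qExpand ℂ M (coeffMap ιK s))
  rw [qExpand_qExpand]
  exact qExpand_congr (mul_comm M p) _

/-- `Φ_{Mp}(s(q^p)) = (Φ_M s)(z^{p²})`. -/
theorem Φ_raise_qExpand (M p : ℕ) [NeZero M] [NeZero p] [NeZero (M * p)] [NeZero (p * p)]
    (s : LaurentSeries Kbar) :
    HolBase.Φ (M * p) (qExpand Kbar p s) = qExpand ℂ (p * p) (HolBase.Φ M s) := by
  show qExpand ℂ (M * p) (coeffMap ιK (qExpand Kbar p s))
    = qExpand ℂ (p * p) (qExpand ℂ M (coeffMap ιK s))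
  haveI : NeZero (M * p * p) := ⟨Nat.mul_ne_zero (NeZero.ne (M * p)) (NeZero.ne p)⟩
  haveI : NeZero (p * p * M) := ⟨Nat.mul_ne_zero (NeZero.ne (p * p)) (NeZero.ne M)⟩
  rw [coeffMap_qExpand_raise, qExpand_qExpand, qExpand_qExpand]
  exact qExpand_congr (by ring) _

/-! ### The raised datum -/

section Raise

variable {M : ℕ} [NeZero M] {Γ : Subgroup SL(2, ℤ)} {P : GenField}

/-- The generators of the field of level `(Γ; p)`: `S ∪ S(q^p)`. -/
def raiseS (P : GenField) (p : ℕ) [NeZero p] : Set (LaurentSeries Kbar) :=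
  P.S ∪ (⇑(qExpand Kbar p) '' P.S)

/-- The field of level `(Γ; p)`, presented as a `GenField`. -/
def raiseField (P : GenField) (p : ℕ) [NeZero p]
    (F' : IntermediateField Kbar (LaurentSeries Kbar))
    (hF' : F' = IntermediateField.adjoin Kbar (raiseS P p)) : GenField where
  S := raiseS P p
  F := F'
  hF := hF'
  hj := Or.inl P.hj

open Classical in
/-- The avatars of the raised datum: `G s` for `s ∈ S`, `τ ↦ G s₀ (p τ)` for `s = s₀(q^p)`. -/
def raiseG (D : GenData M Γ P) (p : ℕ) [NeZero p] (s : LaurentSeries Kbar) : ℍ → ℂ :=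
  if s ∈ P.S then D.G s
  else fun τ => D.G (Function.invFun (⇑(qExpand Kbar p)) s) (infAff p 0 1 τ)

variable (D : GenData M Γ P) (p : ℕ) [NeZero p]

theorem raiseG_of_mem {s : LaurentSeries Kbar} (hs : s ∈ P.S) : raiseG D p s = D.G s := by
  rw [raiseG, if_pos hs]

theorem raiseG_qExpand [NeZero (M * p)] {s₀ : LaurentSeries Kbar} (hs₀ : s₀ ∈ P.S) :
    raiseG D p (qExpand Kbar p s₀) = fun τ => D.G s₀ (infAff p 0 1 τ) := by
  have hp : 0 < p := Nat.pos_of_ne_zero (NeZero.ne p)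
  haveI : NeZero (p * p) := ⟨(Nat.mul_pos hp hp).ne'⟩
  by_cases hs : qExpand Kbar p s₀ ∈ P.S
  · rw [raiseG_of_mem D p hs]
    refine eq_of_infExp_holN (N := M * p) (mem_holN_raise (D.G_mem _ hs) p)
      (comp_scale_mem_holN (D.G_mem _ hs₀) p) (φ := HolBase.Φ (M * p) (qExpand Kbar p s₀)) ?_ ?_
    · rw [Φ_raise]
      exact infExp_raise (D.G_exp _ hs) p
    · rw [Φ_raise_qExpand]
      exact infExp_comp_scale (D.G_exp _ hs₀) p
  · rw [raiseG, if_neg hs]
    have hinv : Function.invFun (⇑(qExpand Kbar p)) (qExpand Kbar p s₀) = s₀ :=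
      Function.leftInverse_invFun (qExpand_injective (R := Kbar) p) s₀
    rw [hinv]

/-- **Raising the level** of a generic analytic datum. -/
def raiseData [NeZero (M * p)] (F' : IntermediateField Kbar (LaurentSeries Kbar))
    (hF' : F' = IntermediateField.adjoin Kbar (raiseS P p))
    (hconj : ∀ g ∈ Γ, g ∈ CongruenceSubgroup.Gamma0 p →
      ∃ g' ∈ Γ, ∀ τ : ℍ, infAff p 0 1 (g • τ) = g' • infAff p 0 1 τ) :
    GenData (M * p) (Γ ⊓ CongruenceSubgroup.Gamma0 p) (raiseField P p F' hF') where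
  G := raiseG D p
  G_mem := by
    rintro s (hs | ⟨s₀, hs₀, rfl⟩)
    · rw [raiseG_of_mem D p hs]
      exact mem_holN_raise (D.G_mem _ hs) p
    · rw [raiseG_qExpand D p hs₀]
      exact comp_scale_mem_holN (D.G_mem _ hs₀) p
  G_j := by
    rw [raiseG_of_mem D p P.hj]
    exact D.G_j
  G_inv := by
    rintro s (hs | ⟨s₀, hs₀, rfl⟩) g hg τ
    · rw [raiseG_of_mem D p hs]
      exact D.G_inv s hs g hg.1 τ
    · rw [raiseG_qExpand D p hs₀]
      obtain ⟨g', hg', h⟩ := hconj g hg.1 hg.2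
      show D.G s₀ (infAff p 0 1 (g • τ)) = D.G s₀ (infAff p 0 1 τ)
      rw [h τ]
      exact D.G_inv s₀ hs₀ g' hg' _
  G_distinct := by
    intro g hg
    refine ⟨D.G_distinct g fun s hs τ => ?_, ?_⟩
    · have := hg s (Or.inl hs) τ
      rwa [raiseG_of_mem D p hs] at this
    · apply Jd_distinct p g
      intro τ
      have := hg (qExpand Kbar p jBar) (Or.inr ⟨jBar, P.hj, rfl⟩) τ
      rw [raiseG_qExpand D p P.hj] at this
      simp only [D.G_j] at this
      exact this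
  G_exp := by
    have hp : 0 < p := Nat.pos_of_ne_zero (NeZero.ne p)
    haveI : NeZero (p * p) := ⟨(Nat.mul_pos hp hp).ne'⟩
    rintro s (hs | ⟨s₀, hs₀, rfl⟩)
    · rw [raiseG_of_mem D p hs, Φ_raise]
      exact infExp_raise (D.G_exp _ hs) p
    · rw [raiseG_qExpand D p hs₀, Φ_raise_qExpand]
      exact infExp_comp_scale (D.G_exp _ hs₀) p

end Raise

end Fermat.Agent.S48.F1

end
end
-- ===== PACK-END S48/F1/Raise.lean

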