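import Fermat.Agent.Pack.L1B.E5L3
import Fermat.Agent.Pack.L1B.E4L0
import Fermat.Agent.Pack.L1B.E4L2
import Fermat.Agent.Pack.L1B.E1L3
import Fermat.Agent.Pack.L1B.E5L1
import Fermat.Agent.Pack.L1B.E5L0
import Fermat.Agent.Pack.L1B.E4L3
import Fermat.Agent.Pack.L1B.E5L2
import Fermat.Agent.Pack.L1B.E3L2
import Fermat.Agent.Pack.S44C.G0E28L1
import Fermat.Agent.Pack.S44C.G0E24L3
import Fermat.Agent.Pack.S44C.G0E19L1
import Fermat.Agent.Pack.S44C.G0E17L2
import Fermat.Agent.Pack.L1.E10L0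

-- ===== PACK-BEGIN S48/Red1/Branch.lean
section





/-!
# S48 / RES (Tower A1), sub-tower A1-RED, node R4: the branch leaf for `F1 M` (helper588)

`branchF1 : BranchF1` — the branch data of the `j`-line for `Ω = Q̄·F1(M)`: unramified outside
`0, 1728, ∞`, `e ≤ 3` over `0`, `e ≤ 2` over `1728`.  Pure adapter: helper648's
`ordLe_*_of_embedding` / `unramified_j_laurentBaseChange` along `baseChangeEmb` into the
full-level field `H828.IActField`, the avatars of the generators of `F1 M` being helper76's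
`iactP` (I-GEN).
-/

set_option autoImplicit false

noncomputable section

namespace Fermat.Agent.S48.Red1

open ModularCurve AlgebraicCurve HahnSeries Fermat.Agent.S18 Fermat.Agent.S18.Alg
open Fermat.Agent.S18.Mod Fermat.Agent.S48.H248 Fermat.Agent.S18.H107 Fermat.Agent.S48.F1
open Fermat.Agent.S48.H828 Fermat.Agent.S48.H648 Fermat.Agent.S24 Fermat.Agent.S24.H997

/-- The coordinate `j` of `OmG F₀` is the series `j`. -/
theorem coe_iotaG_jOm (M : ℕ) [NeZero M] (F₀ : IntermediateField ℚ (LaurentSeries ℚ))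
    (hle : modularFunctionFieldFull M ≤ F₀) :
    ((iotaG M F₀ hle (jOm M) : OmG F₀) : LaurentSeries Qb) = coeffEmb Qb jq := by
  rw [coe_iotaG]
  show coeffEmb Qb (qExpand ℚ 1 jq) = coeffEmb Qb jq
  rw [qExpand_one_apply]

/-- **The branch leaf for `F1 M`.** -/
theorem branchF1 : BranchF1 := by
  intro M _
  have hζ := iactZeta_spec M
  have hP : HasDivAvatars ιK M := fun a ha =>
    ⟨Fermat.Agent.S48.H76.iactP (iactZeta M) hζ a,
      Fermat.Agent.S48.H76.iactExp_iactP (iactZeta M) hζ ha⟩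
  have hF₀ : ∀ x ∈ F1 M, coeffEmb Qb x ∈ avatarField ιK M :=
    fun _ hx => F1_le_avatarIF (iactZeta M) hζ hP hx
  have hj := coe_iotaG_jOm M (F1 M) (full_le_F1 M)
  haveI : CharZero (OmG (F1 M)) :=
    charZero_of_injective_algebraMap (algebraMap Qb (OmG (F1 M))).injective
  refine ⟨?_, ?_, ?_⟩
  · intro O hO a ha ha0 ha1 h1 h2
    rw [OrdLe107.one_iff]
    intro s hs hs'
    exact unramified_j_laurentBaseChange (ι := ιK) (M := M) (F1 M) hF₀ _ hj O hO a ha ha0 ha1
      h1 h2 s hs hs'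
  · intro O hO h1 h2
    exact ordLe_zero_of_embedding ιK M (baseChangeEmb ιK M (F1 M) hF₀) (LcG (F1 M)) _
      (baseChange_hconst (F1 M) hF₀) (baseChange_hj (F1 M) hF₀ _ hj) O hO h1 h2
  · intro O hO h1 h2
    exact ordLe_1728_of_embedding ιK M (baseChangeEmb ιK M (F1 M) hF₀) (LcG (F1 M)) _
      (baseChange_hconst (F1 M) hF₀) (baseChange_hj (F1 M) hF₀ _ hj) O hO h1 h2

end Fermat.Agent.S48.Red1

end
end
-- ===== PACK-END S48/Red1/Branch.lean

-- ===== PACK-BEGIN S48/Red1/Fin.lean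
section




/-!
# S48 / RES (Tower A1), sub-tower A1-RED, node R4: the leaves `finite` and `separable` (helper588)

* `finite_FcT_of_gens` : GENERIC — if `F₀ = ℚ(T)`, `T` finite, every `t ∈ T` a root of a nonzero
  polynomial over `ℚ[j]`, then `E·F₀` is finite over `E(j)` (field `finite` of `TopLeaves`);
* `separable_VcT`      : GENERIC — the field `separable` of `TopLeaves` from the field `finite`
  (helper128's `separable_VRing`);
* `QepTop`, `QepF1`    : the remaining leaves (`qep_fin`, `qep_inf` at `j`);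
* `leavesF1_of_qep`    : `QepF1 → LeavesF1`;
* `mod1Hyp_of_qep`     : `QepF1 → H908.Core1.Mod1Hyp`.
-/

set_option autoImplicit false

noncomputable section

namespace Fermat.Agent.S48.Red1

open ModularCurve AlgebraicCurve HahnSeries Fermat.Agent.S18 Fermat.Agent.S18.Alg
open Fermat.Agent.S18.Mod Fermat.Agent.S48.H248 Fermat.Agent.S18.H107 Fermat.Agent.S48.F1
open Fermat.Agent.S24 Fermat.Agent.S24.Deg457

section Generic

variable {F₀ : IntermediateField ℚ (LaurentSeries ℚ)}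

/-- The coordinate lies in `E(j)`. -/
theorem self_mem_ratField_red1 (E : Subfield Qb) (j : OmG F₀) :
    j ∈ ratField (EcG E (cstG F₀)) j :=
  Subfield.subset_closure (Or.inr rfl)

theorem EcG_le_ratField_red1 (E : Subfield Qb) (j : OmG F₀) :
    EcG E (cstG F₀) ≤ ratField (EcG E (cstG F₀)) j :=
  fun _ h => Subfield.subset_closure (Or.inl h)

/-- Ring homs out of `ℚ` agree. -/
theorem ringHom_rat_eq_red1 {R : Type*} [Semiring R] (f g : ℚ →+* R) : f = g :=
  Subsingleton.elim f g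

/-- A relation over `ℚ[j]` makes the image in `Ω'` integral over `E(j)`. -/
theorem isIntegral_embG_of_algRel (E : Subfield Qb) (j : OmG F₀)
    (hj : (j : LaurentSeries Qb) = coeffEmb Qb jq) (g : F₀)
    (hg : Fermat.Agent.S48.H150.AlgRel ℚ jq (g : LaurentSeries ℚ)) :
    IsIntegral (ratField (EcG E (cstG F₀)) j) (embG F₀ g) := by
  obtain ⟨Q, hQ0, hQ⟩ := hg
  have hexinj : Function.Injective (exG F₀) := (exG F₀).injective
  set K := ratField (EcG E (cstG F₀)) j with hKdef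
  let j' : K := ⟨j, self_mem_ratField_red1 E j⟩
  -- `φ : ℚ[X] → K`, `X ↦ j`
  let φ : Polynomial ℚ →+* K := Polynomial.eval₂RingHom (algebraMap ℚ K) j'
  have hψ : ((exG F₀).comp K.subtype).comp φ = (coeffEmb Qb).comp (evJ jq) := by
    apply Polynomial.ringHom_ext
    · intro a
      have h1 : ((exG F₀).comp K.subtype).comp (φ.comp Polynomial.C)
          = ((coeffEmb Qb).comp (evJ jq)).comp Polynomial.C := ringHom_rat_eq_red1 _ _
      exact congrArg (fun f : ℚ →+* LaurentSeries Qb => f a) h1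
    · show exG F₀ (K.subtype (Polynomial.eval₂ (algebraMap ℚ K) j' Polynomial.X)) =
        coeffEmb Qb (Polynomial.aeval jq Polynomial.X)
      rw [Polynomial.eval₂_X, Polynomial.aeval_X]
      exact hj
  have hφinj : Function.Injective φ := by
    rw [injective_iff_map_eq_zero]
    intro t ht
    by_contra h0
    have h1 := congrArg (fun f : Polynomial ℚ →+* LaurentSeries Qb => f t) hψ
    simp only [RingHom.comp_apply] at h1
    rw [ht, map_zero, map_zero] at h1
    have h3 : Polynomial.aeval (JK Qb) (t.map (algebraMap ℚ Qb)) = 0 := by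
      have h4 : coeffEmb Qb (Polynomial.aeval jq t) =
          Polynomial.aeval (JK Qb) (t.map (algebraMap ℚ Qb)) := by
        rw [Polynomial.aeval_def, Polynomial.aeval_def, Polynomial.hom_eval₂,
          Polynomial.eval₂_map, JK]
        congr 1
        exact ringHom_rat_eq_red1 _ _
      rw [← h4]
      exact h1.symm
    exact aeval_JK_ne_zero Qb
      ((Polynomial.map_ne_zero_iff (algebraMap ℚ Qb).injective).mpr h0) h3
  have hP0 : Q.map φ ≠ 0 := (Polynomial.map_ne_zero_iff hφinj).mpr hQ0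
  have hroot : Polynomial.aeval (embG F₀ g) (Q.map φ) = 0 := by
    apply hexinj
    rw [map_zero, Polynomial.aeval_def, Polynomial.eval₂_map, Polynomial.hom_eval₂]
    have : (exG F₀).comp ((algebraMap K (OmG F₀)).comp φ)
        = ((exG F₀).comp K.subtype).comp φ := rfl
    rw [this, hψ]
    show Polynomial.eval₂ ((coeffEmb Qb).comp (evJ jq)) (coeffEmb Qb (g : LaurentSeries ℚ)) Q = 0
    rw [← Polynomial.hom_eval₂, hQ, map_zero]
  exact IsAlgebraic.isIntegral ⟨Q.map φ, hP0, hroot⟩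

set_option synthInstance.maxHeartbeats 400000 in
set_option maxHeartbeats 1000000 in
/-- **The field `finite`**: `E·F₀` is finite over `E(j)` as soon as `F₀` is generated by
finitely many series algebraic over `ℚ(j)`. -/
theorem finite_FcT_of_gens (T : Set (LaurentSeries ℚ)) (hT : T.Finite)
    (hF₀ : F₀ = IntermediateField.adjoin ℚ T) (E : Subfield Qb) (j : OmG F₀)
    (hjF : j ∈ FcT F₀ E) (hj : (j : LaurentSeries Qb) = coeffEmb Qb jq)
    (halg : ∀ t ∈ T, Fermat.Agent.S48.H150.AlgRel ℚ jq t) :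
    ∃ s : Finset (OmG F₀), (s : Set (OmG F₀)) ⊆ FcT F₀ E ∧
      ∀ f ∈ FcT F₀ E, f ∈ Submodule.span (ratField (EcG E (cstG F₀)) j) (s : Set (OmG F₀)) := by
  classical
  subst hF₀
  set K := ratField (EcG E (cstG (IntermediateField.adjoin ℚ T))) j with hKdef
  set T' : Set (OmG (IntermediateField.adjoin ℚ T)) := {y | ∃ g : (IntermediateField.adjoin ℚ T), (g : LaurentSeries ℚ) ∈ T ∧ y = embG (IntermediateField.adjoin ℚ T) g} with hT'
  have hT'fin : T'.Finite := by
    refine (hT.image (fun t => if h : t ∈ (IntermediateField.adjoin ℚ T) then embG (IntermediateField.adjoin ℚ T) ⟨t, h⟩ else 0)).subset ?_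
    rintro y ⟨g, hg, rfl⟩
    exact ⟨(g : LaurentSeries ℚ), hg, by simp⟩
  set L := IntermediateField.adjoin K T' with hLdef
  have hint : ∀ y ∈ T', IsIntegral K y := by
    rintro y ⟨g, hg, rfl⟩
    exact isIntegral_embG_of_algRel E j hj g (halg _ hg)
  have : Finite T' := hT'fin.to_subtype
  have hfd : FiniteDimensional K L := IntermediateField.finiteDimensional_adjoin hint
  have hKF : K ≤ FcT (IntermediateField.adjoin ℚ T) E := by
    refine Subfield.closure_le.mpr ?_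
    rintro y (hy | hy)
    · exact EcG_le_FcT E hy
    · rw [Set.mem_singleton_iff] at hy
      rw [hy]; exact hjF
  -- `embG g ∈ L` by induction on `g ∈ ℚ(T)`
  have key : ∀ x (hx : x ∈ IntermediateField.adjoin ℚ T), embG (IntermediateField.adjoin ℚ T) ⟨x, hx⟩ ∈ L := by
    intro x hx
    induction hx using IntermediateField.adjoin_induction with
    | mem x hx =>
      exact IntermediateField.subset_adjoin _ _ ⟨⟨x, IntermediateField.subset_adjoin ℚ T hx⟩,
        hx, rfl⟩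
    | algebraMap c =>
      have h1 : embG (IntermediateField.adjoin ℚ T) ⟨algebraMap ℚ (LaurentSeries ℚ) c,
          (IntermediateField.adjoin ℚ T).algebraMap_mem c⟩ = ((c : ℚ) : OmG (IntermediateField.adjoin ℚ T)) := by
        have h2 : (⟨algebraMap ℚ (LaurentSeries ℚ) c,
            (IntermediateField.adjoin ℚ T).algebraMap_mem c⟩ : (IntermediateField.adjoin ℚ T)) = ((c : ℚ) : (IntermediateField.adjoin ℚ T)) := by
          apply Subtype.ext
          show algebraMap ℚ (LaurentSeries ℚ) c = ((c : ℚ) : LaurentSeries ℚ)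
          exact eq_ratCast _ c
        rw [h2, map_ratCast]
      rw [h1]
      exact SubfieldClass.ratCast_mem L c
    | add x y hx hy hx' hy' =>
      have : embG (IntermediateField.adjoin ℚ T) ⟨x + y, add_mem hx hy⟩ = embG (IntermediateField.adjoin ℚ T) ⟨x, hx⟩ + embG (IntermediateField.adjoin ℚ T) ⟨y, hy⟩ := by
        rw [← map_add]; rfl
      rw [this]
      exact add_mem hx' hy'
    | inv x hx hx' =>
      have : embG (IntermediateField.adjoin ℚ T) ⟨x⁻¹, inv_mem hx⟩ = (embG (IntermediateField.adjoin ℚ T) ⟨x, hx⟩)⁻¹ := by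
        rw [← map_inv₀]; rfl
      rw [this]
      exact inv_mem hx'
    | mul x y hx hy hx' hy' =>
      have : embG (IntermediateField.adjoin ℚ T) ⟨x * y, mul_mem hx hy⟩ = embG (IntermediateField.adjoin ℚ T) ⟨x, hx⟩ * embG (IntermediateField.adjoin ℚ T) ⟨y, hy⟩ := by
        rw [← map_mul]; rfl
      rw [this]
      exact mul_mem hx' hy'
  -- `FcT = L`
  have hFL : ∀ f, f ∈ FcT (IntermediateField.adjoin ℚ T) E ↔ f ∈ L := by
    intro f
    constructor
    · intro hf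
      have hle : FcT (IntermediateField.adjoin ℚ T) E ≤ L.toSubfield := by
        refine Subfield.closure_le.mpr ?_
        rintro y (hy | ⟨g, rfl⟩)
        · exact IntermediateField.algebraMap_mem L (⟨y, EcG_le_ratField_red1 E j hy⟩ : K)
        · exact key g.1 g.2
      exact hle hf
    · intro hf
      have h : L ≤ Subfield.toIntermediateField (FcT (IntermediateField.adjoin ℚ T) E) (fun x => hKF x.2) := by
        rw [IntermediateField.adjoin_le_iff]
        rintro z ⟨g, -, rfl⟩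
        exact embG_mem_FcT E g
      exact h hf
  obtain ⟨s, hs⟩ := (Module.finite_def (R := K) (M := L)).mp hfd
  refine ⟨s.image (fun y : L => (y : OmG (IntermediateField.adjoin ℚ T))), ?_, ?_⟩
  · intro y hy
    rw [Finset.coe_image] at hy
    obtain ⟨z, -, rfl⟩ := hy
    exact (hFL _).mpr z.2
  · intro f hf
    have hfL : f ∈ L := (hFL f).mp hf
    have h1 : (⟨f, hfL⟩ : L) ∈ Submodule.span K (s : Set L) := by
      rw [hs]; exact Submodule.mem_top
    have h2 := Submodule.mem_map_of_mem (f := (L.val.toLinearMap : L →ₗ[K] OmG (IntermediateField.adjoin ℚ T))) h1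
    rw [Submodule.map_span] at h2
    rw [Finset.coe_image]
    exact h2

/-- The integral expansion of the coordinate `j`. -/
theorem isInt_j_red1 (A : ValuationSubring Qb) (E : Subfield Qb) (j : OmG F₀)
    (hjF : j ∈ FcT F₀ E) (hj : (j : LaurentSeries Qb) = coeffEmb Qb jq) :
    _root_.Fermat.Agent.S48.H248.IsInt A E (exG F₀) (FcT F₀ E) (jqModC A) ∧ exG F₀ j = ivInc A (jqModC A) := by
  have hx : exG F₀ j = ivInc A (jqModC A) := by
    rw [exG_apply, hj]
    show JK Qb = coeffMap A.subtype (jqModC A)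
    rw [JK_eq, coeffMap_jqModC]
  refine ⟨⟨fun n => ?_, j, hjF, hx⟩, hx⟩
  have h := coeff_mem_of_mem_FcT hjF n
  have h2 : (j : LaurentSeries Qb) = ivInc A (jqModC A) := hx
  rw [h2, ivInc_coeff] at h
  exact h

/-- **The field `separable`** of `TopLeaves`, from the field `finite`. -/
theorem separable_VcT {ℓ : ℕ} [Fact ℓ.Prime] {A : ValuationSubring Qb}
    (hA : A.LiesOverPrime ℓ) {E : Subfield Qb} {w₀ : Qb} (hunif : IsUnifG A E w₀)
    (j : OmG F₀) (hjF : j ∈ FcT F₀ E) (hj : (j : LaurentSeries Qb) = coeffEmb Qb jq)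
    (hfin : ∃ s : Finset (OmG F₀), (s : Set (OmG F₀)) ⊆ FcT F₀ E ∧
      ∀ f ∈ FcT F₀ E, f ∈ Submodule.span (ratField (EcG E (cstG F₀)) j) (s : Set (OmG F₀))) :
    ∀ f ∈ VcT F₀ A E, ∃ P : Polynomial (OmG F₀),
      (∀ i, P.coeff i ∈ polyRing (RcG A E (cstG F₀)) j) ∧
      P.eval f * (cstG F₀ w₀)⁻¹ ∈ VcT F₀ A E ∧ (Polynomial.derivative P).eval f ≠ 0 ∧
      ((Polynomial.derivative P).eval f)⁻¹ ∈ VcT F₀ A E := by
  have hchar : CharP (IsLocalRing.ResidueField A) ℓ := Fermat.Agent.S18.H516.charP_residue A hA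
  have halgQ : Algebra.IsAlgebraic ℚ Qb := AlgebraicClosure.isAlgebraic ℚ
  obtain ⟨-, -, hw, hw0, -, -, hgen⟩ := igusa_R_fields (cstG F₀) hunif
  obtain ⟨hX₀, hx⟩ := isInt_j_red1 A E j hjF hj
  have hn : ¬ ((ℓ : ℤ) ∣ (ivRed A (jqModC A)).order) := by
    have h1 : ivRed A (jqModC A) = jqModC (IsLocalRing.ResidueField A) :=
      coeffMap_jqModC (IsLocalRing.residue A)
    rw [h1, Fermat.Agent.S18.H264.order_jqModC]
    exact Fermat.Agent.S18.H264.not_prime_dvd_neg_one ℓ Fact.out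
  exact (Fermat.Agent.S48.H128.partSep_VRing_of_finite (cstG F₀) (exG_cstG F₀)
    (fun c hc => cstG_mem_FcT hc) ℓ hw hw0 hgen hX₀ hx hn hfin).separable

end Generic

/-! ### The leaves for `F1 M` -/

theorem iotaG_jOm_mem_FcT (M : ℕ) [NeZero M] (F₀ : IntermediateField ℚ (LaurentSeries ℚ))
    (hle : modularFunctionFieldFull M ≤ F₀) (E : Subfield Qb) :
    iotaG M F₀ hle (jOm M) ∈ FcT F₀ E := by
  have h : iotaG M F₀ hle (jOm M) = embG F₀ ⟨qExpand ℚ 1 jq, hle (jqd_mem_full M (one_dvd M))⟩ :=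
    iotaG_jd hle 1 (one_dvd M)
  rw [h]
  exact embG_mem_FcT E _

/-- **Leaf `finite` for `F1 M`** (all `M`, all `E`). -/
theorem finite_F1 (M : ℕ) [NeZero M] (E : Subfield Qb) :
    ∃ s : Finset (OmG (F1 M)), (s : Set (OmG (F1 M))) ⊆ FcT (F1 M) E ∧
      ∀ f ∈ FcT (F1 M) E, f ∈ Submodule.span
        (ratField (EcG E (cstG (F1 M))) (iotaG M (F1 M) (full_le_F1 M) (jOm M)))
        (s : Set (OmG (F1 M))) :=
  finite_FcT_of_gens (Fermat.Agent.S48.H150.gensF1 M) (Fermat.Agent.S48.H150.finite_gensF1 M)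
    (Fermat.Agent.S48.H150.F1_eq_adjoin M) E _ (iotaG_jOm_mem_FcT M _ _ E)
    (coe_iotaG_jOm M _ _)
    (fun _ ht => Fermat.Agent.S48.H150.algRel_gensF1 (Fermat.Agent.S48.H150.divRel M) ht)

/-- The two `q`-expansion-principle leaves at the coordinate `j` (fields `qep_fin`, `qep_inf` of
`TopLeaves`, VERBATIM). -/
structure QepTop (F₀ : IntermediateField ℚ (LaurentSeries ℚ)) (A : ValuationSubring Qb)
    (E : Subfield Qb) (w₀ : Qb) (j : OmG F₀) : Prop where
  qep_fin : ∀ b ∈ chart (FcT F₀ E) (RcG A E (cstG F₀)) j, b * (cstG F₀ w₀)⁻¹ ∈ VcT F₀ A E →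
    b * (cstG F₀ w₀)⁻¹ ∈ chart (FcT F₀ E) (RcG A E (cstG F₀)) j
  qep_inf : ∀ b ∈ chart (FcT F₀ E) (RcG A E (cstG F₀)) j⁻¹, b * (cstG F₀ w₀)⁻¹ ∈ VcT F₀ A E →
    b * (cstG F₀ w₀)⁻¹ ∈ chart (FcT F₀ E) (RcG A E (cstG F₀)) j⁻¹

/-- **The remaining leaf of R4**: the `q`-expansion principle for `E·F1(M)` at `j`, for all
number fields `E` containing a finite set `T₀` of constants (e.g. `ζ_M`), `p ∤ M`. -/
def QepF1 : Prop :=
  ∀ (M p : ℕ) [NeZero M], p.Prime → ¬ p ∣ M → ∀ A : ValuationSubring Qb, A.LiesOverPrime p →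
    ∃ T₀ : Finset Qb, ∀ (E : IntermediateField ℚ Qb) (w₀ : Qb), FiniteDimensional ℚ E →
      (∀ a ∈ T₀, a ∈ E) → IsUnifG A E.toSubfield w₀ →
      QepTop (F1 M) A E.toSubfield w₀ (iotaG M (F1 M) (full_le_F1 M) (jOm M))

/-- `QepF1 → LeavesF1`: the fields `finite` and `separable` are proved. -/
theorem leavesF1_of_qep (h : QepF1) : LeavesF1 := by
  intro M p _ hp hpM A hA
  obtain ⟨T₀, hT₀⟩ := h M p hp hpM A hA
  refine ⟨T₀, fun E w₀ hE hTE hunif => ?_⟩
  have hq := hT₀ E w₀ hE hTE hunif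
  have : Fact p.Prime := ⟨hp⟩
  have hfin := finite_F1 M E.toSubfield
  exact
    { finite := hfin
      separable := separable_VcT hA hunif _ (iotaG_jOm_mem_FcT M _ _ _) (coe_iotaG_jOm M _ _) hfin
      qep_fin := hq.qep_fin
      qep_inf := hq.qep_inf }

/-- **R4 for `F1 M` from the `q`-expansion principle.** -/
theorem mod1Hyp_of_qep (h : QepF1) : Fermat.Agent.S48.H908.Core1.Mod1Hyp :=
  mod1Hyp_of_leaves (leavesF1_of_qep h) branchF1


end Fermat.Agent.S48.Red1

end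
end
-- ===== PACK-END S48/Red1/Fin.lean

-- ===== PACK-BEGIN S48/Red1/Top.lean
section





/-!
# S48 / RES (Tower A1), sub-tower A1-RED: `Core1Top` (helper588)

The last black box of S48:

* `qepF1`    : `QepF1` (helper828's `iact_topLeaves_qep_F1`, `T₀ = {ζ_M}`);
* `mod1Hyp`  : `H908.Core1.Mod1Hyp` (node R4: the good family of models of `Q̄·F1(M)`);
* `core1Top` : `H556.Core1Top` (R6: helper908's case split through the levels `2M`, `3M`, with
  helper248's `finHyp`, `degHyp`).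
-/

set_option autoImplicit false

noncomputable section

namespace Fermat.Agent.S48.Red1

open ModularCurve AlgebraicCurve HahnSeries Fermat.Agent.S18 Fermat.Agent.S18.Alg
open Fermat.Agent.S18.Mod Fermat.Agent.S48.H248 Fermat.Agent.S48.F1

/-- **The `q`-expansion principle leaf** for `E·F1(M)`, `E ∋ ζ_M`. -/
theorem qepF1 : QepF1 := by
  intro M p _ hp hpM A hA
  have : Fact p.Prime := ⟨hp⟩
  refine ⟨{((Fermat.Agent.S48.H828.iactZeta M : Qbˣ) : Qb)}, fun E w₀ hE hT hunif => ?_⟩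
  have h := Fermat.Agent.S48.H828.iact_topLeaves_qep_F1 (E := E) hpM hA
    (hT _ (Finset.mem_singleton_self _)) hunif (full_le_F1 M)
  exact ⟨h.1, h.2⟩

/-- **R4**: the MOD deliverable for `F1 M` at the good levels. -/
theorem mod1Hyp : Fermat.Agent.S48.H908.Core1.Mod1Hyp := mod1Hyp_of_qep qepF1

/-- **CORE1 (top form)**, unconditional. -/
theorem core1Top : Fermat.Agent.S48.H556.Core1Top :=
  Fermat.Agent.S48.H908.Core1.core1Top_of_good
    (Fermat.Agent.S48.H908.Core1.goodCore1_of_mod mod1Hyp Fermat.Agent.S48.H248.finHyp)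
    Fermat.Agent.S48.H248.degHyp

end Fermat.Agent.S48.Red1

end
end
-- ===== PACK-END S48/Red1/Top.lean

-- ===== PACK-BEGIN S48/Top/ResultOfOpen.lean
section











/-!
# Row S48 (Deligne–Serre): the frozen statement from the FOUR leaves still open (helper948)

State of Tower A1 at 2026-09-27 20:45Z.  Everything else is plugged in from `main`:

* cohomology side            : `H451.eigenclass1`  (inside `Top.result_of_two`);
* A1-ES engine + VAL1 + HI1  : `H68.rawES1_of_three`, `H150.hi1`;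
* A1-KUM leaves              : `k1` (`H332.leafK1`), `k2` (`H642.k2`), `inter` (`H496.dictInter1`),
                               `mero` (`H149.dictMero1`), `const` (`H102.leaves_const`),
                               `corr` (`H150.corrInputs_hecke`), `dia` (`H528.diaAn1`).

OPEN (the four hypotheses of `result_of_open`):

* `H556.Core1Top`            : the Kummer core for `F1 M` (sub-tower A1-RED);
* `H136.NormId1Statement`    : `Nm_α (β y) = V_p y · det (secMat p (δ_p y))`;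
* `Kum.PieceK3` for `Γ₁(M)`  : descent `ℂ → ℚ̄` of the Kummer function;
* `Kum.NormAn1`              : the analytic norm formula.
-/

set_option autoImplicit false

open CongruenceSubgroup

namespace Fermat.Agent.S48.Top

open Fermat.Agent.S48

/-- `Res.M4b1Statement` from the two open leaves of A1-KUM. -/
theorem m4b1_of_open
    (hk3 : ∀ (M : ℕ) [NeZero M] (ℓ : ℕ), ℓ.Prime → Kum.PieceK3 (Gamma1 M) (F1.F1Bar M) ℓ)
    (hnorm : ∀ (M : ℕ) [NeZero M] (p : ℕ) [Fact p.Prime] (hpM : ¬ p ∣ M), Kum.NormAn1 M p hpM) :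
    Res.M4b1Statement :=
  Kum.m4b1_of_leaves
    { k1 := fun M _ ℓ hℓ => H332.leafK1 M ℓ hℓ
      k2 := fun M _ ℓ hℓ => H642.k2 M ℓ hℓ
      k3 := hk3
      inter := fun M _ => H496.dictInter1 M
      mero := fun M _ => H149.dictMero1 M
      const := H102.leaves_const
      corr := fun M _ p _ _ =>
        haveI : NeZero p := ⟨(Fact.out : p.Prime).ne_zero⟩
        H150.corrInputs_hecke _ M p
      norm := hnorm
      dia := fun M _ p _ hpM => H528.diaAn1 M p hpM }

/-- `Res.RawES1Statement true` from the two open leaves of A1-ES. -/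
theorem rawES1_of_open (hcore : H556.Core1Top) (hnid : H136.NormId1Statement) :
    Res.RawES1Statement true :=
  H68.rawES1_of_three hcore H150.hi1 hnid

/-- **Row S48 from the four open leaves.** -/
theorem result_of_open (hcore : H556.Core1Top) (hnid : H136.NormId1Statement)
    (hk3 : ∀ (M : ℕ) [NeZero M] (ℓ : ℕ), ℓ.Prime → Kum.PieceK3 (Gamma1 M) (F1.F1Bar M) ℓ)
    (hnorm : ∀ (M : ℕ) [NeZero M] (p : ℕ) [Fact p.Prime] (hpM : ¬ p ∣ M), Kum.NormAn1 M p hpM) :
    S48Statement :=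
  result_of_two (rawES1_of_open hcore hnid) (m4b1_of_open hk3 hnorm)

end Fermat.Agent.S48.Top

end
-- ===== PACK-END S48/Top/ResultOfOpen.lean

-- ===== PACK-BEGIN S48/H282/K3In.lean
section





/-!
# Tower A1 / A1-KUM, piece K3 — the two inputs DTO and DFROM of `H882.pieceK3G` (helper282)

GENERIC (any analytic input `D : H332.GenData M Γ (GenField.ofRat S₀ hj)`, `Γ` of finite index,
`F₀ = ℚ(S₀)`; the good functions are taken for a subgroup `Γ' ≤ Γ` of level `M` containing `T`):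

* `mem_holN_of_goodG`  : a good function for a group of level `M` lies in `holN M`;
* `dtoG_of_genData`    : **DTO** — `U ∈ holN M` invariant under the special elements (finite order
                         or trace `2`) of `Γ`, `U ^ p` with a `q`-expansion ⟹ `H882.DToG F₀ p U`;
* `dfromG_of_genData`  : **DFROM** — `H882.DFromG Γ' F₀ p`.

INSTANCE `(Γ₁(M), F1 M)` (package group `Γ = ±Γ₁(M)`, helper332's `f1Data M`):

* `dfromG_Gamma1 M p : H882.DFromG (Gamma1 M) (F1 M) p`;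
* `dtoG_Gamma1 M p hpar hell hU : H882.DToG (F1 M) p U` for `U` twisted (`H882.IsTwistedG`) of a
  character trivial on the parabolic (trace `±2`) and elliptic (finite order) elements.
-/

set_option autoImplicit false
set_option linter.style.haveILetI false
set_option linter.unusedVariables false
set_option linter.unusedSectionVars false

noncomputable section

open ModularCurve HahnSeries UpperHalfPlane AlgebraicCurve IntermediateField CongruenceSubgroup
open scoped MatrixGroups Manifold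

namespace Fermat.Agent.S48.H282

open Fermat.Agent.S24 Fermat.Agent.S24.H997 Fermat.Agent.S24.Deg457 Fermat.Agent.S24.H624
open Fermat.Agent.S24.H648 Fermat.Agent.S24.H708
open Fermat.Agent.S20.L1
open Fermat.Agent.S48.H332
open Fermat.Agent.S48.H882 (GoodG DToG DFromG IsTwistedG HasCharG hasQExp_of_goodG
  isMerInf_of_goodG)
open Fermat.Agent.S29.H282 (ΦK IsSpecialElt expGrowth_of_pow isBounded_mul_qh_pow_level
  infExp_level_of_hasQExp)

/-! ### Functions with a parabolic character lie in `holN M` -/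

section Hol

variable {M : ℕ} [NeZero M] {Γ' : Subgroup SL(2, ℤ)}

/-- A holomorphic function with a character trivial on the parabolic elements of a group of level
`M`, all of whose translates have at most exponential growth, lies in `holN M`. -/
theorem mem_holN_of_gHasChar (hΓ : HasLevel Γ' M) {χ : Γ' →* ℂˣ} (hχ : GParTriv χ)
    {U : ℍ → ℂ} (hmd : MDifferentiable 𝓘(ℂ) 𝓘(ℂ) U) (hh : GHasChar χ U)
    (hgr : ∀ g : SL(2, ℤ), ExpGrowth (fun τ => U (g • τ))) : U ∈ holN M := by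
  refine ⟨hmd, fun g => ?_⟩
  have hhol : MDiff (compSL g U) := (precompSL g ⟨U, hmd⟩).2
  have hper : Function.Periodic (compSL g U ∘ ofComplex) (M : ℝ) :=
    hh.periodic hχ g M (hΓ.conj_T_pow g)
  have hmer : IsMerInf M (compSL g U) := ⟨hhol, hper, isBounded_mul_qh_pow_level M (hgr g)⟩
  have hq := HasQExp.of_isMerInf hmer
  have hinf : InfExp M (compSL g U) (qexpFun M (compSL g U)) := fun τ => hq.hasSum τ
  exact hinf.mem_expRing

/-- **A good function for a group of level `M` lies in `holN M`.** -/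
theorem mem_holN_of_goodG (hΓ : HasLevel Γ' M) {G : ℍ → ℂ} (hG : GoodG Γ' G) : G ∈ holN M := by
  obtain ⟨hmd, hinv, hgr⟩ := hG
  have hh : GHasChar (1 : Γ' →* ℂˣ) G := by
    intro γ τ
    rw [hinv γ γ.2 τ]
    simp
  exact mem_holN_of_gHasChar hΓ (χ := 1) (fun _ _ => rfl) hmd hh hgr

end Hol

/-! ### Avatars from `q`-expansions -/

section Avatars

variable {S₀ : Set (LaurentSeries ℚ)} {hj : jq ∈ S₀}
variable {M : ℕ} [NeZero M] {Γ : Subgroup SL(2, ℤ)} (D : _root_.Fermat.Agent.S48.H332.GenData M Γ (GenField.ofRat S₀ hj))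

/-- a function of `holN M` whose `q`-expansion is `f` is an avatar of `f` -/
theorem isAvatarG_of_hasQExp {G : ℍ → ℂ} (hG : G ∈ holN M) {f : FGK ℂ S₀}
    (hq : HasQExp 1 G (f : LaurentSeries ℂ)) :
    IsAvatarG (RingHom.id ℂ) D.base f (⟨G, hG⟩ : D.base.Hol) := by
  have hinf : InfExp M G (qExpand ℂ M (f : LaurentSeries ℂ)) := infExp_level_of_hasQExp hq
  have h1 : D.base.qexp (⟨G, hG⟩ : D.base.Hol) = qExpand ℂ M (f : LaurentSeries ℂ) :=
    (D.base_qexp_spec (⟨G, hG⟩ : D.base.Hol)).unique hinf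
  show D.base.qexp (⟨G, hG⟩ : D.base.Hol) = ΦK (RingHom.id ℂ) M (f : LaurentSeries ℂ)
  rw [h1]
  show _ = qExpand ℂ M (coeffMap (RingHom.id ℂ) (f : LaurentSeries ℂ))
  rw [coeffMap_id]

/-- the `q`-expansion of an avatar -/
theorem hasQExp_of_isAvatarG {h : D.base.Hol} {f : FGK ℂ S₀}
    (hav : IsAvatarG (RingHom.id ℂ) D.base f h)
    (hq : HasQExp 1 (h : ℍ → ℂ) (qexpFun 1 (h : ℍ → ℂ))) :
    qexpFun 1 (h : ℍ → ℂ) = (f : LaurentSeries ℂ) := by
  have hinf : InfExp M (h : ℍ → ℂ) (qExpand ℂ M (qexpFun 1 (h : ℍ → ℂ))) :=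
    infExp_level_of_hasQExp hq
  have h1 : D.base.qexp h = qExpand ℂ M (qexpFun 1 (h : ℍ → ℂ)) :=
    (D.base_qexp_spec h).unique hinf
  have h2 : D.base.qexp h = qExpand ℂ M (coeffMap (RingHom.id ℂ) (f : LaurentSeries ℂ)) := hav
  rw [coeffMap_id] at h2
  exact qExpand_injective M (h1.symm.trans h2)

end Avatars

/-! ### DTO and DFROM, generic -/

section Generic

variable {S₀ : Set (LaurentSeries ℚ)} {hj : jq ∈ S₀}
variable {M : ℕ} [NeZero M] {Γ : Subgroup SL(2, ℤ)} [Finite (XG Γ)]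
variable (D : _root_.Fermat.Agent.S48.H332.GenData M Γ (GenField.ofRat S₀ hj))
variable {F₀ : IntermediateField ℚ (LaurentSeries ℚ)}

include D in
/-- **DTO, generic.**  `U ∈ holN M` invariant under the special elements of `Γ`, and `U ^ p` has a
`q`-expansion at `i∞`: then `p ∣ ord_w (qexp (U ^ p))` at every place `w` of `ℂ·F₀ / ℂ`. -/
theorem dtoG_of_genData (hF₀ : F₀ = IntermediateField.adjoin ℚ S₀) {p : ℕ} {U : ℍ → ℂ}
    (hU : U ∈ holN M)
    (hq : HasQExp 1 (fun τ => U τ ^ p) (qexpFun 1 (fun τ => U τ ^ p)))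
    (hinv : ∀ γ ∈ Γ, IsSpecialElt γ → ∀ τ : ℍ, U (γ • τ) = U τ) : DToG F₀ p U := by
  subst hF₀
  intro f hf w
  have hUp : (fun τ => U τ ^ p) ∈ holN M := pow_mem hU p
  have hav0 : IsAvatarG (RingHom.id ℂ) D.base f (⟨fun τ => U τ ^ p, hUp⟩ : D.base.Hol) :=
    isAvatarG_of_hasQExp D hUp (hf ▸ hq)
  have hav : IsAvatarG (RingHom.id ℂ) D.base f ((⟨U, hU⟩ : D.base.Hol) ^ p) := hav0
  have hunr : IsUnramifiedG D.base (⟨U, hU⟩ : D.base.Hol) := by
    intro γ hγ hsp
    apply Subtype.ext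
    funext τ
    exact hinv γ hγ hsp τ
  exact dvd_ord_of_isAvatar_powG (ι := RingHom.id ℂ) (D := D) hunr hav w

include D in
/-- **DFROM, generic.**  An element `f ≠ 0` of `ℂ·F₀` all of whose orders are divisible by `p`
is, up to the `p`-th power of a nonzero element of `ℂ·F₀`, the `q`-expansion of `V ^ p`, `V`
holomorphic on `ℍ`, `V ^ p` good for `Γ'` (any subgroup `Γ' ≤ Γ` containing `T`). -/
theorem dfromG_of_genData (hF₀ : F₀ = IntermediateField.adjoin ℚ S₀)
    {Γ' : Subgroup SL(2, ℤ)} (hle : Γ' ≤ Γ) (hT : ModularGroup.T ∈ Γ') (p : ℕ) [NeZero p] :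
    DFromG Γ' F₀ p := by
  subst hF₀
  intro f hf0 hdvd
  have hp : p ≠ 0 := NeZero.ne p
  -- write `f = r / t` with `r, t` polynomials in the generators
  obtain ⟨r, t, ht, hfrt⟩ := exists_div_inclRGK ℂ S₀ f
  have ht' : inclRGK ℂ S₀ t ≠ 0 := fun h0 =>
    ht (inclRGK_injective ℂ S₀ (h0.trans (map_zero _).symm))
  have hts : ((t : RGK ℂ S₀) : LaurentSeries ℂ) ≠ 0 := fun h0 => ht (Subtype.ext h0)
  -- the function with `q`-expansion `r * t ^ (p - 1) = f * t ^ p`
  set e : RGK ℂ S₀ := r * t ^ (p - 1) with he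
  set h : D.base.Hol := bridgeGK (RingHom.id ℂ) D.base e with hh
  have hgF : f * inclRGK ℂ S₀ t ^ p = inclRGK ℂ S₀ e := by
    rw [he, hfrt, map_mul, map_pow]
    have : p = (p - 1) + 1 := (Nat.succ_pred_eq_of_ne_zero hp).symm
    conv_lhs => rw [this, pow_succ]
    field_simp
  have hav : IsAvatarG (RingHom.id ℂ) D.base (f * inclRGK ℂ S₀ t ^ p) h := by
    rw [hgF]
    exact isAvatarG_inclRGK e
  have hFne : f * inclRGK ℂ S₀ t ^ p ≠ 0 := mul_ne_zero hf0 (pow_ne_zero p ht')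
  have hh0 : h ≠ 0 := fun h0 => hFne (hav.eq_zero_iff.mp h0)
  -- `h` is good for `Γ'`
  have hgood : GoodG Γ' (h : ℍ → ℂ) := by
    refine ⟨h.2.1, fun γ hγ τ => ?_, fun g => expGrowth_of_mem_holN h.2 g⟩
    have := compH_bridgeGK_of_mem (RingHom.id ℂ) D.base (hle hγ) e
    exact congrFun (congrArg Subtype.val this) τ
  have hqh : HasQExp 1 (h : ℍ → ℂ) (qexpFun 1 (h : ℍ → ℂ)) := hasQExp_of_goodG hT hgood
  have hqf : qexpFun 1 (h : ℍ → ℂ)
      = (f : LaurentSeries ℂ) * ((t : RGK ℂ S₀) : LaurentSeries ℂ) ^ p := by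
    rw [hasQExp_of_isAvatarG D hav hqh]
    rfl
  -- divisibility of the orders of `f * t ^ p`
  have hdvd' : ∀ w : Place ℂ (FGK ℂ S₀), (p : ℤ) ∣ w.ord (f * inclRGK ℂ S₀ t ^ p) := by
    intro w
    rw [w.ord_mul hf0 (pow_ne_zero p ht'), H117.ord_pow]
    exact dvd_add (hdvd w) (dvd_mul_right _ _)
  -- the root
  have hord : ∀ τ : ℍ, ∃ k : ℕ,
      analyticOrderAt ((h : ℍ → ℂ) ∘ ofComplex) (τ : ℂ) = ((p * k : ℕ) : ℕ∞) :=
    fun τ => hav.exists_ordAt_eq_mul D.base_isHolo hh0 hdvd' τ (Fermat.Agent.S20.L1.jFun τ) rfl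
  obtain ⟨V, hVmd, hVp⟩ := Fermat.Agent.S29.H751.exists_pow_eq_UHP h.2.1 p hp hord
  have hVG : (fun τ => V τ ^ p) = (h : ℍ → ℂ) := funext hVp
  refine ⟨((t : RGK ℂ S₀) : LaurentSeries ℂ), (inclRGK ℂ S₀ t).2, hts, V, hVmd, ?_, ?_⟩
  · rw [hVG]; exact hgood
  · rw [hVG]; exact hqf

end Generic

/-! ### The instance `(Γ₁(M), F1 M)` -/

section Instance

open Fermat.Agent.S48.F1

variable (M : ℕ) [NeZero M] (p : ℕ) [NeZero p]

/-- **DFROM for `(Γ₁(M), F1 M)`.** -/
theorem dfromG_Gamma1 : DFromG (Gamma1 M) (F1 M) p :=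
  dfromG_of_genData (f1Data M) rfl (Gamma1_le_pmGamma1 M) (T_mem_Gamma1 M) p

variable {M p}

theorem isSpecialElt_neg_or {γ : SL(2, ℤ)} (h : IsSpecialElt γ) :
    (∃ n : ℕ, 0 < n ∧ (-γ) ^ n = 1) ∨ ((-γ : SL(2, ℤ)) : Matrix (Fin 2) (Fin 2) ℤ).trace = -2 := by
  rcases h with ⟨n, hn, h⟩ | h
  · left
    refine ⟨2 * n, by omega, ?_⟩
    rw [pow_mul, neg_sq, ← pow_mul, mul_comm, pow_mul, h, one_pow]
  · right
    rw [Matrix.SpecialLinearGroup.coe_neg, Matrix.trace_neg, h]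

/-- A function with a character of `Γ₁(M)` trivial on the parabolic and elliptic elements is
invariant under the special elements of `±Γ₁(M)`. -/
theorem invariant_special_pmGamma1 {χ : Gamma1 M →* ℂˣ} (hpar : GParTriv χ)
    (hell : GEllTriv χ) {U : ℍ → ℂ} (hU : GHasChar χ U) (γ : SL(2, ℤ))
    (hγ : γ ∈ pmGamma1 M) (hsp : IsSpecialElt γ) (τ : ℍ) : U (γ • τ) = U τ := by
  rcases mem_pmGamma1_iff.mp hγ with h1 | h1
  · have h := hU ⟨γ, h1⟩ τ
    have hχ : χ ⟨γ, h1⟩ = 1 := by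
      rcases hsp with ⟨n, hn, h⟩ | h
      · exact hell ⟨γ, h1⟩ n hn (Subtype.ext (by simpa using h))
      · exact hpar ⟨γ, h1⟩ (Or.inl h)
    rw [hχ] at h
    simpa using h
  · have h := hU ⟨-γ, h1⟩ τ
    have hχ : χ ⟨-γ, h1⟩ = 1 := by
      rcases isSpecialElt_neg_or hsp with ⟨n, hn, h⟩ | h
      · exact hell ⟨-γ, h1⟩ n hn (Subtype.ext (by simpa using h))
      · exact hpar ⟨-γ, h1⟩ (Or.inr h)
    rw [hχ] at h
    have hsm : (-γ) • τ = γ • τ := ModularGroup.SL_neg_smul γ τ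
    simp only [hsm] at h
    simpa using h

/-- **DTO for `(Γ₁(M), F1 M)`**: for `U` twisted of a character trivial on the parabolic and
elliptic elements of `Γ₁(M)`. -/
theorem dtoG_Gamma1 {χ : Gamma1 M →* ℂˣ} (hpar : GParTriv χ) (hell : GEllTriv χ)
    {U : ℍ → ℂ} (hU : IsTwistedG (Gamma1 M) p χ U) : DToG (F1 M) p U := by
  have hp : p ≠ 0 := NeZero.ne p
  have hUh : U ∈ holN M :=
    mem_holN_of_gHasChar (hasLevel_Gamma1 M) hpar hU.mdiff hU.hasChar
      (fun g => expGrowth_of_pow hp (hU.pow_good.2.2 g))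
  exact dtoG_of_genData (f1Data M) rfl hUh (hasQExp_of_goodG (T_mem_Gamma1 M) hU.pow_good)
    (fun γ hγ hsp τ => invariant_special_pmGamma1 hpar hell hU.hasChar γ hγ hsp τ)

end Instance

end Fermat.Agent.S48.H282

end
end
-- ===== PACK-END S48/H282/K3In.lean

-- ===== PACK-BEGIN S48/H282/K3.lean
section



/-!
# Tower A1 / A1-KUM — leaf `k3` CLOSED: `Kum.PieceK3 (Gamma1 M) (F1Bar M) ℓ` (helper282)

`pieceK3_Gamma1 M ℓ hℓ : Kum.PieceK3 (Gamma1 M) (F1.F1Bar M) ℓ`, UNCONDITIONAL: helper882's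
`H882.pieceK3_f1_of` (GEN + MERO + the descent `ℂ → ℚ̄`) fed with the two inputs
`H282.dfromG_Gamma1` (DFROM) and `H282.dtoG_Gamma1` (DTO) of `K3In.lean`.
-/

set_option autoImplicit false

noncomputable section

open ModularCurve UpperHalfPlane AlgebraicCurve CongruenceSubgroup
open scoped MatrixGroups Manifold

namespace Fermat.Agent.S48.H282

open Fermat.Agent.S24 Fermat.Agent.S48.H332
open Fermat.Agent.S48.H882 (charOf charOf_apply isTwistedG_of_kum pieceK3_f1_of)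

variable {Γ : Subgroup SL(2, ℤ)} {p : ℕ} [NeZero p]

theorem charOf_eq_one_of_eq_zero {c : Γ → ZMod p} (hc : ∀ γ γ' : Γ, c (γ * γ') = c γ + c γ')
    {γ : Γ} (h0 : c γ = 0) : charOf c hc γ = 1 := by
  apply Units.ext
  rw [charOf_apply, Units.val_one, h0, ZMod.val_zero, pow_zero]

/-- the multiplicative character of a parabolic additive character is trivial on the parabolic
elements -/
theorem gParTriv_charOf {c : Γ → ZMod p} (hc : Kum.IsParHom Γ c) :
    GParTriv (charOf c hc.map_mul) :=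
  fun γ hγ => charOf_eq_one_of_eq_zero hc.map_mul (hc.parabolic γ hγ)

/-- the multiplicative character of a parabolic additive character is trivial on the elements of
finite order -/
theorem gEllTriv_charOf {c : Γ → ZMod p} (hc : Kum.IsParHom Γ c) :
    GEllTriv (charOf c hc.map_mul) :=
  fun γ n hn hγ => charOf_eq_one_of_eq_zero hc.map_mul (hc.elliptic γ n hn hγ)

/-- **DTO for `(Γ₁(M), F1 M)`**, in the shape used by `H882.pieceK3_f1_of`. -/
theorem dtoG_Gamma1_kum (M : ℕ) [NeZero M] {c : Gamma1 M → ZMod p}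
    (hc : Kum.IsParHom (Gamma1 M) c) {U : ℍ → ℂ} (hU : Kum.IsTwisted (Gamma1 M) p c U) :
    Fermat.Agent.S48.H882.DToG (Fermat.Agent.S48.F1.F1 M) p U :=
  dtoG_Gamma1 (gParTriv_charOf hc) (gEllTriv_charOf hc) (isTwistedG_of_kum hc.map_mul hU)

/-- **Leaf `k3` of `Kum.Leaves`** (descent `ℂ → ℚ̄` of the Kummer functions), UNCONDITIONAL. -/
theorem pieceK3_Gamma1 (M : ℕ) [NeZero M] (ℓ : ℕ) (hℓ : ℓ.Prime) :
    Kum.PieceK3 (Gamma1 M) (Fermat.Agent.S48.F1.F1Bar M) ℓ :=
  haveI : NeZero ℓ := ⟨hℓ.ne_zero⟩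
  pieceK3_f1_of M ℓ hℓ (dfromG_Gamma1 M ℓ) (fun hc _ hU => dtoG_Gamma1_kum M hc hU)

end Fermat.Agent.S48.H282

end
end
-- ===== PACK-END S48/H282/K3.lean

-- ===== PACK-BEGIN S48/Kum/Norm1.lean
section
/-
Tower A1 / A1-KUM (helper822): the leaf `norm` (`NormAn1 M p`) REDUCED to three inputs.

  `normAn1_of_inputs : DictMero (Γ₁(M)) (F1Bar M) → BetaAn1 M p → DegAlpha1 M p → Cosets1 M p hpM
      → NormAn1 M p hpM`

* `BetaAn1 M p`  (N2): `β = (q ↦ q^p)` is composition with `diag(p,1)` on realisations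
                 (goodness for `Γ₁(M) ∩ Γ₀(p)` + `q`-expansion of `G(pτ)`);
* `DegAlpha1 M p` (N3): `[ℚ̄·F₁(M;p) : ℚ̄·F₁(M)] = p + 1` along `α`;
* `Cosets1 M p`  (N4): representatives `γ_x ∈ Γ₁(M)` (`x ∈ ℙ¹(𝔽_p)`) of
                 `(Γ₁(M) ∩ Γ₀(p)) \ Γ₁(M)` with `diag(p,1) γ_x ∈ Γ₁(M) · repA x`.

Proved here: `DictMero` for `(Γ₁(M) ∩ Γ₀(p), ℚ̄·F₁(M;p))` (`dictMero1p`, from `DictMero` for
`Γ₁(M)` and `BetaAn1`), the realisation of `j(q^p)` by `τ ↦ j(pτ)` and the separation of the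
cosets by it, and the assembly through `Kum.normAn_of_embeddings`.
-/





set_option autoImplicit false

noncomputable section

open CongruenceSubgroup ModularCurve AlgebraicCurve UpperHalfPlane ModularForm
open scoped MatrixGroups Manifold OnePoint

namespace Fermat.Agent.S48.Kum

open Fermat.Agent.S24 Fermat.Agent.S29 Fermat.Agent.S48.F1 Fermat.Agent.S48.H548
  Matrix.SpecialLinearGroup

local notation "Qbar" => AlgebraicClosure ℚ

/-- The group `Γ₁(M) ∩ Γ₀(p)`. -/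
abbrev Gamma1p (M p : ℕ) : Subgroup SL(2, ℤ) := Gamma1 M ⊓ Gamma0 p

theorem T_mem_Gamma1p (M p : ℕ) : ModularGroup.T ∈ Gamma1p M p := by
  refine Subgroup.mem_inf.mpr ⟨T_mem_Gamma1 M, ?_⟩
  rw [Gamma0_mem]
  simp [ModularGroup.T]

/-! ### The inputs -/

/-- (N2) `β = (q ↦ q^p)` is composition with `diag(p,1)` on realisations. -/
def BetaAn1 (M : ℕ) [NeZero M] (p : ℕ) [NeZero p] : Prop :=
  ∀ (u : F1Bar M) (G : ℍ → ℂ), Realises (Gamma1 M) (F1Bar M) u G →
    Realises (Gamma1p M p) (F1pL Qbar M p) (beta1 Qbar M p u)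
      (fun τ => G (heckeDiagMatrix p • τ))

/-- (N3) The degree of `α`. -/
def DegAlpha1 (M : ℕ) [NeZero M] (p : ℕ) [NeZero p] : Prop :=
  letI := algebraAlong (alpha1 Qbar M p)
  Module.finrank (F1Bar M) (F1pL Qbar M p) = p + 1

/-- (N4) Coset representatives of `(Γ₁(M) ∩ Γ₀(p)) \ Γ₁(M)` adapted to `repA`. -/
def Cosets1 (M : ℕ) [NeZero M] (p : ℕ) [Fact p.Prime] (hpM : ¬ p ∣ M) : Prop :=
  ∃ gam : OnePoint (ZMod p) → SL(2, ℤ), (∀ x, gam x ∈ Gamma1 M) ∧
    (∀ x, ∃ d ∈ Gamma1 M, heckeDiagMatrix p * mapGL ℝ (gam x) = mapGL ℝ d * repA hpM x) ∧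
    ∀ x y, gam x * (gam y)⁻¹ ∈ Gamma0 p → x = y

/-! ### `DictMero` for `Γ₁(M) ∩ Γ₀(p)` -/

section Mero1p

variable {M : ℕ} [NeZero M] {p : ℕ} [NeZero p]

theorem alpha_realises {u : F1Bar M} {G : ℍ → ℂ} (h : Realises (Gamma1 M) (F1Bar M) u G) :
    Realises (Gamma1p M p) (F1pL Qbar M p) (alpha1 Qbar M p u) G :=
  h.transport inf_le_left _ (coe_alpha1 Qbar M p u)

theorem isMero_alpha (hmero : DictMero (Gamma1 M) (F1Bar M)) (u : F1Bar M) :
    IsMero (Gamma1p M p) (F1pL Qbar M p) (alpha1 Qbar M p u) := by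
  obtain ⟨u₁, u₂, G₁, G₂, h2, h, r1, r2⟩ := hmero u
  refine ⟨alpha1 Qbar M p u₁, alpha1 Qbar M p u₂, G₁, G₂, ?_, ?_, alpha_realises r1,
    alpha_realises r2⟩
  · exact (map_ne_zero (alpha1 Qbar M p)).mpr h2
  · rw [← map_mul, h]

theorem isMero_beta (hmero : DictMero (Gamma1 M) (F1Bar M)) (hbeta : BetaAn1 M p)
    (u : F1Bar M) : IsMero (Gamma1p M p) (F1pL Qbar M p) (beta1 Qbar M p u) := by
  obtain ⟨u₁, u₂, G₁, G₂, h2, h, r1, r2⟩ := hmero u
  refine ⟨beta1 Qbar M p u₁, beta1 Qbar M p u₂, _, _, ?_, ?_, hbeta u₁ G₁ r1, hbeta u₂ G₂ r2⟩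
  · exact (map_ne_zero (beta1 Qbar M p)).mpr h2
  · rw [← map_mul, h]

/-- **`DictMero` for `(Γ₁(M) ∩ Γ₀(p), ℚ̄·F₁(M;p))`**. -/
theorem dictMero1p (hmero : DictMero (Gamma1 M) (F1Bar M)) (hbeta : BetaAn1 M p) :
    DictMero (Gamma1p M p) (F1pL Qbar M p) := by
  have hT := T_mem_Gamma1p M p
  apply dictMero_of_le hT
  -- the field of `y ∈ ℚ((q))` with `coeffEmb y` mero
  let K₀ : IntermediateField ℚ (LaurentSeries ℚ) :=
    { Subfield.comap (coeffEmb Qbar)
        (meroField hT (F1pL Qbar M p)).toSubfield with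
      algebraMap_mem' := fun r => by
        show coeffEmb Qbar (algebraMap ℚ (LaurentSeries ℚ) r) ∈ meroField hT (F1pL Qbar M p)
        have : coeffEmb Qbar (algebraMap ℚ (LaurentSeries ℚ) r)
            = algebraMap Qbar (LaurentSeries Qbar) (algebraMap ℚ Qbar r) := by
          rw [algebraMap_apply_eq_single, coeffEmb, coeffMap_single,
            algebraMap_laurent_eq_single]
        rw [this]
        exact (meroField hT (F1pL Qbar M p)).algebraMap_mem _ }
  have hK₀ : ∀ y : LaurentSeries ℚ, y ∈ K₀ ↔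
      coeffEmb Qbar y ∈ meroField hT (F1pL Qbar M p) := fun y => Iff.rfl
  have h1 : F1 M ≤ K₀ := by
    intro y hy
    rw [hK₀]
    have hm := isMero_alpha (p := p) hmero ⟨coeffEmb Qbar y, coeffEmb_mem_laurentBaseChange Qbar hy⟩
    exact ⟨_, hm⟩
  have h2 : (F1 M).map (qExpandₐ p) ≤ K₀ := by
    rintro _ ⟨y, hy, rfl⟩
    rw [hK₀]
    have hm := isMero_beta hmero hbeta ⟨coeffEmb Qbar y, coeffEmb_mem_laurentBaseChange Qbar hy⟩
    have e : coeffEmb Qbar (qExpand ℚ p y)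
        = ((beta1 Qbar M p ⟨coeffEmb Qbar y, coeffEmb_mem_laurentBaseChange Qbar hy⟩ :
            F1pL Qbar M p) : LaurentSeries Qbar) := by
      rw [coe_beta1]
      exact (qExpand_coeffEmb Qbar p y).symm
    show coeffEmb Qbar (qExpand ℚ p y) ∈ _
    rw [e]
    exact ⟨_, hm⟩
  have h3 : F1p M p ≤ K₀ := sup_le h1 h2
  show laurentBaseChange Qbar (F1p M p) ≤ _
  rw [laurentBaseChange, IntermediateField.adjoin_le_iff]
  rintro _ ⟨y, hy, rfl⟩
  exact (hK₀ y).mp (h3 hy)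

end Mero1p

/-! ### `j(q^p)` and the separation of the cosets -/

section Sep

variable (M : ℕ) [NeZero M] (p : ℕ) [NeZero p]

/-- `j(q^p) ∈ ℚ̄·F₁(M;p)`. -/
def jpElt : F1pL Qbar M p :=
  ⟨coeffEmb Qbar (qExpand ℚ p jq),
    coeffEmb_mem_laurentBaseChange Qbar (qExpand_mem_F1p M p (jq_mem_F1 M))⟩

theorem iotaC_comp_algebraMap :
    (Deg457.iotaC).comp (algebraMap ℚ Kbar) = algebraMap ℚ ℂ :=
  Subsingleton.elim _ _

theorem coeffMap_iotaC_coeffEmb (x : LaurentSeries ℚ) :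
    coeffMap Deg457.iotaC (coeffEmb Kbar x) = coeffEmb ℂ x := by
  rw [coeffEmb, coeffMap_coeffMap, iotaC_comp_algebraMap]
  rfl

theorem Jd_eq_scale : H997.Jd p = fun τ => JFun.jFun (Deg457.scaleH p τ) := by
  funext τ
  show Fermat.Agent.S20.L1.jFun (infAff p 0 1 τ) = Fermat.Agent.S20.L1.jFun (Deg457.scaleH p τ)
  congr 1
  apply UpperHalfPlane.ext
  rw [infAff_coe (Nat.pos_of_ne_zero (NeZero.ne p)) one_pos, Deg457.coe_scaleH]
  simp

theorem isGood_Jd : IsGood (Gamma1p M p) (H997.Jd p) :=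
  Fermat.Agent.S48.H332.isGoodFor_of_mem_holN (H997.Jd_mem_holN p p dvd_rfl)
    (fun γ hγ τ => H997.Jd_inv p p dvd_rfl γ (Subgroup.mem_inf.mp hγ).2 τ)

/-- `τ ↦ j(pτ)` realises `j(q^p)`. -/
theorem realises_jpElt : Realises (Gamma1p M p) (F1pL Qbar M p) (jpElt M p) (H997.Jd p) := by
  refine realises_of_hasQExp (isGood_Jd M p) ?_
  show H708.HasQExp 1 (H997.Jd p) (coeffMap Deg457.iotaC (coeffEmb Kbar (qExpand ℚ p jq)))
  rw [coeffMap_iotaC_coeffEmb, Jd_eq_scale]
  exact Deg457.hasQExp_jFun_scale p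

/-- The translates of `τ ↦ j(pτ)` separate the cosets of `Γ₀(p)`. -/
theorem sep_Jd {g h : SL(2, ℤ)} (e : ∀ τ : ℍ, H997.Jd p (g • τ) = H997.Jd p (h • τ)) :
    g * h⁻¹ ∈ Gamma0 p := by
  apply H997.Jd_distinct p
  intro τ
  rw [mul_smul, e, smul_inv_smul]

end Sep

/-! ### The assembly -/

section Main

variable {M : ℕ} [NeZero M] {p : ℕ} [Fact p.Prime]

theorem card_onePoint_zmod : Fintype.card (OnePoint (ZMod p)) = p + 1 := by
  haveI : NeZero p := ⟨(Fact.out : p.Prime).ne_zero⟩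
  show Fintype.card (Option (ZMod p)) = p + 1
  rw [Fintype.card_option, ZMod.card]

/-- **The leaf `norm` from its inputs.** -/
theorem normAn1_of_inputs (hpM : ¬ p ∣ M) (hmero : DictMero (Gamma1 M) (F1Bar M))
    (hbeta : haveI : NeZero p := ⟨(Fact.out : p.Prime).ne_zero⟩; BetaAn1 M p)
    (hdeg : haveI : NeZero p := ⟨(Fact.out : p.Prime).ne_zero⟩; DegAlpha1 M p)
    (hcos : Cosets1 M p hpM) : NormAn1 M p hpM := by
  haveI : NeZero p := ⟨(Fact.out : p.Prime).ne_zero⟩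
  obtain ⟨gam, hgam, hfac, hinj⟩ := hcos
  intro u G hu
  have hB : 0 < (heckeDiagMatrix p).det.val := by
    show 0 < ((heckeDiagMatrix p).det : ℝ)
    rw [det_heckeDiagMatrix (NeZero.ne p)]
    exact_mod_cast Nat.pos_of_ne_zero (NeZero.ne p)
  refine normAn_of_embeddings (T_mem_Gamma1p M p) inf_le_left hmero (dictMero1p hmero hbeta)
    (beta1 Qbar M p) (alpha1 Qbar M p) (fun v V hv => alpha_realises hv)
    (heckeDiagMatrix p) hB hbeta gam hgam (repA hpM) ?_ ?_ ?_
    (fun V hV => isGood_prod_repA hpM hV) u G hu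
  · -- the coset identity
    intro x V hV τ
    obtain ⟨d, hd, hfx⟩ := hfac x
    have h1 : heckeDiagMatrix p • (gam x • τ) = d • (repA hpM x • τ) := by
      have h2 : heckeDiagMatrix p • (gam x • τ)
          = (heckeDiagMatrix p * mapGL ℝ (gam x)) • τ := by
        rw [mul_smul]
        rfl
      rw [h2, hfx, mul_smul]
      rfl
    rw [h1]
    exact hV.2.1 d hd _
  · -- the degree
    rw [_root_.Fermat.Agent.S48.Kum.card_onePoint_zmod]
    exact hdeg.symm
  · -- the separation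
    refine ⟨jpElt M p, H997.Jd p, realises_jpElt M p, fun x y e => ?_⟩
    exact hinj x y (sep_Jd p e)

end Main

end Fermat.Agent.S48.Kum

end
end
-- ===== PACK-END S48/Kum/Norm1.lean

-- ===== PACK-BEGIN S48/H548/NormCoset1.lean
section


/-!
# S48 / RES, Kum leaf `norm` (helper548): coset representatives of `(Γ₁(M) ∩ Γ₀(p)) \ Γ₁(M)`
adapted to `repA`  (port of `S29/H452/NormCoset.lean` to `Γ₁(M)`)

For a prime `p ∤ M` and `x : OnePoint (ZMod p)` we construct `γ_x, δ_x ∈ Γ₁(M)` with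

  `diag(p, 1) · γ_x = δ_x · repA x`      (`repA x = σ_p⁻¹ · heckeRep1 x`, `Kum/M4b1.lean`)

such that `γ_x γ_y⁻¹ ∈ Γ₀(p)` only for `x = y`.  (So `g ↦ (an g) ∘ γ_x` are the `p + 1` embeddings
of the function field of `Γ₁(M) ∩ Γ₀(p)` over that of `Γ₁(M)`, and
`(an (β f)) ∘ γ_x = (an f) ∘ repA x`.)
-/

set_option autoImplicit false
set_option linter.unusedSectionVars false

noncomputable section

namespace Fermat.Agent.S48.H548

open CongruenceSubgroup ModularCurve UpperHalfPlane Matrix.SpecialLinearGroup ModularForm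
open Fermat.Agent.S48.Kum
open scoped MatrixGroups OnePoint

variable {M : ℕ} [NeZero M] {p : ℕ} [Fact p.Prime]

/-- An inverse of `p` modulo `M`. -/
theorem exists_inv_mod (hpM : ¬ p ∣ M) : ∃ e : ℤ, (((p : ℤ) * e : ℤ) : ZMod M) = 1 := by
  have hcop : IsCoprime (p : ℤ) (M : ℤ) :=
    Nat.isCoprime_iff_coprime.mpr ((Nat.Prime.coprime_iff_not_dvd Fact.out).mpr hpM)
  obtain ⟨a, b, hab⟩ := hcop
  refine ⟨a, ?_⟩
  have h := congrArg (Int.cast : ℤ → ZMod M) hab
  push_cast at h ⊢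
  rw [ZMod.natCast_self, mul_zero, add_zero] at h
  rw [mul_comm]
  exact h

/-- The chosen inverse of `p` modulo `M`. -/
def invMod (M p : ℕ) [NeZero M] [Fact p.Prime] (hpM : ¬ p ∣ M) : ℤ :=
  (exists_inv_mod (M := M) hpM).choose

theorem invMod_spec (hpM : ¬ p ∣ M) : (((p : ℤ) * invMod M p hpM : ℤ) : ZMod M) = 1 :=
  (exists_inv_mod (M := M) hpM).choose_spec

/-- The bottom row `(c, d)` of the representative `γ_x`. -/
def rep1Row (hpM : ¬ p ∣ M) (x : OnePoint (ZMod p)) : ℤ × ℤ :=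
  x.elim (0, 1) (fun b ↦ ((M : ℤ), (M : ℤ) * (b.val : ℤ) + (p : ℤ) * invMod M p hpM))

@[simp] theorem rep1Row_infty (hpM : ¬ p ∣ M) : rep1Row hpM (∞ : OnePoint (ZMod p)) = (0, 1) :=
  rfl

@[simp] theorem rep1Row_coe (hpM : ¬ p ∣ M) (b : ZMod p) :
    rep1Row hpM (b : OnePoint (ZMod p))
      = ((M : ℤ), (M : ℤ) * (b.val : ℤ) + (p : ℤ) * invMod M p hpM) := rfl

theorem repA_infty (hpM : ¬ p ∣ M) : repA hpM (∞ : OnePoint (ZMod p)) = heckeDiagMatrix p := by
  unfold repA heckeRep1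
  rw [sigTw_infty, heckeRep_infty, ← mul_assoc, ← map_mul, inv_mul_cancel, map_one, one_mul]

theorem repA_coe (hpM : ¬ p ∣ M) (b : ZMod p) :
    repA hpM (b : OnePoint (ZMod p)) = mapGL ℝ (sigmaP M p hpM)⁻¹ * heckeMatrix p b.val := by
  unfold repA heckeRep1
  rw [sigTw_coe, map_one, one_mul, heckeRep_coe]

theorem exists_rep1 (hpM : ¬ p ∣ M) (x : OnePoint (ZMod p)) :
    ∃ γ δ : SL(2, ℤ), γ 1 0 = (rep1Row hpM x).1 ∧ γ 1 1 = (rep1Row hpM x).2 ∧
      γ ∈ Gamma1 M ∧ δ ∈ Gamma1 M ∧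
      heckeDiagMatrix p * mapGL ℝ γ = mapGL ℝ δ * repA hpM x := by
  induction x using OnePoint.rec with
  | infty =>
    refine ⟨1, 1, by simp, by simp, one_mem _, one_mem _, ?_⟩
    rw [repA_infty, map_one, mul_one, one_mul]
  | coe b =>
    have he := invMod_spec (M := M) hpM
    set e := invMod M p hpM with hedef
    -- `gcd(M, M b + p e) = 1`
    have hc : IsCoprime (M : ℤ) ((M : ℤ) * (b.val : ℤ) + (p : ℤ) * e) := by
      have h1 : IsCoprime (M : ℤ) ((p : ℤ) * e) := by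
        obtain ⟨k, hk⟩ : (M : ℤ) ∣ (p : ℤ) * e - 1 := by
          rw [← ZMod.intCast_zmod_eq_zero_iff_dvd]
          push_cast at he ⊢
          rw [he, sub_self]
        refine ⟨-k, 1, ?_⟩
        linear_combination hk
      have := h1.add_mul_left_right (b.val : ℤ)
      rwa [add_comm] at this
    obtain ⟨s, t, hst⟩ := hc
    let γ : SL(2, ℤ) := ⟨!![t, -s; (M : ℤ), (M : ℤ) * (b.val : ℤ) + (p : ℤ) * e], by
      rw [Matrix.det_fin_two_of]; linear_combination hst⟩
    have hγ10 : γ 1 0 = (M : ℤ) := rfl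
    have hγ11 : γ 1 1 = (M : ℤ) * (b.val : ℤ) + (p : ℤ) * e := rfl
    obtain ⟨δ', hδ10, hδ11, hmul⟩ := heckeDiagMatrix_mul_of_eq (Fact.out : p.Prime).ne_zero γ b.val e (by
      rw [hγ10, hγ11])
    have hγmem : γ ∈ Gamma1 M := by
      apply mem_Gamma1_of_lower
      · rw [hγ10]; simp
      · rw [hγ11]
        push_cast at he ⊢
        rw [ZMod.natCast_self, zero_mul, zero_add, he]
    have hδ'0 : δ' ∈ Gamma0 M := by
      rw [Gamma0_mem, hδ10, hγ10]; simp
    have hδmem : δ' * sigmaP M p hpM ∈ Gamma1 M := by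
      apply mem_Gamma1_of_lower
      · exact Gamma0_mem.mp ((Gamma0 M).mul_mem hδ'0 (sigmaP_mem hpM))
      · rw [lower_right_mul _ _ hδ'0, hδ11, sigmaP_lower hpM]
        push_cast at he
        rw [mul_comm]
        exact he
    refine ⟨γ, δ' * sigmaP M p hpM, hγ10, hγ11, hγmem, hδmem, ?_⟩
    rw [repA_coe, hmul, map_mul, map_inv]
    group

/-- The chosen representatives `γ_x ∈ Γ₁(M)`. -/
def rep1γ (hpM : ¬ p ∣ M) (x : OnePoint (ZMod p)) : SL(2, ℤ) :=
  (exists_rep1 hpM x).choose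

/-- The chosen `δ_x ∈ Γ₁(M)` with `diag(p,1) γ_x = δ_x · repA x`. -/
def rep1δ (hpM : ¬ p ∣ M) (x : OnePoint (ZMod p)) : SL(2, ℤ) :=
  (exists_rep1 hpM x).choose_spec.choose

theorem rep1γ_spec (hpM : ¬ p ∣ M) (x : OnePoint (ZMod p)) :
    (rep1γ hpM x) 1 0 = (rep1Row hpM x).1 ∧ (rep1γ hpM x) 1 1 = (rep1Row hpM x).2 ∧
      rep1γ hpM x ∈ Gamma1 M ∧ rep1δ hpM x ∈ Gamma1 M ∧
      heckeDiagMatrix p * mapGL ℝ (rep1γ hpM x) = mapGL ℝ (rep1δ hpM x) * repA hpM x :=
  (exists_rep1 hpM x).choose_spec.choose_spec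

theorem rep1γ_mem (hpM : ¬ p ∣ M) (x : OnePoint (ZMod p)) : rep1γ hpM x ∈ Gamma1 M :=
  (rep1γ_spec hpM x).2.2.1

theorem rep1δ_mem (hpM : ¬ p ∣ M) (x : OnePoint (ZMod p)) : rep1δ hpM x ∈ Gamma1 M :=
  (rep1γ_spec hpM x).2.2.2.1

/-- `diag(p,1) · γ_x = δ_x · repA x`. -/
theorem rep1γ_mul (hpM : ¬ p ∣ M) (x : OnePoint (ZMod p)) :
    heckeDiagMatrix p * mapGL ℝ (rep1γ hpM x) = mapGL ℝ (rep1δ hpM x) * repA hpM x :=
  (rep1γ_spec hpM x).2.2.2.2

/-- On `ℍ`: `p · (γ_x τ) = δ_x (repA x • τ)`. -/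
theorem heckeDiag_smul_rep1γ (hpM : ¬ p ∣ M) (x : OnePoint (ZMod p)) (τ : ℍ) :
    heckeDiagMatrix p • (rep1γ hpM x • τ) = rep1δ hpM x • (repA hpM x • τ) := by
  have h := congrArg (fun g : GL (Fin 2) ℝ => g • τ) (rep1γ_mul hpM x)
  simp only [mul_smul] at h
  exact h

theorem mul_inv_apply_one_zero548 (γ γ' : SL(2, ℤ)) :
    (γ * γ'⁻¹) 1 0 = γ 1 0 * γ' 1 1 - γ 1 1 * γ' 1 0 := by
  rw [Matrix.SpecialLinearGroup.coe_mul, Matrix.mul_apply, Fin.sum_univ_two,
    Matrix.SpecialLinearGroup.SL2_inv_expl]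
  simp
  ring

/-- The representatives are pairwise inequivalent modulo `Γ₀(p)`. -/
theorem rep1γ_injective (hpM : ¬ p ∣ M) {x y : OnePoint (ZMod p)}
    (h : rep1γ hpM x * (rep1γ hpM y)⁻¹ ∈ Gamma0 p) : x = y := by
  have hp : p.Prime := Fact.out
  have hdvd : ((p : ℕ) : ℤ) ∣ (rep1γ hpM x * (rep1γ hpM y)⁻¹) 1 0 :=
    (ZMod.intCast_zmod_eq_zero_iff_dvd _ _).mp (Gamma0_mem.mp h)
  rw [mul_inv_apply_one_zero548, (rep1γ_spec hpM x).1, (rep1γ_spec hpM x).2.1,
    (rep1γ_spec hpM y).1, (rep1γ_spec hpM y).2.1] at hdvd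
  have hpM' : ¬ (p : ℤ) ∣ (M : ℤ) := fun h1 => hpM (Int.natCast_dvd_natCast.mp h1)
  have hprime : Prime (p : ℤ) := Nat.prime_iff_prime_int.mp hp
  induction x using OnePoint.rec with
  | infty =>
    induction y using OnePoint.rec with
    | infty => rfl
    | coe b =>
      exfalso
      simp only [rep1Row_infty, rep1Row_coe] at hdvd
      have h2 : (p : ℤ) ∣ (M : ℤ) := by
        have : (0 : ℤ) * ((M : ℤ) * (b.val : ℤ) + (p : ℤ) * invMod M p hpM) - 1 * (M : ℤ)
            = -(M : ℤ) := by ring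
        rw [this] at hdvd
        exact (dvd_neg.mp hdvd)
      exact hpM' h2
  | coe a =>
    induction y using OnePoint.rec with
    | infty =>
      exfalso
      simp only [rep1Row_infty, rep1Row_coe] at hdvd
      have h2 : (p : ℤ) ∣ (M : ℤ) := by
        have : (M : ℤ) * 1 - ((M : ℤ) * (a.val : ℤ) + (p : ℤ) * invMod M p hpM) * 0
            = (M : ℤ) := by ring
        rw [this] at hdvd
        exact hdvd
      exact hpM' h2
    | coe b =>
      simp only [rep1Row_coe] at hdvd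
      have h2 : (p : ℤ) ∣ (M : ℤ) * ((M : ℤ) * ((b.val : ℤ) - (a.val : ℤ))) := by
        have : (M : ℤ) * ((M : ℤ) * (b.val : ℤ) + (p : ℤ) * invMod M p hpM)
            - ((M : ℤ) * (a.val : ℤ) + (p : ℤ) * invMod M p hpM) * (M : ℤ)
            = (M : ℤ) * ((M : ℤ) * ((b.val : ℤ) - (a.val : ℤ))) := by ring
        rw [this] at hdvd
        exact hdvd
      have h3 : (p : ℤ) ∣ (b.val : ℤ) - (a.val : ℤ) := by
        rcases hprime.dvd_or_dvd h2 with h | h
        · exact absurd h hpM'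
        · rcases hprime.dvd_or_dvd h with h | h
          · exact absurd h hpM'
          · exact h
      have h5 : (((b.val : ℤ) - (a.val : ℤ) : ℤ) : ZMod p) = 0 :=
        (ZMod.intCast_zmod_eq_zero_iff_dvd _ _).mpr h3
      have : NeZero p := ⟨hp.ne_zero⟩
      push_cast at h5
      rw [ZMod.natCast_zmod_val, ZMod.natCast_zmod_val] at h5
      have : b = a := sub_eq_zero.mp h5
      rw [this]

end Fermat.Agent.S48.H548

end
end
-- ===== PACK-END S48/H548/NormCoset1.lean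

-- ===== PACK-BEGIN S48/Kum/Norm1In.lean
section
/-
Tower A1 / A1-KUM (helper822): the inputs `Cosets1` (adapter to `H548.NormCoset1`) and `BetaAn1`
of `Kum.normAn1_of_inputs`, hence

  `normAn1_of_deg : DictMero (Γ₁(M)) (F1Bar M) → DegAlpha1 M p → NormAn1 M p hpM`.

`BetaAn1`: if `G` realises `u` for `Γ₁(M)` then `τ ↦ G(pτ)` realises `β u = u(q^p)` for
`Γ₁(M) ∩ Γ₀(p)`:
* holomorphy, invariance (`diag(p,1) γ = γ' diag(p,1)`, `γ' ∈ Γ₁(M)`),
* growth of all translates (through `holN`: `S29.M4b.H822.comp_infAff_mem_holN`),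
* `q`-expansion (`hasQExp_comp_diag`: substitution `q ↦ q^p`).
-/



set_option autoImplicit false

noncomputable section

open CongruenceSubgroup ModularCurve AlgebraicCurve UpperHalfPlane ModularForm
open scoped MatrixGroups Manifold OnePoint

namespace Fermat.Agent.S48.Kum

open Fermat.Agent.S24 Fermat.Agent.S29 Fermat.Agent.S48.F1 Fermat.Agent.S48.H548
  Matrix.SpecialLinearGroup

local notation "Qbar" => AlgebraicClosure ℚ

/-! ### `Cosets1` -/

theorem cosets1 {M : ℕ} [NeZero M] {p : ℕ} [Fact p.Prime] (hpM : ¬ p ∣ M) : Cosets1 M p hpM :=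
  ⟨rep1γ hpM, rep1γ_mem hpM, fun x => ⟨rep1δ hpM x, rep1δ_mem hpM x, rep1γ_mul hpM x⟩,
    fun _ _ h => rep1γ_injective hpM h⟩

/-! ### Substitution `τ ↦ pτ` -/

section Diag

variable {p : ℕ} [NeZero p]

theorem diag_smul_eq_infAff (τ : ℍ) : heckeDiagMatrix p • τ = infAff p 0 1 τ := by
  apply UpperHalfPlane.ext
  rw [coe_heckeDiagMatrix_smul (NeZero.ne p),
    infAff_coe (Nat.pos_of_ne_zero (NeZero.ne p)) one_pos]
  simp

theorem coeffMap_qExpand_h822 {R S : Type*} [CommRing R] [CommRing S] (f : R →+* S)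
    (x : LaurentSeries R) : coeffMap f (qExpand R p x) = qExpand S p (coeffMap f x) := by
  ext k
  by_cases hk : (p : ℤ) ∣ k
  · obtain ⟨m, rfl⟩ := hk
    rw [coeffMap_coeff, qExpand_coeff_mul, qExpand_coeff_mul, coeffMap_coeff]
  · rw [coeffMap_coeff, qExpand_coeff_of_not_dvd p _ hk, qExpand_coeff_of_not_dvd p _ hk,
      map_zero]

/-- The `q`-expansion of `τ ↦ G(pτ)` is `φ(q^p)`. -/
theorem hasQExp_comp_diag {G : ℍ → ℂ} {φ : LaurentSeries ℂ} (h : H708.HasQExp 1 G φ) :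
    H708.HasQExp 1 (fun τ => G (heckeDiagMatrix p • τ)) (qExpand ℂ p φ) := by
  have hp : 0 < p := Nat.pos_of_ne_zero (NeZero.ne p)
  have hol : MDifferentiable 𝓘(ℂ) 𝓘(ℂ) (fun τ => G (heckeDiagMatrix p • τ)) := by
    have e : (fun τ => G (heckeDiagMatrix p • τ)) = fun τ => G (infAff p 0 1 τ) :=
      funext fun τ => by rw [diag_smul_eq_infAff]
    rw [e]
    exact H564.mdiff_comp_infAff h.mdiff hp one_pos 0
  refine H708.HasQExp.of_hasSum hol ?_
  intro τ
  have hs := h.hasSum (heckeDiagMatrix p • τ)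
  have hinj : Function.Injective (fun n : ℤ => (p : ℤ) * n) := by
    intro a b hab
    have hp' : (p : ℤ) ≠ 0 := by exact_mod_cast hp.ne'
    exact mul_left_cancel₀ hp' hab
  have hsupp : ∀ m : ℤ, m ∉ Set.range (fun n : ℤ => (p : ℤ) * n) →
      (qExpand ℂ p φ).coeff m * H708.qh 1 τ ^ m = 0 := by
    intro m hm
    have hndvd : ¬ (p : ℤ) ∣ m := by
      rintro ⟨k, rfl⟩
      exact hm ⟨k, rfl⟩
    rw [qExpand_coeff_of_not_dvd p φ hndvd, zero_mul]
  rw [← hinj.hasSum_iff hsupp]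
  have hq : H708.qh 1 (heckeDiagMatrix p • τ) = H708.qh 1 τ ^ p := by
    rw [H708.qh_apply, H708.qh_apply, coe_heckeDiagMatrix_smul (NeZero.ne p)]
    simp only [Function.Periodic.qParam, Nat.cast_one, Complex.ofReal_one, div_one]
    rw [← Complex.exp_nat_mul]
    congr 1
    ring
  have hfun : ((fun m : ℤ => (qExpand ℂ p φ).coeff m * H708.qh 1 τ ^ m) ∘
      fun n : ℤ => (p : ℤ) * n)
      = fun n : ℤ => φ.coeff n * H708.qh 1 (heckeDiagMatrix p • τ) ^ n := by
    funext n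
    simp only [Function.comp_apply]
    rw [qExpand_coeff_mul, hq, ← zpow_natCast, ← zpow_mul]
  rw [hfun]
  exact hs

end Diag

/-! ### `BetaAn1` -/

section Beta

variable {M : ℕ} [NeZero M] {p : ℕ} [Fact p.Prime]

/-- `diag(p,1) γ = γ' diag(p,1)` with `γ' ∈ Γ₁(M)`, for `γ ∈ Γ₁(M) ∩ Γ₀(p)`, `p ∤ M`. -/
theorem exists_conj_diag (hpM : ¬ p ∣ M) {γ : SL(2, ℤ)} (hγ : γ ∈ Gamma1p M p) :
    ∃ γ' ∈ Gamma1 M, ∀ τ : ℍ, infAff p 0 1 (γ • τ) = γ' • infAff p 0 1 τ := by
  have hp : p.Prime := Fact.out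
  obtain ⟨h1, h0⟩ := Subgroup.mem_inf.mp hγ
  rw [Gamma1_mem] at h1
  rw [Gamma0_mem] at h0
  obtain ⟨c, hc⟩ : (p : ℤ) ∣ γ 1 0 := (ZMod.intCast_zmod_eq_zero_iff_dvd _ _).mp h0
  have hdet := inf_sl_det γ
  let γ' : SL(2, ℤ) := ⟨!![γ 0 0, p * γ 0 1; c, γ 1 1], by
    rw [Matrix.det_fin_two_of]
    rw [hc] at hdet
    linear_combination hdet⟩
  have hMc : (M : ℤ) ∣ c := by
    have hM : (M : ℤ) ∣ γ 1 0 := (ZMod.intCast_zmod_eq_zero_iff_dvd _ _).mp h1.2.2
    rw [hc] at hM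
    have hcop : IsCoprime (M : ℤ) (p : ℤ) :=
      Nat.isCoprime_iff_coprime.mpr ((Nat.Prime.coprime_iff_not_dvd hp).mpr hpM).symm
    exact hcop.dvd_of_dvd_mul_left hM
  refine ⟨γ', ?_, fun τ => ?_⟩
  · rw [Gamma1_mem]
    refine ⟨h1.1, h1.2.1, ?_⟩
    show ((c : ℤ) : ZMod M) = 0
    exact (ZMod.intCast_zmod_eq_zero_iff_dvd _ _).mpr hMc
  · exact inf_aff_smul_eq (d := p) (a := p) (d' := 1) (b := 0) hp.pos hp.pos one_pos γ γ'
      (by simp [γ']; ring) (by simp [γ']) (by simp [γ', hc]; ring) (by simp [γ']) τ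

theorem isGood_comp_diag (hpM : ¬ p ∣ M) {G : ℍ → ℂ} (hG : IsGood (Gamma1 M) G) :
    IsGood (Gamma1p M p) (fun τ => G (heckeDiagMatrix p • τ)) := by
  haveI : NeZero p := ⟨(Fact.out : p.Prime).ne_zero⟩
  haveI : NeZero (M * p) := ⟨Nat.mul_ne_zero (NeZero.ne M) (NeZero.ne p)⟩
  have e : (fun τ => G (heckeDiagMatrix p • τ)) = fun τ => G (infAff p 0 1 τ) :=
    funext fun τ => by rw [diag_smul_eq_infAff]
  rw [e]
  have hmem : G ∈ H997.holN M :=
    mem_holN_of_isGood (Fermat.Agent.S48.H332.hasLevel_Gamma1 M) hG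
  have hmem' : (fun τ => G (infAff p 0 1 τ)) ∈ H997.holN (M * p) :=
    Fermat.Agent.S29.M4b.H822.comp_infAff_mem_holN hmem
  refine Fermat.Agent.S48.H332.isGoodFor_of_mem_holN hmem' ?_
  intro γ hγ τ
  obtain ⟨γ', hγ', h⟩ := exists_conj_diag hpM hγ
  show G (infAff p 0 1 (γ • τ)) = G (infAff p 0 1 τ)
  rw [h τ]
  exact hG.2.1 γ' hγ' _

/-- **(N2)** `β` is composition with `diag(p,1)` on realisations. -/
theorem betaAn1 (hpM : ¬ p ∣ M) :
    haveI : NeZero p := ⟨(Fact.out : p.Prime).ne_zero⟩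
    BetaAn1 M p := by
  haveI : NeZero p := ⟨(Fact.out : p.Prime).ne_zero⟩
  intro u G hu
  refine realises_of_hasQExp (isGood_comp_diag hpM hu.1) ?_
  have h := hasQExp_comp_diag (p := p) (hu.hasQExp (T_mem_Gamma1 M))
  rw [coe_beta1, coeffMap_qExpand_h822]
  exact h

/-- **The leaf `norm`, reduced to the degree of `α`.** -/
theorem normAn1_of_deg (hpM : ¬ p ∣ M) (hmero : DictMero (Gamma1 M) (F1Bar M))
    (hdeg : haveI : NeZero p := ⟨(Fact.out : p.Prime).ne_zero⟩; DegAlpha1 M p) :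
    NormAn1 M p hpM :=
  normAn1_of_inputs hpM hmero (betaAn1 hpM) hdeg (cosets1 hpM)

end Beta

end Fermat.Agent.S48.Kum

end
end
-- ===== PACK-END S48/Kum/Norm1In.lean

-- ===== PACK-BEGIN S48/F1/RaiseF1.lean
section






/-!
# S48 / Tower A1, node A1-FF (helper168) — the fields `F1 M`, `F1p M p` as generic fields

On top of helper332's instance `H332.f1Data M : GenData M (pmGamma1 M) (f1Field M)`:

* `f1pField M p : GenField` — `ℚ̄ · F1p M p` with generators `S₀ ∪ S₀(q^p)`;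
* `f1pData M p hpM : GenData (M p) (±Γ₁(M) ⊓ Γ₀(p)) (f1pField M p)` (`p` prime to `M`), hence
  `f1pPkg` (the whole local dictionary of `F1p M p`), `finrank_F1pL`;
* `finiteDimensional_F1L`, `finiteDimensional_F1pL`, `exists_coord_F1L`, `exists_coord_F1pL`;
* **`hi1`** : `CorrInputs (beta1 ℚ̄ M p) (alpha1 ℚ̄ M p)` for `p ∤ M` prime (= `H136.HI1Statement`);
* **`finrankAlong_alpha1_le`** : `[ℚ̄·F1p : α(ℚ̄·F1)] ≤ p + 1` (`hdeg` of A1-NORM).
-/

set_option autoImplicit false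
set_option linter.style.haveILetI false
set_option linter.unusedSectionVars false

noncomputable section

open ModularCurve HahnSeries UpperHalfPlane AlgebraicCurve IntermediateField
open scoped MatrixGroups Manifold Real

namespace Fermat.Agent.S48.F1

open Fermat.Agent.S24 Fermat.Agent.S24.H997 Fermat.Agent.S48.H332

/-! ### The generic fields -/

theorem F1_eq_adjoin (M : ℕ) : F1 M = IntermediateField.adjoin ℚ (f1Gens M) := rfl

theorem F1p_eq_adjoin (M p : ℕ) [NeZero p] :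
    F1p M p = IntermediateField.adjoin ℚ (f1Gens M ∪ ⇑(qExpand ℚ p) '' f1Gens M) := by
  rw [F1p, F1_eq_adjoin, IntermediateField.adjoin_map, ← IntermediateField.adjoin_union]
  rfl

theorem F1pL_eq (M p : ℕ) [NeZero p] :
    F1pL Kbar M p = IntermediateField.adjoin Kbar (raiseS (f1Field M) p) := by
  show laurentBaseChange Kbar (F1p M p) = _
  rw [F1p_eq_adjoin, laurentBaseChange_adjoin]
  congr 1
  rw [raiseS, f1Field_S, Set.image_union, Set.image_image, Set.image_image]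
  congr 1
  exact Set.image_congr fun x _ => (qExpand_coeffEmb (L := Kbar) p x).symm

/-- `ℚ̄ · F1p M p` as a generic field. -/
def f1pField (M p : ℕ) [NeZero p] : GenField :=
  raiseField (f1Field M) p (F1pL Kbar M p) (F1pL_eq M p)

theorem f1pField_F (M p : ℕ) [NeZero p] : (f1pField M p).F = F1pL Kbar M p := rfl


/-! ### Conjugation by `diag(p, 1)` -/

/-- For `g ∈ Γ₀(p)` the matrix `g' = diag(p,1) g diag(p,1)⁻¹` is integral, has the same diagonal
as `g`, lower left entry `g₁₀ / p`, and `p · (g τ) = g' (p τ)`. -/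
theorem exists_conj_scale (p : ℕ) [NeZero p] (g : SL(2, ℤ))
    (hg : g ∈ CongruenceSubgroup.Gamma0 p) :
    ∃ g' : SL(2, ℤ), g' 0 0 = g 0 0 ∧ g' 1 1 = g 1 1 ∧ (p : ℤ) * g' 1 0 = g 1 0 ∧
      g' 0 1 = p * g 0 1 ∧ ∀ τ : ℍ, infAff p 0 1 (g • τ) = g' • infAff p 0 1 τ := by
  have hp : 0 < p := Nat.pos_of_ne_zero (NeZero.ne p)
  have hpg : (p : ℤ) ∣ g 1 0 := by
    rw [CongruenceSubgroup.Gamma0_mem] at hg
    exact (ZMod.intCast_zmod_eq_zero_iff_dvd _ _).mp hg
  obtain ⟨c, hc⟩ := hpg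
  have hdet := inf_sl_det g
  let g' : SL(2, ℤ) := ⟨!![g 0 0, p * g 0 1; c, g 1 1], by
    rw [Matrix.det_fin_two_of]
    rw [hc] at hdet
    linear_combination hdet⟩
  refine ⟨g', by simp [g'], by simp [g'], by simp [g', hc], by simp [g'], fun τ => ?_⟩
  exact inf_aff_smul_eq (d := p) (a := p) (d' := 1) (b := 0) hp hp one_pos g g'
    (by simp [g']; ring) (by simp [g']) (by simp [g', hc]; ring) (by simp [g']) τ

/-- `±Γ₁(M) ∩ Γ₀(p)` is carried into `±Γ₁(M)` by conjugation with `diag(p, 1)`, `p` prime to `M`. -/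
theorem conj_pmGamma1 {M p : ℕ} [NeZero p] (hpM : Nat.Coprime p M) (g : SL(2, ℤ))
    (hg : g ∈ pmGamma1 M) (hgp : g ∈ CongruenceSubgroup.Gamma0 p) :
    ∃ g' ∈ pmGamma1 M, ∀ τ : ℍ, infAff p 0 1 (g • τ) = g' • infAff p 0 1 τ := by
  obtain ⟨g', h00, -, h10, -, h⟩ := exists_conj_scale p g hgp
  refine ⟨g', ?_, h⟩
  rw [mem_pmGamma1] at hg ⊢
  refine ⟨?_, by rw [h00]; exact hg.2⟩
  rw [CongruenceSubgroup.Gamma0_mem]
  have hM : (M : ℤ) ∣ g 1 0 :=
    (ZMod.intCast_zmod_eq_zero_iff_dvd _ _).mp (CongruenceSubgroup.Gamma0_mem.mp hg.1)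
  rw [← h10] at hM
  have hcop : IsCoprime (M : ℤ) (p : ℤ) := by
    rw [Int.isCoprime_iff_gcd_eq_one, Int.gcd_natCast_natCast]
    exact hpM.symm
  exact (ZMod.intCast_zmod_eq_zero_iff_dvd _ _).mpr (hcop.dvd_of_dvd_mul_left hM)

/-- **The analytic datum of `F1p M p`**, `Γ = ±Γ₁(M) ∩ Γ₀(p)`, `p` prime to `M`. -/
def f1pData (M : ℕ) [NeZero M] (p : ℕ) [NeZero p] [NeZero (M * p)] (hpM : Nat.Coprime p M) :
    GenData (M * p) (pmGamma1 M ⊓ CongruenceSubgroup.Gamma0 p) (f1pField M p) :=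
  raiseData (f1Data M) p (F1pL Kbar M p) (F1pL_eq M p) (conj_pmGamma1 hpM)

/-! ### Finite index -/

theorem finite_XG_Gamma0 (p : ℕ) [NeZero p] : Finite (XG (CongruenceSubgroup.Gamma0 p)) := by
  have h : Nat.card (XX p) = dedekindPsi p := card_XX p
  have hpos : 0 < dedekindPsi p := by
    rw [dedekindPsi]
    apply Finset.sum_pos'
    · intro d _; exact Nat.zero_le _
    · refine ⟨1, ?_, ?_⟩
      · rw [Finset.mem_filter]
        exact ⟨Nat.one_mem_divisors.mpr (NeZero.ne p), squarefree_one⟩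
      · simpa using Nat.pos_of_ne_zero (NeZero.ne p)
  exact Nat.finite_of_card_ne_zero (by rw [show XG (CongruenceSubgroup.Gamma0 p) = XX p from rfl, h]; exact hpos.ne')

theorem finite_XG_inf (Γ : Subgroup SL(2, ℤ)) [Finite (XG Γ)] (p : ℕ) [NeZero p] :
    Finite (XG (Γ ⊓ CongruenceSubgroup.Gamma0 p)) := by
  haveI := finite_XG_Gamma0 p
  haveI h1 : Γ.FiniteIndex := Subgroup.finiteIndex_of_finite_quotient
  haveI h2 : (CongruenceSubgroup.Gamma0 p).FiniteIndex := Subgroup.finiteIndex_of_finite_quotient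
  haveI : (Γ ⊓ CongruenceSubgroup.Gamma0 p).FiniteIndex := inferInstance
  exact Subgroup.finite_quotient_of_finiteIndex

theorem card_XG_inf_le (Γ : Subgroup SL(2, ℤ)) (p : ℕ) [NeZero p] :
    Nat.card (XG (Γ ⊓ CongruenceSubgroup.Gamma0 p)) ≤ Nat.card (XG Γ) * dedekindPsi p := by
  have h : Nat.card (XX p) = dedekindPsi p := card_XX p
  rw [← h]
  exact Subgroup.index_inf_le

theorem dedekindPsi_prime_raise {p : ℕ} (hp : p.Prime) : dedekindPsi p = p + 1 := by
  rw [dedekindPsi, hp.divisors, Finset.filter_true_of_mem, Finset.sum_pair hp.one_lt.ne]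
  · rw [Nat.div_one, Nat.div_self hp.pos]
  · intro d hd
    rw [Finset.mem_insert, Finset.mem_singleton] at hd
    rcases hd with rfl | rfl
    · exact squarefree_one
    · exact hp.squarefree

/-! ### Consequences for `F1 M` and `F1p M p` -/

/-- `j` as an element of `ℚ̄ · F1 M`. -/
def jL (M : ℕ) : F1L Kbar M := (f1Field M).jF

/-- `j` as an element of `ℚ̄ · F1p M p`. -/
def jpL (M p : ℕ) [NeZero p] : F1pL Kbar M p := (f1pField M p).jF

theorem coe_jL (M : ℕ) : ((jL M : F1L Kbar M) : LaurentSeries Kbar) = coeffEmb Kbar jq := rfl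

theorem coe_jpL (M p : ℕ) [NeZero p] :
    ((jpL M p : F1pL Kbar M p) : LaurentSeries Kbar) = coeffEmb Kbar jq := rfl

theorem alpha1_jL (M p : ℕ) [NeZero p] : alpha1 Kbar M p (jL M) = jpL M p :=
  Subtype.ext (by rw [coe_alpha1, coe_jL, coe_jpL])

/-- A non-constant element of a subfield of `ℚ̄((q))` with a pole is transcendental. -/
theorem transcendental_of_coe_eq_jq {F : IntermediateField Kbar (LaurentSeries Kbar)} (x : F)
    (hx : (x : LaurentSeries Kbar) = coeffEmb Kbar jq) : Transcendental Kbar x := by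
  apply Fermat.Agent.S24.FF.transcendental_of_not_mem_range
  rintro ⟨c, hc⟩
  have h1 : ((algebraMap Kbar F c : F) : LaurentSeries Kbar).coeff (-1)
      = ((x : F) : LaurentSeries Kbar).coeff (-1) := by rw [hc]
  have h2 : ((algebraMap Kbar F c : F) : LaurentSeries Kbar)
      = algebraMap Kbar (LaurentSeries Kbar) c := rfl
  rw [h2, algebraMap_laurentSeries_eq_single, hx, coeffEmb_coeff, coeff_jq_neg_one, map_one,
    HahnSeries.coeff_single_of_ne (by norm_num)] at h1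
  exact zero_ne_one h1

theorem transcendental_jL (M : ℕ) : Transcendental Kbar (jL M) :=
  transcendental_of_coe_eq_jq _ (coe_jL M)

theorem transcendental_jpL (M p : ℕ) [NeZero p] : Transcendental Kbar (jpL M p) :=
  transcendental_of_coe_eq_jq _ (coe_jpL M p)

section Consequences

variable (M : ℕ) [NeZero M] (p : ℕ) [NeZero p] [NeZero (M * p)] (hpM : Nat.Coprime p M)

/-- **The generic modular package of `ℚ̄·F1p(M, p)`** (local dictionary at every `j = a`, `∞`). -/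
def f1pPkg : GenPackage (M * p) (pmGamma1 M ⊓ CongruenceSubgroup.Gamma0 p) (f1pField M p) :=
  haveI := finite_XG_inf (pmGamma1 M) p
  (f1pData M p hpM).pkg

theorem finiteDimensional_F1L : FiniteDimensional Kbar⟮jL M⟯ (F1L Kbar M) :=
  (f1Data M).finiteDimensional

theorem finrank_F1L : Module.finrank Kbar⟮jL M⟯ (F1L Kbar M) = Nat.card (XG (pmGamma1 M)) :=
  (f1Data M).finrank_eq

include hpM in
theorem finiteDimensional_F1pL : FiniteDimensional Kbar⟮jpL M p⟯ (F1pL Kbar M p) :=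
  haveI := finite_XG_inf (pmGamma1 M) p
  (f1pData M p hpM).finiteDimensional

include hpM in
theorem finrank_F1pL : Module.finrank Kbar⟮jpL M p⟯ (F1pL Kbar M p)
    = Nat.card (XG (pmGamma1 M ⊓ CongruenceSubgroup.Gamma0 p)) :=
  haveI := finite_XG_inf (pmGamma1 M) p
  (f1pData M p hpM).finrank_eq

theorem exists_coord_F1L :
    ∃ x : F1L Kbar M, Transcendental Kbar x ∧ FiniteDimensional Kbar⟮x⟯ (F1L Kbar M) :=
  ⟨jL M, transcendental_jL M, finiteDimensional_F1L M⟩

include hpM in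
theorem exists_coord_F1pL :
    ∃ x : F1pL Kbar M p, Transcendental Kbar x ∧ FiniteDimensional Kbar⟮x⟯ (F1pL Kbar M p) :=
  ⟨jpL M p, transcendental_jpL M p, finiteDimensional_F1pL M p hpM⟩

include hpM in
/-- `CorrInputs` for the Hecke correspondence `α_* β^*` of level `(M; p)`, `p` prime to `M`. -/
theorem corrInputs_of_coprime : CorrInputs (beta1 Kbar M p) (alpha1 Kbar M p) := by
  have hF := exists_coord_F1L M
  have hF' := exists_coord_F1pL M p hpM
  haveI := finiteDimensional_F1pL M p hpM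
  haveI hP : HasPrincipalDivisors Kbar (F1pL Kbar M p) :=
    Fermat.Agent.Lib.RR.H864.hasPrincipalDivisors (jpL M p) (transcendental_jpL M p)
  have hfinα := Fermat.Agent.S29.H812.finiteAlong hF hF' (alpha1 Kbar M p)
  have hfinβ := Fermat.Agent.S29.H812.finiteAlong hF hF' (beta1 Kbar M p)
  exact ⟨Fermat.Agent.S29.H812.isIntegral_of_finiteAlong hfinβ,
    Fermat.Agent.S29.H812.isIntegral_of_finiteAlong hfinα, hP, hfinα,
    Fermat.Agent.S29.H812.fundamentalIdentityAlong hF _ hfinβ _,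
    Fermat.Agent.S29.H812.normFormulaAlong hF _ hfinα⟩

include hpM in
/-- the same for the transposed correspondence `β_* α^*` -/
theorem corrInputs_of_coprime' : CorrInputs (alpha1 Kbar M p) (beta1 Kbar M p) := by
  have hF := exists_coord_F1L M
  have hF' := exists_coord_F1pL M p hpM
  haveI := finiteDimensional_F1pL M p hpM
  haveI hP : HasPrincipalDivisors Kbar (F1pL Kbar M p) :=
    Fermat.Agent.Lib.RR.H864.hasPrincipalDivisors (jpL M p) (transcendental_jpL M p)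
  have hfinα := Fermat.Agent.S29.H812.finiteAlong hF hF' (alpha1 Kbar M p)
  have hfinβ := Fermat.Agent.S29.H812.finiteAlong hF hF' (beta1 Kbar M p)
  exact ⟨Fermat.Agent.S29.H812.isIntegral_of_finiteAlong hfinα,
    Fermat.Agent.S29.H812.isIntegral_of_finiteAlong hfinβ, hP, hfinβ,
    Fermat.Agent.S29.H812.fundamentalIdentityAlong hF _ hfinα _,
    Fermat.Agent.S29.H812.normFormulaAlong hF _ hfinβ⟩

include hpM in
/-- **DEG**: `[ℚ̄·F1p M p : α(ℚ̄·F1 M)] ≤ p + 1`. -/
theorem finrankAlong_alpha1_le_of_coprime (hp : p.Prime) :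
    finrankAlong Kbar (alpha1 Kbar M p) ≤ p + 1 := by
  letI := algebraAlong (alpha1 Kbar M p)
  haveI := isScalarTower_along (alpha1 Kbar M p)
  have h1 := Fermat.Agent.S29.H812.finrank_adjoin_algebraMap (K := Kbar) (F := F1L Kbar M)
    (F' := F1pL Kbar M p) (jL M)
  have h2 : algebraMap (F1L Kbar M) (F1pL Kbar M p) (jL M) = jpL M p := alpha1_jL M p
  rw [h2, finrank_F1pL M p hpM, finrank_F1L M] at h1
  have h3 := card_XG_inf_le (pmGamma1 M) p
  rw [dedekindPsi_prime_raise hp, h1] at h3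
  have hpos : 0 < Nat.card (XG (pmGamma1 M)) := Nat.card_pos
  exact Nat.le_of_mul_le_mul_left h3 hpos

end Consequences

/-! ### The node statements, in the shape of the consumers -/

/-- **HI1** (`= H136.HI1Statement`, verbatim). -/
theorem hi1 : ∀ (M p : ℕ) [NeZero p], M ≠ 0 → p.Prime → ¬ p ∣ M →
    CorrInputs (beta1 (AlgebraicClosure ℚ) M p) (alpha1 (AlgebraicClosure ℚ) M p) := by
  intro M p _ hM hp hpM
  haveI : NeZero M := ⟨hM⟩
  haveI : NeZero (M * p) := ⟨Nat.mul_ne_zero hM hp.ne_zero⟩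
  exact corrInputs_of_coprime M p ((Nat.Prime.coprime_iff_not_dvd hp).mpr hpM)

/-- **HI1ᵀ**: the inputs of the transposed correspondence. -/
theorem hi1T : ∀ (M p : ℕ) [NeZero p], M ≠ 0 → p.Prime → ¬ p ∣ M →
    CorrInputs (alpha1 (AlgebraicClosure ℚ) M p) (beta1 (AlgebraicClosure ℚ) M p) := by
  intro M p _ hM hp hpM
  haveI : NeZero M := ⟨hM⟩
  haveI : NeZero (M * p) := ⟨Nat.mul_ne_zero hM hp.ne_zero⟩
  exact corrInputs_of_coprime' M p ((Nat.Prime.coprime_iff_not_dvd hp).mpr hpM)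

/-- **DEG** (`hdeg` of `H428.normIdG_of_embeddings_jq`). -/
theorem finrankAlong_alpha1_le : ∀ (M p : ℕ) [NeZero p], M ≠ 0 → p.Prime → ¬ p ∣ M →
    finrankAlong (AlgebraicClosure ℚ) (alpha1 (AlgebraicClosure ℚ) M p) ≤ p + 1 := by
  intro M p _ hM hp hpM
  haveI : NeZero M := ⟨hM⟩
  haveI : NeZero (M * p) := ⟨Nat.mul_ne_zero hM hp.ne_zero⟩
  exact finrankAlong_alpha1_le_of_coprime M p ((Nat.Prime.coprime_iff_not_dvd hp).mpr hpM) hp

/-- **FIN**: `FiniteAlong` for `α` and `β`. -/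
theorem finiteAlong_alpha1_beta1 : ∀ (M p : ℕ) [NeZero p], M ≠ 0 → p.Prime → ¬ p ∣ M →
    FiniteAlong (AlgebraicClosure ℚ) (alpha1 (AlgebraicClosure ℚ) M p) ∧
      FiniteAlong (AlgebraicClosure ℚ) (beta1 (AlgebraicClosure ℚ) M p) := by
  intro M p _ hM hp hpM
  haveI : NeZero M := ⟨hM⟩
  haveI : NeZero (M * p) := ⟨Nat.mul_ne_zero hM hp.ne_zero⟩
  have hc := (Nat.Prime.coprime_iff_not_dvd hp).mpr hpM
  exact ⟨Fermat.Agent.S29.H812.finiteAlong (exists_coord_F1L M) (exists_coord_F1pL M p hc) _,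
    Fermat.Agent.S29.H812.finiteAlong (exists_coord_F1L M) (exists_coord_F1pL M p hc) _⟩

end Fermat.Agent.S48.F1

end
end
-- ===== PACK-END S48/F1/RaiseF1.lean

-- ===== PACK-BEGIN S48/F1/DegAlpha.lean
section




/-!
# S48 / Tower A1, node A1-FF (helper168) — the degree of `α` is EXACTLY `p + 1`

`degAlpha1 : Kum.DegAlpha1 M p` (N3 of `Kum/Norm1.lean`, VERBATIM) for every prime `p ∤ M`:

* `≤ p + 1` : `F1.finrankAlong_alpha1_le_of_coprime` (tower law for the two generic packages and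
  `[SL₂(ℤ) : Γ₀(p)] = p + 1`);
* `≥ p + 1` : the `p + 1` elements `rep1γ x ∈ Γ₁(M)` (helper548) are pairwise inequivalent modulo
  `Γ₀(p)`, so `[±Γ₁(M) : ±Γ₁(M) ∩ Γ₀(p)] ≥ p + 1`.
-/

set_option autoImplicit false
set_option linter.style.haveILetI false
set_option linter.unusedSectionVars false

noncomputable section

open ModularCurve HahnSeries UpperHalfPlane AlgebraicCurve IntermediateField CongruenceSubgroup
open scoped MatrixGroups

namespace Fermat.Agent.S48.F1

open Fermat.Agent.S24 Fermat.Agent.S24.H997 Fermat.Agent.S48.H332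

/-- `p + 1 ≤ [Γ : Γ ∩ Γ₀(p)]` as soon as `Γ` contains `p + 1` elements which are pairwise
inequivalent modulo `Γ₀(p)`. -/
theorem le_relIndex_of_reps {Γ Γ' : Subgroup SL(2, ℤ)} [Γ'.FiniteIndex] {ι : Type*} [Finite ι]
    (gam : ι → SL(2, ℤ)) (hmem : ∀ x, gam x ∈ Γ)
    (hinj : ∀ x y, gam x * (gam y)⁻¹ ∈ Γ' → x = y) :
    Nat.card ι ≤ Γ'.relIndex Γ := by
  haveI : (Γ'.subgroupOf Γ).FiniteIndex := inferInstance
  haveI : Finite (Γ ⧸ Γ'.subgroupOf Γ) := Subgroup.finite_quotient_of_finiteIndex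
  refine Nat.card_le_card_of_injective
    (fun x => ((⟨(gam x)⁻¹, Γ.inv_mem (hmem x)⟩ : Γ) : Γ ⧸ Γ'.subgroupOf Γ)) ?_
  intro x y hxy
  rw [QuotientGroup.eq] at hxy
  apply hinj x y
  have h : ((⟨(gam x)⁻¹, Γ.inv_mem (hmem x)⟩ : Γ)⁻¹ * ⟨(gam y)⁻¹, Γ.inv_mem (hmem y)⟩ : Γ)
      ∈ Γ'.subgroupOf Γ := hxy
  rw [Subgroup.mem_subgroupOf] at h
  simpa using h

section

variable (M : ℕ) [NeZero M] (p : ℕ) [Fact p.Prime]

theorem card_onePoint_zmod : Nat.card (OnePoint (ZMod p)) = p + 1 := by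
  haveI : NeZero p := ⟨(Fact.out : p.Prime).ne_zero⟩
  show Nat.card (Option (ZMod p)) = p + 1
  rw [Nat.card_eq_fintype_card, Fintype.card_option, ZMod.card]

/-- `[±Γ₁(M) : ±Γ₁(M) ∩ Γ₀(p)] ≥ p + 1`. -/
theorem le_relIndex_pmGamma1 (hpM : ¬ p ∣ M) :
    p + 1 ≤ (Gamma0 p).relIndex (pmGamma1 M) := by
  haveI : NeZero p := ⟨(Fact.out : p.Prime).ne_zero⟩
  haveI := finite_XG_Gamma0 p
  haveI : (Gamma0 p).FiniteIndex := Subgroup.finiteIndex_of_finite_quotient
  have h := le_relIndex_of_reps (Γ := pmGamma1 M) (Γ' := Gamma0 p)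
    (fun x : OnePoint (ZMod p) => Fermat.Agent.S48.H548.rep1γ hpM x)
    (fun x => Gamma1_le_pmGamma1 M (Fermat.Agent.S48.H548.rep1γ_mem hpM x))
    (fun x y hxy => Fermat.Agent.S48.H548.rep1γ_injective hpM hxy)
  rwa [card_onePoint_zmod] at h

/-- **N3 = `Kum.DegAlpha1`, VERBATIM**: `[ℚ̄·F₁(M;p) : ℚ̄·F₁(M)] = p + 1` along `α`. -/
theorem degAlpha1 (hpM : ¬ p ∣ M) :
    haveI : NeZero p := ⟨(Fact.out : p.Prime).ne_zero⟩
    Fermat.Agent.S48.Kum.DegAlpha1 M p := by
  haveI : NeZero p := ⟨(Fact.out : p.Prime).ne_zero⟩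
  have hp : p.Prime := Fact.out
  haveI : NeZero (M * p) := ⟨Nat.mul_ne_zero (NeZero.ne M) hp.ne_zero⟩
  have hc : Nat.Coprime p M := (Nat.Prime.coprime_iff_not_dvd hp).mpr hpM
  have hle := finrankAlong_alpha1_le_of_coprime M p hc hp
  show (letI := algebraAlong (alpha1 (AlgebraicClosure ℚ) M p);
    Module.finrank (F1Bar M) (F1pL (AlgebraicClosure ℚ) M p)) = p + 1
  refine le_antisymm hle ?_
  -- the lower bound
  letI := algebraAlong (alpha1 Kbar M p)
  haveI := isScalarTower_along (alpha1 Kbar M p)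
  have h1 := Fermat.Agent.S29.H812.finrank_adjoin_algebraMap (K := Kbar) (F := F1L Kbar M)
    (F' := F1pL Kbar M p) (jL M)
  have h2 : algebraMap (F1L Kbar M) (F1pL Kbar M p) (jL M) = jpL M p := alpha1_jL M p
  rw [h2, finrank_F1pL M p hc, finrank_F1L M] at h1
  -- `card (XG (Γ ⊓ Γ₀)) = relIndex * card (XG Γ)`
  have h3 : (pmGamma1 M ⊓ Gamma0 p).relIndex (pmGamma1 M) * (pmGamma1 M).index
      = (pmGamma1 M ⊓ Gamma0 p).index := Subgroup.relIndex_mul_index inf_le_left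
  rw [Subgroup.inf_relIndex_left] at h3
  have h4 : Nat.card (XG (pmGamma1 M ⊓ Gamma0 p)) = (pmGamma1 M ⊓ Gamma0 p).index := rfl
  have h5 : Nat.card (XG (pmGamma1 M)) = (pmGamma1 M).index := rfl
  rw [h4, h5, ← h3, mul_comm] at h1
  have hpos : 0 < (pmGamma1 M).index := by
    rw [← h5]; exact Nat.card_pos
  have h6 := Nat.eq_of_mul_eq_mul_left hpos h1
  show p + 1 ≤ Module.finrank (F1L Kbar M) (F1pL Kbar M p)
  rw [← h6]
  exact le_relIndex_pmGamma1 M p hpM

end

end Fermat.Agent.S48.F1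

end
end
-- ===== PACK-END S48/F1/DegAlpha.lean

-- ===== PACK-BEGIN S48/Top/ResultOfCore.lean
section







/-!
# Row S48 (Deligne–Serre): the frozen statement from `Core1Top` ALONE (helper948)

State of Tower A1 at 2026-09-27 21:00Z: the sub-tower A1-KUM is CLOSED (`m4b1_closed`), and on
the Eichler–Shimura side only the Kummer core `H556.Core1Top` (sub-tower A1-RED) is open.

* `normId1_closed : H136.NormId1Statement`   (`H428.normId1_of_deg` + `F1.finrankAlong_alpha1_le`);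
* `m4b1_closed    : Res.M4b1Statement`       (`k3` = `H282.pieceK3_Gamma1`,
                                              `norm` = `Kum.normAn1_of_deg` + `F1.degAlpha1`);
* `rawES1_of_core : H556.Core1Top → Res.RawES1Statement true`;
* `result_of_core : H556.Core1Top → S48Statement`.
-/

set_option autoImplicit false

open CongruenceSubgroup

namespace Fermat.Agent.S48.Top

open Fermat.Agent.S48

/-- **NORMID1**, unconditional. -/
theorem normId1_closed : H136.NormId1Statement :=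
  H428.normId1_of_deg F1.finrankAlong_alpha1_le

/-- **Sub-tower A1-KUM**, unconditional: the Kummer map of `Γ₁(M)`. -/
theorem m4b1_closed : Res.M4b1Statement :=
  m4b1_of_open (fun M _ ℓ hℓ => H282.pieceK3_Gamma1 M ℓ hℓ)
    (fun M _ _ _ hpM => Kum.normAn1_of_deg hpM (H149.dictMero1 M) (F1.degAlpha1 M _ hpM))

/-- Raw Eichler–Shimura on `J₁(M)[ℓ]` from the Kummer core. -/
theorem rawES1_of_core (hcore : H556.Core1Top) : Res.RawES1Statement true :=
  rawES1_of_open hcore normId1_closed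

/-- **Row S48 from `Core1Top`.** -/
theorem result_of_core (hcore : H556.Core1Top) : S48Statement :=
  result_of_two (rawES1_of_core hcore) m4b1_closed

end Fermat.Agent.S48.Top

end
-- ===== PACK-END S48/Top/ResultOfCore.lean

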